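import Fermat.Agent.OrdinaryP.Line
import Fermat.Agent.Reduction.Specialisation
import Fermat.Agent.TW.DetCyclotomic
import Fermat.Agent.S22

/-!
# Good ordinary forms at `p` (local–global compatibility at `p`)

Needed at the stages before the flip at `p`: the quotient character of `ρ|D_p` is the unramified
character taking Frobenius to the unit root of `X² - a_p X + p`.
-/

set_option autoImplicit false

noncomputable section

open Polynomial IsLocalRing
open scoped Pointwise

namespace Fermat.Agent.Root.Patched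

local notation "ℚbar" => AlgebraicClosure ℚ
local notation "Γ" => AlgebraicClosure ℚ ≃ₐ[ℚ] AlgebraicClosure ℚ

open Fermat.Agent.Hecke Fermat.Agent.GalRep

/-- The character of the Hecke algebra of an eigenform with values in its coefficient ring. -/
theorem exists_coeffCharacter (M : ℕ) [NeZero M]
    (f : CuspForm (CongruenceSubgroup.Gamma0 M) 2) (hf : f.IsNormalizedEigenform)
    (a : ℕ → integralClosure ℤ ℂ) (ha : ∀ n, (a n : ℂ) = ModularFormClass.qCoeff f n) :
    ∃ κ : CuspForm.heckeAlgebra M 2 ∅ →+* Subring.closure (Set.range a),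
      ∀ q : Nat.Primes, κ (heckeOp M q) = ⟨a q, Subring.subset_closure ⟨q, rfl⟩⟩ := by
  set S := Subring.closure (Set.range a)
  have hmem : ∀ t : CuspForm.heckeAlgebra M 2 ∅, ∃ x : S,
      ((x : integralClosure ℤ ℂ) : ℂ) = eigenCharacter hf ∅ t := by
    rintro ⟨u, hu⟩
    have hu0 := hu
    induction hu using Algebra.adjoin_induction with
    | mem x hx =>
      rcases hx with ⟨ℓ, hℓ, hℓM, hℓS, rfl⟩ | ⟨q, hqM, hq, hqS, rfl⟩
      · exact ⟨⟨a ℓ, Subring.subset_closure ⟨ℓ, rfl⟩⟩,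
          (ha ℓ).trans (eigenCharacter_T hf hℓ hℓM hℓS).symm⟩
      · exact ⟨⟨a q, Subring.subset_closure ⟨q, rfl⟩⟩,
          (ha q).trans (eigenCharacter_U hf hq hqM hqS).symm⟩
    | algebraMap r =>
      refine ⟨(r : S), ?_⟩
      have h : (⟨_, hu0⟩ : CuspForm.heckeAlgebra M 2 ∅) = (r : CuspForm.heckeAlgebra M 2 ∅) :=
        Subtype.ext (by simp)
      rw [h, map_intCast]
      simp
    | add x y hx hy ihx ihy =>
      obtain ⟨z, hz⟩ := ihx hx
      obtain ⟨w, hw⟩ := ihy hy
      refine ⟨z + w, ?_⟩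
      rw [show (⟨x + y, hu0⟩ : CuspForm.heckeAlgebra M 2 ∅) = ⟨x, hx⟩ + ⟨y, hy⟩ from rfl,
        map_add, ← hz, ← hw]
      rfl
    | mul x y hx hy ihx ihy =>
      obtain ⟨z, hz⟩ := ihx hx
      obtain ⟨w, hw⟩ := ihy hy
      refine ⟨z * w, ?_⟩
      rw [show (⟨x * y, hu0⟩ : CuspForm.heckeAlgebra M 2 ∅) = ⟨x, hx⟩ * ⟨y, hy⟩ from rfl,
        map_mul, ← hz, ← hw]
      rfl
  choose g hg using hmem
  let ι : S →+* ℂ := (Subalgebra.val (integralClosure ℤ ℂ)).toRingHom.comp S.subtype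
  have hι : Function.Injective ι := Subtype.val_injective.comp Subtype.val_injective
  refine ⟨{ toFun := g
            map_one' := hι ((hg 1).trans ((map_one _).trans (map_one ι).symm))
            map_zero' := hι ((hg 0).trans ((map_zero _).trans (map_zero ι).symm))
            map_mul' := fun x y => hι (by
              rw [map_mul]; exact (hg _).trans ((map_mul _ x y).trans
                (congrArg₂ (· * ·) (hg x).symm (hg y).symm)))
            map_add' := fun x y => hι (by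
              rw [map_add]; exact (hg _).trans ((map_add _ x y).trans
                (congrArg₂ (· + ·) (hg x).symm (hg y).symm))) }, fun q => hι ?_⟩
  refine (hg _).trans (Eq.trans ?_ (ha q).symm)
  unfold heckeOp
  split
  · exact eigenCharacter_U hf q.2 ‹_› (Set.notMem_empty _)
  · exact eigenCharacter_T hf q.2 ‹_› (Set.notMem_empty _)

/-- An eigenform of level prime to `p` with unit `a_p` has an attached representation whose
restriction to a decomposition group at `p` is `(det · s⁻¹, * ; 0, s)` with `s` unramified and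
`s (Frob_p)` the unit root. -/
theorem exists_attached_ordinary (M : ℕ) [NeZero M]
    (f : CuspForm (CongruenceSubgroup.Gamma0 M) 2) (hf : f.IsNormalizedEigenform)
    (a : ℕ → integralClosure ℤ ℂ) (ha : ∀ n, (a n : ℂ) = ModularFormClass.qCoeff f n) (p : ℕ)
    [Fact p.Prime] (hp2 : p ≠ 2) (hpM : ¬ p ∣ M)
    (O₀ : Type) [CommRing O₀] [IsDomain O₀] [IsDiscreteValuationRing O₀]
    [IsAdicComplete (maximalIdeal O₀) O₀] [Finite (ResidueField O₀)] [CharZero O₀]
    (hp : (p : O₀) ∈ maximalIdeal O₀) (φ : Subring.closure (Set.range a) →+* O₀)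
    (hunit : IsUnit (φ ⟨a p, Subring.subset_closure ⟨p, rfl⟩⟩)) :
    ∃ (O : Type) (_ : CommRing O) (_ : IsDomain O) (_ : IsDiscreteValuationRing O)
      (_ : IsAdicComplete (maximalIdeal O) O) (_ : Finite (ResidueField O)) (_ : CharZero O)
      (j : O₀ →+* O), Function.Injective j ∧ IsLocalHom j ∧
        ∃ ρ : GaloisRepAdic O, ρ.DetIsCyclotomic p ∧
          (∀ ℓ : ℕ, ℓ.Prime → ¬ ℓ ∣ M * p → ∀ A : ValuationSubring ℚbar, A.LiesOverPrime ℓ →
            ∀ σ : Γ, A.IsFrobeniusAt σ ℓ → LinearMap.charpoly (ρ.ρ σ) =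
              X ^ 2 - C (j (φ ⟨a ℓ, Subring.subset_closure ⟨ℓ, rfl⟩⟩)) * X + C (ℓ : O)) ∧
          ∃ α : O, IsUnit α ∧
            α ^ 2 - j (φ ⟨a p, Subring.subset_closure ⟨p, rfl⟩⟩) * α + (p : O) = 0 ∧
            ∀ A : ValuationSubring ℚbar, A.LiesOverPrime p →
              ∃ s : A.decompositionSubgroup ℚ →* O,
                (∀ g : A.decompositionSubgroup ℚ, (g : Γ) ∈ A.inertiaSubgroupIn ℚ → s g = 1) ∧
                (∀ g : A.decompositionSubgroup ℚ, A.IsFrobeniusAt (g : Γ) p → s g = α) ∧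
                ∀ g h : A.decompositionSubgroup ℚ,
                  (ρ.ρ g - (LinearMap.det (ρ.ρ g) * s g⁻¹) • (1 : Module.End O ρ.V)) *
                    (ρ.ρ h - s h • (1 : Module.End O ρ.V)) = 0 := by
  have := Fermat.Agent.S22.result M 2 (∅ : Set ℕ)
  obtain ⟨κ₀, hκ₀⟩ := exists_coeffCharacter M f hf a ha
  set κ := φ.comp κ₀
  have hκ : ∀ q : Nat.Primes,
      κ (heckeOp M q) = φ ⟨a q, Subring.subset_closure ⟨q, rfl⟩⟩ := fun q =>
    congrArg φ (hκ₀ q)
  obtain ⟨E⟩ := OrdinaryP.exists_eigenRep M p (Reduction.torsionReduction M p) hp κ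
  have hcp : ∀ ℓ : ℕ, ℓ.Prime → ¬ ℓ ∣ M * p → ∀ A : ValuationSubring ℚbar, A.LiesOverPrime ℓ →
      ∀ σ : Γ, A.IsFrobeniusAt σ ℓ → LinearMap.det ((repOfMatrix E.R E.continuous).ρ σ) = (ℓ : O₀)
      := fun ℓ hℓ hℓMp A hA σ hσ => by
    show LinearMap.det (Matrix.toLin' (E.R σ)) = _
    rw [LinearMap.det_toLin', E.det_eq, cycl_frobenius p hℓ
      (fun h => hℓMp (h ▸ dvd_mul_left p M)) hA hσ, map_natCast]
  set b := φ ⟨a p, Subring.subset_closure ⟨p, rfl⟩⟩
  obtain ⟨α, hα, hαb⟩ := OrdinaryP.exists_root_quadratic (t := b) (d := (p : O₀)) (x := b)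
    (by rw [show b ^ 2 - b * b + (p : O₀) = p by ring]; exact hp)
    (by rwa [show 2 * b - b = b by ring])
  have hαu : IsUnit α := by
    by_contra hα'
    exact (mem_maximalIdeal _).mp (by
      have := sub_mem (show α ∈ maximalIdeal O₀ from (mem_maximalIdeal _).mpr hα') hαb
      rwa [sub_sub_cancel] at this) hunit
  refine ⟨O₀, inferInstance, inferInstance, inferInstance, inferInstance, inferInstance,
    inferInstance, RingHom.id O₀, fun _ _ h => h, ⟨fun _ h => h⟩, repOfMatrix E.R E.continuous,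
    TW.detIsCyclotomic_of_frobenius _ Fact.out hp (M * p).primeFactors fun ℓ hℓ hℓS =>
      hcp ℓ hℓ fun h => hℓS (Nat.mem_primeFactors.mpr
        ⟨hℓ, h, mul_ne_zero (NeZero.ne M) (Fact.out : p.Prime).ne_zero⟩),
    fun ℓ hℓ hℓMp A hA σ hσ => ?_, α, hαu, by simpa using hα, fun A hA => ?_⟩
  · rw [repOfMatrix_charpoly, Matrix.charpoly_fin_two,
      E.trace_frobenius ℓ hℓ hℓMp A hA σ hσ, E.det_eq,
      cycl_frobenius p hℓ (fun h => hℓMp (h ▸ dvd_mul_left p M)) hA hσ, map_natCast, hκ]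
    rfl
  -- inertia acting by `-1` on the roots of unity
  have : NeZero p := ⟨(Fact.out : p.Prime).ne_zero⟩
  obtain ⟨σ, hσ, hσc⟩ := ClassField.exists_inertia_cycloChar_eq p hA (-1 : (ZMod p)ˣ)
  have hc : ∀ μ : ℚbar, μ ^ p = 1 → σ μ = μ ^ (p - 1) := by
    intro μ hμ
    obtain ⟨i, -, rfl⟩ := (ClassField.rootQ_spec p).eq_pow_of_pow_eq_one hμ
    rw [map_pow, ← ClassField.cycloChar_spec, hσc, Units.val_neg, Units.val_one, ZMod.neg_val,
      if_neg one_ne_zero, ZMod.val_one, ← pow_mul, ← pow_mul, mul_comm]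
  have hmem : ∀ z w : O₀, IsUnit z → w - z ∈ maximalIdeal O₀ → IsUnit w := fun z w hz hw => by
    by_contra hw'
    have := sub_mem (show w ∈ maximalIdeal O₀ from (mem_maximalIdeal _).mpr hw') hw
    rw [sub_sub_cancel] at this
    exact (mem_maximalIdeal _).mp this hz
  have hp1 : ((p - 1 : ℕ) : O₀) - (-1) ∈ maximalIdeal O₀ := by
    rw [sub_neg_eq_add, show ((p - 1 : ℕ) : O₀) + 1 = ((p - 1 + 1 : ℕ) : O₀) from
      (Nat.cast_succ _).symm, Nat.sub_add_cancel (Fact.out : p.Prime).one_le]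
    exact hp
  have h2 : IsUnit (2 : O₀) := by
    by_contra h2
    obtain ⟨m, hm⟩ := (Fact.out : p.Prime).odd_of_ne_two hp2
    have hp' : (2 : O₀) * (m : O₀) + 1 ∈ maximalIdeal O₀ := by
      have := hp
      rw [hm] at this
      push_cast at this
      exact this
    have := sub_mem hp' (Ideal.mul_mem_right (m : O₀) _ ((mem_maximalIdeal _).mpr h2))
    rw [add_sub_cancel_left] at this
    exact (mem_maximalIdeal _).mp this isUnit_one
  have hdet : (E.R σ).det - ((p - 1 : ℕ) : O₀) ∈ maximalIdeal O₀ := by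
    rw [E.det_eq, ← map_natCast (padicHom p O₀ hp), ← map_sub]
    have h := padicHom_mem_pow p O₀ hp (n := 1) (x := cycl p σ - ((p - 1 : ℕ) : ℤ_[p])) (by
      rw [map_sub, map_natCast, toZModPow_cycl p σ 1 (p - 1) (by simpa using hc), sub_self])
    rwa [pow_one] at h
  have hu : IsUnit (κ (heckeOp M ⟨p, Fact.out⟩)) := by rw [hκ]; exact hunit
  obtain ⟨s, hsI, hsF, hs⟩ := OrdinaryP.exists_char (A.decompositionSubgroup ℚ)
    (A.inertiaSubgroupIn ℚ)
    (fun g hg τ hτ => by
      have h := (Gal.mem_inertia_smul_iff g τ A).mpr hτ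
      rwa [MulAction.mem_stabilizer_iff.mp hg] at h)
    E.R (fun φ' => A.IsFrobeniusAt φ' p) (a := b) (b := (p : O₀)) hσ (c := p - 1)
    (hmem (-1) _ isUnit_one.neg hp1)
    (hmem 2 _ h2 (by
      rw [show (1 : O₀) - ((p - 1 : ℕ) : O₀) - 2 = -(((p - 1 : ℕ) : O₀) - (-1)) by ring]
      exact neg_mem hp1))
    hdet (fun τ hτ n => (E.ordinary hA M hpM hu hσ hc n).1 τ hτ)
    (fun φ' hφ n => by
      have h := (E.ordinary hA M hpM hu hσ hc n).2 φ' hφ
      rwa [hκ] at h)
  refine ⟨s, hsI, fun g hg => ?_, fun g h => ?_⟩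
  · exact OrdinaryP.unit_root_unique hp (hsF g hg).1 hαu (hsF g hg).2 hα
  · have hgh := congrArg (Matrix.toLinAlgEquiv' (R := O₀) (n := Fin 2)) (hs g h)
    rw [map_mul, map_sub, map_sub, map_smul, map_smul, map_one, map_zero] at hgh
    rw [show LinearMap.det ((repOfMatrix E.R E.continuous).ρ g) = (E.R g).det from
      LinearMap.det_toLin' (E.R g)]
    exact hgh

end Fermat.Agent.Root.Patched
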