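import Fermat.Agent.Root.Patched.Family
import Fermat.Agent.LocalRing.Rings
import Fermat.Agent.Deformation.MatrixRep
import Fermat.Prelude.Def_GaloisRep_Flat

/-!
# Local models, definitions

A local model at a place is a finite family of coordinates of a global lift, functorial in the
coefficient ring, which on rings with `𝔪² = 0` determines the restriction to the decomposition
group.  The relations of each type are stated on the coordinates.
-/

set_option autoImplicit false

noncomputable section

open IsLocalRing Polynomial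

namespace Fermat.Agent.Root.Patched

open Fermat.Agent.Deformation Fermat.Agent.LocalRing

local notation "ℚbar" => AlgebraicClosure ℚ

variable (O : Type) [CommRing O] [IsLocalRing O]

/-- A coefficient ring over `O` with the same residue field. -/
structure TestRing where
  R : CompleteRing
  alg : O →+* R
  red : R →+* ResidueField O
  red_alg : ∀ a, red (alg a) = residue O a
  ker_red : ∀ x, red x = 0 ↔ x ∈ maximalIdeal R

variable {O}

/-- The maximal ideal squares to zero: tangent vectors. -/
def TestRing.IsTangent (S : TestRing O) : Prop :=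
  maximalIdeal S.R ^ 2 = ⊥

/-- A continuous lift of `ρbar`. -/
structure Lift (ρbar : GQ →* M2 (ResidueField O)) (S : TestRing O) where
  M : GQ →* M2 S.R
  cont : MatCont M
  reduces : ∀ σ, (M σ).map S.red = ρbar σ

variable {ρbar : GQ →* M2 (ResidueField O)}

/-- Functorial coordinates of lifts satisfying `cond` which determine tangent vectors on the
decomposition group of `P`. -/
structure Coords (ρbar : GQ →* M2 (ResidueField O)) (P : ValuationSubring ℚbar) (σ : Type)
    (cond : ∀ S : TestRing O, Lift ρbar S → Prop) where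
  val : ∀ S : TestRing O, Lift ρbar S → σ → S.R
  mem : ∀ S r, cond S r → ∀ i, val S r i ∈ maximalIdeal S.R
  natural : ∀ (S S' : TestRing O) (φ : S.R →+* S'.R), φ.comp S.alg = S'.alg →
    S'.red.comp φ = S.red → ∀ (r : Lift ρbar S) (r' : Lift ρbar S'),
      (∀ g, r'.M g = (r.M g).map φ) → cond S r → ∀ i, val S' r' i = φ (val S r i)
  determine : ∀ S : TestRing O, S.IsTangent → ∀ r r' : Lift ρbar S, cond S r → cond S r' →
    val S r = val S r' → ∀ g ∈ P.decompositionSubgroup ℚ, r.M g = r'.M g

/-- `det` is the `p`-adic cyclotomic character. -/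
def DetCyclotomic (p : ℕ) (S : TestRing O) (r : Lift ρbar S) : Prop :=
  ∀ (n : ℕ) (σ : GQ) (a : ℕ), (∀ μ : ℚbar, μ ^ p ^ n = 1 → σ μ = μ ^ a) →
    (r.M σ).det - (a : S.R) ∈ Ideal.span {((p ^ n : ℕ) : S.R)}

/-- Inertia has characteristic polynomial `(X - 1)²`. -/
def Unipotent (P : ValuationSubring ℚbar) (S : TestRing O) (r : Lift ρbar S) : Prop :=
  ∀ σ ∈ P.inertiaSubgroupIn ℚ, (r.M σ).charpoly = (X - 1) ^ 2

/-- The tame generator `τ` has eigenvalues `ζ, ζi`. -/
def CharInertia (τ : GQ) (ζ ζi : O) (S : TestRing O) (r : Lift ρbar S) : Prop :=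
  (r.M τ).charpoly = (X - C (S.alg ζ)) * (X - C (S.alg ζi))

/-- The unramified character `s` cuts out a stable line:
`(r g - det (r g) s(g⁻¹)) (r h - s h) = 0`. -/
def OrdinaryShape (P : ValuationSubring ℚbar) (S : TestRing O) (r : Lift ρbar S)
    (s : P.decompositionSubgroup ℚ →* S.R) : Prop :=
  (∀ g : P.decompositionSubgroup ℚ, (g : GQ) ∈ P.inertiaSubgroupIn ℚ → s g = 1) ∧
    ∀ g h : P.decompositionSubgroup ℚ,
      (r.M g - ((r.M g).det * s g⁻¹) • (1 : M2 S.R)) * (r.M h - s h • (1 : M2 S.R)) = 0

/-- Steinberg: the quotient character is the quadratic lift of `s̄`. -/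
def SteinbergShape (P : ValuationSubring ℚbar) (S : TestRing O) (r : Lift ρbar S) : Prop :=
  ∃ s, OrdinaryShape P S r s ∧ ∀ g, s g * s g = 1

/-- Flat at `p`. -/
def FlatShape (p : ℕ) (S : TestRing O) (r : Lift ρbar S) : Prop :=
  (Deformation.ofMatrix r.M r.cont).IsFlatAt p

end Fermat.Agent.Root.Patched
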