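import Fermat.Agent.Root.Patched.TowerResidual
import Fermat.Agent.Root.Patched.OrdinaryAtP
import Fermat.Agent.IharaTW.Twin
import Fermat.Agent.TW.Eigen
import Fermat.Agent.OrdinaryP.S33.Residual
import Fermat.Agent.Root.Attached
import Fermat.Agent.GalRep.Residual
import Fermat.Agent.GalRep.CoeffRing
import Fermat.Agent.Newform.BadCoeff
import Fermat.Agent.OrdinaryP.Shape

/-!
# Descent of a residual eigensystem to trivial character

A residual eigensystem of `Γ_H` with `H` of `p`-power index comes from the top group, hence from a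
residual newform of `W`, whose level avoids the primes `q ≡ 1` with distinct Frobenius eigenvalues.
-/

set_option autoImplicit false

noncomputable section

open IsLocalRing Polynomial

namespace Fermat.Agent.Root.Patched

open Fermat.Agent.Deformation Fermat.Agent.GammaH Fermat.Agent.TW Fermat.Agent.IharaTW
  Fermat.Agent.TW.GroupRing CongruenceSubgroup
open ModularFormClass (qCoeff)
open scoped MatrixGroups

local notation "ℚbar" => AlgebraicClosure ℚ
local notation "Zbar" => integralClosure ℤ ℂ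

variable {O : Type} [CommRing O] [IsDomain O] [IsDiscreteValuationRing O]
  [IsAdicComplete (maximalIdeal O) O] [Finite (ResidueField O)] [CharZero O]
  {p : ℕ} [Fact p.Prime]

/-! ## To the top group -/

omit [Finite (ResidueField O)] in
/-- **A residual eigensystem comes from the top group** when the index of `H` is a power of `p`. -/
theorem exists_comp_heckeRes_eq {N : ℕ} [NeZero N] {S : Finset ℕ} {H : Subgroup (ZMod N)ˣ}
    (hH : (-1 : (ZMod N)ˣ) ∈ H) (hp : (p : O) ∈ maximalIdeal O)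
    (θ₁ : heckeRing N H (↑S : Set ℕ) →+* ResidueField O) {l : ℕ} (hl : l.Prime) (hlN : ¬ l ∣ N)
    (hlS : l ∉ (↑S : Set ℕ)) (hl1 : (l : ZMod N) = 1)
    (hθl : θ₁ (heckeTR hl hlN hlS) ≠ ((l + 1 : ℕ) : ResidueField O))
    (hpG : IsPGroup p (Dl H (⊤ : Subgroup (ZMod N)ˣ)))
    (hfree : ∀ g ∈ GammaH.GammaH N (⊤ : Subgroup (ZMod N)ˣ), g ^ 12 = 1 →
      g ∈ GammaH.GammaH N H) :
    ∃ θ₂ : heckeRing N (⊤ : Subgroup (ZMod N)ˣ) (↑S : Set ℕ) →+* ResidueField O,
      θ₂.comp (heckeRes le_top) = θ₁ := by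
  classical
  have : NeZero l := ⟨hl.ne_zero⟩
  by_contra hno
  obtain ⟨t, ht, htθ⟩ : ∃ t, heckeRes (le_top : H ≤ ⊤) t = 0 ∧ θ₁ t ≠ 0 := by
    by_contra hcon
    push Not at hcon
    have hker : RingHom.ker (heckeRes (S := (↑S : Set ℕ)) (le_top : H ≤ ⊤)) ≤ RingHom.ker θ₁ :=
      fun t ht => RingHom.mem_ker.2 (hcon t (RingHom.mem_ker.1 ht))
    have hs := heckeRes_surjective (S := (↑S : Set ℕ)) (le_top : H ≤ ⊤)
    exact hno ⟨(heckeRes le_top).liftOfSurjective hs ⟨θ₁, hker⟩,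
      RingHom.liftOfRightInverse_comp _ _ _ ⟨θ₁, hker⟩⟩
  set e := actO hH O (twIdem hH O θ₁) with he
  have hidem : IsIdempotentElem e := (isIdempotentElem_twIdem hH O θ₁).map (actO hH O)
  have hE : ∀ z : HeckeO N H (↑S : Set ℕ) O, Commute e (actO hH O z) := fun z =>
    (Commute.all _ z).map (actO hH O)
  have hec : ∀ b : Dl H (⊤ : Subgroup (ZMod N)ˣ), Commute e (actH1 H ⊤ O O b) := fun b =>
    TW.commute_actH1 (fun a _ => by
      have := hE (HeckeO.ofT O (diamondR a))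
      rwa [HeckeO.ofT_apply, actO_tmul, homAction_diamond, one_smul] at this) b
  have heη : Commute e (etaH O O hl hlN) := by
    rw [← actO_heckeT_sub hH O hl hlN hlS]
    exact hE _
  have hbij : Function.Bijective (etaE hl hlN heη) :=
    bijective_etaE_below hH O θ₁ hl hlN hlS hθl hE hidem.eq hidem heη
  obtain ⟨hfr, -⟩ := free_range hec hidem hl hlN heη hl1 hH le_top hfree hbij hpG hp
  have : Nontrivial (eRep hec).asModule := by
    have : Nontrivial (LinearMap.range e) :=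
      Submodule.nontrivial_iff_ne_bot.2 (twModule_ne_bot hH O θ₁)
    exact (eRep hec).asModuleEquiv.toEquiv.nontrivial
  have : Fintype (Dl H (⊤ : Subgroup (ZMod N)ˣ)) := Fintype.ofFinite _
  let B := Module.Free.chooseBasis (MonoidAlgebra O (Dl H (⊤ : Subgroup (ZMod N)ˣ)))
    (eRep hec).asModule
  obtain ⟨i⟩ := B.index_nonempty
  set v := normElem O (Dl H (⊤ : Subgroup (ZMod N)ˣ)) • B i with hv
  have hv0 : v ≠ 0 := fun h0 => by
    have h1 := congrArg (fun z => (B.repr z i).coeff 1) h0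
    simp [hv, normElem] at h1
  have hfix : v ∈ fixedPts O (Dl H (⊤ : Subgroup (ZMod N)ˣ)) (eRep hec).asModule := fun g => by
    rw [hv, smul_smul, single_mul_normElem]
  obtain ⟨ψ, hψ⟩ := exists_resH1_of_invariant hec hidem hl hlN heη hl1 hH le_top hfree hbij
    ((eRep hec).asModuleEquiv v) ((mem_fixedPts_eRep hec v).1 hfix)
  obtain ⟨w, hw⟩ := exists_mul_eq_twIdem hH O θ₁ (x := HeckeO.ofT O t)
    (by rw [residO_ofT]; exact htθ)
  have h00 : actO hH O (HeckeO.ofT O t) (resH1 O O (le_top : H ≤ ⊤) ψ) = 0 := by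
    refine (resH1_actO hH le_top O (HeckeO.ofT O t) ψ).symm.trans ?_
    rw [resO_ofT, ht, map_zero, map_zero, LinearMap.zero_apply]
    exact map_zero _
  have h0 : e (resH1 O O (le_top : H ≤ ⊤) ψ) = 0 := by
    rw [he, ← hw, map_mul]
    exact (congrArg (actO hH O w) h00).trans (map_zero _)
  refine hv0 ((eRep hec).asModuleEquiv.injective (Subtype.ext ?_))
  rw [← hψ, h0, map_zero]
  rfl

/-! ## Traces from a factorised relation -/

/-- `(f - a)(f - b) = 0` with `a b = det f` gives `trace f = a + b`. -/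
theorem trace_eq_add_of_shape {R : Type} [CommRing R] [IsDomain R] {V : Type} [AddCommGroup V]
    [Module R V] [Module.Free R V] [Module.Finite R V] (hV : Module.finrank R V = 2)
    (f : Module.End R V) {a b : R} (hf : LinearMap.det f ≠ 0) (hab : a * b = LinearMap.det f)
    (h : (f - a • (1 : Module.End R V)) * (f - b • (1 : Module.End R V)) = 0) :
    LinearMap.trace R V f = a + b := by
  have h1 := LinearMap.aeval_self_charpoly f
  rw [Density.charpoly_eq_of_finrank_two hV] at h1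
  simp only [map_add, map_sub, map_mul, map_pow, aeval_X, aeval_C,
    Algebra.algebraMap_eq_smul_one, smul_mul_assoc, one_mul] at h1
  simp only [sub_mul, mul_sub, smul_mul_assoc, mul_smul_comm, one_mul, mul_one, smul_smul,
    smul_sub] at h
  rw [show b * a = LinearMap.det f by rw [mul_comm, hab]] at h
  have h2 : (LinearMap.trace R V f - (a + b)) • f = 0 := by
    rw [pow_two] at h1
    calc (LinearMap.trace R V f - (a + b)) • f
        = (f * f - a • f - (b • f - LinearMap.det f • (1 : Module.End R V))) -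
          (f * f - LinearMap.trace R V f • f + LinearMap.det f • (1 : Module.End R V)) := by
            rw [sub_smul, add_smul]; abel
      _ = 0 := by rw [h, h1, sub_self]
  refine sub_eq_zero.1 ((smul_eq_zero.1 h2).resolve_right fun h0 => hf ?_)
  have : Nontrivial V := Module.nontrivial_of_finrank_pos (R := R) (hV ▸ two_pos)
  rw [h0]
  exact LinearMap.det_zero''

/-- The quotient character of an ordinary shape from traces at `φ` and `φ σ`, `det σ = -1`. -/
theorem two_mul_eq_trace_add {G k : Type} [Group G] [CommRing k] (u : G →* k) (t d : G → k)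
    (φ σ : G) (ht : ∀ g, t g = d g * u g⁻¹ + u g) (hd : d (φ * σ) = -d φ) (hσ : u σ = 1)
    (hσ' : u σ⁻¹ = 1) : 2 * u φ = t φ + t (φ * σ) := by
  rw [ht, ht, hd, mul_inv_rev, map_mul, map_mul, hσ, hσ', one_mul, mul_one]
  ring

variable {W : WeierstrassCurve ℤ}

/-- Invertibility of a representation. -/
theorem det_ne_zero_of_rep {B : Type} [CommRing B] [IsLocalRing B] [IsDomain B]
    (ρ : GaloisRepAdic B) (σ : GQ) : LinearMap.det (ρ.ρ σ) ≠ 0 :=
  (((Group.isUnit σ).map ρ.ρ).map LinearMap.det).ne_zero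

omit [CharZero O] in
/-- The Frobenius polynomial of `ρ₀`. -/
theorem ResidualData.charpoly_ρ₀ (D : ResidualData O p W) {l : ℕ} (hl : l.Prime)
    (hgood : W.IsGoodPrimeFor l) (hlp : l ≠ p) {A : ValuationSubring ℚbar}
    (hA : A.LiesOverPrime l) {σ : GQ} (hσ : A.IsFrobeniusAt σ l) :
    (D.ρ₀ σ).val.charpoly = X ^ 2 - C ((W.apOfModel l : ℤ) : ZMod p) * X + C (l : ZMod p) := by
  refine Polynomial.map_injective D.ι D.ι.injective ?_
  rw [← Matrix.charpoly_map, ← D.ρbar_eq, ← D.mapRep_point]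
  let r : (TestRing.self O).R →+* ResidueField O := residue O
  show ((D.point.M σ).map r).charpoly = _
  rw [Matrix.charpoly_map, (D.point_good l hl hgood hlp A hA).2 σ hσ]
  simp [Polynomial.map_sub, Polynomial.map_add, Polynomial.map_mul, Polynomial.map_pow]

omit [CharZero O] in
/-- A representation with the residual Frobenius polynomials of `W` reduces to `ρ₀`. -/
theorem ResidualData.residue_trace_det (D : ResidualData O p W) {B : Type} [CommRing B]
    [IsLocalRing B] [CharP (ResidueField B) p] (ρ : GaloisRepAdic B) (S : Finset ℕ) (hpS : p ∈ S)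
    (hWS : ∀ q : ℕ, q.Prime → (q : ℤ) ∣ W.Δ → q ∈ S)
    (hfrob : ∀ l : ℕ, l.Prime → l ∉ S → ∀ A : ValuationSubring ℚbar, A.LiesOverPrime l →
      ∀ σ : GQ, A.IsFrobeniusAt σ l → ∃ t : B, residue B t =
        ((W.apOfModel l : ℤ) : ResidueField B) ∧
        LinearMap.charpoly (ρ.ρ σ) = X ^ 2 - C t * X + C (l : B)) (σ : GQ) :
    residue B (LinearMap.trace B ρ.V (ρ.ρ σ)) =
        ZMod.castHom (dvd_refl p) _ (D.ρ₀ σ).val.trace ∧
      residue B (LinearMap.det (ρ.ρ σ)) = ZMod.castHom (dvd_refl p) _ (D.ρ₀ σ).val.det := by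
  set c := ZMod.castHom (dvd_refl p) (ResidueField B)
  set M := mapRep c ((Units.coeHom (M2 (ZMod p))).comp D.ρ₀) with hM
  have hfin : GaloisFactorsThroughFiniteLevel M := by
    obtain ⟨L, hL, h⟩ := D.finite_level
    refine ⟨L, hL, fun τ hτ => ?_⟩
    rw [hM, mapRep_apply, MonoidHom.comp_apply, Units.coeHom_apply, h τ hτ, Units.val_one,
      Matrix.map_one _ (map_zero c) (map_one c)]
  have hR : ∀ τ, LinearMap.charpoly ((residualOfMatrix M hfin).ρ τ) = (M τ).charpoly := fun τ => by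
    obtain ⟨b, hb⟩ := isResMatrixRep_residualOfMatrix M hfin
    rw [← LinearMap.charpoly_toMatrix _ b, hb τ]
  have h := Density.residual_charpoly_eq_of_forall_frobenius ρ.residual (residualOfMatrix M hfin)
    (↑S : Set ℕ) S.finite_toSet (fun l hl hlS A hA τ hτ => by
      have hlS' : l ∉ S := by simpa using hlS
      obtain ⟨t, ht, hchar⟩ := hfrob l hl hlS' A hA τ hτ
      rw [TW.charpoly_residual_apply, hchar, hR, hM, mapRep_apply, MonoidHom.comp_apply,
        Units.coeHom_apply, Matrix.charpoly_map,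
        D.charpoly_ρ₀ hl (fun hd => hlS' (hWS l hl hd)) (fun e => hlS' (e ▸ hpS)) hA hτ]
      simp [Polynomial.map_sub, Polynomial.map_add, Polynomial.map_mul, Polynomial.map_pow, ht]) σ
  rw [TW.charpoly_residual_apply, hR, hM, mapRep_apply, MonoidHom.comp_apply, Units.coeHom_apply,
    Matrix.charpoly_map, Density.charpoly_eq_of_finrank_two ρ.finrank_eq,
    Matrix.charpoly_fin_two] at h
  simp only [Polynomial.map_add, Polynomial.map_sub, Polynomial.map_mul, Polynomial.map_pow,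
    Polynomial.map_X, Polynomial.map_C] at h
  have h0 := congrArg (fun Q : (ResidueField B)[X] => Q.coeff 0) h
  have h1 := congrArg (fun Q : (ResidueField B)[X] => Q.coeff 1) h
  simp [coeff_X_pow] at h0 h1
  exact ⟨h1, h0⟩

omit [CharZero O] in
/-- At a bad `p`: inertia fixing `μ_p` has trace `2`, and for `σ` in inertia with cyclotomic value
`-1` the sum of the traces at `φ` and `φ σ` squares to `4`. -/
theorem ResidualData.traces_at_p (D : ResidualData O p W) (hpΔ : (p : ℤ) ∣ W.Δ)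
    {A : ValuationSubring ℚbar} (hA : A.LiesOverPrime p) :
    (∀ σ ∈ A.inertiaSubgroupIn ℚ, (∀ μ : ℚbar, μ ^ p = 1 → σ μ = μ) →
      (D.ρ₀ σ).val.trace = 2) ∧
    ∀ φ σ : GQ, φ ∈ A.decompositionSubgroup ℚ → σ ∈ A.inertiaSubgroupIn ℚ →
      (∀ μ : ℚbar, μ ^ p = 1 → σ μ = μ ^ (p - 1)) →
      ((D.ρ₀ φ).val.trace + (D.ρ₀ (φ * σ)).val.trace) ^ 2 = 4 := by
  obtain ⟨s, ⟨hsI, hs⟩, hs2⟩ := D.point_bad p Fact.out hpΔ A hA
  let u : A.decompositionSubgroup ℚ →* ResidueField O := (residue O : O →* ResidueField O).comp s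
  have hρ : ∀ g : GQ, (D.ρbar g).trace = D.ι (D.ρ₀ g).val.trace := fun g => by
    rw [D.ρbar_eq]; exact (AddMonoidHom.map_trace D.ι.toAddMonoidHom _).symm
  have hd : ∀ g : GQ, (D.ρbar g).det = D.ι (D.ρ₀ g).val.det := fun g => by
    rw [D.ρbar_eq, ← RingHom.mapMatrix_apply, ← RingHom.map_det]
  have ht : ∀ g : A.decompositionSubgroup ℚ,
      (D.ρbar g).trace = (D.ρbar g).det * u g⁻¹ + u g := fun g => by
    let Mg : Matrix (Fin 2) (Fin 2) O := D.point.M g
    let sg : O := s g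
    let sg' : O := s g⁻¹
    have hf : LinearMap.det (Matrix.toLin' Mg) ≠ 0 := by
      rw [LinearMap.det_toLin']
      exact ((Group.isUnit (g : GQ)).map D.point.M).map (Matrix.detMonoidHom) |>.ne_zero
    have h0 : (Mg - (Mg.det * sg') • (1 : M2 O)) * (Mg - sg • (1 : M2 O)) = 0 := hs g g
    have hss : sg' * sg = 1 := by
      show s g⁻¹ * s g = 1
      rw [← map_mul, inv_mul_cancel, map_one]
    have h1 := trace_eq_add_of_shape (Module.finrank_fin_fun O) (Matrix.toLinAlgEquiv' Mg)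
      (a := Mg.det * sg') (b := sg) hf
      (by rw [show LinearMap.det (Matrix.toLinAlgEquiv' Mg) = Mg.det from LinearMap.det_toLin' Mg,
        mul_assoc, hss, mul_one])
      (by rw [← map_one (Matrix.toLinAlgEquiv' (R := O) (n := Fin 2)), ← map_smul, ← map_smul,
        ← map_sub, ← map_sub, ← map_mul, h0, map_zero])
    rw [show LinearMap.trace O _ (Matrix.toLinAlgEquiv' Mg) = Mg.trace from
      Matrix.trace_toLin'_eq Mg] at h1
    have hred : Mg.map (residue O) = D.ρbar g := D.point.reduces g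
    rw [← hred, ← RingHom.mapMatrix_apply, ← RingHom.map_det, RingHom.mapMatrix_apply,
      show (Mg.map (residue O)).trace = residue O Mg.trace from
        (AddMonoidHom.map_trace (residue O).toAddMonoidHom Mg).symm, h1, map_add, map_mul]
    rfl
  have hu1 : ∀ g : A.decompositionSubgroup ℚ, (g : GQ) ∈ A.inertiaSubgroupIn ℚ → u g = 1 :=
    fun g hg => by
      show residue O (s g) = 1
      rw [hsI g hg]; exact map_one (residue O)
  have hdec : ∀ σ ∈ A.inertiaSubgroupIn ℚ, σ ∈ A.decompositionSubgroup ℚ := fun σ hσ =>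
    ((Gal.mem_inertia_iff A σ).mp hσ).1
  refine ⟨fun σ hσ hμ => D.ι.injective ?_, fun φ σ hφ hσ hc => D.ι.injective ?_⟩
  · rw [← hρ, ht ⟨σ, hdec σ hσ⟩, hd, D.det₀ σ 1 (fun μ hμ' => by rw [pow_one]; exact hμ μ hμ'),
      Nat.cast_one, map_one, one_mul, hu1 _ (inv_mem hσ), hu1 _ hσ, one_add_one_eq_two, map_ofNat]
  · let φ' : A.decompositionSubgroup ℚ := ⟨φ, hφ⟩
    let σ' : A.decompositionSubgroup ℚ := ⟨σ, hdec σ hσ⟩
    have h2 := two_mul_eq_trace_add u (fun g => (D.ρbar g).trace) (fun g => (D.ρbar g).det)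
      φ' σ' ht (by
        show (D.ρbar (φ * σ)).det = -(D.ρbar φ).det
        rw [map_mul, Matrix.det_mul, hd σ, D.det₀ σ (p - 1) hc,
          Nat.cast_sub (Fact.out : p.Prime).one_le, ZMod.natCast_self, Nat.cast_one, zero_sub,
          map_neg, map_one, mul_neg, mul_one]) (hu1 σ' hσ) (hu1 σ'⁻¹ (inv_mem hσ))
    have h3 : u φ' * u φ' = 1 := by
      let sf : O := s φ'
      show residue O sf * residue O sf = 1
      rw [← map_mul, show sf * sf = 1 from hs2 φ', map_one]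
    rw [map_pow, map_add, map_ofNat, ← hρ, ← hρ,
      show (D.ρbar φ).trace + (D.ρbar (φ * σ)).trace = 2 * u φ' from h2.symm, mul_pow, sq (u φ'),
      h3, mul_one]
    norm_num

omit [CharZero O] in
/-- A representation attached to coefficients congruent to those of `W` reduces to `ρ₀`. -/
theorem ResidualData.residue_trace_det_of_attached (D : ResidualData O p W) {M : ℕ} {S : Finset ℕ}
    (hpS : p ∈ S) (hMS : ∀ q : ℕ, q.Prime → q ∣ M → q ∈ S)
    (hWS : ∀ q : ℕ, q.Prime → (q : ℤ) ∣ W.Δ → q ∈ S) {A₀ B : Type} [CommRing A₀] [IsLocalRing A₀]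
    [CommRing B] [IsLocalRing B] [CharP (ResidueField B) p] (j : A₀ →+* B) [IsLocalHom j]
    (c : ℕ → A₀) (hc : ∀ l : ℕ, l.Prime → l ∉ S → c l - (W.apOfModel l : A₀) ∈ maximalIdeal A₀)
    (ρ : GaloisRepAdic B)
    (hρ : ∀ l : ℕ, l.Prime → ¬ l ∣ M * p → ∀ A : ValuationSubring ℚbar, A.LiesOverPrime l →
      ∀ σ : GQ, A.IsFrobeniusAt σ l →
        LinearMap.charpoly (ρ.ρ σ) = X ^ 2 - C (j (c l)) * X + C (l : B)) (σ : GQ) :
    residue B (LinearMap.trace B ρ.V (ρ.ρ σ)) =
        ZMod.castHom (dvd_refl p) _ (D.ρ₀ σ).val.trace ∧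
      residue B (LinearMap.det (ρ.ρ σ)) = ZMod.castHom (dvd_refl p) _ (D.ρ₀ σ).val.det := by
  refine D.residue_trace_det ρ S hpS hWS (fun l hl hlS A hA τ hτ => ⟨_, ?_, hρ l hl (fun hd =>
    (hl.dvd_mul.1 hd).elim (fun h => hlS (hMS l hl h)) fun h => hlS
      ((Nat.prime_dvd_prime_iff_eq hl Fact.out).1 h ▸ hpS)) A hA τ hτ⟩) σ
  rw [← sub_eq_zero, ← map_intCast (residue B), ← map_sub, residue_eq_zero_iff,
    ← map_intCast j, ← map_sub]
  exact map_nonunit j _ (hc l hl hlS)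

/-! ## The residual newform -/

omit [CharZero O] in
/-- **`a_p ^ 2 ≡ 1` at a bad `p` outside the level**: an eigenform congruent to `W` away from `S`
is ordinary at `p`, and the unit root of Frobenius is read off the traces of the curve. -/
theorem ResidualData.exists_coeff_sq_sub_one_mem (D : ResidualData O p W) (hp2 : p ≠ 2)
    (hpΔ : (p : ℤ) ∣ W.Δ) {M : ℕ} [NeZero M] {G : CuspForm (CongruenceSubgroup.Gamma0 M) 2}
    (hG : G.IsNormalizedEigenform) (𝔪 : Ideal Zbar) [𝔪.IsMaximal] (hp𝔪 : (p : Zbar) ∈ 𝔪)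
    (hpM : ¬ p ∣ M) {S : Finset ℕ} (hpS : p ∈ S)
    (hMS : ∀ q : ℕ, q.Prime → q ∣ M → q ∈ S)
    (hWS : ∀ q : ℕ, q.Prime → (q : ℤ) ∣ W.Δ → q ∈ S)
    (hGW : ∀ l : ℕ, l.Prime → l ∉ S →
      ∃ a : Zbar, (a : ℂ) = qCoeff ⇑G l ∧ a - ((W.apOfModel l : ℤ) : Zbar) ∈ 𝔪) :
    ∃ a : Zbar, (a : ℂ) = qCoeff ⇑G p ∧ a ^ 2 - 1 ∈ 𝔪 := by
  classical
  have hp : p.Prime := Fact.out
  have := Fermat.Agent.S22.result M 2 ∅
  let κG := GalRep.eigenCharacterInt hG
  have : Module.Finite ℤ κG.range :=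
    Module.Finite.of_surjective κG.rangeRestrict.toIntAlgHom.toLinearMap κG.rangeRestrict_surjective
  let b : ℕ → Zbar := fun n => κG (Hecke.heckeTn M n)
  have hb : ∀ n, (b n : ℂ) = qCoeff ⇑G n := fun n => Hecke.eigenCharacter_heckeTn hG n
  have hbS : ∀ l : ℕ, l.Prime → l ∉ S → b l - ((W.apOfModel l : ℤ) : Zbar) ∈ 𝔪 := by
    intro l hl hlS
    obtain ⟨a, ha, ha'⟩ := hGW l hl hlS
    rwa [show b l = a from Subtype.ext ((hb l).trans ha.symm)]
  -- coefficients modulo `𝔪`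
  let P : Ideal κG.range := 𝔪.comap κG.range.subtype
  have : P.IsPrime := Ideal.IsPrime.comap _
  have hpP : (p : κG.range) ∈ P := by
    show κG.range.subtype (p : κG.range) ∈ 𝔪
    rwa [map_natCast]
  obtain ⟨O₀, _, _, _, _, _, _, ι, hpO₀, hι⟩ := GalRep.exists_coeff_ring p κG.range P hpP
  have hRle : Subring.closure (Set.range b) ≤ κG.range :=
    Subring.closure_le.mpr (by rintro _ ⟨n, rfl⟩; exact ⟨_, rfl⟩)
  let φ : Subring.closure (Set.range b) →+* O₀ := ι.comp (Subring.inclusion hRle)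
  have hφmem : ∀ x : Subring.closure (Set.range b), φ x ∈ maximalIdeal O₀ ↔ (x : Zbar) ∈ 𝔪 :=
    fun x => hι _
  let bS : ℕ → Subring.closure (Set.range b) := fun n => ⟨b n, Subring.subset_closure ⟨n, rfl⟩⟩
  have hc : ∀ l : ℕ, l.Prime → l ∉ S → φ (bS l) - (W.apOfModel l : O₀) ∈ maximalIdeal O₀ :=
    fun l hl hlS => by
      rw [← map_intCast φ, ← map_sub, hφmem, AddSubgroupClass.coe_sub, SubringClass.coe_intCast]
      exact hbS l hl hlS
  refine ⟨b p, hb p, ?_⟩
  obtain ⟨A, hA⟩ := Gal.exists_liesOverPrime (L := ℚbar) hp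
  obtain ⟨hI, hF⟩ := D.traces_at_p hpΔ hA
  have : CharP (ResidueField O₀) p := (CharP.charP_iff_prime_eq_zero hp).mpr (by
    rw [← map_natCast (residue O₀), residue_eq_zero_iff]; exact hpO₀)
  -- `a_p` is a unit
  obtain ⟨E⟩ := OrdinaryP.exists_eigenRep M p (Reduction.torsionReduction M p) hpO₀
    (ι.comp κG.rangeRestrict)
  have hop : ∀ q : Nat.Primes, (ι.comp κG.rangeRestrict) (GalRep.heckeOp M q) = φ (bS q) :=
    fun q => congrArg ι (Subtype.ext (Subtype.ext
      ((GalRep.eigenCharacterInt_heckeOp hG q).trans (hb q).symm)))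
  have hE := D.residue_trace_det_of_attached hpS hMS hWS (RingHom.id O₀) (fun l => φ (bS l)) hc
    (GalRep.repOfMatrix E.R E.continuous) fun l hl hlM A' hA' σ hσ => by
      rw [GalRep.repOfMatrix_charpoly, Matrix.charpoly_fin_two,
        E.trace_frobenius l hl hlM A' hA' σ hσ, E.det_eq,
        GalRep.cycl_frobenius p hl (fun h => hlM (h ▸ dvd_mul_left p M)) hA' hσ, map_natCast,
        hop ⟨l, hl⟩]
      rfl
  have hunit : IsUnit (φ (bS p)) := by
    rw [← hop ⟨p, hp⟩]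
    refine E.isUnit_of_trace hpM hA fun σ hσ hμ => ?_
    refine Eq.trans (congrArg (residue O₀)
      (Matrix.trace_toLin'_eq (E.R σ)).symm) ((hE σ).1.trans ?_)
    rw [hI σ hσ hμ]
    exact map_ofNat (ZMod.castHom (dvd_refl p) (ResidueField O₀)) 2
  obtain ⟨O₂, _, _, _, _, _, _, j₂, -, hj₂, ρ₂, -, hρ₂, α, -, hα, hα'⟩ :=
    exists_attached_ordinary M G hG b hb p hp2 hpM O₀ hpO₀ φ hunit
  have := hj₂
  have hpO₂ : (p : O₂) ∈ maximalIdeal O₂ := map_natCast j₂ p ▸ map_nonunit j₂ _ hpO₀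
  have : CharP (ResidueField O₂) p := (CharP.charP_iff_prime_eq_zero hp).mpr (by
    rw [← map_natCast (residue O₂), residue_eq_zero_iff]; exact hpO₂)
  obtain ⟨s, hsI, hsF, hs⟩ := hα' A hA
  have hres₂ := D.residue_trace_det_of_attached hpS hMS hWS j₂ (fun l => φ (bS l)) hc ρ₂ hρ₂
  obtain ⟨σ, hσ, hσc⟩ := OrdinaryP.exists_inertia_neg_one hA
  obtain ⟨f, hf⟩ := Gal.exists_isFrobeniusAt hp hA
  let f' : A.decompositionSubgroup ℚ := ⟨f, hf.mem_decompositionSubgroup⟩
  let σ' : A.decompositionSubgroup ℚ := ⟨σ, ((Gal.mem_inertia_iff A σ).mp hσ).1⟩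
  let u : A.decompositionSubgroup ℚ →* ResidueField O₂ :=
    (residue O₂ : O₂ →* ResidueField O₂).comp s
  have h2 := two_mul_eq_trace_add u (fun g => residue O₂ (LinearMap.trace O₂ ρ₂.V (ρ₂.ρ g)))
    (fun g => residue O₂ (LinearMap.det (ρ₂.ρ g))) f' σ' (fun g => by
      show _ = _ * residue O₂ (s g⁻¹) + residue O₂ (s g)
      rw [trace_eq_add_of_shape ρ₂.finrank_eq (ρ₂.ρ g)
        (a := LinearMap.det (ρ₂.ρ g) * s g⁻¹) (b := s g) (det_ne_zero_of_rep ρ₂ g)
        (by rw [mul_assoc, ← map_mul, inv_mul_cancel, map_one, mul_one]) (hs g g), map_add,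
        map_mul])
    (by
      show residue O₂ (LinearMap.det (ρ₂.ρ (f * σ))) = -residue O₂ (LinearMap.det (ρ₂.ρ f))
      rw [map_mul, map_mul, map_mul, (hres₂ σ).2, D.det₀ σ (p - 1) hσc,
        Nat.cast_sub hp.one_le, ZMod.natCast_self, Nat.cast_one, zero_sub, map_neg, map_one,
        mul_neg, mul_one])
    (by show residue O₂ (s σ') = 1; rw [hsI σ' hσ, map_one])
    (by show residue O₂ (s σ'⁻¹) = 1; rw [hsI σ'⁻¹ (inv_mem hσ), map_one])
  have huα : u f' = residue O₂ α := congrArg (residue O₂) (hsF f' hf)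
  change 2 * u f' = residue O₂ (LinearMap.trace O₂ ρ₂.V (ρ₂.ρ f)) +
    residue O₂ (LinearMap.trace O₂ ρ₂.V (ρ₂.ρ (f * σ))) at h2
  rw [huα, (hres₂ f).1, (hres₂ (f * σ)).1, ← map_add] at h2
  have h3 : residue O₂ α ^ 2 = 1 := by
    have h4 := congrArg (fun x : ZMod p => ZMod.castHom (dvd_refl p) (ResidueField O₂) x)
      (hF f σ hf.mem_decompositionSubgroup hσ hσc)
    simp only [map_pow, ← h2, map_ofNat] at h4
    have h20 : (2 : ResidueField O₂) ≠ 0 := by
      rw [← map_ofNat (residue O₂)]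
      exact ((OrdinaryP.isUnit_two_of_mem hp hp2 hpO₂).map (residue O₂)).ne_zero
    refine mul_left_cancel₀ (pow_ne_zero 2 h20) ?_
    linear_combination h4
  have h5 := congrArg (residue O₂) hα
  rw [map_add, map_sub, map_mul, map_pow, map_zero, map_natCast, CharP.cast_eq_zero,
    add_zero] at h5
  have h6 : residue O₂ (j₂ (φ (bS p))) ^ 2 = 1 := by
    have hα0 : residue O₂ α ≠ 0 := fun h0 => by rw [h0] at h3; simp at h3
    have : residue O₂ (j₂ (φ (bS p))) = residue O₂ α :=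
      mul_right_cancel₀ hα0 (by rw [← sq]; linear_combination -h5)
    rw [this, h3]
  have h7 := (hφmem (bS p ^ 2 - 1)).1 <| (map_mem_nonunits_iff j₂ _).1 <|
    (residue_eq_zero_iff _).1 <| by
      rw [map_sub, map_sub, map_sub, map_pow, map_pow, map_pow, h6, map_one, map_one, map_one,
        sub_self]
  rwa [AddSubgroupClass.coe_sub, SubmonoidClass.coe_pow, OneMemClass.coe_one] at h7

omit [CharZero O] in
/-- **Descent to a residual newform.** -/
theorem exists_resNewform_of_character (hp2 : p ≠ 2) (D : ResidualData O p W)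
    {N : ℕ} [NeZero N] (hpN : ¬ p ^ 2 ∣ N) {S : Finset ℕ} (hpS : p ∈ S)
    (hLS : ∀ q : ℕ, q.Prime → q ∣ N → q ∈ S)
    (hWS : ∀ q : ℕ, q.Prime → (q : ℤ) ∣ W.Δ → q ∈ S)
    (θ₂ : heckeRing N (⊤ : Subgroup (ZMod N)ˣ) (↑S : Set ℕ) →+* ResidueField O)
    (hval : ∀ (l : ℕ) (hl : l.Prime) (hlN : ¬ l ∣ N) (hlS : l ∉ (↑S : Set ℕ)),
      θ₂ (heckeTR hl hlN hlS) = ((W.apOfModel l : ℤ) : ResidueField O))
    (Q : Finset ℕ) (hQ : ∀ q ∈ Q, q.Prime ∧ q ≠ p ∧ p ∣ q - 1 ∧ ¬ q ^ 2 ∣ N)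
    (hdist : ∀ q ∈ Q, ∀ A : ValuationSubring ℚbar, A.LiesOverPrime q → ∀ σ : GQ,
      A.IsFrobeniusAt σ q →
        ∃ α β : ResidueField O, α ≠ β ∧ (D.ρbar σ).charpoly = (X - C α) * (X - C β)) :
    ∃ M, M ∣ N ∧ (∀ q ∈ Q, ¬ q ∣ M) ∧ ResNewform p W M := by
  classical
  have hp : p.Prime := Fact.out
  have := D.charP_residue
  have hH : (-1 : (ZMod N)ˣ) ∈ (⊤ : Subgroup (ZMod N)ˣ) := Subgroup.mem_top _
  -- a complex character with the same reduction
  have := moduleFinite_heckeRing (S := (↑S : Set ℕ)) hH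
  have : (RingHom.ker θ₂).IsPrime := RingHom.ker_isPrime θ₂
  obtain ⟨lam, hlam⟩ := exists_ringHom_ker_le (S := (↑S : Set ℕ)) hH (RingHom.ker θ₂)
  have : Algebra.IsIntegral ℤ (heckeRing N (⊤ : Subgroup (ZMod N)ˣ) (↑S : Set ℕ)) :=
    Algebra.IsIntegral.of_finite ℤ _
  let lamZ : heckeRing N (⊤ : Subgroup (ZMod N)ˣ) (↑S : Set ℕ) →+* Zbar :=
    lam.codRestrict (integralClosure ℤ ℂ).toSubring fun t =>
      map_isIntegral_int lam (Algebra.IsIntegral.isIntegral t)
  have hkerZ : RingHom.ker lamZ.rangeRestrict ≤ RingHom.ker θ₂ := fun t ht =>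
    hlam (congrArg (fun z : lamZ.range => ((z : Zbar) : ℂ)) (RingHom.mem_ker.mp ht))
  let ι₂ : lamZ.range →+* ResidueField O :=
    lamZ.rangeRestrict.liftOfSurjective lamZ.rangeRestrict_surjective ⟨θ₂, hkerZ⟩
  have hι₂ : ∀ t, ι₂ (lamZ.rangeRestrict t) = θ₂ t :=
    RingHom.congr_fun (lamZ.rangeRestrict.liftOfRightInverse_comp _
      (Function.rightInverse_surjInv lamZ.rangeRestrict_surjective) ⟨θ₂, hkerZ⟩)
  have : Algebra.IsIntegral lamZ.range Zbar :=
    ⟨fun z => (Algebra.IsIntegral.isIntegral (R := ℤ) z).tower_top⟩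
  have : (RingHom.ker ι₂).IsPrime := RingHom.ker_isPrime ι₂
  obtain ⟨𝔪, h𝔪p, h𝔪⟩ :=
    Ideal.exists_ideal_over_prime_of_isIntegral_of_isDomain (S := Zbar) (RingHom.ker ι₂)
      (by rw [(RingHom.injective_iff_ker_eq_bot (algebraMap lamZ.range Zbar)).1
        Subtype.val_injective]; exact bot_le)
  have hmem : ∀ z : lamZ.range, (z : Zbar) ∈ 𝔪 ↔ ι₂ z = 0 := fun z => by
    rw [← RingHom.mem_ker (f := ι₂), ← h𝔪]
    rfl
  have hp𝔪 : (p : Zbar) ∈ 𝔪 := by
    have h := (hmem (p : lamZ.range)).2 (by rw [map_natCast, CharP.cast_eq_zero])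
    rwa [SubringClass.coe_natCast] at h
  have h𝔪m : 𝔪.IsMaximal := by
    have := h𝔪p
    refine Ideal.isMaximal_of_isIntegral_of_isMaximal_comap (R := ℤ) 𝔪 ?_
    have h0 : Ideal.span {(p : ℤ)} ≤ 𝔪.comap (algebraMap ℤ Zbar) := by
      rw [Ideal.span_singleton_le_iff_mem, Ideal.mem_comap, map_natCast]
      exact hp𝔪
    have hmax : (Ideal.span {(p : ℤ)}).IsMaximal :=
      PrincipalIdealRing.isMaximal_of_irreducible (Nat.prime_iff_prime_int.1 hp).irreducible
    rwa [← hmax.eq_of_le (Ideal.comap_ne_top _ h𝔪p.ne_top) h0]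
  have := h𝔪m
  -- the newform
  obtain ⟨M, _, G, hG, hMN, hcoef, -⟩ := exists_point_newform (R := 1) (h := 0) hH (one_dvd _)
    (le_top (a := (ZMod.unitsMap (one_dvd _)).ker)) (fun a => Subgroup.mem_top _) hLS lam
  rw [mul_one] at hMN
  have hMS : ∀ q : ℕ, q.Prime → q ∣ M → q ∈ S := fun q hq hd => hLS q hq (hd.trans hMN)
  have := Fermat.Agent.S22.result M 2 ∅
  let κG := GalRep.eigenCharacterInt hG.1
  have : Module.Finite ℤ κG.range :=
    Module.Finite.of_surjective κG.rangeRestrict.toIntAlgHom.toLinearMap κG.rangeRestrict_surjective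
  let b : ℕ → Zbar := fun n => κG (Hecke.heckeTn M n)
  have hb : ∀ n, (b n : ℂ) = qCoeff ⇑G n := fun n => Hecke.eigenCharacter_heckeTn hG.1 n
  have hbS : ∀ l : ℕ, l.Prime → l ∉ S → b l - ((W.apOfModel l : ℤ) : Zbar) ∈ 𝔪 := by
    intro l hl hlS
    have hlS' : l ∉ (↑S : Set ℕ) := by simpa using hlS
    have hlN : ¬ l ∣ N := fun hd => hlS (hLS l hl hd)
    have h0 : b l = (lamZ.rangeRestrict (heckeTR hl hlN hlS') : Zbar) := Subtype.ext (by
      rw [hb, hcoef l hl hlN hlS', twistedT, pow_zero, one_mul]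
      rfl)
    have h1 : ((W.apOfModel l : ℤ) : Zbar) = (((W.apOfModel l : ℤ) : lamZ.range) : Zbar) :=
      (SubringClass.coe_intCast lamZ.range _).symm
    rw [h0, h1, ← AddSubgroupClass.coe_sub, hmem, map_sub, hι₂, hval, map_intCast, sub_self]
  -- coefficients modulo `𝔪`
  let P : Ideal κG.range := 𝔪.comap κG.range.subtype
  have : P.IsPrime := Ideal.IsPrime.comap _
  have hpP : (p : κG.range) ∈ P := by
    show κG.range.subtype (p : κG.range) ∈ 𝔪
    rwa [map_natCast]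
  obtain ⟨O₀, _, _, _, _, _, _, ι, hpO₀, hι⟩ := GalRep.exists_coeff_ring p κG.range P hpP
  have hRle : Subring.closure (Set.range b) ≤ κG.range :=
    Subring.closure_le.mpr (by rintro _ ⟨n, rfl⟩; exact ⟨_, rfl⟩)
  let φ : Subring.closure (Set.range b) →+* O₀ := ι.comp (Subring.inclusion hRle)
  have hφmem : ∀ x : Subring.closure (Set.range b), φ x ∈ maximalIdeal O₀ ↔ (x : Zbar) ∈ 𝔪 :=
    fun x => hι _
  let bS : ℕ → Subring.closure (Set.range b) := fun n => ⟨b n, Subring.subset_closure ⟨n, rfl⟩⟩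
  obtain ⟨O₁, _, _, _, _, _, _, j, -, hj, ρ, -, hρgood, hρloc⟩ :=
    exists_attached M G hG.1 b hb p O₀ hpO₀ φ
  have := hj
  have hpO₁ : (p : O₁) ∈ maximalIdeal O₁ := map_natCast j p ▸ map_nonunit j _ hpO₀
  have : CharP (ResidueField O₁) p := (CharP.charP_iff_prime_eq_zero hp).mpr (by
    rw [← map_natCast (residue O₁), residue_eq_zero_iff]; exact hpO₁)
  have hres := D.residue_trace_det_of_attached hpS hMS hWS j (fun l => φ (bS l))
    (fun l hl hlS => by
      rw [← map_intCast φ, ← map_sub, hφmem, AddSubgroupClass.coe_sub, SubringClass.coe_intCast]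
      exact hbS l hl hlS) ρ
    fun l hl hlM A hA σ hσ => (hρgood l hl hlM A hA).2 σ hσ
  refine ⟨M, hMN, fun q hqQ hqM => ?_, G, 𝔪, hG, h𝔪m, hp𝔪,
    fun l hl hgood hlM hlp => ⟨b l, hb l, ?_⟩, fun hpΔ => ?_⟩
  · -- no prime with distinct eigenvalues
    obtain ⟨hq, hqp, hq1, hqN⟩ := hQ q hqQ
    obtain ⟨A, hA⟩ := Gal.exists_liesOverPrime (L := ℚbar) hq
    obtain ⟨σ, hσ⟩ := Gal.exists_isFrobeniusAt hq hA
    have hqM2 : ¬ q ^ 2 ∣ M := fun hd => hqN (hd.trans hMN)
    have hbq : b q ^ 2 = 1 := Subtype.ext (by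
      rw [SubmonoidClass.coe_pow, hb, OneMemClass.coe_one]
      exact Newform.qCoeff_sq_eq_one_of_not_sq_dvd hG hq hqM hqM2)
    obtain ⟨s, hs, -, -, hshape⟩ := hρloc q hq hqM hqM2 hbq A hA
    let g : A.decompositionSubgroup ℚ := ⟨σ, hσ.mem_decompositionSubgroup⟩
    have ht := trace_eq_add_of_shape ρ.finrank_eq (ρ.ρ g) (a := LinearMap.det (ρ.ρ g) * s g)
      (b := s g) (det_ne_zero_of_rep ρ g) (by rw [mul_assoc, hs, mul_one]) (hshape g g)
    have hdet₀ : (D.ρ₀ σ).val.det = 1 := by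
      rw [D.det₀ σ q fun μ hμ => Gal.apply_rootOfUnity_of_isFrobeniusAt hσ hq hA
        (fun hd => hqp ((Nat.prime_dvd_prime_iff_eq hq hp).1 hd)) hμ]
      obtain ⟨c, hc⟩ := hq1
      rw [show q = p * c + 1 by have := hq.one_le; omega, Nat.cast_add, Nat.cast_mul,
        ZMod.natCast_self, zero_mul, zero_add, Nat.cast_one]
    obtain ⟨h1, h2⟩ := hres σ
    have h3 : (D.ρ₀ σ).val.trace ^ 2 = 4 * (D.ρ₀ σ).val.det := by
      refine (ZMod.castHom (dvd_refl p) (ResidueField O₁)).injective ?_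
      rw [map_pow, map_mul, map_ofNat, ← h1, ← h2, show ρ.ρ σ = ρ.ρ g from rfl, ht, map_add,
        map_mul, show residue O₁ (LinearMap.det (ρ.ρ g)) = 1 by
          rw [show ρ.ρ g = ρ.ρ σ from rfl, h2, hdet₀, map_one],
        one_mul, ← two_mul, mul_pow, ← map_pow (residue O₁), sq (s g), hs, map_one]
      norm_num
    obtain ⟨α, β, hne, hchar⟩ := hdist q hqQ A hA σ hσ
    rw [show (X - C α) * (X - C β) = X ^ 2 - C (α + β) * X + C (α * β) by
      simp only [map_add, map_mul]; ring] at hchar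
    obtain ⟨h4, h5⟩ := trace_det_of_charpoly_eq hchar
    have h6 := congrArg D.ι h3
    rw [map_pow, map_mul, map_ofNat,
      show D.ι (D.ρ₀ σ).val.trace = α + β by
        rw [← h4, D.ρbar_eq]; exact AddMonoidHom.map_trace D.ι.toAddMonoidHom _,
      show D.ι (D.ρ₀ σ).val.det = α * β by
        rw [← h5, D.ρbar_eq, ← RingHom.mapMatrix_apply, ← RingHom.map_det]] at h6
    exact hne (sub_eq_zero.1 (eq_zero_of_pow_eq_zero (n := 2) (by linear_combination h6)))
  · -- good primes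
    obtain ⟨A, hA⟩ := Gal.exists_liesOverPrime (L := ℚbar) hl
    obtain ⟨σ, hσ⟩ := Gal.exists_isFrobeniusAt hl hA
    have hlMp : ¬ l ∣ M * p := fun hd => (hl.dvd_mul.1 hd).elim hlM fun h =>
      hlp ((Nat.prime_dvd_prime_iff_eq hl hp).1 h)
    have hc := (hρgood l hl hlMp A hA).2 σ hσ
    rw [Density.charpoly_eq_of_finrank_two ρ.finrank_eq] at hc
    have htr := congrArg (fun Q : O₁[X] => Q.coeff 1) hc
    simp [coeff_X_pow, coeff_C] at htr
    have h0 := (hres σ).1
    rw [htr, (trace_det_of_charpoly_eq (D.charpoly_ρ₀ hl hgood hlp hA hσ)).1, map_intCast] at h0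
    have h1 := (hφmem (bS l - ((W.apOfModel l : ℤ) : Subring.closure (Set.range b)))).1 <|
      (map_mem_nonunits_iff j _).1 <| (residue_eq_zero_iff _).1 <| by
        rw [map_sub, map_sub, map_sub, map_intCast, map_intCast, map_intCast, h0, sub_self]
    rwa [AddSubgroupClass.coe_sub, SubringClass.coe_intCast] at h1
  · -- at `p`
    by_cases hpM : p ∣ M
    · refine ⟨b p, hb p, ?_⟩
      have h1 : b p ^ 2 = 1 := Subtype.ext (by
        rw [SubmonoidClass.coe_pow, hb, OneMemClass.coe_one]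
        exact Newform.qCoeff_sq_eq_one_of_not_sq_dvd hG hp hpM fun hd => hpN (hd.trans hMN))
      rw [h1, sub_self]
      exact 𝔪.zero_mem
    exact D.exists_coeff_sq_sub_one_mem hp2 hpΔ hG.1 𝔪 hp𝔪 hpM hpS hMS hWS
      fun l hl hlS => ⟨b l, hb l, hbS l hl hlS⟩

end Fermat.Agent.Root.Patched
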