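import Fermat.Agent.Root.Patched.Limit
import Fermat.Agent.IharaTW.PatchMap

/-!
# The data which yield modularity lifting and level lowering

`IAFamily` is one Taylor–Wiles tower with its Ihara avoidance twin.  `LiftingFamily` adds the
stages obtained by adding flip primes one at a time; `LoweringFamily` adds the element killed by
the old part.  The two `conclusion` theorems are the whole commutative algebra of the root
program's patching step.
-/

set_option autoImplicit false

noncomputable section

namespace Fermat.Agent.Root.Patched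

open Fermat.Agent.Patching IsLocalRing Filter

/-- A complete Noetherian local ring with finite residue field. -/
structure CompleteRing where
  carrier : Type
  [commRing : CommRing carrier]
  [isLocalRing : IsLocalRing carrier]
  [isNoetherianRing : IsNoetherianRing carrier]
  [finiteResidue : Finite (ResidueField carrier)]
  [complete : IsAdicComplete (maximalIdeal carrier) carrier]

instance : CoeSort CompleteRing Type := ⟨CompleteRing.carrier⟩

attribute [instance] CompleteRing.commRing CompleteRing.isLocalRing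
  CompleteRing.isNoetherianRing CompleteRing.finiteResidue CompleteRing.complete

/-- A sequence of levels with levels going to zero. -/
structure Stage (Λ A R : CompleteRing) (𝔞 : Ideal Λ) where
  I : Ideal R
  d : ℕ
  L : ℕ → Level Λ A R 𝔞 I d
  small : ∀ k, ∀ᶠ n in atTop, (L n).c ≤ maximalIdeal Λ ^ k

variable {Λ A A' R R' : CompleteRing} {𝔞 : Ideal Λ}

/-- The patched module of a stage. -/
def Stage.patched (S : Stage Λ A R 𝔞) : Patched Λ A R 𝔞 S.I S.d := patch S.L S.small

/-- Taylor–Wiles levels with their Ihara avoidance twins. -/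
structure IAFamily (Λ A A' R R' : CompleteRing) (𝔞 : Ideal Λ) where
  domain : IsDomain Λ
  dim : ringKrullDim A ≤ ringKrullDim Λ
  dim' : ringKrullDim A' ≤ ringKrullDim Λ
  I : Ideal R
  I' : Ideal R'
  d : ℕ
  pos : 0 < d
  L : ℕ → Level Λ A R 𝔞 I d
  L' : ℕ → Level Λ A' R' 𝔞 I' d
  small : ∀ k, ∀ᶠ n in atTop, (L n).c ≤ maximalIdeal Λ ^ k
  small' : ∀ k, ∀ᶠ n in atTop, (L' n).c ≤ maximalIdeal Λ ^ k
  B : Type
  [ringB : CommRing B]
  f : A →+* B
  f' : A' →+* B
  f_surjective : Function.Surjective f
  f'_surjective : Function.Surjective f'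
  ϖ : Λ
  a₀' : A'
  f'_a₀' : f' a₀' = 0
  act_a₀' : ∀ n, (L' n).act a₀' = Matrix.scalar (Fin d) (Ideal.Quotient.mk (L' n).c ϖ)
  congr : ∀ n, ∀ (a : A) (a' : A'), f a = f' a' → ∀ i j,
    (L n).mat a i j - (L' n).mat a' i j ∈ Ideal.span {ϖ} ⊔ (L n).c ⊔ (L' n).c
  /-- every component of `A'` contains the whole of `B` -/
  comp' : ∀ P' ∈ minimalPrimes A', P' ≤ (RingHom.ker f').radical
  /-- the components of `A` reached by Ihara avoidance -/
  base : Set (Ideal A)
  comp : ∀ P ∈ base, ∃ Q : Ideal A, Q.IsPrime ∧ RingHom.ker f ≤ Q ∧ P ≤ Q ∧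
    ∀ P₁ ∈ minimalPrimes A, P₁ ≤ Q → P₁ = P

/-- The first stage. -/
def IAFamily.stage (F : IAFamily Λ A A' R R' 𝔞) : Stage Λ A R 𝔞 :=
  ⟨F.I, F.d, F.L, F.small⟩

/-- **Ihara avoidance**: all components in `base` support the patched module. -/
theorem IAFamily.supp (F : IAFamily Λ A A' R R' 𝔞) {P : Ideal A} (hP : P ∈ F.base) :
    F.stage.patched.Supp P := by
  have := F.domain
  let := F.ringB
  let D := patch F.L F.small
  let D' := patch F.L' F.small'
  obtain ⟨P', hP'⟩ := D'.exists_minimalPrimes_ker F.pos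
  have hall : ∀ Q' : Ideal A', Q'.IsPrime → RingHom.ker F.f' ≤ Q' → D'.Supp Q' := fun Q' hQ' hle =>
    hP'.1.2.trans ((F.comp' P' (D'.mem_minimalPrimes F.dim' hP')).trans
      ((Ideal.radical_mono hle).trans hQ'.radical.le))
  have hB : ∀ Q : Ideal A, Q.IsPrime → RingHom.ker F.f ≤ Q → D.Supp Q := by
    intro Q hQ hker a ha
    have := hQ
    obtain ⟨a', ha'⟩ := F.f'_surjective (F.f a)
    have : (Q.map F.f).IsPrime := Ideal.map_isPrime_of_surjective F.f_surjective hker
    have hp : ((Q.map F.f).comap F.f').IsPrime := Ideal.IsPrime.comap F.f'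
    have hle : RingHom.ker F.f' ≤ (Q.map F.f).comap F.f' := fun z hz => by
      rw [Ideal.mem_comap, RingHom.mem_ker.mp hz]; exact zero_mem _
    have hmem : a' ∈ (Q.map F.f).comap F.f' := by
      refine D'.mem_of_entry_mem hp (hall _ hp hle) (J := Ideal.span {F.ϖ}) (fun l hl => ?_)
        (fun i j => ?_)
      · obtain ⟨b, hb, hb0⟩ :=
          D'.exists_scalar_span (patch_act_eq_scalar F.L' F.small' F.act_a₀') F.f'_a₀' l hl
        exact ⟨b, by rw [Ideal.mem_comap, hb0]; exact zero_mem _, hb⟩
      · have h := patch_congr F.L F.small F.L' F.small' F.congr a a' ha'.symm i j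
        rw [RingHom.mem_ker.mp ha, Matrix.zero_apply, zero_sub] at h
        exact neg_mem_iff.mp h
    rw [Ideal.mem_comap, ha', ← Ideal.mem_comap,
      Ideal.comap_map_of_surjective _ F.f_surjective] at hmem
    exact (sup_le le_rfl hker) hmem
  obtain ⟨Q, hQ, hJQ, -, huniq⟩ := F.comp P hP
  have := hQ
  obtain ⟨P'', hP'', hle⟩ := Ideal.exists_minimalPrimes_le (hB Q hQ hJQ)
  exact huniq P'' (D.mem_minimalPrimes F.dim hP'') hle ▸ hP''.1.2

/-- One flip between consecutive stages: from the component `P` to the component `P'`.  `J` is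
the Steinberg ideal and `δ` the composite of the degeneracy maps at the added prime. -/
def FlipStep (S S' : Stage Λ A R 𝔞) (P P' : Ideal A) : Prop :=
  ∃ (J : Ideal A) (δ : Matrix (Fin 2) (Fin 2) A),
    (∀ n, Nonempty (IharaTW.FlipLevel (S'.L n) (S.L n) J δ)) ∧
    ∃ x : Ideal A, x.IsPrime ∧ P ≤ x ∧ δ.det ∈ x ∧
      ∀ Q ∈ minimalPrimes A, Q ≤ x → Q = P' ∨ (¬ J ≤ Q ∧ δ.det ∉ Q)

/-- The data of a lifting problem whose conclusion is `goal`. -/
structure LiftingFamily (goal : Prop) where
  (Λ A A' R R' : CompleteRing)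
  𝔞 : Ideal Λ
  ia : IAFamily Λ A A' R R' 𝔞
  m : ℕ
  stage : ℕ → Stage Λ A R 𝔞
  stage_zero : stage 0 = ia.stage
  π_eq : ∀ i n, ((stage i).L n).π = (ia.L n).π
  comp : ℕ → Ideal A
  comp_zero : comp 0 ∈ ia.base
  step : ∀ i < m, FlipStep (stage i) (stage (i + 1)) (comp i) (comp (i + 1))
  point : Ideal R
  point_prime : point.IsPrime
  point_comp : ∀ n, comp m ≤ point.comap (ia.L n).π
  conclude : (stage m).I ≤ point → goal

/-- **Lifting.** -/
theorem LiftingFamily.conclusion {goal : Prop} (F : LiftingFamily goal) : goal := by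
  have := F.ia.domain
  have hs : ∀ i ≤ F.m, (F.stage i).patched.Supp (F.comp i) := by
    intro i hi
    induction i with
    | zero => rw [F.stage_zero]; exact F.ia.supp F.comp_zero
    | succ i ih =>
      obtain ⟨J, δ, hflip, x, hx, hPx, hdet, honly⟩ := F.step i (Nat.lt_of_succ_le hi)
      exact IharaTW.supp_of_flip (F.stage (i + 1)).L (F.stage i).L (F.stage (i + 1)).small
        (F.stage i).small (fun n => (hflip n).some) F.ia.dim hx
        ((ih (Nat.le_of_succ_le hi)).trans hPx) hdet honly
  refine F.conclude ((F.stage F.m).patched.le_of_supp F.point_prime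
    ((hs F.m le_rfl).trans (le_comap_ψ _ (F.stage F.m).small fun n => ?_)))
  rw [F.π_eq]
  exact F.point_comp n

/-- The data of a lowering problem whose conclusion is `goal`: without `goal` the element `e`
kills every level, although it avoids a component reached by Ihara avoidance. -/
structure LoweringFamily (goal : Prop) where
  (Λ A A' R R' : CompleteRing)
  𝔞 : Ideal Λ
  ia : IAFamily Λ A A' R R' 𝔞
  comp : Ideal A
  comp_mem : comp ∈ ia.base
  e : A
  e_notMem : e ∉ comp
  all_new : ¬ goal → ∀ n, (ia.L n).act e = 0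

/-- **Lowering.** -/
theorem LoweringFamily.conclusion {goal : Prop} (F : LoweringFamily goal) : goal := by
  by_contra h
  exact F.e_notMem (F.ia.supp F.comp_mem
    (RingHom.mem_ker.mpr (act_eq_zero F.ia.L F.ia.small (F.all_new h))))

end Fermat.Agent.Root.Patched
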