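import Fermat.Agent.Root.Patched.Tower
import Fermat.Agent.Root.Defs
import Fermat.Agent.LocalModel.Tame

/-!
# The standard systems of local models and the residual data of a curve

`ResidualData` is a coefficient ring with `E[p]` over its residue field and the lift given by the
Tate module.  `StdData` says which condition a `LocalSystem` puts at each place: this is all that
the construction of Taylor–Wiles towers uses about a local system.
-/

set_option autoImplicit false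

noncomputable section

open IsLocalRing Polynomial WeierstrassCurve WeierstrassCurve.Affine.Point
open scoped WeierstrassCurve.Affine

namespace Fermat.Agent.Root.Patched

open Fermat.Agent.Deformation

local notation "ℚbar" => AlgebraicClosure ℚ

variable (O : Type) [CommRing O] [IsDomain O] [IsDiscreteValuationRing O]
  [IsAdicComplete (maximalIdeal O) O] [Finite (ResidueField O)]

/-- The coefficient ring as a test ring. -/
def TestRing.self : TestRing O where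
  R := { carrier := O }
  alg := RingHom.id O
  red := residue O
  red_alg _ := rfl
  ker_red x := residue_eq_zero_iff x

/-- `E[p]` over the residue field of a coefficient ring, and its lift by the Tate module. -/
structure ResidualData (p : ℕ) [Fact p.Prime] (W : WeierstrassCurve ℤ) where
  p_mem : (p : O) ∈ maximalIdeal O
  ρ₀ : GQ →* GL (Fin 2) (ZMod p)
  finite_level : GaloisFactorsThroughFiniteLevel ρ₀
  basis : Module.Basis (Fin 2) (ZMod p)
    (Submodule.torsionBy ℤ ((W.map (Int.castRingHom ℚ))⁄ℚbar).Point p)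
  ρ₀_eq : ∀ σ, (ρ₀ σ).val = LinearMap.toMatrix basis basis
    (galoisRepModuleEnd (K := ℚbar) ℚ (W.map (Int.castRingHom ℚ)).toAffine p σ)
  det₀ : ∀ (σ : GQ) (a : ℕ), (∀ μ : ℚbar, μ ^ p = 1 → σ μ = μ ^ a) →
    ((ρ₀ σ).val).det = (a : ZMod p)
  ι : ZMod p →+* ResidueField O
  ρbar : GQ →* M2 (ResidueField O)
  ρbar_eq : ∀ σ, ρbar σ = (ρ₀ σ).val.map ι
  split : ∀ σ, ∃ α β : ResidueField O, (ρbar σ).charpoly = (X - C α) * (X - C β)
  /-- a primitive `p`-th root of unity -/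
  ζ : O
  ζ_pow : ζ ^ p = 1
  ζ_ne : ζ ≠ 1
  /-- the representation on the Tate module -/
  point : Lift ρbar (TestRing.self O)
  point_det : DetCyclotomic p (TestRing.self O) point
  point_good : ∀ q : ℕ, q.Prime → W.IsGoodPrimeFor q → q ≠ p → ∀ A : ValuationSubring ℚbar,
    A.LiesOverPrime q → (∀ σ ∈ A.inertiaSubgroupIn ℚ, point.M σ = 1) ∧
      ∀ σ, A.IsFrobeniusAt σ q →
        (point.M σ).charpoly = X ^ 2 - C ((W.apOfModel q : ℤ) : (TestRing.self O).R) * X +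
          C (q : (TestRing.self O).R)
  point_bad : ∀ q : ℕ, q.Prime → (q : ℤ) ∣ W.Δ → ∀ A : ValuationSubring ℚbar,
    A.LiesOverPrime q → SteinbergShape A (TestRing.self O) point
  point_flat : ¬ (p : ℤ) ∣ W.Δ → FlatShape p (TestRing.self O) point

variable {O} {ρbar : GQ →* M2 (ResidueField O)} {p : ℕ}

/-- The conditions of a standard local system. -/
structure StdData (Sys : LocalSystem O ρbar p) (ζ : O) where
  avoid_mod : ∀ i, Sys.q (.inl i) % p = 1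
  avoid_frob : ∀ i, (Sys.P (.inl i)).IsFrobeniusAt (Sys.φ i) (Sys.q (.inl i))
  avoid_tame : ∀ i, LocalModel.IsTameGenerator p (Sys.q (.inl i)) (Sys.P (.inl i)) (Sys.τ i)
  avoid_inertia : ∀ i, ∀ σ ∈ (Sys.P (.inl i)).inertiaSubgroupIn ℚ, ρbar σ = 1
  avoid_scalar : ∀ i σ, (Sys.P (.inl i)).IsFrobeniusAt σ (Sys.q (.inl i)) →
    ∃ c : ResidueField O, ρbar σ = c • (1 : M2 (ResidueField O))
  /-- every character of order `p` is in one of the classes -/
  classes : ∀ k : ℕ, ¬ p ∣ k → ∃ b, Sys.ζ b + Sys.ζi b = ζ ^ k + ζ ^ (k * (p - 1)) ∧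
    Sys.ζ b * Sys.ζi b = 1
  /-- the sign at a flip place -/
  s₀ : Fin Sys.s → O
  s₀_sq : ∀ f, s₀ f * s₀ f = 1
  /-- Frobenius at a flip place -/
  φf : ∀ f, (Sys.P (.inr (.inl f))).decompositionSubgroup ℚ
  φf_frob : ∀ f, (Sys.P (.inr (.inl f))).IsFrobeniusAt (φf f : GQ) (Sys.q (.inr (.inl f)))
  flip_ne : ∀ f, Sys.q (.inr (.inl f)) ≠ p → ∀ S (ℓ : Lift ρbar S),
    Sys.flipCond f S ℓ ↔ DetCyclotomic p S ℓ ∧ Unipotent (Sys.P (.inr (.inl f))) S ℓ
  flip_inertia : ∀ f, Sys.q (.inr (.inl f)) ≠ p →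
    ∀ σ ∈ (Sys.P (.inr (.inl f))).inertiaSubgroupIn ℚ, ρbar σ = 1
  flipA_ne : ∀ f, Sys.q (.inr (.inl f)) ≠ p → ∀ S (ℓ : Lift ρbar S), Sys.flipCond f S ℓ →
    Sys.flipA f S ℓ = (ℓ.M (φf f : GQ)).trace -
      S.alg (s₀ f * ((Sys.q (.inr (.inl f)) : O) + 1))
  c_ne : ∀ f, Sys.q (.inr (.inl f)) ≠ p → ∀ x ∈ maximalIdeal O,
    (x + s₀ f * ((Sys.q (.inr (.inl f)) : O) + 1)) ^ 2 = ((Sys.q (.inr (.inl f)) : O) + 1) ^ 2 ↔
      ∃ j, Sys.c f j = x
  Tr_ne : ∀ f, Sys.q (.inr (.inl f)) ≠ p →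
    Sys.Tr f = MvPowerSeries.X () + MvPowerSeries.C (s₀ f * ((Sys.q (.inr (.inl f)) : O) + 1))
  flip_eq : ∀ f, Sys.q (.inr (.inl f)) = p → ∀ S (ℓ : Lift ρbar S),
    Sys.flipCond f S ℓ ↔ DetCyclotomic p S ℓ ∧
      ∃ s, OrdinaryShape (Sys.P (.inr (.inl f))) S ℓ s ∧ S.red (s (φf f)) = residue O (s₀ f)
  flipA_eq : ∀ f, Sys.q (.inr (.inl f)) = p → ∀ S (ℓ : Lift ρbar S) s, DetCyclotomic p S ℓ →
    OrdinaryShape (Sys.P (.inr (.inl f))) S ℓ s → S.red (s (φf f)) = residue O (s₀ f) →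
      Sys.flipA f S ℓ = s (φf f) - S.alg (s₀ f)
  c_eq : ∀ f, Sys.q (.inr (.inl f)) = p → ∀ j, Sys.c f j = 0
  Tr_eq : ∀ f, Sys.q (.inr (.inl f)) = p →
    Sys.Tr f * (MvPowerSeries.X () + MvPowerSeries.C (s₀ f)) =
      (MvPowerSeries.X () + MvPowerSeries.C (s₀ f)) ^ 2 + MvPowerSeries.C (p : O)
  plain_ne : ∀ u, Sys.q (.inr (.inr u)) ≠ p → ∀ S (ℓ : Lift ρbar S),
    Sys.plainCond u S ℓ ↔ DetCyclotomic p S ℓ ∧ SteinbergShape (Sys.P (.inr (.inr u))) S ℓ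
  plain_ram : ∀ u, Sys.q (.inr (.inr u)) ≠ p →
    ∃ σ ∈ (Sys.P (.inr (.inr u))).inertiaSubgroupIn ℚ, ρbar σ ≠ 1
  /-- a plain place at `p` carries the flat condition -/
  flat : Prop
  plain_flat : flat → ∀ u, Sys.q (.inr (.inr u)) = p → ∀ S (ℓ : Lift ρbar S),
    Sys.plainCond u S ℓ ↔ DetCyclotomic p S ℓ ∧ FlatShape p S ℓ
  plain_st : ¬ flat → ∀ u, Sys.q (.inr (.inr u)) = p → ∀ S (ℓ : Lift ρbar S),
    Sys.plainCond u S ℓ ↔ DetCyclotomic p S ℓ ∧ SteinbergShape (Sys.P (.inr (.inr u))) S ℓ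
  exists_p : ∃ v, Sys.q v = p
  /-- a flip at `p` comes last -/
  flip_p_last : ∀ f : Fin Sys.s, Sys.q (.inr (.inl f)) = p → (f : ℕ) + 1 = Sys.s

/-- The auxiliary primes fed to the construction of towers. -/
structure TWPrimes (Sys : LocalSystem O ρbar p) where
  r : ℕ
  Q : ℕ → Finset ℕ
  card : ∀ n, (Q n).card = r
  prime : ∀ n, ∀ q ∈ Q n, q.Prime
  notPlace : ∀ n, ∀ q ∈ Q n, ∀ v, Sys.q v ≠ q
  one_mod : ∀ n, ∀ q ∈ Q n, p ^ n ∣ q - 1 ∧ p ∣ q - 1
  distinct : ∀ n, ∀ q ∈ Q n, ∀ A : ValuationSubring ℚbar, A.LiesOverPrime q → ∀ σ : GQ,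
    A.IsFrobeniusAt σ q →
      ∃ α β : ResidueField O, α ≠ β ∧ (ρbar σ).charpoly = (X - C α) * (X - C β)

end Fermat.Agent.Root.Patched
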