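import Fermat.Agent.Root.Patched.Models
import Fermat.Agent.Root.Patched.Standard

/-!
# Standard systems from models at the places

`SystemInput` lists the places with a model at each; it yields a `LocalSystem` with `StdData`.
-/

set_option autoImplicit false

noncomputable section

open IsLocalRing Polynomial

namespace Fermat.Agent.Root.Patched

open Fermat.Agent.Deformation Fermat.Agent.LocalRing

variable {O : Type} [CommRing O] [IsDomain O] [IsDiscreteValuationRing O]
  [IsAdicComplete (maximalIdeal O) O] [Finite (ResidueField O)]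

/-- The places, with models. -/
structure SystemInput (ρbar : GQ →* M2 (ResidueField O)) (p : ℕ) (ζ : O) where
  (r s t : ℕ)
  qa : Fin r → ℕ
  qf : Fin s → ℕ
  qp : Fin t → ℕ
  prime_a : ∀ i, (qa i).Prime
  prime_f : ∀ f, (qf f).Prime
  prime_p : ∀ u, (qp u).Prime
  injective : Function.Injective (Sum.elim qa (Sum.elim qf qp))
  flat : Prop
  avoid : ∀ i, AvoidModel ρbar p (qa i)
  flip : ∀ f, FlipModel ρbar p (qf f)
  plain : ∀ u, PlainModel ρbar p (qp u) flat
  prime : p.Prime
  p_ne_two : p ≠ 2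
  p_mem : (p : O) ∈ maximalIdeal O
  ζ_pow : ζ ^ p = 1
  ζ_ne : ζ ≠ 1
  exists_p : ∃ v, Sum.elim qa (Sum.elim qf qp) v = p
  last : ∀ f : Fin s, qf f = p → (f : ℕ) + 1 = s

namespace SystemInput

variable {ρbar : GQ →* M2 (ResidueField O)} {p : ℕ} {ζ : O} (I : SystemInput ρbar p ζ)

/-- One half. -/
def half : O := (LocalModel.exists_half I.p_mem I.prime I.p_ne_two).choose

omit [IsAdicComplete (maximalIdeal O) O] [Finite (ResidueField O)] in
theorem two_mul_half : 2 * I.half = 1 :=
  (LocalModel.exists_half I.p_mem I.prime I.p_ne_two).choose_spec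

include I in
omit [IsAdicComplete (maximalIdeal O) O] [Finite (ResidueField O)] in
theorem residue_ζ : residue O ζ = 1 := by
  have := Fact.mk I.prime
  have : CharP (ResidueField O) p := by
    refine (CharP.charP_iff_prime_eq_zero I.prime).mpr ?_
    rw [← map_natCast (residue O), residue_eq_zero_iff]
    exact I.p_mem
  refine frobenius_inj (ResidueField O) p ?_
  simp only [frobenius_def, ← map_pow, I.ζ_pow, map_one]

include I in
omit [IsAdicComplete (maximalIdeal O) O] [Finite (ResidueField O)] in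
theorem orderOf_ζ : orderOf ζ = p :=
  haveI := Fact.mk I.prime
  orderOf_eq_prime I.ζ_pow I.ζ_ne

/-- `ζ ^ k` for the class `b`. -/
def expo {p : ℕ} (b : Fin (p - 2 + 1)) : ℕ := (b : ℕ) + 1

include I in
omit [IsAdicComplete (maximalIdeal O) O] [Finite (ResidueField O)] in
theorem expo_lt (b : Fin (p - 2 + 1)) : expo b < p := by
  have := I.prime.two_le
  have := b.2
  simp only [expo]
  omega

omit [IsAdicComplete (maximalIdeal O) O] [Finite (ResidueField O)] in
include I in
theorem pow_expo_ne_one (b : Fin (p - 2 + 1)) : ζ ^ expo b ≠ 1 := fun h => by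
  have hd := orderOf_dvd_of_pow_eq_one h
  rw [I.orderOf_ζ] at hd
  have h1 := Nat.le_of_dvd (Nat.succ_pos (b : ℕ)) hd
  have h2 := I.expo_lt b
  simp only [expo, Nat.succ_eq_add_one] at h1 h2
  omega

omit [IsAdicComplete (maximalIdeal O) O] [Finite (ResidueField O)] in
include I in
theorem pow_sub_pow_ne_zero (b : Fin (p - 2 + 1)) :
    ζ ^ expo b - ζ ^ (expo b * (p - 1)) ≠ 0 := by
  intro h
  have hmul : ζ ^ expo b * ζ ^ (expo b * (p - 1)) = 1 := by
    rw [← pow_add, show expo b + expo b * (p - 1) = p * expo b by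
      have := I.prime.two_le
      obtain ⟨m, rfl⟩ : ∃ m, p = m + 1 := ⟨p - 1, by omega⟩
      simp only [Nat.add_sub_cancel]
      ring, pow_mul, I.ζ_pow, one_pow]
  have hd : orderOf ζ ∣ 2 * expo b := orderOf_dvd_of_pow_eq_one (by
    rw [two_mul, pow_add]
    rwa [← sub_eq_zero.mp h] at hmul)
  rw [I.orderOf_ζ] at hd
  rcases I.prime.dvd_mul.mp hd with h2 | h2
  · exact I.p_ne_two ((Nat.prime_dvd_prime_iff_eq I.prime Nat.prime_two).mp h2)
  · have h1 := Nat.le_of_dvd (Nat.succ_pos (b : ℕ)) h2
    have h3 := I.expo_lt b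
    simp only [expo, Nat.succ_eq_add_one] at h1 h3
    omega

omit [IsAdicComplete (maximalIdeal O) O] [Finite (ResidueField O)] in
theorem count : ∑ f, (I.flip f).k + ∑ u, (I.plain u).l ≤ 2 * I.s + 3 * I.t + 1 := by
  have hf : ∑ f, (I.flip f).k ≤ ∑ f, (2 + if I.qf f = p then 1 else 0) :=
    Finset.sum_le_sum fun f _ => (I.flip f).k_le
  have hp : ∑ u, (I.plain u).l ≤ ∑ u, (3 + if I.qp u = p then 1 else 0) :=
    Finset.sum_le_sum fun u _ => (I.plain u).l_le
  have h1 : (∑ f, if I.qf f = p then 1 else 0) + (∑ u, if I.qp u = p then 1 else 0) ≤ 1 := by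
    have e : (∑ v : Fin I.r ⊕ (Fin I.s ⊕ Fin I.t),
        if Sum.elim I.qa (Sum.elim I.qf I.qp) v = p then 1 else 0) ≤ 1 := by
      rw [Finset.sum_boole, Nat.cast_id, Finset.card_le_one]
      intro a ha b hb
      simp only [Finset.mem_filter] at ha hb
      exact I.injective (ha.2.trans hb.2.symm)
    simp only [Fintype.sum_sum_type, Sum.elim_inl, Sum.elim_inr] at e
    exact le_trans (Nat.le_add_left _ _) e
  simp only [Finset.sum_add_distrib, Finset.sum_const, Finset.card_univ, Fintype.card_fin,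
    smul_eq_mul] at hf hp
  omega

/-- The local system. -/
def system : LocalSystem O ρbar p where
  r := I.r
  s := I.s
  t := I.t
  q := Sum.elim I.qa (Sum.elim I.qf I.qp)
  q_prime := by rintro (i | f | u); exacts [I.prime_a i, I.prime_f f, I.prime_p u]
  q_injective := I.injective
  P := Sum.elim (fun i => (I.avoid i).P) (Sum.elim (fun f => (I.flip f).P) fun u => (I.plain u).P)
  P_over := by rintro (i | f | u); exacts [(I.avoid i).lies, (I.flip f).lies, (I.plain u).lies]
  isUnit_two := LocalModel.isUnit_two I.p_mem I.prime I.p_ne_two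
  κ i := (I.avoid i).κ
  κ_mem i := (I.avoid i).κ_mem
  φ i := (I.avoid i).φ
  τ i := (I.avoid i).τ
  nb := p - 2
  ζ b := ζ ^ expo b
  ζi b := ζ ^ (expo b * (p - 1))
  ε b := I.half * (ζ ^ expo b - ζ ^ (expo b * (p - 1)))
  ε_mem b := by
    rw [← residue_eq_zero_iff, map_mul, map_sub, map_pow, map_pow, I.residue_ζ, one_pow, one_pow,
      sub_self, mul_zero]
  ε_ne b := mul_ne_zero (fun h => by simpa [h] using I.two_mul_half) (I.pow_sub_pow_ne_zero b)
  ε_eq b := by rw [← mul_assoc, I.two_mul_half, one_mul]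
  avoidC i := (I.avoid i).C
  avoid_unip i := (I.avoid i).unip
  avoid_char i b := by
    refine (I.avoid i).char (ζ ^ expo b) (ζ ^ (expo b * (p - 1))) ?_ ?_ (I.pow_expo_ne_one b)
    · rw [← pow_add, show expo b + expo b * (p - 1) = p * expo b by
        have := I.prime.two_le
        obtain ⟨m, rfl⟩ : ∃ m, p = m + 1 := ⟨p - 1, by omega⟩
        simp only [Nat.add_sub_cancel]
        ring, pow_mul, I.ζ_pow, one_pow]
    · rw [← pow_mul, mul_comm, pow_mul, I.ζ_pow, one_pow]
  m f := (I.flip f).m
  c f := (I.flip f).c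
  c_mem f := (I.flip f).c_mem
  c_injective f := (I.flip f).c_injective
  k f := (I.flip f).k
  flipCond f := (I.flip f).cond
  flipClosed f := (I.flip f).closed
  flipC f := (I.flip f).C
  flip_rel f := (I.flip f).rel
  a_conj f := (I.flip f).a_conj
  Tr f := (I.flip f).Tr
  det_eq f := (I.flip f).det_eq
  l u := (I.plain u).l
  plainCond u := (I.plain u).cond
  plainClosed u := (I.plain u).closed
  plainC u := (I.plain u).C
  count := I.count

/-- It is standard. -/
def stdData : StdData I.system ζ where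
  avoid_mod i := (I.avoid i).mod
  avoid_frob i := (I.avoid i).frob
  avoid_tame i := (I.avoid i).tame
  avoid_inertia i := (I.avoid i).inertia
  avoid_scalar i := (I.avoid i).scalar
  classes k hk := by
    have hp := I.prime.two_le
    have hmod : k % p ≠ 0 := fun h => hk (Nat.dvd_of_mod_eq_zero h)
    have hlt : k % p < p := Nat.mod_lt _ (by omega)
    refine ⟨⟨k % p - 1, show k % p - 1 < p - 2 + 1 by omega⟩, ?_, ?_⟩
    · show ζ ^ (k % p - 1 + 1) + ζ ^ ((k % p - 1 + 1) * (p - 1)) = _
      rw [show k % p - 1 + 1 = k % p by omega, pow_mul, pow_mul,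
        show ζ ^ k = ζ ^ (k % p) by
          conv_lhs => rw [← Nat.mod_add_div k p, pow_add, pow_mul, I.ζ_pow, one_pow, mul_one]]
    · show ζ ^ (k % p - 1 + 1) * ζ ^ ((k % p - 1 + 1) * (p - 1)) = 1
      rw [← pow_add, show k % p - 1 + 1 + (k % p - 1 + 1) * (p - 1) = p * (k % p - 1 + 1) by
        obtain ⟨m, rfl⟩ : ∃ m, p = m + 1 := ⟨p - 1, by omega⟩
        simp only [Nat.add_sub_cancel]
        ring, pow_mul, I.ζ_pow, one_pow]
  s₀ f := (I.flip f).s₀
  s₀_sq f := (I.flip f).s₀_sq
  φf f := (I.flip f).φ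
  φf_frob f := (I.flip f).frob
  flip_ne f := (I.flip f).cond_ne
  flip_inertia f := (I.flip f).inertia
  flipA_ne f := (I.flip f).a_ne
  c_ne f := (I.flip f).c_ne
  Tr_ne f := (I.flip f).Tr_ne
  flip_eq f := (I.flip f).cond_eq
  flipA_eq f := (I.flip f).a_eq
  c_eq f := (I.flip f).c_eq
  Tr_eq f := (I.flip f).Tr_eq
  plain_ne u := (I.plain u).cond_ne
  plain_ram u := (I.plain u).ram
  flat := I.flat
  plain_flat h u := (I.plain u).cond_flat h
  plain_st h u := (I.plain u).cond_st h
  exists_p := I.exists_p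
  flip_p_last := I.last

end SystemInput

end Fermat.Agent.Root.Patched
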