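import Fermat.Agent.Root.Patched.TowerMap
import Fermat.Agent.Root.Patched.Standard

/-!
# The level of a stage of a tower

What the construction of Hecke modules needs of a level `N` of stage
`0`: the avoidance places, the ramified places and `p` when the condition there is Steinberg.
Stage `i` adds the first `i` flip places.  The tower may use a subsequence of the auxiliary primes.
-/

set_option autoImplicit false

noncomputable section

open IsLocalRing

namespace Fermat.Agent.Root.Patched

open Fermat.Agent.Deformation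

variable {O : Type} [CommRing O] [IsDomain O] [IsDiscreteValuationRing O]
  [IsAdicComplete (maximalIdeal O) O] [Finite (ResidueField O)] [CharZero O]
  {p : ℕ} [Fact p.Prime] {W : WeierstrassCurve ℤ}

/-- A prime of the level carrying no condition: `ρbar` is unramified there and does not satisfy
the congruence of level raising, so the members are unramified there. -/
structure Harmless {ρbar : GQ →* M2 (ResidueField O)} (Sys : LocalSystem O ρbar p) (q : ℕ) :
    Prop where
  mod : q % p ≠ 1
  ne : q ≠ p
  notPlace : ∀ v, Sys.q v ≠ q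
  inertia : ∀ P : ValuationSubring (AlgebraicClosure ℚ), P.LiesOverPrime q →
    ∀ σ ∈ P.inertiaSubgroupIn ℚ, ρbar σ = 1
  det : ∀ P : ValuationSubring (AlgebraicClosure ℚ), P.LiesOverPrime q →
    ∀ σ : GQ, P.IsFrobeniusAt σ q → (ρbar σ).det = (q : ResidueField O)
  trace : ∀ P : ValuationSubring (AlgebraicClosure ℚ), P.LiesOverPrime q →
    ∀ σ : GQ, P.IsFrobeniusAt σ q → (ρbar σ).trace ^ 2 ≠ ((q : ResidueField O) + 1) ^ 2

/-- The level of a stage of the tower. -/
structure StageLevel {ρbar : GQ →* M2 (ResidueField O)} (Sys : LocalSystem O ρbar p) {ζ : O}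
    (St : StdData Sys ζ) (W : WeierstrassCurve ℤ) (N : ℕ) : Prop where
  squarefree : Squarefree N
  primes : ∀ q : ℕ, q.Prime → q ∣ N → ((∃ i, Sys.q (.inl i) = q) ∨
    ∃ u, Sys.q (.inr (.inr u)) = q ∧ (q = p → ¬ St.flat)) ∨ Harmless Sys q
  dvd : ∀ q : ℕ, q.Prime → ((∃ i, Sys.q (.inl i) = q) ∨
    ∃ u, Sys.q (.inr (.inr u)) = q ∧ (q = p → ¬ St.flat)) → q ∣ N
  residual : ∃ M, M ∣ N ∧ ResNewform p W M
  /-- with a Steinberg condition at `p` nothing residual is old there -/
  new_at_p : ¬ St.flat → ∀ u, Sys.q (.inr (.inr u)) = p → ∀ M₁,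
    M₁ ∣ N * ∏ f, Sys.q (.inr (.inl f)) → ResNewform p W M₁ → p ∣ M₁
  /-- no elliptic points of order three in the way when `p = 3` -/
  three : p = 3 → ∃ q : ℕ, q.Prime ∧ q ∣ N ∧ q % 3 = 2

end Fermat.Agent.Root.Patched
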