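import Fermat.Agent.Root.Patched.LiftingPlaces
import Fermat.Agent.Root.Patched.System
import Fermat.Agent.Root.Patched.TowerExists
import Fermat.Agent.Root.Residual
import Fermat.Agent.Root.AuxThreeExists

/-!
# The local system of a lifting problem

Avoidance at the unramified bad or level primes `≡ 1 (mod p)` with scalar Frobenius, flips at the
other unramified bad primes, Steinberg at the ramified primes.  At `p`: flat if `W` is good, an
ordinary flip (last) if `W` is bad and the residual level is prime to `p`, Steinberg otherwise.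
-/

set_option autoImplicit false

noncomputable section

open IsLocalRing

namespace Fermat.Agent.Root.Patched

open Fermat.Agent.Deformation

local notation "ℚbar" => AlgebraicClosure ℚ

variable {O : Type} [CommRing O] [IsDomain O] [IsDiscreteValuationRing O]
  [IsAdicComplete (maximalIdeal O) O] [Finite (ResidueField O)] [CharZero O]
  {p : ℕ} [Fact p.Prime] {W : WeierstrassCurve ℤ}

/-- An injective enumeration of a finite set. -/
theorem exists_enum (s : Finset ℕ) :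
    ∃ f : Fin s.card → ℕ, Function.Injective f ∧ ∀ x, x ∈ s ↔ ∃ i, f i = x :=
  ⟨fun i => (s.equivFin.symm i : ℕ), fun _ _ h => s.equivFin.symm.injective (Subtype.ext h),
    fun x => ⟨fun hx => ⟨s.equivFin ⟨x, hx⟩, by simp⟩, fun ⟨i, hi⟩ => hi ▸ (s.equivFin.symm i).2⟩⟩

/-- An enumeration of a finite set with a given element last. -/
theorem exists_enum_last (s : Finset ℕ) (a : ℕ) :
    ∃ (n : ℕ) (f : Fin n → ℕ), Function.Injective f ∧ (∀ x, x ∈ s ↔ ∃ i, f i = x) ∧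
      ∀ i : Fin n, f i = a → (i : ℕ) + 1 = n := by
  classical
  by_cases ha : a ∈ s
  · obtain ⟨g, hg, hgs⟩ := exists_enum (s.erase a)
    refine ⟨(s.erase a).card + 1, Fin.snoc g a, Fin.snoc_injective_iff.mpr ⟨hg, ?_⟩, fun x => ?_,
      fun i hi => ?_⟩
    · rintro ⟨i, hi⟩
      exact absurd ((hgs a).mpr ⟨i, hi⟩) (Finset.notMem_erase a s)
    · constructor
      · intro hx
        by_cases hxa : x = a
        · exact ⟨Fin.last _, by rw [Fin.snoc_last, hxa]⟩
        · obtain ⟨i, hi⟩ := (hgs x).mp (Finset.mem_erase.mpr ⟨hxa, hx⟩)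
          exact ⟨i.castSucc, by rw [Fin.snoc_castSucc, hi]⟩
      · rintro ⟨i, rfl⟩
        refine Fin.lastCases ?_ (fun j => ?_) i
        · rw [Fin.snoc_last]; exact ha
        · rw [Fin.snoc_castSucc]
          exact Finset.mem_of_mem_erase ((hgs _).mpr ⟨j, rfl⟩)
    · induction i using Fin.lastCases with
      | last => simp
      | cast j =>
        rw [Fin.snoc_castSucc] at hi
        exact absurd ((hgs a).mpr ⟨j, hi⟩) (Finset.notMem_erase a s)
  · obtain ⟨g, hg, hgs⟩ := exists_enum s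
    exact ⟨s.card, g, hg, hgs, fun i hi => absurd ((hgs a).mpr ⟨i, hi⟩) ha⟩

omit [CharZero O] in
/-- An auxiliary prime at `3` outside the places is harmless. -/
theorem ResidualData.harmless_of_auxThree (D : ResidualData O p W) {Sys : LocalSystem O D.ρbar p}
    {q : ℕ} (hp3 : p = 3) (hq : AuxThree W q) (hne : ∀ v, Sys.q v ≠ q) : Harmless Sys q := by
  subst hp3
  have hq3 : q ≠ 3 := fun e => by have := hq.mod; omega
  have : CharP (ResidueField O) 3 := charP_of_injective_ringHom D.ι.injective 3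
  refine ⟨fun e => by have := hq.mod; omega, hq3, hne, fun P hP σ hσ => ?_, fun P hP σ hσ => ?_,
    fun P hP σ hσ e => ?_⟩
  · rw [← D.point.reduces σ, (D.point_good q hq.prime hq.good hq3 P hP).1 σ hσ]
    exact Matrix.map_one _ (map_zero _) (map_one _)
  · rw [← D.point.reduces σ]
    refine ((TestRing.self O).red.map_det _).symm.trans ?_
    rw [(TW.trace_det_of_charpoly_eq ((D.point_good q hq.prime hq.good hq3 P hP).2 σ hσ)).2]
    exact map_natCast _ q
  · have htr : (D.ρbar σ).trace = ((W.apOfModel q : ℤ) : ResidueField O) := by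
      rw [← D.point.reduces σ]
      refine ((AddMonoidHom.map_trace (TestRing.self O).red.toAddMonoidHom _).symm).trans ?_
      show (TestRing.self O).red (D.point.M σ).trace = _
      rw [(TW.trace_det_of_charpoly_eq ((D.point_good q hq.prime hq.good hq3 P hP).2 σ hσ)).1,
        map_intCast]
    have h0 : ((q + 1 : ℕ) : ResidueField O) = 0 :=
      (CharP.cast_eq_zero_iff _ 3 _).mpr (by have := hq.mod; omega)
    rw [Nat.cast_add, Nat.cast_one] at h0
    rw [htr, h0] at e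
    exact hq.ap ((CharP.intCast_eq_zero_iff (ResidueField O) 3 _).mp
      ((pow_eq_zero_iff two_ne_zero).mp (e.trans (zero_pow two_ne_zero))))

/-- **The local system of a lifting problem.** -/
theorem exists_liftingSystem (hp2 : p ≠ 2) (hW : Semistable W) (hirr : W.ModRepIsIrreducible p)
    (D : ResidualData O p W) (hadj : AdjointIrreducible p W) (M : ℕ) (hM : Squarefree M)
    (h : ResNewform p W M)
    (hpM : p ∣ M → (p : ℤ) ∣ W.Δ)
    (hmin : ∀ q : ℕ, q.Prime → q ∣ M → q ≠ p → (q % p = 1 ∧ FrobScalarMod p W q) ∨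
      ¬ UnramifiedMod p W q)
    (hnew : p ∣ M → ∀ M₁, Squarefree M₁ → ResNewform p W M₁ → p ∣ M₁) :
    ∃ (Sys : LocalSystem O D.ρbar p) (St : StdData Sys D.ζ) (N : ℕ),
      StageLevel Sys St W N ∧
      (∀ v, Sys.Cond v (TestRing.self O) D.point) ∧
      (∀ i, Unipotent (Sys.P (.inl i)) (TestRing.self O) D.point) ∧
      (∀ q : ℕ, q.Prime → (q : ℤ) ∣ W.Δ → ∃ v, Sys.q v = q) ∧
      (∀ f, ((Sys.q (.inr (.inl f)) : ℕ) : ℤ) ∣ W.Δ) ∧
      (∀ q : ℕ, q.Prime → (∀ v, Sys.q v ≠ q) → ∀ A : ValuationSubring ℚbar, A.LiesOverPrime q →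
        ∀ σ ∈ A.inertiaSubgroupIn ℚ, D.ρ₀ σ = 1) ∧
      Squarefree (N * ∏ f, Sys.q (.inr (.inl f))) := by
  classical
  have hp : p.Prime := Fact.out
  have hM0 : M ≠ 0 := hM.ne_zero
  have hgood : ∀ q : ℕ, q.Prime → q ≠ p → ¬ UnramifiedMod p W q → (q : ℤ) ∣ W.Δ :=
    fun q hq hqp hr => by_contra fun hb => hr (D.unramifiedMod_of_good hq hqp hb)
  have hdvd : ∀ q : ℕ, q.Prime → q ≠ p → ¬ UnramifiedMod p W q → q ∣ M := fun q hq hqp hr =>
    dvd_of_not_unramifiedMod W hW p M hp hp2 hirr h hq hqp hr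
  set bad := W.Δ.natAbs.primeFactors with hbad_def
  have hmemB : ∀ q, q ∈ bad ↔ q.Prime ∧ (q : ℤ) ∣ W.Δ := fun q => by
    simp [hbad_def, Nat.mem_primeFactors, Int.natCast_dvd, Int.natAbs_eq_zero, hW.ne]
  set Av : Finset ℕ := (bad ∪ M.primeFactors).filter fun q =>
    q ≠ p ∧ UnramifiedMod p W q ∧ q % p = 1 ∧ FrobScalarMod p W q with hAv
  set Fl : Finset ℕ := bad.filter fun q =>
    (q = p ∧ ¬ p ∣ M) ∨
      (q ≠ p ∧ UnramifiedMod p W q ∧ ¬ (q % p = 1 ∧ FrobScalarMod p W q)) with hFl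
  set Pl : Finset ℕ := (insert p M.primeFactors).filter fun q =>
    (q = p ∧ ((p : ℤ) ∣ W.Δ → p ∣ M)) ∨ (q ≠ p ∧ ¬ UnramifiedMod p W q) with hPl
  have hmemA : ∀ q, q ∈ Av ↔ ((q.Prime ∧ (q : ℤ) ∣ W.Δ) ∨ (q.Prime ∧ q ∣ M)) ∧
      q ≠ p ∧ UnramifiedMod p W q ∧ q % p = 1 ∧ FrobScalarMod p W q := fun q => by
    simp [hAv, hmemB, Nat.mem_primeFactors, hM0]
  have hmemF : ∀ q, q ∈ Fl ↔ (q.Prime ∧ (q : ℤ) ∣ W.Δ) ∧ ((q = p ∧ ¬ p ∣ M) ∨
      (q ≠ p ∧ UnramifiedMod p W q ∧ ¬ (q % p = 1 ∧ FrobScalarMod p W q))) := fun q => by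
    simp [hFl, hmemB]
  have hmemP : ∀ q, q ∈ Pl ↔ (q = p ∧ ((p : ℤ) ∣ W.Δ → p ∣ M)) ∨
      (q.Prime ∧ q ∣ M ∧ q ≠ p ∧ ¬ UnramifiedMod p W q) := fun q => by
    simp only [hPl, Finset.mem_filter, Finset.mem_insert, Nat.mem_primeFactors]
    tauto
  have hAprime : ∀ q ∈ Av, q.Prime := fun q hq => ((hmemA q).mp hq).1.elim And.left And.left
  have hFprime : ∀ q ∈ Fl, q.Prime := fun q hq => ((hmemF q).mp hq).1.1
  have hPprime : ∀ q ∈ Pl, q.Prime := fun q hq =>
    ((hmemP q).mp hq).elim (fun e => e.1 ▸ hp) And.left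
  obtain ⟨qa, hqa_inj, hqa⟩ := exists_enum Av
  obtain ⟨s, qf, hqf_inj, hqf, hlast⟩ := exists_enum_last Fl p
  obtain ⟨qp, hqp_inj, hqp⟩ := exists_enum Pl
  have hA : ∀ i, qa i ∈ Av := fun i => (hqa _).mpr ⟨i, rfl⟩
  have hF : ∀ f, qf f ∈ Fl := fun f => (hqf _).mpr ⟨f, rfl⟩
  have hP : ∀ u, qp u ∈ Pl := fun u => (hqp _).mpr ⟨u, rfl⟩
  -- the three kinds of places are disjoint
  have dAF : ∀ q, q ∈ Av → q ∈ Fl → False := fun q ha hf => by
    obtain ⟨-, hne, -, h1, h2⟩ := (hmemA q).mp ha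
    rcases ((hmemF q).mp hf).2 with ⟨e, -⟩ | ⟨-, -, hn⟩
    exacts [hne e, hn ⟨h1, h2⟩]
  have dAP : ∀ q, q ∈ Av → q ∈ Pl → False := fun q ha hp' => by
    obtain ⟨-, hne, hu, -⟩ := (hmemA q).mp ha
    rcases (hmemP q).mp hp' with ⟨e, -⟩ | ⟨-, -, -, hr⟩
    exacts [hne e, hr hu]
  have dFP : ∀ q, q ∈ Fl → q ∈ Pl → False := fun q hf hp' => by
    obtain ⟨⟨-, hΔ⟩, hf⟩ := (hmemF q).mp hf
    rcases (hmemP q).mp hp' with ⟨e, hc⟩ | ⟨-, -, hne, hr⟩
    · rcases hf with ⟨-, hn⟩ | ⟨hne, -⟩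
      exacts [hn (hc (e ▸ hΔ)), hne e]
    · rcases hf with ⟨e, -⟩ | ⟨-, hu, -⟩
      exacts [hne e, hr hu]
  have hinj : Function.Injective (Sum.elim qa (Sum.elim qf qp)) := by
    refine hqa_inj.sumElim (hqf_inj.sumElim hqp_inj fun f u e => ?_) fun i => ?_
    · exact dFP _ (hF f) (e ▸ hP u)
    · rintro (f | u) e
      · exact dAF _ (hA i) (e ▸ hF f)
      · exact dAP _ (hA i) (e ▸ hP u)
  -- the models
  have avoid : ∀ i, Nonempty (AvoidModel D.ρbar p (qa i)) := fun i => by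
    obtain ⟨-, -, hu, h1, h2⟩ := (hmemA _).mp (hA i)
    obtain ⟨P, hP'⟩ := Gal.exists_liesOverPrime (L := ℚbar) (hAprime _ (hA i))
    exact nonempty_avoidModel hp2 D.p_mem (hAprime _ (hA i)) h1 P hP'
      (fun σ hσ => (D.ρbar_eq_one_iff σ).mpr ((D.unramifiedMod_iff _).mp hu P hP' σ hσ))
      fun σ hσ => D.scalar_of_frobScalarMod h2 hP' σ hσ
  have flip : ∀ f, ∃ F : FlipModel D.ρbar p (qf f), F.cond (TestRing.self O) D.point := fun f => by
    obtain ⟨⟨hq, hΔ⟩, hc⟩ := (hmemF _).mp (hF f)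
    obtain ⟨P, hP'⟩ := Gal.exists_liesOverPrime (L := ℚbar) hq
    obtain ⟨φ₀, hφ₀⟩ := Gal.exists_isFrobeniusAt hq hP'
    let φ : P.decompositionSubgroup ℚ := ⟨φ₀, ((Gal.isFrobeniusAt_iff _ _ _).mp hφ₀).1⟩
    have hφ : P.IsFrobeniusAt (φ : GQ) (qf f) := hφ₀
    rcases hc with ⟨e, hpM'⟩ | ⟨hne, hu, hn⟩
    · revert φ
      generalize qf f = q at *
      subst e
      intro φ hφ
      obtain ⟨s, hs, hsq⟩ := D.point_bad q hq hΔ P hP'
      have hs₀ : s φ = 1 ∨ s φ = -1 := by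
        obtain ⟨a, ha⟩ : ∃ a : O, a = s φ := ⟨_, rfl⟩
        have hh : a * a = 1 := by subst ha; exact hsq φ
        rcases mul_self_eq_one_iff.mp hh with hh | hh
        · exact Or.inl (ha ▸ hh)
        · exact Or.inr (ha ▸ hh)
      have hflat := D.flat_ρbar hp2 hW hirr M hM0 h hpM'
      obtain ⟨F, hF⟩ := exists_flipModel_eq (ρbar := D.ρbar) hp2 D.p_mem P hP' φ hφ (s φ) hs₀
        fun S r hm => ⟨D.det_of_bot S r hm, D.flatShape_of_bot hflat S r hm⟩
      exact ⟨F, hF _ _ D.point_det ⟨s, hs, rfl⟩⟩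
    · obtain ⟨s₀, hs₀, htr, -⟩ := D.exists_sign hq hne hΔ hP' φ hφ
      obtain ⟨F⟩ := nonempty_flipModel_ne (ρbar := D.ρbar) hp2 D.p_mem hq hne P hP'
        (fun σ hσ => (D.ρbar_eq_one_iff σ).mpr ((D.unramifiedMod_iff _).mp hu P hP' σ hσ)) φ hφ
        (fun hs => hn (D.scalar_bad hq hne hΔ hu hP' φ hφ hs)) s₀ hs₀ htr
      exact ⟨F, (F.cond_ne hne _ _).mpr ⟨D.point_det, D.unipotent_point hq hne F.lies⟩⟩
  have plain : ∀ u, ∃ L : PlainModel D.ρbar p (qp u) (¬ p ∣ M),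
      L.cond (TestRing.self O) D.point := fun u => by
    obtain ⟨P, hP'⟩ := Gal.exists_liesOverPrime (L := ℚbar) (hPprime _ (hP u))
    rcases (hmemP _).mp (hP u) with ⟨e, hc⟩ | ⟨hq, -, hne, hr⟩
    · generalize qp u = q at *
      subst e
      by_cases hd : q ∣ M
      · obtain ⟨L⟩ := nonempty_steinbergModel (ρbar := D.ρbar) hp2 D.p_mem P hP'
          (flat := ¬ q ∣ M) (not_not.mpr hd)
        exact ⟨L, (L.cond_st (not_not.mpr hd) rfl _ _).mpr
          ⟨D.point_det, D.point_bad q hp (hpM hd) L.P L.lies⟩⟩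
      · have hgp : ¬ (q : ℤ) ∣ W.Δ := fun hΔ => hd (hc hΔ)
        obtain ⟨L⟩ := nonempty_flatModel (ρbar := D.ρbar) hp2 D.p_mem P hP'
          (fun S r hm => D.residual_flat_of_good hgp S r hm)
          (flat := ¬ q ∣ M) hd
        exact ⟨L, (L.cond_flat hd rfl _ _).mpr ⟨D.point_det, D.point_flat hgp⟩⟩
    · obtain ⟨L⟩ := nonempty_ramModel (ρbar := D.ρbar) hp2 D.p_mem hq hne P hP'
        (D.exists_ramified hq hr hP') (¬ p ∣ M)
      exact ⟨L, (L.cond_ne hne _ _).mpr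
        ⟨D.point_det, D.point_bad _ hq (hgood _ hq hne hr) L.P L.lies⟩⟩
  choose Fm hFm using flip
  choose Lm hLm using plain
  have hex : ∃ v, Sum.elim qa (Sum.elim qf qp) v = p := by
    by_cases hc : (p : ℤ) ∣ W.Δ → p ∣ M
    · obtain ⟨u, hu⟩ := (hqp p).mp ((hmemP p).mpr (Or.inl ⟨rfl, hc⟩))
      exact ⟨.inr (.inr u), hu⟩
    · push Not at hc
      obtain ⟨f, hf⟩ := (hqf p).mp ((hmemF p).mpr ⟨⟨hp, hc.1⟩, Or.inl ⟨rfl, hc.2⟩⟩)
      exact ⟨.inr (.inl f), hf⟩
  have hcover : ∀ q : ℕ, q.Prime → (q : ℤ) ∣ W.Δ → ∃ v, Sum.elim qa (Sum.elim qf qp) v = q := by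
    intro q hq hΔ
    by_cases hqe : q = p
    · exact hqe ▸ hex
    by_cases hu : UnramifiedMod p W q
    · by_cases hs : q % p = 1 ∧ FrobScalarMod p W q
      · obtain ⟨i, hi⟩ := (hqa q).mp ((hmemA q).mpr ⟨Or.inl ⟨hq, hΔ⟩, hqe, hu, hs⟩)
        exact ⟨.inl i, hi⟩
      · obtain ⟨f, hf⟩ := (hqf q).mp ((hmemF q).mpr ⟨⟨hq, hΔ⟩, Or.inr ⟨hqe, hu, hs⟩⟩)
        exact ⟨.inr (.inl f), hf⟩
    · obtain ⟨u, hu'⟩ := (hqp q).mp ((hmemP q).mpr (Or.inr ⟨hq, hdvd q hq hqe hu, hqe, hu⟩))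
      exact ⟨.inr (.inr u), hu'⟩
  let I : SystemInput D.ρbar p D.ζ :=
    { r := Av.card
      s := s
      t := Pl.card
      qa := qa
      qf := qf
      qp := qp
      prime_a := fun i => hAprime _ (hA i)
      prime_f := fun f => hFprime _ (hF f)
      prime_p := fun u => hPprime _ (hP u)
      injective := hinj
      flat := ¬ p ∣ M
      avoid := fun i => (avoid i).some
      flip := Fm
      plain := Lm
      prime := hp
      p_ne_two := hp2
      p_mem := D.p_mem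
      ζ_pow := D.ζ_pow
      ζ_ne := D.ζ_ne
      exists_p := hex
      last := hlast }
  -- a harmless prime at `p = 3`
  obtain ⟨Ax, hAx, hAx3⟩ : ∃ Ax : Finset ℕ,
      (∀ x ∈ Ax, p = 3 ∧ AuxThree W x ∧ x ∉ insert p (bad ∪ M.primeFactors)) ∧
        (p = 3 → Ax.Nonempty) := by
    by_cases hp3 : p = 3
    · obtain ⟨x, hx, hxB⟩ := exists_auxThree W hW (by rw [← hp3]; exact hirr)
        (by rw [← hp3]; exact hadj) (insert p (bad ∪ M.primeFactors))
      refine ⟨{x}, fun y hy => ?_, fun _ => ⟨x, Finset.mem_singleton_self x⟩⟩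
      rw [Finset.mem_singleton.mp hy]
      exact ⟨hp3, hx, hxB⟩
    · exact ⟨∅, fun y hy => absurd hy (Finset.notMem_empty y), fun e => absurd e hp3⟩
  have hAxne : ∀ x ∈ Ax, ∀ v, Sum.elim qa (Sum.elim qf qp) v ≠ x := fun x hx v e => by
    refine (hAx x hx).2.2 ?_
    simp only [Finset.mem_insert, Finset.mem_union, Nat.mem_primeFactors, hmemB, ne_eq]
    subst e
    rcases v with i | f | u
    · rcases ((hmemA _).mp (hA i)).1 with h' | ⟨h', h''⟩
      exacts [Or.inr (Or.inl h'), Or.inr (Or.inr ⟨h', h'', hM0⟩)]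
    · exact Or.inr (Or.inl ((hmemF _).mp (hF f)).1)
    · rcases (hmemP _).mp (hP u) with ⟨h', -⟩ | ⟨h', h'', -⟩
      exacts [Or.inl h', Or.inr (Or.inr ⟨h', h'', hM0⟩)]
  -- the level
  set NS₀ : Finset ℕ := Av ∪ Pl.filter fun q => q = p → p ∣ M with hNS₀
  set NS : Finset ℕ := NS₀ ∪ Ax with hNS
  have hNprime : ∀ q ∈ NS, q.Prime := fun q hq =>
    (Finset.mem_union.mp hq).elim (fun hq => (Finset.mem_union.mp hq).elim (hAprime q)
      fun h' => hPprime q (Finset.mem_filter.mp h').1) fun h' => (hAx q h').2.1.prime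
  have hMNS : M.primeFactors ⊆ NS := fun q hq => by
    refine Finset.mem_union_left _ ?_
    obtain ⟨hq, hqM, -⟩ := Nat.mem_primeFactors.mp hq
    by_cases hqe : q = p
    · subst hqe
      exact Finset.mem_union_right _ (Finset.mem_filter.mpr
        ⟨(hmemP q).mpr (Or.inl ⟨rfl, fun _ => hqM⟩), fun _ => hqM⟩)
    by_cases hu : UnramifiedMod p W q
    · obtain ⟨h1, h2⟩ := (hmin q hq hqM hqe).resolve_right (not_not.mpr hu)
      exact Finset.mem_union_left _ ((hmemA q).mpr ⟨Or.inr ⟨hq, hqM⟩, hqe, hu, h1, h2⟩)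
    · exact Finset.mem_union_right _ (Finset.mem_filter.mpr
        ⟨(hmemP q).mpr (Or.inr ⟨hq, hqM, hqe, hu⟩), fun e => absurd e hqe⟩)
  have hsq : Squarefree ((∏ x ∈ NS, x) * ∏ f, qf f) := by
    have himg : ∏ f, qf f = ∏ x ∈ Finset.univ.image qf, x := by
      rw [Finset.prod_image fun a _ b _ e => hqf_inj e]
    have hdis : Disjoint NS (Finset.univ.image qf) := Finset.disjoint_left.mpr fun q hq hq' => by
      obtain ⟨f, -, rfl⟩ := Finset.mem_image.mp hq'
      rcases Finset.mem_union.mp hq with hq | h'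
      swap
      · exact hAxne _ h' (.inr (.inl f)) rfl
      rcases Finset.mem_union.mp hq with h' | h'
      · exact dAF _ h' (hF f)
      · exact dFP _ (hF f) (Finset.mem_filter.mp h').1
    rw [himg, ← Finset.prod_union hdis]
    refine squarefree_prod_primes fun q hq => ?_
    rcases Finset.mem_union.mp hq with h' | h'
    · exact hNprime q h'
    · obtain ⟨f, -, rfl⟩ := Finset.mem_image.mp h'
      exact hFprime _ (hF f)
  refine ⟨I.system, I.stdData, ∏ x ∈ NS, x,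
    { squarefree := squarefree_prod_primes hNprime
      primes := fun q hq hd => ?_
      dvd := fun q hq hd => ?_
      residual := ⟨M, (Nat.prod_primeFactors_of_squarefree hM) ▸
        Finset.prod_dvd_prod_of_subset _ _ _ hMNS, h⟩
      new_at_p := fun hflat _ _ M₁ hd h₁ =>
        hnew (not_not.mp hflat) M₁ (hsq.squarefree_of_dvd hd) h₁
      three := fun h3 => ?_ }, ?_, fun i => ?_, hcover, fun f => ((hmemF _).mp (hF f)).1.2,
    fun q hq hno A hA' σ hσ => ?_, hsq⟩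
  · rcases Finset.mem_union.mp ((prime_dvd_prod_iff hNprime hq).mp hd) with hd | hd
    · rw [hNS₀, Finset.mem_union, hqa, Finset.mem_filter (s := Pl), hqp] at hd
      rcases hd with hi | ⟨⟨u, hu⟩, hc⟩
      · exact Or.inl (Or.inl hi)
      · exact Or.inl (Or.inr ⟨u, hu, fun e hfl => hfl (hc e)⟩)
    · exact Or.inr (D.harmless_of_auxThree (hAx q hd).1 (hAx q hd).2.1 (hAxne q hd))
  · refine (prime_dvd_prod_iff hNprime hq).mpr (Finset.mem_union_left _ ?_)
    rw [hNS₀, Finset.mem_union, hqa, Finset.mem_filter (s := Pl), hqp]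
    rcases hd with hi | ⟨u, hu, hc⟩
    · exact Or.inl hi
    · exact Or.inr ⟨⟨u, hu⟩, fun e => not_not.mp (hc e)⟩
  · obtain ⟨x, hx⟩ := hAx3 h3
    exact ⟨x, (hAx x hx).2.1.prime,
      (prime_dvd_prod_iff hNprime (hAx x hx).2.1.prime).mpr (Finset.mem_union_right _ hx),
      (hAx x hx).2.1.mod⟩
  · rintro (i | f | u)
    · exact D.point_det
    · exact hFm f
    · exact hLm u
  · exact D.unipotent_point (hAprime _ (hA i)) ((hmemA _).mp (hA i)).2.1 (I.avoid i).lies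
  · by_contra hne
    by_cases hqe : q = p
    · obtain ⟨v, hv⟩ := hex
      exact hno v (hv.trans hqe.symm)
    · have hr : ¬ UnramifiedMod p W q := fun hu =>
        hne ((D.unramifiedMod_iff q).mp hu A hA' σ hσ)
      obtain ⟨v, hv⟩ := hcover q hq (hgood q hq hqe hr)
      exact hno v hv

end Fermat.Agent.Root.Patched
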