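import Fermat.Agent.RootIrred.Adjoint

/-!
# The adjoint representation stays irreducible over larger finite fields

A stable subspace over `K` gives a stable line; its rational components lie in the subspace on
which the adjoint image commutes, so the image is commutative, hence trivial.
-/

set_option autoImplicit false

namespace Fermat.Agent.Root.Patched

open Matrix Fermat.Agent.RootIrred

variable {k K : Type*} [Field k] [Field K] {Γ : Type*} [Group Γ]

/-- Conjugation commutes with rational functionals. -/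
theorem map_functional_mul (ι : k →+* K) (φ : K →+ k) (hφ : ∀ a x, φ (ι a * x) = a * φ x)
    (A B : Matrix (Fin 2) (Fin 2) k) (x : Matrix (Fin 2) (Fin 2) K) :
    (A.map ι * x * B.map ι).map φ = A * x.map φ * B := by
  ext i j
  simp only [Matrix.map_apply, Matrix.mul_apply, Fin.sum_univ_two, map_add]
  have e : ∀ a b y, φ (ι a * y * ι b) = a * φ y * b := fun a b y => by
    rw [mul_assoc, hφ, mul_comm y, hφ]; ring
  simp only [add_mul, map_add, e]

/-- **Irreducibility of the adjoint representation is absolute.** -/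
theorem adjoint_baseChange (h2 : (2 : k) ≠ 0) (ι : k →+* K) (R : Γ →* Matrix (Fin 2) (Fin 2) k)
    (H : Subgroup Γ)
    (hadj : ∀ U : Submodule k (Matrix (Fin 2) (Fin 2) k), (∀ x ∈ U, x.trace = 0) →
      (∀ h ∈ H, ∀ x ∈ U, conjBy R h x ∈ U) → U = ⊥ ∨ ∀ x, x.trace = 0 → x ∈ U)
    (U : Submodule K (Matrix (Fin 2) (Fin 2) K)) (hU : ∀ x ∈ U, x.trace = 0)
    (hst : ∀ h ∈ H, ∀ x ∈ U, (R h).map ι * x * (R h⁻¹).map ι ∈ U) :
    U = ⊥ ∨ ∀ x, x.trace = 0 → x ∈ U := by
  by_contra hcon
  push Not at hcon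
  obtain ⟨hne, z, hz, hzU⟩ := hcon
  let R' : Γ →* Matrix (Fin 2) (Fin 2) K := ι.mapMatrix.toMonoidHom.comp R
  have hR' : ∀ g, R' g = (R g).map ι := fun _ => rfl
  have h2K : (2 : K) ≠ 0 := fun e => h2 (ι.injective (by rw [map_ofNat, map_zero]; exact e))
  obtain ⟨x, hx0, hxt, hx⟩ := exists_line (R := R') h2K hU hst hne hz hzU
  have heig : ∀ g ∈ H, ∃ c : K, conjBy R' g x = c • x := fun g hg => by
    obtain ⟨c, hc⟩ := hx g hg
    exact ⟨c, by rw [conjBy, hc, smul_mul_assoc, mul_assoc, map_mul_inv_eq, mul_one]⟩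
  have hcomp : ∀ a b (y : Matrix (Fin 2) (Fin 2) k),
      conjBy R (a * b) y = conjBy R a (conjBy R b y) := fun a b y => by
    simp only [conjBy, _root_.mul_inv_rev, map_mul, mul_assoc]
  have hsmul : ∀ a (c : k) (y : Matrix (Fin 2) (Fin 2) k), conjBy R a (c • y) = c • conjBy R a y :=
    fun a c y => by simp only [conjBy, mul_smul_comm, smul_mul_assoc]
  let Cm : Submodule k (Matrix (Fin 2) (Fin 2) k) :=
    { carrier := {y | y.trace = 0 ∧ ∀ a ∈ H, ∀ b ∈ H, conjBy R (a * b) y = conjBy R (b * a) y}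
      zero_mem' := ⟨by simp, fun a _ b _ => by simp [conjBy]⟩
      add_mem' := fun {y y'} hy hy' => ⟨by rw [Matrix.trace_add, hy.1, hy'.1, add_zero],
        fun a ha b hb => by
          have e := hy.2 a ha b hb
          have e' := hy'.2 a ha b hb
          simp only [conjBy] at e e' ⊢
          rw [mul_add, add_mul, mul_add, add_mul, e, e']⟩
      smul_mem' := fun c y hy => ⟨by rw [Matrix.trace_smul, hy.1, smul_zero],
        fun a ha b hb => by rw [hsmul, hsmul, hy.2 a ha b hb]⟩ }
  have hCm : ∀ g ∈ H, ∀ y ∈ Cm, conjBy R g y ∈ Cm := fun g hg y hy =>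
    ⟨by rw [trace_conjBy]; exact hy.1, fun a ha b hb => by
      have e := hy.2 (g⁻¹ * a * g) (mul_mem (mul_mem (inv_mem hg) ha) hg) (g⁻¹ * b * g)
        (mul_mem (mul_mem (inv_mem hg) hb) hg)
      rw [← hcomp, ← hcomp, show a * b * g = g * (g⁻¹ * a * g * (g⁻¹ * b * g)) by group,
        show b * a * g = g * (g⁻¹ * b * g * (g⁻¹ * a * g)) by group, hcomp, hcomp g, e]⟩
  let : Algebra k K := ι.toAlgebra
  have hne' : Cm ≠ ⊥ := by
    obtain ⟨i, j, hij⟩ : ∃ i j, x i j ≠ 0 := by
      by_contra h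
      push Not at h
      exact hx0 (Matrix.ext h)
    obtain ⟨φ, hφ⟩ := Module.Projective.exists_dual_ne_zero k hij
    have hφl : ∀ a y, φ.toAddMonoidHom (ι a * y) = a * φ.toAddMonoidHom y := fun a y =>
      (congrArg φ (Algebra.smul_def a y).symm).trans (φ.map_smul a y)
    refine Submodule.ne_bot_iff _ |>.mpr ⟨x.map φ.toAddMonoidHom, ⟨?_, fun a ha b hb => ?_⟩,
      fun h => hφ (congrFun (congrFun h i) j)⟩
    · rw [← AddMonoidHom.map_trace, hxt, map_zero]
    · obtain ⟨c, hc⟩ := heig a ha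
      obtain ⟨d, hd⟩ := heig b hb
      have e : conjBy R' (a * b) x = conjBy R' (b * a) x := by
        have hmul : ∀ (a b : Γ) (c d : K), conjBy R' a x = c • x → conjBy R' b x = d • x →
            conjBy R' (a * b) x = (d * c) • x := fun a b c d hc hd => by
          rw [← smul_smul, ← hc, show conjBy R' (a * b) x = conjBy R' a (conjBy R' b x) by
            simp only [conjBy, _root_.mul_inv_rev, map_mul, mul_assoc], hd]
          simp only [conjBy, mul_smul_comm, smul_mul_assoc]
        rw [hmul a b c d hc hd, hmul b a d c hd hc, mul_comm]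
      have e' := congrArg (fun y => y.map φ.toAddMonoidHom) e
      simp only [conjBy, hR'] at e'
      rw [map_functional_mul ι _ hφl, map_functional_mul ι _ hφl] at e'
      exact e'
  have hall : ∀ y, y.trace = 0 → y ∈ Cm :=
    (hadj Cm (fun y hy => hy.1) hCm).resolve_left hne'
  -- the adjoint image is trivial
  have htriv : ∀ g ∈ H, ∀ y, y.trace = 0 → conjBy R g y = y := by
    intro g hg
    set y₀ := R g - ((R g).trace / 2) • (1 : Matrix (Fin 2) (Fin 2) k) with hy₀
    have ht0 : y₀.trace = 0 := by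
      rw [hy₀, Matrix.trace_sub, Matrix.trace_smul, Matrix.trace_one, Fintype.card_fin]
      simp [div_mul_cancel₀ _ h2]
    have hfix : conjBy R g y₀ = y₀ := by
      rw [conjBy, hy₀, mul_sub, sub_mul, mul_assoc, map_mul_inv_eq, mul_one, mul_smul_comm,
        mul_one, smul_mul_assoc, map_mul_inv_eq]
    by_cases h0 : y₀ = 0
    · intro y _
      have e : R g = ((R g).trace / 2) • (1 : Matrix (Fin 2) (Fin 2) k) := sub_eq_zero.mp h0
      rw [conjBy, show R g * y = y * R g by
        rw [e, smul_mul_assoc, one_mul, mul_smul_comm, mul_one], mul_assoc, map_mul_inv_eq, mul_one]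
    let Fx : Submodule k (Matrix (Fin 2) (Fin 2) k) :=
      { carrier := {y | y.trace = 0 ∧ conjBy R g y = y}
        zero_mem' := ⟨by simp, by simp [conjBy]⟩
        add_mem' := fun {y y'} hy hy' => ⟨by rw [Matrix.trace_add, hy.1, hy'.1, add_zero], by
          have e := hy.2
          have e' := hy'.2
          simp only [conjBy] at e e' ⊢
          rw [mul_add, add_mul, e, e']⟩
        smul_mem' := fun c y hy => ⟨by rw [Matrix.trace_smul, hy.1, smul_zero],
          by rw [hsmul, hy.2]⟩ }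
    have hFx : ∀ a ∈ H, ∀ y ∈ Fx, conjBy R a y ∈ Fx := fun a ha y hy =>
      ⟨by rw [trace_conjBy]; exact hy.1,
        by rw [← hcomp, (hall y hy.1).2 g hg a ha, hcomp, hy.2]⟩
    have hall' := (hadj Fx (fun y hy => hy.1) hFx).resolve_left
      (fun h => h0 ((Submodule.eq_bot_iff _).mp h y₀ ⟨ht0, hfix⟩))
    exact fun y hy => (hall' y hy).2
  have hl := hadj (Submodule.span k {!![1, 0; 0, -1]}) (fun y hy => by
    obtain ⟨c, rfl⟩ := Submodule.mem_span_singleton.mp hy
    simp [Matrix.trace_fin_two]) (fun g hg y hy => by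
    obtain ⟨c, rfl⟩ := Submodule.mem_span_singleton.mp hy
    rw [hsmul, htriv g hg _ (by simp [Matrix.trace_fin_two])]
    exact Submodule.smul_mem _ _ (Submodule.mem_span_singleton_self _))
  rcases hl with hl | hl
  · have h0 : (!![1, 0; 0, -1] : Matrix (Fin 2) (Fin 2) k) 0 0 =
        (0 : Matrix (Fin 2) (Fin 2) k) 0 0 := by
      rw [Submodule.span_singleton_eq_bot.mp hl]
    simp at h0
  · obtain ⟨c, hc⟩ := Submodule.mem_span_singleton.mp (hl !![0, 1; 0, 0]
      (by simp [Matrix.trace_fin_two]))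
    have h1 : (c • (!![1, 0; 0, -1] : Matrix (Fin 2) (Fin 2) k)) 0 1 =
        (!![0, 1; 0, 0] : Matrix (Fin 2) (Fin 2) k) 0 1 := by rw [hc]
    simp at h1

end Fermat.Agent.Root.Patched
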