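import Mathlib
import Fermat.Prelude.Def_GaloisRep_Residual
import Fermat.Agent.SelmerTW.Main

/-!
# Taylor–Wiles primes

Frames are put at every prime of `T` (which contains `p` and all ramified primes), so there are no
local conditions: the relative tangent space consists of the pairs of a cocycle, unramified outside
`T ∪ Q`, and frames `β_v` with `c|D_v + d β_v = 0` at every `v ∈ T`.
-/

set_option autoImplicit false

noncomputable section

open Matrix Polynomial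

namespace Fermat.Agent.Root.Patched

local notation "ℚbar" => AlgebraicClosure ℚ
local notation "Γ" => AlgebraicClosure ℚ ≃ₐ[ℚ] AlgebraicClosure ℚ

variable {k : Type} [Field k]

/-- Conjugation action on `2 × 2` matrices. -/
def adAct (ρ : Γ →* GL (Fin 2) k) (σ : Γ) (M : Matrix (Fin 2) (Fin 2) k) :
    Matrix (Fin 2) (Fin 2) k :=
  (ρ σ).val * M * (ρ σ⁻¹).val

/-- The relative framed tangent space: `c` is a cocycle with values in trace zero matrices,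
unramified outside `T ∪ Q`, and at every `v ∈ T` it is killed by the frame `β v` on the chosen
decomposition group. -/
structure IsFramedKernel (ρ : Γ →* GL (Fin 2) k) (T Q : Finset ℕ) (P : ℕ → ValuationSubring ℚbar)
    (x : (Γ → Matrix (Fin 2) (Fin 2) k) × (ℕ → Matrix (Fin 2) (Fin 2) k)) : Prop where
  trace_zero : ∀ σ, (x.1 σ).trace = 0
  frame_trace_zero : ∀ v, (x.2 v).trace = 0
  frame_support : ∀ v, v ∉ T → x.2 v = 0
  cocycle : ∀ σ τ, x.1 (σ * τ) = x.1 σ + adAct ρ σ (x.1 τ)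
  locConst : ∃ L : IntermediateField ℚ ℚbar, FiniteDimensional ℚ L ∧
    ∀ σ τ : Γ, (∀ y ∈ L, τ y = y) → x.1 (σ * τ) = x.1 σ
  unramified : ∀ q : ℕ, q.Prime → q ∉ T → q ∉ Q → ∀ A : ValuationSubring ℚbar,
    A.LiesOverPrime q → ∀ σ ∈ A.inertiaSubgroupIn ℚ, x.1 σ = 0
  local_zero : ∀ v ∈ T, ∀ σ ∈ (P v).decompositionSubgroup ℚ,
    x.1 σ + (adAct ρ σ (x.2 v) - x.2 v) = 0

/-- **Taylor–Wiles primes.**  For every `n` there are `r` primes `q ≡ 1 (mod pⁿ)` outside `T` with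
distinct Frobenius eigenvalues which kill the dual Selmer group, so that the relative framed
tangent space has dimension at most `r - 1` after dividing by the global conjugations (three
dimensions). -/
theorem exists_tw_primes (p : ℕ) [Fact p.Prime] (hp2 : p ≠ 2) [Finite k] [CharP k p]
    (ρ₀ : Γ →* GL (Fin 2) (ZMod p)) (ι : ZMod p →+* k) (ρ : Γ →* GL (Fin 2) k)
    (hρ : ∀ σ, (ρ σ).val = (ρ₀ σ).val.map ι)
    (hfin : GaloisFactorsThroughFiniteLevel ρ₀)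
    (hdet : ∀ (σ : Γ) (a : ℕ), (∀ μ : ℚbar, μ ^ p = 1 → σ μ = μ ^ a) →
      ((ρ₀ σ).val).det = (a : ZMod p))
    (hsplit : ∀ σ, ∃ α β : k, (ρ σ).val.charpoly = (X - C α) * (X - C β))
    (hadj : ∀ U : Submodule k (Matrix (Fin 2) (Fin 2) k), (∀ M ∈ U, M.trace = 0) →
      (∀ σ : Γ, (∀ μ : ℚbar, μ ^ p = 1 → σ μ = μ) → ∀ M ∈ U, adAct ρ σ M ∈ U) →
      U = ⊥ ∨ ∀ M : Matrix (Fin 2) (Fin 2) k, M.trace = 0 → M ∈ U)
    (T : Finset ℕ) (hT : ∀ q ∈ T, q.Prime) (hpT : p ∈ T)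
    (hunr : ∀ q : ℕ, q.Prime → q ∉ T → ∀ A : ValuationSubring ℚbar, A.LiesOverPrime q →
      ∀ σ ∈ A.inertiaSubgroupIn ℚ, ρ₀ σ = 1)
    (P : ℕ → ValuationSubring ℚbar) (hP : ∀ v ∈ T, (P v).LiesOverPrime v) :
    ∃ r : ℕ, ∀ n : ℕ, ∃ Q : Finset ℕ, Q.card = r ∧ Disjoint Q T ∧
      (∀ q ∈ Q, q.Prime ∧ p ^ n ∣ q - 1 ∧
        ∀ A : ValuationSubring ℚbar, A.LiesOverPrime q → ∀ σ : Γ, A.IsFrobeniusAt σ q →
          ∃ α β : k, α ≠ β ∧ (ρ σ).val.charpoly = (X - C α) * (X - C β)) ∧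
      ∀ (m : ℕ) (x : Fin m → (Γ → Matrix (Fin 2) (Fin 2) k) × (ℕ → Matrix (Fin 2) (Fin 2) k)),
        (∀ i, IsFramedKernel ρ T Q P (x i)) → LinearIndependent k x → m ≤ r + 2 := by
  have h₀ : SelmerTW.IsTWRep ρ₀ ι ρ := ⟨hp2, hρ, hfin, hdet, hadj⟩
  have hunr' : ∀ q : ℕ, q.Prime → q ∉ T → ∀ A : ValuationSubring ℚbar, A.LiesOverPrime q →
      ∀ σ ∈ A.inertiaSubgroupIn ℚ, ρ σ = 1 := fun q hq hqT A hA σ hσ =>
    h₀.map_eq_one (hunr q hq hqT A hA σ hσ)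
  obtain ⟨r, hr⟩ := SelmerTW.exists_tw_primes_of_image h₀.toImage T hT hpT hunr' P hP
  refine ⟨r, fun n => ?_⟩
  obtain ⟨Q, hQc, hQT, hQp, hQb⟩ := hr n
  refine ⟨Q, hQc, hQT, fun q hq => ⟨(hQp q hq).1,
    (pow_dvd_pow p n.le_succ).trans (hQp q hq).2.1, fun A hA σ hσ => ?_⟩, fun m x hx hli => ?_⟩
  · obtain ⟨α, β, hαβ⟩ := hsplit σ
    refine ⟨α, β, fun e => (hQp q hq).2.2 A hA σ hσ ?_, hαβ⟩
    have h1 := congrArg (Polynomial.eval 0) hαβ
    have h2 := congrArg (Polynomial.eval 1) hαβ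
    rw [Matrix.charpoly_fin_two] at h1 h2
    simp only [eval_add, eval_sub, eval_mul, eval_pow, eval_X, eval_C] at h1 h2
    subst e
    linear_combination (-(1 : k)) * ((ρ σ).val.trace + 2 * α) * (h2 - h1) + (-(4 : k)) * h1
  · exact hQb m x (fun i => ⟨(hx i).trace_zero, (hx i).frame_trace_zero, (hx i).frame_support,
      (hx i).cocycle, (hx i).locConst, (hx i).unramified, (hx i).local_zero⟩) hli

end Fermat.Agent.Root.Patched
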