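import Fermat.Agent.Root.Patched.Standard
import Fermat.Agent.Root.Patched.Selmer
import Fermat.Agent.Root.Patched.AdjointBaseChange

/-!
# The residual representation of residual data

`ρbar` as a homomorphism to `GL₂(k)`, and the irreducibility of its adjoint on the elements fixing
`μ_p`, deduced from `AdjointIrreducible` over `𝔽_p`.
-/

set_option autoImplicit false

noncomputable section

open IsLocalRing WeierstrassCurve WeierstrassCurve.Affine.Point
open scoped WeierstrassCurve.Affine

namespace Fermat.Agent.Root.Patched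

open Fermat.Agent.Deformation

local notation "ℚbar" => AlgebraicClosure ℚ

variable {O : Type} [CommRing O] [IsDomain O] [IsDiscreteValuationRing O]
  [IsAdicComplete (maximalIdeal O) O] [Finite (ResidueField O)]
  {p : ℕ} [Fact p.Prime] {W : WeierstrassCurve ℤ}

/-- `ρbar` into `GL₂`. -/
def ResidualData.glHom (D : ResidualData O p W) : GQ →* GL (Fin 2) (ResidueField O) :=
  (Matrix.GeneralLinearGroup.map D.ι).comp D.ρ₀

theorem ResidualData.coe_glHom (D : ResidualData O p W) (σ : GQ) :
    (D.glHom σ).val = D.ρbar σ := by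
  rw [D.ρbar_eq]
  rfl

theorem ResidualData.charP_residue (D : ResidualData O p W) : CharP (ResidueField O) p :=
  charP_of_injective_ringHom D.ι.injective p

/-- The elements fixing `μ_p`. -/
def fixMu (p : ℕ) : Subgroup GQ where
  carrier := {σ | ∀ μ : ℚbar, μ ^ p = 1 → σ μ = μ}
  one_mem' := fun _ _ => rfl
  mul_mem' := by
    intro a b ha hb μ hμ
    show a (b μ) = μ
    rw [hb μ hμ, ha μ hμ]
  inv_mem' := by
    intro a ha μ hμ
    show a.symm μ = μ
    nth_rw 1 [← ha μ hμ]
    exact a.symm_apply_apply μ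

theorem ResidualData.adjoint_zmod (D : ResidualData O p W) (hadj : AdjointIrreducible p W)
    (U : Submodule (ZMod p) (Matrix (Fin 2) (Fin 2) (ZMod p))) (hU : ∀ x ∈ U, x.trace = 0)
    (hst : ∀ h ∈ fixMu p, ∀ x ∈ U, (D.ρ₀ h).val * x * (D.ρ₀ h⁻¹).val ∈ U) :
    U = ⊥ ∨ ∀ x, x.trace = 0 → x ∈ U := by
  set e := (LinearMap.toMatrixAlgEquiv D.basis).toLinearEquiv with he
  have htrace : ∀ x, (e x).trace = LinearMap.trace (ZMod p) _ x := fun x =>
    (LinearMap.trace_eq_matrix_trace (ZMod p) D.basis x).symm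
  have key := hadj (U.comap e.toLinearMap) (fun x hx => (htrace x).symm.trans (hU _ hx))
    fun σ hσ x hx => by
      have h := hst σ hσ (e x) hx
      show e _ ∈ U
      rw [D.ρ₀_eq, D.ρ₀_eq] at h
      refine cast (congrArg (· ∈ U) ?_) h
      simp only [he, AlgEquiv.toLinearEquiv_apply, map_mul]
      rfl
  rcases key with h | h
  · refine Or.inl ((Submodule.eq_bot_iff _).2 fun x hx => ?_)
    have h' : e.symm x ∈ U.comap e.toLinearMap := by simpa using hx
    rw [h, Submodule.mem_bot] at h'
    simpa using congrArg e h'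
  · refine Or.inr fun x hx => ?_
    have h' : e (e.symm x) ∈ U :=
      h (e.symm x) (by rw [← htrace, e.apply_symm_apply]; exact hx)
    rwa [e.apply_symm_apply] at h'

/-- The adjoint of `ρbar` is irreducible on the elements fixing `μ_p`. -/
theorem ResidualData.adjoint_residue (D : ResidualData O p W) (hp2 : p ≠ 2)
    (hadj : AdjointIrreducible p W)
    (U : Submodule (ResidueField O) (Matrix (Fin 2) (Fin 2) (ResidueField O)))
    (hU : ∀ M ∈ U, M.trace = 0)
    (hst : ∀ σ : GQ, (∀ μ : ℚbar, μ ^ p = 1 → σ μ = μ) → ∀ M ∈ U, adAct D.glHom σ M ∈ U) :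
    U = ⊥ ∨ ∀ M : Matrix (Fin 2) (Fin 2) (ResidueField O), M.trace = 0 → M ∈ U := by
  have h2 : (2 : ZMod p) ≠ 0 := fun e => by
    have h := (ZMod.natCast_eq_zero_iff 2 p).1 (by exact_mod_cast e)
    exact hp2 ((Nat.prime_dvd_prime_iff_eq Fact.out Nat.prime_two).1 h)
  let R : GQ →* Matrix (Fin 2) (Fin 2) (ZMod p) := (Units.coeHom _).comp D.ρ₀
  refine adjoint_baseChange h2 D.ι R (fixMu p) (fun U' hU' hst' => D.adjoint_zmod hadj U' hU'
    fun h hh x hx => hst' h hh x hx) U hU fun h hh x hx => ?_
  have := hst h hh x hx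
  simp only [adAct, D.coe_glHom, D.ρbar_eq] at this
  exact this

end Fermat.Agent.Root.Patched
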