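import Fermat.Agent.Root.Patched.Models
import Fermat.Agent.Root.Patched.ResidualAdjoint
import Fermat.Agent.Gal.Frobenius

/-!
# The conditions on a curve at the places of its residual data

`UnramifiedMod` and `FrobScalarMod` in terms of `ρbar`, and the flat model at `p` without any
hypothesis on the residual representation.
-/

set_option autoImplicit false

noncomputable section

open IsLocalRing
open scoped Pointwise

namespace Fermat.Agent.Root.Patched

open Fermat.Agent.Deformation

local notation "ℚbar" => AlgebraicClosure ℚ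

variable {O : Type} [CommRing O] [IsDomain O] [IsDiscreteValuationRing O]
  [IsAdicComplete (maximalIdeal O) O] [Finite (ResidueField O)]
  {p : ℕ} [Fact p.Prime] {W : WeierstrassCurve ℤ}

theorem ResidualData.ρbar_eq_one_iff (D : ResidualData O p W) (σ : GQ) :
    D.ρbar σ = 1 ↔ D.ρ₀ σ = 1 := by
  rw [D.ρbar_eq, ← Units.val_inj, Units.val_one]
  conv_lhs => rhs; rw [← Matrix.map_one D.ι (map_zero _) (map_one _)]
  exact ⟨fun h => Matrix.ext fun i j => D.ι.injective (congrFun (congrFun h i) j),
    fun h => by rw [h]⟩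

theorem ResidualData.unramifiedMod_iff (D : ResidualData O p W) (q : ℕ) :
    UnramifiedMod p W q ↔
      ∀ A : ValuationSubring ℚbar, A.LiesOverPrime q → ∀ σ ∈ A.inertiaSubgroupIn ℚ,
        D.ρ₀ σ = 1 := by
  refine forall₂_congr fun A _ => forall₂_congr fun σ _ => ?_
  rw [← Units.val_inj, Units.val_one, D.ρ₀_eq,
    ← LinearMap.toMatrix_one D.basis, EmbeddingLike.apply_eq_iff_eq]
  exact ⟨fun h => LinearMap.ext fun x => h x, fun h x => LinearMap.congr_fun h x⟩

/-- Ramification is seen at every place. -/
theorem ResidualData.exists_ramified (D : ResidualData O p W) {q : ℕ} (hq : q.Prime)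
    (h : ¬ UnramifiedMod p W q) {P : ValuationSubring ℚbar} (hP : P.LiesOverPrime q) :
    ∃ σ ∈ P.inertiaSubgroupIn ℚ, D.ρbar σ ≠ 1 := by
  by_contra hcon
  push Not at hcon
  refine h ((D.unramifiedMod_iff q).mpr fun A hA σ hσ => ?_)
  obtain ⟨g, rfl⟩ := Gal.exists_smul_eq_of_liesOverPrime hq hP hA
  obtain ⟨τ, rfl⟩ : ∃ τ, g * τ * g⁻¹ = σ := ⟨g⁻¹ * σ * g, by group⟩
  have h1 := (D.ρbar_eq_one_iff τ).mp (hcon τ ((Gal.mem_inertia_smul_iff g τ P).mp hσ))
  rw [map_mul, map_mul, h1, mul_one, ← map_mul, mul_inv_cancel, map_one]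

/-- An unramified place with scalar Frobenius, in terms of `ρbar`. -/
theorem ResidualData.scalar_of_frobScalarMod (D : ResidualData O p W) {q : ℕ}
    (h : FrobScalarMod p W q) {P : ValuationSubring ℚbar} (hP : P.LiesOverPrime q) (σ : GQ)
    (hσ : P.IsFrobeniusAt σ q) :
    ∃ c : ResidueField O, D.ρbar σ = c • (1 : M2 (ResidueField O)) := by
  obtain ⟨c, hc⟩ := h P hP σ hσ
  refine ⟨D.ι c, ?_⟩
  rw [D.ρbar_eq, D.ρ₀_eq, hc, map_smul, LinearMap.toMatrix_one]
  ext i j
  rcases eq_or_ne i j with rfl | hij
  · simp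
  · simp [hij]

variable {ρbar : GQ →* M2 (ResidueField O)} [CharZero O]

omit [IsAdicComplete (maximalIdeal O) O] [CharZero O] in
/-- The flat model at `p`; without a flat lift the coordinates are vacuous. -/
theorem nonempty_flatModel_vacuous (hp2 : p ≠ 2) (hp : (p : O) ∈ maximalIdeal O)
    (P : ValuationSubring ℚbar) (hP : P.LiesOverPrime p) {flat : Prop} (hflat : flat) :
    Nonempty (PlainModel ρbar p p flat) := by
  by_cases h : ∃ (S : TestRing O) (r : Lift ρbar S), DetCyclotomic p S r ∧ FlatShape p S r
  · obtain ⟨S, r, hr⟩ := h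
    refine nonempty_flatModel hp2 hp P hP (fun S' r' hm => ?_) hflat
    have hinj : ∀ x y, S'.red x = S'.red y → x = y := fun x y hxy => sub_eq_zero.mp (by
      have h0 := (S'.ker_red (x - y)).mp (by rw [map_sub, hxy, sub_self])
      rwa [hm, Ideal.mem_bot] at h0)
    have hsurj : Function.Surjective S'.red := fun y => by
      obtain ⟨a, rfl⟩ := residue_surjective y
      exact ⟨S'.alg a, S'.red_alg a⟩
    let e : S'.R ≃+* ResidueField O := RingEquiv.ofBijective S'.red ⟨fun x y => hinj x y, hsurj⟩
    let φ : S.R →+* S'.R := e.symm.toRingHom.comp S.red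
    have hφ : ∀ x, S'.red (φ x) = S.red x := fun x => e.apply_symm_apply _
    have ha : φ.comp S.alg = S'.alg := RingHom.ext fun a => hinj _ _ (by
      rw [RingHom.comp_apply, hφ, S.red_alg, S'.red_alg])
    have hM : ∀ g, r'.M g = (r.M g).map φ := fun g => Matrix.ext fun i j => hinj _ _ (by
      rw [Matrix.map_apply, hφ, LocalModel.red_entry, LocalModel.red_entry])
    exact ((condClosed_detCyclotomic (ρbar := ρbar) p).and condClosed_flatShape).push S S' φ ha
      (RingHom.ext hφ) r r' hM hr
  · push Not at h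
    exact ⟨{
      P
      lies := hP
      l := 4
      l_le := by simp
      cond := fun S r => DetCyclotomic p S r ∧ FlatShape p S r
      closed := (condClosed_detCyclotomic p).and condClosed_flatShape
      C := {
        val := fun _ _ _ => 0
        mem := fun S r hc => absurd hc.2 (h S r hc.1)
        natural := fun S _ _ _ _ r _ _ hc => absurd hc.2 (h S r hc.1)
        determine := fun S _ r _ hc => absurd hc.2 (h S r hc.1) }
      cond_ne := fun h => absurd rfl h
      ram := fun h => absurd rfl h
      cond_flat := fun _ _ _ _ => Iff.rfl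
      cond_st := fun h _ => absurd hflat h }⟩

end Fermat.Agent.Root.Patched
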