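import Fermat.Agent.Root.Patched.TowerExists
import Fermat.Agent.Root.Patched.System
import Fermat.Agent.Root.Patched.LoweringPlaces
import Fermat.Agent.Root.Residual
import Fermat.Agent.Root.Patched.LiftingSystem
import Fermat.Agent.MazurPrinciple.NewAtAux

/-!
# The local system for lowering

No flip places: avoidance at the removable primes of the level, Steinberg at the ramified primes,
flat or Steinberg at `p` according to whether `p` divides the level.  At `p = 3` the stage level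
carries an auxiliary prime where no residual newform is new.
-/

set_option autoImplicit false

noncomputable section

open IsLocalRing

namespace Fermat.Agent.Root.Patched

open Fermat.Agent.Deformation

local notation "ℚbar" => AlgebraicClosure ℚ

/-- No residual newform is new at an auxiliary prime. -/
theorem _root_.Fermat.Agent.Root.AuxThree.not_dvd {W : WeierstrassCurve ℤ} {r M : ℕ}
    (hr : AuxThree W r) (hW : Semistable W) (hM : Squarefree M) (h : ResNewform 3 W M) :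
    ¬ r ∣ M := by
  have : Fact (Nat.Prime 3) := ⟨Nat.prime_three⟩
  have : NeZero M := ⟨hM.ne_zero⟩
  refine MazurPrinciple.not_dvd_of_resNewform W hW.ne 3 hr.prime
    (fun e => by have := hr.mod; omega) hr.good
    (fun hd => hr.prime.not_isUnit (hM r (sq r ▸ hd))) h fun e he hd => hr.ap ?_
  have h3 : (3 : ℤ) ∣ (r : ℤ) + 1 := by
    have := hr.mod
    exact Int.natCast_dvd_natCast.2 (show 3 ∣ r + 1 by omega)
  exact (dvd_sub_left (h3.mul_left e)).1 (by exact_mod_cast hd)

variable {O : Type} [CommRing O] [IsDomain O] [IsDiscreteValuationRing O]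
  [IsAdicComplete (maximalIdeal O) O] [Finite (ResidueField O)] [CharZero O]
  {p : ℕ} [Fact p.Prime] {W : WeierstrassCurve ℤ}

omit [CharZero O] in
/-- **The local system of a level lowering problem.** -/
theorem exists_loweringSystem (hp2 : p ≠ 2) (hW : Semistable W)
    (hirr : W.ModRepIsIrreducible p) (D : ResidualData O p W) (M : ℕ) (hM : Squarefree M)
    (h : ResNewform p W M) (hpM : p ∣ M → (p : ℤ) ∣ W.Δ)
    (hmin : ∀ l : ℕ, l.Prime → l ∣ M → l ≠ p → (l % p = 1 ∧ FrobScalarMod p W l) ∨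
      ¬ UnramifiedMod p W l)
    (hnew : p ∣ M → ∀ M₁, M₁ ∣ M → ResNewform p W M₁ → p ∣ M₁)
    (X : ℕ) (hX : (p ≠ 3 ∧ X = 1) ∨ (p = 3 ∧ AuxThree W X ∧ ¬ X ∣ M)) :
    ∃ (Sys : LocalSystem O D.ρbar p) (St : StdData Sys D.ζ), Sys.s = 0 ∧
      StageLevel Sys St W (M * X) ∧
      (∀ q : ℕ, q.Prime → (∀ v, Sys.q v ≠ q) → ∀ A : ValuationSubring ℚbar, A.LiesOverPrime q →
        ∀ σ ∈ A.inertiaSubgroupIn ℚ, D.ρ₀ σ = 1) ∧
      ∀ q : ℕ, q.Prime → q ∣ M → q ≠ p → UnramifiedMod p W q → ∃ i, Sys.q (.inl i) = q := by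
  classical
  have hp : p.Prime := Fact.out
  have hM0 : M ≠ 0 := hM.ne_zero
  have hram : ∀ q : ℕ, q.Prime → q ≠ p → ¬ UnramifiedMod p W q → q ∣ M := fun q hq hqp hr =>
    dvd_of_not_unramifiedMod W hW p M hp hp2 hirr h hq hqp hr
  set Av : Finset ℕ := M.primeFactors.filter fun q => q ≠ p ∧ UnramifiedMod p W q with hAv
  set Pl : Finset ℕ :=
    insert p (M.primeFactors.filter fun q => q ≠ p ∧ ¬ UnramifiedMod p W q) with hPl
  have hmemA : ∀ q, q ∈ Av ↔ q.Prime ∧ q ∣ M ∧ q ≠ p ∧ UnramifiedMod p W q := fun q => by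
    simp [hAv, Nat.mem_primeFactors, hM0, and_assoc]
  have hmemP : ∀ q, q ∈ Pl ↔ q = p ∨ q.Prime ∧ q ∣ M ∧ q ≠ p ∧ ¬ UnramifiedMod p W q := fun q => by
    simp [hPl, Nat.mem_primeFactors, hM0, and_assoc]
  let qa : Fin Av.card → ℕ := fun i => (Av.equivFin.symm i : ℕ)
  let qp : Fin Pl.card → ℕ := fun u => (Pl.equivFin.symm u : ℕ)
  have hqa : ∀ i, qa i ∈ Av := fun i => (Av.equivFin.symm i).2
  have hqp : ∀ u, qp u ∈ Pl := fun u => (Pl.equivFin.symm u).2
  have hqa' : ∀ q ∈ Av, ∃ i, qa i = q := fun q hq => ⟨Av.equivFin ⟨q, hq⟩, by simp [qa]⟩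
  have hqp' : ∀ q ∈ Pl, ∃ u, qp u = q := fun q hq => ⟨Pl.equivFin ⟨q, hq⟩, by simp [qp]⟩
  have hprimeA : ∀ i, (qa i).Prime := fun i => ((hmemA _).mp (hqa i)).1
  have hprimeP : ∀ u, (qp u).Prime := fun u => by
    rcases (hmemP _).mp (hqp u) with h | h
    · exact h ▸ hp
    · exact h.1
  have avoid : ∀ i, Nonempty (AvoidModel D.ρbar p (qa i)) := fun i => by
    obtain ⟨hq, hqM, hqne, hunr⟩ := (hmemA _).mp (hqa i)
    obtain ⟨hq1, hscal⟩ := (hmin _ hq hqM hqne).resolve_right (not_not.mpr hunr)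
    obtain ⟨P, hP⟩ := Gal.exists_liesOverPrime (L := ℚbar) hq
    exact nonempty_avoidModel hp2 D.p_mem hq hq1 P hP
      (fun σ hσ => (D.ρbar_eq_one_iff σ).mpr ((D.unramifiedMod_iff _).mp hunr P hP σ hσ))
      fun σ hσ => D.scalar_of_frobScalarMod hscal hP σ hσ
  have plain : ∀ u, Nonempty (PlainModel D.ρbar p (qp u) (¬ p ∣ M)) := fun u => by
    obtain ⟨P, hP⟩ := Gal.exists_liesOverPrime (L := ℚbar) (hprimeP u)
    rcases (hmemP _).mp (hqp u) with he | ⟨hq, -, hqne, hr⟩
    · rw [he] at hP ⊢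
      by_cases hd : p ∣ M
      · exact nonempty_steinbergModel hp2 D.p_mem P hP (not_not.mpr hd)
      · exact nonempty_flatModel_vacuous hp2 D.p_mem P hP hd
    · exact nonempty_ramModel hp2 D.p_mem hq hqne P hP (D.exists_ramified hq hr hP) _
  have hinj : Function.Injective (Sum.elim qa (Sum.elim (Fin.elim0 : Fin 0 → ℕ) qp)) := by
    intro x y hxy
    have key : ∀ i u, qa i ≠ qp u := fun i u he => by
      obtain ⟨-, -, hne, hu⟩ := (hmemA _).mp (hqa i)
      rcases (hmemP _).mp (he ▸ hqp u) with h1 | ⟨-, -, -, h1⟩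
      · exact hne h1
      · exact h1 hu
    rcases x with i | f | u
    · rcases y with j | f | w
      · exact congrArg Sum.inl (Av.equivFin.symm.injective (Subtype.ext hxy))
      · exact f.elim0
      · exact absurd hxy (key i w)
    · exact f.elim0
    · rcases y with j | f | w
      · exact absurd hxy.symm (key j u)
      · exact f.elim0
      · exact congrArg (Sum.inr ∘ Sum.inr) (Pl.equivFin.symm.injective (Subtype.ext hxy))
  let I : SystemInput D.ρbar p D.ζ :=
    { r := Av.card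
      s := 0
      t := Pl.card
      qa := qa
      qf := Fin.elim0
      qp := qp
      prime_a := hprimeA
      prime_f := fun f => f.elim0
      prime_p := hprimeP
      injective := hinj
      flat := ¬ p ∣ M
      avoid := fun i => (avoid i).some
      flip := fun f => f.elim0
      plain := fun u => (plain u).some
      prime := hp
      p_ne_two := hp2
      p_mem := D.p_mem
      ζ_pow := D.ζ_pow
      ζ_ne := D.ζ_ne
      exists_p := by
        obtain ⟨u, hu⟩ := hqp' p ((hmemP p).mpr (Or.inl rfl))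
        exact ⟨.inr (.inr u), hu⟩
      last := fun f => f.elim0 }
  have hsqX : Squarefree (M * X) := by
    rcases hX with ⟨-, rfl⟩ | ⟨-, hs, hsM⟩
    · rwa [mul_one]
    · exact Nat.squarefree_mul_iff.2
        ⟨((hs.prime.coprime_iff_not_dvd).2 hsM).symm, hM, hs.prime.squarefree⟩
  have hXne : ∀ q, q.Prime → q ∣ X → p = 3 ∧ AuxThree W X ∧ q = X ∧ q ≠ p ∧ ¬ q ∣ M :=
    fun q hq hd => by
      rcases hX with ⟨-, rfl⟩ | ⟨h3, hs, hsM⟩
      · exact absurd (Nat.dvd_one.1 hd) hq.ne_one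
      · obtain rfl := (Nat.prime_dvd_prime_iff_eq hq hs.prime).1 hd
        exact ⟨h3, hs, rfl, fun e => by have := hs.mod; omega, hsM⟩
  refine ⟨I.system, I.stdData, rfl,
    { squarefree := hsqX
      primes := fun q hq => ?_
      dvd := ?_
      residual := ⟨M, dvd_mul_right M X, h⟩
      new_at_p := fun hflat u _ M₁ hM₁ h₁ => hnew (not_not.mp hflat) M₁ ?_ h₁
      three := fun h3 => ?_ }, fun q hq hno A hA σ hσ => ?_, fun q hq hqM hqne hunr => ?_⟩
  · intro hqMX
    rcases hq.dvd_mul.1 hqMX with hqM | hqX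
    swap
    · obtain ⟨h3, hs, rfl, hne, hsM⟩ := hXne q hq hqX
      refine Or.inr (D.harmless_of_auxThree h3 hs ?_)
      rintro (i | f | u) e
      · exact hsM (e ▸ ((hmemA _).mp (hqa i)).2.1)
      · exact f.elim0
      · rcases (hmemP _).mp (hqp u) with h1 | h1
        · exact hne (e.symm.trans h1)
        · exact hsM (e ▸ h1.2.1)
    refine Or.inl ?_
    by_cases hqe : q = p
    · obtain ⟨u, hu⟩ := hqp' p ((hmemP p).mpr (Or.inl rfl))
      exact Or.inr ⟨u, hu.trans hqe.symm, fun _ hfl => hfl (hqe ▸ hqM)⟩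
    · by_cases hu : UnramifiedMod p W q
      · exact Or.inl (hqa' q ((hmemA q).mpr ⟨hq, hqM, hqe, hu⟩))
      · obtain ⟨u, hu'⟩ := hqp' q ((hmemP q).mpr (Or.inr ⟨hq, hqM, hqe, hu⟩))
        exact Or.inr ⟨u, hu', fun h => absurd h hqe⟩
  · rintro q hq (⟨i, rfl⟩ | ⟨u, rfl, hfl⟩)
    · exact dvd_mul_of_dvd_left ((hmemA _).mp (hqa i)).2.1 X
    · refine dvd_mul_of_dvd_left ?_ X
      rcases (hmemP _).mp (hqp u) with h1 | h1
      · exact (h1 ▸ not_not.mp (hfl h1) : qp u ∣ M)
      · exact h1.2.1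
  · have h0 : ∏ f, I.system.q (.inr (.inl f)) = 1 :=
      Fintype.prod_eq_one _ fun f => Fin.elim0 f
    rw [h0, mul_one] at hM₁
    rcases hX with ⟨-, rfl⟩ | ⟨rfl, hs, -⟩
    · rwa [mul_one] at hM₁
    · exact ((hs.prime.coprime_iff_not_dvd).2
        (hs.not_dvd hW (hsqX.squarefree_of_dvd hM₁) h₁)).symm.dvd_of_dvd_mul_right hM₁
  · obtain ⟨h3', -⟩ | ⟨-, hs, -⟩ := hX
    · exact absurd h3 h3'
    · exact ⟨X, hs.prime, dvd_mul_left X M, hs.mod⟩
  · by_contra hne
    have hr : ¬ UnramifiedMod p W q := fun hu => hne ((D.unramifiedMod_iff q).mp hu A hA σ hσ)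
    by_cases hqe : q = p
    · obtain ⟨u, hu⟩ := hqp' p ((hmemP p).mpr (Or.inl rfl))
      exact hno (.inr (.inr u)) (hu.trans hqe.symm)
    · obtain ⟨u, hu⟩ := hqp' q ((hmemP q).mpr (Or.inr ⟨hq, hram q hq hqe hr, hqe, hr⟩))
      exact hno (.inr (.inr u)) hu
  · exact hqa' q ((hmemA q).mpr ⟨hq, hqM, hqne, hunr⟩)


end Fermat.Agent.Root.Patched
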