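import Fermat.Agent.Root.TateLift.Main

/-!
# The residual data of a semistable curve

`O` is finite over `ℤ_p[ζ_p]` with residue field containing the quadratic extension of `𝔽_p`; the
lift is the Tate module.  At a bad prime it has Steinberg shape, at a good `p` it is flat.
-/

set_option autoImplicit false

noncomputable section

open IsLocalRing

namespace Fermat.Agent.Root.Patched

/-- Every semistable curve has residual data at an odd prime. -/
theorem exists_residualData (W : WeierstrassCurve ℤ) (hW : Semistable W) (p : ℕ) [Fact p.Prime]
    (hp2 : p ≠ 2) :
    ∃ (O : Type) (_ : CommRing O) (_ : IsDomain O) (_ : IsDiscreteValuationRing O)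
      (_ : IsAdicComplete (maximalIdeal O) O) (_ : Finite (ResidueField O)) (_ : CharZero O),
      Nonempty (ResidualData O p W) :=
  TateLift.exists_residualData_tate W hW hp2

end Fermat.Agent.Root.Patched
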