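import Fermat.Agent.Root.Patched.TowerFamily

/-!
# The lifting and lowering families of a tower

Lifting: the components under the point are Steinberg at every flip; infinitely many levels share
one, and it is reached from the component without flips by adding one flip at a time.  Lowering:
`tr(Frob)² - (q + 1)²` times a unit avoids the components unramified at the place.
-/

set_option autoImplicit false

noncomputable section

open IsLocalRing

namespace Fermat.Agent.Root.Patched

open Fermat.Agent.Deformation Fermat.Agent.LocalRing Fermat.Agent.Patching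

/-- A sequence with finitely many values takes one of them beyond every bound. -/
theorem exists_frequent_value {α : Type*} [Finite α] (u : ℕ → α) :
    ∃ (a : α) (ν : ℕ → ℕ), (∀ k, k ≤ ν k) ∧ ∀ k, u (ν k) = a := by
  obtain ⟨a, ha⟩ : ∃ a, ∀ k, ∃ n, k ≤ n ∧ u n = a := by
    by_contra h
    push Not at h
    choose b hb using h
    have := Fintype.ofFinite α
    exact hb (u (Finset.univ.sup b)) _ (Finset.le_sup (Finset.mem_univ _)) rfl
  choose ν hν hu using ha
  exact ⟨a, ν, hν, hu⟩

/-- The first `i` flips of a choice. -/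
def partialFlip {s : ℕ} {m : Fin s → ℕ} (j : ∀ f, Fin (m f)) (i : ℕ) : FlipChoice m :=
  fun f => if (f : ℕ) < i then some (j f) else none

theorem partialFlip_succ {s : ℕ} {m : Fin s → ℕ} (j : ∀ f, Fin (m f)) (f : Fin s) :
    partialFlip j ((f : ℕ) + 1) = Function.update (partialFlip j f) f (some (j f)) := by
  funext g
  rcases eq_or_ne g f with rfl | h
  · simp [partialFlip]
  · have : (g : ℕ) ≠ f := fun e => h (Fin.ext e)
    rw [Function.update_of_ne h]
    simp only [partialFlip]
    congr 1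
    exact propext (by omega)

variable {O : Type} [CommRing O] [IsDomain O] [IsDiscreteValuationRing O]
  [IsAdicComplete (maximalIdeal O) O] [Finite (ResidueField O)]
  {ρbar : GQ →* M2 (ResidueField O)} {p : ℕ} {Sys : LocalSystem O ρbar p}

namespace Tower

variable {T : Tower Sys} {ϖ : O} {hϖ : Irreducible ϖ} {n : ℕ}
  {F : (T.localData ϖ hϖ).Total →+* ((T.J n).framed Sys.Place).R}

theorem level_π_mk (hF : T.IsFrameMap ϖ hϖ n F) (z : (T.localData ϖ hϖ).Total) :
    (T.level 0 hF).π (Ideal.Quotient.mk _ z) =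
      (T.L 0 n).π ((T.U n).coeffZero _ (mapTo (T.pU n) F z)) := rfl

theorem level_π_C (hF : T.IsFrameMap ϖ hϖ n F) (c : O) :
    (T.level 0 hF).π (Ideal.Quotient.mk _ (MvPowerSeries.C c)) = T.R₀.alg c := by
  rw [level_π_mk, mapTo_C (T.pU n) (T.pU_alg n) hF]
  show (T.L 0 n).π ((T.U n).coeffZero _ ((T.U n).constHom _ ((T.U n).alg c))) = _
  rw [TestRing.coeffZero_constHom]
  exact RingHom.congr_fun (T.π_alg n) c

theorem level_π_flipX_none (hF : T.IsFrameMap ϖ hϖ n F) (f : Fin Sys.s) :
    (T.level 0 hF).π (Ideal.Quotient.mk _ (flipX f none)) =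
      (T.L 0 n).π (Sys.flipA f (T.U n) (T.ℓU n)) := by
  rw [level_π_mk, mapTo_flipX_none (T.pU n) (T.pU_alg n) (T.pU_red n) hF,
    TestRing.coeffZero_constHom]

/-- Below the point there is a component which is Steinberg at every flip place. -/
theorem exists_comp_le_point (hF : T.IsFrameMap ϖ hϖ n F) (w : T.R₀.R →+* O)
    (hw : w.comp T.R₀.alg = RingHom.id O)
    (hflip : ∀ f, ∃ j, w ((T.L 0 n).π (Sys.flipA f (T.U n) (T.ℓU n))) = Sys.c f j) :
    ∃ (t : Fin Sys.r → Bool) (j : ∀ f, Fin (Sys.m f)),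
      (T.localData ϖ hϖ).comp (t, fun f => some (j f)) ≤
        (RingHom.ker w).comap (T.level 0 hF).π := by
  classical
  have : (RingHom.ker w).IsPrime := RingHom.ker_isPrime w
  set Q := (RingHom.ker w).comap (T.level 0 hF).π with hQdef
  have hQ : Q.IsPrime := Ideal.IsPrime.comap _
  obtain ⟨P₀, hP₀, hle⟩ :=
    Ideal.exists_minimalPrimes_le (I := (⊥ : Ideal (T.localData ϖ hϖ).UnipRing)) (bot_le : ⊥ ≤ Q)
  obtain ⟨K, rfl⟩ := ((T.localData ϖ hϖ).mem_minimalPrimes_iff P₀).mp hP₀
  choose j hj using hflip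
  have hmem : ∀ f, Ideal.Quotient.mk (T.localData ϖ hϖ).unipIdeal
      (flipX f none - MvPowerSeries.C (Sys.c f (j f))) ∈ Q := fun f => by
    rw [hQdef, Ideal.mem_comap, RingHom.mem_ker, map_sub, map_sub, map_sub, level_π_flipX_none hF,
      level_π_C hF, hj f, show w (T.R₀.alg (Sys.c f (j f))) = Sys.c f (j f) from
        RingHom.congr_fun hw _, sub_self]
  have key : ∀ S : Finset (Fin Sys.s), ∃ F' : FlipChoice Sys.m, (∀ f ∈ S, F' f ≠ none) ∧
      (T.localData ϖ hϖ).comp (K.1, F') ≤ Q := by
    intro S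
    induction S using Finset.induction with
    | empty => exact ⟨K.2, by simp, hle⟩
    | insert f S _ ih =>
      obtain ⟨F', hF', hleF⟩ := ih
      by_cases hf : F' f = none
      · refine ⟨Function.update F' f (some (j f)), fun g hg => ?_, ?_⟩
        · rcases eq_or_ne g f with rfl | hgf
          · simp
          · rw [Function.update_of_ne hgf]
            exact hF' g ((Finset.mem_insert.mp hg).resolve_left hgf)
        · refine ((T.localData ϖ hϖ).comp_update_le_compDiv (K := (K.1, F')) (j := j f) hf).trans ?_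
          rw [(T.localData ϖ hϖ).compDiv_eq (K := (K.1, F')) hf]
          exact sup_le hleF ((Ideal.span_singleton_le_iff_mem _).mpr (hmem f))
      · exact ⟨F', fun g hg => (Finset.mem_insert.mp hg).elim (fun e => e ▸ hf) (hF' g), hleF⟩
  obtain ⟨F', hF', hleF⟩ := key Finset.univ
  refine ⟨K.1, fun f => (F' f).get (Option.ne_none_iff_isSome.mp (hF' f (Finset.mem_univ f))), ?_⟩
  simpa only [Option.some_get] using hleF

/-- **The lifting family of a tower.** -/
theorem nonempty_liftingFamily (Φ : T.FrameMaps ϖ hϖ) (hr : 1 ≤ T.r) (w : T.R₀.R →+* O)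
    (hw : w.comp T.R₀.alg = RingHom.id O)
    (hflip : ∀ f n, ∃ j, w ((T.L 0 n).π (Sys.flipA f (T.U n) (T.ℓU n))) = Sys.c f j)
    {goal : Prop} (hgoal : T.I Sys.s ≤ RingHom.ker w → goal) :
    Nonempty (LiftingFamily goal) := by
  classical
  choose t j hK using fun n => exists_comp_le_point (Φ n).2 w hw fun f => hflip f n
  obtain ⟨⟨t₀, j₀⟩, ν, hν, hu⟩ := exists_frequent_value
    (fun n => ((t n, j n) : (Fin Sys.r → Bool) × ∀ f, Fin (Sys.m f)))
  exact ⟨{
    Λ := T.lam
    A := T.ringA ϖ hϖ
    A' := T.ringA' ϖ hϖ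
    R := T.R₀.R
    R' := T.R₀'
    𝔞 := T.aug
    ia := iaFamily Φ hr ν hν
    m := Sys.s
    stage := stage Φ ν hν
    stage_zero := rfl
    π_eq := fun i m => T.level_π i (Φ (ν m)).2
    comp := fun i => (T.localData ϖ hϖ).comp (t₀, partialFlip j₀ i)
    comp_zero := ⟨(t₀, partialFlip j₀ 0), fun f => by simp [partialFlip], rfl⟩
    step := fun i hi => by
      have h := flipStep (T := T) (ϖ := ϖ) (hϖ := hϖ) Φ ν hν ⟨i, hi⟩
        (K := (t₀, partialFlip j₀ i)) (by simp [partialFlip]) (j₀ ⟨i, hi⟩)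
      rw [← partialFlip_succ j₀ ⟨i, hi⟩] at h
      exact h
    point := RingHom.ker w
    point_prime := RingHom.ker_isPrime w
    point_comp := fun m => by
      have h := hK (ν m)
      obtain ⟨h1, h2⟩ := Prod.ext_iff.mp (hu m)
      simp only at h1 h2
      rw [h1, h2] at h
      have e : partialFlip j₀ Sys.s = fun f => some (j₀ f) := funext fun f => by
        simp [partialFlip]
      rw [e]
      exact h
    conclude := hgoal }⟩

/-- The element killed by old forms at the avoidance place `i`. -/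
def oldElem (i : Fin Sys.r) : (T.localData ϖ hϖ).Total :=
  MvPowerSeries.C (4 * (Sys.q (.inl i) : O)) -
    (1 - qf (flipS i)) * MvPowerSeries.C (((Sys.q (.inl i) : O) + 1) ^ 2)

omit [IsAdicComplete (maximalIdeal O) O] [Finite (ResidueField O)] in
theorem trace_framedAt {S : TestRing O} (ℓ : Lift ρbar S) (v : Sys.Place) (g : GQ) :
    ((ℓ.framedAt v).M g).trace = S.constHom _ (ℓ.M g).trace := by
  rw [Lift.framedAt_M, Matrix.trace_units_conj, Lift.constSeries_M,
    AddMonoidHom.map_trace (S.constHom (FrameVar Sys.Place))]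

omit [IsAdicComplete (maximalIdeal O) O] [Finite (ResidueField O)] in
/-- `oldElem` acts on stage `0` through `tr(Frob)² - (q + 1)²`. -/
theorem mapTo_oldElem (hF : T.IsFrameMap ϖ hϖ n F) (i : Fin Sys.r) :
    mapTo (T.pU n) F (oldElem i) = (1 - qf (mapTo (T.pU n) F ∘ flipS i)) *
      (T.U n).constHom _ (((T.ℓU n).M (Sys.φ i)).trace ^ 2 -
        (T.U n).alg (((Sys.q (.inl i) : O) + 1) ^ 2)) := by
  have h := (Sys.avoid_unip i _ ((T.ℓU n).framedAt (Sum.inl i : Sys.Place))
    ((condClosed_detCyclotomic p).framedAt _ ((condClosed_detCyclotomic p).push _ _ _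
      (T.pU_alg n) (T.pU_red n) _ _ (fun _ => rfl) (T.det n)) _)
    ((condClosed_unipotent _).framedAt _ (T.unip n i) _)).2.2
  have hS := mapTo_flipS (T.pU n) (T.pU_alg n) (T.pU_red n) hF i
  rw [oldElem]
  simp only [map_sub, map_mul, map_pow, map_one, map_add, map_ofNat, map_natCast,
    map_qf, hS,
    ← trace_framedAt (T.ℓU n) (Sum.inl i : Sys.Place)] at h ⊢
  linear_combination h

omit [Finite (ResidueField O)] in
/-- `oldElem` avoids the components unramified at the place. -/
theorem oldElem_notMem [CharZero O] (i : Fin Sys.r) (hq : Sys.q (.inl i) ≠ 1)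
    {K : (T.localData ϖ hϖ).UnipComp} (hK : K.1 i = false) :
    Ideal.Quotient.mk _ (oldElem i) ∉ (T.localData ϖ hϖ).comp K := by
  intro h
  have h1 : oldElem i ∈ (T.localData ϖ hϖ).unipKer K := by
    have h2 := Ideal.mem_comap.mpr h
    rwa [LocalData.comp, (T.localData ϖ hϖ).comap_mk
      ((T.localData ϖ hϖ).unipIdeal_le_unipKer K)] at h2
  have hS : flipProj (g := (T.localData ϖ hϖ).g) (T.localData ϖ hϖ).c (T.localData ϖ hϖ).c_mem K.2 ∘
      flipS i = Sv i :=
    flipProj_flipS _ _ _ i
  rw [LocalData.unipKer, RingHom.mem_ker, oldElem, RingHom.comp_apply] at h1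
  simp only [map_sub, map_mul, map_one, map_qf, hS] at h1
  simp only [flipProj, eval_C, unipotentChart_C] at h1
  have h2 := unipotentChart_qfS_of_unr (g := (T.localData ϖ hϖ).g + (T.localData ϖ hϖ).s)
    (T.localData ϖ hϖ).h_mem K.1 hK
  simp only [map_sub, map_qf, unipotentChart_C, sub_left_inj] at h2
  rw [h2] at h1
  have h3 := congrArg MvPowerSeries.constantCoeff h1
  simp [chartX] at h3
  have h4 : ((Sys.q (.inl i) : O) - 1) ^ 2 = 0 := by linear_combination (norm := ring_nf) (-1) * h3
  exact hq (by exact_mod_cast (sub_eq_zero.mp (pow_eq_zero_iff two_ne_zero |>.mp h4)))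

/-- **The lowering family of a tower.** -/
theorem nonempty_loweringFamily [CharZero O] (Φ : T.FrameMaps ϖ hϖ) (hr : 1 ≤ T.r)
    (i : Fin Sys.r) (hq : Sys.q (.inl i) ≠ 1) {goal : Prop}
    (hkill : ¬ goal → ∀ n, (T.L 0 n).act (((T.ℓU n).M (Sys.φ i)).trace ^ 2 -
      (T.U n).alg (((Sys.q (.inl i) : O) + 1) ^ 2)) = 0) :
    Nonempty (LoweringFamily goal) := by
  classical
  exact ⟨{
    Λ := T.lam
    A := T.ringA ϖ hϖ
    A' := T.ringA' ϖ hϖ
    R := T.R₀.R
    R' := T.R₀'
    𝔞 := T.aug
    ia := iaFamily Φ hr id (fun _ => le_rfl)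
    comp := (T.localData ϖ hϖ).comp (fun _ => false, fun _ => none)
    comp_mem := ⟨(fun _ => false, fun _ => none), fun _ => rfl, rfl⟩
    e := Ideal.Quotient.mk _ (oldElem i)
    e_notMem := oldElem_notMem i hq rfl
    all_new := fun hgoal m => by
      show (T.level 0 (Φ m).2).act _ = 0
      rw [level, Level.frame, RingHom.comp_apply]
      refine (congrArg _ ?_).trans (map_zero _)
      rw [RingHom.comp_apply, mapU_mk]
      refine Matrix.ext fun a b => MvPowerSeries.ext fun α => ?_
      show (T.L 0 m).act (MvPowerSeries.coeff (R := (T.U m).R) α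
        (mapTo (T.pU m) (Φ m).1 (oldElem i))) a b = 0
      rw [mapTo_oldElem (Φ m).2]
      erw [MvPowerSeries.coeff_mul_C]
      rw [map_mul, hkill hgoal m, mul_zero]
      simp }⟩

end Tower

end Fermat.Agent.Root.Patched
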