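import Fermat.Agent.Root.Patched.SystemParts
import Fermat.Agent.Root.Patched.ResidualAdjoint
import Fermat.Agent.RootResidual.Compare
import Fermat.Agent.GalRep.LocalDatum
import Fermat.Agent.GalRep.Residual
import Fermat.Agent.GalRep.Attached
import Fermat.Agent.Reduction.Specialisation
import Fermat.Agent.MFCore.Integral

/-!
# Flatness of the residual representation at `p`

If the residual eigensystem occurs in a level prime to `p`, the residual representation is cut out
of the torsion of `J₀(M)`, so it is flat at `p`, also when the curve is bad at `p`.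
-/

set_option autoImplicit false

noncomputable section

open IsLocalRing Polynomial WeierstrassCurve WeierstrassCurve.Affine.Point
open scoped WeierstrassCurve.Affine

namespace Fermat.Agent.Root.Patched

open Fermat.Agent.Deformation Conductor

local notation "ℚbar" => AlgebraicClosure ℚ

variable {O : Type} [CommRing O] [IsDomain O] [IsDiscreteValuationRing O]
  [IsAdicComplete (maximalIdeal O) O] [Finite (ResidueField O)]
  {p : ℕ} [Fact p.Prime] {W : WeierstrassCurve ℤ}

theorem ResidualData.mapRep_point (D : ResidualData O p W) :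
    mapRep (residue O) D.point.M = D.ρbar :=
  MonoidHom.ext D.point.reduces

theorem ResidualData.cont_ρbar (D : ResidualData O p W) : MatCont D.ρbar :=
  D.mapRep_point ▸ TW.matCont_mapRep (residue O) (inferInstanceAs (IsLocalHom _)) D.point.cont

theorem isLocalHom_of_field {k B : Type} [Field k] [CommRing B] [Nontrivial B] (φ : k →+* B) :
    IsLocalHom φ :=
  ⟨fun a ha => isUnit_iff_ne_zero.mpr fun h0 => by simp [h0] at ha⟩

theorem finite_residueField_of_finite {B : Type} [CommRing B] [IsLocalRing B] [Finite B] :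
    Finite (ResidueField B) :=
  Finite.of_surjective _ residue_surjective

/-- **The residual representation is flat at `p`** when it occurs in level prime to `p`. -/
theorem ResidualData.flat_ρbar [CharZero O] (D : ResidualData O p W) (hp2 : p ≠ 2)
    (hW : Semistable W) (hirr : W.ModRepIsIrreducible p) (M : ℕ) (hM : M ≠ 0)
    (h : ResNewform p W M) (hpM : ¬ p ∣ M) :
    (Deformation.ofMatrix D.ρbar D.cont_ρbar).IsFlatAt p := by
  classical
  have hp : p.Prime := Fact.out
  have : Finite (ResidueField (ResidueField O)) := finite_residueField_of_finite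
  by_cases hpΔ : (p : ℤ) ∣ W.Δ
  swap
  · exact isFlatAt_map (residue O) (fun g => (D.point.reduces g).symm) (D.point_flat hpΔ)
  have : NeZero M := ⟨hM⟩
  have := Fact.mk (MFCore.hasIntegralStructure M 2)
  obtain ⟨f, 𝔪, hf, h𝔪, hp𝔪, hfW, -⟩ := h
  set S : Finset ℕ := insert p (M.primeFactors ∪ W.Δ.natAbs.primeFactors) with hSdef
  have hS : ∀ ℓ : ℕ, ℓ.Prime → ℓ ∉ S → W.IsGoodPrimeFor ℓ ∧ ℓ ≠ p := fun ℓ hℓ hℓS => by
    simp only [hSdef, Finset.mem_insert, Finset.mem_union, Nat.mem_primeFactors, not_or] at hℓS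
    exact ⟨fun hd => hℓS.2.2 ⟨hℓ, Int.natCast_dvd.mp hd, Int.natAbs_ne_zero.mpr hW.ne⟩, hℓS.1⟩
  have hNS : ∀ q : ℕ, q.Prime → q ∣ M → q ∈ S := fun q hq hqM =>
    Finset.mem_insert_of_mem (Finset.mem_union_left _ (Nat.mem_primeFactors.mpr ⟨hq, hqM, hM⟩))
  -- the residual character
  let : Field (integralClosure ℤ ℂ ⧸ 𝔪) := Ideal.Quotient.field 𝔪
  have : CharP (integralClosure ℤ ℂ ⧸ 𝔪) p := by
    refine (CharP.charP_iff_prime_eq_zero hp).mpr ?_
    rw [← map_natCast (Ideal.Quotient.mk 𝔪)]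
    exact Ideal.Quotient.eq_zero_iff_mem.mpr hp𝔪
  let χ : CuspForm.heckeAlgebra M 2 (↑S : Set ℕ) →+* integralClosure ℤ ℂ ⧸ 𝔪 :=
    ((Ideal.Quotient.mk 𝔪).comp (GalRep.eigenCharacterInt hf.1)).comp
      (Subalgebra.inclusion (CuspForm.heckeAlgebra_mono (Set.empty_subset _))).toRingHom
  have hval : ∀ (ℓ : ℕ) (hℓ : ℓ.Prime) (hℓM : ¬ ℓ ∣ M) (hℓS : ℓ ∉ (↑S : Set ℕ)),
      χ (CuspForm.heckeAlgebra.T hℓ hℓM hℓS) =
        ((W.apOfModel ℓ : ℤ) : integralClosure ℤ ℂ ⧸ 𝔪) := fun ℓ hℓ hℓM hℓS => by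
    obtain ⟨hgood, hℓp⟩ := hS ℓ hℓ (by simpa using hℓS)
    obtain ⟨a, ha, hmem⟩ := hfW ℓ hℓ hgood hℓM hℓp
    have e : GalRep.eigenCharacterInt hf.1 (Subalgebra.inclusion
        (CuspForm.heckeAlgebra_mono (Set.empty_subset (↑S : Set ℕ)))
          (CuspForm.heckeAlgebra.T hℓ hℓM hℓS)) = a := by
      refine Subtype.ext (Eq.trans ?_ ha.symm)
      exact Hecke.eigenCharacter_T hf.1 hℓ hℓM (Set.notMem_empty ℓ)
    show Ideal.Quotient.mk 𝔪 _ = _
    rw [← map_intCast (Ideal.Quotient.mk 𝔪), Ideal.Quotient.eq]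
    exact e.symm ▸ hmem
  let c : ZMod p →+* integralClosure ℤ ℂ ⧸ 𝔪 := ZMod.castHom (dvd_refl p) _
  have hrange : ∀ t, χ t ∈ c.range := by
    rintro ⟨x, hx⟩
    induction hx using Algebra.adjoin_induction with
    | mem x hx =>
      rcases hx with ⟨ℓ, hℓ, hℓM, hℓS, rfl⟩ | ⟨q, hqM, hq, hqS, rfl⟩
      · exact ⟨(W.apOfModel ℓ : ℤ), (map_intCast c _).trans (hval ℓ hℓ hℓM hℓS).symm⟩
      · exact absurd (Finset.mem_coe.mpr (hNS q hq hqM)) hqS
    | algebraMap n => exact ⟨(n : ZMod p), (map_intCast c n).trans (eq_intCast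
        (χ.comp (algebraMap ℤ (CuspForm.heckeAlgebra M 2 (↑S : Set ℕ)))) n).symm⟩
    | add u v hu hv hu' hv' =>
      have := c.range.add_mem hu' hv'
      rwa [← map_add] at this
    | mul u v hu hv hu' hv' =>
      have := c.range.mul_mem hu' hv'
      rwa [← map_mul] at this
  let eF : ZMod p ≃+* c.range := RingEquiv.ofBijective c.rangeRestrict
    ⟨fun a b hab => c.injective (congrArg Subtype.val hab), c.rangeRestrict_surjective⟩
  let χ₀ : CuspForm.heckeAlgebra M 2 (↑S : Set ℕ) →+* ZMod p :=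
    eF.symm.toRingHom.comp (χ.codRestrict c.range hrange)
  have hχ₀ : ∀ t, c (χ₀ t) = χ t := fun t =>
    congrArg Subtype.val (eF.apply_symm_apply (χ.codRestrict c.range hrange t))
  let θ := D.ι.comp χ₀
  -- the residual representation of the curve
  have := EC.Frobenius.isElliptic_map_rat hW.ne
  set E := W.map (Int.castRingHom ℚ)
  have hcard := Isogeny.card_torsionBy_baseChange (K := ℚbar) E (n := p)
    (Nat.cast_ne_zero.mpr hp.ne_zero)
  have hker := EC.Frobenius.galoisFactorsThroughFiniteLevel_torsion E hp.ne_zero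
  set R := E.residualGaloisRepOf p hcard hker
  have h2p : ((2 : ℕ) : ZMod p) ≠ 0 := by
    rw [ne_eq, ZMod.natCast_eq_zero_iff]
    exact fun h => hp2 ((Nat.prime_dvd_prime_iff_eq hp Nat.prime_two).mp h)
  have h2 : (2 : ResidueField O) ≠ 0 := by
    have := (map_ne_zero D.ι).mpr h2p
    rwa [map_natCast, Nat.cast_ofNat] at this
  have hsplit : SplitData R :=
    splitData_of_irreducible (by exact_mod_cast h2p) (fun U hU => hirr.2 U hU)
      complexConjugation_mul_self (det_involution W hW.ne p hp2 complexConjugation_mul_self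
        complexConjugation_ne_one)
  set R' := R.baseChangeAlong D.ι
  have habs : R'.IsAbsolutelyIrreducible := (hsplit.baseChangeAlong D.ι).isAbsolutelyIrreducible h2
  have hRM : IsResMatrixRep R ((Units.coeHom (M2 (ZMod p))).comp D.ρ₀) :=
    ⟨D.basis, fun σ => (D.ρ₀_eq σ).symm⟩
  have hDM : IsResMatrixRep R' D.ρbar := by
    have h' := hRM.baseChangeAlong D.ι
    rwa [show mapRep D.ι ((Units.coeHom (M2 (ZMod p))).comp D.ρ₀) = D.ρbar from
      MonoidHom.ext fun σ => (D.ρbar_eq σ).symm] at h'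
  have hρbar : ∀ (ℓ : ℕ) (hℓ : ℓ.Prime) (hℓM : ¬ ℓ ∣ M) (hℓS : ℓ ∉ (↑S : Set ℕ)),
      ∀ A : ValuationSubring ℚbar, A.LiesOverPrime ℓ → ∀ σ : GQ, A.IsFrobeniusAt σ ℓ →
        LinearMap.charpoly (R'.ρ σ) =
          X ^ 2 - C (θ (CuspForm.heckeAlgebra.T hℓ hℓM hℓS)) * X +
            C ((ℓ : ResidueField O)) := by
    intro ℓ hℓ hℓM hℓS A hA σ hσ
    obtain ⟨hgood, hℓp⟩ := hS ℓ hℓ (by simpa using hℓS)
    have hR : LinearMap.charpoly (R.ρ σ) =
        X ^ 2 - C (W.apOfModel ℓ : ZMod p) * X + C (ℓ : ZMod p) := by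
      have := EC.Frobenius.moduleFinite_torsion E p
      exact (EC.Frobenius.trace_det_charpoly_of_isIntegralModelOf
        (EC.Frobenius.isIntegralModelOf_map W) hℓ hgood (Ne.symm hℓp) hA hσ).2.2
    have hθ : θ (CuspForm.heckeAlgebra.T hℓ hℓM hℓS) = D.ι (W.apOfModel ℓ : ZMod p) := by
      refine congrArg D.ι (c.injective ?_)
      rw [hχ₀, hval, map_intCast]
    let : Algebra (ZMod p) (ResidueField O) := D.ι.toAlgebra
    change LinearMap.charpoly ((R.ρ σ).baseChange (ResidueField O)) = _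
    rw [LinearMap.charpoly_baseChange, hR, hθ]
    simp [Polynomial.map_sub, Polynomial.map_add, Polynomial.map_mul, Polynomial.map_pow,
      RingHom.algebraMap_toAlgebra]
  have hin : GalRep.RepInput p M := fun S' hpS' hNS' O' _ _ _ _ _ _ hp' χ' =>
    GalRep.exists_galoisRep_of_torsionReduction p M (Reduction.torsionReduction M p) S' hpS' hNS'
      O' hp' χ'
  obtain ⟨H, -, hequiv⟩ := GalRep.exists_localDatum θ hin D.p_mem (Finset.mem_insert_self p _)
    hNS R' habs hρbar
  let T := CuspForm.heckeLocal M (↑S : Set ℕ) O θ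
  let ιT : ResidueField O →+* ResidueField T := ResidueField.map (algebraMap O T)
  have hfl : H.ρ.IsFlatAt p :=
    FlatModel.isFlatAt_of_torsionReduction hp D.p_mem hpM (Reduction.torsionReduction M p) H
  have : Finite (ResidueField T) := hfl.1
  have : Finite (ResidueField (ResidueField T)) := finite_residueField_of_finite
  obtain ⟨MH, hMH⟩ := exists_isMatrixRep H.ρ
  have h1 : (Deformation.ofMatrix MH hMH.matCont).IsFlatAt p :=
    TW.flatAt_of_isEquiv (hMH.isEquiv (isMatrixRep_ofMatrix _ _)) hfl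
  have hc₁ : MatCont (mapRep (residue T) MH) :=
    TW.matCont_mapRep _ (inferInstanceAs (IsLocalHom _)) hMH.matCont
  have h2' : (Deformation.ofMatrix (mapRep (residue T) MH) hc₁).IsFlatAt p :=
    isFlatAt_map (residue T) (fun g => rfl) h1
  have hc₂ : MatCont (mapRep ιT D.ρbar) :=
    TW.matCont_mapRep _ (isLocalHom_of_field ιT) D.cont_ρbar
  have h3 : (Deformation.ofMatrix (mapRep ιT D.ρbar) hc₂).IsFlatAt p :=
    TW.flatAt_of_isEquiv ((isEquiv_iff_areConj (isMatrixRep_ofMatrix _ _)
      (isMatrixRep_ofMatrix _ _)).mpr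
        ((isResEquiv_iff_areConj hMH.residual (hDM.baseChangeAlong ιT)).mp hequiv)) h2'
  let e : ResidueField O ≃+* ResidueField T := RingEquiv.ofBijective ιT
    ⟨ιT.injective, fun y => by
      obtain ⟨a, ha⟩ := GalRep.residue_comp_surjective (N := M) (S := S) θ y
      exact ⟨residue O a, ha⟩⟩
  exact isFlatAt_map (M := mapRep ιT D.ρbar) e.symm.toRingHom
    (fun g => Matrix.ext fun i j => (e.symm_apply_apply (D.ρbar g i j)).symm) h3

/-- Residual test rings have cyclotomic determinant. -/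
theorem ResidualData.det_of_bot (D : ResidualData O p W) (S : TestRing O) (r : Lift D.ρbar S)
    (hS : maximalIdeal S.R = ⊥) : DetCyclotomic p S r := by
  intro n σ a ha
  have hinj : Function.Injective S.red := (injective_iff_map_eq_zero S.red).mpr fun x hx => by
    have := (S.ker_red x).mp hx
    rwa [hS, Ideal.mem_bot] at this
  rcases Nat.eq_zero_or_pos n with rfl | hn
  · simp
  have hd := D.det₀ σ a fun μ hμ => ha μ (by
    obtain ⟨m, rfl⟩ : ∃ m, n = m + 1 := ⟨n - 1, by omega⟩
    rw [pow_succ', pow_mul, hμ, one_pow])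
  have h0 : (r.M σ).det - (a : S.R) = 0 := hinj (by
    rw [map_sub, _root_.map_zero, map_natCast, RingHom.map_det, RingHom.mapMatrix_apply, r.reduces,
      D.ρbar_eq, ← RingHom.mapMatrix_apply, ← RingHom.map_det, hd, map_natCast, sub_self])
  rw [h0]
  exact zero_mem _

/-- Residual test rings have flat shape, if the residual representation is flat. -/
theorem ResidualData.flatShape_of_bot (D : ResidualData O p W)
    (hflat : (Deformation.ofMatrix D.ρbar D.cont_ρbar).IsFlatAt p) (S : TestRing O)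
    (r : Lift D.ρbar S) (hS : maximalIdeal S.R = ⊥) : FlatShape p S r := by
  have := S.finite_residueField
  let e : S.R ≃+* ResidueField O := RingEquiv.ofBijective S.red
    ⟨(injective_iff_map_eq_zero S.red).mpr fun x hx => by
      have := (S.ker_red x).mp hx
      rwa [hS, Ideal.mem_bot] at this,
     fun y => by
      obtain ⟨a, rfl⟩ := residue_surjective y
      exact ⟨S.alg a, S.red_alg a⟩⟩
  exact isFlatAt_map e.symm.toRingHom (fun g => Matrix.ext fun i j => by
    rw [← r.reduces g]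
    exact (e.symm_apply_apply (r.M g i j)).symm) hflat

end Fermat.Agent.Root.Patched
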