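import Fermat.Agent.Root.Patched.Standard
import Fermat.Agent.Root.Patched.ResidualFlat
import Fermat.Agent.Root.GenusPoint
import Fermat.Agent.TW.Local

/-!
# The residual eigensystem of a tower

A residual newform gives the residual eigensystem at every level above it, in the form of the
standing hypotheses of the Taylor–Wiles local theory (`exists_twHyp`).
-/

set_option autoImplicit false

noncomputable section

open IsLocalRing Polynomial WeierstrassCurve
open scoped WeierstrassCurve.Affine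

namespace Fermat.Agent.Root.Patched

open Fermat.Agent.Deformation Fermat.Agent.GammaH Fermat.Agent.TW CongruenceSubgroup
open ModularFormClass (qCoeff)

local notation "ℚbar" => AlgebraicClosure ℚ

variable {O : Type} [CommRing O] [IsDomain O] [IsDiscreteValuationRing O]
  [IsAdicComplete (maximalIdeal O) O] [Finite (ResidueField O)] [CharZero O]
  {p : ℕ} [Fact p.Prime] {W : WeierstrassCurve ℤ}

omit [CharZero O] in
/-- The matrices of `ρbar` span and come from finite level. -/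
theorem rhobar_span (hp2 : p ≠ 2) (hW : Semistable W) (hirr : W.ModRepIsIrreducible p)
    (D : ResidualData O p W) :
    GaloisFactorsThroughFiniteLevel D.ρbar ∧
      Submodule.span (ResidueField O) (Set.range D.ρbar) = ⊤ := by
  classical
  have hp : p.Prime := Fact.out
  refine ⟨?_, ?_⟩
  · obtain ⟨L, hL, h⟩ := D.finite_level
    refine ⟨L, hL, fun σ hσ => ?_⟩
    rw [D.ρbar_eq, h σ hσ, Units.val_one, Matrix.map_one _ (map_zero D.ι) (map_one D.ι)]
  have := EC.Frobenius.isElliptic_map_rat hW.ne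
  set E := W.map (Int.castRingHom ℚ)
  have hcard := Isogeny.card_torsionBy_baseChange (K := ℚbar) E (n := p)
    (Nat.cast_ne_zero.mpr hp.ne_zero)
  have hker := EC.Frobenius.galoisFactorsThroughFiniteLevel_torsion E hp.ne_zero
  set R := E.residualGaloisRepOf p hcard hker
  have h2p : ((2 : ℕ) : ZMod p) ≠ 0 := by
    rw [ne_eq, ZMod.natCast_eq_zero_iff]
    exact fun h => hp2 ((Nat.prime_dvd_prime_iff_eq hp Nat.prime_two).mp h)
  have h2 : (2 : ResidueField O) ≠ 0 := by
    have := (map_ne_zero D.ι).mpr h2p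
    rwa [map_natCast, Nat.cast_ofNat] at this
  have hsplit : Conductor.SplitData R :=
    Conductor.splitData_of_irreducible (by exact_mod_cast h2p) (fun U hU => hirr.2 U hU)
      complexConjugation_mul_self
        (Conductor.det_involution W hW.ne p hp2 complexConjugation_mul_self
        Conductor.complexConjugation_ne_one)
  have hRM : IsResMatrixRep R ((Units.coeHom (M2 (ZMod p))).comp D.ρ₀) :=
    ⟨D.basis, fun σ => (D.ρ₀_eq σ).symm⟩
  have hDM : IsResMatrixRep (R.baseChangeAlong D.ι) D.ρbar := by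
    have h' := hRM.baseChangeAlong D.ι
    rwa [show mapRep D.ι ((Units.coeHom (M2 (ZMod p))).comp D.ρ₀) = D.ρbar from
      MonoidHom.ext fun σ => (D.ρbar_eq σ).symm] at h'
  exact span_range_eq_top hDM ((hsplit.baseChangeAlong D.ι).isAbsolutelyIrreducible h2)

/-- The residual eigen character at level `L`, with values in `𝔽_p`. -/
theorem exists_zmod_character {N : ℕ} (hres : ∃ M, M ∣ N ∧ ResNewform p W M)
    {L : ℕ} [NeZero L] (hNL : N ∣ L) {S : Finset ℕ} (hpS : p ∈ S)
    (hLS : ∀ q : ℕ, q.Prime → q ∣ L → q ∈ S)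
    (hWS : ∀ q : ℕ, q.Prime → (q : ℤ) ∣ W.Δ → q ∈ S) :
    ∃ χ : heckeRing L (⊤ : Subgroup (ZMod L)ˣ) (↑S : Set ℕ) →+* ZMod p,
      (∀ a, χ (diamondR a) = 1) ∧
      ∀ (l : ℕ) (hl : l.Prime) (hlL : ¬ l ∣ L) (hlS : l ∉ (↑S : Set ℕ)),
        χ (heckeTR hl hlL hlS) = ((W.apOfModel l : ℤ) : ZMod p) := by
  classical
  have hp : p.Prime := Fact.out
  obtain ⟨M, hMN, f, 𝔪, hf, h𝔪, hp𝔪, hfW, -⟩ := hres
  have : NeZero M := ⟨fun h => NeZero.ne L (Nat.eq_zero_of_zero_dvd (h ▸ hMN.trans hNL))⟩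
  set v := Newform.degen L M 1 2 (by simpa using hMN.trans hNL) f
  have hv : v ≠ 0 := fun h => by
    have h1 := congrArg (fun F : CuspForm (Gamma0 L) 2 => qCoeff ⇑F 1) h
    simp only [v, Newform.qCoeff_degen_one, hf.1.qCoeff_one] at h1
    exact one_ne_zero (h1.trans (Hecke.qCoeff_zero_form 1))
  obtain ⟨g, hg, hga⟩ := Newform.exists_eigenform_of_eigenvector ∅ (fun l => qCoeff ⇑f l) hv
    (fun l hl hlM _ => Newform.isNormalizedEigenform_heckeT hf.1 _ _ hl hlM)
  have hgood : ∀ l : ℕ, l.Prime → l ∉ (↑S : Set ℕ) → W.IsGoodPrimeFor l ∧ l ≠ p :=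
    fun l hl hlS => ⟨fun hd => hlS (by simpa using hWS l hl hd),
      fun h => hlS (by simpa [h] using hpS)⟩
  let : Field (integralClosure ℤ ℂ ⧸ 𝔪) := Ideal.Quotient.field 𝔪
  have : CharP (integralClosure ℤ ℂ ⧸ 𝔪) p := by
    refine (CharP.charP_iff_prime_eq_zero hp).mpr ?_
    rw [← map_natCast (Ideal.Quotient.mk 𝔪)]
    exact Ideal.Quotient.eq_zero_iff_mem.mpr hp𝔪
  let χ : CuspForm.heckeAlgebra L 2 (↑S : Set ℕ) →+* integralClosure ℤ ℂ ⧸ 𝔪 :=
    ((Ideal.Quotient.mk 𝔪).comp (GalRep.eigenCharacterInt hg)).comp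
      (Subalgebra.inclusion (CuspForm.heckeAlgebra_mono (Set.empty_subset _))).toRingHom
  have hval : ∀ (l : ℕ) (hl : l.Prime) (hlL : ¬ l ∣ L) (hlS : l ∉ (↑S : Set ℕ)),
      χ (CuspForm.heckeAlgebra.T hl hlL hlS) =
        ((W.apOfModel l : ℤ) : integralClosure ℤ ℂ ⧸ 𝔪) := fun l hl hlL hlS => by
    obtain ⟨hlg, hlp⟩ := hgood l hl hlS
    obtain ⟨a, ha, hmem⟩ := hfW l hl hlg (fun h => hlL (h.trans (hMN.trans hNL))) hlp
    have e : GalRep.eigenCharacterInt hg (Subalgebra.inclusion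
        (CuspForm.heckeAlgebra_mono (Set.empty_subset (↑S : Set ℕ)))
          (CuspForm.heckeAlgebra.T hl hlL hlS)) = a := by
      refine Subtype.ext (Eq.trans ?_ ha.symm)
      exact (Hecke.eigenCharacter_T hg hl hlL (Set.notMem_empty l)).trans
        (hga l hl hlL (Set.notMem_empty l))
    show Ideal.Quotient.mk 𝔪 _ = _
    rw [← map_intCast (Ideal.Quotient.mk 𝔪), Ideal.Quotient.eq]
    exact e.symm ▸ hmem
  let c : ZMod p →+* integralClosure ℤ ℂ ⧸ 𝔪 := ZMod.castHom (dvd_refl p) _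
  have hrange : ∀ t, χ t ∈ c.range := by
    rintro ⟨x, hx⟩
    induction hx using Algebra.adjoin_induction with
    | mem x hx =>
      rcases hx with ⟨ℓ, hℓ, hℓL, hℓS, rfl⟩ | ⟨q, hqL, hq, hqS, rfl⟩
      · exact ⟨(W.apOfModel ℓ : ℤ), (map_intCast c _).trans (hval ℓ hℓ hℓL hℓS).symm⟩
      · exact absurd (Finset.mem_coe.mpr (hLS q hq hqL)) hqS
    | algebraMap n => exact ⟨(n : ZMod p), (map_intCast c n).trans (eq_intCast
        (χ.comp (algebraMap ℤ (CuspForm.heckeAlgebra L 2 (↑S : Set ℕ)))) n).symm⟩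
    | add u v hu hv hu' hv' =>
      have := c.range.add_mem hu' hv'
      rwa [← map_add] at this
    | mul u v hu hv hu' hv' =>
      have := c.range.mul_mem hu' hv'
      rwa [← map_mul] at this
  let eF : ZMod p ≃+* c.range := RingEquiv.ofBijective c.rangeRestrict
    ⟨fun a b hab => c.injective (congrArg Subtype.val hab), c.rangeRestrict_surjective⟩
  let χ₀ : CuspForm.heckeAlgebra L 2 (↑S : Set ℕ) →+* ZMod p :=
    eF.symm.toRingHom.comp (χ.codRestrict c.range hrange)
  have hχ₀ : ∀ t, c (χ₀ t) = χ t := fun t =>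
    congrArg Subtype.val (eF.apply_symm_apply (χ.codRestrict c.range hrange t))
  let e : heckeRing L (⊤ : Subgroup (ZMod L)ˣ) (↑S : Set ℕ) →+*
      CuspForm.heckeAlgebra L 2 (↑S : Set ℕ) :=
    ((endGamma0 L).toRingEquiv.toRingHom.comp
      (heckeRing L ⊤ (↑S : Set ℕ)).val.toRingHom).codRestrict
      (CuspForm.heckeAlgebra L 2 (↑S : Set ℕ)).toSubring (fun t => by
        show endGamma0 L t.1 ∈ CuspForm.heckeAlgebra L 2 (↑S : Set ℕ)
        rw [← map_heckeRing_top L (↑S : Set ℕ)]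
        exact ⟨t.1, t.2, rfl⟩)
  refine ⟨χ₀.comp e, fun a => ?_, fun l hl hlL hlS => ?_⟩
  · have he : e (diamondR a) = 1 := by
      refine Subtype.ext (LinearMap.ext fun F => ?_)
      obtain ⟨F, rfl⟩ := (equivGamma0 L).surjective F
      show endGamma0 L (diamondR a : heckeRing L ⊤ (↑S : Set ℕ)).1 (equivGamma0 L F) = _
      rw [endGamma0_apply, coe_diamondR, diamond_apply_of_mem (Subgroup.mem_top a)]
      rfl
    show χ₀ (e (diamondR a)) = 1
    rw [he, map_one]
  · have he : e (heckeTR hl hlL hlS) = CuspForm.heckeAlgebra.T hl hlL hlS := by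
      refine Subtype.ext (LinearMap.ext fun F => ?_)
      obtain ⟨F, rfl⟩ := (equivGamma0 L).surjective F
      show endGamma0 L (heckeTR hl hlL hlS : heckeRing L ⊤ (↑S : Set ℕ)).1 (equivGamma0 L F) = _
      rw [endGamma0_apply, coe_heckeTR, equivGamma0_heckeT]
      rfl
    refine c.injective ?_
    show c (χ₀ (e (heckeTR hl hlL hlS))) = _
    rw [he, hχ₀, hval, map_intCast]

omit [CharZero O] in
/-- **The residual eigensystem at a level above a residual newform**, in the form of the standing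
hypotheses of `TW/Local`, together with the basic properties of `ρbar`. -/
theorem exists_twHyp (hp2 : p ≠ 2) (hW : Semistable W) (hirr : W.ModRepIsIrreducible p)
    (D : ResidualData O p W) {N : ℕ} [NeZero N] (hres : ∃ M, M ∣ N ∧ ResNewform p W M)
    {L R h : ℕ} [NeZero L] [NeZero R] (hNL : N ∣ L) {H : Subgroup (ZMod L)ˣ}
    (hH : (-1 : (ZMod L)ˣ) ∈ H) (hR : R ∣ L) (hker : (ZMod.unitsMap hR).ker ≤ H)
    (hodd : ∀ a : (ZMod L)ˣ, a ^ (2 * h + 1) ∈ H) {S : Finset ℕ} (hpS : p ∈ S)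
    (hLS : ∀ q : ℕ, q.Prime → q ∣ L → q ∈ S)
    (hWS : ∀ q : ℕ, q.Prime → (q : ℤ) ∣ W.Δ → q ∈ S) :
    ∃ (θ : heckeRing L H (↑S : Set ℕ) →+* ResidueField O)
      (ρbar' : ResidualGaloisRep (ResidueField O)),
      TWHyp (H := H) (S := S) (O := O) p R h hH θ ρbar' D.ρbar ∧ ∀ a, θ (diamondR a) = 1 := by
  obtain ⟨χ, hχd, hχT⟩ := exists_zmod_character hres hNL hpS hLS hWS
  obtain ⟨hfin, hspan⟩ := rhobar_span hp2 hW hirr D
  set θ := D.ι.comp (χ.comp (heckeRes (le_top : H ≤ ⊤))) with hθ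
  have hθd : ∀ a, θ (diamondR a) = 1 := fun a => by
    rw [hθ, RingHom.comp_apply, RingHom.comp_apply, heckeRes_diamond, hχd, map_one]
  refine ⟨θ, residualOfMatrix D.ρbar hfin, ⟨Fact.out, hp2, D.p_mem, hpS,
    fun N _ => Reduction.torsionReduction N p, hR, hker, hodd, hLS,
    isResMatrixRep_residualOfMatrix _ hfin,
    GalRep.isAbsolutelyIrreducible_of_span (isResMatrixRep_residualOfMatrix _ hfin) hspan, ?_⟩,
    hθd⟩
  intro l hl hlL hlS A hA σ hσ
  have hT : θ (twistedT h hl hlL hlS) = ((W.apOfModel l : ℤ) : ResidueField O) := by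
    rw [twistedT, map_mul, map_pow, hθd, one_pow, one_mul, hθ, RingHom.comp_apply,
      RingHom.comp_apply, heckeRes_heckeT, hχT, map_intCast]
  have hgood : W.IsGoodPrimeFor l := fun hd => hlS (by simpa using hWS l hl hd)
  have hlp : l ≠ p := fun h => hlS (by simpa [h] using hpS)
  obtain ⟨b, hb⟩ := isResMatrixRep_residualOfMatrix D.ρbar hfin
  rw [← LinearMap.charpoly_toMatrix _ b, hb σ, hT, ← D.mapRep_point]
  let r : (TestRing.self O).R →+* ResidueField O := residue O
  show ((D.point.M σ).map r).charpoly = _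
  rw [Matrix.charpoly_map, ((D.point_good l hl hgood hlp A hA).2 σ hσ)]
  simp [Polynomial.map_sub, Polynomial.map_add, Polynomial.map_mul, Polynomial.map_pow]

/-- `ρbar` is unramified outside the level of a residual newform and `p`. -/
theorem rhobar_unramified (hp2 : p ≠ 2) (hW : Semistable W) (hirr : W.ModRepIsIrreducible p)
    (D : ResidualData O p W) {N : ℕ} [NeZero N] (hres : ∃ M, M ∣ N ∧ ResNewform p W M)
    {q : ℕ} (hq : q.Prime) (hqp : q ≠ p) (hqN : ¬ q ∣ N) {A : ValuationSubring ℚbar}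
    (hA : A.LiesOverPrime q) : ∀ σ ∈ A.inertiaSubgroupIn ℚ, D.ρbar σ = 1 := by
  classical
  have := Fact.mk (MFCore.hasIntegralStructure (N * 1) 2)
  obtain ⟨θ, ρbar', hyp, -⟩ := exists_twHyp hp2 hW hirr D hres (R := 1) (h := 0) dvd_rfl
    (H := (⊤ : Subgroup (ZMod N)ˣ)) (Subgroup.mem_top _) (one_dvd N) le_top
    (fun a => Subgroup.mem_top _)
    (S := insert p (N.primeFactors ∪ W.Δ.natAbs.primeFactors)) (Finset.mem_insert_self _ _)
    (fun l hl hlN => Finset.mem_insert_of_mem (Finset.mem_union_left _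
      (Nat.mem_primeFactors.mpr ⟨hl, hlN, NeZero.ne N⟩)))
    (fun l hl hlΔ => Finset.mem_insert_of_mem (Finset.mem_union_right _
      (Nat.mem_primeFactors.mpr ⟨hl, Int.natCast_dvd.mp hlΔ, Int.natAbs_ne_zero.mpr hW.ne⟩)))
  obtain ⟨T⟩ := nonempty_twRep hyp
  intro σ hσ
  have h1 := DFunLike.congr_fun T.reduces σ
  rw [mapRep_apply, mapRep_apply, T.unramified q hq hqp (by simpa using hqN) A hA σ hσ,
    Matrix.map_one _ (map_zero _) (map_one _)] at h1
  refine Matrix.map_injective (RingHom.injective (ResidueField.map (algebraMap O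
    (CuspForm.heckeLocal (N * 1) _ O T.θ')))) (h1.symm.trans ?_)
  exact (Matrix.map_one _ (map_zero _) (map_one _)).symm

end Fermat.Agent.Root.Patched
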