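import Fermat.Agent.Root.Patched.Standard
import Fermat.Agent.TW.Local

/-!
# Residual eigensystems of a tower

Residual eigensystems with trivial diamonds are determined by `ρbar`, so they are compatible along
restriction between levels (`theta_comp_heckeRes`); the residual idempotent acts nontrivially.
-/

set_option autoImplicit false

noncomputable section

open IsLocalRing Polynomial CongruenceSubgroup
open ModularFormClass (qCoeff)

namespace Fermat.Agent.Root.Patched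

open Fermat.Agent.Deformation Fermat.Agent.GammaH Fermat.Agent.TW Fermat.Agent.IharaTW

local notation "ℚbar" => AlgebraicClosure ℚ

/-- Ring maps out of a Hecke ring agree once they agree on the generators. -/
theorem heckeRing_hom_ext {L : ℕ} [NeZero L] {H : Subgroup (ZMod L)ˣ} {S : Set ℕ} {C : Type*}
    [Ring C] {f g : heckeRing L H S →+* C}
    (hd : ∀ a : (ZMod L)ˣ, f (diamondR a) = g (diamondR a))
    (hT : ∀ (l : ℕ) (hl : l.Prime) (hlL : ¬ l ∣ L) (hlS : l ∉ S),
      f (heckeTR hl hlL hlS) = g (heckeTR hl hlL hlS))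
    (hU : ∀ (q : ℕ) (hq : q.Prime) (hqL : q ∣ L) (hqS : q ∉ S),
      f (heckeUR hq hqL hqS) = g (heckeUR hq hqL hqS)) : f = g := by
  refine RingHom.ext fun t => ?_
  obtain ⟨x, hx⟩ := t
  induction hx using Algebra.adjoin_induction with
  | mem x hx =>
    rcases hx with (⟨a, rfl⟩ | ⟨l, hl, hlL, hlS, rfl⟩) | ⟨q, hqL, hq, hqS, rfl⟩
    · exact hd a
    · exact hT l hl hlL hlS
    · exact hU q hq hqL hqS
  | algebraMap n =>
    exact (eq_intCast (f.comp (algebraMap ℤ (heckeRing L H S))) n).trans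
      (eq_intCast (g.comp (algebraMap ℤ (heckeRing L H S))) n).symm
  | add x y hx hy ihx ihy =>
    exact ((f.map_add ⟨x, hx⟩ ⟨y, hy⟩).trans (congrArg₂ (· + ·) ihx ihy)).trans
      (g.map_add ⟨x, hx⟩ ⟨y, hy⟩).symm
  | mul x y hx hy ihx ihy =>
    exact ((f.map_mul ⟨x, hx⟩ ⟨y, hy⟩).trans (congrArg₂ (· * ·) ihx ihy)).trans
      (g.map_mul ⟨x, hx⟩ ⟨y, hy⟩).symm

variable {O : Type} [CommRing O] [IsDomain O] [IsDiscreteValuationRing O]
  [IsAdicComplete (maximalIdeal O) O] [Finite (ResidueField O)] [CharZero O]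
  {p : ℕ} [Fact p.Prime] {W : WeierstrassCurve ℤ}

omit [CharZero O] in
/-- The trace of a Frobenius in `ρbar`. -/
theorem ResidualData.trace_frob (D : ResidualData O p W) {q : ℕ} (hq : q.Prime)
    (hgood : W.IsGoodPrimeFor q) (hne : q ≠ p) {A : ValuationSubring ℚbar}
    (hA : A.LiesOverPrime q) {σ : GQ} (hσ : A.IsFrobeniusAt σ q) :
    (D.ρbar σ).trace = ((W.apOfModel q : ℤ) : ResidueField O) := by
  have h := (trace_det_of_charpoly_eq ((D.point_good q hq hgood hne A hA).2 σ hσ)).1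
  rw [← D.point.reduces σ]
  refine ((AddMonoidHom.map_trace (TestRing.self O).red.toAddMonoidHom _).symm).trans ?_
  show (TestRing.self O).red (D.point.M σ).trace = _
  rw [h, map_intCast]

section Unique

variable {L R h : ℕ} [NeZero L] [NeZero R] {H : Subgroup (ZMod L)ˣ} {S : Finset ℕ}
  {hH : (-1 : (ZMod L)ˣ) ∈ H} {θ : heckeRing L H (↑S : Set ℕ) →+* ResidueField O}
  {ρbar' : ResidualGaloisRep (ResidueField O)} {ρ₀ : GQ →* M2 (ResidueField O)}

omit [IsAdicComplete (maximalIdeal O) O] [Finite (ResidueField O)] [CharZero O]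
    [Fact (Nat.Prime p)] in
/-- With trivial diamonds the eigenvalue of `T_l` is the trace of Frobenius. -/
theorem twHyp_theta_heckeTR (hyp : TWHyp (H := H) (S := S) (O := O) p R h hH θ ρbar' ρ₀)
    (hd : ∀ a, θ (diamondR a) = 1) {l : ℕ} (hl : l.Prime) (hlL : ¬ l ∣ L)
    (hlS : l ∉ (↑S : Set ℕ)) {A : ValuationSubring ℚbar} (hA : A.LiesOverPrime l) {σ : GQ}
    (hσ : A.IsFrobeniusAt σ l) : θ (heckeTR hl hlL hlS) = (ρ₀ σ).trace := by
  obtain ⟨b, hb⟩ := hyp.matrix
  have h1 := hyp.frob l hl hlL hlS A hA σ hσ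
  rw [← LinearMap.charpoly_toMatrix _ b, hb] at h1
  rw [(trace_det_of_charpoly_eq h1).1, twistedT, map_mul, map_pow, hd, one_pow, one_mul]

variable {L' R' h' : ℕ} [NeZero L'] [NeZero R'] {H' : Subgroup (ZMod L')ˣ}
  {hH' : (-1 : (ZMod L')ˣ) ∈ H'} {θ' : heckeRing L' H' (↑S : Set ℕ) →+* ResidueField O}
  {ρbar'' : ResidualGaloisRep (ResidueField O)}

omit [IsAdicComplete (maximalIdeal O) O] [Finite (ResidueField O)] [CharZero O]
    [Fact (Nat.Prime p)] in
/-- **Compatibility**: the residual eigensystems of two levels correspond along every map of Hecke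
rings respecting the generators. -/
theorem theta_comp_eq (hyp : TWHyp (H := H) (S := S) (O := O) p R h hH θ ρbar' ρ₀)
    (hd : ∀ a, θ (diamondR a) = 1)
    (hyp' : TWHyp (H := H') (S := S) (O := O) p R' h' hH' θ' ρbar'' ρ₀)
    (hd' : ∀ a, θ' (diamondR a) = 1)
    (r : heckeRing L H (↑S : Set ℕ) →+* heckeRing L' H' (↑S : Set ℕ))
    (hrd : ∀ a : (ZMod L)ˣ, ∃ a' : (ZMod L')ˣ, r (diamondR a) = diamondR a')
    (hrT : ∀ (l : ℕ) (hl : l.Prime) (hlL : ¬ l ∣ L) (hlL' : ¬ l ∣ L') (hlS : l ∉ (↑S : Set ℕ)),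
      r (heckeTR hl hlL hlS) = heckeTR hl hlL' hlS) :
    θ'.comp r = θ := by
  refine heckeRing_hom_ext (fun a => ?_) (fun l hl hlL hlS => ?_)
    fun q hq hqL hqS => absurd (Finset.mem_coe.2 (hyp.LS q hq hqL)) hqS
  · obtain ⟨a', ha'⟩ := hrd a
    rw [RingHom.comp_apply, ha', hd', hd]
  · have hlL' : ¬ l ∣ L' := fun h' => hlS (Finset.mem_coe.2 (hyp'.LS l hl h'))
    obtain ⟨A, hA⟩ := Gal.exists_liesOverPrime (L := ℚbar) hl
    obtain ⟨σ, hσ⟩ := Gal.exists_isFrobeniusAt hl hA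
    rw [RingHom.comp_apply, hrT l hl hlL hlL' hlS, twHyp_theta_heckeTR hyp' hd' hl hlL' hlS hA hσ,
      twHyp_theta_heckeTR hyp hd hl hlL hlS hA hσ]

end Unique

omit [IsAdicComplete (maximalIdeal O) O] [Finite (ResidueField O)] [CharZero O]
    [Fact (Nat.Prime p)] in
/-- Restriction to a larger subgroup of one level respects the residual eigensystems. -/
theorem theta_comp_heckeRes {L R R' h h' : ℕ} [NeZero L] [NeZero R] [NeZero R']
    {H H' : Subgroup (ZMod L)ˣ} (hle : H ≤ H') {S : Finset ℕ} {hH : (-1 : (ZMod L)ˣ) ∈ H}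
    {hH' : (-1 : (ZMod L)ˣ) ∈ H'} {θ : heckeRing L H (↑S : Set ℕ) →+* ResidueField O}
    {θ' : heckeRing L H' (↑S : Set ℕ) →+* ResidueField O}
    {ρbar' ρbar'' : ResidualGaloisRep (ResidueField O)} {ρ₀ : GQ →* M2 (ResidueField O)}
    (hyp : TWHyp (H := H) (S := S) (O := O) p R h hH θ ρbar' ρ₀)
    (hd : ∀ a, θ (diamondR a) = 1)
    (hyp' : TWHyp (H := H') (S := S) (O := O) p R' h' hH' θ' ρbar'' ρ₀)
    (hd' : ∀ a, θ' (diamondR a) = 1) : θ'.comp (heckeRes hle) = θ :=
  theta_comp_eq hyp hd hyp' hd' (heckeRes hle) (fun a => ⟨a, heckeRes_diamond hle a⟩)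
    fun _ hl hlL _ hlS => heckeRes_heckeT hle hl hlL hlS

/-! ## Nonvanishing -/

section NeZero

variable {L : ℕ} [NeZero L] {H : Subgroup (ZMod L)ˣ} {S S' : Set ℕ}
  (hH : (-1 : (ZMod L)ˣ) ∈ H) (θ : heckeRing L H S →+* ResidueField O)

omit [Finite (ResidueField O)] in
/-- The residual idempotent acts nontrivially. -/
theorem actO_twIdem_ne_zero : actO hH O (twIdem hH O θ) ≠ 0 := fun h0 => by
  have h1 : twIdem hH O θ = 0 := actO_injective hH O (h0.trans (map_zero _).symm)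
  have h2 := residO_twIdem hH O θ
  rw [h1, map_zero] at h2
  exact zero_ne_one h2

end NeZero

end Fermat.Agent.Root.Patched
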