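import Fermat.Agent.Root.Patched.TowerChain
import Fermat.Agent.Root.Patched.TowerExists
import Fermat.Agent.Root.Patched.TowerResidual
import Fermat.Agent.Root.Patched.TowerTheta
import Fermat.Agent.TW.AuxPrime
import Fermat.Agent.TW.FreeThree

/-!
# The input of a tower

From the hypotheses of `TowerExists`: for a finite set `Q` of auxiliary primes and a set `A` of
avoided primes the chain of levels `N ∏ Q`, `N ∏ Q q₀`, … with the subgroup of the auxiliary group
at `Q ∪ A`, its residual eigensystem and the residual parts as summands.  With `Q = ∅` this gives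
the bases.
-/

set_option autoImplicit false

noncomputable section

open IsLocalRing

namespace Fermat.Agent.Root.Patched

open Fermat.Agent.Deformation Fermat.Agent.GammaH Fermat.Agent.TW Fermat.Agent.IharaTW
open scoped MatrixGroups

local notation "ℚbar" => AlgebraicClosure ℚ

/-- A prime dividing a level of a chain divides the bottom or is one of the earlier steps. -/
theorem dvd_or_eq_of_dvd_chainLvl {N₀ : ℕ} {q : ℕ → ℕ} (hq : ∀ f, (q f).Prime) {l : ℕ}
    (hl : l.Prime) : ∀ {i : ℕ}, l ∣ chainLvl N₀ q i → l ∣ N₀ ∨ ∃ j < i, l = q j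
  | 0, h => Or.inl h
  | i + 1, h => by
    rcases hl.dvd_mul.1 h with h | h
    · rcases dvd_or_eq_of_dvd_chainLvl hq hl h with h | ⟨j, hj, e⟩
      · exact Or.inl h
      · exact Or.inr ⟨j, hj.trans (Nat.lt_succ_self i), e⟩
    · exact Or.inr ⟨i, Nat.lt_succ_self i, (Nat.prime_dvd_prime_iff_eq hl (hq i)).1 h⟩

/-- The product of finitely many primes is squarefree. -/
theorem inputSquarefree_prod {Q : Finset ℕ} (hQ : ∀ q ∈ Q, q.Prime) :
    Squarefree (∏ q ∈ Q, q) := by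
  classical
  induction Q using Finset.induction_on with
  | empty => simp
  | insert a s ha ih =>
    rw [Finset.prod_insert ha, Nat.squarefree_mul_iff]
    refine ⟨Nat.Coprime.prod_right fun b hb => ?_, (hQ a (Finset.mem_insert_self a s)).squarefree,
      ih fun q hq => hQ q (Finset.mem_insert_of_mem hq)⟩
    exact (Nat.coprime_primes (hQ a (Finset.mem_insert_self a s))
      (hQ b (Finset.mem_insert_of_mem hb))).2 fun e => ha (e ▸ hb)

variable {O : Type} [CommRing O] [IsDomain O] [IsDiscreteValuationRing O]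
  [IsAdicComplete (maximalIdeal O) O] [Finite (ResidueField O)] [CharZero O]
  {p : ℕ} [Fact p.Prime] {W : WeierstrassCurve ℤ}

/-! ## The hypotheses -/

/-- The hypotheses of the construction of towers. -/
structure TowerHyp (D : ResidualData O p W) (Sys : LocalSystem O D.ρbar p) (St : StdData Sys D.ζ)
    (N : ℕ) : Prop where
  ne_two : p ≠ 2
  ss : Semistable W
  irr : W.ModRepIsIrreducible p
  level : StageLevel Sys St W N

/-- A finite set of auxiliary primes. -/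
structure AuxSet {ρbar : GQ →* M2 (ResidueField O)} (Sys : LocalSystem O ρbar p) (Q : Finset ℕ) :
    Prop where
  prime : ∀ q ∈ Q, q.Prime
  notPlace : ∀ q ∈ Q, ∀ v, Sys.q v ≠ q
  one_mod : ∀ q ∈ Q, p ∣ q - 1

omit [IsAdicComplete (maximalIdeal O) O] [Finite (ResidueField O)] [CharZero O]
    [Fact (Nat.Prime p)] in
theorem AuxSet.empty {ρbar : GQ →* M2 (ResidueField O)} (Sys : LocalSystem O ρbar p) :
    AuxSet Sys ∅ :=
  ⟨by simp, by simp, by simp⟩

omit [IsAdicComplete (maximalIdeal O) O] [Finite (ResidueField O)] [CharZero O]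
    [Fact (Nat.Prime p)] in
theorem TWPrimes.auxSet {ρbar : GQ →* M2 (ResidueField O)} {Sys : LocalSystem O ρbar p}
    (Qs : TWPrimes Sys) (n : ℕ) : AuxSet Sys (Qs.Q n) :=
  ⟨Qs.prime n, Qs.notPlace n, fun q hq => (Qs.one_mod n q hq).2⟩

/-- The level at the bottom. -/
def inputN₀ (N : ℕ) (Q : Finset ℕ) : ℕ := N * ∏ q ∈ Q, q

/-- The exponent of the twist: `2 h + 1` is a power of `p` killing all the auxiliary groups. -/
def inputh (p : ℕ) (Q : Finset ℕ) : ℕ :=
  p ^ (1 + Q.sup fun q => (q - 1).factorization p) / 2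

theorem inputh_empty (p : ℕ) : inputh p ∅ = p / 2 := by simp [inputh]

/-- The primes left out of the Hecke rings. -/
def inputS (p : ℕ) (W : WeierstrassCurve ℤ) (N : ℕ) {ρbar : GQ →* M2 (ResidueField O)}
    (Sys : LocalSystem O ρbar p) (Q Sx : Finset ℕ) : Finset ℕ :=
  insert p ((chainLvl (inputN₀ N Q) (flipPrime Sys) Sys.s).primeFactors ∪
    W.Δ.natAbs.primeFactors ∪ Sx)

namespace TowerHyp

variable {D : ResidualData O p W} {Sys : LocalSystem O D.ρbar p} {St : StdData Sys D.ζ} {N : ℕ}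
  (hT : TowerHyp D Sys St N)

include hT

omit [CharZero O] in
theorem neZero : NeZero N := ⟨hT.level.squarefree.ne_zero⟩

omit [CharZero O] in
theorem odd : Odd p := (Fact.out : p.Prime).odd_of_ne_two hT.ne_two

omit [CharZero O] in
theorem two_mul_inputh (Q : Finset ℕ) :
    2 * inputh p Q + 1 = p ^ (1 + Q.sup fun q => (q - 1).factorization p) :=
  Nat.two_mul_div_two_add_one_of_odd hT.odd.pow

omit hT [CharZero O] in
theorem ne_p_of_auxSet (St : StdData Sys D.ζ) {Q : Finset ℕ} (hQ : AuxSet Sys Q) {q : ℕ}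
    (hq : q ∈ Q) : q ≠ p := fun e => by
  obtain ⟨v, hv⟩ := St.exists_p
  exact hQ.notPlace q hq v (hv.trans e.symm)

omit hT [CharZero O] in
theorem avoid_ne_p (St : StdData Sys D.ζ) {q : ℕ} (hq : q ∈ avoidSet Sys) : q ≠ p := fun e => by
  obtain ⟨i, hi⟩ := mem_avoidSet.1 hq
  have := St.avoid_mod i
  rw [hi, e, Nat.mod_self] at this
  exact zero_ne_one this

omit [CharZero O] in
theorem avoid_dvd {q : ℕ} (hq : q ∈ avoidSet Sys) : q.Prime ∧ q ∣ N ∧ p ∣ q - 1 := by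
  obtain ⟨i, rfl⟩ := mem_avoidSet.1 hq
  have h1 := St.avoid_mod i
  exact ⟨Sys.q_prime _, hT.level.dvd _ (Sys.q_prime _) (Or.inl ⟨i, rfl⟩),
    Dvd.intro (Sys.q (.inl i) / p) (by have := Nat.div_add_mod (Sys.q (.inl i)) p; omega)⟩

omit [CharZero O] in
theorem not_dvd_flip (f : Fin Sys.s) : ¬ Sys.q (.inr (.inl f)) ∣ N := fun h => by
  rcases hT.level.primes _ (Sys.q_prime _) h with (⟨i, hi⟩ | ⟨u, hu, -⟩) | hH
  · exact Sum.inl_ne_inr (Sys.q_injective hi)
  · exact Sum.inr_ne_inl (Sum.inr_injective (Sys.q_injective hu))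
  · exact hH.notPlace _ rfl

omit [CharZero O] in
/-- A prime of the level which is no place is harmless. -/
theorem harmless_of_dvd {x : ℕ} (hx : x.Prime) (hv : ∀ v, Sys.q v ≠ x) (h : x ∣ N) :
    Harmless Sys x :=
  (hT.level.primes x hx h).resolve_left fun h' =>
    h'.elim (fun ⟨_, hi⟩ => hv _ hi) fun ⟨_, hu, _⟩ => hv _ hu

omit [CharZero O] in
theorem not_dvd_aux {Q : Finset ℕ} (hQ : AuxSet Sys Q) {q : ℕ} (hq : q ∈ Q) : ¬ q ∣ N := fun h => by
  have hH := hT.harmless_of_dvd (hQ.prime q hq) (hQ.notPlace q hq) h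
  refine hH.mod ?_
  obtain ⟨c, hc⟩ := hQ.one_mod q hq
  rw [show q = p * c + 1 by have := (hQ.prime q hq).one_le; omega, Nat.mul_add_mod,
    Nat.mod_eq_of_lt (Fact.out : p.Prime).one_lt]

omit [CharZero O] in
/-- `p` divides the level exactly when the plain place at `p` is not flat. -/
theorem p_dvd_iff : p ∣ N ↔ ∃ u, Sys.q (.inr (.inr u)) = p ∧ ¬ St.flat := by
  constructor
  · intro h
    rcases hT.level.primes p Fact.out h with (⟨i, hi⟩ | ⟨u, hu, hflat⟩) | hH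
    · exact absurd hi (avoid_ne_p St (mem_avoidSet.2 ⟨i, rfl⟩))
    · exact ⟨u, hu, hflat rfl⟩
    · exact absurd rfl hH.ne
  · rintro ⟨u, hu, hflat⟩
    exact hT.level.dvd p Fact.out (Or.inr ⟨u, hu, fun _ => hflat⟩)

omit [CharZero O] in
/-- Residual forms keep `p` in the level when `p` divides `N`. -/
theorem p_dvd_of_resNewform (hpN : p ∣ N) {M : ℕ} (hM : M ∣ N) (h : ResNewform p W M) :
    p ∣ M := by
  obtain ⟨u, hu, hflat⟩ := hT.p_dvd_iff.1 hpN
  exact hT.level.new_at_p hflat u hu M (dvd_mul_of_dvd_left hM _) h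

omit [CharZero O] in
theorem prime_mem {Q A : Finset ℕ} (hQ : AuxSet Sys Q) (hA : A ⊆ avoidSet Sys) {q : ℕ}
    (hq : q ∈ Q ∪ A) : q.Prime :=
  (Finset.mem_union.1 hq).elim (hQ.prime q) fun h => (hT.avoid_dvd (hA h)).1

omit [CharZero O] in
theorem dvd_inputN₀ {Q A : Finset ℕ} (hA : A ⊆ avoidSet Sys) {q : ℕ} (hq : q ∈ Q ∪ A) :
    q ∣ inputN₀ N Q :=
  (Finset.mem_union.1 hq).elim
    (fun h => dvd_mul_of_dvd_right (Finset.dvd_prod_of_mem (fun x => x) h) N)
    fun h => dvd_mul_of_dvd_left (hT.avoid_dvd (hA h)).2.1 _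

omit [CharZero O] in
theorem squarefree_inputN₀ {Q : Finset ℕ} (hQ : AuxSet Sys Q) : Squarefree (inputN₀ N Q) := by
  rw [inputN₀, Nat.squarefree_mul_iff]
  exact ⟨Nat.Coprime.prod_right fun q hq => Nat.Coprime.symm
    ((hQ.prime q hq).coprime_iff_not_dvd.2 (hT.not_dvd_aux hQ hq)), hT.level.squarefree,
    inputSquarefree_prod hQ.prime⟩

omit [CharZero O] in
theorem inputN₀_ne {Q : Finset ℕ} (hQ : AuxSet Sys Q) : inputN₀ N Q ≠ 0 :=
  (hT.squarefree_inputN₀ hQ).ne_zero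

omit [CharZero O] in
theorem not_sq_dvd {Q A : Finset ℕ} (hQ : AuxSet Sys Q) (hA : A ⊆ avoidSet Sys) {q : ℕ}
    (hq : q ∈ Q ∪ A) : ¬ q ^ 2 ∣ inputN₀ N Q := fun h => by
  rw [pow_two] at h
  exact (hT.prime_mem hQ hA hq).not_isUnit ((hT.squarefree_inputN₀ hQ) q h)

omit [CharZero O] in
theorem dvd_p_sub {A : Finset ℕ} (hA : A ⊆ avoidSet Sys) {q : ℕ} (hq : q ∈ A) : p ∣ q - 1 :=
  (hT.avoid_dvd (hA hq)).2.2

omit hT [CharZero O] in
theorem not_p_mem (_hT : TowerHyp D Sys St N) {Q A : Finset ℕ} (hQ : AuxSet Sys Q)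
    (hA : A ⊆ avoidSet Sys) : p ∉ Q ∪ A :=
  fun h => (Finset.mem_union.1 h).elim (fun h => ne_p_of_auxSet St hQ h rfl)
    fun h => avoid_ne_p St (hA h) rfl

omit hT [CharZero O] in
theorem p_dvd_inputN₀ (_hT : TowerHyp D Sys St N) {Q : Finset ℕ} (hQ : AuxSet Sys Q) :
    p ∣ inputN₀ N Q ↔ p ∣ N := by
  refine ⟨fun h => ?_, fun h => dvd_mul_of_dvd_left h _⟩
  refine ((Fact.out : p.Prime).dvd_mul.1 h).resolve_right fun h' => ?_
  obtain ⟨q, hq, hd⟩ := (Fact.out : p.Prime).prime.exists_mem_finset_dvd h'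
  exact ne_p_of_auxSet St hQ hq ((Nat.prime_dvd_prime_iff_eq Fact.out (hQ.prime q hq)).1 hd).symm

omit [CharZero O] in
theorem not_dvd_inputN₀_flip {Q : Finset ℕ} (hQ : AuxSet Sys Q) (f : Fin Sys.s) :
    ¬ Sys.q (.inr (.inl f)) ∣ inputN₀ N Q := fun h => by
  refine ((Sys.q_prime _).dvd_mul.1 h).elim (hT.not_dvd_flip f) fun h' => ?_
  obtain ⟨q, hq, hd⟩ := (Sys.q_prime (.inr (.inl f))).prime.exists_mem_finset_dvd h'
  exact hQ.notPlace q hq _ ((Nat.prime_dvd_prime_iff_eq (Sys.q_prime _) (hQ.prime q hq)).1 hd)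

end TowerHyp

/-! ## The chain -/

variable {D : ResidualData O p W} {Sys : LocalSystem O D.ρbar p} {St : StdData Sys D.ζ} {N : ℕ}
  (hT : TowerHyp D Sys St N) {Q A : Finset ℕ} (hQ : AuxSet Sys Q) (hA : A ⊆ avoidSet Sys)

/-- The auxiliary primes at the bottom. -/
def inputAux : AuxPrimes (inputN₀ N Q) p :=
  auxOf (inputN₀ N Q) Q A (fun _ => hT.prime_mem hQ hA) (fun _ => hT.dvd_inputN₀ hA)
    (fun _ => hT.not_sq_dvd hQ hA) fun _ => hT.dvd_p_sub hA

/-- The subgroup at the bottom. -/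
def inputH : Subgroup (ZMod (inputN₀ N Q))ˣ :=
  haveI : NeZero (inputN₀ N Q) := ⟨hT.inputN₀_ne hQ⟩
  (inputAux hT hQ hA).H

omit [CharZero O] in
theorem inputH_eq_top [NeZero (inputN₀ N Q)] (hQ0 : Q = ∅) (hA0 : A = ∅) :
    inputH hT hQ hA = ⊤ := by
  refine eq_top_iff.2 fun a _ => (inputAux hT hQ hA).mem_H_iff.2 fun q hq => ?_
  have hq' : q ∈ Q ∪ A := hq
  simp [hQ0, hA0] at hq'

omit [CharZero O] in
theorem inputH_anti {A' : Finset ℕ} (hA' : A' ⊆ avoidSet Sys) (h : A ⊆ A') :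
    inputH hT hQ hA' ≤ inputH hT hQ hA := by
  have : NeZero (inputN₀ N Q) := ⟨hT.inputN₀_ne hQ⟩
  intro a ha
  refine (inputAux hT hQ hA).mem_H_iff.2 fun q hq => ?_
  exact (inputAux hT hQ hA').mem_H_iff.1 ha q (Finset.union_subset_union_right h hq)

variable (Sx : Finset ℕ) {s : ℕ} (hs : s ≤ Sys.s)

omit [CharZero O] in
theorem mem_inputS_of_dvd {i : ℕ} (hi : i ≤ Sys.s) {l : ℕ} (hl : l.Prime)
    (h : l ∣ chainLvl (inputN₀ N Q) (flipPrime Sys) i) (hne : inputN₀ N Q ≠ 0) :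
    l ∈ inputS p W N Sys Q Sx := by
  have hne' : ∀ j, chainLvl (inputN₀ N Q) (flipPrime Sys) j ≠ 0 := fun j => by
    induction j with
    | zero => exact hne
    | succ j ih => exact mul_ne_zero ih (flipPrime_prime Sys j).ne_zero
  exact Finset.mem_insert_of_mem (Finset.mem_union_left _ (Finset.mem_union_left _
    (Nat.mem_primeFactors.2 ⟨hl, h.trans (chainLvl_dvd _ _ hi), hne' _⟩)))

omit [CharZero O] in
include hT in
theorem bad_mem_inputS {l : ℕ} (hl : l.Prime) (h : (l : ℤ) ∣ W.Δ) :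
    l ∈ inputS p W N Sys Q Sx :=
  Finset.mem_insert_of_mem (Finset.mem_union_left _ (Finset.mem_union_right _
    (Nat.mem_primeFactors.2 ⟨hl, Int.natCast_dvd.mp h, Int.natAbs_ne_zero.mpr hT.ss.ne⟩)))

/-- The chain of levels. -/
def inputChain : Chain where
  N₀ := inputN₀ N Q
  ne := hT.inputN₀_ne hQ
  q := flipPrime Sys
  s := s
  prime := flipPrime_prime Sys
  not_dvd f hf h := by
    have hfS : f < Sys.s := hf.trans_le hs
    have e : flipPrime Sys f = Sys.q (.inr (.inl ⟨f, hfS⟩)) := dif_pos hfS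
    rcases dvd_or_eq_of_dvd_chainLvl (flipPrime_prime Sys) (flipPrime_prime Sys f) h with
      h' | ⟨j, hj, hje⟩
    · exact hT.not_dvd_inputN₀_flip hQ ⟨f, hfS⟩ (e ▸ h')
    · rw [e, flipPrime, dif_pos (hj.trans hfS)] at hje
      have := Sum.inl_injective (Sum.inr_injective (Sys.q_injective hje))
      rw [Fin.mk.injEq] at this
      omega
  H₀ := inputH hT hQ hA
  neg :=
    haveI : NeZero (inputN₀ N Q) := ⟨hT.inputN₀_ne hQ⟩
    (inputAux hT hQ hA).neg_one_mem hT.odd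
  S := inputS p W N Sys Q Sx
  mem_S _ hl h := mem_inputS_of_dvd Sx hs hl h (hT.inputN₀_ne hQ)

/-- The modulus killing the kernel. -/
def inputR (Q A : Finset ℕ) : ℕ := ∏ q ∈ Q ∪ A, q

omit [CharZero O] in
include hT hQ hA in
theorem inputR_ne : inputR Q A ≠ 0 :=
  Finset.prod_ne_zero_iff.2 fun _ hq => (hT.prime_mem hQ hA hq).ne_zero

omit [CharZero O] in
include hT hQ hA in
theorem inputR_dvd : inputR Q A ∣ inputN₀ N Q :=
  Finset.prod_primes_dvd _ (fun _ hq => (hT.prime_mem hQ hA hq).prime)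
    fun _ hq => hT.dvd_inputN₀ hA hq

omit [CharZero O] in
include hT hQ hA in
theorem not_p_dvd_inputR : ¬ p ∣ inputR Q A := fun h => by
  obtain ⟨q, hq, hd⟩ := (Fact.out : p.Prime).prime.exists_mem_finset_dvd h
  exact hT.not_p_mem hQ hA
    (((Nat.prime_dvd_prime_iff_eq Fact.out (hT.prime_mem hQ hA hq)).1 hd).symm ▸ hq)

omit [CharZero O] in
theorem inputR_ker_le :
    (ZMod.unitsMap (inputR_dvd hT hQ hA)).ker ≤ (inputChain hT hQ hA Sx hs).H₀ :=
  haveI : NeZero (inputN₀ N Q) := ⟨hT.inputN₀_ne hQ⟩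
  (inputAux hT hQ hA).ker_le (inputR_dvd hT hQ hA) fun _ hq =>
    Finset.dvd_prod_of_mem (fun x => x) hq

omit [CharZero O] in
theorem input_odd_mem (a : (ZMod (inputN₀ N Q))ˣ) :
    a ^ (2 * inputh p Q + 1) ∈ (inputChain hT hQ hA Sx hs).H₀ := by
  have : NeZero (inputN₀ N Q) := ⟨hT.inputN₀_ne hQ⟩
  refine (inputAux hT hQ hA).odd_mem (fun q hq => ?_) a
  rw [hT.two_mul_inputh]
  show (if q ∈ Q then p ^ (q - 1).factorization p else p) ∣ _
  split_ifs with h
  · exact pow_dvd_pow _ ((Finset.le_sup (f := fun q => (q - 1).factorization p) h).trans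
      (Nat.le_add_left _ _))
  · exact dvd_pow_self _ (by omega)

omit [CharZero O] in
theorem exists_inputTheta :
    haveI : NeZero (inputR Q A) := ⟨inputR_ne hT hQ hA⟩
    ∃ (θ : heckeRing (inputChain hT hQ hA Sx hs).N₀ (inputChain hT hQ hA Sx hs).H₀
        (↑(inputChain hT hQ hA Sx hs).S : Set ℕ) →+* ResidueField O)
      (ρ' : ResidualGaloisRep (ResidueField O)),
      TWHyp (H := (inputChain hT hQ hA Sx hs).H₀) (S := (inputChain hT hQ hA Sx hs).S) (O := O)
        p (inputR Q A) (inputh p Q) (inputChain hT hQ hA Sx hs).neg θ ρ' D.ρbar ∧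
        ∀ a, θ (diamondR a) = 1 := by
  have : NeZero (inputN₀ N Q) := ⟨hT.inputN₀_ne hQ⟩
  have : NeZero (inputR Q A) := ⟨inputR_ne hT hQ hA⟩
  have := hT.neZero
  exact exists_twHyp (N := N) hT.ne_two hT.ss hT.irr D hT.level.residual
    (L := inputN₀ N Q) (dvd_mul_right N _) _ (inputR_dvd hT hQ hA)
    (inputR_ker_le hT hQ hA Sx hs) (input_odd_mem hT hQ hA Sx hs) (Finset.mem_insert_self _ _)
    (fun _ hl h => mem_inputS_of_dvd Sx (Nat.zero_le _) hl h (hT.inputN₀_ne hQ))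
    fun _ hl h => bad_mem_inputS hT Sx hl h

/-- The residual eigensystem at the bottom. -/
def inputTheta : heckeRing (inputChain hT hQ hA Sx hs).N₀ (inputChain hT hQ hA Sx hs).H₀
    (↑(inputChain hT hQ hA Sx hs).S : Set ℕ) →+* ResidueField O :=
  (exists_inputTheta hT hQ hA Sx hs).choose

omit [CharZero O] in
theorem input_not_dvd {i : ℕ} (hi : i ≤ s) (hpN : ¬ p ∣ N)
    (hlast : ∀ f : Fin Sys.s, (f : ℕ) < i → Sys.q (.inr (.inl f)) ≠ p) :
    ¬ p ∣ (inputChain hT hQ hA Sx hs).lvl i := fun h => by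
  rcases dvd_or_eq_of_dvd_chainLvl (flipPrime_prime Sys) Fact.out h with h' | ⟨j, hj, hje⟩
  · exact hpN ((hT.p_dvd_inputN₀ hQ).1 h')
  · have hjS : j < Sys.s := hj.trans_le (hi.trans hs)
    rw [flipPrime, dif_pos hjS] at hje
    exact hlast ⟨j, hjS⟩ hj hje.symm

theorem inputTheta_ne_zero :
    (inputChain hT hQ hA Sx hs).idemOp O (inputTheta hT hQ hA Sx hs) 0 (Nat.zero_le _) ≠ 0 :=
  actO_twIdem_ne_zero ((inputChain hT hQ hA Sx hs).neg_mem 0)
    ((inputChain hT hQ hA Sx hs).theta (inputTheta hT hQ hA Sx hs) 0 (Nat.zero_le _))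

/-- The data of a chain of a tower: `Q = ∅` gives the bases, `A = ∅` the plain stages and
`A = avoidSet Sys`, `s = 0` the twin top. -/
def inputData : ChainData O p D.ρbar where
  C := inputChain hT hQ hA Sx hs
  R := inputR Q A
  neR := ⟨inputR_ne hT hQ hA⟩
  h := inputh p Q
  θ₀ := inputTheta hT hQ hA Sx hs
  ρ' := (exists_inputTheta hT hQ hA Sx hs).choose_spec.choose
  hyp₀ := (exists_inputTheta hT hQ hA Sx hs).choose_spec.choose_spec.1
  one₀ := (exists_inputTheta hT hQ hA Sx hs).choose_spec.choose_spec.2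
  F := {
    E := (inputChain hT hQ hA Sx hs).idemOp O (inputTheta hT hQ hA Sx hs)
    piece := (inputChain hT hQ hA Sx hs).isPiece_idemOp O (inputTheta hT hQ hA Sx hs)
    step := fun _ hi => (inputChain hT hQ hA Sx hs).intertwined_idem O _ hi }
  ne₀ := inputTheta_ne_zero hT hQ hA Sx hs

/-! ## Freeness and the auxiliary prime -/

omit [CharZero O] in
/-- The quotient by the bottom group is a `p`-group. -/
theorem input_isPGroup (H₁ : Subgroup (ZMod (inputN₀ N Q))ˣ) :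
    IsPGroup p (Dl (inputH hT hQ hA) H₁) := by
  have : NeZero (inputN₀ N Q) := ⟨hT.inputN₀_ne hQ⟩
  intro x
  obtain ⟨⟨a, ha⟩, rfl⟩ := QuotientGroup.mk_surjective x
  obtain ⟨k, hk⟩ := (inputAux hT hQ hA).isPGroup ((inputAux hT hQ hA).cls a)
  refine ⟨k, ?_⟩
  rw [← map_pow, (inputAux hT hQ hA).cls_eq_one_iff] at hk
  rw [← QuotientGroup.mk_pow, QuotientGroup.eq_one_iff, Subgroup.mem_subgroupOf]
  simpa [inputH] using hk

omit [CharZero O] in
/-- No extra torsion at the bottom. -/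
theorem input_free (H₁ : Subgroup (ZMod (inputN₀ N Q))ˣ) :
    ∀ g ∈ GammaH.GammaH (inputN₀ N Q) H₁, g ^ 12 = 1 →
      g ∈ GammaH.GammaH (inputN₀ N Q) (inputH hT hQ hA) := by
  have : NeZero (inputN₀ N Q) := ⟨hT.inputN₀_ne hQ⟩
  intro g hg h12
  rcases eq_or_ne p 3 with rfl | hp3
  · obtain ⟨q, hq, hqN, hq3⟩ := hT.level.three rfl
    have := Fact.mk hq
    exact mem_GammaH_of_pow_twelve_three (input_isPGroup hT hQ hA H₁)
      (dvd_mul_of_dvd_left hqN _) hq3 hg h12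
  · refine mem_GammaH_of_pow_twelve (input_isPGroup hT hQ hA H₁) (Or.inl ?_) hg h12
    exact (Fact.out : p.Prime).five_le_of_ne_two_of_ne_three hT.ne_two hp3

omit [CharZero O] in
include hT hQ in
/-- The auxiliary prime, common to all chains with the same `Q` and `Sx`. -/
theorem exists_input_auxPrime :
    ∃ l : ℕ, l.Prime ∧ l ∉ inputS p W N Sys Q Sx ∧ l ≠ p ∧
      (l : ZMod (chainLvl (inputN₀ N Q) (flipPrime Sys) Sys.s)) = 1 ∧
      ((l + 1 : ℕ) : ResidueField O) = 2 ∧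
      ∀ B : ValuationSubring ℚbar, B.LiesOverPrime l → ∀ σ : GQ, B.IsFrobeniusAt σ l →
        (D.ρbar σ).trace ≠ ((l + 1 : ℕ) : ResidueField O) := by
  have hp : p.Prime := Fact.out
  have hp0 : (p : ResidueField O) = 0 := by
    rw [← map_natCast (residue O), residue_eq_zero_iff]
    exact D.p_mem
  have h2 : (2 : ResidueField O) ≠ 0 := by
    have h' : (2 : ZMod p) ≠ 0 := by
      rw [show (2 : ZMod p) = ((2 : ℕ) : ZMod p) by norm_num, ne_eq, ZMod.natCast_eq_zero_iff]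
      exact fun h => hT.ne_two ((Nat.prime_dvd_prime_iff_eq hp Nat.prime_two).mp h)
    have := (map_ne_zero D.ι).mpr h'
    rwa [map_ofNat] at this
  obtain ⟨hfin, hspan⟩ := rhobar_span hT.ne_two hT.ss hT.irr D
  have hL : chainLvl (inputN₀ N Q) (flipPrime Sys) Sys.s ≠ 0 :=
    ((inputChain hT hQ (Finset.empty_subset _) Sx le_rfl).neZero_lvl Sys.s).out
  obtain ⟨l, hl, hlS, -, hlp, hl1, hlk, htr⟩ := exists_aux_prime hp hp0 h2 D.ρbar hfin hspan
    (inputS p W N Sys Q Sx) (fun l hl hlS B hB σ hσ => by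
      have hlp : l ≠ p := fun e => hlS (by rw [e]; exact Finset.mem_insert_self _ _)
      have hpT : (p : (TestRing.self O).R) ∈ maximalIdeal (TestRing.self O).R := D.p_mem
      rw [← D.point.reduces σ, ← RingHom.mapMatrix_apply, ← RingHom.map_det,
        det_frobenius_eq hpT D.point_det hl hlp hB hσ, map_natCast]) hL
  have hl2 : ((l + 1 : ℕ) : ResidueField O) = 2 := by
    rw [Nat.cast_add, hlk, Nat.cast_one, one_add_one_eq_two]
  exact ⟨l, hl, hlS, hlp, hl1, hl2, fun B hB σ hσ => hl2 ▸ htr B hB σ hσ⟩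

/-- At the auxiliary prime the residual eigenvalue differs from `l + 1`, and `l ≡ 1` modulo the
top level. -/
theorem input_auxPrime_spec {l : ℕ} (hl : l.Prime)
    (hl1 : (l : ZMod (chainLvl (inputN₀ N Q) (flipPrime Sys) Sys.s)) = 1)
    (htr : ∀ B : ValuationSubring ℚbar, B.LiesOverPrime l → ∀ σ : GQ, B.IsFrobeniusAt σ l →
      (D.ρbar σ).trace ≠ ((l + 1 : ℕ) : ResidueField O)) :
    (l : ZMod ((inputData hT hQ hA Sx hs).C.lvl (inputData hT hQ hA Sx hs).C.s)) = 1 ∧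
      ∀ (hl0 : ¬ l ∣ (inputData hT hQ hA Sx hs).C.N₀)
        (hlS' : l ∉ (↑(inputData hT hQ hA Sx hs).C.S : Set ℕ)),
        (inputData hT hQ hA Sx hs).θ₀ (heckeTR hl hl0 hlS') ≠ ((l + 1 : ℕ) : ResidueField O) := by
  constructor
  · have := congrArg (ZMod.castHom (chainLvl_dvd (inputN₀ N Q) (flipPrime Sys) hs)
      (ZMod (chainLvl (inputN₀ N Q) (flipPrime Sys) s))) hl1
    rwa [map_natCast, map_one] at this
  · intro hl0 hlS'
    obtain ⟨B, hB⟩ := Gal.exists_liesOverPrime (L := ℚbar) hl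
    obtain ⟨σ, hσ⟩ := Gal.exists_isFrobeniusAt hl hB
    rw [twHyp_theta_heckeTR (inputData hT hQ hA Sx hs).hyp₀ (inputData hT hQ hA Sx hs).one₀ hl hl0
      hlS' hB hσ]
    exact htr B hB σ hσ

/-! ## Splitting the auxiliary group -/

section Split

variable {L LB LC : ℕ} [NeZero L] [NeZero LB] [NeZero LC] (A₀ : AuxPrimes L p)
  (B : AuxPrimes LB p) (C : AuxPrimes LC p) (hB : LB ∣ L) (hC : LC ∣ L)
  (hBQ : B.Q ⊆ A₀.Q) (hCQ : C.Q ⊆ A₀.Q) (hcov : ∀ q ∈ A₀.Q, q ∈ B.Q ∨ q ∈ C.Q)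
  (hdis : ∀ q ∈ B.Q, q ∉ C.Q) (hmB : ∀ q ∈ B.Q, B.m q = A₀.m q) (hmC : ∀ q ∈ C.Q, C.m q = A₀.m q)

omit [Fact (Nat.Prime p)] [NeZero LB] [NeZero LC] in
include hBQ hCQ hcov hdis hmB hmC in
/-- **The auxiliary group splits** along a partition of its primes, compatibly with reduction. -/
theorem exists_auxSplit : ∃ e : A₀.G ≃* B.G × C.G,
    ∀ a : (ZMod L)ˣ, e (A₀.cls a) = (B.cls (ZMod.unitsMap hB a), C.cls (ZMod.unitsMap hC a)) := by
  classical
  let g : (ZMod L)ˣ →* B.G × C.G :=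
    (B.cls.comp (ZMod.unitsMap hB)).prod (C.cls.comp (ZMod.unitsMap hC))
  have hcompB : ∀ (q : ℕ) (hq : q ∈ B.Q) (a : (ZMod L)ˣ),
      B.comp ⟨q, hq⟩ (B.cls (ZMod.unitsMap hB a)) = A₀.comp ⟨q, hBQ hq⟩ (A₀.cls a) := by
    intro q hq a
    rw [B.comp_cls, A₀.comp_cls, unitsMap_unitsMap, hmB q hq]
  have hcompC : ∀ (q : ℕ) (hq : q ∈ C.Q) (a : (ZMod L)ˣ),
      C.comp ⟨q, hq⟩ (C.cls (ZMod.unitsMap hC a)) = A₀.comp ⟨q, hCQ hq⟩ (A₀.cls a) := by
    intro q hq a
    rw [C.comp_cls, A₀.comp_cls, unitsMap_unitsMap, hmC q hq]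
  have hker : ∀ a, g a = 1 ↔ A₀.cls a = 1 := by
    intro a
    rw [MonoidHom.prod_apply, Prod.mk_eq_one, MonoidHom.comp_apply, MonoidHom.comp_apply]
    constructor
    · rintro ⟨h1, h2⟩
      refine A₀.eq_one_of_comp fun q => ?_
      rcases hcov q.1 q.2 with hq | hq
      · rw [show q = ⟨q.1, hBQ hq⟩ from Subtype.ext rfl, ← hcompB q.1 hq, h1, map_one]
      · rw [show q = ⟨q.1, hCQ hq⟩ from Subtype.ext rfl, ← hcompC q.1 hq, h2, map_one]
    · intro h
      exact ⟨B.eq_one_of_comp fun q => by rw [hcompB q.1 q.2, h, map_one],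
        C.eq_one_of_comp fun q => by rw [hcompC q.1 q.2, h, map_one]⟩
  let f : A₀.G →* B.G × C.G :=
    QuotientGroup.lift _ (g.comp (Subgroup.subtype ⊤)) fun a ha => (hker a.1).2
      (A₀.cls_eq_one_iff.2 (Subgroup.mem_subgroupOf.1 ha))
  have hf : ∀ a, f (A₀.cls a) = g a := fun a => rfl
  have hinj : Function.Injective f := (injective_iff_map_eq_one f).2 fun x hx => by
    obtain ⟨a, rfl⟩ := A₀.cls_surjective x
    exact (hker a).1 ((hf a).symm.trans hx)
  have hsurj : Function.Surjective f := by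
    rintro ⟨y, z⟩
    obtain ⟨b, rfl⟩ := B.cls_surjective y
    obtain ⟨c, rfl⟩ := C.cls_surjective z
    obtain ⟨b, rfl⟩ := ZMod.unitsMap_surjective hB b
    obtain ⟨c, rfl⟩ := ZMod.unitsMap_surjective hC c
    let t : A₀.Q → A₀.G := fun q => if q.1 ∈ B.Q then A₀.cls b else A₀.cls c
    choose i hi using fun q : A₀.Q => A₀.comp_mem q (t q)
    let x : A₀.G := ∏ q, A₀.cls (A₀.gen q) ^ i q
    have hx : ∀ q', A₀.comp q' x = A₀.comp q' (t q') := fun q' => by
      rw [map_prod, Finset.prod_eq_single q']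
      · rw [map_zpow]; exact hi q'
      · intro q _ hne
        rw [map_zpow, A₀.comp_gen_ne hne.symm, one_zpow]
      · exact fun h => absurd (Finset.mem_univ q') h
    refine ⟨x, ?_⟩
    obtain ⟨a, ha⟩ := A₀.cls_surjective x
    rw [← ha, hf]
    refine Prod.ext ?_ ?_
    · show B.cls (ZMod.unitsMap hB a) = B.cls (ZMod.unitsMap hB b)
      rw [← mul_inv_eq_one]
      refine B.eq_one_of_comp fun q => ?_
      rw [map_mul, map_inv, mul_inv_eq_one, hcompB q.1 q.2, hcompB q.1 q.2, ha, hx]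
      simp only [t, if_pos q.2]
    · show C.cls (ZMod.unitsMap hC a) = C.cls (ZMod.unitsMap hC c)
      rw [← mul_inv_eq_one]
      refine C.eq_one_of_comp fun q => ?_
      rw [map_mul, map_inv, mul_inv_eq_one, hcompC q.1 q.2, hcompC q.1 q.2, ha, hx]
      simp only [t, if_neg fun h => hdis q.1 h q.2]
  exact ⟨MulEquiv.ofBijective f ⟨hinj, hsurj⟩, fun a => hf a⟩

end Split

omit [CharZero O] in
include hA in
/-- `G_X = G_Q × G_A`, the latter at level `N`. -/
theorem exists_inputSplit :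
    haveI : NeZero (inputN₀ N Q) := ⟨hT.inputN₀_ne hQ⟩
    haveI : NeZero (inputN₀ N ∅) := ⟨hT.inputN₀_ne (AuxSet.empty Sys)⟩
    ∃ e : (inputAux hT hQ hA).G ≃* (inputAux hT hQ (Finset.empty_subset (avoidSet Sys))).G ×
        (inputAux hT (AuxSet.empty Sys) hA).G,
      ∀ (h : inputN₀ N ∅ ∣ inputN₀ N Q) (a : (ZMod (inputN₀ N Q))ˣ),
        e ((inputAux hT hQ hA).cls a) =
          ((inputAux hT hQ (Finset.empty_subset (avoidSet Sys))).cls a,
            (inputAux hT (AuxSet.empty Sys) hA).cls (ZMod.unitsMap h a)) := by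
  have : NeZero (inputN₀ N Q) := ⟨hT.inputN₀_ne hQ⟩
  have : NeZero (inputN₀ N ∅) := ⟨hT.inputN₀_ne (AuxSet.empty Sys)⟩
  have hd : inputN₀ N ∅ ∣ inputN₀ N Q := by simp [inputN₀]
  have hQA : ∀ q ∈ A, q ∉ Q := fun q hq hqQ =>
    hT.not_dvd_aux hQ hqQ (hT.avoid_dvd (hA hq)).2.1
  obtain ⟨e, he⟩ := exists_auxSplit (inputAux hT hQ hA)
    (inputAux hT hQ (Finset.empty_subset (avoidSet Sys))) (inputAux hT (AuxSet.empty Sys) hA)
    dvd_rfl hd (fun q hq => Finset.union_subset_union_right (Finset.empty_subset A) hq)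
    (fun q (hq : q ∈ ∅ ∪ A) => Finset.mem_union_right _ (by simpa using hq))
    (fun q (hq : q ∈ Q ∪ A) => (Finset.mem_union.1 hq).imp
      (fun h => (Finset.mem_union_left _ h : q ∈ Q ∪ ∅))
      fun h => (Finset.mem_union_right _ h : q ∈ (∅ : Finset ℕ) ∪ A))
    (fun q (hq : q ∈ Q ∪ ∅) (hq' : q ∈ (∅ : Finset ℕ) ∪ A) =>
      hQA q (by simpa using hq') (by simpa using hq))
    (fun q _ => rfl)
    (fun q (hq : q ∈ (∅ : Finset ℕ) ∪ A) => by
      simp only [inputAux, auxOf]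
      rw [if_neg (Finset.notMem_empty q), if_neg (hQA q (by simpa using hq))])
  refine ⟨e, fun h a => ?_⟩
  rw [he, ZMod.unitsMap_self]
  rfl

end Fermat.Agent.Root.Patched
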