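import Fermat.Agent.Root.Patched.TowerEnd3
import Fermat.Agent.Root.Patched.TowerInput

/-!
# The lowering clause for the chains of a tower

At stage `0` over auxiliary primes, without a residual newform of level dividing `N / q`, the
trace of Frobenius at `q` squares to `(q + 1)²` (`inputData_sq_trace_eq`).
-/

set_option autoImplicit false

noncomputable section

open IsLocalRing

namespace Fermat.Agent.Root.Patched

open Fermat.Agent.Deformation Fermat.Agent.GammaH Fermat.Agent.TW Fermat.Agent.IharaTW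

local notation "ℚbar" => AlgebraicClosure ℚ

variable {O : Type} [CommRing O] [IsDomain O] [IsDiscreteValuationRing O]
  [IsAdicComplete (maximalIdeal O) O] [Finite (ResidueField O)] [CharZero O]
  {p : ℕ} [Fact p.Prime] {W : WeierstrassCurve ℤ} {D : ResidualData O p W}
  {Sys : LocalSystem O D.ρbar p} {St : StdData Sys D.ζ} {N : ℕ}

/-- **Stage `0` of the chain at auxiliary primes with distinct eigenvalues**: if no residual
newform has level dividing `N / q`, the trace of Frobenius at `q` squares to `(q + 1)²`. -/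
theorem inputData_sq_trace_eq (hT : TowerHyp D Sys St N) (Qs : TWPrimes Sys) (n : ℕ)
    (Sx : Finset ℕ) {s : ℕ} (hs : s ≤ Sys.s) (i : Fin Sys.r)
    (hno : ¬ ∃ M', M' ∣ N / Sys.q (.inl i) ∧ ResNewform p W M') :
    let K := (inputData hT (Qs.auxSet n) (Finset.empty_subset (avoidSet Sys)) Sx hs).stage 0
      (Nat.zero_le _)
    (K.lift.M (Sys.φ i)).trace ^ 2 = K.ring.alg (((Sys.q (.inl i) : O) + 1) ^ 2) := by
  intro K
  set q := Sys.q (.inl i)
  have hqav : q ∈ avoidSet Sys := mem_avoidSet.2 ⟨i, rfl⟩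
  obtain ⟨hq, hqN, -⟩ := hT.avoid_dvd hqav
  have hqp : q ≠ p := TowerHyp.avoid_ne_p St hqav
  have hqQ : q ∉ Qs.Q n := fun h => Qs.notPlace n q h (.inl i) rfl
  refine K.sq_trace_eq_of_no_resNewform hT.ne_two hT.ss hT.irr D (q := q) (M := N / q) hq hqp
    (hT.squarefree_inputN₀ (Qs.auxSet n))
    (inputAux hT (Qs.auxSet n) (Finset.empty_subset (avoidSet Sys))) rfl ?_ ?_ ?_ ?_ ?_ ?_ hno
    (Sys.P_over (.inl i)) (St.avoid_frob i)
  · show inputN₀ N (Qs.Q n) = N / q * q * ∏ x ∈ Qs.Q n ∪ ∅, x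
    rw [Finset.union_empty, Nat.div_mul_cancel hqN]
    rfl
  · show ¬ q ∣ inputR (Qs.Q n) ∅
    intro hd
    obtain ⟨x, hx, hdx⟩ := hq.prime.exists_mem_finset_dvd hd
    rw [Finset.union_empty] at hx
    exact hqQ (((Nat.prime_dvd_prime_iff_eq hq (Qs.prime n x hx)).1 hdx).symm ▸ hx)
  · intro h3
    obtain ⟨r, hr, hrN, hr3⟩ := hT.level.three h3
    refine ⟨r, hr, ?_, hr3⟩
    have hne : r ≠ q := fun e => by
      have h1 : r % p = 1 := e ▸ St.avoid_mod i
      rw [h3] at h1
      omega
    exact (((Nat.coprime_primes hr hq).2 hne)).dvd_of_dvd_mul_right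
      ((Nat.div_mul_cancel hqN).symm ▸ hrN)
  · intro x hx
    have hx' : x ∈ Qs.Q n := by simpa [inputAux, auxOf] using hx
    exact ⟨TowerHyp.ne_p_of_auxSet St (Qs.auxSet n) hx', (Qs.one_mod n x hx').2⟩
  · intro x hx
    exact Qs.distinct n x (by simpa [inputAux, auxOf] using hx)
  · exact fun x hx h => bad_mem_inputS hT Sx hx h

end Fermat.Agent.Root.Patched
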