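import Fermat.Agent.TW.Points
import Fermat.Agent.Conductor.Main

/-!
# The end of a tower (modularity clause)

A character of the Hecke ring of level `L` with the traces of a curve gives modularity at any level
`M ∣ L` containing all primes of `L` that are not good primes of the curve dividing `L` once.
-/

set_option autoImplicit false

noncomputable section

namespace Fermat.Agent.Root.Patched

open CongruenceSubgroup Fermat.Agent.GammaH Fermat.Agent.TW
open ModularFormClass (qCoeff)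

/-- **Modularity from a character with the traces of `W`.** -/
theorem isModularModelOfLevel_of_character {W : WeierstrassCurve ℤ} (hΔ : W.Δ ≠ 0) {M K : ℕ}
    [NeZero (M * K)] (hK : ∀ q : ℕ, q.Prime → q ∣ K → ¬ q ∣ M ∧ ¬ q ^ 2 ∣ K ∧ W.IsGoodPrimeFor q)
    {S : Finset ℕ} (hLS : ∀ q : ℕ, q.Prime → q ∣ M * K → q ∈ S) {B : Type} [CommRing B]
    [IsDomain B] [CharZero B]
    (φ : heckeRing (M * K) (⊤ : Subgroup (ZMod (M * K))ˣ) (↑S : Set ℕ) →+* B)
    (hφ : ∀ (l : ℕ) (hl : l.Prime) (hlL : ¬ l ∣ M * K) (hlS : l ∉ (↑S : Set ℕ)),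
      W.IsGoodPrimeFor l → φ (heckeTR hl hlL hlS) = ((W.apOfModel l : ℤ) : B)) :
    W.IsModularModelOfLevel M := by
  classical
  have hH : (-1 : (ZMod (M * K))ˣ) ∈ (⊤ : Subgroup (ZMod (M * K))ˣ) := Subgroup.mem_top _
  obtain ⟨lam, ι, hι⟩ := exists_complex_lift hH φ
  have := moduleFinite_heckeRing (S := (↑S : Set ℕ)) hH
  have : Module.Finite ℤ lam.range := Module.Finite.of_surjective
    lam.rangeRestrict.toAddMonoidHom.toIntLinearMap lam.rangeRestrict_surjective
  have : Algebra.IsIntegral ℤ lam.range := Algebra.IsIntegral.of_finite ℤ _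
  have hιinj : Function.Injective ι := by
    rw [RingHom.injective_iff_ker_eq_bot]
    refine Ideal.eq_bot_of_comap_eq_bot (R := ℤ) (eq_bot_iff.2 fun n hn => ?_)
    rw [Ideal.mem_comap, RingHom.mem_ker, eq_intCast (algebraMap ℤ lam.range) n, map_intCast,
      Int.cast_eq_zero] at hn
    exact Ideal.mem_bot.2 hn
  obtain ⟨D, _, g, hg, hDL, hcoef, -⟩ := exists_point_newform (R := 1) (h := 0) hH (one_dvd _)
    (le_top (a := (ZMod.unitsMap (one_dvd _)).ker)) (fun a => Subgroup.mem_top _) hLS lam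
  rw [mul_one] at hDL
  have hga : ∀ (l : ℕ) (_ : l.Prime), ¬ l ∣ M * K → l ∉ S → W.IsGoodPrimeFor l →
      qCoeff ⇑g l = (W.apOfModel l : ℂ) := by
    intro l hl hlL hlS hgood
    have hlS' : l ∉ (↑S : Set ℕ) := by simpa using hlS
    rw [hcoef l hl hlL hlS']
    have h1 : lam.rangeRestrict (twistedT 0 hl hlL hlS') = ((W.apOfModel l : ℤ) : lam.range) := by
      refine hιinj ?_
      rw [map_intCast, twistedT, pow_zero, one_mul]
      exact (RingHom.congr_fun hι _).trans (hφ l hl hlL hlS' hgood)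
    exact (congrArg Subtype.val h1).trans (map_intCast lam.range.subtype _)
  -- one newform with every good coefficient
  set N' : ℕ := M * K * ∏ x ∈ S.filter Nat.Prime, x
  have : NeZero N' := ⟨mul_ne_zero (NeZero.ne _)
    (Finset.prod_ne_zero_iff.2 fun x hx => (Finset.mem_filter.1 hx).2.ne_zero)⟩
  let A : Conductor.AttachedNewform W D N' :=
    ⟨g, hg, fun l hl hgood hlN => hga l hl (fun h => hlN (dvd_mul_of_dvd_left h _))
      (fun h => hlN (dvd_mul_of_dvd_right
        (Finset.dvd_prod_of_mem _ (Finset.mem_filter.2 ⟨h, hl⟩)) _)) hgood⟩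
  have hDN : D ∣ N' := hDL.trans (dvd_mul_right _ _)
  have hDK : D.Coprime K := Nat.coprime_of_dvd fun q hq hqD hqK => by
    obtain ⟨hqM, hq2, hgood⟩ := hK q hq hqK
    refine hgood (A.dvd_Δ_of_dvd hΔ hDN hq hqD fun h2 => hq2 ?_)
    exact (Nat.Coprime.dvd_of_dvd_mul_left
      (((hq.coprime_iff_not_dvd).2 hqM).pow_left 2) (h2.trans hDL))
  have hDM : D ∣ M := hDK.dvd_of_dvd_mul_right hDL
  have : NeZero M := ⟨fun h => NeZero.ne (M * K) (by rw [h, zero_mul])⟩
  set v := Newform.degen M D 1 2 (by simpa using hDM) g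
  have hv : v ≠ 0 := fun h => by
    have h1 := congrArg (fun F : CuspForm (Gamma0 M) 2 => qCoeff ⇑F 1) h
    simp only [v, Newform.qCoeff_degen_one, hg.1.qCoeff_one] at h1
    exact one_ne_zero (h1.trans (Hecke.qCoeff_zero_form 1))
  obtain ⟨g', hg', hg'a⟩ := Newform.exists_eigenform_of_eigenvector ∅ (fun l => qCoeff ⇑g l) hv
    (fun l hl hlM _ => Newform.isNormalizedEigenform_heckeT hg.1 _ _ hl hlM)
  refine ⟨g', hg', fun l hl hgood hlM => ?_⟩
  rw [hg'a l hl hlM (Set.notMem_empty _)]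
  exact A.coeff_eq hΔ hDN hl hgood fun hd => hlM (hd.trans hDM)

end Fermat.Agent.Root.Patched
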