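import Fermat.Agent.Root.Patched.TowerSetup
import Fermat.Agent.Gal.Frobenius

/-!
# Small leaves of the tower

The ring of a cut on which the diamond operators act by scalars is generated by the traces of its
lift, so a glued ring maps onto it and a point of it gives a character of the Hecke ring with
these traces.
-/

set_option autoImplicit false

noncomputable section

namespace Fermat.Agent.Root.Patched

open IsLocalRing Fermat.Agent.Deformation Fermat.Agent.GammaH Fermat.Agent.TW

local notation "ℚbar" => AlgebraicClosure ℚ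

variable {O : Type} [CommRing O] [IsDomain O] [IsDiscreteValuationRing O]
  [IsAdicComplete (maximalIdeal O) O] [Finite (ResidueField O)] [CharZero O]

section Generation

variable {L : ℕ} [NeZero L] {H : Subgroup (ZMod L)ˣ} {S : Finset ℕ} {hH : (-1 : (ZMod L)ˣ) ∈ H}
  {θ : heckeRing L H (↑S : Set ℕ) →+* ResidueField O} (C : Cut hH θ)
  {p R h : ℕ} [NeZero R] [Fact (CuspForm.HasIntegralStructure (L * R) 2)]
  {ρ₀ : GQ →* M2 (ResidueField O)}
  (D : TWRep (H := H) (S := S) (O := O) p R h (rfl : R = R) hH θ ρ₀)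

omit [Finite (ResidueField O)] [CharZero O] in
/-- `T_ℓ` from `⟨ℓ⟩^h T_ℓ` in the ring of a cut. -/
theorem Cut.mk_heckeTR (h' : ℕ) {l : ℕ} (hl : l.Prime) (hlL : ¬ l ∣ L)
    (hlS : l ∉ (↑S : Set ℕ)) :
    Ideal.Quotient.mk C.kerIdeal (HeckeO.ofT O (heckeTR hl hlL hlS)) =
      C.dia (primeUnit hl hlL)⁻¹ ^ h' *
        Ideal.Quotient.mk C.kerIdeal (HeckeO.ofT O (twistedT h' hl hlL hlS)) := by
  have h1 : C.dia (primeUnit hl hlL)⁻¹ ^ h' * C.dia (primeUnit hl hlL) ^ h' = 1 := by
    rw [← mul_pow, ← map_mul, inv_mul_cancel, map_one, one_pow]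
  rw [twistedT, map_mul (HeckeO.ofT O), map_pow (HeckeO.ofT O),
    map_mul (Ideal.Quotient.mk C.kerIdeal), map_pow (Ideal.Quotient.mk C.kerIdeal), ← mul_assoc]
  exact ((one_mul _).symm.trans (congrArg (· * _) h1.symm))

/-- **Generation by traces.** When the diamond operators act by scalars, the ring of the cut is
generated over `O` by the traces of its lift. -/
theorem Cut.adjoin_traces_eq_top (hLS : ∀ q : ℕ, q.Prime → q ∣ L → q ∈ S)
    (hdia : ∀ a, C.dia a ∈ Set.range (algebraMap O C.Ring')) :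
    Algebra.adjoin O (Set.range fun σ => ((C.lift D).M σ).trace : Set C.Ring') = ⊤ := by
  rw [eq_top_iff]
  rintro x -
  obtain ⟨z, rfl⟩ := Ideal.Quotient.mk_surjective x
  set B : Subalgebra O C.Ring' :=
    Algebra.adjoin O (Set.range fun σ => ((C.lift D).M σ).trace : Set C.Ring') with hB
  have hdiaB : ∀ a, C.dia a ∈ B := fun a => by
    obtain ⟨r, hr⟩ := hdia a
    exact hr ▸ B.algebraMap_mem r
  let A : Subring (heckeRing L H (↑S : Set ℕ)) :=
    B.toSubring.comap ((Ideal.Quotient.mk C.kerIdeal).comp (HeckeO.ofT O))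
  have hA : ∀ t, t ∈ A := by
    suffices h0 : ∀ u ∈ Algebra.adjoin ℤ (heckeGens L H (↑S : Set ℕ)),
        ∀ t : heckeRing L H (↑S : Set ℕ), t.1 = u → t ∈ A from fun t => h0 t.1 t.2 t rfl
    intro u hu
    induction hu using Algebra.adjoin_induction with
    | mem u hu =>
      intro t ht
      rcases hu with (⟨a, rfl⟩ | ⟨l, hl, hlN, hlS, rfl⟩) | ⟨q, hqN, hq, hqS, rfl⟩
      · obtain rfl : t = diamondR a := Subtype.ext (ht.trans (coe_diamondR a).symm)
        exact Subring.mem_comap.2 (hdiaB a)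
      · obtain rfl : t = heckeTR hl hlN hlS :=
          Subtype.ext (ht.trans (coe_heckeTR hl hlN hlS).symm)
        obtain ⟨P, hP⟩ := Fermat.Agent.Gal.exists_liesOverPrime (L := ℚbar) hl
        obtain ⟨σ, hσ⟩ := Fermat.Agent.Gal.exists_isFrobeniusAt hl hP
        have h2 : Ideal.Quotient.mk C.kerIdeal (HeckeO.ofT O (twistedT h hl hlN hlS)) ∈ B :=
          Algebra.subset_adjoin ⟨σ, (C.lift_frob D l hl hlN hlS P hP σ hσ).1⟩
        refine Subring.mem_comap.2 ?_
        rw [RingHom.comp_apply, C.mk_heckeTR h hl hlN hlS]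
        exact B.mul_mem (B.pow_mem (hdiaB _) h) h2
      · exact absurd (hLS q hq hqN) (by simpa using hqS)
    | algebraMap n =>
      intro t ht
      obtain rfl : t = (n : heckeRing L H (↑S : Set ℕ)) := Subtype.ext <| ht.trans <| by
        rw [← eq_intCast (algebraMap ℤ (heckeRing L H (↑S : Set ℕ))) n,
          Subalgebra.coe_algebraMap]
      exact intCast_mem A n
    | add x y hx hy ihx ihy =>
      intro t ht
      obtain ⟨u, hu⟩ : ∃ u : heckeRing L H (↑S : Set ℕ), u.1 = x := ⟨⟨x, hx⟩, rfl⟩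
      obtain ⟨v, hv⟩ : ∃ v : heckeRing L H (↑S : Set ℕ), v.1 = y := ⟨⟨y, hy⟩, rfl⟩
      obtain rfl : t = u + v := Subtype.ext (by rw [ht, AddMemClass.coe_add, hu, hv])
      exact add_mem (ihx u hu) (ihy v hv)
    | mul x y hx hy ihx ihy =>
      intro t ht
      obtain ⟨u, hu⟩ : ∃ u : heckeRing L H (↑S : Set ℕ), u.1 = x := ⟨⟨x, hx⟩, rfl⟩
      obtain ⟨v, hv⟩ : ∃ v : heckeRing L H (↑S : Set ℕ), v.1 = y := ⟨⟨y, hy⟩, rfl⟩
      obtain rfl : t = u * v := Subtype.ext (by rw [ht, MulMemClass.coe_mul, hu, hv])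
      exact mul_mem (ihx u hu) (ihy v hv)
  induction z using HeckeO.induction with
  | zero => rw [map_zero]; exact B.zero_mem
  | mk a t =>
    have h1 : HeckeO.mk O a t = a • HeckeO.ofT O t := by
      show (a ⊗ₜ[ℤ] t : TensorProduct ℤ O (heckeRing L H (↑S : Set ℕ))) =
        a • ((1 : O) ⊗ₜ[ℤ] t : TensorProduct ℤ O (heckeRing L H (↑S : Set ℕ)))
      rw [TensorProduct.smul_tmul', smul_eq_mul, mul_one]
    rw [h1, ← Ideal.Quotient.mkₐ_eq_mk O, map_smul]
    exact B.smul_mem (hA t) a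
  | add u v hu hv => rw [map_add]; exact B.add_mem hu hv

/-- The same with the subring generated by the coefficients and the traces. -/
theorem Cut.closure_traces_eq_top (hLS : ∀ q : ℕ, q.Prime → q ∣ L → q ∈ S)
    (hdia : ∀ a, C.dia a ∈ Set.range (algebraMap O C.Ring')) :
    Subring.closure (Set.range C.testRing.alg ∪
      Set.range fun σ => ((C.lift D).M σ).trace) = ⊤ := by
  rw [eq_top_iff]
  rintro x -
  have hx : (x : C.Ring') ∈ Algebra.adjoin O
      (Set.range fun σ => ((C.lift D).M σ).trace : Set C.Ring') := by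
    rw [C.adjoin_traces_eq_top D hLS hdia]; trivial
  induction hx using Algebra.adjoin_induction with
  | mem y hy => exact Subring.subset_closure (Or.inr hy)
  | algebraMap r => exact Subring.subset_closure (Or.inl ⟨r, rfl⟩)
  | add y w _ _ hy hw => exact add_mem hy hw
  | mul y w _ _ hy hw => exact mul_mem hy hw

omit [Finite (ResidueField O)] [CharZero O] in
/-- The diamond operators act trivially when the group is everything. -/
theorem Cut.dia_mem_range_of_top (hH' : ∀ a, a ∈ H) (a : (ZMod L)ˣ) :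
    C.dia a ∈ Set.range (algebraMap O C.Ring') :=
  ⟨1, by rw [map_one, C.dia_eq_one (hH' a)]⟩

/-- The Hecke ring maps to the ring of a cut. -/
def Cut.charHom : heckeRing L H (↑S : Set ℕ) →+* C.Ring' :=
  (Ideal.Quotient.mk C.kerIdeal).comp (HeckeO.ofT O)

/-- Without diamonds, the values of `T_ℓ` are the Frobenius traces. -/
theorem Cut.charHom_heckeTR (hH' : ∀ a, a ∈ H) {l : ℕ} (hl : l.Prime) (hlL : ¬ l ∣ L)
    (hlS : l ∉ (↑S : Set ℕ)) {P : ValuationSubring ℚbar} (hP : P.LiesOverPrime l) {σ : GQ}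
    (hσ : P.IsFrobeniusAt σ l) :
    C.charHom (heckeTR hl hlL hlS) = ((C.lift D).M σ).trace := by
  rw [(C.lift_frob D l hl hlL hlS P hP σ hσ).1, twistedT, diamondR_of_mem (hH' _), one_pow,
    one_mul]
  rfl

/-- A point of the ring of a cut gives a character of the Hecke ring with its traces. -/
theorem Cut.exists_character (hH' : ∀ a, a ∈ H) {B : Type*} [CommRing B] (x : C.Ring' →+* B) :
    ∃ φ : heckeRing L H (↑S : Set ℕ) →+* B,
      ∀ (l : ℕ) (hl : l.Prime) (hlL : ¬ l ∣ L) (hlS : l ∉ (↑S : Set ℕ))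
        (P : ValuationSubring ℚbar), P.LiesOverPrime l → ∀ σ : GQ, P.IsFrobeniusAt σ l →
          φ (heckeTR hl hlL hlS) = x ((C.lift D).M σ).trace :=
  ⟨x.comp C.charHom, fun _ hl hlL hlS _ hP _ hσ =>
    congrArg x (C.charHom_heckeTR D hH' hl hlL hlS hP hσ)⟩

end Generation

omit [IsAdicComplete (maximalIdeal O) O] [Finite (ResidueField O)] [CharZero O] in
/-- A projection of a glued ring onto a member generated by its traces is surjective. -/
theorem Glued.pr_surjective_of_gen {ρbar : GQ →* M2 (ResidueField O)} {ι : Type}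
    {T : ι → TestRing O}
    {ℓ : ∀ i, Lift ρbar (T i)} (G : Glued ℓ) (i : ι)
    (hgen : Subring.closure (Set.range (T i).alg ∪ Set.range fun σ => ((ℓ i).M σ).trace) = ⊤) :
    Function.Surjective (G.pr i) := by
  intro z
  have hz : z ∈ Subring.closure (Set.range (T i).alg ∪ Set.range fun σ => ((ℓ i).M σ).trace) := by
    rw [hgen]; trivial
  refine (Subring.closure_le (t := (G.pr i).range)).2 ?_ hz
  rintro x (⟨a, rfl⟩ | ⟨σ, rfl⟩)
  · exact ⟨G.J.alg a, RingHom.congr_fun (G.pr_alg i) a⟩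
  · exact ⟨_, G.pr_trace i σ⟩

end Fermat.Agent.Root.Patched
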