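import Fermat.Agent.Root.Patched.LocalSystem

/-!
# Framed rings and framed lifts

`S.framed ι` is `S.R⟦frames⟧` with one trace zero frame at every place `v : ι`; a lift over `S`
gives a lift seen from each frame.
-/

set_option autoImplicit false

noncomputable section

open IsLocalRing Matrix

namespace Fermat.Agent.Root.Patched

open Fermat.Agent.Deformation Fermat.Agent.LocalRing

variable {O : Type} [CommRing O] [IsLocalRing O]
variable {ρbar : GQ →* M2 (ResidueField O)}

section Series

variable (S : TestRing O) (σ : Type) [Finite σ]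

/-- Power series over a test ring. -/
def TestRing.series : TestRing O where
  R := { carrier := MvPowerSeries σ S.R }
  alg := (MvPowerSeries.C).comp S.alg
  red := S.red.comp MvPowerSeries.constantCoeff
  red_alg a := by simp [S.red_alg]
  ker_red x := by
    rw [RingHom.comp_apply, S.ker_red]
    simp [mem_maximalIdeal, MvPowerSeries.isUnit_iff_constantCoeff]

/-- Constant series. -/
def TestRing.constHom : S.R →+* (S.series σ).R := MvPowerSeries.C

/-- The constant coefficient. -/
def TestRing.coeffZero : (S.series σ).R →+* S.R := MvPowerSeries.constantCoeff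

variable {σ}

/-- The variables. -/
def TestRing.varX (w : σ) : (S.series σ).R := (MvPowerSeries.X w : MvPowerSeries σ S.R)

theorem TestRing.series_red_apply (x : (S.series σ).R) :
    (S.series σ).red x = S.red (S.coeffZero σ x) := rfl

@[simp]
theorem TestRing.coeffZero_constHom (x : S.R) : S.coeffZero σ (S.constHom σ x) = x :=
  MvPowerSeries.constantCoeff_C (σ := σ) x

@[simp]
theorem TestRing.coeffZero_varX (w : σ) : S.coeffZero σ (S.varX w) = 0 :=
  MvPowerSeries.constantCoeff_X w

theorem TestRing.red_comp_constHom : (S.series σ).red.comp (S.constHom σ) = S.red :=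
  RingHom.ext fun x => by rw [RingHom.comp_apply, S.series_red_apply, S.coeffZero_constHom]

@[simp]
theorem TestRing.red_varX (w : σ) : (S.series σ).red (S.varX w) = 0 := by
  rw [S.series_red_apply, S.coeffZero_varX, map_zero]

theorem TestRing.sub_constHom_mem_span (x : (S.series σ).R) :
    x - S.constHom σ (S.coeffZero σ x) ∈ Ideal.span (Set.range S.varX) := by
  have h : ∀ f : MvPowerSeries σ S.R, f - MvPowerSeries.C (MvPowerSeries.constantCoeff f) ∈
      Ideal.span (Set.range (MvPowerSeries.X : σ → MvPowerSeries σ S.R)) := by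
    intro f
    have h1 := mem_span_X_pow (n := 1) (f := f - MvPowerSeries.C (MvPowerSeries.constantCoeff f))
      (MvPolynomial.ext _ _ fun e => by
        classical
        rw [MvPowerSeries.coeff_truncTotal_eq_ite]
        split_ifs with he
        · obtain rfl : e = 0 := (Finsupp.degree_eq_zero_iff _).mp (by omega)
          simp
        · simp)
    rwa [pow_one] at h1
  exact h x

end Series

section Lifts

variable {S S' : TestRing O}

theorem TestRing.map_maximalIdeal (φ : S.R →+* S'.R) (hred : S'.red.comp φ = S.red) :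
    (maximalIdeal S.R).map φ ≤ maximalIdeal S'.R := by
  refine Ideal.map_le_iff_le_comap.mpr fun x hx => ?_
  rw [Ideal.mem_comap, ← S'.ker_red, ← RingHom.comp_apply, hred, S.ker_red]
  exact hx

/-- Pushforward of a lift. -/
def Lift.push (ℓ : Lift ρbar S) (φ : S.R →+* S'.R) (hred : S'.red.comp φ = S.red) :
    Lift ρbar S' where
  M := mapRep φ ℓ.M
  cont n := by
    obtain ⟨L, hL, h⟩ := ℓ.cont n
    refine ⟨L, hL, fun σ hσ i j => ?_⟩
    have h1 := Ideal.mem_map_of_mem φ (h σ hσ i j)
    rw [Ideal.map_pow] at h1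
    have h2 := Ideal.pow_right_mono (TestRing.map_maximalIdeal φ hred) n h1
    rw [map_sub, Matrix.one_apply, apply_ite φ, map_one, map_zero] at h2
    rw [mapRep_apply, Matrix.map_apply, Matrix.one_apply]
    exact h2
  reduces σ := by
    rw [mapRep_apply, Matrix.map_map, ← RingHom.coe_comp, hred, ℓ.reduces]

theorem Lift.push_M (ℓ : Lift ρbar S) (φ : S.R →+* S'.R) (hred : S'.red.comp φ = S.red) (σ : GQ) :
    (ℓ.push φ hred).M σ = (ℓ.M σ).map φ := rfl

theorem map_red_inv {U : (M2 S.R)ˣ} (hU : (U : M2 S.R).map S.red = 1) :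
    (↑U⁻¹ : M2 S.R).map S.red = 1 := by
  have := congrArg (fun X : M2 S.R => X.map S.red) U.mul_inv
  simp only [Matrix.map_mul, hU, one_mul, Matrix.map_one _ (map_zero _) (map_one _)] at this
  exact this

/-- Strict conjugation of a lift. -/
def Lift.conj (ℓ : Lift ρbar S) (U : (M2 S.R)ˣ) (hU : (U : M2 S.R).map S.red = 1) :
    Lift ρbar S where
  M := conjRep U ℓ.M
  cont n := by
    obtain ⟨L, hL, h⟩ := ℓ.cont n
    refine ⟨L, hL, fun σ hσ i j => ?_⟩
    have e : conjRep U ℓ.M σ - 1 = (U : M2 S.R) * (ℓ.M σ - 1) * (↑U⁻¹ : M2 S.R) := by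
      rw [conjRep_apply, Matrix.mul_sub, Matrix.mul_one, Matrix.sub_mul, Units.mul_inv]
    rw [← Matrix.sub_apply, e, Matrix.mul_apply]
    refine Ideal.sum_mem _ fun k _ => Ideal.mul_mem_right _ _ ?_
    rw [Matrix.mul_apply]
    exact Ideal.sum_mem _ fun u _ => Ideal.mul_mem_left _ _
      (by rw [Matrix.sub_apply]; exact h σ hσ u k)
  reduces σ := by
    rw [conjRep_apply, Matrix.map_mul, Matrix.map_mul, hU, map_red_inv hU, ℓ.reduces, one_mul,
      mul_one]

end Lifts

section Frames

variable (ι : Type) [Fintype ι] (S : TestRing O)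

/-- The frame variables. -/
abbrev FrameVar : Type := ι × Fin 3

/-- The framed ring. -/
abbrev TestRing.framed : TestRing O := S.series (FrameVar ι)

variable {ι}

/-- The frame at `v`, a trace zero matrix. -/
def frameY (v : ι) : M2 (S.framed ι).R :=
  !![S.varX (v, 0), S.varX (v, 1); S.varX (v, 2), -S.varX (v, 0)]

theorem frameY_map_red (v : ι) : (frameY S v).map (S.framed ι).red = 0 := by
  ext i j
  fin_cases i <;> fin_cases j <;> simp [frameY]

theorem isUnit_det_frame (v : ι) : IsUnit (1 + frameY S v).det := by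
  by_contra h
  have h1 := ((S.framed ι).ker_red _).mpr ((mem_maximalIdeal _).mpr h)
  rw [RingHom.map_det, RingHom.mapMatrix_apply, Matrix.map_add _ (map_add _), frameY_map_red,
    add_zero, Matrix.map_one _ (map_zero _) (map_one _), Matrix.det_one] at h1
  exact one_ne_zero h1

/-- The change of frame at `v`. -/
def frameU (v : ι) : (M2 (S.framed ι).R)ˣ := Matrix.nonsingInvUnit _ (isUnit_det_frame S v)

theorem coe_frameU (v : ι) : (frameU S v : M2 (S.framed ι).R) = 1 + frameY S v := rfl

theorem frameU_map_red (v : ι) : (frameU S v : M2 (S.framed ι).R).map (S.framed ι).red = 1 := by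
  rw [coe_frameU, Matrix.map_add _ (map_add _), frameY_map_red, add_zero,
    Matrix.map_one _ (map_zero _) (map_one _)]

variable {S}

/-- The unframed lift over the framed ring. -/
def Lift.constSeries (ℓ : Lift ρbar S) : Lift ρbar (S.framed ι) :=
  ℓ.push (S' := S.framed ι) (S.constHom _) S.red_comp_constHom

theorem Lift.constSeries_M (ℓ : Lift ρbar S) (g : GQ) :
    (ℓ.constSeries (ι := ι)).M g = (ℓ.M g).map (S.constHom (FrameVar ι)) := rfl

/-- The lift seen from the frame at `v`. -/
def Lift.framedAt (ℓ : Lift ρbar S) (v : ι) : Lift ρbar (S.framed ι) :=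
  ℓ.constSeries.conj (frameU S v) (frameU_map_red S v)

theorem Lift.framedAt_M (ℓ : Lift ρbar S) (v : ι) (g : GQ) :
    (ℓ.framedAt v).M g = (frameU S v : M2 (S.framed ι).R) * (ℓ.constSeries (ι := ι)).M g *
      ((frameU S v)⁻¹ : (M2 (S.framed ι).R)ˣ) := rfl

/-- Conditions pass to the framed lifts. -/
theorem CondClosed.framedAt {cond : ∀ S : TestRing O, Lift ρbar S → Prop} (h : CondClosed cond)
    (ℓ : Lift ρbar S) (hℓ : cond S ℓ) (v : ι) : cond (S.framed ι) (ℓ.framedAt v) :=
  h.conj _ ℓ.constSeries _ _ (frameU_map_red S v) (fun _ => rfl)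
    (h.push S (S.framed ι) (S.constHom _) rfl S.red_comp_constHom ℓ _ (fun _ => rfl) hℓ)

end Frames

end Fermat.Agent.Root.Patched
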