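import Fermat.Agent.Root.Patched.Models
import Fermat.Agent.Root.ClassField.CycloChar
import Fermat.Agent.TW.DetCyclotomic
import Fermat.Agent.Patching.Limit

/-!
# Conditions on a ring which embeds in finitely many test rings

General lemmas for passing local conditions to a ring with a jointly injective family of maps.
-/

set_option autoImplicit false

noncomputable section

open IsLocalRing

namespace Fermat.Agent.Root.Patched

open Fermat.Agent.Deformation Fermat.Agent.FlatModel

local notation "ℚbar" => AlgebraicClosure ℚ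

section Rings

variable {A : Type} [CommRing A] [IsLocalRing A]

/-- A natural number prime to the residue characteristic is a unit. -/
theorem isUnit_natCast_of_coprime {p m : ℕ} (hp : (p : A) ∈ maximalIdeal A) (h : m.Coprime p) :
    IsUnit (m : A) := by
  by_contra hu
  refine (maximalIdeal.isMaximal A).ne_top ((Ideal.eq_top_iff_one _).mpr ?_)
  have hb : (m : ℤ) * m.gcdA p + (p : ℤ) * m.gcdB p = 1 := by
    rw [← Nat.gcd_eq_gcd_ab]; exact_mod_cast h
  have hb' := congrArg (fun z : ℤ => (z : A)) hb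
  push_cast at hb'
  rw [← hb']
  exact add_mem (Ideal.mul_mem_right _ _ ((mem_maximalIdeal _).mpr hu))
    (Ideal.mul_mem_right _ _ hp)

variable [IsNoetherianRing A]

/-- Congruences modulo every power of `p` are equalities. -/
theorem eq_of_forall_sub_mem_span {p : ℕ} (hp : (p : A) ∈ maximalIdeal A) {x y : A}
    (h : ∀ n : ℕ, x - y ∈ Ideal.span {((p ^ n : ℕ) : A)}) : x = y := by
  refine sub_eq_zero.mp ?_
  rw [← Ideal.mem_bot, ← Ideal.iInf_pow_eq_bot_of_isLocalRing (maximalIdeal A)
    (maximalIdeal.isMaximal A).ne_top, Submodule.mem_iInf]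
  intro n
  refine (Ideal.span_singleton_le_iff_mem _).mpr ?_ (h n)
  rw [Nat.cast_pow]
  exact Ideal.pow_mem_pow hp n

/-- **Chevalley's lemma.** -/
theorem exists_le_maximalIdeal_pow [Finite (ResidueField A)] [IsAdicComplete (maximalIdeal A) A]
    (b : ℕ → Ideal A) (hb : Antitone b) (h0 : ∀ z, (∀ n, z ∈ b n) → z = 0) (N : ℕ) :
    ∃ n, b n ≤ maximalIdeal A ^ N := by
  set m := maximalIdeal A
  by_contra hne
  push Not at hne
  have hstab : ∀ k, ∃ n₀, k ≤ n₀ ∧ ∀ n, n₀ ≤ n → b n₀ ≤ b n ⊔ m ^ k := by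
    intro k
    have := Patching.finite_quotient_maximalIdeal_pow (R := A) k
    have : Finite (Ideal (A ⧸ m ^ k)) := Finite.of_injective
      (fun J => (J : Set (A ⧸ m ^ k))) SetLike.coe_injective
    obtain ⟨J, ⟨n₁, hn₁, rfl⟩, hmin⟩ := (Set.toFinite
      {J : Ideal (A ⧸ m ^ k) | ∃ n, k ≤ n ∧ (b n).map (Ideal.Quotient.mk _) = J}).exists_minimal
      ⟨_, k, le_rfl, rfl⟩
    refine ⟨n₁, hn₁, fun n hn => ?_⟩
    have hle : (b n).map (Ideal.Quotient.mk (m ^ k)) ≤ (b n₁).map (Ideal.Quotient.mk (m ^ k)) :=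
      Ideal.map_mono (hb hn)
    have h2 := hmin ⟨n, hn₁.trans hn, rfl⟩ hle
    have h3 := Ideal.comap_mono (f := Ideal.Quotient.mk (m ^ k)) h2
    rw [Ideal.comap_map_of_surjective _ Ideal.Quotient.mk_surjective,
      Ideal.comap_map_of_surjective _ Ideal.Quotient.mk_surjective, ← RingHom.ker_eq_comap_bot,
      Ideal.mk_ker] at h3
    exact le_sup_left.trans h3
  choose n₀ hk₀ hn₀ using hstab
  let e : ℕ → ℕ := fun k => (Finset.range (k + 1)).sup n₀
  have he0 : ∀ k, n₀ k ≤ e k := fun k => Finset.le_sup (f := n₀) (Finset.self_mem_range_succ k)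
  have hemono : Monotone e := fun a c hac =>
    Finset.sup_mono (Finset.range_mono (Nat.add_le_add_right hac 1))
  have hstep : ∀ k, ∀ z ∈ b (e k), ∃ z' ∈ b (e (k + 1)), z' - z ∈ m ^ k := by
    intro k z hz
    obtain ⟨u, hu, v, hv, huv⟩ := Submodule.mem_sup.mp
      (hn₀ k (e (k + 1)) ((he0 k).trans (hemono k.le_succ)) (hb (he0 k) hz))
    exact ⟨u, hu, by rw [← huv, sub_add_cancel_left]; exact neg_mem hv⟩
  choose! g hg1 hg2 using hstep
  obtain ⟨z₀, hz₀, hz₀'⟩ := SetLike.not_le_iff_exists.mp (hne (e N))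
  let u : ℕ → A := fun j => Nat.rec z₀ (fun j z => g (N + j) z) j
  have hu : ∀ j, u j ∈ b (e (N + j)) := by
    intro j
    induction j with
    | zero => exact hz₀
    | succ j ih => exact hg1 (N + j) _ ih
  have hdiff : ∀ i j, u (i + j) - u i ∈ m ^ (N + i) := by
    intro i j
    induction j with
    | zero => simp
    | succ j ih =>
      rw [← sub_add_sub_cancel (u (i + (j + 1))) (u (i + j)) (u i)]
      exact add_mem (Ideal.pow_le_pow_right (by omega) (hg2 (N + (i + j)) _ (hu (i + j)))) ih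
  obtain ⟨L, hL⟩ := IsPrecomplete.prec' (I := m) (M := A) u (fun {i j} h => by
    obtain ⟨j, rfl⟩ := Nat.exists_eq_add_of_le h
    rw [SModEq.sub_mem, smul_eq_mul, Ideal.mul_top, ← neg_sub, neg_mem_iff]
    exact Ideal.pow_le_pow_right (by omega) (hdiff i j))
  have hL' : ∀ j, u j - L ∈ m ^ j := fun j => by
    have := hL j
    rwa [SModEq.sub_mem, smul_eq_mul, Ideal.mul_top] at this
  have hL0 : L = 0 := by
    refine h0 L fun n => TW.mem_of_forall_mem_sup_pow (b n) fun k => ?_
    have hn : n ≤ e (N + (k + n)) :=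
      (Nat.le_trans (by omega) (hk₀ (N + (k + n)))).trans (he0 _)
    refine Submodule.mem_sup.mpr ⟨u (k + n), hb hn (hu _), -(u (k + n) - L),
      neg_mem (Ideal.pow_le_pow_right (Nat.le_add_right k n) (hL' _)), by ring⟩
  refine hz₀' ?_
  have h1 := hdiff 0 N
  have h2 := hL' N
  rw [hL0, sub_zero] at h2
  rw [Nat.zero_add, Nat.add_zero] at h1
  have h3 := sub_mem h2 h1
  rwa [sub_sub_cancel] at h3

end Rings

/-- A congruence for the cyclotomic determinant at Frobenius elements is an equality. -/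
theorem det_frobenius_eq {A : Type} [CommRing A] [IsLocalRing A] [IsNoetherianRing A] {p : ℕ}
    [Fact p.Prime] (hp : (p : A) ∈ maximalIdeal A) {M : GQ →* M2 A}
    (hdet : ∀ (n : ℕ) (σ : GQ) (a : ℕ), (∀ μ : ℚbar, μ ^ p ^ n = 1 → σ μ = μ ^ a) →
      (M σ).det - (a : A) ∈ Ideal.span {((p ^ n : ℕ) : A)})
    {q : ℕ} (hq : q.Prime) (hqp : q ≠ p) {P : ValuationSubring ℚbar} (hP : P.LiesOverPrime q)
    {σ : GQ} (hσ : P.IsFrobeniusAt σ q) : (M σ).det = (q : A) :=
  eq_of_forall_sub_mem_span hp fun n => hdet n σ q fun _ hμ =>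
    Gal.apply_rootOfUnity_of_isFrobeniusAt hσ hq hP (fun hd => hqp
      ((Nat.prime_dvd_prime_iff_eq hq (Fact.out : p.Prime)).mp (hq.dvd_of_dvd_pow hd))) hμ

/-- An element of inertia at `p ≠ 2` with determinant distinct from `1` modulo the maximal
ideal. -/
theorem exists_inertia_isUnit_one_sub_det {A : Type} [CommRing A] [IsLocalRing A] {p : ℕ}
    [Fact p.Prime] (hp2 : p ≠ 2) (hp : (p : A) ∈ maximalIdeal A) {M : GQ →* M2 A}
    (hdet : ∀ (n : ℕ) (σ : GQ) (a : ℕ), (∀ μ : ℚbar, μ ^ p ^ n = 1 → σ μ = μ ^ a) →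
      (M σ).det - (a : A) ∈ Ideal.span {((p ^ n : ℕ) : A)})
    {P : ValuationSubring ℚbar} (hP : P.LiesOverPrime p) :
    ∃ σ : P.decompositionSubgroup ℚ, (σ : GQ) ∈ P.inertiaSubgroupIn ℚ ∧
      IsUnit (1 - (M σ).det) := by
  obtain ⟨σ, hσ, hχ⟩ := ClassField.exists_inertia_cycloChar_eq p hP (-1)
  have hσD : σ ∈ P.decompositionSubgroup ℚ := Subgroup.map_subtype_le _ hσ
  refine ⟨⟨σ, hσD⟩, hσ, ?_⟩
  have hr := ClassField.rootQ_spec p
  have hval : ((ClassField.cycloChar p σ : ZMod p)).val = p - 1 := by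
    rw [hχ, Units.val_neg, Units.val_one]
    obtain ⟨m, hm⟩ := Nat.exists_eq_succ_of_ne_zero (Fact.out : p.Prime).ne_zero
    subst hm
    exact ZMod.val_neg_one m
  have hact : ∀ μ : ℚbar, μ ^ p ^ 1 = 1 → σ μ = μ ^ (p - 1) := by
    intro μ hμ
    rw [pow_one] at hμ
    have : NeZero p := ⟨(Fact.out : p.Prime).ne_zero⟩
    obtain ⟨i, -, rfl⟩ := hr.eq_pow_of_pow_eq_one hμ
    rw [map_pow, ← ClassField.cycloChar_spec p σ, hval, ← pow_mul, ← pow_mul, mul_comm]
  have h1 := hdet 1 σ (p - 1) hact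
  have hm : (M σ).det - ((p - 1 : ℕ) : A) ∈ maximalIdeal A :=
    (Ideal.span_singleton_le_iff_mem _).mpr (by rw [pow_one]; exact hp) h1
  by_contra hu
  have h2 := add_mem ((mem_maximalIdeal _).mpr hu) (add_mem hm hp)
  rw [Nat.cast_sub (Fact.out : p.Prime).one_le, Nat.cast_one] at h2
  have h3 : ((2 : ℕ) : A) ∈ maximalIdeal A := by
    convert h2 using 1
    push_cast
    ring
  exact (mem_maximalIdeal _).mp h3 (isUnit_natCast_of_coprime hp
    ((Nat.coprime_primes Nat.prime_two (Fact.out : p.Prime)).mpr (Ne.symm hp2)))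

/-- **Flatness passes to a ring with a jointly injective family of maps.** -/
theorem isFlatAt_of_family {ι : Type} [Fintype ι] {A : Type} [CommRing A] [IsLocalRing A]
    [IsNoetherianRing A] [Finite (ResidueField A)] [IsAdicComplete (maximalIdeal A) A]
    {B : ι → Type} [∀ i, CommRing (B i)] [∀ i, IsLocalRing (B i)] [∀ i, IsNoetherianRing (B i)]
    [∀ i, Finite (ResidueField (B i))] {p : ℕ} [Fact p.Prime] (φ : ∀ i, A →+* B i)
    (hinj : ∀ z, (∀ i, φ i z = 0) → z = 0) (M : GQ →* M2 A) (hM : MatCont M)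
    (N : ∀ i, GQ →* M2 (B i)) (hN : ∀ i, MatCont (N i))
    (hflat : ∀ i, (ofMatrix (N i) (hN i)).IsFlatAt p) (U : ∀ i, (M2 (B i))ˣ)
    (hconj : ∀ i g, (M g).map (φ i) = (U i : M2 (B i)) * N i g * (↑(U i)⁻¹ : M2 (B i))) :
    (ofMatrix M hM).IsFlatAt p := by
  classical
  refine ⟨inferInstance, fun I _ => ?_⟩
  obtain ⟨N₀, hN₀⟩ := exists_maximalIdeal_pow_le_of_isArtinianRing_quotient I
  let b : ℕ → Ideal A := fun n => ⨅ i, (maximalIdeal (B i) ^ n).comap (φ i)
  obtain ⟨n, hn⟩ := exists_le_maximalIdeal_pow b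
    (fun a c hac => iInf_mono fun i => Ideal.comap_mono (Ideal.pow_le_pow_right hac))
    (fun z hz => hinj z fun i => by
      rw [← Ideal.mem_bot, ← Ideal.iInf_pow_eq_bot_of_isLocalRing (maximalIdeal (B i))
        (maximalIdeal.isMaximal (B i)).ne_top, Submodule.mem_iInf]
      exact fun m => (Submodule.mem_iInf _).mp (hz m) i) N₀
  let I' : ∀ i, Ideal (B i) := fun i => maximalIdeal (B i) ^ n
  have : ∀ i, Finite (B i ⧸ I' i) := fun i => Patching.finite_quotient_maximalIdeal_pow n
  have : ∀ i, Finite ((Fin 2 → B i) ⧸ (I' i • (⊤ : Submodule (B i) (Fin 2 → B i)))) :=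
    fun i => finite_matLevel (N i) (hN i) (I' i)
  have := finite_matLevel M hM I
  let MM : ∀ i, Model p (matLevelEnd (N i) (hN i) (I' i)) := fun i =>
    (FlatBound.exists_model_of_isFlatAt (hflat i) (I' i)
      (matLevelEnd (N i) (hN i) (I' i)) fun _ _ => rfl).some
  let F : ι → Type := fun i => (Fin 2 → B i) ⧸ (I' i • (⊤ : Submodule (B i) (Fin 2 → B i)))
  let act : GQ →* AddMonoid.End (∀ i, F i) :=
    { toFun := fun σ =>
        { toFun := fun x i => matLevelEnd (N i) (hN i) (I' i) σ (x i)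
          map_zero' := funext fun i => map_zero _
          map_add' := fun x y => funext fun i => map_add _ _ _ }
      map_one' := AddMonoidHom.ext fun x => funext fun i =>
        DFunLike.congr_fun (map_one (matLevelEnd (N i) (hN i) (I' i))) (x i)
      map_mul' := fun σ τ => AddMonoidHom.ext fun x => funext fun i =>
        DFunLike.congr_fun (map_mul (matLevelEnd (N i) (hN i) (I' i)) σ τ) (x i) }
  let h : A →+* AddMonoid.End (∀ i, F i) :=
    { toFun := fun a =>
        { toFun := fun x i => levelScalar (I' i) (φ i a) (x i)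
          map_zero' := funext fun i => map_zero _
          map_add' := fun x y => funext fun i => map_add _ _ _ }
      map_one' := AddMonoidHom.ext fun x => funext fun i => by
        show levelScalar (I' i) (φ i 1) (x i) = x i
        rw [map_one, map_one]; rfl
      map_zero' := AddMonoidHom.ext fun x => funext fun i => by
        show levelScalar (I' i) (φ i 0) (x i) = 0
        rw [map_zero, map_zero]; rfl
      map_mul' := fun a c => AddMonoidHom.ext fun x => funext fun i => by
        show levelScalar (I' i) (φ i (a * c)) (x i) = _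
        rw [map_mul, map_mul]; rfl
      map_add' := fun a c => AddMonoidHom.ext fun x => funext fun i => by
        show levelScalar (I' i) (φ i (a + c)) (x i) = _
        rw [map_add, map_add]; rfl }
  let MP : Model p act := Model.pi (F := F) MM act fun _ _ _ => rfl
  have key : ∀ (C : Type) [CommRing C] [IsLocalRing C] (J : Ideal C) (T : GQ →* M2 C)
      (hT : MatCont T) (s : Finset (A × GQ)) (d : A × GQ → C) (v : Fin 2 → C),
      (∑ q ∈ s, levelScalar J (d q) * matLevelEnd T hT J q.2) (Submodule.Quotient.mk v) =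
        Submodule.Quotient.mk ((∑ q ∈ s, d q • T q.2).mulVec v) := by
    intro C _ _ J T hT s d v
    rw [Matrix.sum_mulVec, ← Submodule.mkQ_apply, ← Submodule.mkQ_apply, map_sum]
    refine (AddMonoidHom.finsetSum_apply _ _ _).trans ?_
    exact Finset.sum_congr rfl fun q _ => by
      rw [Matrix.smul_mulVec, map_smul]
      rfl
  suffices hQ : ∀ (s : Finset (A × GQ)) (c : A × GQ → A),
      ∑ q ∈ s, h (c q) * act q.2 = 0 →
        ∑ q ∈ s, levelScalar I (c q) * matLevelEnd M hM I q.2 = 0 by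
    obtain ⟨MQ⟩ := nonempty_model_of_relations act (matLevelEnd M hM I) h (levelScalar I) MP
      (fun a σ => AddMonoidHom.ext fun x => funext fun i =>
        (LinearMap.map_smul ((ofMatrix (N i) (hN i)).levelAction (I' i) σ) (φ i a) (x i)).symm)
      (fun a σ => AddMonoidHom.ext fun x =>
        (LinearMap.map_smul ((ofMatrix M hM).levelAction I σ) a x).symm) hQ
    exact MQ.exists_hopfAlgebra
  intro s c hc
  have hmem : ∀ i a a', (∑ q ∈ s, φ i (c q) • N i q.2) a a' ∈ I' i := by
    intro i a a'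
    have h1 := congrFun (DFunLike.congr_fun hc
      (Pi.single i (Submodule.Quotient.mk (Pi.single a' 1) : F i))) i
    have h2 : (∑ q ∈ s, levelScalar (I' i) (φ i (c q)) * matLevelEnd (N i) (hN i) (I' i) q.2)
        (Submodule.Quotient.mk (Pi.single a' 1)) = (0 : F i) := by
      refine Eq.trans ?_ h1
      refine (AddMonoidHom.finsetSum_apply _ _ _).trans ?_
      refine Eq.trans ?_ (congrFun (AddMonoidHom.finsetSum_apply (fun q => h (c q) * act q.2) s
        (Pi.single i (Submodule.Quotient.mk (Pi.single a' 1) : F i))).symm i)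
      rw [Finset.sum_apply]
      refine Finset.sum_congr rfl fun q _ => ?_
      show levelScalar (I' i) (φ i (c q)) (matLevelEnd (N i) (hN i) (I' i) q.2 _) =
        levelScalar (I' i) (φ i (c q)) (matLevelEnd (N i) (hN i) (I' i) q.2 _)
      rw [Pi.single_eq_same]
    rw [key] at h2
    have h3 := (mem_smul_top_iff (I' i) _).mp ((Submodule.Quotient.mk_eq_zero _).mp h2) a
    rwa [Matrix.mulVec_single_one, Matrix.col_apply] at h3
  refine AddMonoidHom.ext fun x => ?_
  obtain ⟨v, rfl⟩ := Submodule.Quotient.mk_surjective _ x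
  refine (key A I M hM s c v).trans ((Submodule.Quotient.mk_eq_zero _).mpr ?_)
  rw [mem_smul_top_iff]
  intro a
  simp only [Matrix.mulVec, dotProduct]
  refine Ideal.sum_mem _ fun a' _ => Ideal.mul_mem_right _ _ (hN₀ (hn ?_))
  rw [Submodule.mem_iInf]
  intro i
  rw [Ideal.mem_comap]
  have e : (∑ q ∈ s, c q • M q.2).map (φ i) =
      (U i : M2 (B i)) * (∑ q ∈ s, φ i (c q) • N i q.2) * (↑(U i)⁻¹ : M2 (B i)) := by
    rw [Finset.mul_sum, Finset.sum_mul, ← RingHom.mapMatrix_apply, map_sum]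
    refine Finset.sum_congr rfl fun q _ => ?_
    rw [mul_smul_comm, smul_mul_assoc, ← hconj, RingHom.mapMatrix_apply]
    exact Matrix.ext fun a b => by simp
  rw [show φ i ((∑ q ∈ s, c q • M q.2) a a') = (∑ q ∈ s, c q • M q.2).map (φ i) a a' from rfl, e,
    Matrix.mul_apply]
  refine Ideal.sum_mem _ fun d _ => Ideal.mul_mem_right _ _ ?_
  rw [Matrix.mul_apply]
  exact Ideal.sum_mem _ fun d' _ => Ideal.mul_mem_left _ _ (hmem i d' d)

end Fermat.Agent.Root.Patched
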