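import Fermat.Agent.Root.Patched.GlueClosure
import Fermat.Prelude.Thm_IsLocalRing_isAdicComplete_of_module_finite

/-!
# Two-dimensional representations are defined over the ring of traces

If the traces of a representation lie in a subring `A` and its reduction spans all matrices, a
conjugate congruent to it has entries in `A`.
-/

set_option autoImplicit false

noncomputable section

open IsLocalRing Matrix

namespace Fermat.Agent.Root.Patched

open Fermat.Agent.Deformation

section Algebra

variable {P K G : Type} [CommRing P] [CommRing K] [Monoid G]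

/-- The span of the image of a representation is closed under products. -/
theorem mul_mem_span_range (A : Subring P) (M : G →* M2 P) {u v : M2 P}
    (hu : u ∈ Submodule.span A (Set.range M)) (hv : v ∈ Submodule.span A (Set.range M)) :
    u * v ∈ Submodule.span A (Set.range M) := by
  induction hu using Submodule.span_induction with
  | mem u h =>
    obtain ⟨g, rfl⟩ := h
    induction hv using Submodule.span_induction with
    | mem v h' =>
      obtain ⟨g', rfl⟩ := h'
      exact Submodule.subset_span ⟨g * g', map_mul M g g'⟩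
    | zero => simp
    | add v w _ _ a b => rw [mul_add]; exact add_mem a b
    | smul r v _ a => rw [mul_smul_comm]; exact Submodule.smul_mem _ _ a
  | zero => simp
  | add u w _ _ a b => rw [add_mul]; exact add_mem a b
  | smul r u _ a => rw [smul_mul_assoc]; exact Submodule.smul_mem _ _ a

/-- Traces on the span of the image. -/
theorem trace_mem_of_mem_span (A : Subring P) (M : G →* M2 P) (htr : ∀ g, (M g).trace ∈ A)
    {u : M2 P} (hu : u ∈ Submodule.span A (Set.range M)) : u.trace ∈ A := by
  induction hu using Submodule.span_induction with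
  | mem u h => obtain ⟨g, rfl⟩ := h; exact htr g
  | zero => rw [Matrix.trace_zero]; exact A.zero_mem
  | add u w _ _ a b => rw [Matrix.trace_add]; exact A.add_mem a b
  | smul r u _ a =>
    rw [show r • u = (r : P) • u from rfl, Matrix.trace_smul, smul_eq_mul]
    exact A.mul_mem r.2 a

theorem sq_eq_trace_smul_sub (x : M2 P) : x * x = x.trace • x - x.det • 1 := by
  refine Matrix.ext fun i j => ?_
  fin_cases i <;> fin_cases j <;>
    simp [Matrix.mul_apply, Fin.sum_univ_two, Matrix.trace_fin_two, Matrix.det_fin_two] <;> ring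

/-- **Representations with traces in `A`.** `q` is a reduction detecting units. -/
theorem exists_conj_mem_subring (q : P →+* K) (hu : ∀ u, q u = 1 → IsUnit u) (A : Subring P)
    (hinv : ∀ a ∈ A, ∀ b, a * b = 1 → b ∈ A)
    (hroot : ∀ t ∈ A, ∀ d ∈ A, q t = 1 → q d = 0 → ∃ l ∈ A, q l = 1 ∧ l * l - t * l + d = 0)
    (M : G →* M2 P) (htr : ∀ g, (M g).trace ∈ A)
    (hspan : ∀ a b : Fin 2, ∃ x ∈ Submodule.span A (Set.range M), x.map q = Matrix.single a b 1) :
    ∃ V : (M2 P)ˣ, (V : M2 P).map q = 1 ∧
      ∀ g i j, ((↑V⁻¹ : M2 P) * M g * (V : M2 P)) i j ∈ A := by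
  set W := Submodule.span A (Set.range M)
  have hmulW : ∀ {u v : M2 P}, u ∈ W → v ∈ W → u * v ∈ W := mul_mem_span_range A M
  have htrW : ∀ {u : M2 P}, u ∈ W → u.trace ∈ A := trace_mem_of_mem_span A M htr
  have h1W : (1 : M2 P) ∈ W := Submodule.subset_span ⟨1, map_one M⟩
  have hMW : ∀ g, M g ∈ W := fun g => Submodule.subset_span ⟨g, rfl⟩
  have hsmul : ∀ {c : P}, c ∈ A → ∀ {u : M2 P}, u ∈ W → c • u ∈ W := fun {c} hc {u} hu =>
    Submodule.smul_mem W (⟨c, hc⟩ : A) hu
  obtain ⟨x, hxW, hxq⟩ := hspan 0 0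
  obtain ⟨y, hyW, hyq⟩ := hspan 1 0
  obtain ⟨z, hzW, hzq⟩ := hspan 0 1
  have hxij : ∀ i j, q (x i j) = (Matrix.single (0 : Fin 2) 0 (1 : K)) i j := fun i j => by
    rw [← hxq]; rfl
  set t := x.trace with ht
  have htA : t ∈ A := htrW hxW
  have htq : q t = 1 := by
    rw [ht, Matrix.trace_fin_two, map_add, hxij, hxij]; simp
  obtain ⟨ti, hti⟩ := (hu t htq).exists_right_inv
  have hdet : x.det = (x * x).trace - (x * x * x).trace * ti := by
    have hd : t * x.det = t * (x * x).trace - (x * x * x).trace := by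
      simp only [ht, Matrix.det_fin_two, Matrix.trace_fin_two, Matrix.mul_apply, Fin.sum_univ_two]
      ring
    linear_combination ti * hd + (-(x.det) + (x * x).trace) * hti
  have hdA : x.det ∈ A := by
    rw [hdet]
    exact A.sub_mem (htrW (hmulW hxW hxW))
      (A.mul_mem (htrW (hmulW (hmulW hxW hxW) hxW)) (hinv t htA ti hti))
  have hdq : q x.det = 0 := by
    rw [Matrix.det_fin_two, map_sub, map_mul, map_mul, hxij, hxij, hxij, hxij]; simp
  obtain ⟨l, hlA, hlq, hl⟩ := hroot t htA x.det hdA htq hdq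
  set μ := t - l with hμ
  have hμA : μ ∈ A := A.sub_mem htA hlA
  have hμq : q μ = 0 := by rw [hμ, map_sub, htq, hlq, sub_self]
  have hδq : q (l - μ) = 1 := by rw [map_sub, hlq, hμq, sub_zero]
  obtain ⟨δi, hδi⟩ := (hu _ hδq).exists_right_inv
  have hδiA : δi ∈ A := hinv _ (A.sub_mem hlA hμA) δi hδi
  have hδiq : q δi = 1 := by
    have := congrArg q hδi
    rwa [map_mul, hδq, one_mul, map_one] at this
  -- the idempotent
  set e := δi • (x - μ • (1 : M2 P)) with he
  have heW : e ∈ W := hsmul hδiA (W.sub_mem hxW (hsmul hμA h1W))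
  have heq : e.map q = Matrix.single 0 0 1 := by
    refine Matrix.ext fun i j => ?_
    simp [he, hδiq, hμq, hxij]
  have het : e.trace = 1 := by
    rw [he, Matrix.trace_smul, Matrix.trace_sub, Matrix.trace_smul, Matrix.trace_one,
      Fintype.card_fin, smul_eq_mul, smul_eq_mul, ← ht]
    push_cast
    linear_combination hδi + (δi : P) * hμ
  have hed : e.det = 0 := by
    rw [he, Matrix.det_smul, Fintype.card_fin]
    have : (x - μ • (1 : M2 P)).det = 0 := by
      simp only [Matrix.det_fin_two, ht, Matrix.trace_fin_two] at hl hμ ⊢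
      simp
      linear_combination hl + (μ - l) * hμ
    rw [this, mul_zero]
  have hee : e * e = e := by
    rw [sq_eq_trace_smul_sub, het, hed, one_smul, zero_smul, sub_zero]
  set f := 1 - e with hf
  have hfW : f ∈ W := W.sub_mem h1W heW
  have hef : e * f = 0 := by rw [hf, mul_sub, mul_one, hee, sub_self]
  have hfq : f.map q = Matrix.single 1 1 1 := by
    rw [hf, ← RingHom.mapMatrix_apply, map_sub, map_one, RingHom.mapMatrix_apply, heq]
    refine Matrix.ext fun i j => ?_
    fin_cases i <;> fin_cases j <;> simp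
  set y1 := f * y * e with hy1
  have hy1W : y1 ∈ W := hmulW (hmulW hfW hyW) heW
  have hy1q : y1.map q = Matrix.single 1 0 1 := by
    rw [hy1, Matrix.map_mul, Matrix.map_mul, hfq, hyq, heq]
    simp
  set z1 := e * z * f with hz1
  have hz1W : z1 ∈ W := hmulW (hmulW heW hzW) hfW
  have hz1q : z1.map q = Matrix.single 0 1 1 := by
    rw [hz1, Matrix.map_mul, Matrix.map_mul, hfq, hzq, heq]
    simp
  clear_value y1 z1 f e
  -- the basis
  set E : Fin 2 → Fin 2 → M2 P := fun a b => Matrix.single a b 1 with hE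
  have hEE : ∀ a b c : Fin 2, E a b * E b c = E a c := fun a b c => by simp [hE]
  have hEE0 : ∀ a b c d : Fin 2, b ≠ c → E a b * E c d = 0 := fun a b c d h => by simp [hE, h]
  set V := e * E 0 0 + y1 * E 0 1 with hV
  have hVq : V.map q = 1 := by
    rw [hV, ← RingHom.mapMatrix_apply, map_add, map_mul, map_mul, RingHom.mapMatrix_apply,
      RingHom.mapMatrix_apply, RingHom.mapMatrix_apply, RingHom.mapMatrix_apply, heq, hy1q, hE]
    refine Matrix.ext fun i j => ?_
    fin_cases i <;> fin_cases j <;> simp [Matrix.single, Matrix.mul_apply]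
  have hVu : IsUnit V := by
    rw [Matrix.isUnit_iff_isUnit_det]
    refine hu _ ?_
    rw [RingHom.map_det, RingHom.mapMatrix_apply, hVq, Matrix.det_one]
  obtain ⟨U, hU⟩ := hVu
  refine ⟨U, by rw [hU]; exact hVq, fun g => ?_⟩
  -- the standard matrices in the new basis
  have hy1e : y1 * e = y1 := by rw [hy1, mul_assoc, hee]
  have hey1 : e * y1 = 0 := by rw [hy1, ← mul_assoc, ← mul_assoc, hef, zero_mul, zero_mul]
  have hy1y1 : y1 * y1 = 0 := by
    rw [hy1, mul_assoc (f * y) e, ← mul_assoc e, ← mul_assoc e, hef]; simp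
  have hVE0 : e * V = V * E 0 0 := by
    rw [hV, mul_add, ← mul_assoc, ← mul_assoc, hee, hey1, zero_mul, add_zero, add_mul, mul_assoc,
      mul_assoc, hEE, hEE0 0 1 0 0 (by decide), mul_zero, add_zero]
  have hVE10 : y1 * V = V * E 1 0 := by
    have l : y1 * V = y1 * E 0 0 := by
      rw [hV, mul_add, ← mul_assoc, ← mul_assoc, hy1e, hy1y1, zero_mul, add_zero]
    have r : V * E 1 0 = y1 * E 0 0 := by
      rw [hV, add_mul, mul_assoc, mul_assoc, hEE0 0 0 1 0 (by decide), hEE 0 1 0, mul_zero,
        zero_add]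
    rw [l, r]
  have hVE1 : f * V = V * E 1 1 := by
    have h1 : E 0 0 + E 1 1 = 1 := by
      refine Matrix.ext fun i j => ?_
      fin_cases i <;> fin_cases j <;> simp [hE]
    rw [hf, sub_mul, one_mul, hVE0, sub_eq_iff_eq_add, ← mul_add, add_comm, h1, mul_one]
  have key : ∀ {u : M2 P} {a b : Fin 2}, u * V = V * E a b → ∀ w : M2 P,
      ((↑U⁻¹ : M2 P) * w * (U : M2 P)) b a = (u * w).trace := by
    intro u a b huV w
    have hu' : (↑U⁻¹ : M2 P) * u * (U : M2 P) = E a b := by
      rw [mul_assoc, hU, huV, ← hU, ← mul_assoc, Units.inv_mul, one_mul]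
    rw [← Matrix.trace_units_conj' U (u * w),
      show (↑U⁻¹ : M2 P) * (u * w) * (U : M2 P) =
        ((↑U⁻¹ : M2 P) * u * (U : M2 P)) * ((↑U⁻¹ : M2 P) * w * (U : M2 P)) by
        simp [mul_assoc], hu', hE, Matrix.trace_single_mul]
    simp
  set N := (↑U⁻¹ : M2 P) * M g * (U : M2 P) with hN
  have h00 : N 0 0 ∈ A := by rw [hN, key hVE0]; exact htrW (hmulW heW (hMW g))
  have h11 : N 1 1 ∈ A := by rw [hN, key hVE1]; exact htrW (hmulW hfW (hMW g))
  have h01 : N 0 1 ∈ A := by rw [hN, key hVE10]; exact htrW (hmulW hy1W (hMW g))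
  -- the last entry
  set Z := (↑U⁻¹ : M2 P) * z1 * (U : M2 P) with hZ
  have hconj : ∀ {u : M2 P} {a b : Fin 2}, u * V = V * E a b →
      (↑U⁻¹ : M2 P) * u * (U : M2 P) = E a b := fun {u a b} huV => by
    rw [mul_assoc, hU, huV, ← hU, ← mul_assoc, Units.inv_mul, one_mul]
  have hZe : Z = E 0 0 * ((↑U⁻¹ : M2 P) * z * (U : M2 P)) * E 1 1 := by
    rw [← hconj hVE0, ← hconj hVE1, hZ, hz1]
    simp [mul_assoc]
  have hZ01 : Z = Z 0 1 • E 0 1 := by
    rw [hZe]
    refine Matrix.ext fun i j => ?_
    fin_cases i <;> fin_cases j <;> simp [hE, Matrix.mul_apply, Fin.sum_univ_two]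
  have hbA : Z 0 1 ∈ A := by rw [hZ, key hVE10]; exact htrW (hmulW hy1W hz1W)
  have hbq : q (Z 0 1) = 1 := by
    rw [hZ, key hVE10]
    show q.toAddMonoidHom _ = 1
    rw [AddMonoidHom.map_trace]
    show ((y1 * z1).map q).trace = 1
    rw [Matrix.map_mul, hy1q, hz1q]
    simp
  obtain ⟨bi, hbi⟩ := (hu _ hbq).exists_right_inv
  have hprod : N 1 0 * Z 0 1 ∈ A := by
    have h := htrW (hmulW (hMW g) hz1W)
    rw [← Matrix.trace_units_conj' U (M g * z1),
      show (↑U⁻¹ : M2 P) * (M g * z1) * (U : M2 P) = N * Z by simp [hN, hZ, mul_assoc],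
      hZ01, mul_smul_comm, Matrix.trace_smul, smul_eq_mul, hE, Matrix.trace_mul_single,
      mul_comm] at h
    simpa using h
  have h10 : N 1 0 ∈ A := by
    have := A.mul_mem hprod (hinv _ hbA bi hbi)
    rwa [mul_assoc, hbi, mul_one] at this
  intro i j
  fin_cases i <;> fin_cases j
  · exact h00
  · exact h01
  · exact h10
  · exact h11

end Algebra

variable {O : Type} [CommRing O] [IsDomain O] [IsDiscreteValuationRing O]
  [IsAdicComplete (maximalIdeal O) O] [Finite (ResidueField O)]

/-- A finite local `O`-algebra with the residue field of `O` is a test ring. -/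
theorem exists_testRing_of_finite {B : Type} [CommRing B] [IsLocalRing B] [Algebra O B]
    [Module.Finite O B] (red : B →+* ResidueField O)
    (hred : ∀ a, red (algebraMap O B a) = residue O a)
    (hker : ∀ x, red x = 0 ↔ x ∈ maximalIdeal B) :
    IsNoetherianRing B ∧ Finite (ResidueField B) ∧ IsAdicComplete (maximalIdeal B) B := by
  have : IsLocalHom (algebraMap O B) := ⟨fun a ha => by
    by_contra hna
    refine (maximalIdeal.isMaximal B).ne_top (Ideal.eq_top_of_isUnit_mem _ ?_ ha)
    rw [← hker, hred, residue_eq_zero_iff]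
    exact hna⟩
  refine ⟨IsNoetherianRing.of_finite O B, ?_, ?_⟩
  · refine Finite.of_injective (Ideal.Quotient.lift (maximalIdeal B) red fun x hx =>
      (hker x).mpr hx) ?_
    refine (injective_iff_map_eq_zero _).mpr fun r hr => ?_
    obtain ⟨x, rfl⟩ := Ideal.Quotient.mk_surjective r
    have hr : red x = 0 := hr
    exact Ideal.Quotient.eq_zero_iff_mem.mpr ((hker x).mp hr)
  · exact IsLocalRing.isAdicComplete_of_module_finite (𝒪 := O) (T := B)

end Fermat.Agent.Root.Patched
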