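import Fermat.Agent.Root.Patched.LocalDefs
import Fermat.Agent.Root.Patched.FramedTangent
import Fermat.Agent.Root.Patched.GlueClosure
import Fermat.Agent.Root.Patched.TraceLift
import Fermat.Agent.TW.Shapes

/-!
# Gluing finitely many lifts over the ring generated by their traces

Finitely many lifts over finite `O`-algebras glue, up to strict conjugation, to one lift over the
subring of the product generated by `O` and the traces.  The local conditions pass to this ring.
-/

set_option autoImplicit false

noncomputable section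

open IsLocalRing Polynomial

namespace Fermat.Agent.Root.Patched

open Fermat.Agent.Deformation

local notation "ℚbar" => AlgebraicClosure ℚ

variable {O : Type} [CommRing O] [IsDomain O] [IsDiscreteValuationRing O]
  [IsAdicComplete (maximalIdeal O) O] [Finite (ResidueField O)] [CharZero O]
  {ρbar : GQ →* M2 (ResidueField O)}

/-- The test ring is a finite `O`-module. -/
def TestRing.IsFinite (S : TestRing O) : Prop :=
  letI := S.alg.toAlgebra
  Module.Finite O S.R

/-- A lift over the trace ring of a finite family of lifts. -/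
structure Glued {ι : Type} {S : ι → TestRing O} (ℓ : ∀ i, Lift ρbar (S i)) where
  J : TestRing O
  finite : J.IsFinite
  pr : ∀ i, J.R →+* (S i).R
  pr_alg : ∀ i, (pr i).comp J.alg = (S i).alg
  pr_red : ∀ i, (S i).red.comp (pr i) = J.red
  injective : ∀ z, (∀ i, pr i z = 0) → z = 0
  lift : Lift ρbar J
  gen : Subring.closure (Set.range J.alg ∪ Set.range fun σ => (lift.M σ).trace) = ⊤
  U : ∀ i, (M2 (S i).R)ˣ
  U_red : ∀ i, (U i : M2 (S i).R).map (S i).red = 1
  conj : ∀ i g, (lift.M g).map (pr i) = (U i : M2 (S i).R) * (ℓ i).M g * (↑(U i)⁻¹ : M2 (S i).R)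

variable {ι : Type} [Fintype ι] [Nonempty ι] {S : ι → TestRing O} {ℓ : ∀ i, Lift ρbar (S i)}
  {p : ℕ} [Fact p.Prime]

omit [CharZero O] [Fact (Nat.Prime p)] in
/-- **Trace rigidity for a finite family.** -/
theorem nonempty_glued (_hp : (p : O) ∈ maximalIdeal O)
    (hirr : Submodule.span (ResidueField O) (Set.range ρbar) = ⊤) (hfin : ∀ i, (S i).IsFinite)
    (_hdet : ∀ i, DetCyclotomic p (S i) (ℓ i)) : Nonempty (Glued ℓ) := by
  classical
  let i₀ : ι := Classical.arbitrary ι
  -- the product
  let algP : O →+* ∀ i, (S i).R := RingHom.pi fun i => (S i).alg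
  let q : (∀ i, (S i).R) →+* (ι → ResidueField O) :=
    RingHom.pi fun i => (S i).red.comp (Pi.evalRingHom (fun i => ((S i).R : Type)) i)
  have hq : ∀ u i, q u i = (S i).red (u i) := fun u i => rfl
  let MP : GQ →* M2 (∀ i, (S i).R) :=
    { toFun := fun g => Matrix.of fun a b i => (ℓ i).M g a b
      map_one' := Matrix.ext fun a b => funext fun i => by
        show (ℓ i).M 1 a b = _
        rw [map_one, Matrix.one_apply, Matrix.one_apply]
        split_ifs <;> rfl
      map_mul' := fun g h => Matrix.ext fun a b => funext fun i => by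
        show (ℓ i).M (g * h) a b = _
        rw [map_mul, Matrix.mul_apply, Matrix.mul_apply, Finset.sum_apply]
        rfl }
  let ev : ∀ i, (∀ i, (S i).R) →+* (S i).R := fun i => Pi.evalRingHom (fun i => ((S i).R : Type)) i
  have hMP : ∀ i g, (MP g).map (ev i) = (ℓ i).M g := fun i g => rfl
  -- the ring of traces
  set gens : Set (∀ i, (S i).R) := Set.range algP ∪ Set.range fun σ => (MP σ).trace
  let A : Subring (∀ i, (S i).R) := Subring.closure gens
  have halgA : ∀ a, algP a ∈ A := fun a => Subring.subset_closure (Or.inl ⟨a, rfl⟩)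
  have htrA : ∀ σ, (MP σ).trace ∈ A := fun σ => Subring.subset_closure (Or.inr ⟨σ, rfl⟩)
  have hconst : ∀ z ∈ A, ∀ i, (S i).red (z i) = (S i₀).red (z i₀) := by
    intro z hz
    induction hz using Subring.closure_induction with
    | mem z h =>
      rcases h with ⟨a, rfl⟩ | ⟨σ, rfl⟩
      · intro i; exact ((S i).red_alg a).trans ((S i₀).red_alg a).symm
      · have e : ∀ i, (S i).red ((MP σ).trace i) = (ρbar σ).trace := fun i => by
          rw [← (ℓ i).reduces σ, Matrix.trace_fin_two, Matrix.trace_fin_two, Matrix.map_apply,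
            Matrix.map_apply, ← map_add]
          rfl
        exact fun i => (e i).trans (e i₀).symm
    | zero => intro i; simp
    | one => intro i; simp
    | add a b _ _ ha hb => intro i; simp [ha i, hb i]
    | neg a _ ha => intro i; simp [ha i]
    | mul a b _ _ ha hb => intro i; simp [ha i, hb i]
  have huP : ∀ u : ∀ i, (S i).R, (∀ i, (S i).red (u i) ≠ 0) → IsUnit u := fun u hu =>
    Pi.isUnit_iff.mpr fun i =>
    IsLocalRing.notMem_maximalIdeal.mp fun hm => hu i (((S i).ker_red _).mpr hm)
  have hu1 : ∀ u : ∀ i, (S i).R, q u = 1 → IsUnit u := fun u h => huP u fun i => by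
    rw [← hq u i, h]; exact one_ne_zero
  -- `A` is a finite local algebra
  let : ∀ i, Algebra O (S i).R := fun i => (S i).alg.toAlgebra
  have : ∀ i, Module.Finite O (S i).R := hfin
  let A' : Subalgebra O (∀ i, (S i).R) := { A with algebraMap_mem' := halgA }
  have hAfin : Module.Finite O A' :=
    Module.Finite.of_injective A'.val.toLinearMap Subtype.val_injective
  let algA : Algebra O A := (algP.codRestrict A halgA).toAlgebra
  have hAfin' : Module.Finite O A := by
    refine Module.Finite.of_surjective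
      ({ toFun := fun x => ⟨x.1, x.2⟩
         map_add' := fun _ _ => rfl
         map_smul' := fun a x => Subtype.ext ?_ } : A' →ₗ[O] A) fun x => ⟨⟨x.1, x.2⟩, rfl⟩
    show (a • x.1 : ∀ i, (S i).R) = algP a * x.1
    rw [Algebra.smul_def]
    rfl
  have hloc : ∀ x : A, IsUnit (x : ∀ i, (S i).R) → IsUnit x := by
    intro x hx
    have hint : A.subtype.IsIntegral := fun y => by
      have hy : (algebraMap O (∀ i, (S i).R)).IsIntegralElem y :=
        Algebra.IsIntegral.isIntegral (R := O) y
      obtain ⟨P, hP, hP0⟩ := hy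
      refine ⟨P.map (algebraMap O A), hP.map _, ?_⟩
      rw [Polynomial.eval₂_map]
      exact hP0
    exact (hint.isLocalHom Subtype.val_injective).map_nonunit x hx
  have hinv : ∀ a ∈ A, ∀ b, a * b = 1 → b ∈ A := by
    intro a ha b hab
    obtain ⟨c, hc⟩ := (hloc ⟨a, ha⟩ (IsUnit.of_mul_eq_one _ hab)).exists_right_inv
    have hc' : a * (c : ∀ i, (S i).R) = 1 := congrArg Subtype.val hc
    rw [show b = (c : ∀ i, (S i).R) by
      rw [← one_mul b, ← hc', mul_right_comm, hab, one_mul]]
    exact c.2
  let redA : A →+* ResidueField O := (S i₀).red.comp ((ev i₀).comp A.subtype)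
  have hredA : ∀ (x : A) i, (S i).red ((x : ∀ i, (S i).R) i) = redA x := fun x i =>
    hconst _ x.2 i
  have hunitA : ∀ x : A, IsUnit x ↔ redA x ≠ 0 := fun x =>
    ⟨fun h => (h.map redA).ne_zero,
      fun h => hloc x (huP _ fun i => by rw [hredA x i]; exact h)⟩
  have : Nontrivial A := redA.domain_nontrivial
  have : IsLocalRing A := IsLocalRing.of_nonunits_add fun a b ha hb => by
    rw [mem_nonunits_iff, hunitA, not_not] at ha hb ⊢
    rw [map_add, ha, hb, add_zero]
  have hkerA : ∀ x : A, redA x = 0 ↔ x ∈ maximalIdeal A := fun x => by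
    rw [mem_maximalIdeal, mem_nonunits_iff, hunitA, not_not]
  have hredalg : ∀ a, redA (algebraMap O A a) = residue O a := fun a => (S i₀).red_alg a
  obtain ⟨hnoeth, hres, hcompl⟩ := exists_testRing_of_finite redA hredalg hkerA
  -- roots and spanning
  have hroot : ∀ t ∈ A, ∀ d ∈ A, q t = 1 → q d = 0 →
      ∃ l ∈ A, q l = 1 ∧ l * l - t * l + d = 0 := by
    intro t ht d hd htq hdq
    set t' : A := ⟨t, ht⟩
    set d' : A := ⟨d, hd⟩
    have htr : redA t' = 1 := congrFun htq i₀
    have hdr : redA d' = 0 := congrFun hdq i₀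
    let P : Polynomial A := X ^ 2 + (Polynomial.C (-t') * X + Polynomial.C d')
    have hPm : P.Monic := Polynomial.monic_X_pow_add
      (lt_of_le_of_lt Polynomial.degree_linear_le (by norm_num))
    obtain ⟨l, hl, hl1⟩ := HenselianRing.is_henselian (I := maximalIdeal A) P hPm 1
      ((hkerA _).mp (by simp [P, htr, hdr]))
      (((hunitA _).mpr (by
        simp only [P, Polynomial.derivative_X_pow,
          Polynomial.derivative_C,
          Polynomial.eval_add, Polynomial.eval_mul, Polynomial.eval_pow,
          Polynomial.eval_X, Polynomial.eval_zero, map_add, map_mul, map_neg,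
          map_natCast, map_pow, map_one, map_zero]
        norm_num
        intro h
        rw [map_ofNat, htr] at h
        exact one_ne_zero (by linear_combination h : (1 : ResidueField O) = 0))).map _)
    refine ⟨l, l.2, funext fun i => ?_, ?_⟩
    · rw [hq, hredA l i, Pi.one_apply, ← map_one redA, ← sub_eq_zero, ← map_sub, hkerA]
      exact hl1
    · have h : l * l - t' * l + d' = 0 := by
        have hl' : P.eval l = 0 := hl
        simp [P] at hl'
        linear_combination hl'
      exact congrArg Subtype.val h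
  have hlift : ∀ Y : M2 (ResidueField O), ∃ X ∈ Submodule.span A (Set.range MP),
      X.map q = Y.map (algebraMap (ResidueField O) (ι → ResidueField O)) := by
    intro Y
    have hY : Y ∈ Submodule.span (ResidueField O) (Set.range ρbar) := by rw [hirr]; trivial
    induction hY using Submodule.span_induction with
    | mem Y h =>
      obtain ⟨g, rfl⟩ := h
      refine ⟨MP g, Submodule.subset_span ⟨g, rfl⟩, Matrix.ext fun a b => funext fun i => ?_⟩
      exact congrFun (congrFun ((ℓ i).reduces g) a) b
    | zero => exact ⟨0, zero_mem _, by simp⟩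
    | add Y Z _ _ hY hZ =>
      obtain ⟨X, hX, hXe⟩ := hY
      obtain ⟨X', hX', hXe'⟩ := hZ
      exact ⟨X + X', add_mem hX hX', by
        rw [Matrix.map_add _ (map_add q), hXe, hXe', Matrix.map_add _ (map_add _)]⟩
    | smul c Y _ hY =>
      obtain ⟨X, hX, hXe⟩ := hY
      obtain ⟨a, rfl⟩ := IsLocalRing.residue_surjective c
      refine ⟨(⟨algP a, halgA a⟩ : A) • X, Submodule.smul_mem _ _ hX,
        Matrix.ext fun u v => funext fun i => ?_⟩
      have h1 := congrFun (congrFun (congrFun hXe u) v) i
      simp only [Matrix.map_apply, hq] at h1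
      show (S i).red ((S i).alg a * X u v i) = residue O a * Y u v
      rw [map_mul, (S i).red_alg, h1]
      rfl
  obtain ⟨V, hV, hVA⟩ := exists_conj_mem_subring q hu1 A hinv hroot MP htrA fun a b => by
    obtain ⟨X, hX, hXe⟩ := hlift (Matrix.single a b 1)
    exact ⟨X, hX, hXe.trans (by
      refine Matrix.ext fun u v => ?_
      simp [Matrix.single, apply_ite (algebraMap (ResidueField O) (ι → ResidueField O))])⟩
  -- the lift
  let MA : GQ →* M2 A :=
    { toFun := fun g => Matrix.of fun a b => ⟨_, hVA g a b⟩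
      map_one' := Matrix.map_injective (f := A.subtype) Subtype.val_injective (by
        show _ = (1 : M2 A).map A.subtype
        rw [Matrix.map_one _ (map_zero _) (map_one _)]
        show (↑V⁻¹ : M2 (∀ i, (S i).R)) * MP 1 * (V : M2 (∀ i, (S i).R)) = 1
        rw [map_one, mul_one, Units.inv_mul])
      map_mul' := fun g h => Matrix.map_injective (f := A.subtype) Subtype.val_injective (by
        show _ = Matrix.map (_ * _ : M2 A) A.subtype
        rw [Matrix.map_mul]
        show (↑V⁻¹ : M2 (∀ i, (S i).R)) * MP (g * h) * (V : M2 (∀ i, (S i).R)) =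
          ((↑V⁻¹ : M2 (∀ i, (S i).R)) * MP g * V) * ((↑V⁻¹ : M2 (∀ i, (S i).R)) * MP h * V)
        simp [mul_assoc]) }
  let U : ∀ i, (M2 (S i).R)ˣ := fun i =>
    (Units.map (RingHom.toMonoidHom ((ev i).mapMatrix (m := Fin 2))) V)⁻¹
  have hconj : ∀ i g, (MA g).map ((ev i).comp A.subtype) =
      (U i : M2 (S i).R) * (ℓ i).M g * (↑(U i)⁻¹ : M2 (S i).R) := fun i g => by
    show ((ev i).mapMatrix ((↑V⁻¹ : M2 (∀ i, (S i).R)) * MP g * V) : M2 (S i).R) = _
    rw [map_mul, map_mul, ← hMP i g]
    rfl
  have hUred : ∀ i, (U i : M2 (S i).R).map (S i).red = 1 := fun i => by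
    refine map_red_inv (Matrix.ext fun a b => ?_)
    have h1 := congrFun (congrFun (congrFun hV a) b) i
    refine h1.trans ?_
    rw [Matrix.one_apply, Matrix.one_apply]
    split_ifs <;> rfl
  have hcont : MatCont MA := by
    intro n
    let b : ℕ → Ideal A := fun k =>
      ⨅ i, (maximalIdeal (S i).R ^ k).comap ((ev i).comp A.subtype)
    obtain ⟨k, hk⟩ := exists_le_maximalIdeal_pow b
      (fun a c hac => iInf_mono fun i => Ideal.comap_mono (Ideal.pow_le_pow_right hac))
      (fun z hz => Subtype.ext (funext fun i => by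
        show (z : ∀ i, (S i).R) i = (0 : (S i).R)
        rw [← Ideal.mem_bot, ← Ideal.iInf_pow_eq_bot_of_isLocalRing (maximalIdeal (S i).R)
          (maximalIdeal.isMaximal (S i).R).ne_top, Submodule.mem_iInf]
        exact fun m => (Submodule.mem_iInf _).mp (hz m) i)) n
    choose L hL h using fun i => (ℓ i).cont k
    have : ∀ i, FiniteDimensional ℚ (L i) := hL
    refine ⟨⨆ i, L i, inferInstance, fun σ hσ a c => hk ((Submodule.mem_iInf _).mpr fun i => ?_)⟩
    rw [Ideal.mem_comap, map_sub, Matrix.one_apply, apply_ite ((ev i).comp A.subtype), map_one,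
      map_zero, ← Matrix.one_apply]
    have hd : (MA σ).map ((ev i).comp A.subtype) - 1 =
        (U i : M2 (S i).R) * ((ℓ i).M σ - 1) * (↑(U i)⁻¹ : M2 (S i).R) := by
      rw [hconj, Matrix.mul_sub, Matrix.mul_one, Matrix.sub_mul, Units.mul_inv]
    have hmem : ((MA σ).map ((ev i).comp A.subtype) - 1) a c ∈ maximalIdeal (S i).R ^ k := by
      rw [hd, Matrix.mul_apply]
      refine Ideal.sum_mem _ fun u _ => Ideal.mul_mem_right _ _ ?_
      rw [Matrix.mul_apply]
      exact Ideal.sum_mem _ fun v _ => Ideal.mul_mem_left _ _ (by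
        rw [Matrix.sub_apply]
        exact h i σ (fun x hx => hσ x (le_iSup L i hx)) v u)
    simpa using hmem
  let J : TestRing O :=
    { R := { carrier := A }
      alg := algebraMap O A
      red := redA
      red_alg := hredalg
      ker_red := hkerA }
  let lift : Lift ρbar J :=
    { M := MA
      cont := hcont
      reduces := fun σ => by
        have h := congrArg (fun X : M2 (S i₀).R => X.map (S i₀).red) (hconj i₀ σ)
        simp only [Matrix.map_mul, Matrix.map_map] at h
        refine Eq.trans ?_ (h.trans ?_)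
        · rfl
        · rw [hUred, map_red_inv (hUred i₀), one_mul, mul_one, (ℓ i₀).reduces] }
  refine ⟨{ J := J, finite := ?_, pr := fun i => (ev i).comp A.subtype, pr_alg := fun i => rfl,
            pr_red := fun i => RingHom.ext fun x => hredA x i,
            injective := fun z hz => Subtype.ext (funext hz),
            lift := lift, gen := ?_, U := U, U_red := hUred, conj := hconj }⟩
  · show @Module.Finite O A _ _ (algebraMap O A).toAlgebra.toModule
    convert hAfin'
  · refine eq_top_iff.mpr fun z _ => ?_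
    have hsub : A ≤ (Subring.closure (Set.range J.alg ∪
        Set.range fun σ => (lift.M σ).trace)).map A.subtype := by
      refine Subring.closure_le.mpr ?_
      rintro x (⟨a, rfl⟩ | ⟨σ, rfl⟩)
      · exact ⟨_, Subring.subset_closure (Or.inl ⟨a, rfl⟩), rfl⟩
      · refine ⟨_, Subring.subset_closure (Or.inr ⟨σ, rfl⟩), ?_⟩
        show A.subtype (MA σ).trace = (MP σ).trace
        rw [Matrix.trace_fin_two, map_add, ← Matrix.trace_units_conj' V (MP σ),
          Matrix.trace_fin_two]
        rfl
    obtain ⟨w, hw, hwz⟩ := hsub z.2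
    rwa [← Subtype.val_injective hwz]

variable (G : Glued ℓ) (hp2 : p ≠ 2) (hp : (p : O) ∈ maximalIdeal O)
  (hdet : ∀ i, DetCyclotomic p (S i) (ℓ i))

omit [Fintype ι] [Nonempty ι] in
omit [IsAdicComplete (maximalIdeal O) O] [Finite (ResidueField O)] [CharZero O] in
theorem Glued.ext {x y : G.J.R} (h : ∀ i, G.pr i x = G.pr i y) : x = y :=
  sub_eq_zero.mp (G.injective _ fun i => by rw [map_sub, h i, sub_self])

omit [Fintype ι] [Nonempty ι] [IsAdicComplete (maximalIdeal O) O] [Finite (ResidueField O)]
    [CharZero O] in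
theorem Glued.matrix_ext {X Y : M2 G.J.R} (h : ∀ i, X.map (G.pr i) = Y.map (G.pr i)) : X = Y :=
  Matrix.ext fun a b => G.ext fun i => congrFun (congrFun (h i) a) b

omit [Fintype ι] [Nonempty ι] in
omit [IsAdicComplete (maximalIdeal O) O] [Finite (ResidueField O)] [CharZero O] in
theorem Glued.pr_det_lift (i : ι) (g : GQ) : G.pr i (G.lift.M g).det = ((ℓ i).M g).det := by
  rw [RingHom.map_det, RingHom.mapMatrix_apply, G.conj i g, Matrix.det_units_conj]

omit [IsDomain O] [IsDiscreteValuationRing O] [IsAdicComplete (maximalIdeal O) O]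
  [Finite (ResidueField O)] [CharZero O] [Fact p.Prime] in
theorem TestRing.natCast_mem [IsLocalRing O] (S : TestRing O) (hp : (p : O) ∈ maximalIdeal O) :
    (p : S.R) ∈ maximalIdeal S.R := by
  rw [← S.ker_red, ← map_natCast S.alg p, S.red_alg]
  exact Ideal.Quotient.eq_zero_iff_mem.mpr hp

include hp2 hp hdet

omit hp2 [Fintype ι] [Nonempty ι] [IsAdicComplete (maximalIdeal O) O] [Finite (ResidueField O)]
    [CharZero O] in
theorem Glued.detCyclotomic : DetCyclotomic p G.J G.lift := by
  have hd : ∀ (M : GQ →* M2 G.J.R) (hM : MatCont M) (σ : GQ),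
      LinearMap.det ((ofMatrix M hM).ρ σ) = (M σ).det := fun M hM σ => LinearMap.det_toLin' (M σ)
  have h := TW.detIsCyclotomic_of_frobenius (ofMatrix G.lift.M G.lift.cont)
    (Fact.out : p.Prime) (G.J.natCast_mem hp) {p} fun q hq hqp P hP σ hσ => by
      rw [hd]
      refine G.ext fun i => ?_
      rw [G.pr_det_lift, map_natCast]
      exact det_frobenius_eq ((S i).natCast_mem hp) (hdet i) hq
        (by simpa using hqp) hP hσ
  intro n σ a ha
  rw [← hd G.lift.M G.lift.cont σ]
  exact h.2 n σ a ha

omit hp2 hp hdet [Fintype ι] [Nonempty ι] [IsAdicComplete (maximalIdeal O) O]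
    [Finite (ResidueField O)] [CharZero O] [Fact (Nat.Prime p)] in
theorem Glued.unipotent (P : ValuationSubring ℚbar) (h : ∀ i, Unipotent P (S i) (ℓ i)) :
    Unipotent P G.J G.lift := by
  intro σ hσ
  refine Polynomial.ext fun n => G.ext fun i => ?_
  rw [← Polynomial.coeff_map, ← Matrix.charpoly_map, G.conj i σ, Matrix.coe_units_inv,
    Matrix.charpoly_units_conj,
    h i σ hσ, ← Polynomial.coeff_map]
  simp

omit hp2 [Fintype ι] [Nonempty ι] [IsAdicComplete (maximalIdeal O) O] [Finite (ResidueField O)]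
    [CharZero O] in
theorem Glued.steinberg_of_ramified {q : ℕ} (hq : q.Prime) (hqp : q ≠ p)
    (P : ValuationSubring ℚbar) (hP : P.LiesOverPrime q)
    (hram : ∃ σ ∈ P.inertiaSubgroupIn ℚ, ρbar σ ≠ 1) (h : ∀ i, Unipotent P (S i) (ℓ i)) :
    SteinbergShape P G.J G.lift := by
  have hpJ := G.J.natCast_mem hp
  have hU := G.unipotent P h
  obtain ⟨φ, hφ⟩ := Gal.exists_isFrobeniusAt hq hP
  obtain ⟨τ, hτ⟩ := LocalModel.exists_isTameGenerator (Fact.out : p.Prime) hq hqp hP
  have htd : ∀ σ ∈ P.inertiaSubgroupIn ℚ,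
      (G.lift.M σ).trace = 2 ∧ (G.lift.M σ).det = 1 := by
    intro σ hσ
    have e := hU σ hσ
    rw [Matrix.charpoly_fin_two] at e
    have h1 := congrArg (fun f => Polynomial.coeff f 1) e
    have h0 := congrArg (fun f => Polynomial.coeff f 0) e
    have e2 : ((X : G.J.R[X]) - 1) ^ 2 = X ^ 2 - C 2 * X + C 1 := by
      rw [map_ofNat, map_one]; ring
    simp only [e2, Polynomial.coeff_add, Polynomial.coeff_sub, Polynomial.coeff_X_pow,
      Polynomial.coeff_C_mul_X, Polynomial.coeff_C] at h1 h0
    norm_num at h1 h0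
    exact ⟨h1, h0⟩
  have hI : LocalModel.PInertia p P G.lift.M := by
    intro σ hσ
    obtain ⟨ht, hd⟩ := htd σ hσ
    set X := G.lift.M σ
    have hN : (X - 1) * (X - 1) = 0 := by
      rw [Matrix.det_fin_two] at hd
      rw [Matrix.trace_fin_two] at ht
      refine Matrix.ext fun i j => ?_
      fin_cases i <;> fin_cases j <;> simp [Matrix.mul_apply, Fin.sum_univ_two]
      · linear_combination X 0 0 * ht - hd
      · linear_combination X 0 1 * ht
      · linear_combination X 1 0 * ht
      · linear_combination X 1 1 * ht - hd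
    have hpow : ∀ k : ℕ, X ^ k = 1 + k • (X - 1) := by
      intro k
      induction k with
      | zero => simp
      | succ k ih =>
        rw [pow_succ, ih, add_mul, one_mul, smul_mul_assoc, succ_nsmul]
        have : (X - 1) * X = X - 1 := by
          have := hN
          rw [mul_sub, mul_one, sub_eq_zero] at this
          exact this
        rw [this]; abel
    rw [hpow, map_add, map_one, add_eq_left, map_nsmul]
    refine Matrix.ext fun i j => ?_
    rw [Matrix.smul_apply, RingHom.mapMatrix_apply, Matrix.map_apply, Matrix.zero_apply,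
      nsmul_eq_mul, ← map_natCast (Ideal.Quotient.mk (maximalIdeal G.J.R)) p, ← map_mul,
      Ideal.Quotient.eq_zero_iff_mem]
    exact Ideal.mul_mem_right _ _ hpJ
  refine TW.exists_steinbergShape hpJ hq hP hφ hτ G.lift.cont hI
    (det_frobenius_eq hpJ (G.detCyclotomic hp hdet) hq hqp hP hφ)
    (isUnit_natCast_of_coprime hpJ ((Nat.coprime_primes hq (Fact.out : p.Prime)).mpr hqp))
    (htd τ hτ.1).2 (htd τ hτ.1).1 ?_
  by_contra hall
  push Not at hall
  obtain ⟨σ, hσ, hne⟩ := hram
  refine hne ?_
  obtain ⟨k, hk, -⟩ := (hτ.modPow_prod hpJ G.lift.cont G.lift.cont hI hI 1).1 σ hσ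
  have hτ1 : LocalModel.modPow G.lift.M 1 τ = 1 := by
    refine Matrix.ext fun i j => ?_
    rw [LocalModel.modPow_apply, RingHom.mapMatrix_apply, Matrix.map_apply,
      ← Matrix.map_one (Ideal.Quotient.mk (maximalIdeal G.J.R ^ 1)) (map_zero _) (map_one _),
      Matrix.map_apply, Ideal.Quotient.eq, pow_one, ← Matrix.sub_apply]
    exact hall i j
  rw [hτ1, one_pow] at hk
  rw [← G.lift.reduces σ, ← Matrix.map_one G.J.red (map_zero _) (map_one _)]
  refine Matrix.ext fun i j => ?_
  rw [Matrix.map_apply, Matrix.map_apply, ← sub_eq_zero, ← map_sub, G.J.ker_red,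
    ← pow_one (maximalIdeal G.J.R), ← Ideal.Quotient.eq]
  have := congrFun (congrFun hk i) j
  rw [LocalModel.modPow_apply, RingHom.mapMatrix_apply, Matrix.map_apply,
    ← Matrix.map_one (Ideal.Quotient.mk (maximalIdeal G.J.R ^ 1)) (map_zero _) (map_one _),
    Matrix.map_apply] at this
  exact this

omit [Fintype ι] [Nonempty ι] [IsAdicComplete (maximalIdeal O) O] [Finite (ResidueField O)]
    [CharZero O] in
theorem Glued.ordinary (P : ValuationSubring ℚbar) (hP : P.LiesOverPrime p)
    (h : ∀ i, ∃ s, OrdinaryShape P (S i) (ℓ i) s) :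
    ∃ s, OrdinaryShape P G.J G.lift s ∧
      ∀ i (si : P.decompositionSubgroup ℚ →* (S i).R), OrdinaryShape P (S i) (ℓ i) si →
        ∀ g, G.pr i (s g) = si g := by
  obtain ⟨σ, hσ, hu⟩ := exists_inertia_isUnit_one_sub_det hp2 (G.J.natCast_mem hp)
    (G.detCyclotomic hp hdet) hP
  choose s hs using h
  have hmap : ∀ i (si : P.decompositionSubgroup ℚ →* (S i).R), OrdinaryShape P (S i) (ℓ i) si →
      TW.OrdShape P (mapRep (G.pr i) G.lift.M) si := by
    intro i si hsi
    have h1 : OrdinaryShape P (S i) ((ℓ i).conj (G.U i) (G.U_red i)) si :=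
      ordinaryShape_conj (G.U i) (fun g => rfl) hsi
    rwa [show mapRep (G.pr i) G.lift.M = ((ℓ i).conj (G.U i) (G.U_red i)).M from
      MonoidHom.ext fun g => (mapRep_apply _ _ g).trans (G.conj i g)]
  obtain ⟨t, ht, hts⟩ := TW.exists_ordShape_of_points G.pr G.injective hσ hu s
    fun i => hmap i _ (hs i)
  refine ⟨t, ht, fun i si hsi g => ?_⟩
  have hu' : IsUnit (1 - (mapRep (G.pr i) G.lift.M σ).det) := by
    rw [mapRep_apply, ← RingHom.mapMatrix_apply, ← RingHom.map_det, ← map_one (G.pr i), ← map_sub]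
    exact hu.map (G.pr i)
  rw [hts i g, TW.eq_inertiaEigen (hmap i _ (hs i)) hσ hu' g,
    ← TW.eq_inertiaEigen (hmap i si hsi) hσ hu' g]

omit [Fintype ι] [Nonempty ι] [IsAdicComplete (maximalIdeal O) O] [Finite (ResidueField O)]
    [CharZero O] in
theorem Glued.steinberg_at_p (P : ValuationSubring ℚbar) (hP : P.LiesOverPrime p)
    (h : ∀ i, SteinbergShape P (S i) (ℓ i)) : SteinbergShape P G.J G.lift := by
  obtain ⟨t, ht, hts⟩ := G.ordinary hp2 hp hdet P hP fun i => ⟨_, (h i).choose_spec.1⟩
  refine ⟨t, ht, fun g => G.ext fun i => ?_⟩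
  rw [map_mul, map_one, hts i _ (h i).choose_spec.1 g]
  exact (h i).choose_spec.2 g

omit hp2 hp hdet [Nonempty ι] [IsAdicComplete (maximalIdeal O) O] [Finite (ResidueField O)]
    [CharZero O] in
theorem Glued.flat (h : ∀ i, FlatShape p (S i) (ℓ i)) : FlatShape p G.J G.lift :=
  isFlatAt_of_family G.pr G.injective G.lift.M G.lift.cont (fun i => (ℓ i).M)
    (fun i => (ℓ i).cont) h G.U G.conj

omit hp2 hp hdet [Fintype ι] [Nonempty ι] [Fact (Nat.Prime p)] [IsAdicComplete (maximalIdeal O) O]
    [Finite (ResidueField O)] [CharZero O] in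
theorem Glued.unramified (P : ValuationSubring ℚbar)
    (h : ∀ i, ∀ σ ∈ P.inertiaSubgroupIn ℚ, (ℓ i).M σ = 1) :
    ∀ σ ∈ P.inertiaSubgroupIn ℚ, G.lift.M σ = 1 := by
  intro σ hσ
  refine G.matrix_ext fun i => ?_
  rw [G.conj i σ, h i σ hσ, mul_one, Units.mul_inv, Matrix.map_one _ (map_zero _) (map_one _)]

omit hp2 hp hdet [Fintype ι] [Nonempty ι] in
omit [IsAdicComplete (maximalIdeal O) O] [Finite (ResidueField O)] [CharZero O]
    [Fact (Nat.Prime p)] in
/-- The quotient by the kernel of a projection to a subfamily: its ring is again glued. -/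
theorem Glued.exists_restrict {κ : Type} [Fintype κ] [Nonempty κ] (f : κ → ι) :
    ∃ (G' : Glued (fun k => ℓ (f k))) (π : G.J.R →+* G'.J.R),
      π.comp G.J.alg = G'.J.alg ∧ G'.J.red.comp π = G.J.red ∧ Function.Surjective π ∧
        (∀ g, G'.lift.M g = (G.lift.M g).map π) ∧ ∀ k z, G'.pr k (π z) = G.pr (f k) z := by
  let I : Ideal G.J.R := ⨅ k, RingHom.ker (G.pr (f k))
  have hk : ∀ k, ∀ z ∈ I, G.pr (f k) z = 0 := fun k z hz =>
    RingHom.mem_ker.mp ((Submodule.mem_iInf _).mp hz k)
  have hI : I ≤ maximalIdeal G.J.R := fun z hz => by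
    rw [← G.J.ker_red, ← RingHom.congr_fun (G.pr_red (f (Classical.arbitrary κ))) z,
      RingHom.comp_apply, hk _ z hz, map_zero]
  let π := G.J.quotMk I hI
  have hπ : Function.Surjective π := Ideal.Quotient.mk_surjective
  let G' : Glued (fun k => ℓ (f k)) := {
    J := G.J.quot I hI
    finite := by
      let := G.J.alg.toAlgebra
      let := (G.J.quot I hI).alg.toAlgebra
      have : Module.Finite O G.J.R := G.finite
      exact Module.Finite.of_surjective
        ({ toFun := π, map_add' := map_add π, map_smul' := fun a x => by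
            rw [RingHom.id_apply, Algebra.smul_def, Algebra.smul_def, map_mul]
            rfl } : G.J.R →ₗ[O] (G.J.quot I hI).R) hπ
    pr := fun k => Ideal.Quotient.lift I (G.pr (f k)) (hk k)
    pr_alg := fun k => RingHom.ext fun a => (Ideal.Quotient.lift_mk I (G.pr (f k)) (hk k)).trans
      (RingHom.congr_fun (G.pr_alg (f k)) a)
    pr_red := fun k => RingHom.ext fun x => by
      obtain ⟨y, rfl⟩ := Ideal.Quotient.mk_surjective x
      exact (congrArg (S (f k)).red (Ideal.Quotient.lift_mk I (G.pr (f k)) (hk k))).trans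
        ((RingHom.congr_fun (G.pr_red (f k)) y).trans
          (RingHom.congr_fun (G.J.red_comp_quotMk I hI) y).symm)
    injective := fun z hz => by
      obtain ⟨y, rfl⟩ := Ideal.Quotient.mk_surjective z
      exact Ideal.Quotient.eq_zero_iff_mem.mpr ((Submodule.mem_iInf _).mpr fun k =>
        RingHom.mem_ker.mpr ((Ideal.Quotient.lift_mk I (G.pr (f k)) (hk k)).symm.trans (hz k)))
    lift := G.lift.push π (G.J.red_comp_quotMk I hI)
    gen := by
      refine eq_top_iff.mpr fun z _ => ?_
      obtain ⟨y, rfl⟩ := hπ z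
      have hy : y ∈ Subring.closure (Set.range G.J.alg ∪
          Set.range fun σ => (G.lift.M σ).trace) := by rw [G.gen]; trivial
      have h2 := (Subring.mem_map (f := π)).mpr ⟨y, hy, rfl⟩
      rw [RingHom.map_closure] at h2
      refine Subring.closure_mono ?_ h2
      rintro _ ⟨w, ⟨a, rfl⟩ | ⟨σ, rfl⟩, rfl⟩
      · exact Or.inl ⟨a, rfl⟩
      · exact Or.inr ⟨σ, (AddMonoidHom.map_trace π (G.lift.M σ)).symm⟩
    U := fun k => G.U (f k)
    U_red := fun k => G.U_red (f k)
    conj := fun k g => by
      rw [← G.conj (f k) g]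
      exact Matrix.ext fun a b => Ideal.Quotient.lift_mk I (G.pr (f k)) (hk k) }
  exact ⟨G', π, rfl, G.J.red_comp_quotMk I hI, hπ, fun g => rfl,
    fun k z => Ideal.Quotient.lift_mk I (G.pr (f k)) (hk k)⟩

end Fermat.Agent.Root.Patched
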