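import Fermat.Agent.Root.Patched.TowerPointRep
import Fermat.Agent.Root.Patched.Standard
import Fermat.Agent.Root.Patched.TraceRing
import Fermat.Agent.LocalRing.Series

/-!
# The local input of a tower at the flip places and at the auxiliary primes

At a place where the traces are `s (det + 1)` with a sign `s`, the coordinate `a` of a flip is one
of the roots `c_j`.  Such are the points of a stage with `U_q² = ⟨q⟩`; at a prime with distinct
residual Frobenius eigenvalues and `p ∣ q - 1` there are none.  So the product of the `a - c_j`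
kills what both traces kill, and there is nothing killed by both traces at the auxiliary primes.
-/

set_option autoImplicit false

noncomputable section

namespace Fermat.Agent.Root.Patched

open IsLocalRing Polynomial Fermat.Agent.Deformation Fermat.Agent.GammaH Fermat.Agent.TW
  Fermat.Agent.IharaTW

local notation "ℚbar" => AlgebraicClosure ℚ

/-! ## The roots at a flip place -/

section Flip

variable {O : Type} [CommRing O] [IsDomain O] [IsDiscreteValuationRing O]
  [IsAdicComplete (maximalIdeal O) O] [Finite (ResidueField O)] [CharZero O]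
  {ρbar : GQ →* M2 (ResidueField O)} {p : ℕ} [Fact p.Prime]
  {Sys : LocalSystem O ρbar p} {ζ : O}

/-- A square root of one. -/
theorem eq_one_or_neg_one_of_mul_self {A : Type} [CommRing A] [IsDomain A] {x : A}
    (h : x * x = 1) : ∃ e : ℤ, (e = 1 ∨ e = -1) ∧ x = e := by
  rcases mul_self_eq_one_iff.mp h with h | h
  · exact ⟨1, Or.inl rfl, by rw [h, Int.cast_one]⟩
  · exact ⟨-1, Or.inr rfl, by rw [h, Int.cast_neg, Int.cast_one]⟩

omit [IsAdicComplete (maximalIdeal O) O] [Finite (ResidueField O)] [CharZero O] in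
/-- A value of a map to a nontrivial ring is not the image of an element outside the maximal
ideal with the value zero. -/
theorem residue_eq_zero_of_apply_eq_zero (T : TestRing O) {A : Type} [CommRing A] [Nontrivial A]
    (y : T.R →+* A) {u : T.R} {x : O} (hu : u ∈ maximalIdeal T.R) (h : y (u - T.alg x) = 0) :
    x ∈ maximalIdeal O := by
  have h1 : u - T.alg x ∈ maximalIdeal T.R := (mem_maximalIdeal _).mpr fun hunit =>
    not_isUnit_zero (h ▸ hunit.map y)
  rw [← T.ker_red, map_sub, T.red_alg, (T.ker_red u).mpr hu, zero_sub, neg_eq_zero,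
    residue_eq_zero_iff] at h1
  exact h1

omit [IsAdicComplete (maximalIdeal O) O] [Finite (ResidueField O)] [CharZero O]
    [Fact (Nat.Prime p)] in
/-- At `p` there is a root. -/
theorem StdData.exists_fin_m (St : StdData Sys ζ) (f : Fin Sys.s)
    (hf : Sys.q (.inr (.inl f)) = p) : Nonempty (Fin (Sys.m f)) := by
  by_contra hne
  have := not_nonempty_iff.mp hne
  obtain ⟨u, hu, h⟩ := Sys.det_eq f
  have h0 := congrArg MvPowerSeries.constantCoeff h
  have hT := congrArg MvPowerSeries.constantCoeff (St.Tr_eq f hf)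
  simp only [map_mul, map_add, map_pow, MvPowerSeries.constantCoeff_C,
    MvPowerSeries.constantCoeff_X, zero_add] at hT
  simp only [Finset.univ_eq_empty, Finset.prod_empty, mul_one, map_sub, map_pow,
    MvPowerSeries.constantCoeff_C] at h0
  have hu0 : IsUnit (MvPowerSeries.constantCoeff u) := hu.map _
  rw [← h0, hf] at hu0
  have hz : ((p : O) + 1) ^ 2 - MvPowerSeries.constantCoeff (Sys.Tr f) ^ 2 = 0 := by
    linear_combination -(MvPowerSeries.constantCoeff (Sys.Tr f) * St.s₀ f + (1 + (p : O))) * hT +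
      (MvPowerSeries.constantCoeff (Sys.Tr f) ^ 2 -
        MvPowerSeries.constantCoeff (Sys.Tr f) * St.s₀ f - (1 + (p : O))) * St.s₀_sq f
  exact not_isUnit_zero (hz ▸ hu0)

omit [IsAdicComplete (maximalIdeal O) O] [Finite (ResidueField O)] [CharZero O] in
/-- **The coordinate `a` at a point with traces `s (det + 1)`.** -/
theorem StdData.exists_flipA_eq_c (St : StdData Sys ζ) (hp2 : p ≠ 2)
    (hp : (p : O) ∈ maximalIdeal O) (f : Fin Sys.s) (T : TestRing O) (r : Lift ρbar T)
    (hcond : Sys.flipCond f T r) {A : Type} [CommRing A] [IsDomain A] [CharZero A]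
    (y : T.R →+* A) (s : (Sys.P (.inr (.inl f))).decompositionSubgroup ℚ →* A)
    (hs : ∀ g, s g * s g = 1)
    (hsI : ∀ g : (Sys.P (.inr (.inl f))).decompositionSubgroup ℚ,
      (g : GQ) ∈ (Sys.P (.inr (.inl f))).inertiaSubgroupIn ℚ → s g = 1)
    (htr : ∀ g : (Sys.P (.inr (.inl f))).decompositionSubgroup ℚ,
      y (r.M g).trace = s g * (y (r.M g).det + 1)) :
    ∃ j, y (Sys.flipA f T r) = y (T.alg (Sys.c f j)) := by
  set q := Sys.q (.inr (.inl f)) with hqdef
  have hpT : (p : T.R) ∈ maximalIdeal T.R := T.natCast_mem hp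
  have hmem : Sys.flipA f T r ∈ maximalIdeal T.R := (Sys.flipC f).mem T r hcond (.inl none)
  obtain ⟨e, he, hse⟩ := eq_one_or_neg_one_of_mul_self (hs (St.φf f))
  have he2 : ((e : O) * e) = 1 := by rcases he with rfl | rfl <;> simp
  by_cases hq : q = p
  · obtain ⟨hdet, s', hord, hred⟩ := (St.flip_eq f hq T r).mp hcond
    have hA : Sys.flipA f T r = s' (St.φf f) - T.alg (St.s₀ f) :=
      St.flipA_eq f hq T r s' hdet hord hred
    -- the eigenvalue is the sign
    have hdu : ∀ g : (Sys.P (.inr (.inl f))).decompositionSubgroup ℚ, IsUnit (r.M g).det :=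
      fun g => ((Group.isUnit (g : GQ)).map r.M).map Matrix.detMonoidHom
    have key : ∀ g : (Sys.P (.inr (.inl f))).decompositionSubgroup ℚ,
        y (s' g) = s g ∨ y (s' g) = y (r.M g).det * s g := fun g => by
      have h0 : s' g⁻¹ * s' g = 1 := by rw [← map_mul, inv_mul_cancel, map_one]
      have h1 := congrArg y.mapMatrix (hord.2 g g)
      rw [map_mul, map_sub, map_sub, map_zero,
        show y.mapMatrix (((r.M g).det * s' g⁻¹) • (1 : M2 T.R)) =
          y ((r.M g).det * s' g⁻¹) • (1 : M2 A) from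
            Matrix.ext fun i k => by rcases eq_or_ne i k with rfl | hik <;> simp [*],
        show y.mapMatrix (s' g • (1 : M2 T.R)) = y (s' g) • (1 : M2 A) from
            Matrix.ext fun i k => by rcases eq_or_ne i k with rfl | hik <;> simp [*]] at h1
      have hd : (y.mapMatrix (r.M g)).det = y (r.M g).det := (y.map_det _).symm
      have h2 := trace_eq_of_mul_eq_zero (hd ▸ (hdu g).map y)
        (by rw [hd, ← map_mul, mul_assoc, h0, mul_one]) h1
      rw [show (y.mapMatrix (r.M g)).trace = y (r.M g).trace from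
        (AddMonoidHom.map_trace y.toAddMonoidHom _).symm, htr, map_mul] at h2
      have h3 : y (s' g⁻¹) * y (s' g) = 1 := by rw [← map_mul, h0, map_one]
      refine (mul_eq_zero.mp (?_ : (y (s' g) - s g) * (y (s' g) - y (r.M g).det * s g) = 0)).imp
        sub_eq_zero.mp sub_eq_zero.mp
      linear_combination y (r.M g).det * hs g - y (r.M g).det * h3 - y (s' g) * h2
    obtain ⟨g₀, hg₀, hu₀⟩ := exists_inertia_isUnit_one_sub_det hp2 hpT (M := r.M) hdet
      (P := Sys.P (.inr (.inl f)))
      (by have h := Sys.P_over (.inr (.inl f)); rwa [show Sys.q (.inr (.inl f)) = p from hq] at h)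
    have hval : y (s' (St.φf f)) = s (St.φf f) := by
      rcases key (St.φf f) with h | h
      · exact h
      · rcases key (St.φf f * g₀) with h' | h'
        · rwa [map_mul s', map_mul s, hord.1 g₀ hg₀, hsI g₀ hg₀, mul_one, mul_one] at h'
        · rw [map_mul s', map_mul s, hord.1 g₀ hg₀, hsI g₀ hg₀, mul_one, mul_one, h,
            Subgroup.coe_mul,
            map_mul r.M, Matrix.det_mul, map_mul y] at h'
          have hne : y (r.M (St.φf f : GQ)).det * s (St.φf f) ≠ 0 :=
            mul_ne_zero ((hdu _).map y).ne_zero fun h0 => by simpa [h0] using hs (St.φf f)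
          refine absurd ((mul_eq_zero.mp (?_ : (y (r.M (St.φf f : GQ)).det * s (St.φf f)) *
            (1 - y (r.M (g₀ : GQ)).det) = 0)).resolve_left hne)
            (by rw [← map_one y, ← map_sub]; exact (hu₀.map y).ne_zero)
          linear_combination h'
    -- it is the sign of the residual one
    have hes : (e : O) = St.s₀ f := by
      have hx : (e : O) - St.s₀ f ∈ maximalIdeal O :=
        residue_eq_zero_of_apply_eq_zero T y hmem (by
          rw [hA, map_sub, map_sub, hval, hse, map_sub, map_intCast, map_sub, map_intCast,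
            sub_self])
      rcases mul_eq_zero.mp (show ((e : O) - St.s₀ f) * ((e : O) + St.s₀ f) = 0 by
          linear_combination he2 - St.s₀_sq f) with h | h
      · exact sub_eq_zero.mp h
      · exfalso
        rw [eq_neg_of_add_eq_zero_right h, sub_neg_eq_add, ← two_mul] at hx
        exact (mem_maximalIdeal _).mp hx (Sys.isUnit_two.mul (IsUnit.of_mul_eq_one _ he2))
    obtain ⟨j⟩ := St.exists_fin_m f hq
    refine ⟨j, ?_⟩
    rw [hA, St.c_eq f hq j, map_sub, hval, hse, ← hes, map_intCast, map_intCast, sub_self,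
      map_zero, map_zero]
  · obtain ⟨hdet, -⟩ := (St.flip_ne f hq T r).mp hcond
    set x : O := (e : O) * ((q : O) + 1) - St.s₀ f * ((q : O) + 1)
    have hval : y (Sys.flipA f T r) = y (T.alg x) := by
      rw [St.flipA_ne f hq T r hcond, map_sub, htr, hse,
        det_frobenius_eq hpT hdet (Sys.q_prime _) hq (Sys.P_over _) (St.φf_frob f)]
      simp [x, hqdef]
    have hx : x ∈ maximalIdeal O :=
      residue_eq_zero_of_apply_eq_zero T y hmem (by rw [map_sub, hval, sub_self])
    obtain ⟨j, hj⟩ := (St.c_ne f hq x hx).mp (by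
      linear_combination ((q : O) + 1) ^ 2 * he2)
    exact ⟨j, by rw [hval, hj]⟩

omit [IsAdicComplete (maximalIdeal O) O] [Finite (ResidueField O)] [CharZero O]
    [Fact (Nat.Prime p)] in
/-- At a flip away from `p` the series `Tr` at `a` is the trace of Frobenius. -/
theorem StdData.eval_Tr_ne (St : StdData Sys ζ) (f : Fin Sys.s)
    (hq : Sys.q (.inr (.inl f)) ≠ p) (T : TestRing O) (r : Lift ρbar T)
    (hcond : Sys.flipCond f T r) (ha : ∀ _ : Unit, Sys.flipA f T r ∈ maximalIdeal T.R) :
    LocalRing.eval T.alg (fun _ => Sys.flipA f T r) ha (Sys.Tr f) = (r.M (St.φf f : GQ)).trace := by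
  rw [St.Tr_ne f hq, map_add, LocalRing.eval_X, LocalRing.eval_C, St.flipA_ne f hq T r hcond,
    sub_add_cancel]

omit [IsAdicComplete (maximalIdeal O) O] [Finite (ResidueField O)] [CharZero O]
    [Fact (Nat.Prime p)] in
/-- At a flip at `p` the series `Tr` at `a` times the quotient character at Frobenius is its square
plus `p`. -/
theorem StdData.eval_Tr_mul_eq (St : StdData Sys ζ) (f : Fin Sys.s)
    (hq : Sys.q (.inr (.inl f)) = p) (T : TestRing O) (r : Lift ρbar T)
    (hdet : DetCyclotomic p T r)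
    {s : (Sys.P (.inr (.inl f))).decompositionSubgroup ℚ →* T.R}
    (hs : OrdinaryShape (Sys.P (.inr (.inl f))) T r s)
    (hred : T.red (s (St.φf f)) = residue O (St.s₀ f))
    (ha : ∀ _ : Unit, Sys.flipA f T r ∈ maximalIdeal T.R) :
    LocalRing.eval T.alg (fun _ => Sys.flipA f T r) ha (Sys.Tr f) * s (St.φf f) =
      s (St.φf f) ^ 2 + (p : T.R) := by
  have h := congrArg (LocalRing.eval T.alg (fun _ => Sys.flipA f T r) ha) (St.Tr_eq f hq)
  simpa only [map_mul, map_add, map_pow, LocalRing.eval_X, LocalRing.eval_C, map_natCast,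
    St.flipA_eq f hq T r s hdet hs hred, sub_add_cancel] using h

end Flip

/-! ## What both traces kill -/

section New

variable {O : Type} [CommRing O] [IsDomain O] [IsDiscreteValuationRing O]
  [IsAdicComplete (maximalIdeal O) O] [Finite (ResidueField O)] [CharZero O]
  {N q : ℕ} [hqF : Fact q.Prime] (hqN : ¬ q ∣ N) {H₀ : Subgroup (ZMod N)ˣ} [NeZero N]
  [NeZero (N * q)] {S : Finset ℕ} {hHq : (-1 : (ZMod (N * q))ˣ) ∈ Hq N q H₀}
  {θ : heckeRing (N * q) (Hq N q H₀) (↑S : Set ℕ) →+* ResidueField O} (C : Cut hHq θ)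

omit [Finite (ResidueField O)] [CharZero O] in
/-- A point of the ring of a cut pulled back to the local Hecke ring. -/
theorem Cut.comp_ofTW_toTWRing {L : ℕ} [NeZero L] {H : Subgroup (ZMod L)ˣ}
    {hH : (-1 : (ZMod L)ˣ) ∈ H} {θ : heckeRing L H (↑S : Set ℕ) →+* ResidueField O}
    (C : Cut hH θ) {A : Type} [CommRing A] [Algebra O A] (x : HeckeO L H ∅ O →ₐ[O] A)
    (y : C.Ring' →ₐ[O] A) (hy : ∀ z, y (Ideal.Quotient.mk C.kerIdeal z) = x (toFull O z))
    (z : HeckeO L H (↑S : Set ℕ) O) :
    (y.comp C.ofTW) (toTWRing hH O θ z) = x (toFull O z) := by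
  rw [AlgHom.comp_apply, C.ofTW_toTWRing, hy]

include hqN in
/-- **An element vanishing at the points with `U_q² = ⟨q⟩` kills what both traces kill.** -/
theorem Cut.actR_eq_zero_of_new (hLS : ∀ l : ℕ, l.Prime → l ∣ N * q → l ∈ S) (k : C.Ring')
    (hk : ∀ a : (ZMod (N * q))ˣ, ZMod.unitsMap (dvd_mul_right N q) a = unitOf hqN →
      ∀ (O' : Type) [CommRing O'] [IsDomain O'] [IsDiscreteValuationRing O']
      [IsAdicComplete (maximalIdeal O') O'] [Finite (ResidueField O')] [CharZero O']
      [Algebra O O'] [Module.Finite O O'] [IsLocalHom (algebraMap O O')]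
      (x : HeckeO (N * q) (Hq N q H₀) ∅ O →ₐ[O] O'),
      x (HeckeO.ofT O (heckeUR hqF.out (dvd_mul_left q N) (Set.notMem_empty q))) ^ 2
          = x (HeckeO.ofT O (diamondR a)) →
      ∀ y : C.Ring' →ₐ[O] O',
        (∀ z, y (Ideal.Quotient.mk C.kerIdeal z) = x (toFull O z)) → y k = 0)
    (v : LinearMap.range C.E) (hv : gMap N q hqN H₀ O O (v : H1q N q H₀ O O) = 0) :
    C.actR k v = 0 := by
  obtain ⟨k, rfl⟩ := Ideal.Quotient.mk_surjective k
  obtain ⟨a, ha⟩ := ZMod.unitsMap_surjective (dvd_mul_right N q) (unitOf hqN)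
  refine Subtype.ext ?_
  show actO hHq O k (v : H1 (N * q) (Hq N q H₀) O O) = 0
  refine actO_eq_zero_of_points hHq (fun l hl hd => hLS l hl hd)
    ({HeckeO.ofT O (heckeUR hqF.out (dvd_mul_left q N) (Set.notMem_empty q)) ^ 2
      - HeckeO.ofT O (diamondR a)} ∪ toFull (S := (↑S : Set ℕ)) O ''
        (C.kerIdeal : Set (HeckeO (N * q) (Hq N q H₀) (↑S : Set ℕ) O))) k ?_ ?_
  · intro O' _ _ _ _ _ _ _ _ _ x hx
    have hU := hx _ (Or.inl rfl)
    rw [map_sub, map_pow, sub_eq_zero] at hU
    exact hk a ha O' x hU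
      (Ideal.Quotient.liftₐ C.kerIdeal (x.comp (toFull O)) fun b hb =>
        hx _ (Or.inr ⟨b, hb, rfl⟩)) fun z => rfl
  · rintro r (rfl | ⟨b, hb, rfl⟩)
    · rw [map_sub, map_pow, LinearMap.sub_apply, sq, Module.End.mul_apply, HeckeO.ofT_apply,
        HeckeO.ofT_apply, actO_tmul, actO_tmul, one_smul, one_smul, homAction_heckeU,
        homAction_diamond, heckeUH_sq_of_gMap_eq_zero N q hqN H₀ hv ha, sub_self]
    · rw [actO_toFull]
      obtain ⟨w, hw⟩ := v.2
      exact (congrArg _ hw).symm.trans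
        (LinearMap.congr_fun ((C.act_eq_zero_iff b).1 hb) w)

variable {p R h : ℕ} [Fact p.Prime] [NeZero R]
  [Fact (CuspForm.HasIntegralStructure (N * q * R) 2)] {ρ₀ : GQ →* M2 (ResidueField O)}
  {ρbar : ResidualGaloisRep (ResidueField O)}
  (hyp : TWHyp (H := Hq N q H₀) (S := S) (O := O) p R h hHq θ ρbar ρ₀)
  (D : TWRep (H := Hq N q H₀) (S := S) (O := O) p R h (rfl : R = R) hHq θ ρ₀)

include hqN hyp in
omit [NeZero N] in
/-- **The sign at a point with `U_q² = ⟨q⟩`.** -/
theorem Cut.exists_sign_of_new (hqR : ¬ q ∣ R) {a : (ZMod (N * q))ˣ}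
    (ha : ZMod.unitsMap (dvd_mul_right N q) a = unitOf hqN) {O' : Type} [CommRing O'] [IsDomain O']
    [IsDiscreteValuationRing O'] [IsAdicComplete (maximalIdeal O') O']
    [Finite (ResidueField O')] [CharZero O'] [Algebra O O'] [IsLocalHom (algebraMap O O')]
    (x : HeckeO (N * q) (Hq N q H₀) ∅ O →ₐ[O] O')
    (hU : x (HeckeO.ofT O (heckeUR hqF.out (dvd_mul_left q N) (Set.notMem_empty q))) ^ 2
      = x (HeckeO.ofT O (diamondR a)))
    (y : C.Ring' →ₐ[O] O') (hy : ∀ z, y (Ideal.Quotient.mk C.kerIdeal z) = x (toFull O z))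
    (P : ValuationSubring ℚbar) (hP : P.LiesOverPrime q) :
    ∃ (O'' : Type) (_ : CommRing O'') (_ : IsDomain O'') (_ : CharZero O'') (j : O' →+* O''),
      Function.Injective j ∧ ∃ s : P.decompositionSubgroup ℚ →* O'', (∀ g, s g * s g = 1) ∧
        (∀ g : P.decompositionSubgroup ℚ, (g : GQ) ∈ P.inertiaSubgroupIn ℚ → s g = 1) ∧
        ∀ g : P.decompositionSubgroup ℚ, j (y ((C.lift D).M g).trace) =
          s g * (j (y ((C.lift D).M g).det) + 1) := by
  have hRN : R ∣ N :=
    ((hqF.out.coprime_iff_not_dvd.mpr hqR).symm).dvd_of_dvd_mul_right hyp.R_dvd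
  have hqLR : ¬ q ^ 2 ∣ N * q * R := fun hd => by
    rw [sq, mul_comm N q, mul_assoc] at hd
    exact (hqF.out.dvd_mul.1 (Nat.dvd_of_mul_dvd_mul_left hqF.out.pos hd)).elim hqN hqR
  have haR : (ZMod.unitsMap hyp.R_dvd a : ZMod R) = q := by
    rw [← ZMod.unitsMap_comp hRN (dvd_mul_right N q), MonoidHom.comp_apply, ha, ZMod.unitsMap_val]
    exact ZMod.cast_natCast hRN q
  obtain ⟨M, _, G, lam, ι, hG, hML, hqM, hι, hl⟩ := exists_newform_dvd_of_point hHq hyp.R_dvd
    hyp.ker_le hyp.odd hyp.LS hqF.out (dvd_mul_left q N) hqLR haR x hU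
  obtain ⟨O'', _, _, _, j, hj, -, hnew⟩ := exists_rep_of_newform hyp D x (y.comp C.ofTW)
    (C.comp_ofTW_toTWRing x y hy) hG hML lam ι hι S
    fun l hl' hlL hlS => (hl l hl' hlL (by simpa using hlS)).1
  obtain ⟨s, hs, hsI, htr⟩ := hnew q hqF.out hqM (fun hd => hqLR (hd.trans hML)) P hP
  refine ⟨O'', inferInstance, inferInstance, inferInstance, j, hj, s, hs, hsI, fun g => ?_⟩
  exact (congrArg (fun t => j (y t)) (C.trace_mat D g)).trans
    ((htr g).trans (congrArg (fun t => s g * (j (y t) + 1)) (C.det_mat D g).symm))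

include hqN hyp in
/-- **(a) The product of the `a - c_j` kills what both traces kill.** -/
theorem Cut.actR_prod_flip_eq_zero {Sys : LocalSystem O ρ₀ p} {ζ : O} (St : StdData Sys ζ)
    (f : Fin Sys.s) (hf : Sys.q (.inr (.inl f)) = q) (hqR : ¬ q ∣ R)
    (hcond : Sys.flipCond f C.testRing (C.lift D)) (v : LinearMap.range C.E)
    (hv : gMap N q hqN H₀ O O (v : H1q N q H₀ O O) = 0) :
    C.actR (∏ j, (Sys.flipA f C.testRing (C.lift D) - C.testRing.alg (Sys.c f j)) :
      C.testRing.R) v = 0 := by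
  refine C.actR_eq_zero_of_new hqN hyp.LS _ (fun a ha O' _ _ _ _ _ _ _ _ _ x hU y hy => ?_) v hv
  obtain ⟨O'', _, _, _, j, hj, s, hs, hsI, htr⟩ :=
    C.exists_sign_of_new hqN hyp D hqR ha x hU y hy (Sys.P (.inr (.inl f))) (hf ▸ Sys.P_over _)
  obtain ⟨i, hi⟩ := St.exists_flipA_eq_c hyp.ne_two hyp.mem f C.testRing (C.lift D) hcond
    (j.comp y.toRingHom) s hs hsI htr
  refine (map_prod (G := C.testRing.R →+* O') y.toRingHom _ _).trans
    (Finset.prod_eq_zero (Finset.mem_univ i) (hj ?_))
  exact (RingHom.map_sub (j.comp y.toRingHom : C.testRing.R →+* O'') _ _).trans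
    ((sub_eq_zero.mpr hi).trans (map_zero j).symm)

end New

end Fermat.Agent.Root.Patched
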