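import Fermat.Agent.Root.Patched.TowerBottom
import Fermat.Agent.Root.Patched.TowerLeaves
import Fermat.Agent.Root.Patched.TowerLocal
import Fermat.Agent.Root.Patched.TowerEnd

/-!
# The end clauses of a tower for lifting

At the point of the curve the coordinate `a` at a flip is one of the roots, and a point factoring
through the top stage at the bottom gives modularity.
-/

set_option autoImplicit false
set_option maxSynthPendingDepth 3

noncomputable section

namespace Fermat.Agent.Root.Patched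

open IsLocalRing Fermat.Agent.Deformation Fermat.Agent.GammaH Fermat.Agent.TW Fermat.Agent.IharaTW

local notation "ℚbar" => AlgebraicClosure ℚ

variable {O : Type} [CommRing O] [IsDomain O] [IsDiscreteValuationRing O]
  [IsAdicComplete (maximalIdeal O) O] [Finite (ResidueField O)] [CharZero O]

/-- A character with the traces of `W` on the top group of a level `M` gives modularity. -/
theorem isModular_of_character_top {W : WeierstrassCurve ℤ} (hΔ : W.Δ ≠ 0) {M : ℕ} [NeZero M]
    {L : ℕ} [NeZero L] {H : Subgroup (ZMod L)ˣ} (hL : L = M * 1) (hH : H = ⊤) {S : Finset ℕ}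
    (hLS : ∀ q : ℕ, q.Prime → q ∣ L → q ∈ S) {B : Type} [CommRing B] [IsDomain B] [CharZero B]
    (φ : heckeRing L H (↑S : Set ℕ) →+* B)
    (hφ : ∀ (l : ℕ) (hl : l.Prime) (hlL : ¬ l ∣ L) (hlS : l ∉ (↑S : Set ℕ)),
      W.IsGoodPrimeFor l → φ (heckeTR hl hlL hlS) = ((W.apOfModel l : ℤ) : B)) :
    W.IsModularModelOfLevel M := by
  subst hL hH
  exact isModularModelOfLevel_of_character hΔ
    (fun q hq h => absurd (Nat.eq_one_of_dvd_one h ▸ hq) Nat.not_prime_one) hLS φ hφ

variable {p : ℕ} [Fact p.Prime] {W : WeierstrassCurve ℤ} {D : ResidualData O p W}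
  {Sys : LocalSystem O D.ρbar p}

/-- **At the point of the curve `a` is one of the roots.** -/
theorem StdData.exists_flipA_point (St : StdData Sys D.ζ) (hp2 : p ≠ 2) (f : Fin Sys.s)
    (hflip : ((Sys.q (.inr (.inl f)) : ℕ) : ℤ) ∣ W.Δ)
    (hpt : Sys.Cond (.inr (.inl f)) (TestRing.self O) D.point) :
    ∃ j, Sys.flipA f (TestRing.self O) D.point = Sys.c f j := by
  obtain ⟨s, hs, hsq⟩ := D.point_bad _ (Sys.q_prime _) hflip _ (Sys.P_over (.inr (.inl f)))
  have : CharZero (TestRing.self O).R := inferInstanceAs (CharZero O)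
  have : IsDomain (TestRing.self O).R := inferInstanceAs (IsDomain O)
  exact St.exists_flipA_eq_c hp2 D.p_mem f (TestRing.self O) D.point hpt
    (RingHom.id (TestRing.self O).R) s hsq hs.1 fun g =>
      (SteinbergShape.trace_eq hs hsq g).trans (congrArg (s g * ·) (add_comm _ _))

variable {St : StdData Sys D.ζ} {N : ℕ} {hT : TowerHyp D Sys St N} [NeZero (inputN₀ N ∅)]

omit [NeZero (inputN₀ N ∅)] in
theorem baseData_lvl (hT : TowerHyp D Sys St N) :
    (baseData hT).C.lvl Sys.s = N * ∏ f, Sys.q (.inr (.inl f)) := by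
  show chainLvl (inputN₀ N ∅) (flipPrime Sys) Sys.s = _
  rw [chainLvl_eq_mul_prod, inputN₀, Finset.prod_empty, mul_one,
    ← Fin.prod_univ_eq_prod_range (flipPrime Sys)]
  exact congrArg (N * ·) (Finset.prod_congr rfl fun f _ => dif_pos f.2)

theorem baseData_grp_eq_top (hT : TowerHyp D Sys St N) (i : ℕ) : (baseData hT).C.grp i = ⊤ :=
  eq_top_iff.2 fun a _ => by
    rw [(baseData hT).C.mem_grp_iff]
    show _ ∈ inputH hT (AuxSet.empty Sys) (Finset.empty_subset (avoidSet Sys))
    rw [inputH_eq_top hT (AuxSet.empty Sys) (Finset.empty_subset (avoidSet Sys)) rfl rfl]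
    exact Subgroup.mem_top _

/-- The rings at the bottom map onto the stages. -/
theorem BottomRings.pr₀_surjective {E : Type} {P : PointFamily Sys E} (B : BottomRings hT P)
    (i : ℕ) (hi : i ≤ Sys.s) : Function.Surjective (B.pr₀ i hi) :=
  Glued.pr_surjective_of_gen B.G₀ (.inl ⟨i, Nat.lt_succ_of_le hi⟩)
    (Cut.closure_traces_eq_top ((baseData hT).stage i hi).C ((baseData hT).stage i hi).D
      ((baseData hT).stage i hi).hyp.LS
      (Cut.dia_mem_range_of_top _ fun a => (baseData_grp_eq_top hT i).ge (Subgroup.mem_top a)))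

/-- **A point factoring through the top stage gives modularity.** -/
theorem BottomRings.isModular_of_ideal_le
    {hpt : ∀ v, Sys.Cond v (TestRing.self O) D.point}
    {havoid : ∀ i, Unipotent (Sys.P (.inl i)) (TestRing.self O) D.point}
    {hbad : ∀ q : ℕ, q.Prime → (q : ℤ) ∣ W.Δ → ∃ v, Sys.q v = q}
    (B : BottomRings hT (PointFamily.point Sys St hpt havoid hbad))
    (hle : B.ideal Sys.s ≤ RingHom.ker (B.point ())) :
    W.IsModularModelOfLevel (N * ∏ f, Sys.q (.inr (.inl f))) := by
  rw [B.ideal_of_le Sys.s le_rfl] at hle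
  let φ : ((baseData hT).stage Sys.s le_rfl).C.Ring' →+* O :=
    (B.pr₀ Sys.s le_rfl).liftOfSurjective (B.pr₀_surjective Sys.s le_rfl) ⟨B.point (), hle⟩
  have hφ : ∀ x, φ (B.pr₀ Sys.s le_rfl x) = B.point () x := fun x =>
    RingHom.liftOfRightInverse_comp_apply (B.pr₀ Sys.s le_rfl) _ _ ⟨B.point (), hle⟩ x
  have : NeZero (N * ∏ f, Sys.q (.inr (.inl f))) :=
    ⟨baseData_lvl hT ▸ ((baseData hT).C.neZero_lvl Sys.s).out⟩
  obtain ⟨ψ, hψ⟩ := Cut.exists_character ((baseData hT).stage Sys.s le_rfl).C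
    ((baseData hT).stage Sys.s le_rfl).D
    (fun a => (baseData_grp_eq_top hT Sys.s).ge (Subgroup.mem_top a)) φ
  refine isModular_of_character_top hT.ss.ne ((baseData_lvl hT).trans (mul_one _).symm)
    (baseData_grp_eq_top hT Sys.s) ((baseData hT).stage Sys.s le_rfl).hyp.LS ψ
    fun l hl hlL hlS hgood => ?_
  have hlp : l ≠ p := fun e => hlS (by rw [e]; exact Finset.mem_insert_self _ _)
  obtain ⟨A, hA⟩ := Gal.exists_liesOverPrime (L := ℚbar) hl
  obtain ⟨σ, hσ⟩ := Gal.exists_isFrobeniusAt hl hA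
  refine (hψ l hl hlL hlS A hA σ hσ).trans ?_
  refine ((congrArg φ (B.pr₀_trace Sys.s le_rfl σ)).symm.trans (hφ _)).trans ?_
  rw [B.point_trace]
  exact (trace_det_of_charpoly_eq ((D.point_good l hl hgood hlp A hA).2 σ hσ)).1

end Fermat.Agent.Root.Patched
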