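import Fermat.Agent.Root.Patched.TowerStepTwinLevel
import Fermat.Agent.Root.Patched.TowerEndInput
import Fermat.Agent.Root.Patched.TowerLiftingEnd

/-!
# Existence of Taylor–Wiles towers

The steps at the auxiliary primes over one bottom give the towers for lifting and for lowering.
-/

set_option autoImplicit false

noncomputable section

namespace Fermat.Agent.Root.Patched

open IsLocalRing Polynomial Fermat.Agent.Deformation Fermat.Agent.GammaH Fermat.Agent.TW
  Fermat.Agent.IharaTW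

local notation "ℚbar" => AlgebraicClosure ℚ

variable {O : Type} [CommRing O] [IsDomain O] [IsDiscreteValuationRing O]
  [IsAdicComplete (maximalIdeal O) O] [Finite (ResidueField O)] [CharZero O]
  {p : ℕ} [Fact p.Prime] {W : WeierstrassCurve ℤ} {D : ResidualData O p W}
  {Sys : LocalSystem O D.ρbar p} {St : StdData Sys D.ζ} {N : ℕ}

/-- An identity of traces at stage `0` kills the level there. -/
theorem StepData.levels_sq_trace_eq_zero {hT : TowerHyp D Sys St N} [NeZero (inputN₀ N ∅)]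
    {E : Type} [Fintype E] {P : PointFamily Sys E} {B : BottomRings hT P} {Q : Finset ℕ}
    {hQ : AuxSet Sys Q} [NeZero (inputN₀ N Q)] (S : StepData B hQ)
    (hdist : ∀ q ∈ Q, ∀ A : ValuationSubring ℚbar, A.LiesOverPrime q → ∀ σ : GQ,
      A.IsFrobeniusAt σ q → ∃ α β : ResidueField O, α ≠ β ∧
        (D.ρbar σ).charpoly = (X - C α) * (X - C β))
    {r : ℕ} (hr : Q.card = r) (σ : GQ) (c : O)
    (h : (((plainData hT hQ).stage 0 (Nat.zero_le _)).lift.M σ).trace ^ 2 =
      ((plainData hT hQ).stage 0 (Nat.zero_le _)).ring.alg c) :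
    (S.levels hdist hr 0).act ((S.R.GU.lift.M σ).trace ^ 2 - S.R.GU.J.alg c) = 0 := by
  rw [S.levels_of_le hdist hr 0 (Nat.zero_le _)]
  refine (S.stageRings.level_act_eq_zero_iff hdist hr 0 (Nat.zero_le _) _).2 ?_
  rw [StageRings.member_pr]
  refine (map_sub (S.R.GU.pr (.inl ⟨0, Nat.succ_pos _⟩)) _ _).trans (sub_eq_zero.2 ?_)
  exact ((map_pow _ _ _).trans (congrArg (· ^ 2) (S.pr_trace 0 (Nat.zero_le _) σ))).trans
    (h.trans (RingHom.congr_fun (S.R.GU.pr_alg (.inl ⟨0, Nat.succ_pos _⟩)) c).symm)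

/-- The index-`n` data over the bottom. -/
structure StepAt {hT : TowerHyp D Sys St N} [NeZero (inputN₀ N ∅)] {E : Type} [Fintype E]
    {P : PointFamily Sys E} (B : BottomRings hT P) (Qs : TWPrimes Sys) (n : ℕ)
    [NeZero (inputN₀ N (Qs.Q n))] where
  S : StepData B (Qs.auxSet n)
  LT : TwinLevelData S (Qs.distinct n) (Qs.card n) n

theorem nonempty_stepAt {hT : TowerHyp D Sys St N} [NeZero (inputN₀ N ∅)] {E : Type} [Fintype E]
    {P : PointFamily Sys E} (B : BottomRings hT P) (Qs : TWPrimes Sys) (n : ℕ)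
    [NeZero (inputN₀ N (Qs.Q n))] : Nonempty (StepAt B Qs n) := by
  obtain ⟨S⟩ := nonempty_stepData B (Qs.auxSet n) (Qs.distinct n)
  obtain ⟨T⟩ := nonempty_twinDesc S (Qs.distinct n)
  obtain ⟨LT⟩ := nonempty_twinLevelData S T (Qs.distinct n) (Qs.card n)
    fun q hq => (Qs.one_mod n q hq).1
  exact ⟨⟨S, LT⟩⟩

/-- The tower over a bottom. -/
def BottomRings.tower {hT : TowerHyp D Sys St N} [NeZero (inputN₀ N ∅)] {E : Type} [Fintype E]
    {P : PointFamily Sys E} (B : BottomRings hT P) (Qs : TWPrimes Sys)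
    [∀ n, NeZero (inputN₀ N (Qs.Q n))] (A : ∀ n, StepAt B Qs n) : Tower Sys :=
  Tower.ofSteps (B.towerBottom Qs.r) Qs.Q fun n =>
    (A n).S.towerStep (Qs.distinct n) (Qs.card n) (fun q hq => (Qs.one_mod n q hq).1) (A n).LT

section Over

variable {hT : TowerHyp D Sys St N} [NeZero (inputN₀ N ∅)] {E : Type} [Fintype E]
  {P : PointFamily Sys E} {B : BottomRings hT P} {Qs : TWPrimes Sys}
  [∀ n, NeZero (inputN₀ N (Qs.Q n))] (A : ∀ n, StepAt B Qs n)

/-- Under a point the coordinate `a` is that of the point. -/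
theorem BottomRings.tower_point_flipA (f : Fin Sys.s) (n : ℕ) (e : E) :
    B.point e (((B.tower Qs A).L 0 n).π
        (Sys.flipA f ((B.tower Qs A).U n) ((B.tower Qs A).ℓU n))) =
      Sys.flipA f (TestRing.self O) (P.pt e) := by
  show B.point e (((A n).S.levels (Qs.distinct n) (Qs.card n) 0).π
    (Sys.flipA f (A n).S.R.GU.J ((A n).S.R.G.lift.push (A n).S.R.pU (A n).S.R.pU_red))) = _
  rw [(A n).S.levels_π, (A n).S.flipA_pushU (Qs.distinct n)]
  exact (A n).S.point_flipA (Qs.distinct n) f e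

/-- Stage `0` is killed by `tr(Frob)² - (q + 1)²` without a residual form of level `N / q`. -/
theorem BottomRings.tower_kill (i : Fin Sys.r)
    (hno : ¬ ∃ M', M' ∣ N / Sys.q (.inl i) ∧ ResNewform p W M') (n : ℕ) :
    ((B.tower Qs A).L 0 n).act ((((B.tower Qs A).ℓU n).M (Sys.φ i)).trace ^ 2 -
      ((B.tower Qs A).U n).alg (((Sys.q (.inl i) : O) + 1) ^ 2)) = 0 := by
  have h := (A n).S.levels_sq_trace_eq_zero (Qs.distinct n) (Qs.card n) (Sys.φ i) _
    (inputData_sq_trace_eq hT Qs n ∅ (le_refl Sys.s) i hno)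
  rw [← (A n).S.pushU_eq] at h
  exact h

end Over

/-- **Tower for lowering**: without a residual form of level prime to the avoided prime, stage `0`
is killed by `tr(Frob)² - (q + 1)²`. -/
theorem exists_tower_lowering (hp2 : p ≠ 2) (hW : Semistable W) (hirr : W.ModRepIsIrreducible p)
    (D : ResidualData O p W) (Sys : LocalSystem O D.ρbar p) (St : StdData Sys D.ζ)
    (hs : Sys.s = 0) (N : ℕ) (hN : StageLevel Sys St W N) (Qs : TWPrimes Sys) :
    ∃ T : Tower Sys, T.r = Qs.r ∧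
      (∃ φ : ℕ → ℕ, (∀ n, n ≤ φ n) ∧ ∀ n, T.Q n = Qs.Q (φ n)) ∧
      ∀ i, (¬ ∃ M', M' ∣ N / Sys.q (.inl i) ∧ ResNewform p W M') → ∀ n,
        (T.L 0 n).act (((T.ℓU n).M (Sys.φ i)).trace ^ 2 -
          (T.U n).alg (((Sys.q (.inl i) : O) + 1) ^ 2)) = 0 := by
  have hT : TowerHyp D Sys St N := ⟨hp2, hW, hirr, hN⟩
  have : NeZero (inputN₀ N ∅) := ⟨hT.inputN₀_ne (AuxSet.empty Sys)⟩
  have : ∀ n, NeZero (inputN₀ N (Qs.Q n)) := fun n => ⟨hT.inputN₀_ne (Qs.auxSet n)⟩
  obtain ⟨B⟩ := nonempty_bottomRings hT (PointFamily.none Sys hs)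
  let A := fun n => (nonempty_stepAt B Qs n).some
  exact ⟨B.tower Qs A, rfl, ⟨id, fun n => le_rfl, fun n => rfl⟩,
    fun i hno n => BottomRings.tower_kill A i hno n⟩

/-- **Tower for lifting** from the two clauses at the bottom: the coordinates `a` of the point are
roots of the flip determinants and a point of the top stage gives modularity. -/
theorem tower_lifting_of_end (hT : TowerHyp D Sys St N) (Qs : TWPrimes Sys)
    (P : PointFamily Sys Unit) {C : Prop}
    (hflipA : ∀ f, ∃ j, Sys.flipA f (TestRing.self O) (P.pt ()) = Sys.c f j)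
    (hend : ∀ (_ : NeZero (inputN₀ N ∅)) (B : BottomRings hT P),
      B.ideal Sys.s ≤ RingHom.ker (B.point ()) → C) :
    ∃ T : Tower Sys, T.r = Qs.r ∧
      (∃ φ : ℕ → ℕ, (∀ n, n ≤ φ n) ∧ ∀ n, T.Q n = Qs.Q (φ n)) ∧
      ∃ w : T.R₀.R →+* O, w.comp T.R₀.alg = RingHom.id O ∧
        (∀ f n, ∃ j, w ((T.L 0 n).π (Sys.flipA f (T.U n) (T.ℓU n))) = Sys.c f j) ∧
        (T.I Sys.s ≤ RingHom.ker w → C) := by
  have : NeZero (inputN₀ N ∅) := ⟨hT.inputN₀_ne (AuxSet.empty Sys)⟩
  have : ∀ n, NeZero (inputN₀ N (Qs.Q n)) := fun n => ⟨hT.inputN₀_ne (Qs.auxSet n)⟩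
  obtain ⟨B⟩ := nonempty_bottomRings hT P
  let A := fun n => (nonempty_stepAt B Qs n).some
  refine ⟨B.tower Qs A, rfl, ⟨id, fun n => le_rfl, fun n => rfl⟩, B.point (), B.point_alg (),
    fun f n => ?_, hend inferInstance B⟩
  obtain ⟨j, hj⟩ := hflipA f
  exact ⟨j, (BottomRings.tower_point_flipA A f n ()).trans hj⟩

/-- **Tower for lifting**: the point of `W` is carried along in every `U n`. -/
theorem exists_tower_lifting (hp2 : p ≠ 2) (hW : Semistable W) (hirr : W.ModRepIsIrreducible p)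
    (D : ResidualData O p W) (Sys : LocalSystem O D.ρbar p) (St : StdData Sys D.ζ)
    (N : ℕ) (hN : StageLevel Sys St W N) (Qs : TWPrimes Sys)
    (hpt : ∀ v, Sys.Cond v (TestRing.self O) D.point)
    (havoid : ∀ i, Unipotent (Sys.P (.inl i)) (TestRing.self O) D.point)
    (hbad : ∀ q : ℕ, q.Prime → (q : ℤ) ∣ W.Δ → ∃ v, Sys.q v = q)
    (hflip : ∀ f, ((Sys.q (.inr (.inl f)) : ℕ) : ℤ) ∣ W.Δ) :
    ∃ T : Tower Sys, T.r = Qs.r ∧
      (∃ φ : ℕ → ℕ, (∀ n, n ≤ φ n) ∧ ∀ n, T.Q n = Qs.Q (φ n)) ∧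
      ∃ w : T.R₀.R →+* O, w.comp T.R₀.alg = RingHom.id O ∧
        (∀ f n, ∃ j, w ((T.L 0 n).π (Sys.flipA f (T.U n) (T.ℓU n))) = Sys.c f j) ∧
        (T.I Sys.s ≤ RingHom.ker w →
          W.IsModularModelOfLevel (N * ∏ f, Sys.q (.inr (.inl f)))) := by
  refine tower_lifting_of_end (St := St) ⟨hp2, hW, hirr, hN⟩ Qs
    (PointFamily.point Sys St hpt havoid hbad)
    (fun f => StdData.exists_flipA_point St hp2 f (hflip f) (hpt (.inr (.inl f)))) ?_
  intro _ B hle
  exact BottomRings.isModular_of_ideal_le B hle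

end Fermat.Agent.Root.Patched
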