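import Fermat.Agent.Root.Patched.TowerFeed
import Fermat.Agent.Root.Patched.TowerLifting
import Fermat.Agent.Root.Patched.LoweringSystem
import Fermat.Agent.Root.Patched.TowerTowers
import Fermat.Agent.Root.Patched.ResidualExists
import Fermat.Agent.Root.AuxThreeExists

/-!
# The lowering family

A tower gives a lowering family, hence an avoidance prime can be removed from the level
(`exists_lower_level`).
-/

set_option autoImplicit false

noncomputable section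

open IsLocalRing

namespace Fermat.Agent.Root.Patched

/-- With the type at `p` pinned by the level, the tower gives a lowering family. -/
theorem nonempty_loweringFamily_of_new (W : WeierstrassCurve ℤ) (hW : Semistable W) (p M q : ℕ)
    (hp : p.Prime) (hp2 : p ≠ 2) (hirr : W.ModRepIsIrreducible p)
    (hadj : AdjointIrreducible p W) (hM : Squarefree M) (hq : q.Prime) (hqM : q ∣ M) (hqp : q ≠ p)
    (hpM : p ∣ M → (p : ℤ) ∣ W.Δ) (hunr : UnramifiedMod p W q)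
    (hmin : ∀ l : ℕ, l.Prime → l ∣ M → l ≠ p → (l % p = 1 ∧ FrobScalarMod p W l) ∨
        ¬ UnramifiedMod p W l)
    (h : ResNewform p W M) (hnew : p ∣ M → ∀ M₁, M₁ ∣ M → ResNewform p W M₁ → p ∣ M₁) :
    Nonempty (LoweringFamily (∃ M' : ℕ, M' ∣ M / q ∧ ResNewform p W M')) := by
  have : Fact p.Prime := ⟨hp⟩
  obtain ⟨O, _, _, _, _, _, _, ⟨D⟩⟩ := exists_residualData W hW p hp2
  obtain ⟨X, hX⟩ : ∃ X, (p ≠ 3 ∧ X = 1) ∨ (p = 3 ∧ AuxThree W X ∧ ¬ X ∣ M) := by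
    by_cases h3 : p = 3
    · subst h3
      obtain ⟨r, hr, hrB⟩ := exists_auxThree W hW hirr hadj M.primeFactors
      exact ⟨r, Or.inr ⟨rfl, hr, fun hd =>
        hrB (Nat.mem_primeFactors.2 ⟨hr.prime, hd, hM.ne_zero⟩)⟩⟩
    · exact ⟨1, Or.inl ⟨h3, rfl⟩⟩
  obtain ⟨Sys, St, hs, hN, hout, havoid⟩ :=
    exists_loweringSystem hp2 hW hirr D M hM h hpM hmin hnew X hX
  obtain ⟨Qs, hQs⟩ := exists_twPrimes_frameMaps hp2 hadj D Sys St.exists_p hout
  obtain ⟨T, hTr, hTQ, hkill⟩ := exists_tower_lowering hp2 hW hirr D Sys St hs (M * X) hN Qs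
  obtain ⟨ϖ, hϖ⟩ := IsDiscreteValuationRing.exists_irreducible O
  obtain ⟨hr, ⟨Φ⟩⟩ := hQs T hTr hTQ ϖ hϖ
  obtain ⟨i, hi⟩ := havoid q hq hqM hqp hunr
  refine Tower.nonempty_loweringFamily Φ hr i (by rw [hi]; exact hq.one_lt.ne') fun hg n =>
    hkill i (fun ⟨M', hd, h'⟩ => hg ⟨M', ?_, h'⟩) n
  rw [hi, Nat.mul_comm M X, Nat.mul_div_assoc X hqM] at hd
  rcases hX with ⟨-, rfl⟩ | ⟨rfl, hr', hrM⟩
  · rwa [one_mul] at hd
  · refine ((hr'.prime.coprime_iff_not_dvd).2 ?_).symm.dvd_of_dvd_mul_left hd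
    refine hr'.not_dvd hW ?_ h'
    exact (Nat.squarefree_mul_iff.2 ⟨(hr'.prime.coprime_iff_not_dvd).2
      (fun hd' => hrM (hd'.trans (Nat.div_dvd_of_dvd hqM))), hr'.prime.squarefree,
      hM.squarefree_of_dvd (Nat.div_dvd_of_dvd hqM)⟩).squarefree_of_dvd hd

/-- **Lowering at an avoidance prime.** -/
theorem exists_lower_level (W : WeierstrassCurve ℤ) (hW : Semistable W) (p q : ℕ)
    (hp : p.Prime) (hp2 : p ≠ 2) (hirr : W.ModRepIsIrreducible p)
    (hadj : AdjointIrreducible p W) (hq : q.Prime) (hqp : q ≠ p) (hunr : UnramifiedMod p W q) :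
    ∀ M : ℕ, Squarefree M → q ∣ M → (p ∣ M → (p : ℤ) ∣ W.Δ) →
      (∀ l : ℕ, l.Prime → l ∣ M → l ≠ p → (l % p = 1 ∧ FrobScalarMod p W l) ∨
        ¬ UnramifiedMod p W l) →
      ResNewform p W M → ∃ M' : ℕ, M' ∣ M / q ∧ ResNewform p W M' := by
  intro M
  induction M using Nat.strong_induction_on with
  | _ M ih =>
    intro hM hqM hpM hmin h
    by_cases hnew : p ∣ M → ∀ M₁, M₁ ∣ M → ResNewform p W M₁ → p ∣ M₁
    · exact (nonempty_loweringFamily_of_new W hW p M q hp hp2 hirr hadj hM hq hqM hqp hpM hunr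
        hmin h hnew).some.conclusion
    push Not at hnew
    obtain ⟨hpd, M₁, hd, h₁, hp₁⟩ := hnew
    by_cases hq₁ : q ∣ M₁
    · have hlt : M₁ < M := lt_of_le_of_ne (Nat.le_of_dvd (Nat.pos_of_ne_zero hM.ne_zero) hd)
        fun e => hp₁ (e ▸ hpd)
      obtain ⟨M', hd', h'⟩ := ih M₁ hlt (hM.squarefree_of_dvd hd) hq₁ (fun hc => absurd hc hp₁)
        (fun l hl hlM => hmin l hl (hlM.trans hd)) h₁
      exact ⟨M', hd'.trans (Nat.div_dvd_div hq₁ hd), h'⟩
    · exact ⟨M₁, (hq.coprime_iff_not_dvd.mpr hq₁).symm.dvd_of_dvd_mul_right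
        ((Nat.div_mul_cancel hqM).symm ▸ hd), h₁⟩

end Fermat.Agent.Root.Patched
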