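import Fermat.Agent.Root.Patched.TowerDescent
import Fermat.Agent.TW.AuxPrime
import Fermat.Agent.TW.AuxLevel
import Fermat.Agent.TW.FreeThree

/-!
# Descent of residual eigensystems at auxiliary primes

A residual eigensystem at `Γ_H(L)`, `H` cut out by auxiliary primes, with the Frobenius traces of
`E[p]`, comes from a residual newform whose level divides `L` and is prime to the auxiliary primes
congruent to `1` modulo `p` with distinct Frobenius eigenvalues.  Nothing is assumed on the Hecke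
operator at `p`, and `p` may divide `L` once.
-/

set_option autoImplicit false

noncomputable section

open IsLocalRing Polynomial

namespace Fermat.Agent.Root.Patched

open Fermat.Agent.Deformation Fermat.Agent.GammaH Fermat.Agent.TW

local notation "ℚbar" => AlgebraicClosure ℚ

variable {O : Type} [CommRing O] [IsDomain O] [IsDiscreteValuationRing O]
  [IsAdicComplete (maximalIdeal O) O] [Finite (ResidueField O)] [CharZero O]
  {p : ℕ} [Fact p.Prime] {W : WeierstrassCurve ℤ}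

/-- Diamond operators act trivially in a residual eigensystem at an auxiliary level. -/
theorem theta_diamondR_eq_one {L : ℕ} [NeZero L] (A : AuxPrimes L p) {S : Set ℕ}
    {k : Type} [Field k] [CharP k p] (θ : heckeRing L A.H S →+* k) (b : (ZMod L)ˣ) :
    θ (diamondR b) = 1 := by
  obtain ⟨j, hj⟩ := A.isPGroup (A.cls b)
  have hbH : b ^ p ^ j ∈ A.H := A.cls_eq_one_iff.1 (by rw [map_pow, hj])
  have hpow : ∀ n : ℕ, (diamondR b : heckeRing L A.H S) ^ n = diamondR (b ^ n) := fun n => by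
    induction n with
    | zero => rw [pow_zero, pow_zero, diamondR_one]
    | succ n ih => rw [pow_succ, pow_succ, ih, diamondR_mul]
  have h1 : (θ (diamondR b) - 1) ^ p ^ j = 0 := by
    rw [sub_pow_char_pow, one_pow, ← map_pow, hpow, diamondR_of_mem hbH, map_one, sub_self]
  exact sub_eq_zero.1 (eq_zero_of_pow_eq_zero h1)

/-- **Descent at auxiliary primes.** -/
theorem exists_resNewform_descent (hp2 : p ≠ 2) (hW : Semistable W)
    (hirr : W.ModRepIsIrreducible p) (D : ResidualData O p W) {L : ℕ} [NeZero L]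
    (A : AuxPrimes L p) (hpL : ¬ p ^ 2 ∣ L)
    (h3 : p = 3 → ∃ q : ℕ, q.Prime ∧ q ∣ L ∧ q % 3 = 2) {S : Finset ℕ} {h : ℕ}
    (θ : heckeRing L A.H (↑S : Set ℕ) →+* ResidueField O)
    (hθ : ∀ (l : ℕ) (hl : l.Prime) (hlL : ¬ l ∣ L) (hlS : l ∉ (↑S : Set ℕ)), l ≠ p →
      ∀ P : ValuationSubring ℚbar, P.LiesOverPrime l → ∀ σ : GQ, P.IsFrobeniusAt σ l →
        θ (twistedT h hl hlL hlS) = (D.ρbar σ).trace)
    {K : ℕ} (Qd : Finset ℕ) (hQd : Qd ⊆ A.Q) (hK : L = K * ∏ q ∈ Qd, q) (hpQ : p ∉ Qd)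
    (hone : ∀ q ∈ Qd, p ∣ q - 1)
    (hdist : ∀ q ∈ Qd, ∀ P : ValuationSubring ℚbar, P.LiesOverPrime q → ∀ σ : GQ,
      P.IsFrobeniusAt σ q →
        ∃ α β : ResidueField O, α ≠ β ∧ (D.ρbar σ).charpoly = (X - C α) * (X - C β)) :
    ∃ M₁, M₁ ∣ K ∧ ResNewform p W M₁ := by
  classical
  have hp : p.Prime := Fact.out
  obtain ⟨hfin, hspan⟩ := rhobar_span hp2 hW hirr D
  have := D.charP_residue
  have hH := A.neg_one_mem (hp.odd_of_ne_two hp2)
  have h2 : (2 : ResidueField O) ≠ 0 := by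
    have := ((OrdinaryP.isUnit_two_of_mem hp hp2 D.p_mem).map (residue O)).ne_zero
    rwa [map_ofNat] at this
  -- enlarge the excluded set
  set S' : Finset ℕ := S ∪ L.primeFactors ∪ W.Δ.natAbs.primeFactors ∪ {p} with hS'
  have hsub : (↑S : Set ℕ) ⊆ ↑S' := fun x hx => by simp [hS', Finset.mem_coe.1 hx]
  have hpS' : p ∈ S' := by simp [hS']
  have hLS' : ∀ q : ℕ, q.Prime → q ∣ L → q ∈ S' := fun q hq hqL => by
    simp [hS', hq, hqL, NeZero.ne L]
  have hWS' : ∀ q : ℕ, q.Prime → (q : ℤ) ∣ W.Δ → q ∈ S' := fun q hq hqΔ => by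
    simp [hS', hq, Int.natCast_dvd.mp hqΔ, hW.ne]
  set θ' : heckeRing L A.H (↑S' : Set ℕ) →+* ResidueField O := θ.comp (heckeIncl hsub) with hθ'
  have htr : ∀ (l : ℕ) (hl : l.Prime) (hlL : ¬ l ∣ L) (hlS : l ∉ (↑S' : Set ℕ)),
      ∀ P : ValuationSubring ℚbar, P.LiesOverPrime l → ∀ σ : GQ, P.IsFrobeniusAt σ l →
        θ' (heckeTR hl hlL hlS) = (D.ρbar σ).trace := fun l hl hlL hlS P hP σ hσ => by
    rw [← hθ l hl hlL (fun h => hlS (hsub h)) (fun e => hlS (by simpa [e] using hpS')) P hP σ hσ,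
      twistedT, map_mul, map_pow, theta_diamondR_eq_one A θ, one_pow, one_mul]
    exact congrArg θ (Subtype.ext rfl)
  have hdet : ∀ q : ℕ, q.Prime → q ∉ S' → ∀ P : ValuationSubring ℚbar, P.LiesOverPrime q →
      ∀ σ : GQ, P.IsFrobeniusAt σ q → (D.ρbar σ).det = (q : ResidueField O) :=
    fun q hq hqS P hP σ hσ => by
      have hqp : ¬ q ∣ p := fun hd =>
        hqS (by rw [(Nat.prime_dvd_prime_iff_eq hq hp).1 hd]; exact hpS')
      rw [D.ρbar_eq, ← RingHom.mapMatrix_apply, ← RingHom.map_det,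
        D.det₀ σ q fun μ hμ => Gal.apply_rootOfUnity_of_isFrobeniusAt hσ hq hP hqp hμ, map_natCast]
  -- the auxiliary prime
  obtain ⟨l, hl, hlS, hlL, -, hl1, hlk, hltr⟩ :=
    exists_aux_prime hp (CharP.cast_eq_zero _ p) h2 D.ρbar hfin hspan S' hdet (NeZero.ne L)
  have hlS' : l ∉ (↑S' : Set ℕ) := by simpa using hlS
  have hθl : θ' (heckeTR hl hlL hlS') ≠ ((l + 1 : ℕ) : ResidueField O) := by
    obtain ⟨P, hP⟩ := Gal.exists_liesOverPrime (L := ℚbar) hl
    obtain ⟨σ, hσ⟩ := Gal.exists_isFrobeniusAt hl hP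
    rw [htr l hl hlL hlS' P hP σ hσ, Nat.cast_add, Nat.cast_one, hlk, one_add_one_eq_two]
    exact hltr P hP σ hσ
  have hfree : ∀ g ∈ GammaH.GammaH L (⊤ : Subgroup (ZMod L)ˣ), g ^ 12 = 1 →
      g ∈ GammaH.GammaH L A.H := fun g hg h12 => by
    rcases eq_or_ne p 3 with h | h
    · subst h
      obtain ⟨q, hq, hqL, hq3⟩ := h3 rfl
      have := Fact.mk hq
      exact mem_GammaH_of_pow_twelve_three A.isPGroup hqL hq3 hg h12
    · refine mem_GammaH_of_pow_twelve A.isPGroup (Or.inl ?_) hg h12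
      have := hp.two_le
      rcases (show p = 4 ∨ 5 ≤ p by omega) with h4 | h5
      · exact absurd hp (h4 ▸ by decide)
      · exact h5
  obtain ⟨θ₂, hθ₂⟩ :=
    exists_comp_heckeRes_eq hH D.p_mem θ' hl hlL hlS' hl1 hθl A.isPGroup hfree
  have hval : ∀ (q : ℕ) (hq : q.Prime) (hqL : ¬ q ∣ L) (hqS : q ∉ (↑S' : Set ℕ)),
      θ₂ (heckeTR hq hqL hqS) = ((W.apOfModel q : ℤ) : ResidueField O) := fun q hq hqL hqS => by
    have hqS' : q ∉ S' := by simpa using hqS
    obtain ⟨P, hP⟩ := Gal.exists_liesOverPrime (L := ℚbar) hq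
    obtain ⟨σ, hσ⟩ := Gal.exists_isFrobeniusAt hq hP
    rw [← heckeRes_heckeT (le_top (a := A.H)) hq hqL hqS, ← RingHom.comp_apply, hθ₂,
      htr q hq hqL hqS P hP σ hσ, D.ρbar_eq,
      show ((D.ρ₀ σ).val.map D.ι).trace = D.ι (D.ρ₀ σ).val.trace from
        (AddMonoidHom.map_trace D.ι.toAddMonoidHom _).symm,
      (trace_det_of_charpoly_eq (D.charpoly_ρ₀ hq (fun hd => hqS' (hWS' q hq hd))
        (fun e => hqS' (e ▸ hpS')) hP hσ)).1, map_intCast]
  obtain ⟨M, hML, hMQ, hres⟩ := exists_resNewform_of_character hp2 D hpL hpS' hLS' hWS' θ₂ hval Qd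
    (fun q hq => ⟨A.prime q (hQd hq), fun e => hpQ (e ▸ hq), hone q hq, A.sq q (hQd hq)⟩) hdist
  exact ⟨M, (Nat.Coprime.prod_right fun q hq =>
    (((A.prime q (hQd hq)).coprime_iff_not_dvd).2 (hMQ q hq)).symm).dvd_of_dvd_mul_right (hK ▸ hML),
    hres⟩

end Fermat.Agent.Root.Patched
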