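import Fermat.Agent.Root.Patched.LocalDefs

/-!
# Systems of local models

A `LocalSystem` packages the coordinates at all places of `T`: `r` Ihara avoidance places (unipotent
or character type on inertia), `s` flip places (coordinates `a`, `x_j`, relations `x_j (a - c_j)`
and `x_j x_l`, frame coordinates) and `t` plain places (free coordinates).
-/

set_option autoImplicit false

noncomputable section

open IsLocalRing Polynomial

namespace Fermat.Agent.Root.Patched

open Fermat.Agent.Deformation Fermat.Agent.LocalRing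

local notation "ℚbar" => AlgebraicClosure ℚ

section Defs

variable {O : Type} [CommRing O] [IsLocalRing O] {ρbar : GQ →* M2 (ResidueField O)}

/-- `cond` is preserved by pushforward and by strict conjugation. -/
structure CondClosed (cond : ∀ S : TestRing O, Lift ρbar S → Prop) : Prop where
  push : ∀ (S S' : TestRing O) (φ : S.R →+* S'.R), φ.comp S.alg = S'.alg →
    S'.red.comp φ = S.red → ∀ (r : Lift ρbar S) (r' : Lift ρbar S'),
      (∀ g, r'.M g = (r.M g).map φ) → cond S r → cond S' r'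
  conj : ∀ (S : TestRing O) (r r' : Lift ρbar S) (U : (M2 S.R)ˣ), (U : M2 S.R).map S.red = 1 →
    (∀ g, r'.M g = (U : M2 S.R) * r.M g * (↑U⁻¹ : M2 S.R)) → cond S r → cond S r'

theorem condClosed_detCyclotomic (p : ℕ) :
    CondClosed (fun (S : TestRing O) (r : Lift ρbar S) => DetCyclotomic p S r) where
  push S S' φ _ _ r r' h hdet n σ a ha := by
    have h0 := Ideal.mem_map_of_mem φ (hdet n σ a ha)
    rw [Ideal.map_span, Set.image_singleton, map_natCast, map_sub, map_natCast, RingHom.map_det,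
      RingHom.mapMatrix_apply, ← h σ] at h0
    exact h0
  conj S r r' U _ h hdet n σ a ha := by
    rw [h σ, Matrix.det_units_conj]
    exact hdet n σ a ha

end Defs

variable (O : Type) [CommRing O] [IsDomain O] [IsDiscreteValuationRing O]

/-- The local models at all places of `T`. -/
structure LocalSystem (ρbar : GQ →* M2 (ResidueField O)) (p : ℕ) where
  (r s t : ℕ)
  q : Fin r ⊕ (Fin s ⊕ Fin t) → ℕ
  q_prime : ∀ v, (q v).Prime
  q_injective : Function.Injective q
  P : Fin r ⊕ (Fin s ⊕ Fin t) → ValuationSubring ℚbar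
  P_over : ∀ v, (P v).LiesOverPrime (q v)
  isUnit_two : IsUnit (2 : O)
  /-- `(q - 1) / (q + 1)` at an Ihara avoidance place -/
  κ : Fin r → O
  κ_mem : ∀ i, κ i ∈ maximalIdeal O
  /-- Frobenius at an Ihara avoidance place -/
  φ : Fin r → GQ
  /-- the tame generator at an Ihara avoidance place -/
  τ : Fin r → GQ
  /-- one less than the number of classes of inertia characters -/
  nb : ℕ
  ζ : Fin (nb + 1) → O
  ζi : Fin (nb + 1) → O
  ε : Fin (nb + 1) → O
  ε_mem : ∀ b, ε b ∈ maximalIdeal O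
  ε_ne : ∀ b, ε b ≠ 0
  ε_eq : ∀ b, 2 * ε b = ζ b - ζi b
  avoidC : ∀ i, Coords ρbar (P (.inl i)) (Bool × Fin 3) fun S ℓ => DetCyclotomic p S ℓ
  avoid_unip : ∀ i S ℓ, DetCyclotomic p S ℓ → Unipotent (P (.inl i)) S ℓ →
    let x : Fin 3 → S.R := fun u => (avoidC i).val S ℓ (false, u)
    let N : Fin 3 → S.R := fun u => (avoidC i).val S ℓ (true, u)
    qf N = 0 ∧ (∀ u, br x N u = S.alg (2 * κ i) * N u) ∧
      (qf x - S.alg (κ i * κ i)) * ((ℓ.M (φ i)).trace ^ 2) =
        (ℓ.M (φ i)).trace ^ 2 * (1 - S.alg (κ i * κ i)) - 4 * (q (.inl i) : S.R)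
  avoid_char : ∀ i b S ℓ, DetCyclotomic p S ℓ → CharInertia (τ i) (ζ b) (ζi b) S ℓ →
    let x : Fin 3 → S.R := fun u => (avoidC i).val S ℓ (false, u)
    let N : Fin 3 → S.R := fun u => (avoidC i).val S ℓ (true, u)
    4 * qf N = S.alg ((ζ b - ζi b) ^ 2) ∧ ∀ u, br x N u = 0
  /-- the number of Steinberg components at a flip place -/
  m : Fin s → ℕ
  c : ∀ f, Fin (m f) → O
  c_mem : ∀ f j, c f j ∈ maximalIdeal O
  c_injective : ∀ f, Function.Injective (c f)
  /-- the number of frame coordinates at a flip place -/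
  k : Fin s → ℕ
  flipCond : Fin s → ∀ S : TestRing O, Lift ρbar S → Prop
  flipClosed : ∀ f, CondClosed (flipCond f)
  flipC : ∀ f, Coords ρbar (P (.inr (.inl f))) (Option (Fin (m f)) ⊕ Fin (k f)) (flipCond f)
  flip_rel : ∀ f S ℓ, flipCond f S ℓ →
    let a := (flipC f).val S ℓ (.inl none)
    let x : Fin (m f) → S.R := fun j => (flipC f).val S ℓ (.inl (some j))
    (∀ j, (x j * (a - S.alg (c f j))) ^ 2 = 0) ∧ ∀ j l, j ≠ l → x j * x l = 0
  a_conj : ∀ f (S : TestRing O) (ℓ ℓ' : Lift ρbar S) (U : (M2 S.R)ˣ),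
    (U : M2 S.R).map S.red = 1 → (∀ g, ℓ'.M g = (U : M2 S.R) * ℓ.M g * (↑U⁻¹ : M2 S.R)) →
      flipCond f S ℓ → (flipC f).val S ℓ' (.inl none) = (flipC f).val S ℓ (.inl none)
  /-- the trace of the Hecke operator at a flip place, as a series in `a` -/
  Tr : Fin s → MvPowerSeries Unit O
  det_eq : ∀ f, ∃ u : MvPowerSeries Unit O, IsUnit u ∧
    MvPowerSeries.C (((q (.inr (.inl f)) : O) + 1) ^ 2) - Tr f ^ 2 =
      u * ∏ j, (MvPowerSeries.X () - MvPowerSeries.C (c f j))
  /-- the number of coordinates at a plain place -/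
  l : Fin t → ℕ
  plainCond : Fin t → ∀ S : TestRing O, Lift ρbar S → Prop
  plainClosed : ∀ u, CondClosed (plainCond u)
  plainC : ∀ u, Coords ρbar (P (.inr (.inr u))) (Fin (l u)) (plainCond u)
  count : ∑ f, k f + ∑ u, l u ≤ 2 * s + 3 * t + 1

variable {O} {ρbar : GQ →* M2 (ResidueField O)} {p : ℕ} (Sys : LocalSystem O ρbar p)

/-- The places. -/
abbrev LocalSystem.Place : Type := Fin Sys.r ⊕ (Fin Sys.s ⊕ Fin Sys.t)

/-- The coordinates at a place. -/
abbrev LocalSystem.Var : Sys.Place → Type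
  | .inl _ => Bool × Fin 3
  | .inr (.inl f) => Option (Fin (Sys.m f)) ⊕ Fin (Sys.k f)
  | .inr (.inr u) => Fin (Sys.l u)

instance (v : Sys.Place) : Fintype (Sys.Var v) := by
  rcases v with i | f | u <;> infer_instance

/-- The condition at a place. -/
def LocalSystem.Cond : Sys.Place → ∀ S : TestRing O, Lift ρbar S → Prop
  | .inl _ => fun S ℓ => DetCyclotomic p S ℓ
  | .inr (.inl f) => Sys.flipCond f
  | .inr (.inr u) => Sys.plainCond u

theorem LocalSystem.closed : ∀ v, CondClosed (Sys.Cond v)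
  | .inl _ => condClosed_detCyclotomic p
  | .inr (.inl f) => Sys.flipClosed f
  | .inr (.inr u) => Sys.plainClosed u

/-- The coordinate functions at a place. -/
def LocalSystem.coords : ∀ v, Coords ρbar (Sys.P v) (Sys.Var v) (Sys.Cond v)
  | .inl i => Sys.avoidC i
  | .inr (.inl f) => Sys.flipC f
  | .inr (.inr u) => Sys.plainC u

end Fermat.Agent.Root.Patched
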