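import Fermat.Agent.FlatBound.OfHopf
import Fermat.Agent.FlatModel.FlatAt
import Fermat.Agent.Root.Patched.LocalSystem

/-!
# Flatness passes to pushforwards and strict conjugates

Relations between Galois elements on a level of the source hold on the target's, so the flat model
of the former gives one of the latter.
-/

set_option autoImplicit false

noncomputable section

open IsLocalRing

namespace Fermat.Agent.Root.Patched

open Fermat.Agent.Deformation Fermat.Agent.FlatModel

theorem mem_smul_top_iff {A : Type} [CommRing A] (I : Ideal A) (v : Fin 2 → A) :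
    v ∈ I • (⊤ : Submodule A (Fin 2 → A)) ↔ ∀ i, v i ∈ I := by
  constructor
  · intro h
    refine Submodule.smul_induction_on h (fun a ha w _ i => ?_) fun x y hx hy i =>
      add_mem (hx i) (hy i)
    exact Ideal.mul_mem_right _ _ ha
  · intro h
    rw [pi_eq_sum_univ v]
    exact Submodule.sum_mem _ fun i _ => Submodule.smul_mem_smul (h i) Submodule.mem_top

variable {A A' : Type} [CommRing A] [IsLocalRing A] [CommRing A'] [IsLocalRing A']

/-- Scalars on a level, as additive endomorphisms. -/
abbrev levelScalar (I : Ideal A) : A →+*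
    AddMonoid.End ((Fin 2 → A) ⧸ (I • (⊤ : Submodule A (Fin 2 → A)))) :=
  Module.toAddMonoidEnd A _

/-- The Galois action on a level. -/
abbrev matLevelEnd (M : GQ →* M2 A) (hM : MatCont M) (I : Ideal A) :
    GQ →* AddMonoid.End ((Fin 2 → A) ⧸ (I • (⊤ : Submodule A (Fin 2 → A)))) :=
  FlatModel.levelEnd (ofMatrix M hM) I

theorem finite_matLevel (M : GQ →* M2 A) (hM : MatCont M) (I : Ideal A) [Finite (A ⧸ I)] :
    Finite ((Fin 2 → A) ⧸ (I • (⊤ : Submodule A (Fin 2 → A)))) :=
  FlatModel.finite_level (ofMatrix M hM) I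

/-- **Flatness is inherited along transport of relations.** -/
theorem isFlatAt_of_relations {p : ℕ} [Fact p.Prime] (φ : A →+* A')
    (hfin : Finite (ResidueField A')) (M : GQ →* M2 A) (hM : MatCont M) (M' : GQ →* M2 A')
    (hM' : MatCont M') (hflat : (ofMatrix M hM).IsFlatAt p)
    (hrel : ∀ (I' : Ideal A') (s : Finset (A × GQ)) (c : A × GQ → A),
      (∀ i j, (∑ q ∈ s, c q • M q.2) i j ∈ I'.comap φ) →
        ∀ i j, (∑ q ∈ s, φ (c q) • M' q.2) i j ∈ I') :
    (ofMatrix M' hM').IsFlatAt p := by
  classical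
  refine ⟨hfin, fun I' _ => ?_⟩
  set I := I'.comap φ
  have : Finite (A ⧸ I) := Finite.of_injective (Ideal.quotientMap I' φ le_rfl)
    Ideal.quotientMap_injective
  have := finite_matLevel M hM I
  have := finite_matLevel M' hM' I'
  obtain ⟨MM⟩ := FlatBound.exists_model_of_isFlatAt hflat I
    (matLevelEnd M hM I) fun _ _ => rfl
  suffices hQ : ∀ (s : Finset (A × GQ)) (c : A × GQ → A),
      ∑ q ∈ s, levelScalar I (c q) * matLevelEnd M hM I q.2 = 0 →
        ∑ q ∈ s, ((levelScalar I').comp φ) (c q) *
          matLevelEnd M' hM' I' q.2 = 0 by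
    obtain ⟨MQ⟩ := nonempty_model_of_relations (matLevelEnd M hM I)
      (matLevelEnd M' hM' I') (levelScalar I) ((levelScalar I').comp φ) MM
      (fun a σ => AddMonoidHom.ext fun x =>
        (LinearMap.map_smul ((ofMatrix M hM).levelAction I σ) a x).symm)
      (fun a σ => AddMonoidHom.ext fun x =>
        (LinearMap.map_smul ((ofMatrix M' hM').levelAction I' σ) (φ a) x).symm) hQ
    exact MQ.exists_hopfAlgebra
  intro s c hc
  have key : ∀ (B : Type) [CommRing B] [IsLocalRing B] (J : Ideal B) (N : GQ →* M2 B)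
      (hN : MatCont N) (d : A × GQ → B) (v : Fin 2 → B),
      (∑ q ∈ s, levelScalar J (d q) * matLevelEnd N hN J q.2)
          (Submodule.Quotient.mk v) =
        Submodule.Quotient.mk ((∑ q ∈ s, d q • N q.2).mulVec v) := by
    intro B _ _ J N hN d v
    rw [Matrix.sum_mulVec, ← Submodule.mkQ_apply, ← Submodule.mkQ_apply, map_sum]
    refine (AddMonoidHom.finsetSum_apply _ _ _).trans ?_
    exact Finset.sum_congr rfl fun q _ => by
      rw [Matrix.smul_mulVec, map_smul]
      rfl
  refine AddMonoidHom.ext fun x => ?_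
  obtain ⟨v, rfl⟩ := Submodule.Quotient.mk_surjective _ x
  refine (key A' I' M' hM' (fun q => φ (c q)) v).trans ((Submodule.Quotient.mk_eq_zero _).mpr ?_)
  rw [mem_smul_top_iff]
  have hmem := hrel I' s c fun i j => by
    have h1 := DFunLike.congr_fun hc (Submodule.Quotient.mk (Pi.single j 1))
    rw [show ((0 : AddMonoid.End _) (Submodule.Quotient.mk (Pi.single j 1) :
      (Fin 2 → A) ⧸ (I • (⊤ : Submodule A (Fin 2 → A))))) = 0 from rfl] at h1
    have h2 := (Submodule.Quotient.mk_eq_zero _).mp ((key A I M hM c (Pi.single j 1)).symm.trans h1)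
    have h3 := (mem_smul_top_iff I _).mp h2 i
    rwa [Matrix.mulVec_single_one, Matrix.col_apply] at h3
  intro i
  simp only [Matrix.mulVec, dotProduct]
  exact Ideal.sum_mem _ fun j _ => Ideal.mul_mem_right _ _ (hmem i j)

variable {O : Type} [CommRing O] [IsLocalRing O]
  {ρbar : GQ →* M2 (ResidueField O)}

/-- **Flat shape is closed** under pushforward and strict conjugation. -/
theorem condClosed_flatShape {p : ℕ} [Fact p.Prime] :
    CondClosed (fun (S : TestRing O) (r : Lift ρbar S) => FlatShape p S r) where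
  push S S' φ _ _ r r' h hflat := by
    refine isFlatAt_of_relations φ inferInstance r.M r.cont r'.M r'.cont hflat
      fun I' s c hc i j => ?_
    have e : (∑ q ∈ s, φ (c q) • r'.M q.2) = (∑ q ∈ s, c q • r.M q.2).map φ := by
      rw [← RingHom.mapMatrix_apply, map_sum]
      refine Finset.sum_congr rfl fun q _ => ?_
      rw [h, RingHom.mapMatrix_apply]
      exact Matrix.ext fun a b => by simp
    rw [e]
    exact hc i j
  conj S r r' U _ h hflat := by
    refine isFlatAt_of_relations (RingHom.id _) inferInstance r.M r.cont r'.M r'.cont hflat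
      fun I' s c hc i j => ?_
    have e : (∑ q ∈ s, c q • r'.M q.2) =
        (U : M2 S.R) * (∑ q ∈ s, c q • r.M q.2) * (↑U⁻¹ : M2 S.R) := by
      rw [Finset.mul_sum, Finset.sum_mul]
      exact Finset.sum_congr rfl fun q _ => by rw [h, mul_smul_comm, smul_mul_assoc]
    show (∑ q ∈ s, c q • r'.M q.2) i j ∈ I'
    rw [e, Matrix.mul_apply]
    refine Ideal.sum_mem _ fun b _ => Ideal.mul_mem_right _ _ ?_
    rw [Matrix.mul_apply]
    exact Ideal.sum_mem _ fun a _ => Ideal.mul_mem_left _ _ (hc a b)

end Fermat.Agent.Root.Patched
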