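import Fermat.Agent.IharaTW.LevelMaps

/-!
# Adding frames to levels

An unframed level over `Λ₀` for a ring `R₀` becomes, after adjoining frame variables `Y`, a level
over `Λ ↠ Λ₀⟦Y⟧` for any `A ↠ R₀⟦Y⟧`: the action is the unframed one coefficient by coefficient.
Congruences and degeneracy data are inherited.
-/

set_option autoImplicit false

noncomputable section

namespace Fermat.Agent.Patching

/-- The power series with given coefficients. -/
def seriesOf {Y R : Type*} (c : (Y →₀ ℕ) → R) : MvPowerSeries Y R := c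

@[simp]
theorem coeff_seriesOf {Y R : Type*} [Semiring R] (c : (Y →₀ ℕ) → R) (α : Y →₀ ℕ) :
    MvPowerSeries.coeff α (seriesOf c) = c α := rfl

section CoefMatrix

variable {Y R S : Type*} [CommRing R] [CommRing S] {d : ℕ} (φ : R →+* Matrix (Fin d) (Fin d) S)

/-- A matrix valued homomorphism, coefficient by coefficient. -/
def coefMatrix : MvPowerSeries Y R →+* Matrix (Fin d) (Fin d) (MvPowerSeries Y S) where
  toFun f := Matrix.of fun i j => seriesOf fun α => φ (MvPowerSeries.coeff α f) i j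
  map_one' := by
    classical
    refine Matrix.ext fun i j => MvPowerSeries.ext fun α => ?_
    show φ (MvPowerSeries.coeff α 1) i j = _
    rw [MvPowerSeries.coeff_one, Matrix.one_apply]
    by_cases hij : i = j <;> by_cases hα : α = 0 <;>
      simp [hij, hα, MvPowerSeries.coeff_one]
  map_mul' f g := by
    classical
    refine Matrix.ext fun i j => MvPowerSeries.ext fun α => ?_
    show φ (MvPowerSeries.coeff α (f * g)) i j = _
    rw [MvPowerSeries.coeff_mul, map_sum, Matrix.sum_apply, Matrix.mul_apply, map_sum]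
    simp only [MvPowerSeries.coeff_mul, map_mul, Matrix.mul_apply]
    rw [Finset.sum_comm]
    rfl
  map_zero' := Matrix.ext fun i j => MvPowerSeries.ext fun α => by
    show φ (MvPowerSeries.coeff α 0) i j = _
    simp
  map_add' f g := Matrix.ext fun i j => MvPowerSeries.ext fun α => by
    show φ (MvPowerSeries.coeff α (f + g)) i j = _
    rw [map_add, map_add]
    rfl

theorem coeff_coefMatrix (f : MvPowerSeries Y R) (i j : Fin d) (α : Y →₀ ℕ) :
    MvPowerSeries.coeff α (coefMatrix φ f i j) = φ (MvPowerSeries.coeff α f) i j := rfl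

end CoefMatrix

namespace Level

variable {Λ Λ₀ A R₀ R : Type*} [CommRing Λ] [CommRing Λ₀] [CommRing A] [CommRing R₀] [CommRing R]
  {Y : Type*} {𝔞₀ : Ideal Λ₀} {I : Ideal R} {d : ℕ}
  (L : Level Λ₀ R₀ R 𝔞₀ I d) {e : Λ →+* MvPowerSeries Y Λ₀} (he : Function.Surjective e)
  {F : A →+* MvPowerSeries Y R₀} (hF : Function.Surjective F)

include he in
theorem map_mk_comp_surjective :
    Function.Surjective ((MvPowerSeries.map (σ := Y) (Ideal.Quotient.mk L.c)).comp e) := by
  intro f
  obtain ⟨x, hx⟩ := he (seriesOf fun α =>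
    (Ideal.Quotient.mk_surjective (MvPowerSeries.coeff α f)).choose)
  refine ⟨x, MvPowerSeries.ext fun α => ?_⟩
  rw [RingHom.comp_apply, hx, MvPowerSeries.coeff_map, coeff_seriesOf]
  exact (Ideal.Quotient.mk_surjective (MvPowerSeries.coeff α f)).choose_spec

/-- **The framed level.** -/
def frame : Level Λ A R (𝔞₀.comap (MvPowerSeries.constantCoeff.comp e)) I d where
  c := RingHom.ker ((MvPowerSeries.map (σ := Y) (Ideal.Quotient.mk L.c)).comp e)
  act := ((RingHom.quotientKerEquivOfSurjective (L.map_mk_comp_surjective he)).symm.toRingHom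
    |>.mapMatrix).comp ((coefMatrix L.act).comp F)
  π := L.π.comp (MvPowerSeries.constantCoeff.comp F)
  π_surjective r := by
    obtain ⟨b, rfl⟩ := L.π_surjective r
    obtain ⟨a, ha⟩ := hF (MvPowerSeries.C b)
    exact ⟨a, by simp [ha]⟩
  exists_scalar l := by
    classical
    choose b hb hb0 using fun α => L.exists_scalar (MvPowerSeries.coeff α (e l))
    obtain ⟨a, ha⟩ := hF (seriesOf b)
    refine ⟨a, ?_, fun hl => ?_⟩
    · refine Matrix.ext fun i j => ?_
      rw [RingHom.comp_apply, RingHom.comp_apply, RingHom.mapMatrix_apply, Matrix.map_apply,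
        RingEquiv.toRingHom_eq_coe, RingHom.coe_coe, RingEquiv.symm_apply_eq, ha]
      refine MvPowerSeries.ext fun α => ?_
      rw [coeff_coefMatrix, coeff_seriesOf, Matrix.scalar_apply, Matrix.diagonal_apply]
      refine (congrFun (congrFun (hb α) i) j).trans ?_
      rw [Matrix.scalar_apply, Matrix.diagonal_apply]
      split_ifs
      · rw [RingHom.quotientKerEquivOfSurjective_apply_mk, RingHom.comp_apply,
          MvPowerSeries.coeff_map]
      · simp
    · rw [RingHom.comp_apply, RingHom.comp_apply, ha,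
        ← MvPowerSeries.coeff_zero_eq_constantCoeff_apply]
      rw [coeff_seriesOf]
      refine hb0 0 ?_
      rw [MvPowerSeries.coeff_zero_eq_constantCoeff_apply]
      exact hl
  entry_mem a ha i j := by
    classical
    set θ := RingHom.quotientKerEquivOfSurjective (L.map_mk_comp_surjective he)
    have h0 := L.entry_mem _ ha i j
    rw [Ideal.mem_map_iff_of_surjective _ Ideal.Quotient.mk_surjective] at h0
    obtain ⟨z, hz, hzeq⟩ := h0
    -- a preimage of the entry whose constant coefficient is `z`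
    let f : MvPowerSeries Y Λ₀ := seriesOf fun α => if α = 0 then z else
      (Ideal.Quotient.mk_surjective (L.act (MvPowerSeries.coeff α (F a)) i j)).choose
    obtain ⟨x, hx⟩ := he f
    have hxc : x ∈ 𝔞₀.comap (MvPowerSeries.constantCoeff.comp e) := by
      rw [Ideal.mem_comap, RingHom.comp_apply, hx,
        ← MvPowerSeries.coeff_zero_eq_constantCoeff_apply]
      simpa [f] using hz
    have hmk := Ideal.mem_map_of_mem (Ideal.Quotient.mk
      (RingHom.ker ((MvPowerSeries.map (σ := Y) (Ideal.Quotient.mk L.c)).comp e))) hxc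
    convert hmk using 1
    rw [RingHom.comp_apply, RingHom.comp_apply, RingHom.mapMatrix_apply, Matrix.map_apply,
      RingEquiv.toRingHom_eq_coe, RingHom.coe_coe, RingEquiv.symm_apply_eq,
      RingHom.quotientKerEquivOfSurjective_apply_mk, RingHom.comp_apply, hx]
    refine MvPowerSeries.ext fun α => ?_
    rw [coeff_coefMatrix, MvPowerSeries.coeff_map]
    simp only [f, coeff_seriesOf]
    split_ifs with hα
    · rw [hzeq, hα, MvPowerSeries.coeff_zero_eq_constantCoeff_apply]
      rfl
    · exact (Ideal.Quotient.mk_surjective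
        (L.act (MvPowerSeries.coeff α (F a)) i j)).choose_spec.symm

theorem mem_frame_c_iff {x : Λ} :
    x ∈ (L.frame he hF).c ↔ ∀ α, MvPowerSeries.coeff α (e x) ∈ L.c := by
  show x ∈ RingHom.ker _ ↔ _
  rw [RingHom.mem_ker, MvPowerSeries.ext_iff]
  simp [Ideal.Quotient.eq_zero_iff_mem]

/-- The coefficients of the framed matrices. -/
theorem coeff_mat_frame_sub_mem (a : A) (i j : Fin d) (α : Y →₀ ℕ) :
    MvPowerSeries.coeff α (e ((L.frame he hF).mat a i j)) -
      L.mat (MvPowerSeries.coeff α (F a)) i j ∈ L.c := by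
  have h := congrArg (RingHom.quotientKerEquivOfSurjective (L.map_mk_comp_surjective he))
    ((L.frame he hF).mk_mat a i j)
  have e1 : RingHom.quotientKerEquivOfSurjective (L.map_mk_comp_surjective he)
      ((L.frame he hF).act a i j) = coefMatrix L.act (F a) i j := by
    show RingHom.quotientKerEquivOfSurjective (L.map_mk_comp_surjective he)
      ((RingHom.quotientKerEquivOfSurjective (L.map_mk_comp_surjective he)).symm
        (coefMatrix L.act (F a) i j)) = _
    rw [RingEquiv.apply_symm_apply]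
  rw [e1] at h
  rw [← Ideal.Quotient.mk_eq_mk_iff_sub_mem, L.mk_mat, ← coeff_coefMatrix L.act, ← h]
  exact (MvPowerSeries.coeff_map _ _ _).symm

/-- Membership in sums of framed ideals is checked on coefficients. -/
theorem mem_span_sup_frame_c {A' R₀' R' : Type*} [CommRing A'] [CommRing R₀'] [CommRing R']
    {𝔞₀' : Ideal Λ₀} {I' : Ideal R'} {d' : ℕ} (L' : Level Λ₀ R₀' R' 𝔞₀' I' d')
    {F' : A' →+* MvPowerSeries Y R₀'}
    (hF' : Function.Surjective F') {l : Λ} {l₀ : Λ₀} (hl : e l = MvPowerSeries.C l₀) {x : Λ}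
    (hx : ∀ α, MvPowerSeries.coeff α (e x) ∈ Ideal.span {l₀} ⊔ L.c ⊔ L'.c) :
    x ∈ Ideal.span {l} ⊔ (L.frame he hF).c ⊔ (L'.frame he hF').c := by
  have hdec : ∀ α, ∃ u v w : Λ₀, v ∈ L.c ∧ w ∈ L'.c ∧
      u * l₀ + v + w = MvPowerSeries.coeff α (e x) := by
    intro α
    obtain ⟨s, hs, w, hw, hsw⟩ := Submodule.mem_sup.mp (hx α)
    obtain ⟨t, ht, v, hv, htv⟩ := Submodule.mem_sup.mp hs
    obtain ⟨u, rfl⟩ := Ideal.mem_span_singleton'.mp ht
    exact ⟨u, v, w, hv, hw, by rw [htv, hsw]⟩
  choose u v w hv hw huvw using hdec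
  obtain ⟨u', hu'⟩ := he (seriesOf u)
  obtain ⟨v', hv'⟩ := he (seriesOf v)
  have hw' : ∀ α, MvPowerSeries.coeff α (e (x - u' * l - v')) = w α := fun α => by
    rw [map_sub, map_sub, map_sub, map_sub, map_mul, hl, MvPowerSeries.coeff_mul_C, hu', hv',
      coeff_seriesOf, coeff_seriesOf, ← huvw α]
    ring
  rw [show x = u' * l + v' + (x - u' * l - v') by ring]
  refine add_mem (add_mem (Ideal.mem_sup_left (Ideal.mem_sup_left ?_)) ?_) ?_
  · exact Ideal.mul_mem_left _ _ (Ideal.mem_span_singleton_self l)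
  · refine Ideal.mem_sup_left (Ideal.mem_sup_right ((L.mem_frame_c_iff he hF).mpr fun α => ?_))
    rw [hv', coeff_seriesOf]
    exact hv α
  · exact Ideal.mem_sup_right ((L'.mem_frame_c_iff he hF').mpr fun α => by rw [hw' α]; exact hw α)

/-- **Congruences are inherited by frames.** -/
theorem frame_congr {A' R₀' R' : Type*} [CommRing A'] [CommRing R₀'] [CommRing R']
    {I' : Ideal R'} (L' : Level Λ₀ R₀' R' 𝔞₀ I' d) {F' : A' →+* MvPowerSeries Y R₀'}
    (hF' : Function.Surjective F') {l : Λ} {l₀ : Λ₀} (hl : e l = MvPowerSeries.C l₀) {a : A}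
    {a' : A'} {i j : Fin d}
    (h : ∀ α, L.mat (MvPowerSeries.coeff α (F a)) i j - L'.mat (MvPowerSeries.coeff α (F' a')) i j
      ∈ Ideal.span {l₀} ⊔ L.c ⊔ L'.c) :
    (L.frame he hF).mat a i j - (L'.frame he hF').mat a' i j ∈
      Ideal.span {l} ⊔ (L.frame he hF).c ⊔ (L'.frame he hF').c := by
  refine L.mem_span_sup_frame_c he hF L' hF' hl fun α => ?_
  rw [map_sub, map_sub]
  have h1 := Ideal.mem_sup_left (T := L'.c)
    (Ideal.mem_sup_right (S := Ideal.span {l₀}) (L.coeff_mat_frame_sub_mem he hF a i j α))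
  have h2 := Ideal.mem_sup_right (S := Ideal.span {l₀} ⊔ L.c)
    (L'.coeff_mat_frame_sub_mem he hF' a' i j α)
  have := add_mem (sub_mem h1 h2) (h α)
  convert this using 1
  ring

end Level

end Fermat.Agent.Patching

namespace Fermat.Agent.IharaTW

open Patching

variable {Λ Λ₀ A R₀ R R' : Type*} [CommRing Λ] [CommRing Λ₀] [CommRing A] [CommRing R₀]
  [CommRing R] [CommRing R'] {Y : Type*} {𝔞₀ 𝔞₀' : Ideal Λ₀} {I : Ideal R} {I' : Ideal R'}
  {d d' : ℕ}

/-- The coefficient of an entrywise image. -/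
theorem coeff_map_mul {ι κ μ : Type*} [Fintype κ] {e : Λ →+* MvPowerSeries Y Λ₀}
    (M : Matrix ι κ Λ) (N : Matrix κ μ Λ) (N₀ : Matrix κ μ Λ₀)
    (hN : ∀ i j, e (N i j) = MvPowerSeries.C (N₀ i j)) (α : Y →₀ ℕ) (i : ι) (j : μ) :
    MvPowerSeries.coeff α (e ((M * N) i j)) =
      ((M.map fun x => MvPowerSeries.coeff α (e x)) * N₀) i j := by
  simp only [Matrix.mul_apply, map_sum, map_mul, Matrix.map_apply, hN, MvPowerSeries.coeff_mul_C]

/-- The coefficient of an entrywise image, constants on the left. -/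
theorem coeff_mul_map {ι κ μ : Type*} [Fintype κ] {e : Λ →+* MvPowerSeries Y Λ₀}
    (N : Matrix ι κ Λ) (N₀ : Matrix ι κ Λ₀) (M : Matrix κ μ Λ)
    (hN : ∀ i j, e (N i j) = MvPowerSeries.C (N₀ i j)) (α : Y →₀ ℕ) (i : ι) (j : μ) :
    MvPowerSeries.coeff α (e ((N * M) i j)) =
      (N₀ * M.map fun x => MvPowerSeries.coeff α (e x)) i j := by
  simp only [Matrix.mul_apply, map_sum, map_mul, Matrix.map_apply, hN, MvPowerSeries.coeff_C_mul]

/-- **Degeneracy data are inherited by frames.** -/
theorem nonempty_flipLevel_frame (L : Level Λ₀ R₀ R 𝔞₀ I d) (L' : Level Λ₀ R₀ R' 𝔞₀' I' d')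
    {e : Λ →+* MvPowerSeries Y Λ₀} (he : Function.Surjective e) {F : A →+* MvPowerSeries Y R₀}
    (hF : Function.Surjective F) {J₀ : Ideal R₀} {δ₀ : Matrix (Fin 2) (Fin 2) R₀}
    (D : FlipLevel L L' J₀ δ₀) {J : Ideal A} (hJ : ∀ a ∈ J, ∀ α, MvPowerSeries.coeff α (F a) ∈ J₀)
    {δ : Matrix (Fin 2) (Fin 2) A} (hδ : ∀ i j, F (δ i j) = MvPowerSeries.C (δ₀ i j)) :
    Nonempty (FlipLevel (L.frame he hF) (L'.frame he hF) J δ) := by
  classical
  choose s hs using fun x : Λ₀ => he (MvPowerSeries.C x)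
  let Φ : (Y →₀ ℕ) → Λ → Λ₀ := fun α x => MvPowerSeries.coeff α (e x)
  have crit : ∀ x, (∀ α, Φ α x ∈ L.c ⊔ L'.c) → x ∈ (L.frame he hF).c ⊔ (L'.frame he hF).c := by
    intro x hx
    have := L.mem_span_sup_frame_c he hF L' hF (l := 0) (l₀ := 0) (by simp) (x := x) (fun α =>
      (sup_le (le_sup_of_le_left le_sup_right) le_sup_right :
        L.c ⊔ L'.c ≤ Ideal.span {0} ⊔ L.c ⊔ L'.c) (hx α))
    rwa [Ideal.span_singleton_eq_bot.mpr rfl, bot_sup_eq] at this
  -- coefficients of the matrices of the action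
  have hM : ∀ a i j α, Φ α ((L.frame he hF).mat a i j) -
      L.mat (MvPowerSeries.coeff α (F a)) i j ∈ L.c ⊔ L'.c :=
    fun a i j α => Ideal.mem_sup_left (L.coeff_mat_frame_sub_mem he hF a i j α)
  have hM' : ∀ a i j α, Φ α ((L'.frame he hF).mat a i j) -
      L'.mat (MvPowerSeries.coeff α (F a)) i j ∈ L.c ⊔ L'.c :=
    fun a i j α => Ideal.mem_sup_right (L'.coeff_mat_frame_sub_mem he hF a i j α)
  have hB : ∀ a x y α, Φ α (blk (Matrix.of ((L'.frame he hF).mat a)) x y) -
      blk (Matrix.of (L'.mat (MvPowerSeries.coeff α (F a)))) x y ∈ L.c ⊔ L'.c := by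
    intro a x y α
    simp only [blk, Matrix.of_apply]
    split_ifs
    · exact hM' a _ _ α
    · simp [Φ]
  -- a product congruence
  have hmul : ∀ {ι κ μ : Type} [Fintype κ] (P P₀ : Matrix ι κ Λ₀) (N₀ : Matrix κ μ Λ₀),
      (∀ i j, P i j - P₀ i j ∈ L.c ⊔ L'.c) → ∀ i j, (P * N₀ - P₀ * N₀) i j ∈ L.c ⊔ L'.c := by
    intro ι κ μ _ P P₀ N₀ h i j
    rw [← Matrix.sub_mul, Matrix.mul_apply]
    exact Ideal.sum_mem _ fun k _ => Ideal.mul_mem_right _ _ (h i k)
  have hmul' : ∀ {ι κ μ : Type} [Fintype κ] (P P₀ : Matrix κ μ Λ₀) (N₀ : Matrix ι κ Λ₀),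
      (∀ i j, P i j - P₀ i j ∈ L.c ⊔ L'.c) → ∀ i j, (N₀ * P - N₀ * P₀) i j ∈ L.c ⊔ L'.c := by
    intro ι κ μ _ P P₀ N₀ h i j
    rw [← Matrix.mul_sub, Matrix.mul_apply]
    exact Ideal.sum_mem _ fun k _ => Ideal.mul_mem_left _ _ (h k j)
  have hone : ∀ {ι : Type} [DecidableEq ι] (i j : ι) α,
      Φ α ((1 : Matrix ι ι Λ) i j) = if α = 0 then (1 : Matrix ι ι Λ₀) i j else 0 := by
    intro ι _ i j α
    simp only [Φ, Matrix.one_apply]
    by_cases h : i = j <;> simp [h, MvPowerSeries.coeff_one]
  refine ⟨{ f := D.f.map s, g := D.g.map s, C := D.C.map s, E := D.E.map s,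
            scalar := ?_, f_comm := ?_, g_comm := ?_, C_f := ?_, g_E := ?_, g_f := ?_, kill := ?_ }⟩
  · intro l
    choose b hb hb' using fun α => D.scalar (MvPowerSeries.coeff α (e l))
    obtain ⟨a, ha⟩ := hF (seriesOf b)
    refine ⟨a, ?_, ?_⟩
    · refine Matrix.ext fun i j => ?_
      rw [← (L.frame he hF).mk_mat, Matrix.scalar_apply, Matrix.diagonal_apply,
        ← map_zero (Ideal.Quotient.mk (L.frame he hF).c), ← apply_ite (Ideal.Quotient.mk _),
        Ideal.Quotient.mk_eq_mk_iff_sub_mem, L.mem_frame_c_iff he hF]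
      intro α
      have h1 := L.coeff_mat_frame_sub_mem he hF a i j α
      have h2 := L.mat_sub_scalar_mem (hb α) i j
      rw [map_sub, map_sub]
      rw [ha, coeff_seriesOf] at h1
      have := add_mem h1 h2
      convert this using 1
      rw [Matrix.scalar_apply, Matrix.diagonal_apply, apply_ite e,
        apply_ite (MvPowerSeries.coeff α)]
      simp only [map_zero]
      change _ = MvPowerSeries.coeff α (e _) - L.mat (b α) i j + (L.mat (b α) i j - _)
      ring
    · refine Matrix.ext fun i j => ?_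
      rw [← (L'.frame he hF).mk_mat, Matrix.scalar_apply, Matrix.diagonal_apply,
        ← map_zero (Ideal.Quotient.mk (L'.frame he hF).c), ← apply_ite (Ideal.Quotient.mk _),
        Ideal.Quotient.mk_eq_mk_iff_sub_mem, L'.mem_frame_c_iff he hF]
      intro α
      have h1 := L'.coeff_mat_frame_sub_mem he hF a i j α
      have h2 := L'.mat_sub_scalar_mem (hb' α) i j
      rw [map_sub, map_sub]
      rw [ha, coeff_seriesOf] at h1
      have := add_mem h1 h2
      convert this using 1
      rw [Matrix.scalar_apply, Matrix.diagonal_apply, apply_ite e,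
        apply_ite (MvPowerSeries.coeff α)]
      simp only [map_zero]
      change _ = MvPowerSeries.coeff α (e _) - L'.mat (b α) i j + (L'.mat (b α) i j - _)
      ring
  · intro a x y
    refine crit _ fun α => ?_
    simp only [Φ, Matrix.sub_apply, map_sub]
    rw [coeff_map_mul _ (D.f.map s) D.f (fun i j => hs _),
      coeff_mul_map (D.f.map s) D.f _ (fun i j => hs _)]
    have h0 := D.f_comm (MvPowerSeries.coeff α (F a)) x y
    have h1 := hmul _ (Matrix.of (L.mat (MvPowerSeries.coeff α (F a)))) D.f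
      (fun i j => hM a i j α) x y
    have h2 := hmul' _ (blk (Matrix.of (L'.mat (MvPowerSeries.coeff α (F a))))) D.f
      (fun i j => hB a i j α) x y
    have := add_mem (sub_mem h1 h2) h0
    convert this using 1
    simp only [Matrix.sub_apply, Φ]
    ring!
  · intro a x y
    refine crit _ fun α => ?_
    simp only [Φ, Matrix.sub_apply, map_sub]
    rw [coeff_map_mul _ (D.g.map s) D.g (fun i j => hs _),
      coeff_mul_map (D.g.map s) D.g _ (fun i j => hs _)]
    have h0 := D.g_comm (MvPowerSeries.coeff α (F a)) x y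
    have h1 := hmul' _ (Matrix.of (L.mat (MvPowerSeries.coeff α (F a)))) D.g
      (fun i j => hM a i j α) x y
    have h2 := hmul _ (blk (Matrix.of (L'.mat (MvPowerSeries.coeff α (F a))))) D.g
      (fun i j => hB a i j α) x y
    have := add_mem (sub_mem h1 h2) h0
    convert this using 1
    simp only [Matrix.sub_apply, Φ]
    ring!
  · intro x y
    refine crit _ fun α => ?_
    show Φ α (_ - _) ∈ _
    rw [show ∀ u v, Φ α (u - v) = Φ α u - Φ α v from fun u v => by simp [Φ], hone]
    show MvPowerSeries.coeff α (e ((D.C.map s * D.f.map s) x y)) - _ ∈ _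
    rw [coeff_map_mul _ (D.f.map s) D.f (fun i j => hs _)]
    by_cases hα : α = 0
    · subst hα
      rw [if_pos rfl]
      convert D.C_f x y using 2
      simp [Matrix.mul_apply, hs]
    · rw [if_neg hα, sub_zero, Matrix.mul_apply]
      simp [hs, MvPowerSeries.coeff_C_of_ne_zero hα]
  · intro x y
    refine crit _ fun α => ?_
    show Φ α (_ - _) ∈ _
    rw [show ∀ u v, Φ α (u - v) = Φ α u - Φ α v from fun u v => by simp [Φ], hone]
    show MvPowerSeries.coeff α (e ((D.g.map s * D.E.map s) x y)) - _ ∈ _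
    rw [coeff_map_mul _ (D.E.map s) D.E (fun i j => hs _)]
    by_cases hα : α = 0
    · subst hα
      rw [if_pos rfl]
      convert D.g_E x y using 2
      simp [Matrix.mul_apply, hs]
    · rw [if_neg hα, sub_zero, Matrix.mul_apply]
      simp [hs, MvPowerSeries.coeff_C_of_ne_zero hα]
  · intro x y
    refine crit _ fun α => ?_
    simp only [Φ, Matrix.sub_apply, map_sub]
    rw [coeff_map_mul _ (D.f.map s) D.f (fun i j => hs _)]
    have h1 := hM' (δ x.1 y.1) x.2 y.2 α
    rw [hδ] at h1
    by_cases hα : α = 0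
    · subst hα
      rw [MvPowerSeries.coeff_zero_C] at h1
      have := sub_mem (D.g_f x y) h1
      convert this using 1
      simp [Matrix.mul_apply, hs, deltaBlk, Φ]
    · rw [MvPowerSeries.coeff_C_of_ne_zero hα] at h1
      have h2 : L'.mat 0 x.2 y.2 ∈ L.c ⊔ L'.c := Ideal.mem_sup_right (by
        simpa using L'.mat_sub_mem (l := 0) (a := 0) (i := x.2) (j := y.2) (by simp))
      have := neg_mem (add_mem h1 h2)
      convert this using 1
      simp [Matrix.mul_apply, hs, MvPowerSeries.coeff_C_of_ne_zero hα, deltaBlk, Φ]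
  · intro a ha x y
    refine crit _ fun α => ?_
    have hα := hJ a ha α
    rw [show (Matrix.of ((L.frame he hF).mat a) * (1 - D.E.map s * D.g.map s)) =
      Matrix.of ((L.frame he hF).mat a) -
        Matrix.of ((L.frame he hF).mat a) * D.E.map s * D.g.map s by
          rw [Matrix.mul_sub, Matrix.mul_one, Matrix.mul_assoc]]
    simp only [Φ, Matrix.sub_apply, map_sub]
    rw [coeff_map_mul _ (D.g.map s) D.g (fun i j => hs _)]
    have e1 : ((Matrix.of ((L.frame he hF).mat a) * D.E.map s).map fun x =>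
        MvPowerSeries.coeff α (e x)) =
        ((Matrix.of ((L.frame he hF).mat a)).map fun x => MvPowerSeries.coeff α (e x)) * D.E :=
      Matrix.ext fun i j => coeff_map_mul _ (D.E.map s) D.E (fun i j => hs _) α i j
    rw [e1, Matrix.mul_assoc]
    have h0 := D.kill _ hα x y
    rw [Matrix.mul_sub, Matrix.mul_one, Matrix.sub_apply] at h0
    have h1 := hmul _ (Matrix.of (L.mat (MvPowerSeries.coeff α (F a)))) (D.E * D.g)
      (fun i j => hM a i j α) x y
    have := add_mem (sub_mem (hM a x y α) h1) h0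
    convert this using 1
    simp only [Matrix.sub_apply, Matrix.of_apply, Φ]
    ring!

end Fermat.Agent.IharaTW
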