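import Fermat.Agent.Root.Patched.TangentVectors

/-!
# Generators of framed deformation rings

If `S.R` is generated by traces, the maximal ideal of the framed ring is generated by the
coordinates of the local models, the maximal ideal of `O` and at most `r - 1` further elements,
where `r + 2` bounds the framed Selmer space.
-/

set_option autoImplicit false

noncomputable section

open IsLocalRing Matrix

namespace Fermat.Agent.Root.Patched

open Fermat.Agent.Deformation

local notation "ℚbar" => AlgebraicClosure ℚ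

variable {O : Type} [CommRing O] [IsLocalRing O] {ρbar : GQ →* M2 (ResidueField O)}

/-- The quotient of a test ring by an ideal containing `𝔪²`. -/
theorem TestRing.exists_quotient_tangent (E : TestRing O) (J : Ideal E.R)
    (hJ : J ≤ maximalIdeal E.R) (hsq : maximalIdeal E.R ^ 2 ≤ J) :
    ∃ (D : TestRing O) (π : E.R →+* D.R), Function.Surjective π ∧ RingHom.ker π = J ∧
      π.comp E.alg = D.alg ∧ D.red.comp π = E.red ∧ D.IsTangent ∧ Finite D.R := by
  have hDnt : Nontrivial (E.R ⧸ J) :=
    Ideal.Quotient.nontrivial_iff.mpr fun h =>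
      (maximalIdeal.isMaximal _).ne_top (top_le_iff.mp (h ▸ hJ))
  have : IsLocalRing (E.R ⧸ J) :=
    IsLocalRing.of_surjective' (Ideal.Quotient.mk J) Ideal.Quotient.mk_surjective
  have : IsLocalHom (Ideal.Quotient.mk J) := IsLocalHom.of_surjective _ Ideal.Quotient.mk_surjective
  have : IsLocalHom (algebraMap E.R (E.R ⧸ J)) :=
    IsLocalHom.of_surjective (Ideal.Quotient.mk J) Ideal.Quotient.mk_surjective
  have : Finite (E.R ⧸ J) :=
    haveI := Patching.finite_quotient_maximalIdeal_pow (R := E.R) 2
    Finite.of_surjective _ (Ideal.Quotient.factor_surjective hsq)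
  have : Finite (ResidueField (E.R ⧸ J)) := Finite.of_surjective _ residue_surjective
  have hmax : maximalIdeal (E.R ⧸ J) = (maximalIdeal E.R).map (Ideal.Quotient.mk J) :=
    (IsLocalRing.map_maximalIdeal_of_surjective _ Ideal.Quotient.mk_surjective).symm
  let D : TestRing O :=
    { R := { carrier := E.R ⧸ J }
      alg := (Ideal.Quotient.mk J).comp E.alg
      red := Ideal.Quotient.lift J E.red fun x hx => (E.ker_red x).mpr (hJ hx)
      red_alg := fun a => by rw [RingHom.comp_apply, Ideal.Quotient.lift_mk, E.red_alg]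
      ker_red := fun x => by
        obtain ⟨y, rfl⟩ := Ideal.Quotient.mk_surjective x
        rw [Ideal.Quotient.lift_mk, E.ker_red]
        exact ⟨fun h => hmax ▸ Ideal.mem_map_of_mem _ h, fun h => by
          by_contra hy
          exact (mem_maximalIdeal _).mp h ((IsLocalRing.notMem_maximalIdeal.mp hy).map _)⟩ }
  refine ⟨D, Ideal.Quotient.mk J, Ideal.Quotient.mk_surjective, Ideal.mk_ker, rfl, rfl, ?_, ‹_›⟩
  show maximalIdeal (E.R ⧸ J) ^ 2 = ⊥
  rw [hmax, ← Ideal.map_pow, Ideal.map_mk_eq_bot_of_le hsq]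

/-- The two maps to a tangent ring through the quotient and through the residue field agree on the
framed lifts if they agree on the coordinates. -/
theorem map_framed_eq {ι : Type} [Fintype ι] {S : TestRing O} (ℓ : Lift ρbar S) {v : ι}
    {P : ValuationSubring ℚbar} {σ : Type} {cond : ∀ S : TestRing O, Lift ρbar S → Prop}
    (hclosed : CondClosed cond) (hcond : cond S ℓ) (C : Coords ρbar P σ cond)
    {D : TestRing O} (hD : D.IsTangent) (π : (S.framed ι).R →+* D.R)
    (hπa : π.comp (S.framed ι).alg = D.alg) (hπr : D.red.comp π = (S.framed ι).red)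
    (hval : ∀ i, π (C.val (S.framed ι) (ℓ.framedAt v) i) = 0)
    (sec : ResidueField O →+* D.R) (hsec : ∀ a, sec (residue O a) = D.alg a)
    {g : GQ} (hg : g ∈ P.decompositionSubgroup ℚ) :
    ((ℓ.framedAt v).M g).map π = (ρbar g).map sec := by
  have hredsec : ∀ z, D.red (sec z) = z := fun z => by
    obtain ⟨a, rfl⟩ := residue_surjective z
    rw [hsec, D.red_alg]
  set ψ : (S.framed ι).R →+* D.R := sec.comp (S.framed ι).red
  have hψa : ψ.comp (S.framed ι).alg = D.alg := RingHom.ext fun a => by
    rw [RingHom.comp_apply, RingHom.comp_apply, (S.framed ι).red_alg, hsec]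
  have hψr : D.red.comp ψ = (S.framed ι).red := RingHom.ext fun x => hredsec _
  have hcE := hclosed.framedAt ℓ hcond v
  have hc1 := hclosed.push _ D π hπa hπr (ℓ.framedAt v) ((ℓ.framedAt v).push π hπr)
    (fun _ => rfl) hcE
  have hc2 := hclosed.push _ D ψ hψa hψr (ℓ.framedAt v) ((ℓ.framedAt v).push ψ hψr)
    (fun _ => rfl) hcE
  have hv : C.val D ((ℓ.framedAt v).push π hπr) = C.val D ((ℓ.framedAt v).push ψ hψr) :=
    funext fun i => by
      rw [C.natural _ D π hπa hπr (ℓ.framedAt v) _ (fun _ => rfl) hcE i,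
        C.natural _ D ψ hψa hψr (ℓ.framedAt v) _ (fun _ => rfl) hcE i, hval, RingHom.comp_apply,
        ((S.framed ι).ker_red _).mpr (C.mem _ _ hcE i), map_zero]
  have h := C.determine D hD _ _ hc1 hc2 hv g hg
  rw [Lift.push_M, Lift.push_M] at h
  rw [h, RingHom.coe_comp, ← Matrix.map_map, (ℓ.framedAt v).reduces]

/-- The trace zero matrix with given entries. -/
def traceZero {k : Type} [Field k] (z : Fin 3 → k) : Matrix (Fin 2) (Fin 2) k :=
  !![z 0, z 1; z 2, -z 0]

theorem trace_traceZero {k : Type} [Field k] (z : Fin 3 → k) : (traceZero z).trace = 0 := by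
  simp [traceZero, Matrix.trace_fin_two]

/-- The global conjugations. -/
def coboundary {k : Type} [Field k] (ρ : GQ →* GL (Fin 2) k) (T : Finset ℕ) (j : Fin 3) :
    (GQ → Matrix (Fin 2) (Fin 2) k) × (ℕ → Matrix (Fin 2) (Fin 2) k) :=
  (fun σ => adAct ρ σ (traceZero (Pi.single j 1)) - traceZero (Pi.single j 1),
    fun x => if x ∈ T then -traceZero (Pi.single j 1) else 0)

theorem isFramedKernel_coboundary {ι : Type} [Fintype ι] {S : TestRing O} (ℓ : Lift ρbar S)
    {ρ : GQ →* GL (Fin 2) (ResidueField O)} (hρ : ∀ σ, (ρ σ).val = ρbar σ) (q : ι → ℕ)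
    (Q : Finset ℕ) (P : ℕ → ValuationSubring ℚbar)
    (hunr : ∀ x : ℕ, x.Prime → (∀ v, q v ≠ x) → x ∉ Q → ∀ A : ValuationSubring ℚbar,
      A.LiesOverPrime x → ∀ σ ∈ A.inertiaSubgroupIn ℚ, ℓ.M σ = 1) (j : Fin 3) :
    IsFramedKernel ρ (Finset.univ.image q) Q P (coboundary ρ (Finset.univ.image q) j) := by
  refine ⟨fun σ => ?_, fun x => ?_, fun x hx => if_neg hx, fun σ τ => ?_, ?_, ?_, ?_⟩
  · simp only [coboundary, Matrix.trace_sub, trace_adAct, sub_self]
  · simp only [coboundary]
    split_ifs <;> simp [Matrix.trace_neg, trace_traceZero]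
  · simp only [coboundary, adAct, _root_.mul_inv_rev, map_mul, Units.val_mul, Matrix.mul_sub,
      Matrix.sub_mul, Matrix.mul_assoc]
    abel
  · obtain ⟨L, hL, h⟩ := ℓ.cont 1
    refine ⟨L, hL, fun σ τ hτ => ?_⟩
    have h1 : ρ τ = 1 := Units.ext <| by
      rw [hρ, ← ℓ.reduces τ, Units.val_one]
      ext x y
      rw [Matrix.map_apply, ← sub_eq_zero]
      have e : S.red ((1 : M2 S.R) x y) = (1 : M2 (ResidueField O)) x y := by
        rw [Matrix.one_apply, Matrix.one_apply]; split_ifs <;> simp
      rw [← e, ← map_sub, S.ker_red]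
      simpa using h τ hτ x y
    simp only [coboundary, adAct, map_mul, map_inv, h1, mul_one]
  · intro x hx hxT hxQ A hA σ hσ
    have h1 := hunr x hx (fun v hv => hxT (Finset.mem_image.mpr ⟨v, Finset.mem_univ v, hv⟩)) hxQ
      A hA σ hσ
    have h2 : ρ σ = 1 := Units.ext <| by
      rw [hρ, ← ℓ.reduces σ, h1, Units.val_one, Matrix.map_one _ (map_zero _) (map_one _)]
    simp [coboundary, adAct, map_inv, h2]
  · intro x hx σ _
    simp only [coboundary, if_pos hx, adAct, Matrix.mul_neg, Matrix.neg_mul]
    abel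

/-- **Few generators for the framed ring.** -/
theorem exists_generators_framed {ι : Type} [Fintype ι] [DecidableEq ι]
    {p : ℕ} [Fact p.Prime] (hp : (p : O) ∈ maximalIdeal O)
    (S : TestRing O) (ℓ : Lift ρbar S) (hdet : DetCyclotomic p S ℓ)
    (hgen : Subring.closure (Set.range S.alg ∪ Set.range fun σ => (ℓ.M σ).trace) = ⊤)
    (q : ι → ℕ) (hq : Function.Injective q) (P : ℕ → ValuationSubring ℚbar)
    (Pv : ι → ValuationSubring ℚbar) (hPv : ∀ v, P (q v) = Pv v)
    (σv : ι → Type) (cond : ι → ∀ S : TestRing O, Lift ρbar S → Prop)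
    (hclosed : ∀ v, CondClosed (cond v)) (hcond : ∀ v, cond v S ℓ)
    (C : ∀ v, Coords ρbar (Pv v) (σv v) (cond v))
    (Q : Finset ℕ)
    (hunr : ∀ x : ℕ, x.Prime → (∀ v, q v ≠ x) → x ∉ Q → ∀ A : ValuationSubring ℚbar,
      A.LiesOverPrime x → ∀ σ ∈ A.inertiaSubgroupIn ℚ, ℓ.M σ = 1)
    (ρ : GQ →* GL (Fin 2) (ResidueField O)) (hρ : ∀ σ, (ρ σ).val = ρbar σ)
    (hadj : ∀ U : Submodule (ResidueField O) (Matrix (Fin 2) (Fin 2) (ResidueField O)),
      (∀ M ∈ U, M.trace = 0) →
      (∀ σ : GQ, (∀ μ : ℚbar, μ ^ p = 1 → σ μ = μ) → ∀ M ∈ U, adAct ρ σ M ∈ U) →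
      U = ⊥ ∨ ∀ M : Matrix (Fin 2) (Fin 2) (ResidueField O), M.trace = 0 → M ∈ U)
    (r : ℕ)
    (hbound : ∀ (n : ℕ) (x : Fin n → (GQ → Matrix (Fin 2) (Fin 2) (ResidueField O)) ×
        (ℕ → Matrix (Fin 2) (Fin 2) (ResidueField O))),
      (∀ i, IsFramedKernel ρ (Finset.univ.image q) Q P (x i)) →
        LinearIndependent (ResidueField O) x → n ≤ r + 2) :
    1 ≤ r ∧ ∃ G : Fin (r - 1) → (S.framed ι).R, (∀ j, G j ∈ maximalIdeal (S.framed ι).R) ∧
      maximalIdeal (S.framed ι).R = Ideal.span (Set.range fun x : Σ v, σv v =>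
          (C x.1).val (S.framed ι) (ℓ.framedAt x.1) x.2) ⊔
        Ideal.span (Set.range G) ⊔ (maximalIdeal O).map (S.framed ι).alg := by
  classical
  have hEalg : ∀ a ∈ maximalIdeal O, (S.framed ι).alg a ∈ maximalIdeal (S.framed ι).R :=
    fun a ha => by
      rw [← (S.framed ι).ker_red, (S.framed ι).red_alg, residue_eq_zero_iff]; exact ha
  set vals : Set (S.framed ι).R := Set.range fun x : Σ v, σv v =>
    (C x.1).val (S.framed ι) (ℓ.framedAt x.1) x.2
  have hvals : Ideal.span vals ≤ maximalIdeal (S.framed ι).R := Ideal.span_le.mpr (by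
    rintro _ ⟨x, rfl⟩
    exact (C x.1).mem _ _ ((hclosed x.1).framedAt ℓ (hcond x.1) x.1) x.2)
  set J : Ideal (S.framed ι).R := Ideal.span vals ⊔ (maximalIdeal O).map (S.framed ι).alg ⊔
    maximalIdeal (S.framed ι).R ^ 2
  have hJm : J ≤ maximalIdeal (S.framed ι).R :=
    sup_le (sup_le hvals (Ideal.map_le_iff_le_comap.mpr hEalg)) (Ideal.pow_le_self two_ne_zero)
  obtain ⟨D, π, hπ, hker, hπa, hπr, hD, hfin⟩ :=
    (S.framed ι).exists_quotient_tangent J hJm le_sup_right
  have hπ0 : ∀ x ∈ J, π x = 0 := fun x hx => by rwa [← RingHom.mem_ker, hker]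
  let sec : ResidueField O →+* D.R := Ideal.Quotient.lift (maximalIdeal O) D.alg fun a ha => by
    rw [← hπa, RingHom.comp_apply]
    exact hπ0 _ (Ideal.mem_sup_left (Ideal.mem_sup_right (Ideal.mem_map_of_mem _ ha)))
  have hsec : ∀ a, sec (residue O a) = D.alg a := fun a => rfl
  have hredsec : ∀ z, D.red (sec z) = z := fun z => by
    obtain ⟨a, rfl⟩ := residue_surjective z
    exact D.red_alg a
  -- the tangent space
  let : Algebra (ResidueField O) D.R := sec.toAlgebra
  let V : Submodule (ResidueField O) D.R := (maximalIdeal D.R).restrictScalars (ResidueField O)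
  set d := Module.finrank (ResidueField O) V
  let b : Module.Basis (Fin d) (ResidueField O) V := Module.finBasis (ResidueField O) V
  have hsub : ∀ x : D.R, x - sec (D.red x) ∈ V := fun x => by
    show x - sec (D.red x) ∈ maximalIdeal D.R
    rw [← D.ker_red, map_sub, hredsec, sub_self]
  let co : Fin d → ((S.framed ι).R →+ ResidueField O) := fun i =>
    { toFun := fun x => b.repr ⟨π x - sec (D.red (π x)), hsub _⟩ i
      map_zero' := by
        rw [show (⟨π 0 - sec (D.red (π 0)), hsub _⟩ : V) = 0 from Subtype.ext (by simp), map_zero]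
        rfl
      map_add' := fun x y => by
        rw [← Finsupp.add_apply, ← map_add]
        refine congrArg (fun f => b.repr f i) (Subtype.ext ?_)
        simp only [map_add, Submodule.coe_add]
        ring }
  have hco : ∀ i, IsPointDeriv (S.framed ι).red (co i) := fun i => ⟨fun x y => by
    have e : (⟨π (x * y) - sec (D.red (π (x * y))), hsub _⟩ : V) =
        (S.framed ι).red x • (⟨π y - sec (D.red (π y)), hsub _⟩ : V) +
          (S.framed ι).red y • (⟨π x - sec (D.red (π x)), hsub _⟩ : V) := by
      refine Subtype.ext ?_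
      have h0 : (π x - sec (D.red (π x))) * (π y - sec (D.red (π y))) = 0 := by
        rw [← Ideal.mem_bot, ← hD, pow_two]
        exact Ideal.mul_mem_mul (hsub _) (hsub _)
      simp only [Submodule.coe_add, Submodule.coe_smul, Algebra.smul_def,
        RingHom.algebraMap_toAlgebra, map_mul]
      rw [← RingHom.congr_fun hπr x, ← RingHom.congr_fun hπr y, RingHom.comp_apply,
        RingHom.comp_apply]
      linear_combination h0
    show b.repr (⟨_, hsub _⟩ : V) i = (S.framed ι).red x * b.repr (⟨_, hsub _⟩ : V) i +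
      b.repr (⟨_, hsub _⟩ : V) i * (S.framed ι).red y
    rw [e, map_add, map_smul, map_smul, Finsupp.add_apply, Finsupp.smul_apply, Finsupp.smul_apply,
      smul_eq_mul, smul_eq_mul, mul_comm _ ((S.framed ι).red y)]⟩
  have hco_sec : ∀ i x, π x = sec ((S.framed ι).red x) → co i x = 0 := fun i x h => by
    show b.repr (⟨_, hsub _⟩ : V) i = 0
    rw [show (⟨_, hsub (π x)⟩ : V) = 0 from Subtype.ext (by
      show π x - sec (D.red (π x)) = 0
      rw [show D.red (π x) = (S.framed ι).red x from RingHom.congr_fun hπr x, h, sub_self]),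
      map_zero]
    rfl
  have hco_alg : ∀ i a, co i ((S.framed ι).alg a) = 0 := fun i a => hco_sec i _ (by
    rw [(S.framed ι).red_alg, hsec, ← hπa, RingHom.comp_apply])
  have hker' : ∀ i, IsFramedKernel ρ (Finset.univ.image q) Q P
      (cocycleOfDeriv ℓ ρ (co i), frameOfDeriv q (co i)) := fun i =>
    isFramedKernel_of_deriv ℓ q hρ (hco i) (hco_alg i) hq hp hdet
      (fun x hx => hco_sec i x (by
        rw [hπ0 x (Ideal.mem_sup_right hx), ((S.framed ι).ker_red x).mpr
          (Ideal.pow_le_self two_ne_zero hx), map_zero]))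
      Q P hunr fun v g hg => by
        have h := map_framed_eq ℓ (hclosed v) (hcond v) (C v) hD π hπa hπr
          (fun i => hπ0 _ (Ideal.mem_sup_left (Ideal.mem_sup_left
            (Ideal.subset_span ⟨⟨v, i⟩, rfl⟩)))) sec hsec (hPv v ▸ hg)
        ext a c
        refine hco_sec i _ ?_
        have e1 := congrFun (congrFun h a) c
        have e2 := congrFun (congrFun ((ℓ.framedAt v).reduces g) a) c
        rw [Matrix.map_apply, Matrix.map_apply] at e1
        rw [Matrix.map_apply] at e2
        rw [e1]
        exact congrArg sec e2.symm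
  have hlin : LinearIndependent (ResidueField O)
      (Fin.append (fun i => (cocycleOfDeriv ℓ ρ (co i), frameOfDeriv q (co i)))
        (coboundary ρ (Finset.univ.image q))) := by
    rw [Fintype.linearIndependent_iff]
    intro a ha
    rw [Fin.sum_univ_add] at ha
    simp only [Fin.append_left, Fin.append_right] at ha
    set z : Fin 3 → ResidueField O := fun j => a (Fin.natAdd d j)
    have hX : ∑ j, z j • traceZero (Pi.single j 1) = traceZero z := by
      ext x y
      fin_cases x <;> fin_cases y <;> simp [traceZero, Fin.sum_univ_three]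
    let δ : (S.framed ι).R →+ ResidueField O :=
      ∑ i : Fin d, (AddMonoidHom.mulLeft (a (Fin.castAdd 3 i))).comp (co i)
    have hδapply : ∀ x, δ x = ∑ i : Fin d, a (Fin.castAdd 3 i) * co i x := fun x => by
      simp [δ, AddMonoidHom.finsetSum_apply]
    have hδ : IsPointDeriv (S.framed ι).red δ := ⟨fun x y => by
      simp only [hδapply, (hco _).leibniz, Finset.mul_sum, Finset.sum_mul,
        ← Finset.sum_add_distrib]
      exact Finset.sum_congr rfl fun i _ => by ring⟩
    have hδmap : ∀ M : M2 (S.framed ι).R,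
        M.map δ = ∑ i : Fin d, a (Fin.castAdd 3 i) • M.map (co i) := fun M => by
      ext x y
      simp [hδapply, Matrix.sum_apply]
    obtain ⟨hδ0, hX0⟩ := deriv_eq_zero ℓ hδ
      (fun c => by rw [hδapply]; exact Finset.sum_eq_zero fun i _ => by rw [hco_alg, mul_zero])
      hgen hadj (trace_traceZero z) (fun σ => by
        have := congrFun (congrArg Prod.fst ha) σ
        simp only [Prod.fst_add, Prod.fst_sum, Prod.smul_fst, Pi.add_apply, Finset.sum_apply,
          Pi.smul_apply, Prod.fst_zero, Pi.zero_apply, coboundary, smul_sub,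
          Finset.sum_sub_distrib] at this
        rw [← this, cocycleOfDeriv, hδmap, ← hX, Matrix.sum_mul]
        simp only [cocycleOfDeriv, adAct, Finset.mul_sum, Finset.sum_mul, smul_mul_assoc,
          mul_smul_comm, z])
      (fun v => by
        have := congrFun (congrArg Prod.snd ha) (q v)
        simp only [Prod.snd_add, Prod.snd_sum, Prod.smul_snd, Pi.add_apply, Finset.sum_apply,
          Pi.smul_apply, Prod.snd_zero, Pi.zero_apply, coboundary, frameOfDeriv, hq.extend_apply,
          if_pos (Finset.mem_image_of_mem q (Finset.mem_univ v)), smul_neg,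
          Finset.sum_neg_distrib] at this
        rw [← hδmap, hX, ← neg_add, neg_eq_zero] at this
        exact this)
    intro j
    refine Fin.addCases (fun i => ?_) (fun j => ?_) j
    · obtain ⟨y, hy⟩ := hπ ((b i : V) : D.R)
      have hcoy : ∀ l, co l y = if l = i then 1 else 0 := fun l => by
        show b.repr (⟨_, hsub _⟩ : V) l = _
        rw [show (⟨_, hsub (π y)⟩ : V) = b i from Subtype.ext (by
          show π y - sec (D.red (π y)) = _
          rw [hy, (D.ker_red _).mpr (b i).2, map_zero, sub_zero]), b.repr_self,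
          Finsupp.single_apply]
        simp [eq_comm]
      have := DFunLike.congr_fun hδ0 y
      rw [hδapply] at this
      simpa [hcoy] using this
    · have h00 := congrFun (congrFun hX0 0) 0
      have h01 := congrFun (congrFun hX0 0) 1
      have h10 := congrFun (congrFun hX0 1) 0
      fin_cases j <;> simp [traceZero, z] at h00 h01 h10 ⊢ <;> assumption
  have hbd := hbound (d + 3) _ (fun j => Fin.addCases
    (fun i => by rw [Fin.append_left]; exact hker' i)
    (fun i => by
      rw [Fin.append_right]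
      exact isFramedKernel_coboundary ℓ hρ q Q P hunr i) j) hlin
  refine ⟨by omega, ?_⟩
  -- generators
  choose y hy using fun i : Fin d => hπ ((b i : V) : D.R)
  have hym : ∀ i, y i ∈ maximalIdeal (S.framed ι).R := fun i => by
    rw [← (S.framed ι).ker_red, ← hπr, RingHom.comp_apply, hy]
    exact (D.ker_red _).mpr (b i).2
  let G : Fin (r - 1) → (S.framed ι).R := fun j => if h : (j : ℕ) < d then y ⟨j, h⟩ else 0
  refine ⟨G, fun j => ?_, le_antisymm ?_ ?_⟩
  · simp only [G]
    split_ifs
    exacts [hym _, zero_mem _]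
  · refine Submodule.le_of_le_smul_of_le_jacobson_bot (IsNoetherian.noetherian _)
      (maximalIdeal_le_jacobson _) fun x hx => ?_
    rw [smul_eq_mul, ← pow_two]
    have hxV : π x ∈ V := by
      show _ ∈ maximalIdeal D.R
      rw [← D.ker_red, show D.red (π x) = (S.framed ι).red x from RingHom.congr_fun hπr x,
        (S.framed ι).ker_red]
      exact hx
    have hsum := congrArg Subtype.val (b.sum_repr ⟨_, hxV⟩)
    simp only [Submodule.coe_sum, Submodule.coe_smul, ← hy, Algebra.smul_def,
      RingHom.algebraMap_toAlgebra] at hsum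
    choose a ha using fun i => hπ (sec (b.repr ⟨_, hxV⟩ i))
    simp only [← ha, ← map_mul, ← map_sum] at hsum
    have hJx : x - ∑ i, a i * y i ∈ J := by
      rw [← hker, RingHom.mem_ker, map_sub, ← hsum, sub_self]
    rw [← sub_add_cancel x (∑ i, a i * y i)]
    refine add_mem ?_ (Ideal.sum_mem _ fun i _ => Ideal.mem_sup_left (Ideal.mem_sup_left
      (Ideal.mem_sup_right (Ideal.mul_mem_left _ _ (Ideal.subset_span ⟨⟨i, by omega⟩, ?_⟩)))))
    · refine (sup_le (sup_le ?_ ?_) ?_ : J ≤ _) hJx
      · exact le_sup_of_le_left (le_sup_of_le_left le_sup_left)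
      · exact le_sup_of_le_left le_sup_right
      · exact le_sup_right
    · simp [G]
  · refine sup_le (sup_le hvals (Ideal.span_le.mpr ?_)) (Ideal.map_le_iff_le_comap.mpr hEalg)
    rintro _ ⟨j, rfl⟩
    simp only [G]
    split_ifs
    exacts [hym _, zero_mem _]

end Fermat.Agent.Root.Patched
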