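import Fermat.Agent.Root.Patched.LoweringPlaces
import Fermat.Agent.Root.Patched.ResidualFlat
import Fermat.Agent.Root.Patched.Standard
import Fermat.Agent.Conductor.SquarefreeLevel

/-!
# The curve at the places of a lifting problem

The point given by the Tate module at the places, the sign at a flip place, and the passage from a
squarefree level to the conductor.
-/

set_option autoImplicit false

noncomputable section

open IsLocalRing Polynomial
open scoped Pointwise

namespace Fermat.Agent.Root.Patched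

open Fermat.Agent.Deformation

local notation "ℚbar" => AlgebraicClosure ℚ

variable {O : Type} [CommRing O] [IsDomain O] [IsDiscreteValuationRing O]
  [IsAdicComplete (maximalIdeal O) O] [Finite (ResidueField O)] [CharZero O]
  {p : ℕ} [Fact p.Prime] {W : WeierstrassCurve ℤ}

omit [IsAdicComplete (maximalIdeal O) O] [Finite (ResidueField O)] [CharZero O] in
/-- A condition held by a lift holds residually. -/
theorem CondClosed.residual {ρbar : GQ →* M2 (ResidueField O)}
    {cond : ∀ S : TestRing O, Lift ρbar S → Prop} (h : CondClosed cond) {S : TestRing O}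
    {r : Lift ρbar S} (hr : cond S r) (S' : TestRing O) (r' : Lift ρbar S')
    (hm : maximalIdeal S'.R = ⊥) : cond S' r' := by
  have hbij : Function.Bijective S'.red := by
    refine ⟨fun x y hxy => sub_eq_zero.mp ?_, fun y => ?_⟩
    · have h0 := (S'.ker_red (x - y)).mp (by rw [map_sub, hxy, sub_self])
      rwa [hm, Ideal.mem_bot] at h0
    · obtain ⟨a, rfl⟩ := residue_surjective y
      exact ⟨S'.alg a, S'.red_alg a⟩
  let e : S'.R ≃+* ResidueField O := RingEquiv.ofBijective S'.red hbij
  let φ : S.R →+* S'.R := e.symm.toRingHom.comp S.red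
  have hφ : ∀ x, S'.red (φ x) = S.red x := fun x => e.apply_symm_apply _
  refine h.push S S' φ (RingHom.ext fun a => e.injective ?_) (RingHom.ext hφ) r r' (fun g => ?_) hr
  · show S'.red (φ (S.alg a)) = S'.red (S'.alg a)
    rw [hφ, S.red_alg, S'.red_alg]
  · refine Matrix.ext fun i j => e.injective ?_
    show S'.red (r'.M g i j) = S'.red (φ (r.M g i j))
    rw [hφ]
    exact (congrFun (congrFun (r'.reduces g) i) j).trans
      (congrFun (congrFun (r.reduces g) i) j).symm

namespace ResidualData

variable (D : ResidualData O p W)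

omit [CharZero O] in
/-- At good `p` the residual representation is flat. -/
theorem residual_flat_of_good (h : ¬ (p : ℤ) ∣ W.Δ) (S : TestRing O) (r : Lift D.ρbar S)
    (hm : maximalIdeal S.R = ⊥) : DetCyclotomic p S r ∧ FlatShape p S r :=
  ⟨D.det_of_bot S r hm, (condClosed_flatShape (ρbar := D.ρbar)).residual (D.point_flat h) S r hm⟩

include D in
omit [CharZero O] in
theorem unramifiedMod_of_good {q : ℕ} (hq : q.Prime) (hqp : q ≠ p) (hgood : ¬ (q : ℤ) ∣ W.Δ) :
    UnramifiedMod p W q := by
  refine (D.unramifiedMod_iff q).mpr fun A hA σ hσ => (D.ρbar_eq_one_iff σ).mp ?_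
  rw [← D.point.reduces, (D.point_good q hq hgood hqp A hA).1 σ hσ]
  exact Matrix.map_one _ (map_zero _) (map_one _)

omit [CharZero O] in
theorem unipotent_point {q : ℕ} (hq : q.Prime) (hqp : q ≠ p) {P : ValuationSubring ℚbar}
    (hP : P.LiesOverPrime q) : Unipotent P (TestRing.self O) D.point := by
  intro σ hσ
  by_cases hbad : (q : ℤ) ∣ W.Δ
  · obtain ⟨s, hs, hsq⟩ := D.point_bad q hq hbad P hP
    set g : P.decompositionSubgroup ℚ := ⟨σ, ValuationSubring.inertia_mem_decomposition hσ⟩
    have htr := SteinbergShape.trace_eq hs hsq g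
    rw [hs.1 g hσ, LocalModel.det_inertia D.p_mem Fact.out hq hqp hP D.point_det hσ] at htr
    rw [Matrix.charpoly_fin_two, htr,
      LocalModel.det_inertia D.p_mem Fact.out hq hqp hP D.point_det hσ]
    simp only [one_mul, map_add, map_one]
    ring
  · rw [(D.point_good q hq hbad hqp P hP).1 σ hσ, Matrix.charpoly_fin_two, Matrix.trace_one,
      Matrix.det_one, Fintype.card_fin]
    simp only [Nat.cast_ofNat, map_ofNat, map_one]
    ring

omit [CharZero O] in
/-- The sign of a curve at a bad prime. -/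
theorem exists_sign {q : ℕ} (hq : q.Prime) (hqp : q ≠ p) (hbad : (q : ℤ) ∣ W.Δ)
    {P : ValuationSubring ℚbar} (hP : P.LiesOverPrime q) (φ : P.decompositionSubgroup ℚ)
    (hφ : P.IsFrobeniusAt (φ : GQ) q) :
    ∃ s₀ : O, (s₀ = 1 ∨ s₀ = -1) ∧ (D.ρbar φ).trace = residue O (s₀ * ((q : O) + 1)) ∧
      (D.ρbar φ).det = q := by
  obtain ⟨s, hs, hsq⟩ := D.point_bad q hq hbad P hP
  have htr := SteinbergShape.trace_eq hs hsq φ
  have hdet := LocalModel.det_frobenius D.p_mem Fact.out hq hqp hP D.point_det hφ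
  rw [hdet] at htr
  have hsc : (s φ - 1) * (s φ + 1) = 0 := by linear_combination hsq φ
  obtain ⟨a, ha⟩ : ∃ a : O, a = s φ := ⟨_, rfl⟩
  have hsc' : (a - 1) * (a + 1) = 0 := by subst ha; exact hsc
  refine ⟨a, ?_, ?_, ?_⟩
  · rcases mul_eq_zero.mp hsc' with h | h
    · exact Or.inl (sub_eq_zero.mp h)
    · exact Or.inr (eq_neg_of_add_eq_zero_left h)
  · rw [← D.point.reduces]
    refine (AddMonoidHom.map_trace (TestRing.self O).red.toAddMonoidHom _).symm.trans ?_
    refine congrArg (residue O) (htr.trans ?_)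
    subst ha
    exact congrArg _ (add_comm _ _)
  · rw [← D.point.reduces, ← RingHom.mapMatrix_apply, ← RingHom.map_det, hdet, map_natCast]

omit [CharZero O] in
/-- An unramified bad prime with scalar Frobenius is `≡ 1 (mod p)`. -/
theorem scalar_bad {q : ℕ} (hq : q.Prime) (hqp : q ≠ p) (hbad : (q : ℤ) ∣ W.Δ)
    (hunr : UnramifiedMod p W q) {P : ValuationSubring ℚbar} (hP : P.LiesOverPrime q)
    (φ : P.decompositionSubgroup ℚ) (hφ : P.IsFrobeniusAt (φ : GQ) q)
    (hc : ∃ c : ResidueField O, D.ρbar φ = c • (1 : M2 (ResidueField O))) :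
    q % p = 1 ∧ FrobScalarMod p W q := by
  obtain ⟨c, hc⟩ := hc
  have h00 : D.ι ((D.ρ₀ φ).val 0 0) = c := by
    have h := congrFun (congrFun hc 0) 0
    rw [D.ρbar_eq] at h
    simpa using h
  set a := (D.ρ₀ (φ : GQ)).val 0 0
  have ha : (D.ρ₀ (φ : GQ)).val = a • (1 : M2 (ZMod p)) := by
    refine Matrix.ext fun i j => D.ι.injective ?_
    have h := congrFun (congrFun hc i) j
    rw [D.ρbar_eq, ← h00] at h
    simpa [Matrix.smul_apply, Matrix.one_apply, apply_ite D.ι] using h
  constructor
  · obtain ⟨s₀, hs₀, htr, hdet⟩ := D.exists_sign hq hqp hbad hP φ hφ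
    rw [hc, Matrix.trace_smul, Matrix.trace_one, Fintype.card_fin, smul_eq_mul] at htr
    rw [hc, Matrix.det_smul, Matrix.det_one, Fintype.card_fin, mul_one] at hdet
    have hsq : residue O s₀ ^ 2 = 1 := by
      rcases hs₀ with rfl | rfl <;> simp
    rw [map_mul, map_add, map_natCast, map_one] at htr
    push_cast at htr
    have h1 : ((q : ResidueField O) - 1) ^ 2 = 0 := by
      linear_combination ((q : ResidueField O) + 1) ^ 2 * (-1) * hsq +
        (-(c * 2) - residue O s₀ * ((q : ResidueField O) + 1)) * htr + 4 * hdet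
    have := D.charP_residue
    have h2 : ((q : ℕ) : ResidueField O) = ((1 : ℕ) : ResidueField O) := by
      rw [Nat.cast_one]
      exact sub_eq_zero.mp ((pow_eq_zero_iff two_ne_zero).mp h1)
    have h3 : q % p = 1 % p := (CharP.natCast_eq_natCast (ResidueField O) p).mp h2
    rwa [Nat.mod_eq_of_lt (Fact.out : p.Prime).one_lt] at h3
  · intro A hA σ hσ
    obtain ⟨g, rfl⟩ := Gal.exists_smul_eq_of_liesOverPrime hq hP hA
    obtain ⟨τ, rfl⟩ : ∃ τ, g * τ * g⁻¹ = σ := ⟨g⁻¹ * σ * g, by group⟩
    have hτ := (Gal.isFrobeniusAt_smul_iff g τ P q).mp hσ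
    have h1 : D.ρ₀ τ = D.ρ₀ φ := by
      have h2 := (D.unramifiedMod_iff q).mp hunr P hP _ (Gal.inv_mul_mem_inertia hφ hτ)
      rw [map_mul, map_inv, inv_mul_eq_one] at h2
      exact h2.symm
    refine ⟨a, (LinearMap.toMatrix D.basis D.basis).injective ?_⟩
    rw [← D.ρ₀_eq, map_smul, LinearMap.toMatrix_one, map_mul, map_mul, h1, Units.val_mul,
      Units.val_mul, ha, mul_smul_comm, mul_one, smul_mul_assoc, ← Units.val_mul, ← map_mul,
      mul_inv_cancel, map_one, Units.val_one]

end ResidualData

/-- A prime divides a product of primes exactly when it is one of them. -/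
theorem prime_dvd_prod_iff {S : Finset ℕ} (hS : ∀ q ∈ S, q.Prime) {q : ℕ} (hq : q.Prime) :
    q ∣ ∏ x ∈ S, x ↔ q ∈ S := by
  refine ⟨fun h => ?_, fun h => Finset.dvd_prod_of_mem _ h⟩
  obtain ⟨x, hx, hd⟩ := (Prime.dvd_finsetProd_iff hq.prime _).mp h
  exact (Nat.prime_dvd_prime_iff_eq hq (hS x hx)).mp hd ▸ hx

theorem squarefree_prod_primes {S : Finset ℕ} (hS : ∀ q ∈ S, q.Prime) :
    Squarefree (∏ x ∈ S, x) := by
  induction S using Finset.induction with
  | empty => simp
  | insert a T ha ih =>
    have hT : ∀ q ∈ T, q.Prime := fun q hq => hS q (Finset.mem_insert_of_mem hq)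
    have hap := hS a (Finset.mem_insert_self a T)
    rw [Finset.prod_insert ha, Nat.squarefree_mul_iff]
    exact ⟨hap.coprime_iff_not_dvd.mpr fun h => ha ((prime_dvd_prod_iff hT hap).mp h),
      hap.squarefree, ih hT⟩

/-- From a squarefree level to the conductor. -/
theorem modular_conductor_of_squarefree (W : WeierstrassCurve ℤ) (hW : Semistable W) {N : ℕ}
    (hN : Squarefree N) (h : W.IsModularModelOfLevel N) :
    W.IsModularModelOfLevel W.conductorLevel :=
  Conductor.isModularModelOfLevel_conductorLevel_of_squarefree W hW.ne hN h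

end Fermat.Agent.Root.Patched
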