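import Fermat.Agent.Patching.Consequences

/-!
# Elementary facts about limits of levels

What holds at every level (maps to `R`, vanishing, containment in ideals) holds for the patched
level.
-/

set_option autoImplicit false

noncomputable section

namespace Fermat.Agent.Root.Patched

open Fermat.Agent.Patching IsLocalRing Filter

variable {Λ A R : Type*} [CommRing Λ] [CommRing A] [CommRing R]
  {𝔞 : Ideal Λ} {I I' : Ideal R} {d d' : ℕ}
  [IsLocalRing Λ] [IsNoetherianRing Λ] [Finite (ResidueField Λ)]
  [IsAdicComplete (maximalIdeal Λ) Λ]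
  [IsLocalRing A] [IsNoetherianRing A] [Finite (ResidueField A)]
  [IsAdicComplete (maximalIdeal A) A]
  [IsLocalRing R] [IsNoetherianRing R] [Finite (ResidueField R)]
  [IsAdicComplete (maximalIdeal R) R]
  (L : ℕ → Level Λ A R 𝔞 I d) (hc : ∀ k, ∀ᶠ n in atTop, (L n).c ≤ maximalIdeal Λ ^ k)
  (L' : ℕ → Level Λ A R 𝔞 I' d') (hc' : ∀ k, ∀ᶠ n in atTop, (L' n).c ≤ maximalIdeal Λ ^ k)

/-- Ideals mapped into `x` at every level are mapped into `x` by the patched map. -/
theorem le_comap_ψ {P : Ideal A} {x : Ideal R} (h : ∀ n, P ≤ x.comap (L n).π) :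
    P ≤ x.comap (patch L hc).ψ := fun a ha =>
  HasULim.mem_of_eventually (hasULim_ulim U₀ fun n => (L n).π a) x fun _ =>
    Eventually.of_forall fun n => Ideal.mem_sup_left (h n ha)

include hc in
/-- Elements acting as zero at every level act as zero. -/
theorem act_eq_zero {a : A} (h : ∀ n, (L n).act a = 0) : (patch L hc).act a = 0 := by
  refine Matrix.ext fun i j => (hasULim_patchAct L hc a i j).unique ?_
  refine hasULim_of_sub_mem L hc (hasULim_const _) fun n => ?_
  exact (L n).mat_sub_mem (l := 0) (by rw [h n, map_zero]; rfl)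

end Fermat.Agent.Root.Patched
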