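import Fermat.Agent.LocalRing.Main

/-!
# Forgetting the Steinberg coordinates at the flip places

`dropFlips P` has no flip places; their coordinates `a` become free.  `θ` kills all `x`, `ι` is its
section.  Ihara avoidance at the first stage is run through `dropFlips P`.
-/

set_option autoImplicit false

noncomputable section

open IsLocalRing

namespace Fermat.Agent.Root.Patched

open Fermat.Agent.LocalRing

variable {O : Type} [CommRing O] [IsDomain O] [IsDiscreteValuationRing O]

/-- The same data without flip places. -/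
abbrev dropFlips (P : LocalData O) : LocalData O where
  r := P.r
  g := P.g + P.s
  s := 0
  m := fun f => f.elim0
  c := fun f => f.elim0
  c_mem := fun f => f.elim0
  c_injective := fun f => f.elim0
  h := P.h
  h_mem := P.h_mem
  nb := P.nb
  ε := P.ε
  ε_mem := P.ε_mem
  ε_ne := P.ε_ne
  ϖ := P.ϖ
  irreducible := P.irreducible
  isUnit_two := P.isUnit_two

variable (P : LocalData O)

/-- Images of the variables under `θ`. -/
def thetaImage : FlipVar P.r P.g P.m → (dropFlips P).Total :=
  Sum.elim (fun v => MvPowerSeries.X (.inl v))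
    (Sum.elim (fun j => MvPowerSeries.X (.inr (.inl (Fin.castAdd P.s j)))) fun x =>
      match x.2 with
      | none => MvPowerSeries.X (.inr (.inl (Fin.natAdd P.g x.1)))
      | some _ => 0)

theorem thetaImage_mem (v : FlipVar P.r P.g P.m) :
    thetaImage P v ∈ maximalIdeal (dropFlips P).Total := by
  rcases v with v | j | ⟨f, _ | j⟩
  exacts [X_mem_maximalIdeal _, X_mem_maximalIdeal _, X_mem_maximalIdeal _, zero_mem _]

/-- Images of the variables under `ι`. -/
def iotaImage : FlipVar (dropFlips P).r (dropFlips P).g (dropFlips P).m → P.Total :=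
  Sum.elim (fun v => MvPowerSeries.X (.inl v))
    (Sum.elim (Fin.addCases (fun j => MvPowerSeries.X (.inr (.inl j))) fun f => flipX f none)
      fun x => x.1.elim0)

theorem iotaImage_mem (v : FlipVar (dropFlips P).r (dropFlips P).g (dropFlips P).m) :
    iotaImage P v ∈ maximalIdeal P.Total := by
  rcases v with v | k | x
  · exact X_mem_maximalIdeal _
  · refine Fin.addCases (fun j => ?_) (fun f => ?_) k <;>
      simpa [iotaImage, flipX, -mem_maximalIdeal] using X_mem_maximalIdeal (O := O) _
  · exact x.1.elim0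

variable [IsAdicComplete (maximalIdeal O) O]

/-- Kill all Steinberg coordinates. -/
def theta : P.Total →+* (dropFlips P).Total :=
  eval MvPowerSeries.C (thetaImage P) (thetaImage_mem P)

/-- The section of `theta`. -/
def iota : (dropFlips P).Total →+* P.Total :=
  eval MvPowerSeries.C (iotaImage P) (iotaImage_mem P)

theorem theta_C (c : O) : theta P (MvPowerSeries.C c) = MvPowerSeries.C c := eval_C _ _ _ c

theorem iota_C (c : O) : iota P (MvPowerSeries.C c) = MvPowerSeries.C c := eval_C _ _ _ c

theorem theta_flipS (i : Fin P.r) :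
    theta P ∘ flipS i = (flipS i : Fin 3 → (dropFlips P).Total) := by
  funext u; simp [theta, flipS, thetaImage]

theorem theta_flipN (i : Fin P.r) :
    theta P ∘ flipN i = (flipN i : Fin 3 → (dropFlips P).Total) := by
  funext u; simp [theta, flipN, thetaImage]

theorem theta_flipX_some (f : Fin P.s) (j : Fin (P.m f)) :
    theta P (flipX f (some j)) = 0 := by
  simp [theta, flipX, thetaImage]

theorem iota_flipS (i : Fin P.r) :
    iota P ∘ (flipS i : Fin 3 → (dropFlips P).Total) = flipS i := by
  funext u; simp [iota, flipS, iotaImage]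

theorem iota_flipN (i : Fin P.r) :
    iota P ∘ (flipN i : Fin 3 → (dropFlips P).Total) = flipN i := by
  funext u; simp [iota, flipN, iotaImage]

theorem theta_iota (x : (dropFlips P).Total) : theta P (iota P x) = x := by
  have hm : ∀ y ∈ maximalIdeal P.Total, theta P y ∈ maximalIdeal (dropFlips P).Total :=
    fun y hy => map_maximalIdeal_le (theta P)
      (fun a ha => by rw [theta_C]; exact C_mem_maximalIdeal ha)
      (fun v => by rw [theta, eval_X]; exact thetaImage_mem P v) (Ideal.mem_map_of_mem _ hy)
  have h := sub_mem_of_generators ((theta P).comp (iota P)) (RingHom.id _) ⊥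
    (fun a => by
      simp only [RingHom.comp_apply, RingHom.id_apply];
      rw [iota_C, theta_C, sub_self]; exact zero_mem _) (fun v => ?_)
    (fun a ha => by
      rw [RingHom.comp_apply, iota_C, theta_C]
      exact C_mem_maximalIdeal ha)
    (fun v => hm _ (by rw [iota, eval_X]; exact iotaImage_mem P v))
    (fun a ha => C_mem_maximalIdeal ha) (fun v => X_mem_maximalIdeal v) x
  · simpa [sub_eq_zero] using h
  · rw [RingHom.comp_apply, iota, eval_X, RingHom.id_apply, Ideal.mem_bot, sub_eq_zero]
    rcases v with v | k | x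
    · simp [theta, iotaImage, thetaImage]
    · refine Fin.addCases (fun j => ?_) (fun f => ?_) k <;>
        simp [theta, iotaImage, thetaImage, flipX]
    · exact x.1.elim0

/-- Modulo the Steinberg coordinates `ι ∘ θ` is the identity. -/
theorem sub_iota_theta_mem {I : Ideal P.Total} (hI : ∀ f j, flipX f (some j) ∈ I) (z : P.Total) :
    z - iota P (theta P z) ∈ I := by
  refine sub_mem_of_generators (RingHom.id _) ((iota P).comp (theta P)) I
    (fun a => by
      simp only [RingHom.comp_apply, RingHom.id_apply];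
      rw [theta_C, iota_C, sub_self]; exact zero_mem _) (fun v => ?_)
    (fun a ha => C_mem_maximalIdeal ha) (fun v => X_mem_maximalIdeal v)
    (fun a ha => by rw [RingHom.comp_apply, theta_C, iota_C]; exact C_mem_maximalIdeal ha)
    (fun v => ?_) z
  · rw [RingHom.id_apply, RingHom.comp_apply, theta, eval_X]
    rcases v with v | j | ⟨f, _ | j⟩
    · simp [thetaImage, iota, iotaImage]
    · simp [thetaImage, iota, iotaImage]
    · simp [thetaImage, iota, iotaImage, flipX]
    · simpa [thetaImage, flipX] using hI f j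
  · rw [RingHom.comp_apply]
    refine map_maximalIdeal_le (iota P) (fun a ha => by rw [iota_C]; exact C_mem_maximalIdeal ha)
      (fun w => by rw [iota, eval_X]; exact iotaImage_mem P w) (Ideal.mem_map_of_mem _ ?_)
    rw [theta, eval_X]
    exact thetaImage_mem P v

theorem map_theta_unipIdeal : P.unipIdeal.map (theta P) ≤ (dropFlips P).unipIdeal := by
  rw [LocalData.unipIdeal, Ideal.map_sup, Ideal.map_sup, Ideal.map_span, Ideal.map_span]
  refine sup_le (sup_le (Ideal.span_le.mpr ?_) (Ideal.span_le.mpr ?_)) ?_
  · rintro _ ⟨_, ⟨i, rfl⟩, rfl⟩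
    rw [map_qf, theta_flipN]
    exact Ideal.mem_sup_left (Ideal.mem_sup_left (Ideal.subset_span ⟨i, rfl⟩))
  · rintro _ ⟨_, ⟨⟨i, u⟩, rfl⟩, rfl⟩
    rw [map_sub, map_mul (theta P), theta_C, map_br, theta_flipS, theta_flipN]
    rw [show theta P (flipN i u) = flipN i u from congrFun (theta_flipN P i) u]
    exact Ideal.mem_sup_left (Ideal.mem_sup_right (Ideal.subset_span ⟨(i, u), rfl⟩))
  · rw [flipIdeal, Ideal.map_span, Ideal.span_le]
    rintro _ ⟨_, ⟨p, rfl⟩, rfl⟩
    simp only [apply_ite (theta P), map_mul, theta_flipX_some, zero_mul, ite_self]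
    exact zero_mem _

omit [IsAdicComplete (maximalIdeal O) O] in
theorem flipIdeal_dropFlips : flipIdeal (dropFlips P).r (dropFlips P).g (dropFlips P).c = ⊥ := by
  rw [flipIdeal, Ideal.span_eq_bot]
  rintro _ ⟨x, rfl⟩
  exact x.1.elim0

theorem map_iota_unipIdeal : (dropFlips P).unipIdeal.map (iota P) ≤ P.unipIdeal := by
  rw [LocalData.unipIdeal, flipIdeal_dropFlips, sup_bot_eq, Ideal.map_sup, Ideal.map_span,
    Ideal.map_span]
  refine sup_le (Ideal.span_le.mpr ?_) (Ideal.span_le.mpr ?_)
  · rintro _ ⟨_, ⟨i, rfl⟩, rfl⟩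
    rw [map_qf, iota_flipN]
    exact Ideal.mem_sup_left (Ideal.mem_sup_left (Ideal.subset_span ⟨i, rfl⟩))
  · rintro _ ⟨_, ⟨⟨i, u⟩, rfl⟩, rfl⟩
    rw [map_sub, map_mul (iota P), iota_C, map_br, iota_flipS, iota_flipN]
    rw [show iota P (flipN i u) = flipN i u from congrFun (iota_flipN P i) u]
    exact Ideal.mem_sup_left (Ideal.mem_sup_right (Ideal.subset_span ⟨(i, u), rfl⟩))

theorem map_iota_resIdeal : (dropFlips P).resIdeal.map (iota P) ≤ P.resIdeal := by
  rw [(dropFlips P).resIdeal_eq, P.resIdeal_eq, Ideal.map_sup, Ideal.map_span, Set.image_singleton,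
    iota_C]
  exact sup_le (le_sup_of_le_left (map_iota_unipIdeal P)) le_sup_right

/-- `θ` on the rings. -/
def thetaBar : P.UnipRing →+* (dropFlips P).UnipRing :=
  Ideal.quotientMap _ (theta P) (Ideal.map_le_iff_le_comap.mp (map_theta_unipIdeal P))

theorem thetaBar_mk (z : P.Total) :
    thetaBar P (Ideal.Quotient.mk _ z) = Ideal.Quotient.mk _ (theta P z) :=
  Ideal.quotientMap_mk

/-- The common quotient map from the ring with flips. -/
def dropRes : P.UnipRing →+* (dropFlips P).ResRing := (dropFlips P).toRes.comp (thetaBar P)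

theorem dropRes_surjective : Function.Surjective (dropRes P) := by
  intro b
  obtain ⟨x, rfl⟩ := Ideal.Quotient.mk_surjective b
  refine ⟨Ideal.Quotient.mk _ (iota P x), ?_⟩
  rw [dropRes, RingHom.comp_apply, thetaBar_mk, LocalData.toRes_mk, theta_iota]

/-- The components with no flip meet the common quotient only in themselves. -/
theorem exists_prime_over_dropRes {K : P.UnipComp} (hK : ∀ f, K.2 f = none) :
    ∃ Q : Ideal P.UnipRing, Q.IsPrime ∧ RingHom.ker (dropRes P) ≤ Q ∧ P.comp K ≤ Q ∧
      ∀ Q₁ ∈ minimalPrimes P.UnipRing, Q₁ ≤ Q → Q₁ = P.comp K := by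
  refine ⟨P.compRes K, P.isPrime_compRes K, fun a ha => ?_, P.comp_le_compRes K,
    P.eq_comp_of_le_compRes K⟩
  obtain ⟨z, rfl⟩ := Ideal.Quotient.mk_surjective a
  rw [RingHom.mem_ker, dropRes, RingHom.comp_apply, thetaBar_mk, LocalData.toRes_mk,
    Ideal.Quotient.eq_zero_iff_mem] at ha
  set I := (P.compRes K).comap (Ideal.Quotient.mk P.unipIdeal)
  have hres : P.resIdeal ≤ I := fun x hx => P.ker_toRes_le_compRes K (by
    rw [RingHom.mem_ker, LocalData.toRes_mk, Ideal.Quotient.eq_zero_iff_mem]
    exact hx)
  have h1 : z - iota P (theta P z) ∈ I := sub_iota_theta_mem P (fun f j => by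
    have h := P.flipX_sub_mem_comp (K := K) (f := f) (o := some j) (by simp [hK f])
    have h2 := P.comp_le_compRes K h
    rw [Ideal.mem_comap]
    simpa [hK f, offValue] using h2) z
  have h2 : iota P (theta P z) ∈ I := hres (map_iota_resIdeal P (Ideal.mem_map_of_mem _ ha))
  have h3 := add_mem h1 h2
  rw [sub_add_cancel] at h3
  exact h3

theorem comp_injective : Function.Injective P.comp := fun K K' h => by
  have h1 := congrArg (Ideal.comap (Ideal.Quotient.mk P.unipIdeal)) h
  rw [LocalData.comp, LocalData.comp, P.comap_mk (P.unipIdeal_le_unipKer K),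
    P.comap_mk (P.unipIdeal_le_unipKer K')] at h1
  exact P.eq_of_unipKer_le_resKer (h1.le.trans (P.unipKer_le_resKer K'))

/-- On an unramified component `a` is free. -/
theorem sub_notMem_comp {K : P.UnipComp} {f : Fin P.s} (hK : K.2 f = none) (j : Fin (P.m f)) :
    Ideal.Quotient.mk P.unipIdeal (flipX f none - MvPowerSeries.C (P.c f j)) ∉ P.comp K := by
  intro h
  have h1 : P.comp (K.1, Function.update K.2 f (some j)) ≤ P.comp K := by
    refine (P.comp_update_le_compDiv hK).trans ?_
    rw [P.compDiv_eq hK]
    exact sup_le le_rfl ((Ideal.span_singleton_le_iff_mem _).mpr h)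
  have h2 := comp_injective P (le_antisymm h1 ((P.comp_mem_minimalPrimes K).2
    ⟨(P.comp_mem_minimalPrimes _).1.1, bot_le⟩ h1))
  have h3 := congrFun (congrArg Prod.snd h2) f
  simp [hK] at h3

end Fermat.Agent.Root.Patched
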