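import Fermat.Agent.Root.Patched.Tower
import Fermat.Agent.Root.Patched.Generators
import Fermat.Agent.Root.Patched.LocalFlips

/-!
# The maps from the local rings to the framed rings of a tower

Values of the variables of the local rings in the framed rings of a tower, and the relations of
the unipotent and character rings which hold there.
-/

set_option autoImplicit false

noncomputable section

open IsLocalRing Polynomial

namespace Fermat.Agent.Root.Patched

open Fermat.Agent.Deformation Fermat.Agent.LocalRing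

local notation "ℚbar" => AlgebraicClosure ℚ

section Closed

variable {O : Type} [CommRing O] [IsLocalRing O] {ρbar : GQ →* M2 (ResidueField O)}

theorem condClosed_unipotent (P : ValuationSubring ℚbar) :
    CondClosed (fun (S : TestRing O) (ℓ : Lift ρbar S) => Unipotent P S ℓ) where
  push S S' φ _ _ r r' h hu σ hσ := by
    rw [h σ, ← RingHom.mapMatrix_apply, RingHom.mapMatrix_apply, Matrix.charpoly_map, hu σ hσ]
    simp
  conj S r r' U _ h hu σ hσ := by
    rw [h σ, Matrix.coe_units_inv, Matrix.charpoly_units_conj]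
    exact hu σ hσ

theorem condClosed_charInertia (τ : GQ) (ζ ζi : O) :
    CondClosed (fun (S : TestRing O) (ℓ : Lift ρbar S) => CharInertia τ ζ ζi S ℓ) where
  push S S' φ ha _ r r' h hc := by
    unfold CharInertia at hc ⊢
    rw [h τ, Matrix.charpoly_map, hc, ← ha]
    simp
  conj S r r' U _ h hc := by
    unfold CharInertia at hc ⊢
    rw [h τ, Matrix.coe_units_inv, Matrix.charpoly_units_conj]
    exact hc

variable {ι : Type} [Fintype ι] {S S' : TestRing O}

/-- A map of test rings, coefficient by coefficient. -/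
def TestRing.mapSeries (σ : Type) [Finite σ] (φ : S.R →+* S'.R) :
    (S.series σ).R →+* (S'.series σ).R :=
  MvPowerSeries.map φ

theorem TestRing.mapSeries_varX {σ : Type} [Finite σ] (φ : S.R →+* S'.R) (w : σ) :
    TestRing.mapSeries σ φ (S.varX w) = S'.varX w :=
  MvPowerSeries.map_X φ w

theorem TestRing.mapSeries_comp_alg {σ : Type} [Finite σ] (φ : S.R →+* S'.R)
    (ha : φ.comp S.alg = S'.alg) :
    (TestRing.mapSeries σ φ).comp (S.series σ).alg = (S'.series σ).alg :=
  RingHom.ext fun c => by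
    show MvPowerSeries.map φ (MvPowerSeries.C (S.alg c)) = MvPowerSeries.C (S'.alg c)
    rw [MvPowerSeries.map_C, ← ha]
    rfl

theorem TestRing.red_comp_mapSeries {σ : Type} [Finite σ] (φ : S.R →+* S'.R)
    (hr : S'.red.comp φ = S.red) :
    (S'.series σ).red.comp (TestRing.mapSeries σ φ) = (S.series σ).red :=
  RingHom.ext fun x => by
    have e : ∀ f : MvPowerSeries σ S.R, MvPowerSeries.constantCoeff (MvPowerSeries.map φ f) =
        φ (MvPowerSeries.constantCoeff f) := fun f => MvPowerSeries.constantCoeff_map φ f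
    exact (congrArg S'.red (e x)).trans (RingHom.congr_fun hr _)

theorem frameY_map (φ : S.R →+* S'.R) (v : ι) :
    (frameY S v).map (TestRing.mapSeries (FrameVar ι) φ) = frameY S' v := by
  ext i j
  fin_cases i <;> fin_cases j <;> simp [frameY, TestRing.mapSeries_varX]

theorem framedAt_push (φ : S.R →+* S'.R) (hr : S'.red.comp φ = S.red) (ℓ : Lift ρbar S) (v : ι)
    (g : GQ) : ((ℓ.push φ hr).framedAt v).M g =
      ((ℓ.framedAt v).M g).map (TestRing.mapSeries (FrameVar ι) φ) := by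
  set ψ := TestRing.mapSeries (FrameVar ι) φ
  have hc : ((ℓ.push φ hr).constSeries (ι := ι)).M g = ((ℓ.constSeries (ι := ι)).M g).map ψ := by
    rw [Lift.constSeries_M, Lift.constSeries_M, Lift.push_M, Matrix.map_map, Matrix.map_map]
    congr 1
    funext x
    exact (MvPowerSeries.map_C (σ := FrameVar ι) φ x).symm
  have hU : (frameU S' v : M2 (S'.framed ι).R) = (frameU S v : M2 (S.framed ι).R).map ψ := by
    rw [coe_frameU, coe_frameU, Matrix.map_add _ (map_add _), frameY_map,
      Matrix.map_one _ (map_zero _) (map_one _)]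
  have hU' : (((frameU S' v)⁻¹ : (M2 (S'.framed ι).R)ˣ) : M2 (S'.framed ι).R) =
      (((frameU S v)⁻¹ : (M2 (S.framed ι).R)ˣ) : M2 (S.framed ι).R).map ψ :=
    Units.inv_eq_of_mul_eq_one_right (by
      rw [hU, ← Matrix.map_mul, Units.mul_inv, Matrix.map_one _ (map_zero _) (map_one _)])
  rw [Lift.framedAt_M, Lift.framedAt_M, Matrix.map_mul, Matrix.map_mul, ← hU, ← hU', hc]

/-- Coordinates of the framed lifts are natural. -/
theorem map_val_framedAt {P : ValuationSubring ℚbar} {σ : Type}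
    {cond : ∀ S : TestRing O, Lift ρbar S → Prop} (hc : CondClosed cond)
    (C : Coords ρbar P σ cond) (φ : S.R →+* S'.R) (ha : φ.comp S.alg = S'.alg)
    (hr : S'.red.comp φ = S.red) (ℓ : Lift ρbar S) (hℓ : cond S ℓ) (v : ι) (i : σ) :
    TestRing.mapSeries (FrameVar ι) φ (C.val (S.framed ι) (ℓ.framedAt v) i) =
      C.val (S'.framed ι) ((ℓ.push φ hr).framedAt v) i :=
  (C.natural _ _ _ (TestRing.mapSeries_comp_alg φ ha) (TestRing.red_comp_mapSeries φ hr)
    (ℓ.framedAt v) _ (framedAt_push φ hr ℓ v) (hc.framedAt ℓ hℓ v) i).symm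

/-- The quotient of a test ring by a proper ideal. -/
def TestRing.quot (S : TestRing O) (I : Ideal S.R) (hI : I ≤ maximalIdeal S.R) : TestRing O :=
  haveI : Nontrivial (S.R ⧸ I) := Ideal.Quotient.nontrivial_iff.mpr fun e =>
    (maximalIdeal.isMaximal S.R).ne_top (top_le_iff.mp (e ▸ hI))
  haveI : IsLocalRing (S.R ⧸ I) :=
    IsLocalRing.of_surjective' (Ideal.Quotient.mk I) Ideal.Quotient.mk_surjective
  haveI : IsLocalHom (algebraMap S.R (S.R ⧸ I)) :=
    IsLocalHom.of_surjective (Ideal.Quotient.mk I) Ideal.Quotient.mk_surjective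
  haveI : Finite (ResidueField (S.R ⧸ I)) := Finite.of_surjective
    (ResidueField.map (algebraMap S.R (S.R ⧸ I))) fun y => by
      obtain ⟨z, rfl⟩ := residue_surjective y
      obtain ⟨x, rfl⟩ := Ideal.Quotient.mk_surjective z
      exact ⟨residue _ x, ResidueField.map_residue _ x⟩
  haveI : IsAdicComplete (maximalIdeal (S.R ⧸ I)) (S.R ⧸ I) :=
    IsLocalRing.isAdicComplete_of_module_finite (𝒪 := S.R) (T := S.R ⧸ I)
  { R := { carrier := S.R ⧸ I }
    alg := (Ideal.Quotient.mk I).comp S.alg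
    red := Ideal.Quotient.lift I S.red fun x hx => (S.ker_red x).mpr (hI hx)
    red_alg := fun a => by simp [S.red_alg]
    ker_red := fun x => by
      obtain ⟨y, rfl⟩ := Ideal.Quotient.mk_surjective x
      rw [Ideal.Quotient.lift_mk, S.ker_red]
      exact ⟨fun h hu => h (isUnit_of_map_unit (algebraMap S.R (S.R ⧸ I)) y hu),
        fun h hu => h (hu.map (Ideal.Quotient.mk I))⟩ }

/-- The projection to the quotient test ring. -/
def TestRing.quotMk (S : TestRing O) (I : Ideal S.R) (hI : I ≤ maximalIdeal S.R) :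
    S.R →+* (S.quot I hI).R :=
  Ideal.Quotient.mk I

theorem TestRing.red_comp_quotMk (S : TestRing O) (I : Ideal S.R) (hI : I ≤ maximalIdeal S.R) :
    (S.quot I hI).red.comp (S.quotMk I hI) = S.red :=
  RingHom.ext fun _x => Ideal.Quotient.lift_mk I S.red fun y hy => (S.ker_red y).mpr (hI hy)

end Closed

variable {O : Type} [CommRing O] [IsDomain O] [IsDiscreteValuationRing O]
  {ρbar : GQ →* M2 (ResidueField O)} {p : ℕ} {Sys : LocalSystem O ρbar p}

/-- The coordinate `a` seen from a frame is constant. -/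
theorem flipA_framedAt (f : Fin Sys.s) {S : TestRing O} (ℓ : Lift ρbar S)
    (hℓ : Sys.flipCond f S ℓ) (v : Sys.Place) :
    Sys.flipA f (S.framed Sys.Place) (ℓ.framedAt v) = S.constHom _ (Sys.flipA f S ℓ) := by
  have hcC := (Sys.flipClosed f).push S (S.framed Sys.Place) (S.constHom _) rfl
    S.red_comp_constHom ℓ ℓ.constSeries (fun _ => rfl) hℓ
  refine (Sys.a_conj f _ ℓ.constSeries (ℓ.framedAt v) _ (frameU_map_red S v) (fun _ => rfl)
    hcC).trans ?_
  exact (Sys.flipC f).natural S (S.framed Sys.Place) (S.constHom _) rfl S.red_comp_constHom ℓ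
    ℓ.constSeries (fun _ => rfl) hℓ (.inl none)

namespace Tower

variable (T : Tower Sys)

/-- The lift with unipotent inertia at the Ihara avoidance places. -/
abbrev ℓU (n : ℕ) : Lift ρbar (T.U n) := (T.ℓ n).push (T.pU n) (T.pU_red n)

/-- The lift with characters at the Ihara avoidance places. -/
abbrev ℓX (n : ℕ) : Lift ρbar (T.X n) := (T.ℓ n).push (T.pX n) (T.pX_red n)

theorem condU (n : ℕ) (v : Sys.Place) : Sys.Cond v (T.U n) (T.ℓU n) :=
  (Sys.closed v).push _ _ _ (T.pU_alg n) (T.pU_red n) _ _ (fun _ => rfl) (T.cond n v)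

theorem condX (n : ℕ) (v : Sys.Place) : Sys.Cond v (T.X n) (T.ℓX n) :=
  (Sys.closed v).push _ _ _ (T.pX_alg n) (T.pX_red n) _ _ (fun _ => rfl) (T.cond n v)

/-- The free coordinates. -/
abbrev FreeVar : Type :=
  (Σ f : Fin Sys.s, Fin (Sys.k f)) ⊕ (Σ u : Fin Sys.t, Fin (Sys.l u)) ⊕ Fin (T.r - 1)

/-- The parameters of the local rings. -/
abbrev localData (ϖ : O) (hϖ : Irreducible ϖ) : LocalData O where
  r := Sys.r
  g := Fintype.card T.FreeVar
  s := Sys.s
  m := Sys.m
  c := Sys.c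
  c_mem := Sys.c_mem
  c_injective := Sys.c_injective
  h := Sys.κ
  h_mem := Sys.κ_mem
  nb := Sys.nb
  ε := Sys.ε
  ε_mem := Sys.ε_mem
  ε_ne := Sys.ε_ne
  ϖ := ϖ
  irreducible := hϖ
  isUnit_two := Sys.isUnit_two

/-- The values of the variables. -/
def varVal (n : ℕ) (G : Fin (T.r - 1) → ((T.J n).framed Sys.Place).R) :
    FlipVar Sys.r (Fintype.card T.FreeVar) Sys.m → ((T.J n).framed Sys.Place).R :=
  Sum.elim (fun x => (Sys.avoidC x.1).val _ ((T.ℓ n).framedAt (Sum.inl x.1)) (x.2.1, x.2.2))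
    (Sum.elim
      (fun j => Sum.elim
        (fun x => (Sys.flipC x.1).val _ ((T.ℓ n).framedAt (Sum.inr (Sum.inl x.1))) (.inr x.2))
        (Sum.elim
          (fun x => (Sys.plainC x.1).val _ ((T.ℓ n).framedAt (Sum.inr (Sum.inr x.1))) x.2) G)
        ((Fintype.equivFin T.FreeVar).symm j))
      fun x => (Sys.flipC x.1).val _ ((T.ℓ n).framedAt (Sum.inr (Sum.inl x.1))) (.inl x.2))

variable [IsAdicComplete (maximalIdeal O) O]

/-- What is needed about a map from the local ring to the framed ring. -/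
structure IsFrameMap (ϖ : O) (hϖ : Irreducible ϖ) (n : ℕ)
    (F : (T.localData ϖ hϖ).Total →+* ((T.J n).framed Sys.Place).R) : Prop where
  surjective : Function.Surjective F
  map_C : ∀ c, F (MvPowerSeries.C c) = ((T.J n).framed Sys.Place).alg c
  map_avoid : ∀ i b u, F (MvPowerSeries.X (.inl (i, b, u))) =
    (Sys.avoidC i).val _ ((T.ℓ n).framedAt (Sum.inl i)) (b, u)
  map_flip : ∀ f o, F (flipX f o) =
    (Sys.flipC f).val _ ((T.ℓ n).framedAt (Sum.inr (Sum.inl f))) (.inl o)
  mem : ∀ x, F (MvPowerSeries.X x) ∈ maximalIdeal ((T.J n).framed Sys.Place).R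

theorem exists_frameMap [Fact p.Prime] (hp : (p : O) ∈ maximalIdeal O) (ϖ : O) (hϖ : Irreducible ϖ)
    (Pn : ℕ → ValuationSubring ℚbar) (hPn : ∀ v, Pn (Sys.q v) = Sys.P v)
    (ρ : GQ →* GL (Fin 2) (ResidueField O)) (hρ : ∀ σ, (ρ σ).val = ρbar σ)
    (hadj : ∀ U : Submodule (ResidueField O) (Matrix (Fin 2) (Fin 2) (ResidueField O)),
      (∀ M ∈ U, M.trace = 0) →
      (∀ σ : GQ, (∀ μ : ℚbar, μ ^ p = 1 → σ μ = μ) → ∀ M ∈ U, adAct ρ σ M ∈ U) →
      U = ⊥ ∨ ∀ M : Matrix (Fin 2) (Fin 2) (ResidueField O), M.trace = 0 → M ∈ U)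
    (n : ℕ)
    (hbound : ∀ (m : ℕ) (x : Fin m → (GQ → Matrix (Fin 2) (Fin 2) (ResidueField O)) ×
        (ℕ → Matrix (Fin 2) (Fin 2) (ResidueField O))),
      (∀ i, IsFramedKernel ρ (Finset.univ.image Sys.q) (T.Q n) Pn (x i)) →
        LinearIndependent (ResidueField O) x → m ≤ T.r + 2) :
    1 ≤ T.r ∧ ∃ F, T.IsFrameMap ϖ hϖ n F := by
  obtain ⟨hr, G, hG, hmax⟩ := exists_generators_framed hp (T.J n) (T.ℓ n) (T.det n) (T.gen n)
    Sys.q Sys.q_injective Pn Sys.P hPn Sys.Var Sys.Cond Sys.closed (T.cond n) Sys.coords (T.Q n)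
    (T.unramified n) ρ hρ hadj T.r hbound
  refine ⟨hr, ?_⟩
  have hmem : ∀ x, T.varVal n G x ∈ maximalIdeal ((T.J n).framed Sys.Place).R := by
    rintro (⟨i, b, u⟩ | j | ⟨f, o⟩)
    · exact (Sys.avoidC i).mem _ _
        ((condClosed_detCyclotomic p).framedAt (T.ℓ n) (T.det n) _) _
    · simp only [varVal, Sum.elim_inr, Sum.elim_inl]
      rcases (Fintype.equivFin T.FreeVar).symm j with x | x | x
      · exact (Sys.flipC x.1).mem _ _ ((Sys.flipClosed x.1).framedAt (T.ℓ n)
          (T.cond n (Sum.inr (Sum.inl x.1))) _) _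
      · exact (Sys.plainC x.1).mem _ _ ((Sys.plainClosed x.1).framedAt (T.ℓ n)
          (T.cond n (Sum.inr (Sum.inr x.1))) _) _
      · exact hG x
    · exact (Sys.flipC f).mem _ _ ((Sys.flipClosed f).framedAt (T.ℓ n)
        (T.cond n (Sum.inr (Sum.inl f))) _) _
  let F : (T.localData ϖ hϖ).Total →+* ((T.J n).framed Sys.Place).R :=
    LocalRing.eval ((T.J n).framed Sys.Place).alg (T.varVal n G) hmem
  have hX : ∀ x, F (MvPowerSeries.X x) = T.varVal n G x := fun x => LocalRing.eval_X _ _ _ x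
  have hC : ∀ c, F (MvPowerSeries.C c) = ((T.J n).framed Sys.Place).alg c := fun c =>
    LocalRing.eval_C _ _ _ c
  have halg : ∀ c ∈ maximalIdeal O,
      ((T.J n).framed Sys.Place).alg c ∈ maximalIdeal ((T.J n).framed Sys.Place).R := fun c hc => by
    rw [← ((T.J n).framed Sys.Place).ker_red, ((T.J n).framed Sys.Place).red_alg,
      residue_eq_zero_iff]; exact hc
  have hle : (maximalIdeal (T.localData ϖ hϖ).Total).map F ≤
      maximalIdeal ((T.J n).framed Sys.Place).R :=
    map_maximalIdeal_le F (fun c hc => by rw [hC]; exact halg c hc)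
      (fun x => by rw [hX]; exact hmem x)
  have : IsLocalHom F := ⟨fun x hx => by
    by_contra hu
    exact (mem_maximalIdeal _).mp (hle (Ideal.mem_map_of_mem _ ((mem_maximalIdeal x).mpr hu))) hx⟩
  refine ⟨F, ?_, hC, fun i b u => hX _, fun f o => hX _, fun x => by rw [hX]; exact hmem x⟩
  refine surjective_of_tangent F (fun b => ?_) fun J _ _ hJ ψ _ hψ => RingHom.ext fun b => ?_
  · obtain ⟨c, hc⟩ := residue_surjective (((T.J n).framed Sys.Place).red b)
    refine ⟨MvPowerSeries.C c, ?_⟩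
    rw [hC, ← ((T.J n).framed Sys.Place).ker_red, map_sub, ((T.J n).framed Sys.Place).red_alg,
      hc, sub_self]
  · have key : ∀ x, T.varVal n G x ∈ J := fun x => by
      rw [← hX]; exact hJ (Ideal.mem_map_of_mem F (X_mem_maximalIdeal x))
    have hmJ : maximalIdeal ((T.J n).framed Sys.Place).R ≤ J := by
      rw [hmax]
      refine sup_le (sup_le ?_ ?_) ?_
      · rw [Ideal.span_le]
        rintro _ ⟨⟨v, i⟩, rfl⟩
        rcases v with j | f | u
        · exact key (Sum.inl (j, i.1, i.2))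
        · rcases i with o | k
          · exact key (Sum.inr (Sum.inr ⟨f, o⟩))
          · have h := key (Sum.inr (Sum.inl (Fintype.equivFin T.FreeVar (.inl ⟨f, k⟩))))
            simp only [varVal, Sum.elim_inr, Sum.elim_inl, Equiv.symm_apply_apply] at h
            exact h
        · have h := key (Sum.inr (Sum.inl (Fintype.equivFin T.FreeVar (.inr (.inl ⟨u, i⟩)))))
          simp only [varVal, Sum.elim_inr, Sum.elim_inl, Equiv.symm_apply_apply] at h
          exact h
      · rw [Ideal.span_le]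
        rintro _ ⟨j, rfl⟩
        have h := key (Sum.inr (Sum.inl (Fintype.equivFin T.FreeVar (.inr (.inr j)))))
        simpa [varVal] using h
      · rw [Ideal.map_le_iff_le_comap]
        intro c hc
        refine hJ ?_
        have h := Ideal.mem_map_of_mem F (C_mem_maximalIdeal
          (σ := FlipVar Sys.r (Fintype.card T.FreeVar) Sys.m) hc)
        rwa [hC] at h
    have h := hψ b
    rw [Ideal.map_mk_eq_bot_of_le hmJ, Ideal.mem_bot, sub_eq_zero] at h
    exact h

variable {T} {ϖ : O} {hϖ : Irreducible ϖ} {n : ℕ}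
  {F : (T.localData ϖ hϖ).Total →+* ((T.J n).framed Sys.Place).R}

section Maps

variable {S : TestRing O} (φ : (T.J n).R →+* S.R) (ha : φ.comp (T.J n).alg = S.alg)
  (hr : S.red.comp φ = (T.J n).red)

/-- The composite with a quotient of `J n`. -/
def mapTo (F : (T.localData ϖ hϖ).Total →+* ((T.J n).framed Sys.Place).R) :
    (T.localData ϖ hϖ).Total →+* (S.framed Sys.Place).R :=
  (TestRing.mapSeries _ φ).comp F

include ha in
omit [IsAdicComplete (maximalIdeal O) O] in
theorem mapTo_C (hF : T.IsFrameMap ϖ hϖ n F) (c : O) :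
    mapTo φ F (MvPowerSeries.C c) = (S.framed Sys.Place).alg c := by
  rw [mapTo, RingHom.comp_apply, hF.map_C]
  exact RingHom.congr_fun (TestRing.mapSeries_comp_alg φ ha) c

include ha in
omit [IsAdicComplete (maximalIdeal O) O] in
theorem mapTo_flipS (hF : T.IsFrameMap ϖ hϖ n F) (i : Fin Sys.r) :
    mapTo φ F ∘ flipS i = fun u =>
      (Sys.avoidC i).val _ (((T.ℓ n).push φ hr).framedAt (Sum.inl i)) (false, u) := by
  funext u
  show mapTo φ F (MvPowerSeries.X _) = _
  rw [mapTo, RingHom.comp_apply, hF.map_avoid,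
    map_val_framedAt (condClosed_detCyclotomic p) _ φ ha hr _ (T.det n)]

include ha in
omit [IsAdicComplete (maximalIdeal O) O] in
theorem mapTo_flipN (hF : T.IsFrameMap ϖ hϖ n F) (i : Fin Sys.r) :
    mapTo φ F ∘ flipN i = fun u =>
      (Sys.avoidC i).val _ (((T.ℓ n).push φ hr).framedAt (Sum.inl i)) (true, u) := by
  funext u
  show mapTo φ F (MvPowerSeries.X _) = _
  rw [mapTo, RingHom.comp_apply, hF.map_avoid,
    map_val_framedAt (condClosed_detCyclotomic p) _ φ ha hr _ (T.det n)]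

include ha in
omit [IsAdicComplete (maximalIdeal O) O] in
theorem mapTo_flipX (hF : T.IsFrameMap ϖ hϖ n F) (f : Fin Sys.s) (o : Option (Fin (Sys.m f))) :
    mapTo φ F (flipX f o) =
      (Sys.flipC f).val _ (((T.ℓ n).push φ hr).framedAt (Sum.inr (Sum.inl f))) (.inl o) := by
  rw [mapTo, RingHom.comp_apply, hF.map_flip,
    map_val_framedAt (Sys.flipClosed f) _ φ ha hr _ (T.cond n (Sum.inr (Sum.inl f)))]

include ha hr in
omit [IsAdicComplete (maximalIdeal O) O] in
/-- `a` maps to a constant. -/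
theorem mapTo_flipX_none (hF : T.IsFrameMap ϖ hϖ n F) (f : Fin Sys.s) :
    mapTo φ F (flipX f none) = S.constHom _ (Sys.flipA f S ((T.ℓ n).push φ hr)) := by
  rw [mapTo_flipX φ ha hr hF]
  exact flipA_framedAt f _ ((Sys.flipClosed f).push _ _ φ ha hr _ _ (fun _ => rfl)
    (T.cond n (Sum.inr (Sum.inl f)))) _

end Maps

omit [IsAdicComplete (maximalIdeal O) O] in
/-- The relations of `UnipRing` hold in the framed ring of `U n`. -/
theorem mapTo_pU_unipIdeal (hF : T.IsFrameMap ϖ hϖ n F) :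
    ∀ x ∈ (T.localData ϖ hϖ).unipIdeal, mapTo (T.pU n) F x = 0 := by
  have := T.reducedU n
  have : IsReduced ((T.U n).framed Sys.Place).R :=
    isReduced_mvPowerSeries (σ := FrameVar Sys.Place) (R := (T.U n).R)
  suffices h : (T.localData ϖ hϖ).unipIdeal ≤ RingHom.ker (mapTo (T.pU n) F) from
    fun x hx => RingHom.mem_ker.mp (h hx)
  have hS := mapTo_flipS (T.pU n) (T.pU_alg n) (T.pU_red n) hF
  have hN := mapTo_flipN (T.pU n) (T.pU_alg n) (T.pU_red n) hF
  have hav : ∀ i, _ := fun i => Sys.avoid_unip i _ ((T.ℓU n).framedAt (Sum.inl i : Sys.Place))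
    ((condClosed_detCyclotomic p).framedAt _ ((condClosed_detCyclotomic p).push _ _ _
      (T.pU_alg n) (T.pU_red n) _ _ (fun _ => rfl) (T.det n)) _)
    ((condClosed_unipotent _).framedAt _ (T.unip n i) _)
  rw [LocalData.unipIdeal, flipIdeal]
  refine sup_le (sup_le (Ideal.span_le.mpr ?_) (Ideal.span_le.mpr ?_)) (Ideal.span_le.mpr ?_)
  · rintro _ ⟨i, rfl⟩
    rw [SetLike.mem_coe, RingHom.mem_ker, map_qf, hN]
    exact (hav i).1
  · rintro _ ⟨⟨i, u⟩, rfl⟩
    rw [SetLike.mem_coe, RingHom.mem_ker, map_sub, map_mul, map_br, hS, hN,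
      mapTo_C (T.pU n) (T.pU_alg n) hF,
      show mapTo (T.pU n) F (flipN i u) = _ from congrFun (hN i) u]
    exact sub_eq_zero.mpr ((hav i).2.1 u)
  · rintro _ ⟨⟨f, j, l⟩, rfl⟩
    have hrel := Sys.flip_rel f _ ((T.ℓU n).framedAt (Sum.inr (Sum.inl f) : Sys.Place))
      ((Sys.flipClosed f).framedAt _ (T.condU n (Sum.inr (Sum.inl f))) _)
    rw [SetLike.mem_coe, RingHom.mem_ker]
    simp only
    by_cases hjl : j = l
    · rw [if_pos hjl, map_mul, map_sub, mapTo_C (T.pU n) (T.pU_alg n) hF,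
        mapTo_flipX (T.pU n) (T.pU_alg n) (T.pU_red n) hF,
        mapTo_flipX (T.pU n) (T.pU_alg n) (T.pU_red n) hF]
      exact IsNilpotent.eq_zero ⟨2, hrel.1 j⟩
    · rw [if_neg hjl, map_mul, mapTo_flipX (T.pU n) (T.pU_alg n) (T.pU_red n) hF,
        mapTo_flipX (T.pU n) (T.pU_alg n) (T.pU_red n) hF]
      exact hrel.2 j l hjl

/-- The relations of `CharRing` without flips hold in the framed ring of `X n`. -/
theorem mapTo_pX_chiIdeal (hF : T.IsFrameMap ϖ hϖ n F) :
    ∀ x ∈ (dropFlips (T.localData ϖ hϖ)).chiIdeal,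
      mapTo (T.pX n) F (iota (T.localData ϖ hϖ) x) = 0 := by
  set G := (mapTo (T.pX n) F).comp (iota (T.localData ϖ hϖ))
  suffices h : (dropFlips (T.localData ϖ hϖ)).chiIdeal ≤ RingHom.ker G from
    fun x hx => RingHom.mem_ker.mp (h hx)
  have hC : ∀ c, G (MvPowerSeries.C c) = ((T.X n).framed Sys.Place).alg c := fun c => by
    rw [RingHom.comp_apply, iota_C, mapTo_C (T.pX n) (T.pX_alg n) hF]
  have hS : ∀ i, G ∘ flipS i = fun u => (Sys.avoidC i).val ((T.X n).framed Sys.Place)
      ((T.ℓX n).framedAt (Sum.inl i)) (false, u) := fun i => by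
    rw [RingHom.coe_comp, Function.comp_assoc, iota_flipS]
    exact mapTo_flipS (T.pX n) (T.pX_alg n) (T.pX_red n) hF i
  have hN : ∀ i, G ∘ flipN i = fun u => (Sys.avoidC i).val ((T.X n).framed Sys.Place)
      ((T.ℓX n).framedAt (Sum.inl i)) (true, u) := fun i => by
    rw [RingHom.coe_comp, Function.comp_assoc, iota_flipN]
    exact mapTo_flipN (T.pX n) (T.pX_alg n) (T.pX_red n) hF i
  -- at each component of `X n` the relations hold
  have hav : ∀ (i : Fin Sys.r) (𝔭 : Ideal (T.X n).R), 𝔭 ∈ minimalPrimes (T.X n).R → ∀ α,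
      (∀ u, MvPowerSeries.coeff (R := (T.X n).R) α
          (br (G ∘ flipS i) (G ∘ flipN i) u : ((T.X n).framed Sys.Place).R) ∈ 𝔭) ∧
        MvPowerSeries.coeff (R := (T.X n).R) α (G (∏ b, (qf (flipN i) -
          MvPowerSeries.C (Sys.ε b * Sys.ε b)))) ∈ 𝔭 := by
    intro i 𝔭 h𝔭 α
    have hI : 𝔭 ≤ maximalIdeal (T.X n).R := IsLocalRing.le_maximalIdeal h𝔭.1.1.ne_top
    obtain ⟨b, hb⟩ := T.char n i 𝔭 h𝔭
    let Y : TestRing O := (T.X n).quot 𝔭 hI
    let π : (T.X n).R →+* Y.R := (T.X n).quotMk 𝔭 hI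
    have hπr : Y.red.comp π = (T.X n).red := (T.X n).red_comp_quotMk 𝔭 hI
    let Ψ := TestRing.mapSeries (FrameVar Sys.Place) π
    have hdet : DetCyclotomic p (T.X n) (T.ℓX n) := (condClosed_detCyclotomic p).push _ _ _
      (T.pX_alg n) (T.pX_red n) _ _ (fun _ => rfl) (T.det n)
    have hdetY : DetCyclotomic p Y ((T.ℓX n).push π hπr) :=
      (condClosed_detCyclotomic p).push _ _ _ rfl hπr _ _ (fun _ => rfl) hdet
    have hcharY : CharInertia (Sys.τ i) (Sys.ζ b) (Sys.ζi b) Y ((T.ℓX n).push π hπr) := by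
      unfold CharInertia
      rw [Lift.push_M, Matrix.charpoly_map]
      refine hb.trans ?_
      simp only [Polynomial.map_mul, Polynomial.map_sub, Polynomial.map_X, Polynomial.map_C]
      rfl
    have hav := Sys.avoid_char i b _ (((T.ℓX n).push π hπr).framedAt (Sum.inl i : Sys.Place))
      ((condClosed_detCyclotomic p).framedAt _ hdetY _)
      ((condClosed_charInertia _ _ _).framedAt _ hcharY _)
    have hxy : ∀ bu, Ψ ((Sys.avoidC i).val _ ((T.ℓX n).framedAt (Sum.inl i : Sys.Place)) bu) =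
        (Sys.avoidC i).val _ (((T.ℓX n).push π hπr).framedAt (Sum.inl i : Sys.Place)) bu :=
      fun bu => map_val_framedAt (condClosed_detCyclotomic p) _ π rfl hπr _ hdet _ bu
    have hΨS : (Ψ ∘ (G ∘ flipS i)) = fun u => (Sys.avoidC i).val _
        (((T.ℓX n).push π hπr).framedAt (Sum.inl i : Sys.Place)) (false, u) := by
      rw [hS i]; funext u; exact hxy _
    have hΨN : (Ψ ∘ (G ∘ flipN i)) = fun u => (Sys.avoidC i).val _
        (((T.ℓX n).push π hπr).framedAt (Sum.inl i : Sys.Place)) (true, u) := by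
      rw [hN i]; funext u; exact hxy _
    have hcoe : ∀ y, Ψ y = 0 → MvPowerSeries.coeff (R := (T.X n).R) α y ∈ 𝔭 := fun y hy => by
      rw [← Ideal.Quotient.eq_zero_iff_mem]
      have h := congrArg (MvPowerSeries.coeff (R := Y.R) α) hy
      erw [MvPowerSeries.coeff_map, map_zero] at h
      exact h
    refine ⟨fun u => hcoe _ ?_, hcoe _ ?_⟩
    · rw [map_br, hΨS, hΨN]
      exact hav.2 u
    · have h4 := hav.1
      rw [← Sys.ε_eq, mul_pow, map_mul, map_pow, map_ofNat] at h4
      have h4u : IsUnit (4 : (Y.framed Sys.Place).R) := by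
        have := ((Sys.isUnit_two.mul Sys.isUnit_two).map (Y.framed Sys.Place).alg)
        rwa [map_mul, map_ofNat, show (2 : (Y.framed Sys.Place).R) * 2 = 4 by norm_num] at this
      rw [map_prod, map_prod]
      refine Finset.prod_eq_zero (Finset.mem_univ b) ?_
      rw [map_sub, map_sub, map_qf, map_qf, hΨN, hC,
        show Ψ (((T.X n).framed Sys.Place).alg (Sys.ε b * Sys.ε b)) =
          (Y.framed Sys.Place).alg (Sys.ε b * Sys.ε b) from
          RingHom.congr_fun (TestRing.mapSeries_comp_alg π rfl) _, map_mul]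
      refine h4u.mul_left_cancel ?_
      rw [mul_sub, h4, map_pow, mul_zero]
      ring
  have := T.reducedX n
  have hzero : ∀ y : ((T.X n).framed Sys.Place).R, (∀ 𝔭 ∈ minimalPrimes (T.X n).R, ∀ α,
      MvPowerSeries.coeff (R := (T.X n).R) α y ∈ 𝔭) → y = 0 := fun y hy => by
    refine MvPowerSeries.ext (R := (T.X n).R) fun α => ?_
    erw [map_zero]
    have h : MvPowerSeries.coeff (R := (T.X n).R) α y ∈ sInf (minimalPrimes (T.X n).R) :=
      Ideal.mem_sInf.mpr fun 𝔭 h𝔭 => hy 𝔭 h𝔭 α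
    rw [minimalPrimes, Ideal.sInf_minimalPrimes] at h
    change _ ∈ nilradical (T.X n).R at h
    rwa [nilradical_eq_zero, Submodule.zero_eq_bot, Ideal.mem_bot] at h
  rw [LocalData.chiIdeal, flipIdeal_dropFlips, sup_bot_eq]
  refine sup_le (Ideal.span_le.mpr ?_) (Ideal.span_le.mpr ?_)
  · rintro _ ⟨i, rfl⟩
    rw [SetLike.mem_coe, RingHom.mem_ker]
    exact hzero _ fun 𝔭 h𝔭 α => (hav i 𝔭 h𝔭 α).2
  · rintro _ ⟨⟨i, u⟩, rfl⟩
    rw [SetLike.mem_coe, RingHom.mem_ker, map_br]
    exact hzero _ fun 𝔭 h𝔭 α => (hav i 𝔭 h𝔭 α).1 u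

end Tower

end Fermat.Agent.Root.Patched
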