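import Fermat.Agent.LocalModel.Avoid
import Fermat.Agent.LocalModel.Ram
import Fermat.Agent.LocalModel.Flip
import Fermat.Agent.LocalModelP.Steinberg
import Fermat.Agent.LocalModelP.Ordinary
import Fermat.Agent.LocalModelP.Flat
import Fermat.Agent.Root.Patched.LocalDefs
import Fermat.Agent.Root.Patched.TowerMap
import Fermat.Agent.Root.Patched.FlatClosed

/-!
# The local model at a single place

One bundle per type of place, built from the coordinates of `LocalModel` (places `q ≠ p`: avoidance,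
ramified Steinberg, flip) and `LocalModelP` (places over `p`: flat, Steinberg, ordinary flip);
`Root/Patched/System.lean` glues them into a local system.
-/

set_option autoImplicit false

noncomputable section

open IsLocalRing Polynomial

namespace Fermat.Agent.Root.Patched

open Fermat.Agent.Deformation Fermat.Agent.LocalRing

local notation "ℚbar" => AlgebraicClosure ℚ

section Closed

variable {O : Type} [CommRing O] [IsLocalRing O] {ρbar : GQ →* M2 (ResidueField O)}
  {P : ValuationSubring ℚbar}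

theorem CondClosed.and {c₁ c₂ : ∀ S : TestRing O, Lift ρbar S → Prop} (h₁ : CondClosed c₁)
    (h₂ : CondClosed c₂) : CondClosed (fun S r => c₁ S r ∧ c₂ S r) where
  push S S' φ ha hr r r' h hc :=
    ⟨h₁.push S S' φ ha hr r r' h hc.1, h₂.push S S' φ ha hr r r' h hc.2⟩
  conj S r r' U hU h hc := ⟨h₁.conj S r r' U hU h hc.1, h₂.conj S r r' U hU h hc.2⟩

theorem ordinaryShape_push {S S' : TestRing O} (φ : S.R →+* S'.R) {r : Lift ρbar S}
    {r' : Lift ρbar S'} (h : ∀ g, r'.M g = (r.M g).map φ)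
    {s : P.decompositionSubgroup ℚ →* S.R} (hs : OrdinaryShape P S r s) :
    OrdinaryShape P S' r' ((φ : S.R →* S'.R).comp s) := by
  refine ⟨fun g hg => by rw [MonoidHom.comp_apply, hs.1 g hg, map_one], fun g k => ?_⟩
  have h1 : φ.mapMatrix ((r.M g - ((r.M g).det * s g⁻¹) • (1 : M2 S.R)) *
      (r.M k - s k • (1 : M2 S.R))) = φ.mapMatrix 0 := congrArg φ.mapMatrix (hs.2 g k)
  have hsc : ∀ c : S.R, φ.mapMatrix (c • (1 : M2 S.R)) = φ c • (1 : M2 S'.R) := fun c => by
    ext i j
    fin_cases i <;> fin_cases j <;> simp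
  rw [map_mul, map_sub, map_sub, map_zero, hsc, hsc, map_mul, RingHom.map_det] at h1
  rw [h, h]
  exact h1

theorem ordinaryShape_conj {S : TestRing O} {r r' : Lift ρbar S} (U : (M2 S.R)ˣ)
    (h : ∀ g, r'.M g = (U : M2 S.R) * r.M g * (↑U⁻¹ : M2 S.R))
    {s : P.decompositionSubgroup ℚ →* S.R} (hs : OrdinaryShape P S r s) :
    OrdinaryShape P S r' s := by
  refine ⟨hs.1, fun g k => ?_⟩
  have e : ∀ (g : GQ) (c : S.R), r'.M g - c • (1 : M2 S.R) =
      (U : M2 S.R) * (r.M g - c • (1 : M2 S.R)) * (↑U⁻¹ : M2 S.R) := fun g c => by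
    rw [h, mul_sub, sub_mul, mul_smul_comm, mul_one, smul_mul_assoc, Units.mul_inv]
  rw [h g, Matrix.det_units_conj, ← h g, e, e,
    show ∀ X Y : M2 S.R, (U : M2 S.R) * X * (↑U⁻¹ : M2 S.R) * ((U : M2 S.R) * Y * (↑U⁻¹ : M2 S.R)) =
      (U : M2 S.R) * (X * Y) * (↑U⁻¹ : M2 S.R) from fun X Y => by
        simp only [mul_assoc, Units.inv_mul_cancel_left],
    hs.2 g k, mul_zero, zero_mul]

theorem condClosed_steinbergShape (P : ValuationSubring ℚbar) :
    CondClosed (fun (S : TestRing O) (r : Lift ρbar S) => SteinbergShape P S r) where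
  push S S' φ _ _ r r' h hc := by
    obtain ⟨s, hs, h2⟩ := hc
    exact ⟨_, ordinaryShape_push φ h hs, fun g => by
      rw [MonoidHom.comp_apply, ← map_mul, h2, map_one]⟩
  conj S r r' U _ h hc := by
    obtain ⟨s, hs, h2⟩ := hc
    exact ⟨s, ordinaryShape_conj U h hs, h2⟩

/-- Ordinary with the quotient character `≡ s₀` at `φ`. -/
theorem condClosed_ordinary (P : ValuationSubring ℚbar) (φ : P.decompositionSubgroup ℚ) (s₀ : O) :
    CondClosed (fun (S : TestRing O) (r : Lift ρbar S) =>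
      ∃ s, OrdinaryShape P S r s ∧ S.red (s φ) = residue O s₀) where
  push S S' ψ _ hr r r' h hc := by
    obtain ⟨s, hs, h2⟩ := hc
    exact ⟨_, ordinaryShape_push ψ h hs, (RingHom.congr_fun hr (s φ)).trans h2⟩
  conj S r r' U _ h hc := by
    obtain ⟨s, hs, h2⟩ := hc
    exact ⟨s, ordinaryShape_conj U h hs, h2⟩

/-- Steinberg: the trace is the character times `1 + det`. -/
theorem SteinbergShape.trace_eq {S : TestRing O} {r : Lift ρbar S}
    {s : P.decompositionSubgroup ℚ →* S.R} (hs : OrdinaryShape P S r s) (hsq : ∀ g, s g * s g = 1)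
    (g : P.decompositionSubgroup ℚ) : (r.M g).trace = s g * (1 + (r.M g).det) := by
  have hinv : s g⁻¹ = s g := by
    calc s g⁻¹ = s g⁻¹ * (s g * s g) := by rw [hsq, mul_one]
      _ = s g := by rw [← mul_assoc, ← map_mul, inv_mul_cancel, map_one, one_mul]
  have h := hs.2 g g
  rw [hinv] at h
  set M := r.M g with hM
  set d := M.det with hd
  set a := s g
  have hzero : (M.trace - a * (1 + d)) • M = 0 := by
    refine Eq.trans ?_ h
    refine Matrix.ext fun i j => ?_
    have haa : a * a = 1 := hsq g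
    fin_cases i <;> fin_cases j <;>
      simp [hd, Matrix.mul_apply, Fin.sum_univ_two, Matrix.trace_fin_two, Matrix.det_fin_two] <;>
      first
      | ring1
      | linear_combination (M 0 1 * M 1 0 - M 0 0 * M 1 1) * haa
  have hu : IsUnit M := by rw [hM]; exact ⟨Units.map r.M (toUnits (g : GQ)), rfl⟩
  obtain ⟨u, hu⟩ := hu
  have h3 := congrArg (fun Z => (Z * (↑u⁻¹ : M2 S.R)) 0 0) hzero
  simp only [smul_mul_assoc, ← hu, Units.mul_inv, zero_mul, Matrix.zero_apply, Matrix.smul_apply,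
    Matrix.one_apply_eq, smul_eq_mul, mul_one] at h3
  rw [hu] at h3
  exact sub_eq_zero.mp h3

theorem ValuationSubring.inertia_mem_decomposition {A : ValuationSubring ℚbar} {σ : GQ}
    (hσ : σ ∈ A.inertiaSubgroupIn ℚ) : σ ∈ A.decompositionSubgroup ℚ := by
  obtain ⟨τ, -, rfl⟩ := hσ
  exact τ.2

end Closed

variable {O : Type} [CommRing O] [IsDomain O] [IsDiscreteValuationRing O]
  (ρbar : GQ →* M2 (ResidueField O)) (p q : ℕ)

/-- The model at an Ihara avoidance place. -/
structure AvoidModel where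
  P : ValuationSubring ℚbar
  lies : P.LiesOverPrime q
  mod : q % p = 1
  κ : O
  κ_mem : κ ∈ maximalIdeal O
  φ : GQ
  frob : P.IsFrobeniusAt φ q
  τ : GQ
  tame : LocalModel.IsTameGenerator p q P τ
  inertia : ∀ σ ∈ P.inertiaSubgroupIn ℚ, ρbar σ = 1
  scalar : ∀ σ, P.IsFrobeniusAt σ q →
    ∃ c : ResidueField O, ρbar σ = c • (1 : M2 (ResidueField O))
  C : Coords ρbar P (Bool × Fin 3) fun S r => DetCyclotomic p S r
  unip : ∀ S r, DetCyclotomic p S r → Unipotent P S r →
    let x : Fin 3 → S.R := fun u => C.val S r (false, u)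
    let N : Fin 3 → S.R := fun u => C.val S r (true, u)
    qf N = 0 ∧ (∀ u, br x N u = S.alg (2 * κ) * N u) ∧
      (qf x - S.alg (κ * κ)) * ((r.M φ).trace ^ 2) =
        (r.M φ).trace ^ 2 * (1 - S.alg (κ * κ)) - 4 * (q : S.R)
  char : ∀ ζ ζi : O, ζ * ζi = 1 → ζ ^ p = 1 → ζ ≠ 1 → ∀ S r, DetCyclotomic p S r →
    CharInertia τ ζ ζi S r →
    let x : Fin 3 → S.R := fun u => C.val S r (false, u)
    let N : Fin 3 → S.R := fun u => C.val S r (true, u)
    4 * qf N = S.alg ((ζ - ζi) ^ 2) ∧ ∀ u, br x N u = 0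

/-- The model at a flip place. -/
structure FlipModel where
  P : ValuationSubring ℚbar
  lies : P.LiesOverPrime q
  m : ℕ
  c : Fin m → O
  c_mem : ∀ j, c j ∈ maximalIdeal O
  c_injective : Function.Injective c
  k : ℕ
  k_le : k ≤ 2 + if q = p then 1 else 0
  cond : ∀ S : TestRing O, Lift ρbar S → Prop
  closed : CondClosed cond
  C : Coords ρbar P (Option (Fin m) ⊕ Fin k) cond
  rel : ∀ S r, cond S r →
    let a := C.val S r (.inl none)
    let x : Fin m → S.R := fun j => C.val S r (.inl (some j))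
    (∀ j, (x j * (a - S.alg (c j))) ^ 2 = 0) ∧ ∀ j l, j ≠ l → x j * x l = 0
  a_conj : ∀ (S : TestRing O) (r r' : Lift ρbar S) (U : (M2 S.R)ˣ),
    (U : M2 S.R).map S.red = 1 → (∀ g, r'.M g = (U : M2 S.R) * r.M g * (↑U⁻¹ : M2 S.R)) →
      cond S r → C.val S r' (.inl none) = C.val S r (.inl none)
  Tr : MvPowerSeries Unit O
  det_eq : ∃ u : MvPowerSeries Unit O, IsUnit u ∧
    MvPowerSeries.C (((q : O) + 1) ^ 2) - Tr ^ 2 =
      u * ∏ j, (MvPowerSeries.X () - MvPowerSeries.C (c j))
  s₀ : O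
  s₀_sq : s₀ * s₀ = 1
  φ : P.decompositionSubgroup ℚ
  frob : P.IsFrobeniusAt (φ : GQ) q
  cond_ne : q ≠ p → ∀ S r, cond S r ↔ DetCyclotomic p S r ∧ Unipotent P S r
  inertia : q ≠ p → ∀ σ ∈ P.inertiaSubgroupIn ℚ, ρbar σ = 1
  a_ne : q ≠ p → ∀ S r, cond S r →
    C.val S r (.inl none) = (r.M φ).trace - S.alg (s₀ * ((q : O) + 1))
  c_ne : q ≠ p → ∀ x ∈ maximalIdeal O,
    (x + s₀ * ((q : O) + 1)) ^ 2 = ((q : O) + 1) ^ 2 ↔ ∃ j, c j = x
  Tr_ne : q ≠ p → Tr = MvPowerSeries.X () + MvPowerSeries.C (s₀ * ((q : O) + 1))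
  cond_eq : q = p → ∀ S r, cond S r ↔ DetCyclotomic p S r ∧
    ∃ s, OrdinaryShape P S r s ∧ S.red (s φ) = residue O s₀
  a_eq : q = p → ∀ S r s, DetCyclotomic p S r → OrdinaryShape P S r s →
    S.red (s φ) = residue O s₀ → C.val S r (.inl none) = s φ - S.alg s₀
  c_eq : q = p → ∀ j, c j = 0
  Tr_eq : q = p → Tr * (MvPowerSeries.X () + MvPowerSeries.C s₀) =
    (MvPowerSeries.X () + MvPowerSeries.C s₀) ^ 2 + MvPowerSeries.C (p : O)

/-- The model at a plain place; `flat` only matters at `p`. -/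
structure PlainModel (flat : Prop) where
  P : ValuationSubring ℚbar
  lies : P.LiesOverPrime q
  l : ℕ
  l_le : l ≤ 3 + if q = p then 1 else 0
  cond : ∀ S : TestRing O, Lift ρbar S → Prop
  closed : CondClosed cond
  C : Coords ρbar P (Fin l) cond
  cond_ne : q ≠ p → ∀ S r, cond S r ↔ DetCyclotomic p S r ∧ SteinbergShape P S r
  ram : q ≠ p → ∃ σ ∈ P.inertiaSubgroupIn ℚ, ρbar σ ≠ 1
  cond_flat : flat → q = p → ∀ S r, cond S r ↔ DetCyclotomic p S r ∧ FlatShape p S r
  cond_st : ¬ flat → q = p → ∀ S r, cond S r ↔ DetCyclotomic p S r ∧ SteinbergShape P S r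

variable {ρbar p q} [CharZero O] [IsAdicComplete (maximalIdeal O) O] [Finite (ResidueField O)]
  [Fact p.Prime]

omit [CharZero O] [IsAdicComplete (maximalIdeal O) O] [Finite (ResidueField O)] in
theorem nonempty_avoidModel (hp2 : p ≠ 2) (hp : (p : O) ∈ maximalIdeal O) (hq : q.Prime)
    (hq1 : q % p = 1) (P : ValuationSubring ℚbar) (hP : P.LiesOverPrime q)
    (hI : ∀ σ ∈ P.inertiaSubgroupIn ℚ, ρbar σ = 1)
    (hF : ∀ σ, P.IsFrobeniusAt σ q →
      ∃ c : ResidueField O, ρbar σ = c • (1 : M2 (ResidueField O))) :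
    Nonempty (AvoidModel ρbar p q) := by
  obtain ⟨κ, φ, τ, hκ, hφ, hτ, C, hC⟩ :=
    LocalModel.exists_coords_avoid Fact.out hp2 hp q hq hq1 P hP hI hF
  have hm : (q : O) - 1 ∈ maximalIdeal O := by
    rw [show (q : O) - 1 = (p : O) * (q / p : ℕ) from ?_]
    · exact Ideal.mul_mem_right _ _ hp
    · conv_lhs => rw [← Nat.mod_add_div q p, hq1]
      push_cast
      ring
  have hu : IsUnit ((q : O) + 1) := notMem_maximalIdeal.mp fun h => by
    refine notMem_maximalIdeal.mpr (LocalModel.isUnit_two hp Fact.out hp2) ?_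
    convert sub_mem h hm using 1
    ring
  exact ⟨{
    P, κ, φ, τ, C
    lies := hP, mod := hq1, frob := hφ, tame := hτ, inertia := hI, scalar := hF
    κ_mem := by
      obtain ⟨v, hv⟩ := hu.exists_right_inv
      rw [← mul_one κ, ← hv, ← mul_assoc, hκ]
      exact Ideal.mul_mem_right _ _ hm
    unip := fun S r hd hun => ⟨((hC S r hd).1 hun).1, ((hC S r hd).1 hun).2.1,
      ((hC S r hd).1 hun).2.2.2⟩
    char := fun ζ ζi h1 h2 h3 S r hd hch => (hC S r hd).2 ζ ζi h1 h2 h3 hch }⟩

omit [CharZero O] [IsAdicComplete (maximalIdeal O) O] [Finite (ResidueField O)] in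
theorem nonempty_ramModel (hp2 : p ≠ 2) (hp : (p : O) ∈ maximalIdeal O) (hq : q.Prime)
    (hqp : q ≠ p) (P : ValuationSubring ℚbar) (hP : P.LiesOverPrime q)
    (hram : ∃ σ ∈ P.inertiaSubgroupIn ℚ, ρbar σ ≠ 1) (flat : Prop) :
    Nonempty (PlainModel ρbar p q flat) := by
  obtain ⟨C⟩ := LocalModel.exists_coords_ram Fact.out hp2 hp q hq hqp P hP hram
  exact ⟨{
    P, C
    lies := hP
    l := 3
    l_le := Nat.le_add_right _ _
    cond := _
    closed := (condClosed_detCyclotomic p).and (condClosed_steinbergShape P)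
    cond_ne := fun _ _ _ => Iff.rfl
    ram := fun _ => hram
    cond_flat := fun _ h => absurd h hqp
    cond_st := fun _ h => absurd h hqp }⟩

omit [CharZero O] [IsAdicComplete (maximalIdeal O) O] in
theorem nonempty_flatModel (hp2 : p ≠ 2) (hp : (p : O) ∈ maximalIdeal O)
    (P : ValuationSubring ℚbar) (hP : P.LiesOverPrime p)
    (hres : ∀ (S : TestRing O) (r : Lift ρbar S), maximalIdeal S.R = ⊥ →
      DetCyclotomic p S r ∧ FlatShape p S r)
    {flat : Prop} (hflat : flat) : Nonempty (PlainModel ρbar p p flat) := by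
  obtain ⟨C⟩ := LocalModelP.exists_coords_flat hp2 hp P hP hres
  exact ⟨{
    P, C
    lies := hP
    l := 4
    l_le := by simp
    cond := _
    closed := (condClosed_detCyclotomic p).and condClosed_flatShape
    cond_ne := fun h => absurd rfl h
    ram := fun h => absurd rfl h
    cond_flat := fun _ _ _ _ => Iff.rfl
    cond_st := fun h _ => absurd hflat h }⟩

omit [CharZero O] [IsAdicComplete (maximalIdeal O) O] in
theorem nonempty_steinbergModel (hp2 : p ≠ 2) (hp : (p : O) ∈ maximalIdeal O)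
    (P : ValuationSubring ℚbar) (hP : P.LiesOverPrime p) {flat : Prop} (hflat : ¬ flat) :
    Nonempty (PlainModel ρbar p p flat) := by
  obtain ⟨C⟩ := LocalModelP.exists_coords_steinberg (ρbar := ρbar) hp2 hp P hP
  exact ⟨{
    P, C
    lies := hP
    l := 4
    l_le := by simp
    cond := _
    closed := (condClosed_detCyclotomic p).and (condClosed_steinbergShape P)
    cond_ne := fun h => absurd rfl h
    ram := fun h => absurd rfl h
    cond_flat := fun h _ => absurd h hflat
    cond_st := fun _ _ _ _ => Iff.rfl }⟩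

omit [IsAdicComplete (maximalIdeal O) O] [Finite (ResidueField O)] in
/-- The flip model away from `p`. -/
theorem nonempty_flipModel_ne (hp2 : p ≠ 2) (hp : (p : O) ∈ maximalIdeal O) (hq : q.Prime)
    (hqp : q ≠ p) (P : ValuationSubring ℚbar) (hP : P.LiesOverPrime q)
    (hI : ∀ σ ∈ P.inertiaSubgroupIn ℚ, ρbar σ = 1) (φ : P.decompositionSubgroup ℚ)
    (hφ : P.IsFrobeniusAt (φ : GQ) q)
    (hns : ¬ ∃ c : ResidueField O, ρbar φ = c • (1 : M2 (ResidueField O)))
    (s₀ : O) (hs₀ : s₀ = 1 ∨ s₀ = -1)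
    (htr : (ρbar φ).trace = residue O (s₀ * ((q : O) + 1))) :
    Nonempty (FlipModel ρbar p q) := by
  classical
  obtain ⟨n, c, hn, hinj, hmem, hroot, C, hC⟩ :=
    LocalModel.exists_coords_flip Fact.out hp2 hp q hq hqp P hP hI φ hφ hns s₀ hs₀ htr
  have hsq : s₀ * s₀ = 1 := by rcases hs₀ with rfl | rfl <;> ring
  set e := s₀ * ((q : O) + 1) with he
  have hee : e * e = ((q : O) + 1) ^ 2 := by rw [he]; linear_combination ((q : O) + 1) ^ 2 * hsq
  have hchar : ∀ x : O, (x + e) ^ 2 = ((q : O) + 1) ^ 2 ↔ x = 0 ∨ x = -2 * e := fun x => by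
    rw [← hee]
    constructor
    · intro h
      rcases mul_eq_zero.mp (show x * (x + 2 * e) = 0 by linear_combination h) with h | h
      · exact Or.inl h
      · exact Or.inr (by linear_combination h)
    · rintro (rfl | rfl) <;> ring
  have h2u := LocalModel.isUnit_two hp Fact.out hp2
  have hsu : IsUnit s₀ := ⟨⟨s₀, s₀, hsq, hsq⟩, rfl⟩
  -- the list of constants
  have hlist : (n = 1 ∧ IsUnit (2 * e) ∧ ∀ j, c j = 0) ∨
      ((-2 * e : O) ∈ maximalIdeal O ∧ ∃ j₀ j₁, c j₀ = 0 ∧ c j₁ = -2 * e ∧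
        (Finset.univ : Finset (Fin n)) = {j₀, j₁} ∧ j₀ ≠ j₁) := by
    rcases hn with ⟨hnd, rfl⟩ | ⟨hd, rfl⟩
    · have hu : IsUnit ((q : O) + 1) := by
        have h := LocalModel.isUnit_natCast (O := O) hp Fact.out
          (q := q) hq hqp
        refine notMem_maximalIdeal.mp fun hmem1 => hnd ?_
        have : CharP (ResidueField O) p := by
          refine CharP.charP_iff_prime_eq_zero (Fact.out : p.Prime) |>.mpr ?_
          rw [← map_natCast (residue O), residue_eq_zero_iff]
          exact hp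
        have := (residue_eq_zero_iff _).mpr hmem1
        rw [show ((q : O) + 1) = ((q + 1 : ℕ) : O) by push_cast; rfl, map_natCast] at this
        exact (CharP.cast_eq_zero_iff (ResidueField O) p _).mp this
      refine Or.inl ⟨rfl, h2u.mul (hsu.mul hu), fun j => ?_⟩
      rcases (hchar (c j)).mp (hroot j) with h | h
      · exact h
      · exfalso
        refine notMem_maximalIdeal.mpr (h2u.mul (hsu.mul hu)) ?_
        simpa [h, he] using neg_mem (hmem j)
    · have h01 : c 0 ≠ c 1 := fun h => by simpa using hinj h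
      rcases (hchar (c 0)).mp (hroot 0) with h0 | h0 <;>
        rcases (hchar (c 1)).mp (hroot 1) with h1 | h1
      · exact absurd (h0.trans h1.symm) h01
      · exact Or.inr ⟨h1 ▸ hmem 1, 0, 1, h0, h1, by decide, by decide⟩
      · exact Or.inr ⟨h0 ▸ hmem 0, 1, 0, h1, h0, by decide, by decide⟩
      · exact absurd (h0.trans h1.symm) h01
  exact ⟨{
    P, φ, c, C
    lies := hP
    m := n
    c_mem := hmem
    c_injective := hinj
    k := 2
    k_le := Nat.le_add_right _ _
    cond := _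
    closed := (condClosed_detCyclotomic p).and (condClosed_unipotent P)
    rel := fun S r h => ⟨((hC S r h.1 h.2).2).1, ((hC S r h.1 h.2).2).2.1⟩
    a_conj := fun S r r' U hU hconj h => by
      have h' :=
        ((condClosed_detCyclotomic p).and (condClosed_unipotent P)).conj S r r' U hU hconj h
      rw [(hC S r' h'.1 h'.2).1, (hC S r h.1 h.2).1, hconj, Matrix.trace_units_conj]
    Tr := MvPowerSeries.X () + MvPowerSeries.C e
    det_eq := by
      rcases hlist with ⟨rfl, hu, hc⟩ | ⟨-, j₀, j₁, h0, h1, huniv, hne01⟩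
      · refine ⟨-(MvPowerSeries.X () + MvPowerSeries.C (2 * e)), (IsUnit.neg
          (MvPowerSeries.isUnit_iff_constantCoeff.mpr (by simpa using hu))), ?_⟩
        rw [Fin.prod_univ_one, hc, ← hee]
        simp only [map_mul, map_ofNat, map_zero]
        ring
      · refine ⟨-1, isUnit_one.neg, ?_⟩
        rw [huniv, Finset.prod_pair hne01, h0, h1, ← hee]
        simp only [map_mul, map_neg, map_ofNat, map_zero]
        ring
    s₀ := s₀
    s₀_sq := hsq
    frob := hφ
    cond_ne := fun _ _ _ => Iff.rfl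
    inertia := fun _ => hI
    a_ne := fun _ S r h => (hC S r h.1 h.2).1
    c_ne := fun _ x hx => by
      refine ⟨fun h => ?_, fun ⟨j, hj⟩ => hj ▸ hroot j⟩
      rcases hlist with ⟨rfl, hu, hc⟩ | ⟨-, j₀, j₁, h0, h1, -, -⟩ <;>
        rcases (hchar x).mp h with rfl | rfl
      · exact ⟨0, hc 0⟩
      · exact absurd (by simpa using neg_mem hx) (notMem_maximalIdeal.mpr hu)
      · exact ⟨j₀, h0⟩
      · exact ⟨j₁, h1⟩
    Tr_ne := fun _ => rfl
    cond_eq := fun h => absurd h hqp
    a_eq := fun h => absurd h hqp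
    c_eq := fun h => absurd h hqp
    Tr_eq := fun h => absurd h hqp }⟩

omit [CharZero O] [IsAdicComplete (maximalIdeal O) O] in
/-- The ordinary flip model at `p`. -/
theorem exists_flipModel_eq (hp2 : p ≠ 2) (hp : (p : O) ∈ maximalIdeal O)
    (P : ValuationSubring ℚbar) (hP : P.LiesOverPrime p) (φ : P.decompositionSubgroup ℚ)
    (hφ : P.IsFrobeniusAt (φ : GQ) p) (s₀ : O) (hs₀ : s₀ = 1 ∨ s₀ = -1)
    (hres : ∀ (S : TestRing O) (r : Lift ρbar S), maximalIdeal S.R = ⊥ →
      DetCyclotomic p S r ∧ FlatShape p S r) :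
    ∃ F : FlipModel ρbar p p, ∀ S r, DetCyclotomic p S r →
      (∃ s, OrdinaryShape P S r s ∧ S.red (s φ) = residue O s₀) → F.cond S r := by
  obtain ⟨C, hC⟩ :=
    LocalModelP.exists_coords_ordinary hp2 hp P hP φ hφ s₀ hs₀ hres
  have hsq : s₀ * s₀ = 1 := by rcases hs₀ with rfl | rfl <;> ring
  have hsu : IsUnit s₀ := ⟨⟨s₀, s₀, hsq, hsq⟩, rfl⟩
  set A : MvPowerSeries Unit O := MvPowerSeries.X () + MvPowerSeries.C s₀ with hA
  have hAu : IsUnit A := MvPowerSeries.isUnit_iff_constantCoeff.mpr (by simpa [hA] using hsu)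
  obtain ⟨A', hA'⟩ := hAu.exists_right_inv
  have hclosed := (condClosed_detCyclotomic (ρbar := ρbar) p).and (condClosed_ordinary P φ s₀)
  exact ⟨{
    P, φ, C
    lies := hP
    m := 1
    c := fun _ => 0
    c_mem := fun _ => zero_mem _
    c_injective := Function.injective_of_subsingleton _
    k := 3
    k_le := by simp
    cond := _
    closed := hclosed
    rel := fun S r h => by
      obtain ⟨hd, s, hs, hred⟩ := h
      refine ⟨fun j => ?_, fun j l hjl => absurd (Subsingleton.elim j l) hjl⟩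
      obtain rfl : j = 0 := Subsingleton.elim _ _
      rw [map_zero, sub_zero, (hC S r s hd hs hred).1, (hC S r s hd hs hred).2]
      ring
    a_conj := fun S r r' U hU hconj h => by
      obtain ⟨hd, s, hs, hred⟩ := h
      rw [(hC S r' s ((condClosed_detCyclotomic p).conj S r r' U hU hconj hd)
        (ordinaryShape_conj U hconj hs) hred).1, (hC S r s hd hs hred).1]
    Tr := A + MvPowerSeries.C (p : O) * A'
    det_eq := by
      refine ⟨-((MvPowerSeries.X () + MvPowerSeries.C (2 * s₀)) *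
        (A ^ 2 - MvPowerSeries.C ((p : O) ^ 2)) * A' ^ 2), IsUnit.neg ?_, ?_⟩
      · refine (IsUnit.mul (IsUnit.mul ?_ ?_) ((IsUnit.of_mul_eq_one_right A hA').pow 2))
        · exact MvPowerSeries.isUnit_iff_constantCoeff.mpr
            (by simpa using (LocalModel.isUnit_two hp Fact.out hp2).mul hsu)
        · refine MvPowerSeries.isUnit_iff_constantCoeff.mpr ?_
          have : IsUnit ((1 : O) - (p : O) ^ 2) := notMem_maximalIdeal.mp fun h =>
            (maximalIdeal.isMaximal O).ne_top ((Ideal.eq_top_iff_one _).mpr (by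
              simpa using add_mem h (Ideal.pow_mem_of_mem _ hp 2 two_pos)))
          simpa [hA, sq, hsq] using this
      · simp only [map_zero, sub_zero, Fin.prod_univ_one]
        have h1 : A * A' = 1 := hA'
        have h2 : MvPowerSeries.C s₀ * MvPowerSeries.C s₀ = (1 : MvPowerSeries Unit O) := by
          rw [← map_mul, hsq, map_one]
        simp only [map_mul, map_pow, map_add, map_one, map_ofNat, map_natCast, hA] at h1 ⊢
        set X := (MvPowerSeries.X () : MvPowerSeries Unit O)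
        set S := (MvPowerSeries.C s₀ : MvPowerSeries Unit O)
        set π := ((p : ℕ) : MvPowerSeries Unit O)
        have key : (X + 2 * S) * X = (X + S) ^ 2 - 1 := by linear_combination -h2
        linear_combination (-2 * π + ((X + S) ^ 2 - π ^ 2 - 1) * ((X + S) * A' + 1)) * h1 +
          ((X + S) ^ 2 - π ^ 2) * A' ^ 2 * key
    s₀ := s₀
    s₀_sq := hsq
    frob := hφ
    cond_ne := fun h => absurd rfl h
    inertia := fun h => absurd rfl h
    a_ne := fun h => absurd rfl h
    c_ne := fun h => absurd rfl h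
    Tr_ne := fun h => absurd rfl h
    cond_eq := fun _ _ _ => Iff.rfl
    a_eq := fun _ S r s hd hs hred => (hC S r s hd hs hred).1
    c_eq := fun _ _ => rfl
    Tr_eq := fun _ => by linear_combination MvPowerSeries.C (p : O) * hA' },
    fun _ _ hd hs => ⟨hd, hs⟩⟩

end Fermat.Agent.Root.Patched
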