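import Fermat.Agent.TW.Local
import Fermat.Agent.IharaTW.KerKill
import Fermat.Agent.OrdinaryP.S33.Extend
import Fermat.Agent.Root.Attached
import Fermat.Agent.Root.Patched.GlueClosure
import Fermat.Agent.Newform.BadCoeff
import Fermat.Agent.GalRep.Residual

/-!
# Points of the full Hecke ring which are new at `q`

At a point with `U_q² = ⟨q⟩` the newform has `q` exactly once in its level, so the representation
is special at `q`: the trace of Frobenius squares to `(q + 1)²`.
-/

set_option autoImplicit false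

noncomputable section

namespace Fermat.Agent.Root.Patched

open IsLocalRing Polynomial Fermat.Agent.Deformation Fermat.Agent.GammaH Fermat.Agent.TW
  Fermat.Agent.IharaTW CongruenceSubgroup
open ModularFormClass (qCoeff)

local notation "ℚbar" => AlgebraicClosure ℚ
local notation "Zbar" => integralClosure ℤ ℂ

/-- The trace of an invertible `2 × 2` endomorphism killed by `(X - d s) (X - s)`, `s² = 1`. -/
theorem trace_eq_of_shape {R : Type} [CommRing R] [IsDomain R] {V : Type} [AddCommGroup V]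
    [Module R V] [Module.Free R V] [Module.Finite R V] (hV : Module.finrank R V = 2)
    (f : Module.End R V) {s t d : R} (hs : s * s = 1) (hd : d ≠ 0)
    (hchar : LinearMap.charpoly f = X ^ 2 - C t * X + C d)
    (h : (f - (d * s) • (1 : Module.End R V)) * (f - s • (1 : Module.End R V)) = 0) :
    t = s * (d + 1) := by
  have h1 := LinearMap.aeval_self_charpoly f
  rw [hchar] at h1
  simp only [map_add, map_sub, map_mul, map_pow, aeval_X, aeval_C,
    Algebra.algebraMap_eq_smul_one, smul_mul_assoc, one_mul] at h1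
  simp only [sub_mul, mul_sub, smul_mul_assoc, mul_smul_comm, one_mul, mul_one, smul_smul,
    smul_sub] at h
  rw [show s * (d * s) = d by rw [mul_comm d s, ← mul_assoc, hs, one_mul]] at h
  have h2 : (t - s * (d + 1)) • f = 0 := by
    rw [pow_two] at h1
    calc (t - s * (d + 1)) • f
        = (f * f - (d * s) • f - (s • f - d • (1 : Module.End R V))) -
          (f * f - t • f + d • (1 : Module.End R V)) := by
            rw [show s * (d + 1) = d * s + s by ring, sub_smul, add_smul]; abel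
      _ = 0 := by rw [h, h1, sub_self]
  have hf : f ≠ 0 := by
    intro h0
    apply hd
    have h3 : LinearMap.det f = 0 := by
      rw [h0]
      have : Nontrivial V := Module.nontrivial_of_finrank_pos (R := R) (hV ▸ two_pos)
      exact LinearMap.det_zero''
    have h4 := congrArg (fun P : R[X] => P.coeff 0) hchar
    rw [LinearMap.det_eq_sign_charpoly_coeff, hV] at h3
    simp [coeff_X_pow] at h4 h3
    rw [← h4]
    exact h3
  exact sub_eq_zero.1 ((smul_eq_zero.1 h2).resolve_right hf)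

variable {L R h p : ℕ} [NeZero L] [NeZero R] {H : Subgroup (ZMod L)ˣ} {S : Finset ℕ}
  {O : Type} [CommRing O] [IsDomain O] [IsDiscreteValuationRing O]
  [IsAdicComplete (maximalIdeal O) O] [Finite (ResidueField O)] [CharZero O]
  [Fact (CuspForm.HasIntegralStructure (L * R) 2)] {hH : (-1 : (ZMod L)ˣ) ∈ H}
  {θ : heckeRing L H (↑S : Set ℕ) →+* ResidueField O}
  {ρbar' : ResidualGaloisRep (ResidueField O)} {ρ₀ : GQ →* M2 (ResidueField O)}

omit [CharZero O] in
omit [Finite (ResidueField O)] in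
/-- **Frobenius at `q` at a point new at `q`.** -/
theorem sq_trace_eq_of_U_sq (hyp : TWHyp (H := H) p R h hH θ ρbar' ρ₀)
    (D : TWRep (H := H) (S := S) (O := O) p R h (rfl : R = R) hH θ ρ₀)
    {q : ℕ} (hq : q.Prime) (hqp : q ≠ p) (hqL : q ∣ L) (hqLR : ¬ q ^ 2 ∣ L * R)
    {a : (ZMod L)ˣ} (ha : (ZMod.unitsMap hyp.R_dvd a : ZMod R) = q)
    {O' : Type} [CommRing O'] [IsDomain O'] [IsDiscreteValuationRing O']
    [IsAdicComplete (maximalIdeal O') O'] [Finite (ResidueField O')] [CharZero O']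
    [Algebra O O'] [IsLocalHom (algebraMap O O')]
    (x : HeckeO L H ∅ O →ₐ[O] O')
    (hU : x (HeckeO.ofT O (heckeUR hq hqL (Set.notMem_empty q))) ^ 2
      = x (HeckeO.ofT O (diamondR a)))
    (x₁ : TWRing hH O θ →ₐ[O] O') (hloc : IsLocalHom x₁.toRingHom)
    (hx₁ : ∀ z, x₁ (toTWRing hH O θ z) = x (toFull O z))
    {P : ValuationSubring ℚbar} (hP : P.LiesOverPrime q) {σ : GQ} (hσ : P.IsFrobeniusAt σ q) :
    x₁ (D.ψ (D.M₀ σ).trace) ^ 2 = ((q : O') + 1) ^ 2 := by
  classical
  have := Fact.mk hyp.prime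
  have hLS : ∀ l : ℕ, l.Prime → l ∣ L → l ∈ (↑S : Set ℕ) := hyp.LS
  obtain ⟨M, _, G, lam, ι, hG, hML, hqM, hι, hl⟩ := exists_newform_dvd_of_point hH hyp.R_dvd
    hyp.ker_le hyp.odd hyp.LS hq hqL hqLR ha x hU
  have hMS : ∀ l : ℕ, l.Prime → l ∣ M → l ∈ S := fun l hl' hd =>
    (hl'.dvd_mul.1 (hd.trans hML)).elim (hyp.LS l hl') fun hR =>
      hyp.LS l hl' (hR.trans hyp.R_dvd)
  -- coefficients
  have := Fermat.Agent.S22.result M 2 ∅
  let κG := GalRep.eigenCharacterInt hG.1
  have : Module.Finite ℤ κG.range :=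
    Module.Finite.of_surjective κG.rangeRestrict.toIntAlgHom.toLinearMap κG.rangeRestrict_surjective
  let b : ℕ → Zbar := fun n => κG (Hecke.heckeTn M n)
  have hb : ∀ n, (b n : ℂ) = qCoeff ⇑G n := fun n => Hecke.eigenCharacter_heckeTn hG.1 n
  let A : Subring Zbar := Subring.closure {z | ∃ l, l.Prime ∧ ¬ l ∣ L ∧ l ∉ S ∧ b l = z}
  have hA : A ≤ κG.range := Subring.closure_le.2 (by
    rintro _ ⟨l, -, -, -, rfl⟩
    exact ⟨_, rfl⟩)
  let emb : Zbar →+* ℂ := (integralClosure ℤ ℂ).val.toRingHom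
  have hlam : A ≤ lam.range.comap emb := Subring.closure_le.2 (by
    rintro _ ⟨l, hl', hlL, hlS, rfl⟩
    show (b l : ℂ) ∈ lam.range
    rw [hb, (hl l hl' hlL (by simpa using hlS)).1]
    exact Subtype.mem _)
  let xA : A →+* O' :=
    ι.comp ((emb.comp A.subtype).codRestrict lam.range fun z => hlam z.2)
  obtain ⟨O₂, _, _, _, _, _, _, j, hj, hjloc, x', hx'⟩ :=
    OrdinaryP.exists_coeff_extension (Subring.inclusion hA) (Subring.inclusion_injective hA) O' xA
  have := hjloc
  have := hloc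
  have := D.ψ_local
  have hpO₂ : (p : O₂) ∈ maximalIdeal O₂ := by
    rw [← map_natCast (j.comp (algebraMap O O'))]
    have := RingHom.isLocalHom_comp j (algebraMap O O')
    exact map_nonunit (j.comp (algebraMap O O')) _ hyp.mem
  have hRle : Subring.closure (Set.range b) ≤ κG.range :=
    Subring.closure_le.mpr (by rintro _ ⟨n, rfl⟩; exact ⟨_, rfl⟩)
  let φ : Subring.closure (Set.range b) →+* O₂ := x'.comp (Subring.inclusion hRle)
  have hqM2 : ¬ q ^ 2 ∣ M := fun hd => hqLR (hd.trans hML)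
  have hbq : b q ^ 2 = 1 := Subtype.ext (by
    rw [SubmonoidClass.coe_pow, hb, OneMemClass.coe_one]
    exact Newform.qCoeff_sq_eq_one_of_not_sq_dvd hG hq hqM hqM2)
  obtain ⟨O₃, _, _, _, _, _, _, j', hj', hj'loc, ρ, hρdet, hρ, hρloc⟩ :=
    exists_attached M G hG.1 b hb p O₂ hpO₂ φ
  have := hj'loc
  -- the pushed representation
  let y : CuspForm.heckeLocal (L * R) (↑S : Set ℕ) O D.θ' →+* O' :=
    x₁.toRingHom.comp D.ψ.toRingHom
  have : IsLocalHom y := inferInstanceAs (IsLocalHom (x₁.toRingHom.comp D.ψ.toRingHom))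
  set z := (j'.comp j).comp y
  have : IsLocalHom (j'.comp j) := RingHom.isLocalHom_comp j' j
  have hzloc : IsLocalHom z := RingHom.isLocalHom_comp _ _
  have hc : MatCont (mapRep z D.M₀) := matCont_mapRep _ hzloc D.cont
  have hall : ∀ τ, LinearMap.charpoly (ρ.ρ τ) = (mapRep z D.M₀ τ).charpoly := fun τ => by
    refine ((Density.adic_charpoly_eq_of_forall_frobenius (ofMatrix (mapRep z D.M₀) hc) ρ
      (↑(insert p S) : Set ℕ) (Finset.finite_toSet _)
      (fun l hl' hlS A' hA' τ hτ => ?_) τ).symm).trans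
        (Matrix.charpoly_toLin' _)
    simp only [Finset.coe_insert, Set.mem_insert_iff, not_or] at hlS
    have hlL : ¬ l ∣ L := fun hd => hlS.2 (hLS l hl' hd)
    have hlM : ¬ l ∣ M * p := fun hd => (hl'.dvd_mul.1 hd).elim
      (fun h' => hlS.2 (hMS l hl' h')) fun h' =>
        hlS.1 ((Nat.prime_dvd_prime_iff_eq hl' hyp.prime).1 h')
    obtain ⟨htr, hdet⟩ := D.frob l hl' hlL hlS.2 A' hA' τ hτ
    refine (Matrix.charpoly_toLin' _).trans ?_
    rw [(hρ l hl' hlM A' hA').2 τ hτ, mapRep_apply, Matrix.charpoly_map, Matrix.charpoly_fin_two]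
    have hzt : z (D.M₀ τ).trace = j' (φ ⟨b l, Subring.subset_closure ⟨l, rfl⟩⟩) := by
      show j' (j (x₁ (D.ψ (D.M₀ τ).trace))) = _
      rw [htr, hx₁, ← (hl l hl' hlL hlS.2).2]
      have hbl : b l ∈ A := Subring.subset_closure ⟨l, hl', hlL, by simpa using hlS.2, rfl⟩
      have h5 : φ ⟨b l, Subring.subset_closure ⟨l, rfl⟩⟩ = j (xA ⟨b l, hbl⟩) :=
        (congrArg x' (Subtype.ext rfl)).trans (RingHom.congr_fun hx' ⟨b l, hbl⟩)
      rw [h5]
      refine congrArg (fun t => j' (j (ι t))) (Subtype.ext ?_)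
      exact (hl l hl' hlL hlS.2).1.symm.trans (hb l).symm
    simp only [Polynomial.map_add, Polynomial.map_sub, Polynomial.map_mul, Polynomial.map_pow,
      Polynomial.map_X, Polynomial.map_C, hzt, hdet, map_natCast, Polynomial.map_natCast]
  -- at `q`
  have hp3 : (p : O₃) ∈ maximalIdeal O₃ := map_natCast j' p ▸ map_nonunit j' _ hpO₂
  have hdq : LinearMap.det (ρ.ρ σ) = (q : O₃) := eq_of_forall_sub_mem_span hp3 fun n =>
    hρdet.2 n σ q fun μ hμ => Gal.apply_rootOfUnity_of_isFrobeniusAt hσ hq hP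
      (fun hd => hqp ((Nat.prime_dvd_prime_iff_eq hq hyp.prime).1 (hq.dvd_of_dvd_pow hd))) hμ
  obtain ⟨s, hs, -, -, hshape⟩ := hρloc q hq hqM hqM2 hbq P hP
  let g : P.decompositionSubgroup ℚ := ⟨σ, hσ.mem_decompositionSubgroup⟩
  have hg : (ρ.ρ σ - ((q : O₃) * s g) • (1 : Module.End O₃ ρ.V)) *
      (ρ.ρ σ - s g • (1 : Module.End O₃ ρ.V)) = 0 := by rw [← hdq]; exact hshape g g
  have hchar : LinearMap.charpoly (ρ.ρ σ) =
      X ^ 2 - C (z (D.M₀ σ).trace) * X + C (q : O₃) := by
    have h6 := hall σ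
    rw [mapRep_apply, Matrix.charpoly_map, Matrix.charpoly_fin_two] at h6
    have h7 : z (D.M₀ σ).det = LinearMap.det (ρ.ρ σ) := by
      have h8 := congrArg (fun Q : O₃[X] => Q.coeff 0) h6
      rw [LinearMap.det_eq_sign_charpoly_coeff, ρ.finrank_eq]
      simp [coeff_X_pow] at h8 ⊢
      exact h8.symm
    rw [h6]
    simp only [Polynomial.map_add, Polynomial.map_sub, Polynomial.map_mul, Polynomial.map_pow,
      Polynomial.map_X, Polynomial.map_C, h7, hdq]
  have ht := trace_eq_of_shape ρ.finrank_eq (ρ.ρ σ) (hs g)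
    (Nat.cast_ne_zero.2 hq.ne_zero) hchar hg
  refine (hj'.comp hj) ?_
  show (j'.comp j) (x₁ (D.ψ (D.M₀ σ).trace) ^ 2) = (j'.comp j) (((q : O') + 1) ^ 2)
  rw [map_pow, map_pow, map_add, map_natCast, map_one,
    show (j'.comp j) (x₁ (D.ψ (D.M₀ σ).trace)) = z (D.M₀ σ).trace from rfl, ht, mul_pow, sq (s g),
    hs g, one_mul]

end Fermat.Agent.Root.Patched
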