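import Mathlib

/-!
# Surjectivity from tangent vectors

A local homomorphism into a complete Noetherian local ring is surjective if it is so on residue
fields and if no deformation over a quotient `B ⧸ J` with `m² ⊆ J` is killed by it.
-/

set_option autoImplicit false

noncomputable section

namespace Fermat.Agent.Root.Patched

open IsLocalRing

/-- **Tangent criterion for surjectivity.** -/
theorem surjective_of_tangent {A B : Type*} [CommRing A] [IsLocalRing A]
    [IsAdicComplete (maximalIdeal A) A] [CommRing B] [IsLocalRing B] [IsNoetherianRing B]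
    [IsAdicComplete (maximalIdeal B) B] (F : A →+* B) [IsLocalHom F]
    (hres : ∀ b : B, ∃ a : A, b - F a ∈ maximalIdeal B)
    (htan : ∀ J : Ideal B, maximalIdeal B ^ 2 ≤ J → J ≤ maximalIdeal B →
      (maximalIdeal A).map F ≤ J → ∀ ψ : B →+* B ⧸ J, (∀ a, ψ (F a) = Ideal.Quotient.mk J (F a)) →
      (∀ b, ψ b - Ideal.Quotient.mk J b ∈ (maximalIdeal B).map (Ideal.Quotient.mk J)) →
      ψ = Ideal.Quotient.mk J) :
    Function.Surjective F := by
  have hmap : (maximalIdeal A).map F ≤ maximalIdeal B :=
    Ideal.map_le_iff_le_comap.mpr fun a ha => map_nonunit F a ha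
  set J := (maximalIdeal A).map F ⊔ maximalIdeal B ^ 2
  have hJle : J ≤ maximalIdeal B := sup_le hmap (Ideal.pow_le_self two_ne_zero)
  have hwd : ∀ {a a' : A} {b : B}, b - F a ∈ maximalIdeal B → b - F a' ∈ maximalIdeal B →
      Ideal.Quotient.mk J (F a) = Ideal.Quotient.mk J (F a') := by
    intro a a' b h h'
    rw [Ideal.Quotient.mk_eq_mk_iff_sub_mem, ← map_sub]
    refine Ideal.mem_sup_left (Ideal.mem_map_of_mem F ?_)
    have h2 := sub_mem h' h
    rw [sub_sub_sub_cancel_left, ← map_sub] at h2
    exact fun hu => h2 (hu.map F)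
  choose g hg using hres
  let ψ : B →+* B ⧸ J :=
    { toFun := fun b => Ideal.Quotient.mk J (F (g b))
      map_one' := by
        rw [hwd (hg 1) (a' := 1) (by simp), map_one, map_one]
      map_mul' := fun b c => by
        rw [← map_mul, ← map_mul]
        refine hwd (hg _) ?_
        rw [map_mul, show b * c - F (g b) * F (g c) = b * (c - F (g c)) + (b - F (g b)) * F (g c)
          by ring]
        exact add_mem (Ideal.mul_mem_left _ _ (hg c)) (Ideal.mul_mem_right _ _ (hg b))
      map_zero' := by
        rw [hwd (hg 0) (a' := 0) (by simp), map_zero, map_zero]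
      map_add' := fun b c => by
        rw [← map_add, ← map_add]
        refine hwd (hg _) ?_
        rw [map_add, show b + c - (F (g b) + F (g c)) = (b - F (g b)) + (c - F (g c)) by ring]
        exact add_mem (hg b) (hg c) }
  have hψ : ψ = Ideal.Quotient.mk J := htan J le_sup_right hJle le_sup_left ψ
    (fun a => hwd (hg (F a)) (by simp)) fun b => by
      show Ideal.Quotient.mk J (F (g b)) - Ideal.Quotient.mk J b ∈ _
      rw [← map_sub, ← neg_sub, map_neg, neg_mem_iff]
      exact Ideal.mem_map_of_mem _ (hg b)
  have hm : maximalIdeal B ≤ (maximalIdeal A).map F ⊔ maximalIdeal B • maximalIdeal B := by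
    intro b hb
    rw [smul_eq_mul, ← pow_two]
    have h1 : Ideal.Quotient.mk J (F (g b)) = Ideal.Quotient.mk J b := RingHom.congr_fun hψ b
    rw [hwd (hg b) (a' := 0) (by simpa using hb), map_zero, map_zero, eq_comm,
      Ideal.Quotient.eq_zero_iff_mem] at h1
    exact h1
  have heq : (maximalIdeal A).map F = maximalIdeal B := le_antisymm hmap
    (Submodule.le_of_le_smul_of_le_jacobson_bot (IsNoetherian.noetherian _)
      (maximalIdeal_le_jacobson _) hm)
  have : IsHausdorff ((maximalIdeal A).map F) B := heq ▸ inferInstance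
  refine surjective_of_mk_map_comp_surjective (I := maximalIdeal A) F fun y => ?_
  obtain ⟨b, rfl⟩ := Ideal.Quotient.mk_surjective y
  refine ⟨g b, (Ideal.Quotient.mk_eq_mk_iff_sub_mem _ _).mpr ?_⟩
  rw [← neg_sub, neg_mem_iff, heq]
  exact hg b

end Fermat.Agent.Root.Patched
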