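import Fermat.Agent.Root.Patched.Frame
import Fermat.Agent.Root.Patched.FramedTangent
import Fermat.Agent.Root.Patched.Tangent

/-!
# Power series over test rings and coefficient rings of patching

Reducedness, powers of the maximal ideal and dimension of power series rings, the ring
`O⟦frames, diamonds⟧`, and actions through constant coefficients.
-/

set_option autoImplicit false

noncomputable section

open IsLocalRing

namespace Fermat.Agent.Root.Patched

open Fermat.Agent.Deformation

/-- Power series over a reduced ring form a reduced ring. -/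
theorem isReduced_mvPowerSeries {σ R : Type*} [CommRing R] [IsReduced R] :
    IsReduced (MvPowerSeries σ R) := by
  refine ⟨fun f hf => MvPowerSeries.ext fun d => ?_⟩
  have hmem : MvPowerSeries.coeff d f ∈ nilradical R := by
    rw [nilradical_eq_sInf, Ideal.mem_sInf]
    intro P hP
    have : P.IsPrime := hP
    have h := hf.map (MvPowerSeries.map (σ := σ) (Ideal.Quotient.mk P))
    rw [← Ideal.Quotient.eq_zero_iff_mem, ← MvPowerSeries.coeff_map, h.eq_zero, map_zero]
  rw [nilradical_eq_zero] at hmem
  rw [map_zero]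
  simpa using hmem

/-- A series all of whose coefficients lie in `m ^ n` lies in `m ^ n`. -/
theorem mem_maximalIdeal_pow_of_coeff {σ R : Type*} [Finite σ] [CommRing R] [IsLocalRing R]
    {n : ℕ} {f : MvPowerSeries σ R} (h : ∀ d, MvPowerSeries.coeff d f ∈ maximalIdeal R ^ n) :
    f ∈ maximalIdeal (MvPowerSeries σ R) ^ n := by
  classical
  have hC : (maximalIdeal R).map (MvPowerSeries.C (σ := σ) (R := R)) ≤
      maximalIdeal (MvPowerSeries σ R) :=
    Ideal.map_le_iff_le_comap.mpr fun a ha => LocalRing.C_mem_maximalIdeal ha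
  rw [← sub_add_cancel f (MvPowerSeries.truncTotal n f : MvPolynomial σ R)]
  refine add_mem (LocalRing.sub_truncTotal_mem_pow n f) ?_
  rw [← MvPolynomial.support_sum_monomial_coeff (MvPowerSeries.truncTotal n f),
    ← MvPolynomial.coeToMvPowerSeries.ringHom_apply, map_sum]
  refine Ideal.sum_mem _ fun d _ => ?_
  rw [MvPolynomial.coeToMvPowerSeries.ringHom_apply, ← mul_one (MvPolynomial.coeff _ _),
    ← MvPolynomial.C_mul_monomial, MvPolynomial.coe_mul, MvPolynomial.coe_C]
  refine Ideal.mul_mem_right _ _ (Ideal.pow_right_mono hC n ?_)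
  rw [← Ideal.map_pow]
  refine Ideal.mem_map_of_mem _ ?_
  rw [MvPowerSeries.coeff_truncTotal_eq_ite]
  split_ifs
  exacts [h d, zero_mem _]

/-- `O⟦frames, diamonds⟧`. -/
abbrev LambdaRing (O : Type) (Y : Type) (r : ℕ) : Type := MvPowerSeries (Y ⊕ Fin r) O

section Lambda

variable {O : Type} [CommRing O] [IsLocalRing O] [IsNoetherianRing O]
  [IsAdicComplete (maximalIdeal O) O] {Y : Type} [Finite Y] {r : ℕ}

omit [IsNoetherianRing O] [IsAdicComplete (maximalIdeal O) O] [Finite Y] in
theorem lambdaVar_mem (v : Y ⊕ Fin r) :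
    Sum.elim (fun y => (MvPowerSeries.X y : MvPowerSeries Y (MvPowerSeries (Fin r) O)))
      (fun x => MvPowerSeries.C (MvPowerSeries.X x)) v ∈
        maximalIdeal (MvPowerSeries Y (MvPowerSeries (Fin r) O)) := by
  rcases v with y | x
  · exact LocalRing.X_mem_maximalIdeal y
  · exact LocalRing.C_mem_maximalIdeal (LocalRing.X_mem_maximalIdeal x)

variable (O Y r) in
/-- `Λ → Λ₀⟦frames⟧`. -/
def lambdaMap : LambdaRing O Y r →+* MvPowerSeries Y (MvPowerSeries (Fin r) O) :=
  LocalRing.eval ((MvPowerSeries.C).comp MvPowerSeries.C) _ lambdaVar_mem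

theorem lambdaMap_C (c : O) :
    lambdaMap O Y r (MvPowerSeries.C c) = MvPowerSeries.C (MvPowerSeries.C c) :=
  LocalRing.eval_C _ _ _ c

theorem lambdaMap_surjective : Function.Surjective (lambdaMap O Y r) := by
  have hX : ∀ v, lambdaMap O Y r (MvPowerSeries.X v) = Sum.elim (fun y => MvPowerSeries.X y)
      (fun x => MvPowerSeries.C (MvPowerSeries.X x)) v := fun v => LocalRing.eval_X _ _ _ v
  have hle : (maximalIdeal (LambdaRing O Y r)).map (lambdaMap O Y r) ≤
      maximalIdeal (MvPowerSeries Y (MvPowerSeries (Fin r) O)) :=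
    LocalRing.map_maximalIdeal_le _
      (fun c hc => by
        rw [lambdaMap_C]
        exact LocalRing.C_mem_maximalIdeal (LocalRing.C_mem_maximalIdeal hc))
      (fun v => by rw [hX]; exact lambdaVar_mem v)
  have : IsLocalHom (lambdaMap O Y r) := ⟨fun f hf => by
    by_contra hu
    exact (mem_maximalIdeal _).mp (hle (Ideal.mem_map_of_mem _ ((mem_maximalIdeal f).mpr hu))) hf⟩
  have hres : ∀ b : MvPowerSeries Y (MvPowerSeries (Fin r) O), ∃ a,
      b - lambdaMap O Y r a ∈ maximalIdeal _ := fun b => by
    refine ⟨MvPowerSeries.C (MvPowerSeries.constantCoeff (MvPowerSeries.constantCoeff b)), ?_⟩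
    rw [lambdaMap_C]
    simp [mem_maximalIdeal, MvPowerSeries.isUnit_iff_constantCoeff]
  refine surjective_of_tangent (lambdaMap O Y r) hres fun J _ _ hJ ψ _ hψ => RingHom.ext fun b => ?_
  have hmJ : maximalIdeal (MvPowerSeries Y (MvPowerSeries (Fin r) O)) ≤ J := by
    intro f hf
    have hXY : Ideal.span
        (Set.range (MvPowerSeries.X (σ := Y) (R := MvPowerSeries (Fin r) O))) ≤ J := by
      rw [Ideal.span_le]
      rintro _ ⟨y, rfl⟩
      have := hJ (Ideal.mem_map_of_mem (lambdaMap O Y r) (LocalRing.X_mem_maximalIdeal (Sum.inl y)))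
      rwa [hX] at this
    have hC0 : ∀ z ∈ maximalIdeal (MvPowerSeries (Fin r) O),
        (MvPowerSeries.C z : MvPowerSeries Y (MvPowerSeries (Fin r) O)) ∈ J := by
      intro z hz
      have h1 : z ∈ Ideal.span (Set.range (MvPowerSeries.X (σ := Fin r) (R := O))) ⊔
          (maximalIdeal O).map MvPowerSeries.C := by
        rw [← sub_add_cancel z (MvPowerSeries.C (MvPowerSeries.constantCoeff z))]
        refine Submodule.add_mem_sup ?_ (Ideal.mem_map_of_mem _ (LocalRing.constantCoeff_mem hz))
        have h2 := LocalRing.mem_span_X_pow (n := 1)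
          (f := z - MvPowerSeries.C (MvPowerSeries.constantCoeff z))
          (MvPolynomial.ext _ _ fun e => by
            classical
            rw [MvPowerSeries.coeff_truncTotal_eq_ite]
            split_ifs with he
            · obtain rfl : e = 0 := (Finsupp.degree_eq_zero_iff _).mp (by omega)
              simp
            · simp)
        rwa [pow_one] at h2
      refine (Ideal.map_le_iff_le_comap.mp ?_) h1
      rw [Ideal.map_sup, Ideal.map_span, Ideal.map_map, sup_le_iff, Ideal.span_le,
        Ideal.map_le_iff_le_comap]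
      refine ⟨?_, fun c hc => ?_⟩
      · rintro _ ⟨_, ⟨x, rfl⟩, rfl⟩
        have := hJ (Ideal.mem_map_of_mem (lambdaMap O Y r)
          (LocalRing.X_mem_maximalIdeal (Sum.inr x)))
        rwa [hX] at this
      · have := hJ (Ideal.mem_map_of_mem (lambdaMap O Y r) (LocalRing.C_mem_maximalIdeal hc))
        rwa [lambdaMap_C] at this
    rw [← sub_add_cancel f (MvPowerSeries.C (MvPowerSeries.constantCoeff f))]
    refine add_mem (hXY ?_) (hC0 _ (LocalRing.constantCoeff_mem hf))
    have h2 := LocalRing.mem_span_X_pow (n := 1)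
      (f := f - MvPowerSeries.C (MvPowerSeries.constantCoeff f)) (MvPolynomial.ext _ _ fun e => by
        classical
        rw [MvPowerSeries.coeff_truncTotal_eq_ite]
        split_ifs with he
        · obtain rfl : e = 0 := (Finsupp.degree_eq_zero_iff _).mp (by omega)
          simp
        · simp)
    rwa [pow_one] at h2
  have h := hψ b
  rw [Ideal.map_mk_eq_bot_of_le hmJ, Ideal.mem_bot, sub_eq_zero] at h
  exact h

/-- The inverse of `lambdaMap`. -/
def lambdaBack : MvPowerSeries Y (MvPowerSeries (Fin r) O) →+* LambdaRing O Y r :=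
  LocalRing.eval
    (LocalRing.eval MvPowerSeries.C (fun x => MvPowerSeries.X (.inr x))
      fun _ => LocalRing.X_mem_maximalIdeal _)
    (fun y => MvPowerSeries.X (.inl y)) fun _ => LocalRing.X_mem_maximalIdeal _

theorem lambdaBack_lambdaMap (x : LambdaRing O Y r) : lambdaBack (lambdaMap O Y r x) = x := by
  have hback : ∀ c ∈ maximalIdeal (MvPowerSeries Y (MvPowerSeries (Fin r) O)),
      lambdaBack c ∈ maximalIdeal (LambdaRing O Y r) := fun c hc =>
    LocalRing.map_maximalIdeal_le _
      (fun z hz => by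
        rw [lambdaBack, LocalRing.eval_C]
        exact LocalRing.map_maximalIdeal_le _
          (fun a ha => by rw [LocalRing.eval_C]; exact LocalRing.C_mem_maximalIdeal ha)
          (fun v => by rw [LocalRing.eval_X]; exact LocalRing.X_mem_maximalIdeal _)
          (Ideal.mem_map_of_mem _ hz))
      (fun y => by rw [lambdaBack, LocalRing.eval_X]; exact LocalRing.X_mem_maximalIdeal _)
      (Ideal.mem_map_of_mem _ hc)
  have h := LocalRing.sub_mem_of_generators ((lambdaBack).comp (lambdaMap O Y r))
    (RingHom.id _) ⊥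
    (fun c => by
      rw [RingHom.comp_apply, lambdaMap_C, lambdaBack, LocalRing.eval_C, LocalRing.eval_C]
      simp)
    (fun v => by
      rw [RingHom.comp_apply, lambdaMap, LocalRing.eval_X]
      rcases v with y | x <;> simp [lambdaBack])
    (fun c hc => hback _ (by
      rw [lambdaMap_C]
      exact LocalRing.C_mem_maximalIdeal (LocalRing.C_mem_maximalIdeal hc)))
    (fun v => hback _ (by rw [lambdaMap, LocalRing.eval_X]; exact lambdaVar_mem v))
    (fun c hc => LocalRing.C_mem_maximalIdeal hc) (fun v => LocalRing.X_mem_maximalIdeal v) x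
  simpa [sub_eq_zero] using h

theorem lambdaBack_mem_pow {n : ℕ} {f : MvPowerSeries Y (MvPowerSeries (Fin r) O)}
    (hf : f ∈ maximalIdeal _ ^ n) : lambdaBack f ∈ maximalIdeal (LambdaRing O Y r) ^ n := by
  have h := Ideal.mem_map_of_mem (lambdaBack (O := O) (Y := Y) (r := r)) hf
  rw [Ideal.map_pow] at h
  refine Ideal.pow_right_mono ?_ n h
  refine LocalRing.map_maximalIdeal_le _ (fun z hz => ?_)
    (fun y => by rw [lambdaBack, LocalRing.eval_X]; exact LocalRing.X_mem_maximalIdeal _)
  rw [lambdaBack, LocalRing.eval_C]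
  exact LocalRing.map_maximalIdeal_le _
    (fun a ha => by rw [LocalRing.eval_C]; exact LocalRing.C_mem_maximalIdeal ha)
    (fun v => by rw [LocalRing.eval_X]; exact LocalRing.X_mem_maximalIdeal _)
    (Ideal.mem_map_of_mem _ hz)

/-- An element all of whose coefficients lie in `m₀ ^ n` lies in `m ^ n`. -/
theorem mem_pow_of_lambdaMap_coeff {n : ℕ} {x : LambdaRing O Y r}
    (h : ∀ d, MvPowerSeries.coeff d (lambdaMap O Y r x) ∈
      maximalIdeal (MvPowerSeries (Fin r) O) ^ n) :
    x ∈ maximalIdeal (LambdaRing O Y r) ^ n :=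
  lambdaBack_lambdaMap x ▸ lambdaBack_mem_pow (mem_maximalIdeal_pow_of_coeff h)

end Lambda

/-- `dim O⟦σ⟧ = #σ + 1`. -/
theorem ringKrullDim_mvPowerSeries {O : Type} [CommRing O] [IsDomain O] [IsDiscreteValuationRing O]
    (σ : Type) [Fintype σ] :
    ringKrullDim (MvPowerSeries σ O) = (Fintype.card σ + 1 : ℕ) := by
  rw [ringKrullDim_eq_of_ringEquiv
    (MvPowerSeries.renameEquiv O (Fintype.equivFin σ)).toRingEquiv]
  exact Patching.ringKrullDim_mvPowerSeries_fin O _

end Fermat.Agent.Root.Patched

namespace Fermat.Agent.Patching.Level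

variable {Λ Λ₀ A R₀ R : Type*} [CommRing Λ] [CommRing Λ₀] [CommRing A] [CommRing R₀] [CommRing R]
  {Y : Type*} {𝔞₀ : Ideal Λ₀} {I : Ideal R} {d : ℕ}
  (L : Level Λ₀ R₀ R 𝔞₀ I d) {e : Λ →+* MvPowerSeries Y Λ₀} (he : Function.Surjective e)
  {F : A →+* MvPowerSeries Y R₀} (hF : Function.Surjective F)

/-- Elements mapped to constants acting by scalars act by scalars. -/
theorem frame_act_of_const {a : A} {b : R₀} {l : Λ} {l₀ : Λ₀} (ha : F a = MvPowerSeries.C b)
    (hb : L.act b = Matrix.scalar (Fin d) (Ideal.Quotient.mk L.c l₀))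
    (hl : e l = MvPowerSeries.C l₀) :
    (L.frame he hF).act a = Matrix.scalar (Fin d) (Ideal.Quotient.mk (L.frame he hF).c l) := by
  classical
  refine Matrix.ext fun i j => ?_
  rw [← (L.frame he hF).mk_mat, Matrix.scalar_apply, Matrix.diagonal_apply,
    ← map_zero (Ideal.Quotient.mk (L.frame he hF).c), ← apply_ite (Ideal.Quotient.mk _),
    Ideal.Quotient.mk_eq_mk_iff_sub_mem, L.mem_frame_c_iff he hF]
  intro α
  have h1 := L.coeff_mat_frame_sub_mem he hF a i j α
  rw [ha] at h1
  have h2 : L.mat (MvPowerSeries.coeff α (MvPowerSeries.C b)) i j -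
      MvPowerSeries.coeff α (e (if i = j then l else 0)) ∈ L.c := by
    by_cases hα : α = 0
    · subst hα
      rw [MvPowerSeries.coeff_zero_C]
      have := L.mat_sub_scalar_mem hb i j
      convert this using 1
      rw [Matrix.scalar_apply, Matrix.diagonal_apply]
      split_ifs <;> simp [hl]
    · rw [MvPowerSeries.coeff_C_of_ne_zero hα]
      have h0 : L.mat 0 i j ∈ L.c := by
        simpa using L.mat_sub_mem (l := 0) (a := 0) (i := i) (j := j) (by simp)
      convert h0 using 1
      split_ifs <;> simp [hl, MvPowerSeries.coeff_C_of_ne_zero hα]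
  have := add_mem h1 h2
  convert this using 1
  rw [map_sub, map_sub]
  ring

end Fermat.Agent.Patching.Level
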