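import Fermat.Agent.Root.Patched.LocalSystem
import Fermat.Agent.FlatModel.FlatAt
import Fermat.Agent.FlatBound.OfHopf
import Fermat.Agent.TW.Local

/-!
# Facts for the plain conditions of standard systems

Test rings have finite residue fields, and flatness at `p` is pushed forward
along them (`isFlatAt_map`).
-/

set_option autoImplicit false

noncomputable section

open IsLocalRing

namespace Fermat.Agent.Root.Patched

open Fermat.Agent.Deformation

local notation "ℚbar" => AlgebraicClosure ℚ

variable {O : Type} [CommRing O] [IsLocalRing O] {ρbar : GQ →* M2 (ResidueField O)}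
  {P : ValuationSubring ℚbar} {p : ℕ}

theorem levelSum_apply {A : Type} [CommRing A] [IsLocalRing A] {B : Type} (M : GQ →* M2 A)
    (hM : MatCont M) (I : Ideal A) (s : Finset (B × GQ)) (c : B × GQ → A) (v : Fin 2 → A) :
    (∑ q ∈ s, Module.toAddMonoidEnd A ((Deformation.ofMatrix M hM).V ⧸
        (I • (⊤ : Submodule A (Deformation.ofMatrix M hM).V))) (c q) *
      FlatModel.levelEnd (Deformation.ofMatrix M hM) I q.2)
        (Submodule.Quotient.mk v) =
      (Submodule.Quotient.mk ((∑ q ∈ s, c q • M q.2).mulVec v) :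
        (Deformation.ofMatrix M hM).V ⧸
          (I • (⊤ : Submodule A (Deformation.ofMatrix M hM).V))) := by
  classical
  induction s using Finset.induction_on with
  | empty =>
    rw [Finset.sum_empty, Finset.sum_empty]
    show (0 : (Deformation.ofMatrix M hM).V ⧸
      (I • (⊤ : Submodule A (Deformation.ofMatrix M hM).V))) = _
    exact ((Submodule.Quotient.mk_eq_zero _).mpr
      (by rw [Matrix.zero_mulVec]; exact Submodule.zero_mem _)).symm
  | insert a t hat ih =>
    rw [Finset.sum_insert hat, Finset.sum_insert hat, Matrix.add_mulVec, Matrix.smul_mulVec]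
    exact congrArg₂ (· + ·) rfl ih

/-- **Flatness is pushed forward**: the levels of the image are cut out of levels of the source
by relations. -/
theorem isFlatAt_map {A B : Type} [CommRing A] [IsLocalRing A] [CommRing B] [IsLocalRing B]
    [Finite (ResidueField B)] [Fact p.Prime] (φ : A →+* B) {M : GQ →* M2 A} {M' : GQ →* M2 B}
    {hM : MatCont M} {hM' : MatCont M'} (h : ∀ g, M' g = (M g).map φ)
    (hr : (Deformation.ofMatrix M hM).IsFlatAt p) :
    (Deformation.ofMatrix M' hM').IsFlatAt p := by
  set ρ := Deformation.ofMatrix M hM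
  set ρ' := Deformation.ofMatrix M' hM'
  refine ⟨inferInstance, fun I hI => ?_⟩
  set J : Ideal A := I.comap φ
  have : Finite (A ⧸ J) :=
    Finite.of_injective (Ideal.quotientMap I φ le_rfl) Ideal.quotientMap_injective
  have := FlatModel.finite_level ρ J
  have := FlatModel.finite_level ρ' I
  obtain ⟨MM⟩ := FlatBound.exists_model_of_isFlatAt hr J (FlatModel.levelEnd ρ J) fun _ _ => rfl
  let hB : A →+* AddMonoid.End (ρ.V ⧸ (J • (⊤ : Submodule A ρ.V))) :=
    Module.toAddMonoidEnd A _
  let gB : A →+* AddMonoid.End (ρ'.V ⧸ (I • (⊤ : Submodule B ρ'.V))) :=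
    (Module.toAddMonoidEnd B _).comp φ
  have hrel : ∀ (s : Finset (A × FlatModel.GalQ)) (c : A × FlatModel.GalQ → A),
      ∑ q ∈ s, hB (c q) * FlatModel.levelEnd ρ J q.2 = 0 →
        ∑ q ∈ s, gB (c q) * FlatModel.levelEnd ρ' I q.2 = 0 := by
    intro s c hc
    set X : M2 A := ∑ q ∈ s, c q • M q.2
    have hJ : ∀ i j, X i j ∈ J := fun i j => by
      have h0 := (levelSum_apply M hM J s c (Pi.single j 1)).symm.trans
        (DFunLike.congr_fun hc _)
      have h1 := (Submodule.Quotient.mk_eq_zero _).mp h0
      have h2 := repr_mem_of_mem_smul_top (Pi.basisFun A (Fin 2)) J h1 i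
      rw [Pi.basisFun_repr, Matrix.mulVec_single_one] at h2
      exact h2
    refine AddMonoidHom.ext fun x => ?_
    obtain ⟨v, rfl⟩ := Submodule.Quotient.mk_surjective _ x
    refine (levelSum_apply M' hM' I s (fun q => φ (c q)) v).trans ?_
    have hA : ∑ q ∈ s, φ (c q) • M' q.2 = X.map φ := by
      rw [← RingHom.mapMatrix_apply, map_sum]
      refine Finset.sum_congr rfl fun q _ => ?_
      rw [RingHom.mapMatrix_apply, h]
      ext i j
      simp
    refine (Submodule.Quotient.mk_eq_zero _).mpr ?_
    show ((∑ q ∈ s, φ (c q) • M' q.2).mulVec v) ∈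
      (I • (⊤ : Submodule B (Fin 2 → B)))
    rw [hA, pi_eq_sum_univ ((X.map φ).mulVec v)]
    refine Submodule.sum_mem _ fun i _ => Submodule.smul_mem_smul ?_ Submodule.mem_top
    simp only [Matrix.mulVec, dotProduct, Matrix.map_apply]
    exact Ideal.sum_mem _ fun j _ => Ideal.mul_mem_right _ _ (hJ i j)
  obtain ⟨MQ⟩ := FlatModel.nonempty_model_of_relations (FlatModel.levelEnd ρ J)
    (FlatModel.levelEnd ρ' I) hB gB MM
    (fun b σ => AddMonoidHom.ext fun x => (LinearMap.map_smul (ρ.levelAction J σ) b x).symm)
    (fun b σ => AddMonoidHom.ext fun x => (LinearMap.map_smul (ρ'.levelAction I σ) (φ b) x).symm)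
    hrel
  exact MQ.exists_hopfAlgebra

/-- Residue fields of test rings are finite. -/
theorem TestRing.finite_residueField [Finite (ResidueField O)] (S : TestRing O) :
    Finite (ResidueField S.R) :=
  let g : ResidueField S.R →+* ResidueField O :=
    Ideal.Quotient.lift _ S.red fun a ha => (S.ker_red a).mpr ha
  Finite.of_injective g g.injective

end Fermat.Agent.Root.Patched
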