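import Fermat.Agent.Root.Patched.FramedTangent
import Fermat.Agent.Root.Patched.Selmer

/-!
# Tangent vectors of framed rings

An additive `δ` on the framed ring satisfying Leibniz at the closed point and killing `O` gives a
pair (cocycle, frames); if the framed lifts are constant on decomposition groups to first order,
this pair lies in the framed Selmer space, and it determines `δ`.
-/

set_option autoImplicit false

noncomputable section

open IsLocalRing Matrix

namespace Fermat.Agent.Root.Patched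

open Fermat.Agent.Deformation Fermat.Agent.LocalRing

local notation "ℚbar" => AlgebraicClosure ℚ

/-- Every automorphism acts on `μ_N` by some exponent. -/
theorem exists_exponent (N : ℕ) [NeZero N] (σ : GQ) :
    ∃ a : ℕ, ∀ μ : ℚbar, μ ^ N = 1 → σ μ = μ ^ a := by
  obtain ⟨ζ, hζ⟩ := HasEnoughRootsOfUnity.exists_primitiveRoot ℚbar N
  obtain ⟨a, -, ha⟩ := hζ.eq_pow_of_pow_eq_one (ξ := σ ζ)
    (by rw [← map_pow, hζ.pow_eq_one, map_one])
  refine ⟨a, fun μ hμ => ?_⟩
  obtain ⟨i, -, rfl⟩ := hζ.eq_pow_of_pow_eq_one hμ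
  rw [map_pow, ← ha, ← pow_mul, ← pow_mul, mul_comm]

/-- A derivation at the closed point. -/
structure IsPointDeriv {D k : Type} [CommRing D] [CommRing k] (red : D →+* k) (δ : D →+ k) :
    Prop where
  leibniz : ∀ x y, δ (x * y) = red x * δ y + δ x * red y

namespace IsPointDeriv

variable {D k : Type} [CommRing D] [CommRing k] {red : D →+* k} {δ : D →+ k}
  (h : IsPointDeriv red δ)

include h in
theorem map_one : δ 1 = 0 := by
  have h1 := h.leibniz 1 1
  rwa [one_mul, red.map_one, one_mul, mul_one, left_eq_add] at h1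

include h in
theorem matrix_mul (M N : M2 D) :
    (M * N).map δ = M.map red * N.map δ + M.map δ * N.map red := by
  ext i j
  simp [Matrix.mul_apply, Matrix.map_apply, h.leibniz]
  ring

include h in
theorem matrix_one : (1 : M2 D).map δ = 0 := by
  ext i j
  simp [Matrix.one_apply, apply_ite δ, h.map_one]

include h in
theorem det_fin_two (M : M2 D) : δ M.det = red (M 1 1) * δ (M 0 0) + red (M 0 0) * δ (M 1 1) -
    (red (M 1 0) * δ (M 0 1) + red (M 0 1) * δ (M 1 0)) := by
  rw [Matrix.det_fin_two, map_sub, h.leibniz, h.leibniz]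
  ring

include h in
theorem map_inv (U : (M2 D)ˣ) (hU : (U : M2 D).map red = 1)
    (hU' : (↑U⁻¹ : M2 D).map red = 1) : (↑U⁻¹ : M2 D).map δ = -(U : M2 D).map δ := by
  have e := h.matrix_mul (U : M2 D) (↑U⁻¹ : M2 D)
  rw [Units.mul_inv, h.matrix_one, hU, hU', Matrix.one_mul, Matrix.mul_one] at e
  exact eq_neg_of_add_eq_zero_left e.symm

end IsPointDeriv

section Selmer

variable {k : Type} [Field k] (ρ : GQ →* GL (Fin 2) k)

theorem mul_val_inv (σ : GQ) : (ρ σ).val * (ρ σ⁻¹).val = 1 := by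
  rw [← Units.val_mul, ← map_mul, mul_inv_cancel, map_one, Units.val_one]

theorem val_inv_mul (σ : GQ) : (ρ σ⁻¹).val * (ρ σ).val = 1 := by
  rw [← Units.val_mul, ← map_mul, inv_mul_cancel, map_one, Units.val_one]

theorem trace_adAct (σ : GQ) (X : Matrix (Fin 2) (Fin 2) k) : (adAct ρ σ X).trace = X.trace := by
  rw [adAct, Matrix.trace_mul_comm, ← Matrix.mul_assoc, val_inv_mul, Matrix.one_mul]

/-- Only scalars commute with an adjoint irreducible representation. -/
theorem eq_zero_of_commute (p : ℕ)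
    (hadj : ∀ U : Submodule k (Matrix (Fin 2) (Fin 2) k), (∀ M ∈ U, M.trace = 0) →
      (∀ σ : GQ, (∀ μ : ℚbar, μ ^ p = 1 → σ μ = μ) → ∀ M ∈ U, adAct ρ σ M ∈ U) →
      U = ⊥ ∨ ∀ M : Matrix (Fin 2) (Fin 2) k, M.trace = 0 → M ∈ U)
    {X : Matrix (Fin 2) (Fin 2) k} (hX : X.trace = 0)
    (hfix : ∀ σ, (ρ σ).val * X = X * (ρ σ).val) : X = 0 := by
  rcases hadj (Submodule.span k {X})
      (fun M hM => by
        obtain ⟨a, rfl⟩ := Submodule.mem_span_singleton.mp hM
        rw [Matrix.trace_smul, hX, smul_zero])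
      (fun σ _ M hM => by
        obtain ⟨a, rfl⟩ := Submodule.mem_span_singleton.mp hM
        refine Submodule.mem_span_singleton.mpr ⟨a, ?_⟩
        rw [adAct, mul_smul_comm, smul_mul_assoc, hfix, mul_assoc, mul_val_inv, mul_one]) with h | h
  · exact Submodule.span_singleton_eq_bot.mp h
  · exfalso
    obtain ⟨a, ha⟩ := Submodule.mem_span_singleton.mp
      (h !![1, 0; 0, -1] (by simp [Matrix.trace_fin_two]))
    obtain ⟨b, hb⟩ := Submodule.mem_span_singleton.mp
      (h !![0, 1; 0, 0] (by simp [Matrix.trace_fin_two]))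
    have h00 : a * X 0 0 = 1 := by simpa using congrFun (congrFun ha 0) 0
    have h01 : b * X 0 1 = 1 := by simpa using congrFun (congrFun hb 0) 1
    have h10 : b * X 0 0 = 0 := by simpa using congrFun (congrFun hb 0) 0
    exact right_ne_zero_of_mul_eq_one h00
      ((mul_eq_zero.mp h10).resolve_left (left_ne_zero_of_mul_eq_one h01))

end Selmer

variable {O : Type} [CommRing O] [IsLocalRing O] {ρbar : GQ →* M2 (ResidueField O)}
  {ι : Type} [Fintype ι] {S : TestRing O} (ℓ : Lift ρbar S)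
  {ρ : GQ →* GL (Fin 2) (ResidueField O)} (q : ι → ℕ)
  {δ : (S.framed ι).R →+ ResidueField O}

/-- The cocycle of `δ`. -/
def cocycleOfDeriv (ρ : GQ →* GL (Fin 2) (ResidueField O))
    (δ : (S.framed ι).R →+ ResidueField O) (σ : GQ) :
    Matrix (Fin 2) (Fin 2) (ResidueField O) :=
  ((ℓ.constSeries (ι := ι)).M σ).map δ * (ρ σ⁻¹).val

/-- The frames of `δ`. -/
def frameOfDeriv (δ : (S.framed ι).R →+ ResidueField O) :
    ℕ → Matrix (Fin 2) (Fin 2) (ResidueField O) :=
  Function.extend q (fun v => -(frameY S v).map δ) 0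

variable (hρ : ∀ σ, (ρ σ).val = ρbar σ) (hδ : IsPointDeriv (S.framed ι).red δ)
  (halg : ∀ c, δ ((S.framed ι).alg c) = 0)

include hρ in
theorem map_red_constSeries (σ : GQ) :
    ((ℓ.constSeries (ι := ι)).M σ).map (S.framed ι).red = (ρ σ).val := by
  rw [hρ]; exact (ℓ.constSeries (ι := ι)).reduces σ

include hρ hδ halg in
/-- `δ` gives an element of the framed Selmer space. -/
theorem isFramedKernel_of_deriv [DecidableEq ι] (hq : Function.Injective q) {p : ℕ}
    [Fact p.Prime] (hp : (p : O) ∈ maximalIdeal O) (hdet : DetCyclotomic p S ℓ)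
    (hsq : ∀ x ∈ maximalIdeal (S.framed ι).R ^ 2, δ x = 0)
    (Q : Finset ℕ) (P : ℕ → ValuationSubring ℚbar)
    (hunr : ∀ x : ℕ, x.Prime → (∀ v, q v ≠ x) → x ∉ Q → ∀ A : ValuationSubring ℚbar,
      A.LiesOverPrime x → ∀ σ ∈ A.inertiaSubgroupIn ℚ, ℓ.M σ = 1)
    (hloc : ∀ v, ∀ g ∈ (P (q v)).decompositionSubgroup ℚ,
      ((ℓ.framedAt v).M g).map δ = 0) :
    IsFramedKernel ρ (Finset.univ.image q) Q P (cocycleOfDeriv ℓ ρ δ, frameOfDeriv q δ) := by
  refine ⟨fun σ => ?_, fun x => ?_, fun x hx => ?_, fun σ τ => ?_, ?_, ?_, ?_⟩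
  · -- trace zero
    set MC := (ℓ.constSeries (ι := ι)).M σ
    obtain ⟨a, ha⟩ := exists_exponent p σ
    have hd := Ideal.mem_map_of_mem (S.constHom (FrameVar ι))
      (hdet 1 σ a (fun μ hμ => ha μ (by simpa using hμ)))
    rw [Ideal.map_span, Set.image_singleton, map_natCast, map_sub, map_natCast, RingHom.map_det,
      RingHom.mapMatrix_apply, ← Lift.constSeries_M, Ideal.mem_span_singleton', pow_one] at hd
    obtain ⟨w, hw⟩ := hd
    have hnat : ∀ n : ℕ, δ (n : (S.framed ι).R) = 0 := fun n => by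
      rw [← map_natCast (S.framed ι).alg, halg]
    have hredp : (S.framed ι).red (p : (S.framed ι).R) = 0 := by
      rw [← map_natCast (S.framed ι).alg, (S.framed ι).red_alg, residue_eq_zero_iff]; exact hp
    have h0 : δ MC.det = 0 := by
      rw [show MC.det = w * (p : (S.framed ι).R) + (a : (S.framed ι).R) from
          eq_add_of_sub_eq hw.symm, map_add,
        hδ.leibniz, hnat, hnat, hredp]
      simp
    have e1 : MC.map δ = cocycleOfDeriv ℓ ρ δ σ * (ρ σ).val := by
      rw [cocycleOfDeriv, Matrix.mul_assoc, val_inv_mul, Matrix.mul_one]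
    have e2 := map_red_constSeries ℓ hρ (ι := ι) σ
    rw [hδ.det_fin_two] at h0
    have f : ∀ i j, δ (MC i j) = (cocycleOfDeriv ℓ ρ δ σ * (ρ σ).val) i j := fun i j =>
      congrFun (congrFun e1 i) j
    have g : ∀ i j, (S.framed ι).red (MC i j) = (ρ σ).val i j := fun i j =>
      congrFun (congrFun e2 i) j
    have hexp : (ρ σ).val.det * (cocycleOfDeriv ℓ ρ δ σ).trace = 0 := by
      rw [← h0, f, f, f, f, g, g, g, g, Matrix.det_fin_two, Matrix.trace_fin_two]
      simp only [Matrix.mul_apply, Fin.sum_univ_two]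
      ring
    exact (mul_eq_zero.mp hexp).resolve_left
      ((Matrix.isUnit_iff_isUnit_det _).mp (ρ σ).isUnit).ne_zero
  · by_cases hx : ∃ v, q v = x
    · obtain ⟨v, rfl⟩ := hx
      simp only [frameOfDeriv, hq.extend_apply, Matrix.trace_fin_two, Matrix.neg_apply,
        Matrix.map_apply, frameY]
      simp
    · simp only [frameOfDeriv, Function.extend_apply' _ _ _ hx, Pi.zero_apply, Matrix.trace_zero]
  · show frameOfDeriv q δ x = 0
    rw [frameOfDeriv, Function.extend_apply', Pi.zero_apply]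
    refine fun h => hx ?_
    obtain ⟨v, hv⟩ := h
    exact Finset.mem_image.mpr ⟨v, Finset.mem_univ v, hv⟩
  · simp only [cocycleOfDeriv, map_mul, hδ.matrix_mul, map_red_constSeries ℓ hρ, adAct,
      _root_.mul_inv_rev, Units.val_mul, Matrix.add_mul]
    rw [add_comm]
    congr 1
    · rw [Matrix.mul_assoc, ← Matrix.mul_assoc (ρ τ).val, mul_val_inv, Matrix.one_mul]
    · simp only [Matrix.mul_assoc]
  · obtain ⟨L, hL, h⟩ := (ℓ.constSeries (ι := ι)).cont 2
    refine ⟨L, hL, fun σ τ hτ => ?_⟩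
    set MC := (ℓ.constSeries (ι := ι)).M
    have h1 : (MC τ).map δ = 0 := by
      ext x y
      have := hsq _ (h τ hτ x y)
      rw [map_sub, Matrix.one_apply, apply_ite δ, hδ.map_one, map_zero, ite_self, sub_zero] at this
      exact this
    have h2 : ρ τ = 1 := Units.ext <| by
      rw [← map_red_constSeries ℓ hρ (ι := ι) τ, Units.val_one]
      ext x y
      rw [Matrix.map_apply, ← sub_eq_zero]
      have e : (S.framed ι).red ((1 : M2 (S.framed ι).R) x y) = (1 : M2 (ResidueField O)) x y := by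
        rw [Matrix.one_apply, Matrix.one_apply]; split_ifs <;> simp
      rw [← e, ← map_sub, (S.framed ι).ker_red]
      exact Ideal.pow_le_self two_ne_zero (h τ hτ x y)
    show cocycleOfDeriv ℓ ρ δ (σ * τ) = cocycleOfDeriv ℓ ρ δ σ
    simp only [cocycleOfDeriv, map_mul, hδ.matrix_mul, map_red_constSeries ℓ hρ,
      _root_.mul_inv_rev]
    rw [show (ℓ.constSeries (ι := ι)).M τ = MC τ from rfl, h1, Matrix.mul_zero,
      zero_add, map_inv ρ τ,
      h2, inv_one, one_mul, Units.val_one, Matrix.mul_one]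
  · intro x hx hxT hxQ A hA σ hσ
    have h1 := hunr x hx (fun v hv => hxT (Finset.mem_image.mpr ⟨v, Finset.mem_univ v, hv⟩)) hxQ
      A hA σ hσ
    show cocycleOfDeriv ℓ ρ δ σ = 0
    rw [cocycleOfDeriv, Lift.constSeries_M, h1, Matrix.map_one _ (map_zero _) (map_one _),
      hδ.matrix_one, Matrix.zero_mul]
  · intro x hx σ hσ
    obtain ⟨v, -, rfl⟩ := Finset.mem_image.mp hx
    have h := hloc v σ hσ
    have hU := frameU_map_red S v
    have hUd : (frameU S v : M2 (S.framed ι).R).map δ = (frameY S v).map δ := by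
      rw [coe_frameU, Matrix.map_add _ (map_add _), hδ.matrix_one, zero_add]
    rw [Lift.framedAt_M, hδ.matrix_mul, hδ.matrix_mul, Matrix.map_mul, map_red_inv hU, hU,
      map_red_constSeries ℓ hρ, hδ.map_inv _ hU (map_red_inv hU), hUd] at h
    simp only [Matrix.one_mul, Matrix.mul_one] at h
    have h' := congrArg (fun X => X * (ρ σ⁻¹).val) h
    simp only [Matrix.add_mul, Matrix.zero_mul, Matrix.mul_assoc, mul_val_inv, Matrix.mul_one,
      Matrix.mul_neg, Matrix.neg_mul] at h'
    show cocycleOfDeriv ℓ ρ δ σ + (adAct ρ σ (frameOfDeriv q δ (q v)) - frameOfDeriv q δ (q v)) = 0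
    rw [← h']
    simp only [cocycleOfDeriv, frameOfDeriv, hq.extend_apply, adAct, Matrix.neg_mul,
      Matrix.mul_neg, Matrix.mul_assoc]
    abel

include hδ halg in
/-- A derivation whose pair is a coboundary is zero. -/
theorem deriv_eq_zero (hgen : Subring.closure (Set.range S.alg ∪
      Set.range fun σ => (ℓ.M σ).trace) = ⊤) {p : ℕ}
    (hadj : ∀ U : Submodule (ResidueField O) (Matrix (Fin 2) (Fin 2) (ResidueField O)),
      (∀ M ∈ U, M.trace = 0) →
      (∀ σ : GQ, (∀ μ : ℚbar, μ ^ p = 1 → σ μ = μ) → ∀ M ∈ U, adAct ρ σ M ∈ U) →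
      U = ⊥ ∨ ∀ M : Matrix (Fin 2) (Fin 2) (ResidueField O), M.trace = 0 → M ∈ U)
    {X : Matrix (Fin 2) (Fin 2) (ResidueField O)} (hX : X.trace = 0)
    (h1 : ∀ σ, cocycleOfDeriv ℓ ρ δ σ + (adAct ρ σ X - X) = 0)
    (h2 : ∀ v, (frameY S v).map δ + X = 0) : δ = 0 ∧ X = 0 := by
  have hgen0 : ∀ x : S.R, δ (S.constHom _ x) = 0 := by
    intro x
    have hx : x ∈ Subring.closure (Set.range S.alg ∪ Set.range fun σ => (ℓ.M σ).trace) :=
      hgen ▸ Subring.mem_top x
    induction hx using Subring.closure_induction with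
    | mem y hy =>
      rcases hy with ⟨c, rfl⟩ | ⟨σ, rfl⟩
      · exact halg c
      · have e : δ (S.constHom _ (ℓ.M σ).trace) =
            (((ℓ.constSeries (ι := ι)).M σ).map δ).trace := by
          rw [Matrix.trace_fin_two, Matrix.trace_fin_two, map_add, map_add]
          rfl
        have h1σ := congrArg (fun Z => (Z * (ρ σ).val).trace) (h1 σ)
        simp only [cocycleOfDeriv, Matrix.add_mul, Matrix.sub_mul, Matrix.trace_add,
          Matrix.trace_sub, adAct, Matrix.mul_assoc, val_inv_mul, Matrix.mul_one, Matrix.zero_mul,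
          Matrix.trace_zero, Matrix.trace_mul_comm (ρ σ).val X, sub_self, add_zero] at h1σ
        rw [e, h1σ]
    | zero => rw [map_zero, map_zero]
    | one => rw [_root_.map_one]; exact hδ.map_one
    | add y w _ _ hy hw => rw [map_add, map_add, hy, hw, add_zero]
    | neg y _ hy => rw [map_neg, map_neg, hy, neg_zero]
    | mul y w _ _ hy hw => rw [map_mul, hδ.leibniz, hy, hw, mul_zero, zero_mul, add_zero]
  have hX0 : X = 0 := eq_zero_of_commute ρ p hadj hX fun σ => by
    have := h1 σ
    rw [cocycleOfDeriv, show ((ℓ.constSeries (ι := ι)).M σ).map δ = 0 from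
      Matrix.ext fun x y => hgen0 _, Matrix.zero_mul, zero_add, sub_eq_zero, adAct] at this
    calc (ρ σ).val * X = (ρ σ).val * X * ((ρ σ⁻¹).val * (ρ σ).val) := by
          rw [val_inv_mul, Matrix.mul_one]
      _ = X * (ρ σ).val := by rw [← Matrix.mul_assoc, this]
  have hδy : ∀ w, δ (S.varX w) = 0 := fun ⟨v, u⟩ => by
    have h := h2 v
    rw [hX0, add_zero] at h
    fin_cases u
    · simpa [frameY] using congrFun (congrFun h 0) 0
    · simpa [frameY] using congrFun (congrFun h 0) 1
    · simpa [frameY] using congrFun (congrFun h 1) 0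
  refine ⟨AddMonoidHom.ext fun x => ?_, hX0⟩
  have key : ∀ y ∈ Ideal.span (Set.range (S.varX (σ := FrameVar ι))),
      δ y = 0 ∧ (S.framed ι).red y = 0 := by
    intro y hy
    induction hy using Submodule.span_induction with
    | mem y hy => obtain ⟨w, rfl⟩ := hy; exact ⟨hδy w, S.red_varX w⟩
    | zero => exact ⟨map_zero _, map_zero _⟩
    | add y w _ _ hy hw =>
      exact ⟨by rw [map_add, hy.1, hw.1, add_zero], by rw [map_add, hy.2, hw.2, add_zero]⟩
    | smul c y _ hy =>
      exact ⟨by rw [smul_eq_mul, hδ.leibniz, hy.1, hy.2, mul_zero, mul_zero, add_zero],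
        by rw [smul_eq_mul, map_mul, hy.2, mul_zero]⟩
  rw [← sub_add_cancel x (S.constHom _ (S.coeffZero _ x)), map_add,
    (key _ (S.sub_constHom_mem_span x)).1, zero_add]
  exact hgen0 _

end Fermat.Agent.Root.Patched
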