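import Fermat.Agent.Root.Patched.SeriesLemmas

/-!
# Taylor–Wiles towers

The interface between the construction of Hecke modules and patching.  For each
`n`: the ring `J n` generated by the traces of a lift `ℓ n` of all types in the local system, its
reduced quotients `U n` (unipotent at the Ihara avoidance places) and `X n` (characters there), the
modules of the stages `0, …, s` over `O⟦r diamond variables⟧` and the twin of stage `0`.
-/

set_option autoImplicit false

noncomputable section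

open IsLocalRing

namespace Fermat.Agent.Root.Patched

open Fermat.Agent.Deformation Fermat.Agent.Patching

local notation "ℚbar" => AlgebraicClosure ℚ

variable {O : Type} [CommRing O] [IsDomain O] [IsDiscreteValuationRing O]
  {ρbar : GQ →* M2 (ResidueField O)} {p : ℕ}

/-- The coordinate `a` at a flip place. -/
def LocalSystem.flipA (Sys : LocalSystem O ρbar p) (f : Fin Sys.s) (S : TestRing O)
    (ℓ : Lift ρbar S) : S.R :=
  (Sys.flipC f).val S ℓ (.inl none)

/-- The matrix of the composite degeneracy maps at a flip place, as a function of `T`. -/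
def flipMat {R : Type} [CommRing R] (q : ℕ) (T : R) : Matrix (Fin 2) (Fin 2) R :=
  !![(q : R) + 1, T; T, (q : R) + 1]

/-- A Taylor–Wiles tower for a local system. -/
structure Tower (Sys : LocalSystem O ρbar p) where
  /-- the number of auxiliary primes -/
  r : ℕ
  /-- the auxiliary primes -/
  Q : ℕ → Finset ℕ
  J : ℕ → TestRing O
  U : ℕ → TestRing O
  X : ℕ → TestRing O
  R₀ : TestRing O
  R₀' : CompleteRing
  pU : ∀ n, (J n).R →+* (U n).R
  pU_alg : ∀ n, (pU n).comp (J n).alg = (U n).alg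
  pU_red : ∀ n, (U n).red.comp (pU n) = (J n).red
  pU_surjective : ∀ n, Function.Surjective (pU n)
  pX : ∀ n, (J n).R →+* (X n).R
  pX_alg : ∀ n, (pX n).comp (J n).alg = (X n).alg
  pX_red : ∀ n, (X n).red.comp (pX n) = (J n).red
  pX_surjective : ∀ n, Function.Surjective (pX n)
  ℓ : ∀ n, Lift ρbar (J n)
  gen : ∀ n, Subring.closure (Set.range (J n).alg ∪
    Set.range fun σ => ((ℓ n).M σ).trace) = ⊤
  det : ∀ n, DetCyclotomic p (J n) (ℓ n)
  cond : ∀ n v, Sys.Cond v (J n) (ℓ n)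
  unramified : ∀ n (x : ℕ), x.Prime → (∀ v, Sys.q v ≠ x) → x ∉ Q n →
    ∀ A : ValuationSubring ℚbar, A.LiesOverPrime x → ∀ σ ∈ A.inertiaSubgroupIn ℚ, (ℓ n).M σ = 1
  reducedU : ∀ n, IsReduced (U n).R
  reducedX : ∀ n, IsReduced (X n).R
  unip : ∀ n i, Unipotent (Sys.P (.inl i)) (U n) ((ℓ n).push (pU n) (pU_red n))
  /-- at every component of `X n` inertia acts through one of the classes of characters -/
  char : ∀ n i, ∀ 𝔭 ∈ minimalPrimes (X n).R, ∃ b,
    (((ℓ n).push (pX n) (pX_red n)).M (Sys.τ i)).charpoly.map (Ideal.Quotient.mk 𝔭) =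
      ((Polynomial.X - Polynomial.C ((X n).alg (Sys.ζ b))) *
        (Polynomial.X - Polynomial.C ((X n).alg (Sys.ζi b)))).map (Ideal.Quotient.mk 𝔭)
  d : ℕ → ℕ
  d_pos : 0 < d 0
  I : ℕ → Ideal R₀.R
  I' : Ideal R₀'
  L : ∀ i n, Level (MvPowerSeries (Fin r) O) (U n).R R₀.R
    (RingHom.ker (MvPowerSeries.constantCoeff : MvPowerSeries (Fin r) O →+* O)) (I i) (d i)
  LX : ∀ n, Level (MvPowerSeries (Fin r) O) (X n).R R₀'
    (RingHom.ker (MvPowerSeries.constantCoeff : MvPowerSeries (Fin r) O →+* O)) I' (d 0)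
  π_eq : ∀ i n, (L i n).π = (L 0 n).π
  π_alg : ∀ n, (L 0 n).π.comp (U n).alg = R₀.alg
  small : ∀ i n, (L i n).c ≤ maximalIdeal (MvPowerSeries (Fin r) O) ^ n
  smallX : ∀ n, (LX n).c ≤ maximalIdeal (MvPowerSeries (Fin r) O) ^ n
  scalar : ∀ i n (c : O), (L i n).act ((U n).alg c) =
    Matrix.scalar (Fin (d i)) (Ideal.Quotient.mk (L i n).c (MvPowerSeries.C c))
  scalarX : ∀ n (c : O), (LX n).act ((X n).alg c) =
    Matrix.scalar (Fin (d 0)) (Ideal.Quotient.mk (LX n).c (MvPowerSeries.C c))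
  congr : ∀ (ϖ : O), Irreducible ϖ → ∀ n σ i j,
    (L 0 n).mat (pU n ((ℓ n).M σ).trace) i j - (LX n).mat (pX n ((ℓ n).M σ).trace) i j ∈
      Ideal.span {MvPowerSeries.C ϖ} ⊔ (L 0 n).c ⊔ (LX n).c
  vanish : ∀ n f (j : Fin (Sys.m f)) (y : (U n).R),
    (L 0 n).act (y * (Sys.flipA f (U n) ((ℓ n).push (pU n) (pU_red n)) -
      (U n).alg (Sys.c f j))) = 0 →
      (L 0 n).act y = 0
  vanishX : ∀ n f (j : Fin (Sys.m f)) (y : (X n).R),
    y * (Sys.flipA f (X n) ((ℓ n).push (pX n) (pX_red n)) - (X n).alg (Sys.c f j)) = 0 → y = 0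
  flip : ∀ (f : Fin Sys.s) n
    (ha : ∀ _ : Unit, Sys.flipA f (U n) ((ℓ n).push (pU n) (pU_red n)) ∈ maximalIdeal (U n).R),
    Nonempty (IharaTW.FlipLevel (L (f + 1) n) (L f n)
      (Ideal.span {∏ j, (Sys.flipA f (U n) ((ℓ n).push (pU n) (pU_red n)) -
        (U n).alg (Sys.c f j))})
      (flipMat (Sys.q (.inr (.inl f))) (LocalRing.eval (U n).alg
        (fun _ => Sys.flipA f (U n) ((ℓ n).push (pU n) (pU_red n))) ha (Sys.Tr f))))

end Fermat.Agent.Root.Patched
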