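import Fermat.Agent.Root.Patched.TowerMember
import Fermat.Agent.IharaTW.KerKill
import Fermat.Agent.IharaTW.HeckeStage
import Fermat.Agent.Root.Patched.NewPoint

/-!
# The end of a tower (lowering clause)

Stage `0` at level `N q`.  If the residual eigensystem does not descend to level `N`, the range of
every cut is in the kernel of the two traces, where operators vanishing at the points with
`U_q² = ⟨q⟩` vanish.
-/

set_option autoImplicit false

noncomputable section

namespace Fermat.Agent.Root.Patched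

open IsLocalRing Fermat.Agent.Deformation Fermat.Agent.GammaH Fermat.Agent.TW Fermat.Agent.IharaTW

variable {O : Type} [CommRing O] [IsDomain O] [IsDiscreteValuationRing O]
  [IsAdicComplete (maximalIdeal O) O] [Finite (ResidueField O)] [CharZero O]

/-- An element of the local Hecke ring vanishing at all points with `U_q² = ⟨q⟩` kills every cut
if the residual eigensystem does not come from level `N`. -/
theorem Cut.ofTW_eq_zero_of_no_character {N q : ℕ} [hqF : Fact q.Prime] (hqN : ¬ q ∣ N)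
    {H₀ : Subgroup (ZMod N)ˣ} [NeZero N] [NeZero (N * q)] {S : Finset ℕ}
    (hH : (-1 : (ZMod N)ˣ) ∈ H₀) (hHq : (-1 : (ZMod (N * q))ˣ) ∈ Hq N q H₀)
    (hLS : ∀ l : ℕ, l.Prime → l ∣ N * q → l ∈ (↑S : Set ℕ))
    {θ : heckeRing (N * q) (Hq N q H₀) (↑S : Set ℕ) →+* ResidueField O}
    (hno : ¬ ∃ θ₁ : heckeRing N H₀ (↑S : Set ℕ) →+* ResidueField O,
      θ₁.comp (stageR N q hqN H₀ hH hHq hLS) = θ)
    (C : Cut hHq θ) (y : TWRing hHq O θ)
    (hpt : ∀ a : (ZMod (N * q))ˣ, ZMod.unitsMap (dvd_mul_right N q) a = unitOf hqN →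
      ∀ (O' : Type) [CommRing O'] [IsDomain O'] [IsDiscreteValuationRing O']
      [IsAdicComplete (maximalIdeal O') O'] [Finite (ResidueField O')] [CharZero O']
      [Algebra O O'] [Module.Finite O O'] [IsLocalHom (algebraMap O O')]
      (x : HeckeO (N * q) (Hq N q H₀) ∅ O →ₐ[O] O'),
      x (HeckeO.ofT O (heckeUR hqF.out (dvd_mul_left q N) (Set.notMem_empty q))) ^ 2
          = x (HeckeO.ofT O (diamondR a)) →
      ∀ x₁ : TWRing hHq O θ →ₐ[O] O',
        (∀ z, x₁ (toTWRing hHq O θ z) = x (toFull O z)) → x₁ y = 0) :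
    C.ofTW y = 0 := by
  -- an element that vanishes at level `N` and is invertible on the cut
  obtain ⟨t, ht, htθ⟩ : ∃ t, stageR N q hqN H₀ hH hHq hLS t = 0 ∧ θ t ≠ 0 := by
    by_contra hcon
    push Not at hcon
    have hker : RingHom.ker (stageR N q hqN H₀ hH hHq hLS) ≤ RingHom.ker θ := fun t ht =>
      RingHom.mem_ker.2 (hcon t (RingHom.mem_ker.1 ht))
    have hs := stageR_surjective N q hqN H₀ hH hHq hLS
    exact hno ⟨(stageR N q hqN H₀ hH hHq hLS).liftOfSurjective hs ⟨θ, hker⟩,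
      RingHom.liftOfRightInverse_comp _ _ _ ⟨θ, hker⟩⟩
  obtain ⟨w, hw⟩ := exists_mul_eq_twIdem hHq O θ
    (x := HeckeO.ofT O t) (by rw [residO_ofT]; exact htθ)
  have hr : stageO N q hqN H₀ hH hHq hLS O (twIdem hHq O θ) = 0 := by
    rw [← hw, map_mul, HeckeO.ofT_apply, stageO_mk, ht, map_zero, smul_zero, mul_zero]
  -- so the range of the cut is in the kernel of the traces
  have hg : ∀ v ∈ LinearMap.range C.E,
      gMap N q hqN H₀ O O v = 0 ∧ actO hHq O (twIdem hHq O θ) v = v := by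
    rintro v ⟨u, rfl⟩
    have hf : actO hHq O (twIdem hHq O θ) (C.E u) = C.E u := LinearMap.congr_fun C.below u
    refine ⟨?_, hf⟩
    funext i
    rw [← hf, (intertwined_stageO N q hqN H₀ hH hHq hLS O (twIdem hHq O θ)).2, hr, map_zero]
    rfl
  obtain ⟨z, rfl⟩ := toTWRing_surjective hHq O θ y
  obtain ⟨a, ha⟩ := ZMod.unitsMap_surjective (dvd_mul_right N q) (unitOf hqN)
  rw [C.ofTW_toTWRing, Ideal.Quotient.eq_zero_iff_mem]
  show C.act z = 0
  refine LinearMap.ext fun v => Subtype.ext ?_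
  obtain ⟨h1, h2⟩ := hg _ v.2
  refine actO_eq_zero_of_gMap hqN hHq hLS ha (twIdem hHq O θ) z
    (fun O' _ _ _ _ _ _ _ _ _ x hU hx => ?_) h1 h2
  have hker : ∀ b ∈ twKer hHq O θ, (x.comp (toFull O)) b = 0 := fun b hb => by
    obtain ⟨c, rfl⟩ := Ideal.mem_span_singleton'.1 hb
    rw [map_mul, AlgHom.comp_apply x, AlgHom.comp_apply, map_sub, map_sub, map_one, map_one, hx,
      sub_self, mul_zero]
  have h := hpt a ha O' x hU (Ideal.Quotient.liftₐ _ (x.comp (toFull O)) hker) fun b => rfl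
  exact h

local notation "ℚbar" => AlgebraicClosure ℚ

theorem neg_one_mem_of_Hq {N q : ℕ} [NeZero N] [Fact q.Prime] {H₀ : Subgroup (ZMod N)ˣ}
    (hHq : (-1 : (ZMod (N * q))ˣ) ∈ Hq N q H₀) : (-1 : (ZMod N)ˣ) ∈ H₀ := by
  have h : ZMod.unitsMap (dvd_mul_right N q) (-1) ∈ H₀ := hHq
  rwa [show ZMod.unitsMap (dvd_mul_right N q) (-1) = -1 from
    Units.ext (by simp [ZMod.unitsMap_val])] at h

/-- **Stage `0` when the residual eigensystem does not descend to level `N`**: at `q` the lift has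
`tr(Frob_q)² = (q + 1)²`. -/
theorem Cut.sq_trace_eq_of_no_character {N q p R h : ℕ} [hqF : Fact q.Prime] (hqN : ¬ q ∣ N)
    (hqp : q ≠ p) {H₀ : Subgroup (ZMod N)ˣ} [NeZero N] [NeZero (N * q)] [NeZero R] (hRN : R ∣ N)
    {S : Finset ℕ} {hHq : (-1 : (ZMod (N * q))ˣ) ∈ Hq N q H₀}
    [Fact (CuspForm.HasIntegralStructure (N * q * R) 2)]
    {θ : heckeRing (N * q) (Hq N q H₀) (↑S : Set ℕ) →+* ResidueField O}
    {ρbar' : ResidualGaloisRep (ResidueField O)} {ρ₀ : GQ →* M2 (ResidueField O)}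
    (hyp : TWHyp (H := Hq N q H₀) (S := S) (O := O) p R h hHq θ ρbar' ρ₀)
    (D : TWRep (H := Hq N q H₀) (S := S) (O := O) p R h (rfl : R = R) hHq θ ρ₀)
    (C : Cut hHq θ)
    (hno : ¬ ∃ θ₁ : heckeRing N H₀ (↑S : Set ℕ) →+* ResidueField O,
      θ₁.comp (stageR N q hqN H₀ (neg_one_mem_of_Hq hHq) hHq hyp.LS) = θ)
    {P : ValuationSubring ℚbar} (hP : P.LiesOverPrime q) {σ : GQ} (hσ : P.IsFrobeniusAt σ q) :
    ((C.lift D).M σ).trace ^ 2 = algebraMap O C.Ring' (((q : O) + 1) ^ 2) := by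
  have hqR : ¬ q ∣ R := fun hd => hqN (hd.trans hRN)
  have hqLR : ¬ q ^ 2 ∣ N * q * R := fun hd => by
    rw [sq, mul_comm N q, mul_assoc] at hd
    exact (hqF.out.dvd_mul.1 (Nat.dvd_of_mul_dvd_mul_left hqF.out.pos hd)).elim hqN hqR
  have key := C.ofTW_eq_zero_of_no_character hqN (neg_one_mem_of_Hq hHq) hHq hyp.LS hno
    (D.ψ (D.M₀ σ).trace ^ 2 - algebraMap O _ (((q : O) + 1) ^ 2))
    fun a ha O' _ _ _ _ _ _ _ _ _ x hU x₁ hx₁ => by
      have haR : (ZMod.unitsMap hyp.R_dvd a : ZMod R) = q := by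
        rw [← ZMod.unitsMap_comp hRN (dvd_mul_right N q), MonoidHom.comp_apply, ha,
          ZMod.unitsMap_val]
        exact ZMod.cast_natCast hRN q
      rw [map_sub, map_pow, AlgHom.commutes, sub_eq_zero, map_pow, map_add, map_natCast, map_one]
      exact sq_trace_eq_of_U_sq hyp D hqF.out hqp (dvd_mul_left q N) hqLR haR x hU x₁
        (GalRep.Glue.isLocalHom_algHom (𝒪 := O) x₁) hx₁ hP hσ
  rw [map_sub, map_pow, AlgHom.commutes, sub_eq_zero] at key
  show (C.mat D σ).trace ^ 2 = algebraMap O C.Ring' (((q : O) + 1) ^ 2)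
  exact (congrArg (· ^ 2) (C.trace_mat D σ)).trans key

end Fermat.Agent.Root.Patched
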