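import Fermat.Agent.Root.Patched.TowerPointsAtP
import Fermat.Agent.OrdinaryP.S33.Residual
import Fermat.Agent.OrdinaryP.S33.Extend
import Fermat.Agent.Newform.BadCoeff
import Fermat.Agent.Root.Attached
import Fermat.Agent.IharaTW.KerKill

/-!
# Shapes at `p` of the points of a local Hecke ring with `p` once in the level

At a point the newform is special at `p`, with quadratic quotient character, or has level prime to
`p` and, for an ordinary residual representation, unit eigenvalue at `p`.  In both cases the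
representation at the point is ordinary at `p`, so the representation over the ring is.
-/

set_option autoImplicit false

noncomputable section

open IsLocalRing Polynomial CongruenceSubgroup
open ModularFormClass (qCoeff)

namespace Fermat.Agent.Root.Patched

open Fermat.Agent.Deformation Fermat.Agent.GammaH Fermat.Agent.TW

local notation "ℚbar" => AlgebraicClosure ℚ
local notation "Zbar" => integralClosure ℤ ℂ

variable {p : ℕ} [Fact p.Prime]

/-- The eigensystem of an eigenform in an extension of the coefficients of a point. -/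
theorem exists_eigen_point {M : ℕ} [NeZero M] {G : CuspForm (Gamma0 M) 2}
    (hG : G.IsNormalizedEigenform) (T : Finset ℕ) {O₁ : Type} [CommRing O₁] [IsDomain O₁]
    [IsDiscreteValuationRing O₁] [IsAdicComplete (maximalIdeal O₁) O₁]
    [Finite (ResidueField O₁)] [CharZero O₁] (A : Subring ℂ) (ι : A →+* O₁)
    (hA : ∀ l : ℕ, l.Prime → l ∉ T → qCoeff ⇑G l ∈ A) :
    ∃ (O₂ : Type) (_ : CommRing O₂) (_ : IsDomain O₂) (_ : IsDiscreteValuationRing O₂)
      (_ : IsAdicComplete (maximalIdeal O₂) O₂) (_ : Finite (ResidueField O₂)) (_ : CharZero O₂)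
      (j : O₁ →+* O₂), Function.Injective j ∧ IsLocalHom j ∧
      ∃ κ₀ : (GalRep.eigenCharacterInt hG).range →+* O₂,
        ∀ (l : ℕ) (hl : l.Prime) (hlT : l ∉ T),
          κ₀ ((GalRep.eigenCharacterInt hG).rangeRestrict (GalRep.heckeOp M ⟨l, hl⟩)) =
            j (ι ⟨qCoeff ⇑G l, hA l hl hlT⟩) := by
  have := Fermat.Agent.S22.result M 2 (∅ : Set ℕ)
  set κG := GalRep.eigenCharacterInt hG
  have : Module.Finite ℤ κG.range :=
    Module.Finite.of_surjective κG.rangeRestrict.toIntAlgHom.toLinearMap κG.rangeRestrict_surjective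
  let v : κG.range →+* ℂ :=
    ((Subalgebra.val (integralClosure ℤ ℂ)).toRingHom).comp κG.range.subtype
  let A₀ : Subring κG.range := A.comap v
  let v' : A₀ →+* A := (v.comp A₀.subtype).codRestrict A fun x => x.2
  have hmem : ∀ (l : ℕ) (hl : l.Prime), l ∉ T →
      κG.rangeRestrict (GalRep.heckeOp M ⟨l, hl⟩) ∈ A₀ := fun l hl hlT => by
    show (κG (GalRep.heckeOp M ⟨l, hl⟩) : ℂ) ∈ A
    rw [GalRep.eigenCharacterInt_heckeOp hG]
    exact hA l hl hlT
  obtain ⟨O₂, _, _, _, _, _, _, j, hj, hjloc, κ₀, hκ₀⟩ :=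
    OrdinaryP.exists_coeff_extension A₀.subtype Subtype.val_injective O₁ (ι.comp v')
  refine ⟨O₂, inferInstance, inferInstance, inferInstance, inferInstance, inferInstance,
    inferInstance, j, hj, hjloc, κ₀, fun l hl hlT => ?_⟩
  refine (RingHom.congr_fun hκ₀ ⟨_, hmem l hl hlT⟩).trans ?_
  exact congrArg (fun z => j (ι z)) (Subtype.ext (GalRep.eigenCharacterInt_heckeOp hG ⟨l, hl⟩))

/-- Transport of an eigensystem representation along an equality of levels. -/
theorem exists_local_shape_of_dvd {M : ℕ} [NeZero M] {G : CuspForm (Gamma0 M) 2}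
    (hG : G.IsNewform) (hpM : p ∣ M) (hp2M : ¬ p ^ 2 ∣ M) {O₂ : Type} [CommRing O₂] [IsDomain O₂]
    [IsDiscreteValuationRing O₂] [IsAdicComplete (maximalIdeal O₂) O₂]
    [Finite (ResidueField O₂)] [CharZero O₂] {hpO₂ : (p : O₂) ∈ maximalIdeal O₂}
    (κ₀ : (GalRep.eigenCharacterInt hG.1).range →+* O₂)
    (E : OrdinaryP.EigenRep M p hpO₂ (κ₀.comp (GalRep.eigenCharacterInt hG.1).rangeRestrict))
    {P : ValuationSubring ℚbar} (hP : P.LiesOverPrime p) :
    ∃ s : P.decompositionSubgroup ℚ →* O₂, TW.OrdShape P E.R s ∧ ∀ g, s g * s g = 1 := by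
  have hp : p.Prime := Fact.out
  obtain ⟨M', rfl⟩ := exists_eq_mul_left_of_dvd hpM
  have : NeZero p := ⟨hp.ne_zero⟩
  have : NeZero M' := ⟨fun h => NeZero.ne (M' * p) (by rw [h, Nat.zero_mul])⟩
  have hpM' : ¬ p ∣ M' := fun h => hp2M (by rw [sq]; exact mul_dvd_mul_right h p)
  have := Fermat.Agent.S22.result (M' * p) 2 (∅ : Set ℕ)
  have ha :
      ((GalRep.eigenCharacterInt hG.1 (GalRep.heckeOp (M' * p) (Ihara.qPrime p)) : Zbar) : ℂ) ^ 2 =
        1 := by
    rw [GalRep.eigenCharacterInt_heckeOp hG.1]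
    exact Newform.qCoeff_sq_eq_one_of_not_sq_dvd hG hp hpM hp2M
  have hε : ∃ ε : ℤ, (ε = 1 ∨ ε = -1) ∧
      GalRep.eigenCharacterInt hG.1 (GalRep.heckeOp (M' * p) (Ihara.qPrime p)) = ε := by
    rcases sq_eq_one_iff.mp ha with h | h
    · exact ⟨1, Or.inl rfl, Subtype.ext (by rw [h]; simp)⟩
    · exact ⟨-1, Or.inr rfl, Subtype.ext (by rw [h]; simp)⟩
  obtain ⟨ε, hε, hεp⟩ := hε
  obtain ⟨s, h1, h2, -, h4⟩ := @AttachedLocal.exists_local_condition M' p _ _ _ p _ O₂ _ _ _ _ _ _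
    hpO₂ G hG.1 ε hε hεp hpM' _ κ₀ E P hP
  refine ⟨s, ⟨h2, fun g k => ?_⟩, h1⟩
  have hinv : s g⁻¹ = s g := by
    calc s g⁻¹ = s g⁻¹ * (s g * s g) := by rw [h1, mul_one]
      _ = s g := by rw [← mul_assoc, ← map_mul, inv_mul_cancel, map_one, one_mul]
  rw [hinv]
  exact h4 g k

/-- **The shape at `p` of a point from its newform.** -/
theorem exists_shape_of_newform (hp2 : p ≠ 2) {M : ℕ} [NeZero M] {G : CuspForm (Gamma0 M) 2}
    (hG : G.IsNewform) (hp2M : ¬ p ^ 2 ∣ M) (T : Finset ℕ) (hpT : p ∈ T)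
    (hMT : ∀ l : ℕ, l.Prime → l ∣ M → l ∈ T) {O₁ : Type} [CommRing O₁] [IsDomain O₁]
    [IsDiscreteValuationRing O₁] [IsAdicComplete (maximalIdeal O₁) O₁]
    [Finite (ResidueField O₁)] [CharZero O₁] (hpO₁ : (p : O₁) ∈ maximalIdeal O₁) (A : Subring ℂ)
    (ι : A →+* O₁) (hA : ∀ l : ℕ, l.Prime → l ∉ T → qCoeff ⇑G l ∈ A) {Mt : GQ →* M2 O₁}
    (hc : MatCont Mt) (_hdetc : (ofMatrix Mt hc).DetIsCyclotomic p)
    (hspan : Submodule.span (ResidueField O₁) (Set.range (mapRep (residue O₁) Mt)) = ⊤)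
    (hfrob : ∀ (l : ℕ) (hl : l.Prime) (hlT : l ∉ T), ∀ B : ValuationSubring ℚbar,
      B.LiesOverPrime l → ∀ σ : GQ, B.IsFrobeniusAt σ l →
        (Mt σ).trace = ι ⟨qCoeff ⇑G l, hA l hl hlT⟩ ∧ (Mt σ).det = (l : O₁))
    {P : ValuationSubring ℚbar} (hP : P.LiesOverPrime p)
    (hord : ∀ σ ∈ P.inertiaSubgroupIn ℚ, (∀ μ : ℚbar, μ ^ p = 1 → σ μ = μ) →
      residue O₁ (Mt σ).trace = 2) :
    ∃ (O₂ : Type) (_ : CommRing O₂) (j : O₁ →+* O₂), Function.Injective j ∧
      ∃ s : P.decompositionSubgroup ℚ →* O₂, TW.OrdShape P (mapRep j Mt) s ∧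
        (p ∣ M → ∀ g, s g * s g = 1) := by
  have hp : p.Prime := Fact.out
  obtain ⟨O₂, _, _, _, _, _, _, j, hj, hjloc, κ₀, hκ₀⟩ := exists_eigen_point hG.1 T A ι hA
  have hpO₂ : (p : O₂) ∈ maximalIdeal O₂ := map_natCast j p ▸ map_nonunit j _ hpO₁
  have := Fermat.Agent.S22.result M 2 (∅ : Set ℕ)
  set κ := κ₀.comp (GalRep.eigenCharacterInt hG.1).rangeRestrict
  obtain ⟨E⟩ := OrdinaryP.exists_eigenRep M p (Reduction.torsionReduction M p) hpO₂ κ
  have hc₂ : MatCont (mapRep j Mt) := matCont_mapRep j hjloc hc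
  have hcp : ∀ (l : ℕ) (hl : l.Prime), l ∉ T → ∀ B : ValuationSubring ℚbar,
      B.LiesOverPrime l → ∀ σ : GQ, B.IsFrobeniusAt σ l →
        (mapRep j Mt σ).trace = κ (GalRep.heckeOp M ⟨l, hl⟩) ∧ (mapRep j Mt σ).det = (l : O₂) := by
    intro l hl hlT B hB σ hσ
    obtain ⟨htr, hdet⟩ := hfrob l hl hlT B hB σ hσ
    rw [mapRep_apply]
    refine ⟨?_, by rw [← RingHom.mapMatrix_apply, ← RingHom.map_det, hdet, map_natCast]⟩
    refine (AddMonoidHom.map_trace j.toAddMonoidHom (Mt σ)).symm.trans ?_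
    exact (congrArg j htr).trans (hκ₀ l hl hlT).symm
  have hdet₂ : (ofMatrix (mapRep j Mt) hc₂).DetIsCyclotomic p :=
    detIsCyclotomic_of_frobenius _ hp hpO₂ T fun l hl hlT B hB σ hσ =>
      (LinearMap.det_toLin' (mapRep j Mt σ)).trans (hcp l hl hlT B hB σ hσ).2
  have hspan₂ : Submodule.span (ResidueField O₂)
      (Set.range (mapRep (residue O₂) (mapRep j Mt))) = ⊤ := by
    have e : mapRep (residue O₂) (mapRep j Mt) =
        mapRep (ResidueField.map j) (mapRep (residue O₁) Mt) :=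
      MonoidHom.ext fun σ => Matrix.ext fun i k => by
        simp only [mapRep_apply, Matrix.map_apply, ResidueField.map_residue]
    rw [e]
    exact GalRep.span_map_eq_top _ hspan
  have hconj : AreConj E.R (mapRep j Mt) :=
    areConj_of_frobenius hp hp2 E hc₂ hdet₂ hspan₂ T hpT hMT hcp
  by_cases hpM : p ∣ M
  · obtain ⟨s, hs, hsq⟩ := exists_local_shape_of_dvd hG hpM hp2M κ₀ E hP
    exact ⟨O₂, inferInstance, j, hj, s, ordShape_conj hconj hs, fun _ => hsq⟩
  · have hu : IsUnit (κ (GalRep.heckeOp M ⟨p, hp⟩)) := by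
      refine E.isUnit_of_trace hpM hP fun σ hσ hμ => ?_
      obtain ⟨U, hU⟩ := hconj
      have e1 : (mapRep j Mt σ).trace = (E.R σ).trace := by
        rw [show E.R σ = (↑U⁻¹ : M2 O₂) * ((U : M2 O₂) * E.R σ * (↑U⁻¹ : M2 O₂)) * U by
          simp only [← mul_assoc, Units.inv_mul, one_mul]
          rw [mul_assoc, Units.inv_mul, mul_one],
          Matrix.trace_units_conj', hU, mul_assoc, Units.mul_inv, mul_one]
      rw [← e1, mapRep_apply]
      refine (congrArg (residue O₂) (AddMonoidHom.map_trace j.toAddMonoidHom (Mt σ)).symm).trans ?_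
      show residue O₂ (j (Mt σ).trace) = 2
      rw [← ResidueField.map_residue j, hord σ hσ hμ, map_ofNat]
    obtain ⟨s, hs, -⟩ := exists_shape_of_frobenius hp hp2 hpM E hu hc₂ hdet₂ hspan₂ T hpT hMT hcp hP
    exact ⟨O₂, inferInstance, j, hj, s, hs, fun h => absurd h hpM⟩

/-- A shape passes to the image under a ring map. -/
theorem ordShape_mapRep {A B : Type} [CommRing A] [CommRing B] (φ : A →+* B)
    {P : ValuationSubring ℚbar} {M : GQ →* M2 A} {s : P.decompositionSubgroup ℚ →* A}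
    (hs : TW.OrdShape P M s) :
    TW.OrdShape P (mapRep φ M) ((φ : A →* B).comp s) := by
  refine ⟨fun g hg => by rw [MonoidHom.comp_apply, hs.1 g hg, map_one], fun g k => ?_⟩
  have h1 := congrArg φ.mapMatrix (hs.2 g k)
  have hsc : ∀ c : A, φ.mapMatrix (c • (1 : M2 A)) = φ c • (1 : M2 B) := fun c => by
    ext i j
    fin_cases i <;> fin_cases j <;> simp
  rw [map_mul, map_sub, map_sub, map_zero, hsc, hsc, map_mul, RingHom.map_det] at h1
  exact h1

/-- A shape passes to the image under the second of two ring maps. -/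
theorem ordShape_mapRep_comp {A B C : Type} [CommRing A] [CommRing B] [CommRing C] (φ : B →+* C)
    (ψ : A →+* B) {P : ValuationSubring ℚbar} {M : GQ →* M2 A}
    {s : P.decompositionSubgroup ℚ →* B} (hs : TW.OrdShape P (mapRep ψ M) s) :
    TW.OrdShape P (mapRep (φ.comp ψ) M) ((φ : B →* C).comp s) := by
  rw [show mapRep (φ.comp ψ) M = mapRep φ (mapRep ψ M) from
    MonoidHom.ext fun σ => Matrix.ext fun i k => rfl]
  exact ordShape_mapRep φ hs

variable {L R h : ℕ} [NeZero L] [NeZero R] {H : Subgroup (ZMod L)ˣ} {S : Finset ℕ}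
  {O : Type} [CommRing O] [IsDomain O] [IsDiscreteValuationRing O]
  [IsAdicComplete (maximalIdeal O) O] [Finite (ResidueField O)] [CharZero O]
  [Fact (CuspForm.HasIntegralStructure (L * R) 2)] {hH : (-1 : (ZMod L)ˣ) ∈ H}
  {θ : heckeRing L H (↑S : Set ℕ) →+* ResidueField O}
  {ρbar' : ResidualGaloisRep (ResidueField O)} {ρ₀ : GQ →* M2 (ResidueField O)}
  (hyp : TWHyp (H := H) p R h hH θ ρbar' ρ₀)
  (D : TWRep (H := H) (S := S) (O := O) p R h (rfl : R = R) hH θ ρ₀)
  {P : ValuationSubring ℚbar} (hP : P.LiesOverPrime p)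
  (hord : ∀ σ ∈ P.inertiaSubgroupIn ℚ, (∀ μ : ℚbar, μ ^ p = 1 → σ μ = μ) → (ρ₀ σ).trace = 2)
  (hp2LR : ¬ p ^ 2 ∣ L * R)

omit [Finite (ResidueField O)] [CharZero O] in
include hyp hP hord hp2LR in
/-- **The shape at a point of the local ring.** -/
theorem exists_shape_at_point {O₁ : Type} [CommRing O₁] [IsDomain O₁] [IsDiscreteValuationRing O₁]
    [IsAdicComplete (maximalIdeal O₁) O₁] [Finite (ResidueField O₁)] [CharZero O₁] [Algebra O O₁]
    [IsLocalHom (algebraMap O O₁)] (x : TWRing hH O θ →ₐ[O] O₁) (hx : IsLocalHom x.toRingHom)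
    {M : ℕ} [NeZero M] {G : CuspForm (Gamma0 M) 2} (hG : G.IsNewform) (hML : M ∣ L * R)
    (A : Subring ℂ) (ι : A →+* O₁)
    (hA : ∀ (l : ℕ) (hl : l.Prime) (hlL : ¬ l ∣ L) (hlS : l ∉ (↑S : Set ℕ)),
      ∃ hm : qCoeff ⇑G l ∈ A,
        ι ⟨qCoeff ⇑G l, hm⟩ = x (toTWRing hH O θ (HeckeO.ofT O (twistedT h hl hlL hlS)))) :
    ∃ (O₂ : Type) (_ : CommRing O₂) (j : O₁ →+* O₂), Function.Injective j ∧
      ∃ s : P.decompositionSubgroup ℚ →* O₂,
        TW.OrdShape P (mapRep ((j.comp x.toRingHom).comp D.ψ.toRingHom) D.M₀) s ∧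
          (p ∣ M → ∀ g, s g * s g = 1) := by
  set w : CuspForm.heckeLocal (L * R) (↑S : Set ℕ) O D.θ' →+* O₁ :=
    x.toRingHom.comp D.ψ.toRingHom with hw
  have := D.ψ_local
  have := hx
  have hwloc : IsLocalHom w := by rw [hw]; exact RingHom.isLocalHom_comp _ _
  have hLS' : ∀ {l : ℕ}, l.Prime → l ∉ S → ¬ l ∣ L := fun hl hlS hd => hlS (hyp.LS _ hl hd)
  have hmem : ∀ l : ℕ, l.Prime → l ∉ S → qCoeff ⇑G l ∈ A := fun l hl hlS =>
    (hA l hl (hLS' hl hlS) (by simpa using hlS)).1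
  have hc : MatCont (mapRep w D.M₀) := matCont_mapRep w hwloc D.cont
  have hcp : ∀ (l : ℕ) (hl : l.Prime) (hlS : l ∉ S), ∀ B : ValuationSubring ℚbar,
      B.LiesOverPrime l → ∀ σ : GQ, B.IsFrobeniusAt σ l →
        (mapRep w D.M₀ σ).trace = ι ⟨qCoeff ⇑G l, hmem l hl hlS⟩ ∧
          (mapRep w D.M₀ σ).det = (l : O₁) := by
    intro l hl hlS B hB σ hσ
    have hlS' : l ∉ (↑S : Set ℕ) := by simpa using hlS
    obtain ⟨htr, hdet⟩ := D.frob l hl (hLS' hl hlS) hlS' B hB σ hσ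
    rw [mapRep_apply]
    refine ⟨?_, by rw [← RingHom.mapMatrix_apply, ← RingHom.map_det, hdet, map_natCast]⟩
    refine (AddMonoidHom.map_trace w.toAddMonoidHom (D.M₀ σ)).symm.trans ?_
    refine Eq.trans ?_ (hA l hl (hLS' hl hlS) hlS').2.symm
    exact congrArg x htr
  have hpO₁ : (p : O₁) ∈ maximalIdeal O₁ :=
    map_natCast (algebraMap O O₁) p ▸ map_nonunit (algebraMap O O₁) _ hyp.mem
  have hdetc : (ofMatrix (mapRep w D.M₀) hc).DetIsCyclotomic p :=
    detIsCyclotomic_of_frobenius _ hyp.prime hpO₁ S fun l hl hlS B hB σ hσ =>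
      (LinearMap.det_toLin' (mapRep w D.M₀ σ)).trans (hcp l hl hlS B hB σ hσ).2
  have halg : w.comp (algebraMap O (CuspForm.heckeLocal (L * R) (↑S : Set ℕ) O D.θ')) =
      algebraMap O O₁ := RingHom.ext fun a => by
    show x (D.ψ (algebraMap O _ a)) = _
    rw [AlgHom.commutes, AlgHom.commutes]
  have hres : mapRep (residue O₁) (mapRep w D.M₀) =
      mapRep (ResidueField.map (algebraMap O O₁)) ρ₀ := MonoidHom.ext fun σ => by
    refine Matrix.ext fun i j => ?_
    have h1 := congrArg (ResidueField.map w)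
      (congrFun (congrFun (DFunLike.congr_fun D.reduces σ) i) j)
    simp only [mapRep_apply, Matrix.map_apply, ResidueField.map_residue] at h1 ⊢
    obtain ⟨b, hb⟩ := residue_surjective (ρ₀ σ i j)
    rw [h1, ← hb, ResidueField.map_residue, ResidueField.map_residue, ResidueField.map_residue]
    exact congrArg (residue O₁) (RingHom.congr_fun halg b)
  have hspan : Submodule.span (ResidueField O₁)
      (Set.range (mapRep (residue O₁) (mapRep w D.M₀))) = ⊤ := by
    rw [hres]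
    exact GalRep.span_map_eq_top _ (Deformation.span_range_eq_top hyp.matrix hyp.absIrr)
  have hord₁ : ∀ σ ∈ P.inertiaSubgroupIn ℚ, (∀ μ : ℚbar, μ ^ p = 1 → σ μ = μ) →
      residue O₁ (mapRep w D.M₀ σ).trace = 2 := fun σ hσ hμ => by
    rw [show residue O₁ (mapRep w D.M₀ σ).trace =
      (mapRep (residue O₁) (mapRep w D.M₀) σ).trace from
        AddMonoidHom.map_trace (residue O₁).toAddMonoidHom _, hres, mapRep_apply]
    refine (AddMonoidHom.map_trace
      (ResidueField.map (algebraMap O O₁)).toAddMonoidHom _).symm.trans ?_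
    show ResidueField.map (algebraMap O O₁) (ρ₀ σ).trace = 2
    rw [hord σ hσ hμ, map_ofNat]
  obtain ⟨O₂, _, j, hj, s, hs, hsq⟩ := exists_shape_of_newform hyp.ne_two hG
    (fun hd => hp2LR (hd.trans hML)) S hyp.mem_S
    (fun l hl hd => (hl.dvd_mul.1 (hd.trans hML)).elim (hyp.LS l hl)
      fun hR => hyp.LS l hl (hR.trans hyp.R_dvd))
    hpO₁ A ι hmem hc hdetc hspan hcp hP hord₁
  refine ⟨O₂, inferInstance, j, hj, s, ?_, hsq⟩
  have e : mapRep j (mapRep w D.M₀) = mapRep ((j.comp x.toRingHom).comp D.ψ.toRingHom) D.M₀ :=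
    MonoidHom.ext fun σ => Matrix.ext fun i k => rfl
  rwa [← e]

omit [Finite (ResidueField O)] [CharZero O] in
include hyp in
/-- An inertia element with determinant far from one. -/
theorem exists_twInertia_isUnit (hP : P.LiesOverPrime p) :
    ∃ σ : P.decompositionSubgroup ℚ, (σ : GQ) ∈ P.inertiaSubgroupIn ℚ ∧
      IsUnit (1 - (D.M₀ σ).det) := by
  obtain ⟨σ, hσ, hc⟩ := OrdinaryP.exists_inertia_neg_one hP
  have hp : p.Prime := Fact.out
  refine ⟨⟨σ, ((Gal.mem_inertia_iff P σ).mp hσ).1⟩, hσ, ?_⟩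
  set B := CuspForm.heckeLocal (L * R) (↑S : Set ℕ) O D.θ'
  have hpB : (p : B) ∈ maximalIdeal B :=
    map_natCast (algebraMap O B) p ▸ map_nonunit (algebraMap O B) _ hyp.mem
  have h1 := D.det.2 1 σ (p - 1) (by simpa using hc)
  rw [show LinearMap.det ((ofMatrix D.M₀ D.cont).ρ σ) = (D.M₀ σ).det from
    LinearMap.det_toLin' (D.M₀ σ), pow_one, Ideal.mem_span_singleton'] at h1
  obtain ⟨e, he⟩ := h1
  show IsUnit (1 - (D.M₀ σ).det)
  by_contra hnu
  refine (mem_maximalIdeal _).1 (?_ : (2 : B) ∈ maximalIdeal B)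
    (OrdinaryP.isUnit_two_of_mem hp hyp.ne_two hpB)
  have e1 : ((p - 1 : ℕ) : B) + 1 = (p : B) := by
    rw [← Nat.cast_succ, Nat.succ_eq_add_one, Nat.sub_add_cancel hp.one_le]
  rw [show (2 : B) = (1 - (D.M₀ σ).det) + (e + 1) * (p : B) by
    linear_combination -he + e1]
  exact add_mem ((mem_maximalIdeal _).2 hnu) (Ideal.mul_mem_left _ _ hpB)

include hyp hP hord hp2LR in
/-- **The representation over the local ring is ordinary at `p`.** -/
theorem exists_twShape :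
    ∃ t : P.decompositionSubgroup ℚ →* TWRing hH O θ,
      TW.OrdShape P (mapRep D.ψ.toRingHom D.M₀) t := by
  classical
  have := isReduced_twRing (H := H) (S := (↑S : Set ℕ)) hH θ hyp.LS
  have hpt : ∀ I : minimalPrimes (TWRing hH O θ), ∃ (O' : Type) (_ : CommRing O')
      (y : TWRing hH O θ →+* O'), (∀ z, y z = 0 → z ∈ I.1) ∧
      ∃ s : P.decompositionSubgroup ℚ →* O',
        TW.OrdShape P (mapRep y (mapRep D.ψ.toRingHom D.M₀)) s := by
    rintro ⟨I, hI⟩
    have : I.IsPrime := hI.1.1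
    obtain ⟨O₁, _, _, _, _, _, _, _, _, _, x₀, hx₀⟩ := GalRep.exists_dvr_of_domain (𝒪 := O)
      (TWRing hH O θ ⧸ I) (GalRep.injective_quotient_minimalPrime (TWRing hH O θ) I hI)
    let x : TWRing hH O θ →ₐ[O] O₁ := x₀.comp (Ideal.Quotient.mkₐ O I)
    have hx : IsLocalHom x.toRingHom := GalRep.Glue.isLocalHom_algHom (𝒪 := O) x
    obtain ⟨lam, ι, hι⟩ := exists_complex_lift hH
      (x.toRingHom.comp ((toTWRing hH O θ).toRingHom.comp (HeckeO.ofT O)))
    obtain ⟨M, _, G, hG, hML, hGl, -⟩ :=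
      exists_point_newform hH hyp.R_dvd hyp.ker_le hyp.odd hyp.LS lam
    obtain ⟨O₂, _, j, hj, s, hs, -⟩ := exists_shape_at_point hyp D hP hord hp2LR x hx hG hML
      lam.range ι fun l hl hlL hlS => ⟨(hGl l hl hlL hlS).symm ▸ ⟨_, rfl⟩,
        (congrArg ι (Subtype.ext (hGl l hl hlL hlS))).trans (RingHom.congr_fun hι _)⟩
    refine ⟨O₂, inferInstance, j.comp x.toRingHom, fun z hz => ?_, s, ?_⟩
    · have h1 : x₀ (Ideal.Quotient.mk I z) = x₀ 0 :=
        (hj (hz.trans (map_zero j).symm)).trans (map_zero x₀).symm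
      exact Ideal.Quotient.eq_zero_iff_mem.1 (hx₀ h1)
    · rwa [show mapRep (j.comp x.toRingHom) (mapRep D.ψ.toRingHom D.M₀) =
        mapRep ((j.comp x.toRingHom).comp D.ψ.toRingHom) D.M₀ from
          MonoidHom.ext fun σ => Matrix.ext fun i k => rfl]
  choose O' iO y hy s hs using hpt
  obtain ⟨σ, hσ, hu⟩ := exists_twInertia_isUnit hyp D hP
  have hu' : IsUnit (1 - (mapRep D.ψ.toRingHom D.M₀ σ).det) := by
    rw [mapRep_apply, ← RingHom.mapMatrix_apply, ← RingHom.map_det,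
      ← map_one D.ψ.toRingHom, ← map_sub]
    exact hu.map _
  obtain ⟨t, ht, -⟩ := TW.exists_ordShape_of_points y (fun z hz => by
    have hmem : z ∈ nilradical (TWRing hH O θ) := by
      rw [nilradical, ← Ideal.sInf_minimalPrimes, Ideal.mem_sInf]
      exact fun {I} hI => hy ⟨I, hI⟩ z (hz ⟨I, hI⟩)
    rwa [nilradical_eq_zero, Ideal.zero_eq_bot, Ideal.mem_bot] at hmem) hσ hu' s hs
  exact ⟨t, ht⟩

omit [CharZero O] in
omit [Finite (ResidueField O)] in
include hyp hP hord hp2LR in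
/-- **The quotient character is quadratic at the points new at `p`.** -/
theorem twShape_sq_eq_one_at_new (hpL : p ∣ L) {a : (ZMod L)ˣ}
    (ha : (ZMod.unitsMap hyp.R_dvd a : ZMod R) = p) {O₁ : Type} [CommRing O₁] [IsDomain O₁]
    [IsDiscreteValuationRing O₁] [IsAdicComplete (maximalIdeal O₁) O₁]
    [Finite (ResidueField O₁)] [CharZero O₁] [Algebra O O₁] [IsLocalHom (algebraMap O O₁)]
    (x : HeckeO L H ∅ O →ₐ[O] O₁)
    (hU : x (HeckeO.ofT O (heckeUR hyp.prime hpL (Set.notMem_empty p))) ^ 2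
      = x (HeckeO.ofT O (diamondR a)))
    (x₁ : TWRing hH O θ →ₐ[O] O₁) (hx₁loc : IsLocalHom x₁.toRingHom)
    (hx₁ : ∀ z, x₁ (toTWRing hH O θ z) = x (IharaTW.toFull O z))
    {t : P.decompositionSubgroup ℚ →* TWRing hH O θ}
    (ht : TW.OrdShape P (mapRep D.ψ.toRingHom D.M₀) t) (g : P.decompositionSubgroup ℚ) :
    x₁ (t g * t g - 1) = 0 := by
  obtain ⟨M, _, G, lam, ι, hG, hML, hpM, -, hl⟩ := IharaTW.exists_newform_dvd_of_point hH
    hyp.R_dvd hyp.ker_le hyp.odd hyp.LS hyp.prime hpL hp2LR ha x hU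
  obtain ⟨O₂, _, j, hj, s, hs, hsq⟩ := exists_shape_at_point hyp D hP hord hp2LR x₁ hx₁loc hG hML
    lam.range ι fun l hl' hlL hlS =>
      ⟨(hl l hl' hlL hlS).1.symm ▸ Subtype.mem _,
        (congrArg ι (Subtype.ext (hl l hl' hlL hlS).1)).trans
          ((hl l hl' hlL hlS).2.trans (hx₁ _).symm)⟩
  have hs' := hsq hpM g
  obtain ⟨σ, hσ, hu⟩ := exists_twInertia_isUnit hyp D hP
  have ht' : TW.OrdShape P (mapRep ((j.comp x₁.toRingHom).comp D.ψ.toRingHom) D.M₀)
      (((j.comp x₁.toRingHom : TWRing hH O θ →+* O₂) : TWRing hH O θ →* O₂).comp t) :=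
    ordShape_mapRep_comp (j.comp x₁.toRingHom) D.ψ.toRingHom ht
  have hu₂ : IsUnit (1 - (mapRep ((j.comp x₁.toRingHom).comp D.ψ.toRingHom) D.M₀ σ).det) := by
    rw [mapRep_apply, ← RingHom.mapMatrix_apply, ← RingHom.map_det,
      ← map_one ((j.comp x₁.toRingHom).comp D.ψ.toRingHom), ← map_sub]
    exact hu.map _
  have e : j (x₁ (t g)) = s g :=
    (TW.eq_inertiaEigen ht' hσ hu₂ g).trans (TW.eq_inertiaEigen hs hσ hu₂ g).symm
  refine hj ?_
  rw [map_sub, map_mul, map_one, map_sub, map_mul, map_one, map_zero, e, hs', sub_self]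

end Fermat.Agent.Root.Patched
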