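import Fermat.Agent.Root.Patched.TowerMember
import Fermat.Agent.Root.Patched.TowerPointsDvd
import Fermat.Agent.Root.Patched.TowerEnd2

/-!
# Members of a tower at `p`

Shapes at `p` of the lift of a cut from properties of the idempotent: bijective `T_p` or `U_p` on
its range, absence of residual forms old at `p`.
-/

set_option autoImplicit false

noncomputable section

open IsLocalRing Polynomial

namespace Fermat.Agent.Root.Patched

open Fermat.Agent.Deformation Fermat.Agent.GammaH Fermat.Agent.TW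

local notation "ℚbar" => AlgebraicClosure ℚ

variable {O : Type} [CommRing O] [IsDomain O] [IsDiscreteValuationRing O]
  [IsAdicComplete (maximalIdeal O) O] [Finite (ResidueField O)] [CharZero O]
  {p : ℕ} [Fact p.Prime]

omit [IsAdicComplete (maximalIdeal O) O] [Finite (ResidueField O)] [CharZero O] in
/-- **The residual quotient character at `p` is unique.** -/
theorem ordinaryShape_red_eq (hp2 : p ≠ 2) (hp : (p : O) ∈ maximalIdeal O)
    {ρbar : GQ →* M2 (ResidueField O)} {P : ValuationSubring ℚbar} (hP : P.LiesOverPrime p)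
    {S S' : TestRing O} {r : Lift ρbar S} {r' : Lift ρbar S'}
    {s : P.decompositionSubgroup ℚ →* S.R} {s' : P.decompositionSubgroup ℚ →* S'.R}
    (hdet : DetCyclotomic p S r) (hdet' : DetCyclotomic p S' r') (hs : OrdinaryShape P S r s)
    (hs' : OrdinaryShape P S' r' s') (g : P.decompositionSubgroup ℚ) :
    S.red (s g) = S'.red (s' g) := by
  obtain ⟨σ, hσ, hc⟩ := OrdinaryP.exists_inertia_neg_one hP
  have hpk : (p : ResidueField O) = 0 := by
    rw [← map_natCast (residue O), residue_eq_zero_iff]; exact hp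
  have h2 : IsUnit (2 : ResidueField O) := by
    have := (OrdinaryP.isUnit_two_of_mem (Fact.out : p.Prime) hp2 hp).map (residue O)
    rwa [map_ofNat] at this
  let σ' : P.decompositionSubgroup ℚ := ⟨σ, ((Gal.mem_inertia_iff P σ).mp hσ).1⟩
  have key : ∀ {T : TestRing O} {q : Lift ρbar T} {t : P.decompositionSubgroup ℚ →* T.R},
      DetCyclotomic p T q → OrdinaryShape P T q t →
      TW.OrdShape P ρbar ((T.red : T.R →* ResidueField O).comp t) ∧
        IsUnit (1 - (ρbar σ).det) := by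
    intro T q t hd ht
    have hdet : ∀ g, (ρbar g).det = T.red (q.M g).det := fun g => by
      rw [← q.reduces, RingHom.map_det, RingHom.mapMatrix_apply]
    refine ⟨⟨fun k hk => by rw [MonoidHom.comp_apply, ht.1 k hk, map_one], fun k l => ?_⟩, ?_⟩
    · have h1 := congrArg T.red.mapMatrix (ht.2 k l)
      have hsc : ∀ c : T.R, T.red.mapMatrix (c • (1 : M2 T.R)) =
          T.red c • (1 : M2 (ResidueField O)) := fun c => by
        ext i j
        fin_cases i <;> fin_cases j <;> simp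
      rw [map_mul, map_sub, map_sub, map_zero, hsc, hsc, map_mul, RingHom.mapMatrix_apply,
        RingHom.mapMatrix_apply, q.reduces, q.reduces, ← hdet] at h1
      exact h1
    · have h1 := hd 1 σ (p - 1) (by simpa using hc)
      rw [pow_one, Ideal.mem_span_singleton'] at h1
      obtain ⟨e, he⟩ := h1
      have h3 := congrArg T.red he
      rw [map_mul, map_natCast, hpk, mul_zero, map_sub, ← hdet, map_natCast,
        Nat.cast_sub (Fact.out : p.Prime).one_le, hpk, zero_sub, Nat.cast_one] at h3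
      rwa [show (1 : ResidueField O) - (ρbar σ).det = 2 by linear_combination h3]
  obtain ⟨h, hu⟩ := key hdet hs
  obtain ⟨h', -⟩ := key hdet' hs'
  exact (TW.eq_inertiaEigen (σ := σ') h hσ hu g).trans
    (TW.eq_inertiaEigen (σ := σ') h' hσ hu g).symm

variable {L R h : ℕ} [NeZero L] [NeZero R] {H : Subgroup (ZMod L)ˣ} {S : Finset ℕ}
  [Fact (CuspForm.HasIntegralStructure (L * R) 2)] {hH : (-1 : (ZMod L)ˣ) ∈ H}
  {θ : heckeRing L H (↑S : Set ℕ) →+* ResidueField O} {ρbar : GQ →* M2 (ResidueField O)}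
  {ρbar' : ResidualGaloisRep (ResidueField O)}
  (hyp : TWHyp (H := H) (S := S) (O := O) p R h hH θ ρbar' ρbar)
  (D : TWRep (H := H) (S := S) (O := O) p R h (rfl : R = R) hH θ ρbar) (C : Cut hH θ)

include hyp

/-- **Good ordinary members.**  Away from `p` in the level and with `T_p` invertible on the range,
the lift is ordinary and the twisted `T_p` acts as `α + p / α` with `α` the value of the quotient
character at Frobenius. -/
theorem Cut.exists_ordinary_of_heckeT (hp : p.Prime) (hpL : ¬ p ∣ L)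
    (hcomm : Commute C.E (heckeTH O O hp hpL))
    (hunit : ∀ v ∈ LinearMap.range C.E, ∃ w ∈ LinearMap.range C.E, heckeTH O O hp hpL w = v)
    (P : ValuationSubring ℚbar) (hP : P.LiesOverPrime p) :
    ∃ s : P.decompositionSubgroup ℚ →* C.testRing.R,
      OrdinaryShape P C.testRing (C.lift D) s ∧
      ∀ φ : P.decompositionSubgroup ℚ, P.IsFrobeniusAt (φ : GQ) p → ∀ u : C.testRing.R,
        u * s φ = (s φ) ^ 2 + (p : C.testRing.R) → ∀ v : LinearMap.range C.E,
          (diamondH O O (primeUnit hp hpL) ^ h) (heckeTH O O hp hpL (v : H1 L H O O)) =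
            (C.actR (show C.Ring' from u) v : H1 L H O O) := by
  have hLS : ∀ q : ℕ, q.Prime → q ∣ L → q ∈ (↑(S.erase p) : Set ℕ) := fun q hq hqL =>
    Finset.mem_erase.2 ⟨fun (e : q = p) => hpL (e ▸ hqL), hyp.LS q hq hqL⟩
  have hc := C.comm_erase hyp hp hpL hcomm
  have hpS : p ∉ (↑(S.erase p) : Set ℕ) := Finset.notMem_erase p S
  have := C.opRing_isReduced hc hLS
  have := C.opRing_free hc
  obtain ⟨t, ht, htu⟩ := C.exists_shape_of_ring hyp D hp hpL
    (Ideal.Quotient.mkₐ O (RingHom.ker (C.opAct hc).toRingHom)) (C.opInc hc erase_subset')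
    (C.opInc_injective hc erase_subset') (C.opInc_mk hc erase_subset')
    (C.isUnit_opRing_twistedT hc hp hpL hpS hunit) hP
  refine ⟨t, ht, fun φ hφ u hu' v => ?_⟩
  have e : C.opActR hc (Ideal.Quotient.mkₐ O (RingHom.ker (C.opAct hc).toRingHom)
      (HeckeO.ofT O (twistedT h hp hpL hpS))) = C.actR (show C.Ring' from u) :=
    (congrArg (C.opActR hc) (htu φ hφ u hu').symm).trans (C.opActR_opInc hc erase_subset' u)
  exact (C.opActR_twistedT hc hp hpL hpS v).symm.trans
    (congrArg Subtype.val (LinearMap.congr_fun e v))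

omit hyp [Fact (Nat.Prime p)] in
/-- A shape over the local ring gives one of the lift. -/
theorem Cut.ordShape_lift {P : ValuationSubring ℚbar}
    {t : P.decompositionSubgroup ℚ →* TWRing hH O θ}
    (ht : TW.OrdShape P (mapRep D.ψ.toRingHom D.M₀) t) :
    TW.OrdShape P (C.lift D).M ((C.ofTW.toRingHom : TWRing hH O θ →* C.Ring').comp t) :=
  ordShape_mapRep_comp C.ofTW.toRingHom D.ψ.toRingHom ht

/-- **Ordinary members with `p` once in the level.** -/
theorem Cut.exists_ordinary_of_dvd (hp2LR : ¬ p ^ 2 ∣ L * R) (P : ValuationSubring ℚbar)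
    (hP : P.LiesOverPrime p)
    (hord : ∀ σ ∈ P.inertiaSubgroupIn ℚ, (∀ μ : ℚbar, μ ^ p = 1 → σ μ = μ) →
      (ρbar σ).trace = 2) :
    ∃ s : P.decompositionSubgroup ℚ →* C.testRing.R,
      OrdinaryShape P C.testRing (C.lift D) s := by
  obtain ⟨t, ht⟩ := exists_twShape hyp D hP hord hp2LR
  exact ⟨(C.ofTW.toRingHom : TWRing hH O θ →* C.Ring').comp t,
    Cut.ordShape_lift D C ht⟩

omit hyp in
theorem stageR_twistedT {N : ℕ} [NeZero N] (hpN : ¬ p ∣ N) {H₀ : Subgroup (ZMod N)ˣ}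
    (hH₀ : (-1 : (ZMod N)ˣ) ∈ H₀) [NeZero (N * p)]
    (hHq : (-1 : (ZMod (N * p))ˣ) ∈ IharaTW.Hq N p H₀) {T : Set ℕ}
    (hLS : ∀ q : ℕ, q.Prime → q ∣ N * p → q ∈ T) {l : ℕ} (hl : l.Prime) (hlL : ¬ l ∣ N * p)
    (hlN : ¬ l ∣ N) (hlS : l ∉ T) :
    IharaTW.stageR N p hpN H₀ hH₀ hHq hLS (twistedT h hl hlL hlS) = twistedT h hl hlN hlS := by
  rw [twistedT, twistedT, map_mul (IharaTW.stageR _ _ _ _ _ _ _),
    map_pow (IharaTW.stageR _ _ _ _ _ _ _), IharaTW.stageR_diamondR,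
    IharaTW.stageR_heckeTR N p hpN H₀ hH₀ hHq hLS hl hlL hlN hlS]
  congr 3
  exact Units.ext (by rw [ZMod.unitsMap_val]; simp [primeUnit])

omit hyp in
/-- The square of the quotient character on a cut without old residual eigensystem. -/
theorem Cut.ofTW_sq_eq_one (hyp : TWHyp (H := H) (S := S) (O := O) p R h hH θ ρbar' ρbar)
    {N : ℕ} [NeZero N] (hL : L = N * p) (hpN : ¬ p ∣ N) {H₀ : Subgroup (ZMod N)ˣ}
    (hH₀ : (-1 : (ZMod N)ˣ) ∈ H₀)
    (hHH₀ : H = H₀.comap (ZMod.unitsMap (hL ▸ dvd_mul_right N p : N ∣ L)))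
    (hpR : ¬ p ∣ R)
    (hno : ¬ ∃ θ₁ : heckeRing N H₀ (↑S : Set ℕ) →+* ResidueField O,
      ∀ (l : ℕ) (hl : l.Prime) (hlL : ¬ l ∣ L) (hlN : ¬ l ∣ N) (hlS : l ∉ (↑S : Set ℕ)),
        θ₁ (twistedT h hl hlN hlS) = θ (twistedT h hl hlL hlS))
    {P : ValuationSubring ℚbar} (hP : P.LiesOverPrime p)
    (hord : ∀ σ ∈ P.inertiaSubgroupIn ℚ, (∀ μ : ℚbar, μ ^ p = 1 → σ μ = μ) →
      (ρbar σ).trace = 2)
    (hp2LR : ¬ p ^ 2 ∣ L * R) {t : P.decompositionSubgroup ℚ →* TWRing hH O θ}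
    (ht : TW.OrdShape P (mapRep D.ψ.toRingHom D.M₀) t) (g : P.decompositionSubgroup ℚ) :
    C.ofTW (t g) * C.ofTW (t g) = 1 := by
  subst hL
  subst hHH₀
  have hp : p.Prime := hyp.prime
  rw [← map_mul, ← sub_eq_zero, ← map_one C.ofTW, ← map_sub]
  refine Cut.ofTW_eq_zero_of_no_character (N := N) (q := p) hpN hH₀ hH hyp.LS ?_ C _ ?_
  · rintro ⟨θ₁, hθ₁⟩
    refine hno ⟨θ₁, fun l hl hlL hlN hlS => ?_⟩
    exact (congrArg θ₁ (stageR_twistedT hpN hH₀ hH hyp.LS hl hlL hlN hlS)).symm.trans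
      (RingHom.congr_fun hθ₁ (twistedT h hl hlL hlS))
  · intro a ha O' _ _ _ _ _ _ _ _ _ x hU x₁ hx₁
    have hx₁loc : IsLocalHom x₁.toRingHom := GalRep.Glue.isLocalHom_algHom (𝒪 := O) x₁
    have hco : R.Coprime p := (Nat.Coprime.symm (hp.coprime_iff_not_dvd.2 hpR))
    have hRN : R ∣ N := hco.dvd_of_dvd_mul_right hyp.R_dvd
    refine twShape_sq_eq_one_at_new hyp D hP hord hp2LR (dvd_mul_left p N) (a := a) ?_ x hU x₁
      hx₁loc hx₁ ht g
    have e : ZMod.unitsMap hyp.R_dvd a = ZMod.unitsMap hRN (IharaTW.unitOf hpN) := by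
      rw [← ha, ← MonoidHom.comp_apply, ZMod.unitsMap_comp]
    rw [e, ZMod.unitsMap_val]
    simp only [IharaTW.unitOf]
    exact map_natCast (ZMod.castHom hRN (ZMod R)) p

omit hyp in
/-- **Steinberg members.**  With `p` once in the level `L = N p` and no residual eigensystem at
level `N` (that is, none old at `p`), the lift has Steinberg shape at `p`. -/
theorem Cut.steinberg_of_no_character (hyp : TWHyp (H := H) (S := S) (O := O) p R h hH θ ρbar' ρbar)
    {N : ℕ} [NeZero N] (hL : L = N * p) (hpN : ¬ p ∣ N) {H₀ : Subgroup (ZMod N)ˣ}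
    (hH₀ : (-1 : (ZMod N)ˣ) ∈ H₀)
    (hHH₀ : H = H₀.comap (ZMod.unitsMap (hL ▸ dvd_mul_right N p : N ∣ L)))
    (hpR : ¬ p ∣ R)
    (hno : ¬ ∃ θ₁ : heckeRing N H₀ (↑S : Set ℕ) →+* ResidueField O,
      ∀ (l : ℕ) (hl : l.Prime) (hlL : ¬ l ∣ L) (hlN : ¬ l ∣ N) (hlS : l ∉ (↑S : Set ℕ)),
        θ₁ (twistedT h hl hlN hlS) = θ (twistedT h hl hlL hlS))
    (P : ValuationSubring ℚbar) (hP : P.LiesOverPrime p)
    (hord : ∀ σ ∈ P.inertiaSubgroupIn ℚ, (∀ μ : ℚbar, μ ^ p = 1 → σ μ = μ) →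
      (ρbar σ).trace = 2) :
    SteinbergShape P C.testRing (C.lift D) := by
  have hp : p.Prime := hyp.prime
  have hp2LR : ¬ p ^ 2 ∣ L * R := fun hd => by
    rw [hL, mul_comm N p, mul_assoc, sq] at hd
    exact (hp.dvd_mul.1 (Nat.dvd_of_mul_dvd_mul_left hp.pos hd)).elim hpN hpR
  obtain ⟨t, ht⟩ := exists_twShape hyp D hP hord hp2LR
  exact ⟨(C.ofTW.toRingHom : TWRing hH O θ →* C.Ring').comp t, Cut.ordShape_lift D C ht, fun g =>
    Cut.ofTW_sq_eq_one D C hyp hL hpN hH₀ hHH₀ hpR hno hP hord hp2LR ht g⟩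

end Fermat.Agent.Root.Patched
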