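import Fermat.Agent.Root.Patched.TowerChain
import Fermat.Agent.Root.Patched.TowerAtP

/-!
# The rings of one step of a tower

`J` is glued from a finite family of members, `U` and `X` from two subfamilies.  The ring fields of
a tower follow from properties of the members.
-/

set_option autoImplicit false

noncomputable section

open IsLocalRing Polynomial

namespace Fermat.Agent.Root.Patched

open Fermat.Agent.Deformation

local notation "ℚbar" => AlgebraicClosure ℚ

variable {O : Type} [CommRing O] [IsDomain O] [IsDiscreteValuationRing O]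
  [IsAdicComplete (maximalIdeal O) O] [Finite (ResidueField O)] [CharZero O]
  {ρbar : GQ →* M2 (ResidueField O)} {p : ℕ} [Fact p.Prime]
  {Sys : LocalSystem O ρbar p} {ζ : O}

/-- The rings glued from members `ℓ`, the subfamily `fU` and the subfamily `fX`. -/
structure MemberRings {ι κ μ : Type} {S : ι → TestRing O} (ℓ : ∀ i, Lift ρbar (S i)) (fU : κ → ι)
    (fX : μ → ι) where
  G : Glued ℓ
  GU : Glued (fun k => ℓ (fU k))
  GX : Glued (fun k => ℓ (fX k))
  pU : G.J.R →+* GU.J.R
  pU_alg : pU.comp G.J.alg = GU.J.alg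
  pU_red : GU.J.red.comp pU = G.J.red
  pU_surjective : Function.Surjective pU
  lift_U : ∀ g, GU.lift.M g = (G.lift.M g).map pU
  pr_U : ∀ k z, GU.pr k (pU z) = G.pr (fU k) z
  pX : G.J.R →+* GX.J.R
  pX_alg : pX.comp G.J.alg = GX.J.alg
  pX_red : GX.J.red.comp pX = G.J.red
  pX_surjective : Function.Surjective pX
  lift_X : ∀ g, GX.lift.M g = (G.lift.M g).map pX
  pr_X : ∀ k z, GX.pr k (pX z) = G.pr (fX k) z

variable {ι κ μ : Type} [Fintype ι] [Nonempty ι] [Fintype κ] [Nonempty κ] [Fintype μ] [Nonempty μ]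
  {S : ι → TestRing O} {ℓ : ∀ i, Lift ρbar (S i)} {fU : κ → ι} {fX : μ → ι}

omit [CharZero O] [Fact (Nat.Prime p)] in
/-- **The rings exist.** -/
theorem nonempty_memberRings (_hp2 : p ≠ 2) (hp : (p : O) ∈ maximalIdeal O)
    (hirr : Submodule.span (ResidueField O) (Set.range ρbar) = ⊤) (hfin : ∀ i, (S i).IsFinite)
    (hdet : ∀ i, DetCyclotomic p (S i) (ℓ i)) (fU : κ → ι) (fX : μ → ι) :
    Nonempty (MemberRings ℓ fU fX) := by
  obtain ⟨G⟩ := nonempty_glued hp hirr hfin hdet
  obtain ⟨GU, pU, h1, h2, h3, h4, h5⟩ := G.exists_restrict fU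
  obtain ⟨GX, pX, g1, g2, g3, g4, g5⟩ := G.exists_restrict fX
  exact ⟨⟨G, GU, GX, pU, h1, h2, h3, h4, h5, pX, g1, g2, g3, g4, g5⟩⟩

namespace MemberRings

variable (R : MemberRings ℓ fU fX) (hp2 : p ≠ 2) (hp : (p : O) ∈ maximalIdeal O)
  (hdet : ∀ i, DetCyclotomic p (S i) (ℓ i))

omit [IsAdicComplete (maximalIdeal O) O] [Finite (ResidueField O)] [CharZero O] [Fintype ι]
    [Nonempty ι] [Fintype κ] [Nonempty κ] [Fintype μ] [Nonempty μ] in
theorem push_U (g : GQ) : (R.G.lift.push R.pU R.pU_red).M g = R.GU.lift.M g := by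
  rw [Lift.push_M, R.lift_U]

omit [IsAdicComplete (maximalIdeal O) O] [Finite (ResidueField O)] [CharZero O] [Fintype ι]
    [Nonempty ι] [Fintype κ] [Nonempty κ] [Fintype μ] [Nonempty μ] in
theorem push_X (g : GQ) : (R.G.lift.push R.pX R.pX_red).M g = R.GX.lift.M g := by
  rw [Lift.push_M, R.lift_X]

omit [Fintype ι] [Nonempty ι] [Fintype κ] [Nonempty κ] [Fintype μ] [Nonempty μ]
    [IsAdicComplete (maximalIdeal O) O] [Finite (ResidueField O)] [CharZero O] in
include hp hdet in
theorem det : DetCyclotomic p R.G.J R.G.lift := R.G.detCyclotomic hp hdet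

omit [Fintype κ] [Nonempty κ] [Fintype μ] [Nonempty μ] [IsAdicComplete (maximalIdeal O) O]
    [Finite (ResidueField O)] [CharZero O] in
include hp2 hp in
theorem cond {St : StdData Sys ζ} (M : MemberTypes St ℓ) : ∀ v, Sys.Cond v R.G.J R.G.lift :=
  M.cond R.G hp2 hp

omit [Fintype ι] [Nonempty ι] [Fintype κ] [Nonempty κ] [Fintype μ] [Nonempty μ]
    [Fact (Nat.Prime p)] [IsAdicComplete (maximalIdeal O) O] [Finite (ResidueField O)]
    [CharZero O] in
theorem unramified {Q : Finset ℕ}
    (hunr : ∀ i (x : ℕ), x.Prime → (∀ v, Sys.q v ≠ x) → x ∉ Q →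
      ∀ A : ValuationSubring ℚbar, A.LiesOverPrime x → ∀ σ ∈ A.inertiaSubgroupIn ℚ,
        (ℓ i).M σ = 1) :
    ∀ (x : ℕ), x.Prime → (∀ v, Sys.q v ≠ x) → x ∉ Q → ∀ A : ValuationSubring ℚbar,
      A.LiesOverPrime x → ∀ σ ∈ A.inertiaSubgroupIn ℚ, R.G.lift.M σ = 1 :=
  fun x hx hv hQ A hA => R.G.unramified A fun i => hunr i x hx hv hQ A hA

omit [Fintype ι] [Nonempty ι] [Fintype κ] [Nonempty κ] [Fintype μ] [Nonempty μ]
    [IsAdicComplete (maximalIdeal O) O] [Finite (ResidueField O)] [CharZero O] in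
theorem reducedU (h : ∀ k, IsReduced (S (fU k)).R) : IsReduced R.GU.J.R := R.GU.isReduced h

omit [Fintype ι] [Nonempty ι] [Fintype κ] [Nonempty κ] [Fintype μ] [Nonempty μ]
    [IsAdicComplete (maximalIdeal O) O] [Finite (ResidueField O)] [CharZero O] in
theorem reducedX (h : ∀ k, IsReduced (S (fX k)).R) : IsReduced R.GX.J.R := R.GX.isReduced h

omit [Fintype ι] [Nonempty ι] [Fintype κ] [Nonempty κ] [Fintype μ] [Nonempty μ]
    [IsAdicComplete (maximalIdeal O) O] [Finite (ResidueField O)] [CharZero O]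
    [Fact (Nat.Prime p)] in
theorem unip (P : ValuationSubring ℚbar) (h : ∀ k, Unipotent P (S (fU k)) (ℓ (fU k))) :
    Unipotent P R.GU.J (R.G.lift.push R.pU R.pU_red) := fun σ hσ => by
  rw [R.push_U]
  exact R.GU.unipotent P h σ hσ

omit [Fintype ι] [Nonempty ι] [Fintype κ] [Nonempty κ] [Fintype μ] [Nonempty μ]
    [IsAdicComplete (maximalIdeal O) O] [Finite (ResidueField O)] [CharZero O] in
include hp hdet in
/-- The classes of inertia characters on `X`, from the product identity on its members. -/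
theorem char (St : StdData Sys ζ) (i : Fin Sys.r)
    (hprod : ∀ k, ∏ j ∈ Finset.Ico 1 p, (((ℓ (fX k)).M (Sys.τ i)).trace -
      (S (fX k)).alg (ζ ^ j + ζ ^ (j * (p - 1)))) = 0)
    (𝔭 : Ideal R.GX.J.R) (h𝔭 : 𝔭 ∈ minimalPrimes R.GX.J.R) :
    ∃ b, ((R.G.lift.push R.pX R.pX_red).M (Sys.τ i)).charpoly.map (Ideal.Quotient.mk 𝔭) =
      ((X - C (R.GX.J.alg (Sys.ζ b))) * (X - C (R.GX.J.alg (Sys.ζi b)))).map
        (Ideal.Quotient.mk 𝔭) := by
  have : 𝔭.IsPrime := h𝔭.1.1
  rw [R.push_X]
  have hq : Sys.q (.inl i) ≠ p := fun e => by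
    have := St.avoid_mod i
    rw [e, Nat.mod_self] at this
    exact zero_ne_one this
  refine exists_class_of_prod_eq_zero St R.GX.J R.GX.lift (Sys.τ i) ?_ ?_ 𝔭
  · exact LocalModel.det_inertia hp Fact.out (Sys.q_prime _) hq (Sys.P_over _)
      (R.GX.detCyclotomic hp fun k => hdet (fX k)) (St.avoid_tame i).1
  · refine R.GX.injective _ fun k => ?_
    rw [map_prod, ← hprod k]
    refine Finset.prod_congr rfl fun j _ => ?_
    rw [map_sub, R.GX.pr_trace, ← RingHom.comp_apply, R.GX.pr_alg]

end MemberRings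


/-! ## Stages as members -/

omit [IsAdicComplete (maximalIdeal O) O] [Finite (ResidueField O)] [CharZero O] in
/-- Steinberg shape away from `p` makes inertia unipotent. -/
theorem SteinbergShape.unipotent_of_ne (hp : (p : O) ∈ maximalIdeal O) {q : ℕ} (hq : q.Prime)
    (hqp : q ≠ p) {P : ValuationSubring ℚbar} (hP : P.LiesOverPrime q) {T : TestRing O}
    {r : Lift ρbar T} (hdet : DetCyclotomic p T r) (h : SteinbergShape P T r) :
    Unipotent P T r := by
  obtain ⟨s, hs, hsq⟩ := h
  intro σ hσ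
  have hd : (r.M σ).det = 1 := LocalModel.det_inertia hp Fact.out hq hqp hP hdet hσ
  have ht := SteinbergShape.trace_eq hs hsq ⟨σ, ValuationSubring.inertia_mem_decomposition hσ⟩
  rw [hs.1 ⟨σ, ValuationSubring.inertia_mem_decomposition hσ⟩ hσ, one_mul, hd] at ht
  rw [Matrix.charpoly_fin_two, ht, hd]
  simp only [map_add, map_one]
  ring

namespace TStage

open Fermat.Agent.GammaH Fermat.Agent.TW

variable (A B : TStage O p ρbar)

omit [Fact (Nat.Prime p)] in
theorem isFinite : A.ring.IsFinite := by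
  show @Module.Finite O A.C.Ring' _ _ (algebraMap O A.C.Ring').toAlgebra.toModule
  rw [show (algebraMap O A.C.Ring').toAlgebra = (inferInstance : Algebra O A.C.Ring') from
    Algebra.algebra_ext _ _ fun _ => rfl]
  infer_instance

omit [Fact (Nat.Prime p)] in
theorem detCyclotomic : DetCyclotomic p A.ring A.lift := A.C.lift_detCyclotomic A.D

omit [Fact (Nat.Prime p)] in
theorem isReduced : IsReduced A.ring.R := A.C.isReduced A.hyp.LS

omit [Fact (Nat.Prime p)] in
/-- Maps of algebras between stages respect residual values. -/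
theorem red_comp (f : A.C.Ring' →ₐ[O] B.C.Ring') : B.C.red.comp f.toRingHom = A.C.red := by
  have hk : RingHom.ker (B.C.red.comp f.toRingHom) = maximalIdeal A.C.Ring' := by
    set P := RingHom.ker (B.C.red.comp f.toRingHom)
    have : P.IsPrime := RingHom.ker_isPrime _
    have : Algebra.IsIntegral O A.C.Ring' := Algebra.IsIntegral.of_finite O _
    refine IsLocalRing.eq_maximalIdeal
      (Ideal.isMaximal_of_isIntegral_of_isMaximal_comap' (algebraMap O A.C.Ring') ?_ P ?_)
    · exact algebraMap_isIntegral_iff.mpr inferInstance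
    · rw [show P.comap (algebraMap O A.C.Ring') = maximalIdeal O from ?_]
      · exact maximalIdeal.isMaximal O
      · ext a
        rw [Ideal.mem_comap, RingHom.mem_ker, RingHom.comp_apply,
          show f.toRingHom (algebraMap O A.C.Ring' a) = algebraMap O B.C.Ring' a from f.commutes a,
          show B.C.red (algebraMap O B.C.Ring' a) = residue O a from B.ring.red_alg a,
          residue_eq_zero_iff]
  refine RingHom.ext fun x => ?_
  obtain ⟨a, ha⟩ := residue_surjective (A.C.red x)
  have hx : x - algebraMap O A.C.Ring' a ∈ maximalIdeal A.C.Ring' := by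
    rw [← A.C.red_eq_zero_iff, map_sub,
      show A.C.red (algebraMap O A.C.Ring' a) = residue O a from A.ring.red_alg a, ha, sub_self]
  rw [← hk, RingHom.mem_ker, map_sub, RingHom.comp_apply, RingHom.comp_apply,
    show f.toRingHom (algebraMap O A.C.Ring' a) = algebraMap O B.C.Ring' a from f.commutes a,
    show B.C.red (algebraMap O B.C.Ring' a) = residue O a from B.ring.red_alg a, sub_eq_zero] at hx
  exact hx.trans ha

/-- A map between stages matching Frobenius traces matches all traces. -/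
theorem map_trace (hp : (p : O) ∈ maximalIdeal O) (f : A.C.Ring' →ₐ[O] B.C.Ring') (S₀ : Finset ℕ)
    (h : ∀ l : ℕ, l.Prime → l ∉ S₀ → ∀ P : ValuationSubring ℚbar, P.LiesOverPrime l →
      ∀ σ : GQ, P.IsFrobeniusAt σ l → f (A.lift.M σ).trace = (B.lift.M σ).trace) (σ : GQ) :
    f (A.lift.M σ).trace = (B.lift.M σ).trace := by
  let r : Lift ρbar B.ring := A.lift.push (S' := B.ring) f.toRingHom (A.red_comp B f)
  have htr : ∀ g, (r.M g).trace = f (A.lift.M g).trace := fun g =>
    (AddMonoidHom.map_trace f.toRingHom.toAddMonoidHom _).symm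
  have hd : DetCyclotomic p B.ring r :=
    (condClosed_detCyclotomic p).push A.ring B.ring f.toRingHom
      (RingHom.ext fun a => f.commutes a) (A.red_comp B f) A.lift r (fun _ => rfl) A.detCyclotomic
  have e := Lift.trace_ext hp r B.lift hd B.detCyclotomic S₀ (fun l hl hlS P hP g hg => by
    rw [htr]; exact h l hl hlS P hP g hg) σ
  rwa [htr] at e

omit [Fact (Nat.Prime p)] in
/-- Conditions closed under pushforward pass to sub-stages. -/
theorem sub_cond {c : ∀ T : TestRing O, Lift ρbar T → Prop} (hc : CondClosed c)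
    (z : HeckeO A.L A.H (↑A.S : Set ℕ) O) (hz : actO A.neg O z * A.C.E ≠ 0)
    (h : c A.ring A.lift) : c (A.sub z hz).ring (A.sub z hz).lift :=
  hc.push A.ring (A.sub z hz).ring (A.C.toSub z hz).toRingHom
    (RingHom.ext fun a => (A.C.toSub z hz).commutes a) (RingHom.ext fun x => A.C.red_toSub z hz x)
    A.lift _ (A.sub_lift_M z hz) h

end TStage

omit [IsAdicComplete (maximalIdeal O) O] [Finite (ResidueField O)] [CharZero O] in
/-- An ordinary member has the residual character of a reference lift with the flip condition. -/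
theorem flip_p_of_ref (hp2 : p ≠ 2) (hp : (p : O) ∈ maximalIdeal O) (St : StdData Sys ζ)
    (f : Fin Sys.s) (hf : Sys.q (.inr (.inl f)) = p) {T T₀ : TestRing O} {r : Lift ρbar T}
    {r₀ : Lift ρbar T₀} (hdet : DetCyclotomic p T r) (h₀ : Sys.flipCond f T₀ r₀)
    (h : ∃ s, OrdinaryShape (Sys.P (.inr (.inl f))) T r s) :
    ∃ s, OrdinaryShape (Sys.P (.inr (.inl f))) T r s ∧
      T.red (s (St.φf f)) = residue O (St.s₀ f) := by
  obtain ⟨hd₀, s₀, hs₀, hred⟩ := (St.flip_eq f hf T₀ r₀).1 h₀
  obtain ⟨s, hs⟩ := h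
  have hP : (Sys.P (.inr (.inl f))).LiesOverPrime p := by
    have hv := Sys.P_over (.inr (.inl f))
    rwa [hf] at hv
  exact ⟨s, hs, (ordinaryShape_red_eq hp2 hp hP hdet hd₀ hs hs₀ _).trans hred⟩

/-! ## The members of a tower -/

section Members

variable (K KX : ChainData O p ρbar)
  (z : TW.HeckeO (KX.stage 0 (Nat.zero_le _)).L (KX.stage 0 (Nat.zero_le _)).H
    (↑(KX.stage 0 (Nat.zero_le _)).S : Set ℕ) O)
  (hz : TW.actO (KX.stage 0 (Nat.zero_le _)).neg O z * (KX.stage 0 (Nat.zero_le _)).C.E ≠ 0)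
  {E : Type} (pt : E → Lift ρbar (TestRing.self O))

/-- The stages, the top of the twin and the twin. -/
def memberStage : Fin (K.C.s + 1) ⊕ (Unit ⊕ Unit) → TStage O p ρbar
  | .inl i => K.stage i (Nat.le_of_lt_succ i.2)
  | .inr (.inl _) => KX.stage 0 (Nat.zero_le _)
  | .inr (.inr _) => (KX.stage 0 (Nat.zero_le _)).sub z hz

/-- The index type of the members: stages, twins and points. -/
abbrev MemberIdx (E : Type) : Type := (Fin (K.C.s + 1) ⊕ (Unit ⊕ Unit)) ⊕ E

/-- The rings of the members. -/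
def memberRing : MemberIdx K E → TestRing O
  | .inl j => (memberStage K KX z hz j).ring
  | .inr _ => TestRing.self O

/-- The lifts of the members. -/
def memberLift : ∀ j, Lift ρbar (memberRing K KX z hz (E := E) j)
  | .inl j => (memberStage K KX z hz j).lift
  | .inr e => pt e

/-- The members of `U`: stages and points. -/
def memberU : Fin (K.C.s + 1) ⊕ E → MemberIdx K E := Sum.map Sum.inl id

/-- The member of `X`: the twin. -/
def memberX : Unit → MemberIdx K E := fun _ => .inl (.inr (.inr ()))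

omit [Fact (Nat.Prime p)] in
theorem memberRing_isFinite (j : MemberIdx K E) : (memberRing K KX z hz j).IsFinite := by
  rcases j with j | e
  · exact TStage.isFinite _
  · show @Module.Finite O O _ _ (RingHom.id O).toAlgebra.toModule
    rw [show (RingHom.id O).toAlgebra = Algebra.id O from Algebra.algebra_ext _ _ fun _ => rfl]
    infer_instance

omit [Fact (Nat.Prime p)] in
theorem memberLift_det (hpt : ∀ e, DetCyclotomic p (TestRing.self O) (pt e)) (j : MemberIdx K E) :
    DetCyclotomic p (memberRing K KX z hz j) (memberLift K KX z hz pt j) := by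
  rcases j with j | e
  · exact TStage.detCyclotomic _
  · exact hpt e

omit [Fact (Nat.Prime p)] in
theorem memberRing_isReduced (j : MemberIdx K E) : IsReduced (memberRing K KX z hz j).R := by
  rcases j with j | e
  · exact TStage.isReduced _
  · exact inferInstanceAs (IsReduced O)

omit [Fact (Nat.Prime p)] in
theorem isReduced_memberU (k : Fin (K.C.s + 1) ⊕ E) :
    IsReduced (memberRing K KX z hz (memberU K k)).R := memberRing_isReduced K KX z hz _

omit [Fact (Nat.Prime p)] in
theorem isReduced_memberX (k : Unit) :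
    IsReduced (memberRing K KX z hz (E := E) (memberX K k)).R := memberRing_isReduced K KX z hz _

omit [Fact (Nat.Prime p)] in
/-- A property of all members from the two chains and the points. -/
theorem forall_member (c : ∀ T : TestRing O, Lift ρbar T → Prop) (hc : CondClosed c)
    (hK : ∀ i hi, c (K.stage i hi).ring (K.stage i hi).lift)
    (hX : c (KX.stage 0 (Nat.zero_le _)).ring (KX.stage 0 (Nat.zero_le _)).lift)
    (hpt : ∀ e, c (TestRing.self O) (pt e)) (j : MemberIdx K E) :
    c (memberRing K KX z hz j) (memberLift K KX z hz pt j) := by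
  rcases j with (i | u | u) | e
  · exact hK i _
  · exact hX
  · exact TStage.sub_cond _ hc z hz hX
  · exact hpt e

omit [Fact (Nat.Prime p)] in
/-- Inertia is trivial on all members outside the levels. -/
theorem memberLift_unramified {x : ℕ} (hx : x.Prime) (hxp : x ≠ p)
    (hK : ∀ i, i ≤ K.C.s → ¬ x ∣ K.C.lvl i * K.R) (hX : ¬ x ∣ KX.C.N₀ * KX.R)
    (P : ValuationSubring ℚbar) (hP : P.LiesOverPrime x)
    (hpt : ∀ e, ∀ σ ∈ P.inertiaSubgroupIn ℚ, (pt e).M σ = 1) (j : MemberIdx K E) :
    ∀ σ ∈ P.inertiaSubgroupIn ℚ, (memberLift K KX z hz pt j).M σ = 1 := by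
  rcases j with (i | u | u) | e
  · exact (K.stage i _).C.lift_unramified (K.stage i _).D hx hxp (hK i (Nat.le_of_lt_succ i.2)) P hP
  · exact (KX.stage 0 _).C.lift_unramified (KX.stage 0 _).D hx hxp hX P hP
  · exact ((KX.stage 0 _).sub z hz).C.lift_unramified ((KX.stage 0 _).sub z hz).D hx hxp hX P hP
  · exact hpt e

omit [Fact (Nat.Prime p)] in
/-- Inertia is unipotent on all members where the levels are square free. -/
theorem memberLift_unipotent {x : ℕ} (hx : x.Prime) (hxp : x ≠ p)
    (hK : ∀ i, i ≤ K.C.s → ¬ x ^ 2 ∣ K.C.lvl i * K.R) (hX : ¬ x ^ 2 ∣ KX.C.N₀ * KX.R)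
    (P : ValuationSubring ℚbar) (hP : P.LiesOverPrime x)
    (hpt : ∀ e, Unipotent P (TestRing.self O) (pt e)) (j : MemberIdx K E) :
    Unipotent P (memberRing K KX z hz j) (memberLift K KX z hz pt j) := by
  rcases j with (i | u | u) | e
  · exact (K.stage i _).C.lift_unipotent (K.stage i _).D hx hxp (hK i (Nat.le_of_lt_succ i.2)) P hP
  · exact (KX.stage 0 _).C.lift_unipotent (KX.stage 0 _).D hx hxp hX P hP
  · exact ((KX.stage 0 _).sub z hz).C.lift_unipotent ((KX.stage 0 _).sub z hz).D hx hxp hX P hP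
  · exact hpt e

omit [Fact (Nat.Prime p)] in
/-- Inertia is unipotent on the members of `U`. -/
theorem memberU_unipotent {x : ℕ} (hx : x.Prime) (hxp : x ≠ p)
    (hK : ∀ i, i ≤ K.C.s → ¬ x ^ 2 ∣ K.C.lvl i * K.R)
    (P : ValuationSubring ℚbar) (hP : P.LiesOverPrime x)
    (hpt : ∀ e, Unipotent P (TestRing.self O) (pt e)) (k : Fin (K.C.s + 1) ⊕ E) :
    Unipotent P (memberRing K KX z hz (memberU K k))
      (memberLift K KX z hz pt (memberU K k)) := by
  rcases k with i | e
  · exact (K.stage i _).C.lift_unipotent (K.stage i _).D hx hxp (hK i (Nat.le_of_lt_succ i.2)) P hP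
  · exact hpt e

/-- A prime which is not squared: square free levels. -/
theorem not_sq_dvd_lvl_mul {C : IharaTW.Chain} (hsq : Squarefree (C.lvl C.s)) {x R : ℕ}
    (hx : x.Prime) (hxR : ¬ x ∣ R) {i : ℕ} (hi : i ≤ C.s) : ¬ x ^ 2 ∣ C.lvl i * R := fun h => by
  have h1 : x ^ 2 ∣ C.lvl i := ((hx.coprime_iff_not_dvd.mpr hxR).pow_left 2).dvd_of_dvd_mul_right h
  have h2 := Nat.squarefree_iff_prime_squarefree.mp hsq x hx
  exact h2 (by rw [← sq]; exact h1.trans (C.lvl_dvd hi))

/-- The same at the bottom. -/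
theorem not_sq_dvd_bot_mul {C : IharaTW.Chain} (hsq : Squarefree (C.lvl C.s)) {x R : ℕ}
    (hx : x.Prime) (hxR : ¬ x ∣ R) : ¬ x ^ 2 ∣ C.N₀ * R :=
  not_sq_dvd_lvl_mul hsq hx hxR (Nat.zero_le _)

/-- **The types of the members** at the flip and plain places, given the shapes of the two chains
at `p`. -/
theorem memberTypes (hp : (p : O) ∈ maximalIdeal O) (St : StdData Sys ζ)
    (hsqK : Squarefree (K.C.lvl K.C.s)) (hsqX : Squarefree (KX.C.lvl KX.C.s))
    (hRK : ∀ v, ¬ Sys.q (.inr v) ∣ K.R) (hRX : ∀ v, ¬ Sys.q (.inr v) ∣ KX.R)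
    (hpt : ∀ e v, Sys.Cond v (TestRing.self O) (pt e))
    (hpdet : ∀ e, DetCyclotomic p (TestRing.self O) (pt e))
    (hflipK : ∀ f, Sys.q (.inr (.inl f)) = p → ∀ i hi, ∃ s,
      OrdinaryShape (Sys.P (.inr (.inl f))) (K.stage i hi).ring (K.stage i hi).lift s ∧
        (K.stage i hi).ring.red (s (St.φf f)) = residue O (St.s₀ f))
    (hflipX : ∀ f, Sys.q (.inr (.inl f)) = p → ∃ s,
      OrdinaryShape (Sys.P (.inr (.inl f))) (KX.stage 0 (Nat.zero_le _)).ring
          (KX.stage 0 (Nat.zero_le _)).lift s ∧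
        (KX.stage 0 (Nat.zero_le _)).ring.red (s (St.φf f)) = residue O (St.s₀ f))
    (hflatK : St.flat → ∀ u, Sys.q (.inr (.inr u)) = p →
      ∀ i hi, FlatShape p (K.stage i hi).ring (K.stage i hi).lift)
    (hflatX : St.flat → ∀ u, Sys.q (.inr (.inr u)) = p →
      FlatShape p (KX.stage 0 (Nat.zero_le _)).ring (KX.stage 0 (Nat.zero_le _)).lift)
    (hstK : ¬ St.flat → ∀ u, Sys.q (.inr (.inr u)) = p → ∀ i hi,
      SteinbergShape (Sys.P (.inr (.inr u))) (K.stage i hi).ring (K.stage i hi).lift)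
    (hstX : ¬ St.flat → ∀ u, Sys.q (.inr (.inr u)) = p →
      SteinbergShape (Sys.P (.inr (.inr u))) (KX.stage 0 (Nat.zero_le _)).ring
        (KX.stage 0 (Nat.zero_le _)).lift) :
    MemberTypes St (memberLift K KX z hz pt) where
  det := memberLift_det K KX z hz pt hpdet
  flip f hf := memberLift_unipotent K KX z hz pt (Sys.q_prime _) hf
    (fun _ hi => not_sq_dvd_lvl_mul hsqK (Sys.q_prime _) (hRK _) hi)
    (not_sq_dvd_bot_mul hsqX (Sys.q_prime _) (hRX _)) _ (Sys.P_over _)
    fun e => ((St.flip_ne f hf _ _).1 (hpt e (.inr (.inl f)))).2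
  flip_p f hf := forall_member K KX z hz pt _
    (condClosed_ordinary (Sys.P (.inr (.inl f))) (St.φf f) (St.s₀ f)) (hflipK f hf) (hflipX f hf)
    fun e => flip_p_of_cond St f hf (hpt e (.inr (.inl f)))
  plain u hu := memberLift_unipotent K KX z hz pt (Sys.q_prime _) hu
    (fun _ hi => not_sq_dvd_lvl_mul hsqK (Sys.q_prime _) (hRK _) hi)
    (not_sq_dvd_bot_mul hsqX (Sys.q_prime _) (hRX _)) _ (Sys.P_over _)
    fun e => SteinbergShape.unipotent_of_ne hp (Sys.q_prime _) hu (Sys.P_over _) (hpdet e)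
      ((St.plain_ne u hu _ _).1 (hpt e (.inr (.inr u)))).2
  plain_flat hfl u hu := forall_member K KX z hz pt _ condClosed_flatShape
    (hflatK hfl u hu) (hflatX hfl u hu)
    fun e => ((St.plain_flat hfl u hu _ _).1 (hpt e (.inr (.inr u)))).2
  plain_st hfl u hu := forall_member K KX z hz pt _ (condClosed_steinbergShape _)
    (hstK hfl u hu) (hstX hfl u hu)
    fun e => ((St.plain_st hfl u hu _ _).1 (hpt e (.inr (.inr u)))).2

/-- The rings of the bottom of a tower: base stages and points. -/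
def baseRing (B : Fin (K.C.s + 1) → TStage O p ρbar) : Fin (K.C.s + 1) ⊕ E → TestRing O
  | .inl i => (B i).ring
  | .inr _ => TestRing.self O

/-- Their lifts. -/
def baseLift (B : Fin (K.C.s + 1) → TStage O p ρbar) :
    ∀ k, Lift ρbar (baseRing K B (E := E) k)
  | .inl i => (B i).lift
  | .inr e => pt e

/-- The projection to a point: the map `w` of a lifting tower. -/
def basePoint {B : Fin (K.C.s + 1) → TStage O p ρbar} (G₀ : Glued (baseLift K pt B)) (e : E) :
    G₀.J.R →+* O := G₀.pr (.inr e)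

omit [Fact (Nat.Prime p)] in
theorem basePoint_alg {B : Fin (K.C.s + 1) → TStage O p ρbar} (G₀ : Glued (baseLift K pt B))
    (e : E) : (basePoint K pt G₀ e).comp G₀.J.alg = RingHom.id O := G₀.pr_alg (.inr e)

omit [Fact (Nat.Prime p)] in
theorem basePoint_trace {B : Fin (K.C.s + 1) → TStage O p ρbar} (G₀ : Glued (baseLift K pt B))
    (e : E) (σ : GQ) : basePoint K pt G₀ e (G₀.lift.M σ).trace = ((pt e).M σ).trace :=
  G₀.pr_trace (.inr e) σ

omit [Fact (Nat.Prime p)] in
/-- The bottom rings exist. -/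
theorem nonempty_glued_base (hp : (p : O) ∈ maximalIdeal O)
    (hirr : Submodule.span (ResidueField O) (Set.range ρbar) = ⊤) [Fintype E]
    (B : Fin (K.C.s + 1) → TStage O p ρbar)
    (hpdet : ∀ e, DetCyclotomic p (TestRing.self O) (pt e)) :
    Nonempty (Glued (baseLift K pt B)) := by
  have : Nonempty (Fin (K.C.s + 1) ⊕ E) := ⟨.inl 0⟩
  refine nonempty_glued hp hirr (fun k => ?_) fun k => ?_
  · rcases k with i | e
    · exact TStage.isFinite _
    · show @Module.Finite O O _ _ (RingHom.id O).toAlgebra.toModule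
      rw [show (RingHom.id O).toAlgebra = Algebra.id O from Algebra.algebra_ext _ _ fun _ => rfl]
      infer_instance
  · rcases k with i | e
    · exact TStage.detCyclotomic _
    · exact hpdet e

end Members

end Fermat.Agent.Root.Patched
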