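import Fermat.Agent.Root.Patched.TowerPointsAtP
import Fermat.Agent.IharaTW.KerKill
import Fermat.Agent.OrdinaryP.S33.Residual

/-!
# `T_p` on the idempotent of an ordinary residual eigensystem

If the residual representation has trace `2` on the inertia elements at `p` fixing `μ_p`, every
eigensystem of level prime to `p` reducing to it has a unit eigenvalue at `p`, so `T_p` is
invertible on the whole localised cohomology.
-/

set_option autoImplicit false

noncomputable section

open IsLocalRing Polynomial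

namespace Fermat.Agent.Root.Patched

open Fermat.Agent.Deformation Fermat.Agent.GammaH Fermat.Agent.TW

local notation "ℚbar" => AlgebraicClosure ℚ

variable {O : Type} [CommRing O] [IsDomain O] [IsDiscreteValuationRing O]
  [IsAdicComplete (maximalIdeal O) O] [Finite (ResidueField O)] [CharZero O]
  {p : ℕ}

omit [IsDomain O] [IsDiscreteValuationRing O] [IsAdicComplete (maximalIdeal O) O]
  [Finite (ResidueField O)] [CharZero O] in
/-- **The residual trace of an ordinary lift with cyclotomic determinant.** -/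
theorem trace_eq_two_of_ordinaryShape {O : Type} [CommRing O] [IsLocalRing O] {p : ℕ}
    (hp : (p : O) ∈ maximalIdeal O) {ρbar : GQ →* M2 (ResidueField O)} {P : ValuationSubring ℚbar}
    {T : TestRing O} {r : Lift ρbar T} {s : P.decompositionSubgroup ℚ →* T.R}
    (hd : DetCyclotomic p T r) (hs : OrdinaryShape P T r s) :
    ∀ σ ∈ P.inertiaSubgroupIn ℚ, (∀ μ : ℚbar, μ ^ p = 1 → σ μ = μ) → (ρbar σ).trace = 2 := by
  intro σ hσ hμ
  let σ' : P.decompositionSubgroup ℚ := ⟨σ, ((Gal.mem_inertia_iff P σ).mp hσ).1⟩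
  have hs1 : s σ' = 1 := hs.1 σ' hσ
  have hs1' : s σ'⁻¹ = 1 := hs.1 σ'⁻¹ (inv_mem hσ)
  have hdet : (ρbar σ).det = 1 := by
    have hpk : (p : ResidueField O) = 0 := by
      rw [← map_natCast (residue O), residue_eq_zero_iff]; exact hp
    have h1 := hd 1 σ 1 fun μ h => by rw [pow_one] at h ⊢; exact hμ μ h
    rw [pow_one, Ideal.mem_span_singleton'] at h1
    obtain ⟨e, he⟩ := h1
    have h2 := congrArg T.red he
    rw [map_mul, map_natCast, hpk, mul_zero, map_sub, Nat.cast_one, map_one, RingHom.map_det,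
      RingHom.mapMatrix_apply, r.reduces] at h2
    exact sub_eq_zero.1 h2.symm
  have h1 := congrArg T.red.mapMatrix (hs.2 σ' σ')
  rw [hs1, hs1', mul_one, one_smul, map_mul, map_sub, map_sub, map_one, map_zero] at h1
  have hsc : T.red.mapMatrix ((r.M σ).det • (1 : M2 T.R)) = 1 := by
    have e : T.red (r.M σ).det = 1 := by
      rw [RingHom.map_det, RingHom.mapMatrix_apply, r.reduces, hdet]
    ext i j
    fin_cases i <;> fin_cases j <;> simp [e]
  change (T.red.mapMatrix (r.M σ) - T.red.mapMatrix ((r.M σ).det • (1 : M2 T.R))) *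
    (T.red.mapMatrix (r.M σ) - 1) = 0 at h1
  rw [hsc, RingHom.mapMatrix_apply, r.reduces] at h1
  have h3 : (ρbar σ - 1).det = 0 := by
    have h2 := congrArg Matrix.det h1
    rw [Matrix.det_mul, Matrix.det_zero] at h2
    exact mul_self_eq_zero.1 h2
  rw [Matrix.det_fin_two] at hdet h3
  simp only [Matrix.sub_apply, Matrix.one_apply_eq, ne_eq, zero_ne_one, one_ne_zero,
    not_false_eq_true, Matrix.one_apply_ne, sub_zero] at h3
  rw [Matrix.trace_fin_two]
  linear_combination hdet - h3

variable {L R h : ℕ} [NeZero L] [NeZero R] {H : Subgroup (ZMod L)ˣ} {S : Finset ℕ}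
  {hH : (-1 : (ZMod L)ˣ) ∈ H}
  {θ : heckeRing L H (↑S : Set ℕ) →+* ResidueField O} {ρbar : GQ →* M2 (ResidueField O)}
  {ρbar' : ResidualGaloisRep (ResidueField O)}

omit [IsDomain O] [IsDiscreteValuationRing O] [IsAdicComplete (maximalIdeal O) O] [CharZero O] in
/-- At a point of the anemic ring where the idempotent is `1` the values reduce to the residual
eigensystem. -/
theorem residue_apply_of_twIdem {O : Type} [CommRing O] [IsDomain O] [IsDiscreteValuationRing O]
    [IsAdicComplete (maximalIdeal O) O] [Finite (ResidueField O)] [CharZero O]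
    {θ : heckeRing L H (↑S : Set ℕ) →+* ResidueField O}
    {O' : Type} [CommRing O'] [IsLocalRing O'] [Finite (ResidueField O')] [Algebra O O']
    [IsLocalHom (algebraMap O O')] (x : HeckeO L H (↑S : Set ℕ) O →ₐ[O] O')
    (hx : x (twIdem hH O θ) = 1) (a : HeckeO L H (↑S : Set ℕ) O) :
    residue O' (x a) = ResidueField.map (algebraMap O O') (residO O θ a) := by
  classical
  obtain ⟨a₀, ha₀⟩ := residue_surjective (residO O θ a)
  set b := a - algebraMap O _ a₀ with hb
  have hb0 : residO O θ b = 0 := by rw [hb, map_sub, residO_algebraMap, ha₀, sub_self]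
  have h : residue O' (x b) = 0 := by
    by_contra hne
    have : Fintype (ResidueField O') := Fintype.ofFinite _
    set m := Fintype.card (ResidueField O') - 1
    have hm : m ≠ 0 := by
      have := Fintype.one_lt_card (α := ResidueField O')
      omega
    have hc : residO O θ (1 - b ^ m) ≠ 0 := by
      rw [map_sub, map_one, map_pow, hb0, zero_pow hm, sub_zero]
      exact one_ne_zero
    obtain ⟨y, hy⟩ := exists_mul_eq_twIdem hH O θ hc
    have h1 := congrArg (fun z => residue O' (x z)) hy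
    simp only [map_mul, map_sub, map_one, map_pow, hx] at h1
    rw [FiniteField.pow_card_sub_one_eq_one _ hne, sub_self, mul_zero] at h1
    exact zero_ne_one h1
  rw [hb, map_sub, map_sub, AlgHom.commutes, sub_eq_zero] at h
  rw [h, ← ha₀, ResidueField.map_residue]

/-- **The eigenvalue at `p` of a point of the residual eigensystem is a unit.** -/
theorem isUnit_twistedT_of_point (hyp : TWHyp (H := H) (S := S) (O := O) p R h hH θ ρbar' ρbar)
    (hp : p.Prime) (hpL : ¬ p ∣ L) {P : ValuationSubring ℚbar} (hP : P.LiesOverPrime p)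
    (hord : ∀ σ ∈ P.inertiaSubgroupIn ℚ, (∀ μ : ℚbar, μ ^ p = 1 → σ μ = μ) → (ρbar σ).trace = 2)
    {O₁ : Type} [CommRing O₁] [IsDomain O₁] [IsDiscreteValuationRing O₁]
    [IsAdicComplete (maximalIdeal O₁) O₁] [Finite (ResidueField O₁)] [CharZero O₁] [Algebra O O₁]
    [IsLocalHom (algebraMap O O₁)] (x : HeckeO L H ∅ O →ₐ[O] O₁)
    (hx : x (IharaTW.toFull O (twIdem hH O θ)) = 1) :
    IsUnit (x (HeckeO.ofT O (twistedT h hp hpL (Set.notMem_empty p)))) := by
  have := Fact.mk hp
  have hpO₁ : (p : O₁) ∈ maximalIdeal O₁ :=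
    map_natCast (algebraMap O O₁) p ▸ map_nonunit (algebraMap O O₁) _ hyp.mem
  have hLS₁ : ∀ q : ℕ, q.Prime → q ∣ L → q ∈ (↑(S.erase p) : Set ℕ) := fun q hq hqL =>
    Finset.mem_erase.2 ⟨fun (e : q = p) => hpL (e ▸ hqL), hyp.LS q hq hqL⟩
  have hpS₁ : p ∉ (↑(S.erase p) : Set ℕ) := Finset.notMem_erase p S
  obtain ⟨Φ, hΦ⟩ := exists_twistHom (S := (↑(S.erase p) : Set ℕ)) hH hyp.R_dvd hyp.ker_le hyp.odd
    hLS₁
  let g : heckeRing L H (↑(S.erase p) : Set ℕ) →+* O₁ :=
    (x.toRingHom.comp (HeckeO.ofT O)).comp (heckeIncl (Set.empty_subset _))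
  have := Fermat.Agent.S22.result (L * R) 2 (∅ : Set ℕ)
  obtain ⟨O₂, _, _, _, _, _, _, _, _, _, -, hpO₂, κ, hκ⟩ :=
    GalRep.exists_point_extension (N := L * R) (S.erase p) O₁ hpO₁ (g.comp Φ)
  set j := algebraMap O₁ O₂
  have hnM : ∀ l : ℕ, l.Prime → ¬ l ∣ L → ¬ l ∣ L * R := fun l hl hlL hd =>
    (hl.dvd_mul.1 hd).elim hlL fun hR => hlL (hR.trans hyp.R_dvd)
  have hval : ∀ (l : ℕ) (hl : l.Prime) (hlL : ¬ l ∣ L) (hlS : l ∉ (↑(S.erase p) : Set ℕ)),
      κ (GalRep.heckeOp (L * R) ⟨l, hl⟩) =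
        j (x (HeckeO.ofT O (twistedT h hl hlL (Set.notMem_empty l)))) := by
    intro l hl hlL hlS
    rw [hκ l hl (hnM l hl hlL) hlS, RingHom.comp_apply, hΦ l hl hlL (hnM l hl hlL) hlS]
    show j (x (HeckeO.ofT O (heckeIncl _ _))) = _
    rw [heckeIncl_twistedT]
  obtain ⟨E⟩ := OrdinaryP.exists_eigenRep (L * R) p (hyp.red _) hpO₂ κ
  have : IsLocalHom (j.comp (algebraMap O O₁)) := RingHom.isLocalHom_comp _ _
  set ι : ResidueField O →+* ResidueField O₂ := ResidueField.map (j.comp (algebraMap O O₁))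
    with hι
  -- the two residual representations
  let M₁ : GQ →* M2 (ResidueField O₂) := mapRep (residue O₂) E.R
  let M₂ : GQ →* M2 (ResidueField O₂) := mapRep ι ρbar
  let toEnd : M2 (ResidueField O₂) →* Module.End (ResidueField O₂) (Fin 2 → ResidueField O₂) :=
    (Matrix.toLinAlgEquiv' (R := ResidueField O₂) (n := Fin 2)).toMulEquiv.toMonoidHom
  have hf₁ : GaloisFactorsThroughFiniteLevel (toEnd.comp M₁) := by
    obtain ⟨K, hK, hK1⟩ := E.continuous 1
    refine ⟨K, hK, fun σ hσ => ?_⟩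
    have : M₁ σ = 1 := by
      ext i k
      show residue O₂ (E.R σ i k) = _
      rw [← sub_eq_zero, show (1 : M2 (ResidueField O₂)) i k = residue O₂ ((1 : M2 O₂) i k) by
        rw [Matrix.one_apply, Matrix.one_apply, apply_ite (residue O₂), map_one, map_zero],
        ← map_sub, residue_eq_zero_iff]
      simpa using hK1 σ hσ i k
    rw [MonoidHom.comp_apply, this, map_one]
  have hf₂ : GaloisFactorsThroughFiniteLevel (toEnd.comp M₂) := by
    obtain ⟨K, hK, hK1⟩ := ρbar'.factorsThroughFiniteLevel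
    obtain ⟨b, hb⟩ := hyp.matrix
    refine ⟨K, hK, fun σ hσ => ?_⟩
    have : M₂ σ = 1 := by
      show (ρbar σ).map ι = 1
      rw [← hb, hK1 σ hσ, LinearMap.toMatrix_one, Matrix.map_one _ (map_zero _) (map_one _)]
    rw [MonoidHom.comp_apply, this, map_one]
  have htr : ∀ σ, (M₁ σ).trace = (M₂ σ).trace := by
    intro σ
    have hcp := Density.charpoly_eq_of_forall_frobenius (Module.finrank_fin_fun _)
      (Module.finrank_fin_fun _) hf₁ hf₂ (↑S : Set ℕ) S.finite_toSet ?_ σ
    · have h1 : (M₁ σ).charpoly = (M₂ σ).charpoly :=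
        ((Matrix.charpoly_toLin' (M₁ σ)).symm.trans hcp).trans (Matrix.charpoly_toLin' (M₂ σ))
      rw [Matrix.trace_eq_neg_charpoly_coeff, h1, ← Matrix.trace_eq_neg_charpoly_coeff]
    intro l hl hlS A hA τ hτ
    have hlp : l ≠ p := fun e => hlS (by rw [e]; exact hyp.mem_S)
    have hlL : ¬ l ∣ L := fun hd => hlS (hyp.LS l hl hd)
    have hlNp : ¬ l ∣ L * R * p := fun hd => (hl.dvd_mul.1 hd).elim (hnM l hl hlL)
      fun e => hlp ((Nat.prime_dvd_prime_iff_eq hl hp).1 e)
    obtain ⟨ht₀, hd₀⟩ : (ρbar τ).trace = θ (twistedT h hl hlL hlS) ∧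
        (ρbar τ).det = (l : ResidueField O) := by
      refine trace_det_of_charpoly_eq (Eq.trans ?_ (hyp.frob l hl hlL hlS A hA τ hτ))
      obtain ⟨b, hb⟩ := hyp.matrix
      rw [← hb]
      exact LinearMap.charpoly_toMatrix (ρbar'.ρ τ) b
    refine ((Matrix.charpoly_toLin' (M₁ τ)).trans ?_).trans (Matrix.charpoly_toLin' (M₂ τ)).symm
    have e1 : (M₁ τ).trace = residue O₂ (E.R τ).trace :=
      (AddMonoidHom.map_trace (residue O₂).toAddMonoidHom (E.R τ)).symm
    have e2 : (M₁ τ).det = residue O₂ (E.R τ).det := ((residue O₂).map_det (E.R τ)).symm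
    have e3 : (M₂ τ).trace = ι (ρbar τ).trace :=
      (AddMonoidHom.map_trace ι.toAddMonoidHom (ρbar τ)).symm
    have e4 : (M₂ τ).det = ι (ρbar τ).det := (ι.map_det (ρbar τ)).symm
    rw [Matrix.charpoly_fin_two, Matrix.charpoly_fin_two, e1, e2, e3, e4, hd₀, ht₀, E.det_eq,
      GalRep.cycl_frobenius p hl hlp hA hτ, map_natCast, map_natCast, map_natCast,
      E.trace_frobenius l hl hlNp A hA τ hτ, hval l hl hlL fun hm => hlS (erase_subset' hm)]
    have hx' := residue_apply_of_twIdem (hH := hH) (θ := θ)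
      (x.comp (IharaTW.toFull O)) hx (HeckeO.ofT O (twistedT h hl hlL hlS))
    rw [AlgHom.comp_apply, HeckeO.ofT_apply, residO_tmul, map_one, one_mul, IharaTW.toFull_mk,
      one_smul, heckeIncl_twistedT] at hx'
    rw [← ResidueField.map_residue (algebraMap O₁ O₂), hx', hι,
      ← ResidueField.map_map (algebraMap O O₁) (algebraMap O₁ O₂)]
    simp only [map_natCast]
  have hu := E.isUnit_of_trace (hnM p hp hpL) hP fun σ hσ hμ => by
    have e := htr σ
    rw [show (M₁ σ).trace = residue O₂ (E.R σ).trace from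
        (AddMonoidHom.map_trace (residue O₂).toAddMonoidHom (E.R σ)).symm,
      show (M₂ σ).trace = ι (ρbar σ).trace from
        (AddMonoidHom.map_trace ι.toAddMonoidHom (ρbar σ)).symm, hord σ hσ hμ, map_ofNat] at e
    exact e
  rw [hval p hp hpL hpS₁] at hu
  exact (isUnit_map_iff j _).1 hu

/-- **`T_p` is invertible on the localised cohomology of an ordinary residual eigensystem.** -/
theorem exists_preimage_heckeT_twIdem
    (hyp : TWHyp (H := H) (S := S) (O := O) p R h hH θ ρbar' ρbar)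
    (hp : p.Prime) (hpL : ¬ p ∣ L) {P : ValuationSubring ℚbar} (hP : P.LiesOverPrime p)
    (hord : ∀ σ ∈ P.inertiaSubgroupIn ℚ, (∀ μ : ℚbar, μ ^ p = 1 → σ μ = μ) → (ρbar σ).trace = 2) :
    ∀ v, actO hH O (twIdem hH O θ) v = v →
      ∃ w, actO hH O (twIdem hH O θ) w = w ∧ heckeTH O O hp hpL w = v := by
  classical
  have := moduleFinite_heckeRing (S := (∅ : Set ℕ)) hH
  have := moduleFree_heckeRing (S := (∅ : Set ℕ)) hH
  have : Module.Finite O (HeckeO L H ∅ O) :=
    inferInstanceAs (Module.Finite O (TensorProduct ℤ O (heckeRing L H ∅)))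
  have : Module.Free O (HeckeO L H ∅ O) :=
    inferInstanceAs (Module.Free O (TensorProduct ℤ O (heckeRing L H ∅)))
  set z : HeckeO L H ∅ O := IharaTW.toFull O (twIdem hH O θ) with hz
  have hzz : z * z = z := by rw [hz, ← map_mul, (isIdempotentElem_twIdem hH O θ).eq]
  set T : HeckeO L H ∅ O := HeckeO.ofT O (heckeTR hp hpL (Set.notMem_empty p))
  have hu : IsUnit (T * z + (1 - z)) := by
    by_contra hnu
    obtain ⟨m, hm, hum⟩ := exists_max_ideal_of_mem_nonunits (mem_nonunits_iff.2 hnu)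
    obtain ⟨I, hI, hIm⟩ := Ideal.exists_minimalPrimes_le (J := m) (I := (⊥ : Ideal _)) bot_le
    have : I.IsPrime := hI.1.1
    obtain ⟨O₁, _, _, _, _, _, _, _, _, _, y, hy⟩ := GalRep.exists_dvr_of_domain (𝒪 := O)
      (HeckeO L H ∅ O ⧸ I) (GalRep.injective_quotient_minimalPrime _ I hI)
    let x : HeckeO L H ∅ O →ₐ[O] O₁ := y.comp (Ideal.Quotient.mkₐ O I)
    have hxu : IsUnit (x (T * z + (1 - z))) := by
      have hx0 : x z = 0 ∨ x z = 1 := by
        rcases mul_eq_zero.1 (show x z * (x z - 1) = 0 by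
          rw [mul_sub, mul_one, ← map_mul, hzz, sub_self]) with h | h
        exacts [Or.inl h, Or.inr (sub_eq_zero.1 h)]
      rcases hx0 with h0 | h1
      · rw [map_add, map_mul, map_sub, map_one, h0, mul_zero, zero_add, sub_zero]
        exact isUnit_one
      · rw [map_add, map_mul, map_sub, map_one, h1, mul_one, sub_self, add_zero]
        have h2 := isUnit_twistedT_of_point hyp hp hpL hP hord x h1
        rw [twistedT, map_mul, map_mul] at h2
        exact isUnit_of_mul_isUnit_right h2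
    have : IsLocalHom y.toRingHom :=
      RingHom.IsIntegral.isLocalHom (fun a =>
        RingHom.IsIntegralElem.of_comp (f := algebraMap O (HeckeO L H ∅ O ⧸ I)) (g := y.toRingHom)
          (by rw [AlgHom.toRingHom_eq_coe, y.comp_algebraMap]
              exact Algebra.IsIntegral.isIntegral (R := O) a)) hy
    have h3 : IsUnit (Ideal.Quotient.mk I (T * z + (1 - z))) :=
      (isUnit_map_iff y.toRingHom _).1 hxu
    obtain ⟨w, hw⟩ := h3.exists_left_inv
    obtain ⟨w, rfl⟩ := Ideal.Quotient.mk_surjective w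
    rw [← map_mul, ← map_one (Ideal.Quotient.mk I), Ideal.Quotient.eq] at hw
    exact hm.ne_top ((Ideal.eq_top_iff_one m).2
      (by simpa using sub_mem (m.mul_mem_left w hum) (hIm hw)))
  obtain ⟨i, hi⟩ := hu.exists_left_inv
  have hT : actO hH O T = heckeTH O O hp hpL := by
    rw [show T = HeckeO.ofT O (heckeTR hp hpL (Set.notMem_empty p)) from rfl, actO_ofT,
      homAction_heckeT]
  intro v hv
  rw [← IharaTW.actO_toFull, ← hz] at hv ⊢
  refine ⟨actO hH O (z * i) v, ?_, ?_⟩
  · rw [← Module.End.mul_apply, ← map_mul, ← mul_assoc, hzz]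
  · rw [← hT, ← Module.End.mul_apply, ← map_mul]
    conv_rhs => rw [← hv]
    congr 2
    linear_combination z * hi + (i - T * i) * hzz

end Fermat.Agent.Root.Patched
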