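import Fermat.Agent.Root.Patched.TowerSteinberg
import Fermat.Agent.Root.Patched.TowerInput
import Fermat.Agent.Root.Patched.TowerMembers
import Fermat.Agent.Root.Patched.TowerOrdinary

/-!
# The conditions at `p` of the stages of the chains of a tower

All stages are ordinary at `p` at a flip, with the residual character of any lift with the flip
condition, and Steinberg at a plain `p` which is not flat.
-/

set_option autoImplicit false

noncomputable section

open IsLocalRing

namespace Fermat.Agent.Root.Patched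

open Fermat.Agent.Deformation Fermat.Agent.GammaH Fermat.Agent.TW Fermat.Agent.IharaTW

local notation "ℚbar" => AlgebraicClosure ℚ

theorem chainLvl_eq_mul_prod (N₀ : ℕ) (q : ℕ → ℕ) :
    ∀ i, chainLvl N₀ q i = N₀ * ∏ j ∈ Finset.range i, q j
  | 0 => by simp [chainLvl]
  | i + 1 => by
    rw [Finset.prod_range_succ, ← mul_assoc, ← chainLvl_eq_mul_prod N₀ q i]
    rfl

variable {O : Type} [CommRing O] [IsDomain O] [IsDiscreteValuationRing O]
  [IsAdicComplete (maximalIdeal O) O] [Finite (ResidueField O)] [CharZero O]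
  {p : ℕ} [Fact p.Prime] {W : WeierstrassCurve ℤ} {D : ResidualData O p W}
  {Sys : LocalSystem O D.ρbar p} {St : StdData Sys D.ζ} {N : ℕ}

omit [CharZero O] in
/-- With `p` in `N` the residual representation is ordinary at `p`. -/
theorem TowerHyp.trace_eq_two_of_p_dvd (hT : TowerHyp D Sys St N) (hpN : p ∣ N)
    {P : ValuationSubring ℚbar} (hP : P.LiesOverPrime p) :
    ∀ σ ∈ P.inertiaSubgroupIn ℚ, (∀ μ : ℚbar, μ ^ p = 1 → σ μ = μ) → (D.ρbar σ).trace = 2 := by
  obtain ⟨M, hMN, hres⟩ := hT.level.residual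
  refine D.trace_eq_two_of_resNewform hT.ss (hT.p_dvd_of_resNewform hpN hMN hres) (fun hd => ?_)
    hres hP
  have h := hd.trans hMN
  rw [sq] at h
  exact (Fact.out : p.Prime).not_isUnit (hT.level.squarefree p h)

variable (hT : TowerHyp D Sys St N) {Q A : Finset ℕ} (hQ : AuxSet Sys Q) (hA : A ⊆ avoidSet Sys)
  (Sx : Finset ℕ) {s : ℕ} (hs : s ≤ Sys.s)

/-- The levels of a chain are square free. -/
theorem squarefree_inputData_lvl {i : ℕ} (hi : i ≤ (inputData hT hQ hA Sx hs).C.s) :
    Squarefree ((inputData hT hQ hA Sx hs).C.lvl i) := by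
  induction i with
  | zero => exact hT.squarefree_inputN₀ hQ
  | succ i ih =>
    set C := (inputData hT hQ hA Sx hs).C
    show Squarefree (C.lvl i * C.q i)
    rw [Nat.squarefree_mul_iff]
    exact ⟨(((C.prime i).coprime_iff_not_dvd).2 (C.not_dvd i hi)).symm, ih (Nat.le_of_succ_le hi),
      (C.prime i).squarefree⟩

/-- `p` occurs at most once in a level times the modulus. -/
theorem inputData_not_sq_dvd {i : ℕ} (hi : i ≤ (inputData hT hQ hA Sx hs).C.s) :
    ¬ p ^ 2 ∣ (inputData hT hQ hA Sx hs).C.lvl i * (inputData hT hQ hA Sx hs).R :=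
  not_sq_dvd_lvl_mul (squarefree_inputData_lvl hT hQ hA Sx hs le_rfl) Fact.out
    (not_p_dvd_inputR hT hQ hA) hi

/-- **The stages at a flip at `p`**, from one lift with the flip condition. -/
theorem inputData_flip_p (f : Fin Sys.s) (hf : Sys.q (.inr (.inl f)) = p) {T₀ : TestRing O}
    {r₀ : Lift D.ρbar T₀} (h₀ : Sys.flipCond f T₀ r₀) (i : ℕ)
    (hi : i ≤ (inputData hT hQ hA Sx hs).C.s) :
    ∃ s', OrdinaryShape (Sys.P (.inr (.inl f))) ((inputData hT hQ hA Sx hs).stage i hi).ring
        ((inputData hT hQ hA Sx hs).stage i hi).lift s' ∧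
      ((inputData hT hQ hA Sx hs).stage i hi).ring.red (s' (St.φf f)) = residue O (St.s₀ f) := by
  obtain ⟨hd₀, s₀, hs₀, -⟩ := (St.flip_eq f hf T₀ r₀).1 h₀
  have hP : (Sys.P (.inr (.inl f))).LiesOverPrime p := by
    have hv := Sys.P_over (.inr (.inl f))
    rwa [hf] at hv
  refine flip_p_of_ref hT.ne_two D.p_mem St f hf (TStage.detCyclotomic _) h₀ ?_
  exact TStage.exists_ordinaryShape _ hP (trace_eq_two_of_ordinaryShape D.p_mem hd₀ hs₀)
    (inputData_not_sq_dvd hT hQ hA Sx hs hi)

/-- **The stages at a plain `p` which is not flat.** -/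
theorem inputData_steinberg
    (hdist : ∀ q ∈ Q, ∀ P : ValuationSubring ℚbar, P.LiesOverPrime q → ∀ σ : GQ,
      P.IsFrobeniusAt σ q → ∃ α β : ResidueField O, α ≠ β ∧ (D.ρbar σ).charpoly =
        (Polynomial.X - Polynomial.C α) * (Polynomial.X - Polynomial.C β))
    (hflat : ¬ St.flat) (u) (hu : Sys.q (.inr (.inr u)) = p) (i : ℕ)
    (hi : i ≤ (inputData hT hQ hA Sx hs).C.s) :
    SteinbergShape (Sys.P (.inr (.inr u))) ((inputData hT hQ hA Sx hs).stage i hi).ring
      ((inputData hT hQ hA Sx hs).stage i hi).lift := by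
  classical
  have hp : p.Prime := Fact.out
  have hpN : p ∣ N := hT.p_dvd_iff.2 ⟨u, hu, hflat⟩
  have hP : (Sys.P (.inr (.inr u))).LiesOverPrime p := by
    have hv := Sys.P_over (.inr (.inr u))
    rwa [hu] at hv
  set K := inputData hT hQ hA Sx hs
  have : NeZero (inputN₀ N Q) := ⟨hT.inputN₀_ne hQ⟩
  have hsq := squarefree_inputData_lvl hT hQ hA Sx hs hi
  have his : i ≤ Sys.s := le_trans hi hs
  let A' : AuxPrimes (K.C.lvl i) p := auxPrimesAt (inputAux hT hQ hA) (K.C.lvl i)
    (fun q hq => ((inputAux hT hQ hA).dvd q hq).trans (K.C.dvd_lvl i))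
    fun q hq hd => by
      rw [sq] at hd
      exact ((inputAux hT hQ hA).prime q hq).not_isUnit (hsq q hd)
  set F := ∏ j ∈ Finset.range i, flipPrime Sys j
  have hFdvd : F ∣ ∏ f, Sys.q (.inr (.inl f)) := by
    rw [show ∏ f, Sys.q (.inr (.inl f)) = ∏ j ∈ Finset.range Sys.s, flipPrime Sys j from
      (Eq.trans (Finset.prod_range (flipPrime Sys))
        (Finset.prod_congr rfl fun f _ => flipPrime_eq Sys f)).symm]
    exact Finset.prod_dvd_prod_of_subset _ _ _ (Finset.range_mono his)
  refine TStage.steinberg_of_new (M := N / p * F) hT.ne_two hT.ss hT.irr D (K.stage i hi) hsq A'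
    ?_ (hT.not_p_mem hQ hA) Q Finset.subset_union_left ?_ (not_p_dvd_inputR hT hQ hA) ?_
    hQ.one_mod hdist ?_ hP (hT.trace_eq_two_of_p_dvd hpN hP)
  · ext a
    exact (auxPrimes_mem_H_iff_of_dvd (inputAux hT hQ hA) A' rfl rfl (K.C.dvd_lvl i) a).trans
      (K.C.mem_grp_iff (a := a)).symm
  · show K.C.lvl i = _
    rw [IharaTW.Chain.lvl, chainLvl_eq_mul_prod]
    show inputN₀ N Q * F = _
    rw [inputN₀]
    calc N * (∏ q ∈ Q, q) * F = (N / p * p) * (∏ q ∈ Q, q) * F := by rw [Nat.div_mul_cancel hpN]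
      _ = _ := by ring
  · intro h3
    obtain ⟨r, hr, hrN, hr3⟩ := hT.level.three h3
    refine ⟨r, hr, dvd_mul_of_dvd_left ?_ _, hr3⟩
    have hne : r ≠ p := fun e => by omega
    exact ((Nat.coprime_primes hr hp).2 hne).dvd_of_dvd_mul_right
      ((Nat.div_mul_cancel hpN).symm ▸ hrN)
  · intro M' hM' h'
    refine hT.level.new_at_p hflat u hu M' (hM'.trans ?_) h'
    rw [show N / p * F * p = N / p * p * F by ring, Nat.div_mul_cancel hpN]
    exact mul_dvd_mul_left N hFdvd

end Fermat.Agent.Root.Patched
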