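import Fermat.Agent.Root.Patched.TowerDelta
import Fermat.Agent.IharaTW.StageBasis

/-!
# Inertia eigenvalues and coefficients of an auxiliary group

The inertia eigenvalues at the auxiliary primes as one character of the auxiliary group, natural
in the lift, and the map of power series to the group ring.
-/

set_option autoImplicit false
set_option maxSynthPendingDepth 3

noncomputable section

namespace Fermat.Agent.Root.Patched

open IsLocalRing Fermat.Agent.Deformation Fermat.Agent.TW Fermat.Agent.IharaTW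

variable {O : Type} [CommRing O] [IsDomain O] [IsDiscreteValuationRing O]
  [IsAdicComplete (maximalIdeal O) O] [Finite (ResidueField O)] [CharZero O]
  {p : ℕ} [Fact p.Prime] {ρbar : GQ →* M2 (ResidueField O)}

omit [Finite (ResidueField O)] [CharZero O] in
/-- The map of power series to the group ring of a `p`-group. -/
theorem exists_groupRingEval {G : Type} [CommGroup G] [Finite G] (hG : IsPGroup p G)
    (hp : (p : O) ∈ maximalIdeal O) {r : ℕ} (g : Fin r → G) :
    ∃ ev : MvPowerSeries (Fin r) O →+* MonoidAlgebra O G,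
      (∀ c, ev (MvPowerSeries.C c) = algebraMap O (MonoidAlgebra O G) c) ∧
        ∀ i, ev (MvPowerSeries.X i) = MonoidAlgebra.single (g i) 1 - 1 := by
  have := TW.GroupRing.isLocalRing_groupRing hG hp
  have : Module.Finite O (MonoidAlgebra O G) :=
    Module.Finite.equiv (MonoidAlgebra.coeffLinearEquiv (R := O) (S := O) (M := G)).symm
  have : IsNoetherianRing (MonoidAlgebra O G) := IsNoetherianRing.of_finite O _
  have : IsLocalHom (algebraMap O (MonoidAlgebra O G)) :=
    ⟨fun a h => by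
      have := h.map (TW.GroupRing.augR O G)
      rwa [AlgHom.commutes] at this⟩
  have : IsAdicComplete (maximalIdeal (MonoidAlgebra O G)) (MonoidAlgebra O G) :=
    IsLocalRing.isAdicComplete_of_module_finite (𝒪 := O) (T := MonoidAlgebra O G)
  have hm : ∀ i, MonoidAlgebra.single (g i) (1 : O) - 1 ∈ maximalIdeal (MonoidAlgebra O G) :=
    fun i => by
      rw [← augOver_maximalIdeal, mem_augOver, map_sub, TW.GroupRing.augR_single, map_one, sub_self]
      exact zero_mem _
  exact ⟨LocalRing.eval (algebraMap O (MonoidAlgebra O G)) _ hm,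
    fun c => LocalRing.eval_C _ _ hm c, fun i => LocalRing.eval_X _ _ hm i⟩

omit [Fact (Nat.Prime p)] in
/-- Homomorphisms out of an auxiliary group agreeing at the generators are equal. -/
theorem auxHom_ext {M : ℕ} [NeZero M] (A₀ : AuxPrimes M p) {N : Type*} [Monoid N]
    {f g : A₀.G →* N} (h : ∀ q, f (A₀.cls (A₀.gen q)) = g (A₀.cls (A₀.gen q))) : f = g := by
  refine MonoidHom.ext fun x => ?_
  have hx : x ∈ Subgroup.closure (Set.range fun q => A₀.cls (A₀.gen q)) := by
    rw [A₀.closure_gen]; trivial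
  refine MonoidHom.eqOn_closureM ?_ (by
    rwa [← Subgroup.closure_toSubmonoid_of_finite] : x ∈ Submonoid.closure _)
  rintro _ ⟨q, rfl⟩
  exact h q

omit [IsAdicComplete (maximalIdeal O) O] [Finite (ResidueField O)] [CharZero O]
    [Fact (Nat.Prime p)] in
/-- The eigenvalue is natural along a glued ring. -/
theorem Glued.pr_eta {ι : Type} {S : ι → TestRing O} {ℓ : ∀ i, Lift ρbar (S i)} (G : Glued ℓ)
    {q : ℕ} (A : AuxPlace ρbar p q) (i : ι) :
    G.pr i (A.eta G.J G.lift) = A.eta (S i) (ℓ i) := by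
  have h : ∀ g, (G.lift.push (S' := S i) (G.pr i) (G.pr_red i)).M g =
      (G.U i : M2 (S i).R) * (ℓ i).M g * (↑(G.U i)⁻¹ : M2 (S i).R) := fun g => by
    rw [Lift.push_M]; exact G.conj i g
  rw [A.eta_natural G.J G.lift (G.pr i) (G.pr_red i) (G.lift.push (G.pr i) (G.pr_red i))
    fun g => Lift.push_M _ _ _ g]
  exact A.eta_conj (S i) (ℓ i) _ (G.U i) h

omit [IsDomain O] [IsDiscreteValuationRing O] [IsAdicComplete (maximalIdeal O) O]
    [Finite (ResidueField O)] [CharZero O] in
/-- The norm absorbs the group. -/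
theorem strElem_nu_one_mul {A G : Type} [CommRing A] [Algebra O A] [CommGroup G] [Fintype G]
    (ψ : G →* A) (g : G) :
    strElem ψ (EtaFree.chiNu (1 : G →* O)) * ψ g = strElem ψ (EtaFree.chiNu (1 : G →* O)) := by
  conv_lhs => rw [show ψ g = strElem ψ (MonoidAlgebra.single g (1 : O)) by
    rw [strElem_single, one_smul]]
  rw [← map_mul, mul_comm, EtaFree.single_mul_chiNu, MonoidHom.one_apply, one_smul]

variable {M : ℕ} [NeZero M] {A₀ : AuxPrimes M p} (pl : ∀ q : A₀.Q, AuxPlace ρbar p q.1)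
  (hm : ∀ q : A₀.Q, p ^ (q.1 - 1).factorization p ∣ A₀.m q.1)

/-- The inertia eigenvalues as a character of the auxiliary group. -/
def etaHom (T : TestRing O) (r : Lift ρbar T) (hdet : DetCyclotomic p T r) : A₀.G →* T.R :=
  A₀.lift (fun q => (pl q).eta T r) fun q => by
    obtain ⟨c, hc⟩ := hm q
    rw [hc, pow_mul, ((pl q).eta_spec T r hdet).2.1, one_pow]

omit [IsAdicComplete (maximalIdeal O) O] [Finite (ResidueField O)] [CharZero O]
    [Fact (Nat.Prime p)] [NeZero M] in
theorem etaHom_gen (T : TestRing O) (r : Lift ρbar T) (hdet : DetCyclotomic p T r) (q : A₀.Q) :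
    etaHom pl hm T r hdet (A₀.cls (A₀.gen q)) = (pl q).eta T r :=
  A₀.lift_gen _ _ q

omit [IsAdicComplete (maximalIdeal O) O] [Finite (ResidueField O)] [CharZero O] [NeZero M] in
theorem etaHom_pow (T : TestRing O) (r : Lift ρbar T) (hdet : DetCyclotomic p T r) (g : A₀.G) :
    ∃ v, etaHom pl hm T r hdet g ^ p ^ v = 1 := by
  obtain ⟨k, hk⟩ := A₀.isPGroup g
  exact ⟨k, by rw [← map_pow, hk, map_one]⟩

omit [IsAdicComplete (maximalIdeal O) O] [Finite (ResidueField O)] [CharZero O]
    [Fact (Nat.Prime p)] in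
theorem etaHom_natural {T T' : TestRing O} (r : Lift ρbar T) (hdet : DetCyclotomic p T r)
    (r' : Lift ρbar T') (hdet' : DetCyclotomic p T' r') (f : T.R →+* T'.R)
    (hf : T'.red.comp f = T.red) (h : ∀ g, r'.M g = (r.M g).map f) :
    f.toMonoidHom.comp (etaHom pl hm T r hdet) = etaHom pl hm T' r' hdet' :=
  auxHom_ext A₀ fun q => by
    rw [MonoidHom.comp_apply, etaHom_gen, etaHom_gen]
    exact (pl q).eta_natural T r f hf r' h

omit [Fact (Nat.Prime p)] in
/-- **On a member the eigenvalues are an eigen map.** -/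
theorem isEigenMap_etaHom {St : TStage O p ρbar} (Dn : IsDown St A₀)
    (hdet : DetCyclotomic p St.ring St.lift) :
    (Dn.deltaData fun q => (pl q).toLocalPlace).IsEigenMap (etaHom pl hm St.ring St.lift hdet) := by
  intro q
  refine Or.inr ?_
  obtain ⟨η', h1, h2⟩ := ((pl q).eta_spec St.ring St.lift hdet).2.2.1
  refine ⟨η', ?_, ?_⟩
  · show etaHom pl hm St.ring St.lift hdet (A₀.cls (A₀.gen q)) + η' = _
    rw [etaHom_gen, Dn.deltaData_tr]
    exact h1
  · show etaHom pl hm St.ring St.lift hdet (A₀.cls (A₀.gen q)) * η' = 1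
    rw [etaHom_gen]
    exact h2

omit [IsDomain O] [IsDiscreteValuationRing O] [IsAdicComplete (maximalIdeal O) O]
    [Finite (ResidueField O)] [CharZero O] [Fact (Nat.Prime p)] [NeZero M] in
/-- The characters of order `p`, one for each auxiliary prime. -/
theorem exists_chi {ζ : O} (hζ : ζ ^ p = 1) (hp : ∀ q ∈ A₀.Q, p ∣ A₀.m q) :
    ∃ χ : A₀.Q → A₀.G →* O, (∀ j, χ j (A₀.cls (A₀.gen j)) = ζ) ∧
      (∀ j j', j ≠ j' → χ j' (A₀.cls (A₀.gen j)) = 1) ∧ ∀ j g, ∃ k : ℕ, χ j g = ζ ^ k := by
  refine ⟨fun j => A₀.chi hp hζ j, fun j => A₀.chi_gen hp hζ j,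
    fun j j' h => A₀.chi_gen_ne hp hζ h, fun j g => ?_⟩
  have hg : g ∈ Subgroup.closure (Set.range fun q => A₀.cls (A₀.gen q)) := by
    rw [A₀.closure_gen]; trivial
  rw [← Subgroup.mem_toSubmonoid, Subgroup.closure_toSubmonoid_of_finite] at hg
  induction hg using Submonoid.closure_induction with
  | mem x hx =>
    obtain ⟨q, rfl⟩ := hx
    rcases eq_or_ne q j with rfl | h
    · exact ⟨1, by rw [A₀.chi_gen hp hζ, pow_one]⟩
    · exact ⟨0, by rw [A₀.chi_gen_ne hp hζ h, pow_zero]⟩
  | one => exact ⟨0, by rw [map_one, pow_zero]⟩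
  | mul x y _ _ hx hy =>
    obtain ⟨a, ha⟩ := hx
    obtain ⟨b, hb⟩ := hy
    exact ⟨a + b, by rw [map_mul, ha, hb, pow_add]⟩

/-- **A basis for the natural structure map** from one for the diamond operators. -/
theorem exists_basis_natural {St : TStage O p ρbar} {G ι : Type} [CommGroup G] [Fintype G]
    [Fintype ι] (W : DeltaData St G ι) (hG : IsPGroup p G) {d : ℕ}
    (b : Module.Basis (Fin d) (MonoidAlgebra O G) (LatMod St.C.actR W.δ)) {ζ : O}
    (hζ : IsPrimitiveRoot ζ p) (χ : ι → G →* O) (hχd : ∀ j, χ j (W.g j) = ζ)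
    (hχ : ∀ j j', j ≠ j' → χ j' (W.g j) = 1) (hχk : ∀ j g, ∃ k : ℕ, χ j g = ζ ^ k)
    (ψ : G →* St.C.Ring') (hψ : W.IsEigenMap ψ) (hord : ∀ g, ∃ v, ψ g ^ p ^ v = 1)
    {A : Type} [CommRing A] [Algebra O A] (Φ : A →ₐ[O] Module.End O (LinearMap.range St.C.E))
    (η : G →* A) (hη : ∀ g, Φ (η g) = St.C.actR (ψ g)) :
    ∃ _b' : Module.Basis (Fin d) (MonoidAlgebra O G) (LatMod Φ η), True := by
  have := TW.GroupRing.isLocalRing_groupRing hG St.hyp.mem
  have hn : strElem W.δ (TW.GroupRing.normElem O G) = W.nu 1 := by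
    rw [DeltaData.nu, TW.GroupRing.normElem, EtaFree.chiNu]
    simp
  have kill : ∀ z : St.C.Ring', z = 0 → ∀ x, (1 : Module.End O (LinearMap.range St.C.E)) x = x →
      St.C.actR z x = 0 := fun z hz x _ => by rw [hz, map_zero, LinearMap.zero_apply]
  refine (exists_basis_eta (O := O) (V := LinearMap.range St.C.E) (A := St.C.Ring')
    St.C.actR W.δ ψ (fun a => Commute.one_left (St.C.actR a)) IsIdempotentElem.one W.g b
    St.hyp.prime St.hyp.mem hζ hG W.gen χ hχd hχ
    (fun j => kill _ (by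
      rw [mul_sub, mul_one, hn]
      refine sub_eq_zero.2 ?_
      rw [← W.strElem_nu_one hψ]
      exact strElem_nu_one_mul ψ _))
    (fun j j' hj => kill _ (W.nu_mul_sub_one hψ (hχ j j' hj)))
    (fun j => kill _ (W.nu_mul_cyclotomic b hζ hψ hord (hχk j)
      (fun h => hζ.ne_one St.hyp.prime.one_lt ((hχd j).symm.trans h))))).elim fun b' _ => ?_
  refine (exists_basis_latMod (O := O) _ Φ η oneRange ?_ b').elim fun b'' _ => ⟨b'', trivial⟩
  intro g w
  refine Eq.trans ?_ (DFunLike.congr_fun (hη g) _).symm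
  rfl

end Fermat.Agent.Root.Patched
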