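import Fermat.Agent.Root.Patched.TowerInput
import Fermat.Agent.IharaTW.BaseDescent

/-!
# The auxiliary chain under a stage of a tower

For a stage at level `(N ∏ Q) ∏ flips` the chain starts at the base stage `N ∏ flips` and adds the
primes of `Q`; it links the stage to the base with the primes of `Q` left out of the Hecke ring.
-/

set_option autoImplicit false
set_option maxSynthPendingDepth 3

noncomputable section

open IsLocalRing

namespace Fermat.Agent.Root.Patched

open Fermat.Agent.Deformation Fermat.Agent.GammaH Fermat.Agent.TW Fermat.Agent.IharaTW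
open scoped MatrixGroups

local notation "ℚbar" => AlgebraicClosure ℚ

/-- A level of a chain is the bottom times the earlier steps. -/
theorem descLvl_eq_mul_prod (N₀ : ℕ) (q : ℕ → ℕ) :
    ∀ i, chainLvl N₀ q i = N₀ * ∏ j ∈ Finset.range i, q j
  | 0 => by
    show N₀ = N₀ * _
    rw [Finset.prod_range_zero, mul_one]
  | i + 1 => by
    show chainLvl N₀ q i * q i = _
    rw [descLvl_eq_mul_prod N₀ q i, Finset.prod_range_succ, mul_assoc]

/-- The primes of a finite set in a list, padded with `2`. -/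
def descQ (Q : Finset ℕ) (j : ℕ) : ℕ :=
  if h : j < Q.card then (Q.equivFin.symm ⟨j, h⟩ : ℕ) else 2

theorem descQ_mem {Q : Finset ℕ} {j : ℕ} (h : j < Q.card) : descQ Q j ∈ Q := by
  rw [descQ, dif_pos h]
  exact (Q.equivFin.symm ⟨j, h⟩).2

theorem descQ_inj {Q : Finset ℕ} {i j : ℕ} (hi : i < Q.card) (hj : j < Q.card)
    (h : descQ Q i = descQ Q j) : i = j := by
  rw [descQ, descQ, dif_pos hi, dif_pos hj] at h
  simpa using Q.equivFin.symm.injective (Subtype.ext h)

theorem descQ_prime {Q : Finset ℕ} (hQ : ∀ q ∈ Q, q.Prime) (j : ℕ) : (descQ Q j).Prime := by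
  by_cases h : j < Q.card
  · exact hQ _ (descQ_mem h)
  · rw [descQ, dif_neg h]
    exact Nat.prime_two

theorem prod_descQ (Q : Finset ℕ) : ∏ j ∈ Finset.range Q.card, descQ Q j = ∏ q ∈ Q, q := by
  rw [← Fin.prod_univ_eq_prod_range (descQ Q), ← Finset.prod_coe_sort Q]
  refine Fintype.prod_equiv Q.equivFin.symm _ _ fun j => ?_
  rw [descQ, dif_pos j.2]

variable {O : Type} [CommRing O] [IsDomain O] [IsDiscreteValuationRing O]
  [IsAdicComplete (maximalIdeal O) O] [Finite (ResidueField O)] [CharZero O]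
  {p : ℕ} [Fact p.Prime] {W : WeierstrassCurve ℤ} {D : ResidualData O p W}
  {Sys : LocalSystem O D.ρbar p} {St : StdData Sys D.ζ} {N : ℕ} (hT : TowerHyp D Sys St N)
  {Q A : Finset ℕ} (hQ : AuxSet Sys Q) (hA : A ⊆ avoidSet Sys) {s : ℕ} (hs : s ≤ Sys.s)
  {i : ℕ} (hi : i ≤ s)

/-- The stage upstairs. -/
abbrev descTop : ChainData O p D.ρbar := inputData hT hQ hA ∅ hs

/-- The base. -/
abbrev descBase : ChainData O p D.ρbar := inputData hT (AuxSet.empty Sys) hA ∅ hs

omit [CharZero O] in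
theorem descLvl_eq :
    chainLvl (chainLvl (inputN₀ N ∅) (flipPrime Sys) i) (descQ Q) Q.card =
      chainLvl (inputN₀ N Q) (flipPrime Sys) i := by
  rw [descLvl_eq_mul_prod, descLvl_eq_mul_prod, descLvl_eq_mul_prod, prod_descQ, inputN₀,
    inputN₀, Finset.prod_empty, mul_one]
  ring

omit [CharZero O] in
theorem desc_dvd (_hT : TowerHyp D Sys St N) (_hQ : AuxSet Sys Q) :
    chainLvl (inputN₀ N ∅) (flipPrime Sys) i ∣ chainLvl (inputN₀ N Q) (flipPrime Sys) i := by
  have h := chainLvl_dvd (chainLvl (inputN₀ N ∅) (flipPrime Sys) i) (descQ Q)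
    (Nat.zero_le Q.card)
  rwa [descLvl_eq] at h

omit [CharZero O] in
include hT hQ hs hi in
theorem descQ_not_dvd {f : ℕ} (hf : f < Q.card) :
    ¬ descQ Q f ∣ chainLvl (chainLvl (inputN₀ N ∅) (flipPrime Sys) i) (descQ Q) f := fun h => by
  rcases dvd_or_eq_of_dvd_chainLvl (descQ_prime hQ.prime) (descQ_prime hQ.prime f) h with
    h | ⟨j, hj, hje⟩
  · rcases dvd_or_eq_of_dvd_chainLvl (flipPrime_prime Sys) (descQ_prime hQ.prime f) h with
      h | ⟨j, hj, hje⟩
    · rw [inputN₀, Finset.prod_empty, mul_one] at h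
      exact hT.not_dvd_aux hQ (descQ_mem hf) h
    · rw [flipPrime, dif_pos (hj.trans_le (hi.trans hs))] at hje
      exact hQ.notPlace _ (descQ_mem hf) _ hje.symm
  · exact (ne_of_lt hj) (descQ_inj (hj.trans hf) hf hje.symm)

/-- The chain. -/
def descChain : Chain where
  N₀ := (descBase hT hA hs).C.lvl i
  ne := ((descBase hT hA hs).C.neZero_lvl i).out
  q := descQ Q
  s := Q.card
  prime := descQ_prime hQ.prime
  not_dvd _ hf := descQ_not_dvd hT hQ hs hi hf
  H₀ := (descBase hT hA hs).C.grp i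
  neg := (descBase hT hA hs).C.neg_mem i
  S := (descTop hT hQ hA hs).C.S
  mem_S _ hl h := (descTop hT hQ hA hs).C.mem_S_of_dvd (i := i) hi _ hl
    (by
      show _ ∣ chainLvl (inputN₀ N Q) (flipPrime Sys) i
      rw [← descLvl_eq]
      exact h)

theorem exists_descTheta :
    ∃ (θ : heckeRing (descChain hT hQ hA hs hi).N₀ (descChain hT hQ hA hs hi).H₀
        (↑(descChain hT hQ hA hs hi).S : Set ℕ) →+* ResidueField O)
      (ρ' : ResidualGaloisRep (ResidueField O)),
      TWHyp (H := (descChain hT hQ hA hs hi).H₀) (S := (descChain hT hQ hA hs hi).S) (O := O)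
        p (descBase hT hA hs).R (descBase hT hA hs).h (descChain hT hQ hA hs hi).neg θ ρ' D.ρbar ∧
        ∀ a, θ (diamondR a) = 1 := by
  have := hT.neZero
  exact exists_twHyp (N := N) hT.ne_two hT.ss hT.irr D hT.level.residual
    (L := (descBase hT hA hs).C.lvl i)
    ((dvd_mul_right N _).trans ((descBase hT hA hs).C.dvd_lvl i)) _
    ((descBase hT hA hs).hyp i hi).R_dvd ((descBase hT hA hs).hyp i hi).ker_le
    ((descBase hT hA hs).hyp i hi).odd (Finset.mem_insert_self _ _)
    (fun _ hl h => (descChain hT hQ hA hs hi).mem_S_of_dvd (Nat.zero_le _) _ hl h)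
    fun _ hl h => bad_mem_inputS hT ∅ hl h

/-- The residual eigensystem at the bottom. -/
def descTheta : heckeRing (descChain hT hQ hA hs hi).N₀ (descChain hT hQ hA hs hi).H₀
    (↑(descChain hT hQ hA hs hi).S : Set ℕ) →+* ResidueField O :=
  (exists_descTheta hT hQ hA hs hi).choose

/-- The chain with its residual parts. -/
def descData : ChainData O p D.ρbar where
  C := descChain hT hQ hA hs hi
  R := (descBase hT hA hs).R
  h := (descBase hT hA hs).h
  θ₀ := descTheta hT hQ hA hs hi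
  ρ' := (exists_descTheta hT hQ hA hs hi).choose_spec.choose
  hyp₀ := (exists_descTheta hT hQ hA hs hi).choose_spec.choose_spec.1
  one₀ := (exists_descTheta hT hQ hA hs hi).choose_spec.choose_spec.2
  F := {
    E := (descChain hT hQ hA hs hi).idemOp O (descTheta hT hQ hA hs hi)
    piece := (descChain hT hQ hA hs hi).isPiece_idemOp O (descTheta hT hQ hA hs hi)
    step := fun _ hj => (descChain hT hQ hA hs hi).intertwined_idem O _ hj }
  ne₀ := actO_twIdem_ne_zero ((descChain hT hQ hA hs hi).neg_mem 0)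
    ((descChain hT hQ hA hs hi).theta (descTheta hT hQ hA hs hi) 0 (Nat.zero_le _))

theorem inputN₀_empty_dvd (Q : Finset ℕ) : inputN₀ N ∅ ∣ inputN₀ N Q := by
  simp [inputN₀]

/-- The preimage of the base group at the bottom of the stages upstairs. -/
def descH₁ : Subgroup (ZMod (inputN₀ N Q))ˣ :=
  (inputH hT (AuxSet.empty Sys) hA).comap (ZMod.unitsMap (inputN₀_empty_dvd Q))

omit [CharZero O] in
theorem inputH_le_descH₁ : inputH hT hQ hA ≤ descH₁ (Q := Q) hT hA := by
  have : NeZero (inputN₀ N Q) := ⟨hT.inputN₀_ne hQ⟩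
  have : NeZero (inputN₀ N ∅) := ⟨hT.inputN₀_ne (AuxSet.empty Sys)⟩
  intro a ha
  rw [descH₁, Subgroup.mem_comap]
  refine (inputAux hT (AuxSet.empty Sys) hA).mem_H_iff.2 fun q hq => ?_
  have hqA : q ∈ A := by
    have : q ∈ (∅ : Finset ℕ) ∪ A := hq
    simpa using this
  have hqQ : q ∉ Q := fun h => hT.not_dvd_aux hQ h (hT.avoid_dvd (hA hqA)).2.1
  have h := (inputAux hT hQ hA).mem_H_iff.1 ha q (Finset.mem_union_right _ hqA)
  rw [unitsMap_unitsMap]
  simp only [inputAux, auxOf] at h ⊢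
  rw [if_neg hqQ] at h
  rwa [if_neg (Finset.notMem_empty q)]

theorem mem_grp₁_descH₁ (a : (ZMod ((descTop hT hQ hA hs).C.lvl i))ˣ) :
    a ∈ (descTop hT hQ hA hs).C.grp₁ (descH₁ hT hA) i ↔
      ZMod.unitsMap (desc_dvd hT hQ) a ∈ (descBase hT hA hs).C.grp i := by
  refine (mem_chainGrp i a).trans (Iff.trans ?_
    (Chain.mem_grp_iff (descBase hT hA hs).C (i := i) (a := ZMod.unitsMap (desc_dvd hT hQ) a)).symm)
  exact Iff.trans (iff_of_eq (congrArg (· ∈ inputH hT (AuxSet.empty Sys) hA)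
      (unitsMap_unitsMap (a := inputN₀ N ∅) (b := inputN₀ N Q) _ _ a)))
    (iff_of_eq (congrArg (· ∈ inputH hT (AuxSet.empty Sys) hA)
      (unitsMap_unitsMap (a := inputN₀ N ∅) (b := chainLvl (inputN₀ N ∅) (flipPrime Sys) i) _
        (desc_dvd hT hQ) a).symm))

theorem exists_descLink :
    ∃ l : ℕ, (descData hT hQ hA hs hi).C.Link (descData hT hQ hA hs hi).θ₀
      ((descTop hT hQ hA hs).C.grp i) ((descTop hT hQ hA hs).C.grp₁ (descH₁ hT hA) i)
      ((descTop hT hQ hA hs).stage i hi).θ l := by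
  obtain ⟨l, hl, hlS, -, hl1, -, htr⟩ := exists_input_auxPrime (Sx := ∅) hT hQ
  refine ⟨l, descLvl_eq, desc_dvd hT hQ, mem_grp₁_descH₁ hT hQ hA hs,
    (descTop hT hQ hA hs).C.grp_le (inputH_le_descH₁ hT hQ hA) i,
    (descTop hT hQ hA hs).C.neg_mem i, fun a => ?_, fun m hm hmL hm0 hmS => ?_, hl,
    fun h => hlS (Finset.mem_coe.1 h), ?_, fun hl0 => ?_, ?_⟩
  · exact (((descTop hT hQ hA hs).stage i hi).diamond_one a).trans
      ((descData hT hQ hA hs hi).one₀ _).symm
  · obtain ⟨P, hP⟩ := Gal.exists_liesOverPrime (L := ℚbar) hm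
    obtain ⟨σ, hσ⟩ := Gal.exists_isFrobeniusAt hm hP
    exact (twHyp_theta_heckeTR ((descTop hT hQ hA hs).stage i hi).hyp
      ((descTop hT hQ hA hs).stage i hi).diamond_one hm hmL hmS hP hσ).trans
      (twHyp_theta_heckeTR (descData hT hQ hA hs hi).hyp₀ (descData hT hQ hA hs hi).one₀ hm hm0
        hmS hP hσ).symm
  · have := congrArg (ZMod.castHom (chainLvl_dvd (inputN₀ N Q) (flipPrime Sys) (hi.trans hs))
      (ZMod (chainLvl (inputN₀ N Q) (flipPrime Sys) i))) hl1
    rwa [map_natCast, map_one] at this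
  · obtain ⟨P, hP⟩ := Gal.exists_liesOverPrime (L := ℚbar) hl
    obtain ⟨σ, hσ⟩ := Gal.exists_isFrobeniusAt hl hP
    rw [twHyp_theta_heckeTR (descData hT hQ hA hs hi).hyp₀ (descData hT hQ hA hs hi).one₀ hl hl0
      _ hP hσ]
    exact htr P hP σ hσ
  · exact (descTop hT hQ hA hs).C.free_stage_of_free (input_free hT hQ hA _) i

theorem desc_isPGroup :
    IsPGroup p (Dl ((descTop hT hQ hA hs).C.grp i)
      ((descTop hT hQ hA hs).C.grp₁ (descH₁ hT hA) i)) :=
  (descTop hT hQ hA hs).C.isPGroup_stage _ (input_isPGroup hT hQ hA _) i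

/-- The order of the group of the descent to the base. -/
theorem card_descDl :
    haveI : NeZero (inputN₀ N Q) := ⟨hT.inputN₀_ne hQ⟩
    Nat.card (Dl ((descTop hT hQ hA hs).C.grp i)
      ((descTop hT hQ hA hs).C.grp₁ (descH₁ hT hA) i)) =
      Nat.card (inputAux hT hQ (Finset.empty_subset (avoidSet Sys))).G := by
  have : NeZero (inputN₀ N Q) := ⟨hT.inputN₀_ne hQ⟩
  have : NeZero (inputN₀ N ∅) := ⟨hT.inputN₀_ne (AuxSet.empty Sys)⟩
  refine (Nat.card_congr ((descTop hT hQ hA hs).C.deltaEquiv (descH₁ hT hA) i).toEquiv).trans ?_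
  obtain ⟨e, he⟩ := exists_inputSplit hT hQ hA
  let g : (descH₁ (Q := Q) hT hA) →* (inputAux hT hQ (Finset.empty_subset (avoidSet Sys))).G :=
    (inputAux hT hQ (Finset.empty_subset (avoidSet Sys))).cls.comp (descH₁ (Q := Q) hT hA).subtype
  have hmem : ∀ a, a ∈ descH₁ (Q := Q) hT hA ↔
      (inputAux hT (AuxSet.empty Sys) hA).cls (ZMod.unitsMap (inputN₀_empty_dvd Q) a) = 1 :=
        fun a => by
    rw [(inputAux hT (AuxSet.empty Sys) hA).cls_eq_one_iff]
    rfl
  have hker : ∀ a : descH₁ (Q := Q) hT hA, g a = 1 ↔ a.1 ∈ inputH hT hQ hA := fun a => by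
    show (inputAux hT hQ (Finset.empty_subset (avoidSet Sys))).cls a.1 = 1 ↔
      a.1 ∈ (inputAux hT hQ hA).H
    rw [← (inputAux hT hQ hA).cls_eq_one_iff, ← e.map_eq_one_iff, he (inputN₀_empty_dvd Q) a.1,
      Prod.mk_eq_one, (hmem a.1).1 a.2]
    exact (and_iff_left rfl).symm
  let f : Dl (inputH hT hQ hA) (descH₁ (Q := Q) hT hA) →*
      (inputAux hT hQ (Finset.empty_subset (avoidSet Sys))).G :=
    QuotientGroup.lift _ g fun a ha => (hker a).2 (Subgroup.mem_subgroupOf.1 ha)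
  refine Nat.card_congr (Equiv.ofBijective f
    ⟨(injective_iff_map_eq_one f).2 fun x hx => ?_, fun y => ?_⟩)
  · induction x using QuotientGroup.induction_on with
    | _ a =>
      rw [QuotientGroup.eq_one_iff, Subgroup.mem_subgroupOf]
      exact (hker a).1 hx
  · obtain ⟨x, hx⟩ := e.surjective (y, 1)
    obtain ⟨a, rfl⟩ := (inputAux hT hQ hA).cls_surjective x
    rw [he (inputN₀_empty_dvd Q) a, Prod.mk.injEq] at hx
    exact ⟨QuotientGroup.mk ⟨a, (hmem a).2 hx.2⟩, hx.1⟩

end Fermat.Agent.Root.Patched
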