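import Fermat.Agent.Root.Patched.TowerBaseChain

/-!
# Descent from a stage to the base, primes of `Q` left out

The map from the ring of a stage at level `(N ∏ Q) ∏ flips` to the ring of the base with the Hecke
operators at `Q` left out, its kernel and the ranks.
-/

set_option autoImplicit false
set_option maxSynthPendingDepth 3

noncomputable section

open IsLocalRing

namespace Fermat.Agent.Root.Patched

open Fermat.Agent.Deformation Fermat.Agent.GammaH Fermat.Agent.TW Fermat.Agent.IharaTW
open scoped MatrixGroups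

local notation "ℚbar" => AlgebraicClosure ℚ

/-- A unit whose square and odd power lie in a subgroup lies in it. -/
theorem mem_of_sq_mem_of_odd_pow_mem {G : Type*} [Group G] {H : Subgroup G} {x : G} {k : ℕ}
    (h2 : x ^ 2 ∈ H) (hk : x ^ (2 * k + 1) ∈ H) : x ∈ H := by
  rw [pow_succ, pow_mul] at hk
  exact (H.mul_mem_cancel_left (H.pow_mem h2 k)).1 hk

section Cuts

variable {O : Type} [CommRing O] [IsDomain O] [IsDiscreteValuationRing O]
  [IsAdicComplete (maximalIdeal O) O] [Finite (ResidueField O)] [CharZero O] {p : ℕ} [Fact p.Prime]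
  {ρbar : GQ →* M2 (ResidueField O)} (K : TStage O p ρbar)

omit [Fact (Nat.Prime p)] [Finite (ResidueField O)] [CharZero O] in
/-- Diamond operators act through the values. -/
theorem TStage.actR_dia (a : (ZMod K.L)ˣ) (v : LinearMap.range K.C.E) :
    (K.C.actR (K.C.dia a) v : H1 K.L K.H O O) = diamondH O O a (v : H1 K.L K.H O O) := by
  show (K.C.actR (Ideal.Quotient.mk K.C.kerIdeal (HeckeO.ofT O (diamondR a))) v :
    H1 K.L K.H O O) = _
  rw [K.C.actR_mk, K.C.coe_act, HeckeO.ofT_apply, actO_tmul, homAction_diamond, one_smul]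

/-- A unit whose square is central in the group gives equal diamonds. -/
theorem diamondR_pow_eq {L : ℕ} [NeZero L] {H : Subgroup (ZMod L)ˣ} {S : Set ℕ} (u : (ZMod L)ˣ)
    {h h' : ℕ} (hle : h' ≤ h) (hh : u ^ (2 * h + 1) ∈ H) (hh' : u ^ (2 * h' + 1) ∈ H) {k : ℕ}
    (hk : u ^ (2 * k + 1) ∈ H) :
    (diamondR u : heckeRing L H S) ^ h = diamondR u ^ h' := by
  obtain ⟨d, rfl⟩ := Nat.exists_eq_add_of_le hle
  have h2 : (u ^ d) ^ 2 ∈ H := by
    rw [show 2 * (h' + d) + 1 = (2 * h' + 1) + d * 2 by ring, pow_add, pow_mul] at hh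
    exact (H.mul_mem_cancel_left hh').1 hh
  have hd : u ^ d ∈ H := mem_of_sq_mem_of_odd_pow_mem (k := k) h2 (by
    rw [← pow_mul, mul_comm, pow_mul]
    exact H.pow_mem hk d)
  let φ : (ZMod L)ˣ →* heckeRing L H S :=
    { toFun := diamondR, map_one' := diamondR_one, map_mul' := diamondR_mul }
  show φ u ^ (h' + d) = φ u ^ h'
  rw [pow_add, ← map_pow φ u d, show φ (u ^ d) = 1 from diamondR_of_mem hd, mul_one]

end Cuts

variable {O : Type} [CommRing O] [IsDomain O] [IsDiscreteValuationRing O]
  [IsAdicComplete (maximalIdeal O) O] [Finite (ResidueField O)] [CharZero O]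
  {p : ℕ} [Fact p.Prime] {W : WeierstrassCurve ℤ} {D : ResidualData O p W}
  {Sys : LocalSystem O D.ρbar p} {St : StdData Sys D.ζ} {N : ℕ} (hT : TowerHyp D Sys St N)
  {Q A : Finset ℕ} (hQ : AuxSet Sys Q) (hA : A ⊆ avoidSet Sys) {s : ℕ} (hs : s ≤ Sys.s)
  {i : ℕ} (hi : i ≤ s)

/-- **Descent to the base without the Hecke operators at `Q`.** -/
theorem exists_descentLink
    (hnew : (descData hT hQ hA hs hi).C.NoNew O (descData hT hQ hA hs hi).θ₀) :
    haveI : NeZero (inputN₀ N Q) := ⟨hT.inputN₀_ne hQ⟩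
    ∃ f : ((descTop hT hQ hA hs).stage i hi).C.Ring' →ₐ[O]
        ((descData hT hQ hA hs hi).stage 0 (Nat.zero_le _)).C.Ring',
      Function.Surjective f ∧
      (∀ a, f (((descTop hT hQ hA hs).stage i hi).C.dia a) =
        ((descData hT hQ hA hs hi).stage 0 (Nat.zero_le _)).C.dia
          (ZMod.unitsMap (desc_dvd hT hQ) a)) ∧
      (∀ (l : ℕ), l.Prime → l ∉ (descTop hT hQ hA hs).C.S → ∀ P : ValuationSubring ℚbar,
        P.LiesOverPrime l → ∀ σ : GQ, P.IsFrobeniusAt σ l →
          f (((descTop hT hQ hA hs).stage i hi).lift.M σ).trace =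
            (((descData hT hQ hA hs hi).stage 0 (Nat.zero_le _)).lift.M σ).trace) ∧
      (∀ c, f c = 0 ↔ ∀ v : LinearMap.range ((descTop hT hQ hA hs).stage i hi).C.E,
        (∀ a, ZMod.unitsMap (desc_dvd hT hQ) a ∈ (descBase hT hA hs).C.grp i →
          ((descTop hT hQ hA hs).stage i hi).C.actR
            (((descTop hT hQ hA hs).stage i hi).C.dia a) v = v) →
        ((descTop hT hQ hA hs).stage i hi).C.actR c v = 0) ∧
      Module.finrank O (LinearMap.range ((descTop hT hQ hA hs).stage i hi).C.E) =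
        Nat.card (inputAux hT hQ (Finset.empty_subset (avoidSet Sys))).G * (2 ^ Q.card *
          Module.finrank O
            (LinearMap.range ((descData hT hQ hA hs hi).stage 0 (Nat.zero_le _)).C.E)) := by
  have : NeZero (chainLvl (inputN₀ N Q) (flipPrime Sys) i) :=
    (descTop hT hQ hA hs).C.neZero_lvl i
  obtain ⟨l, K⟩ := exists_descLink hT hQ hA hs hi
  have ht : (descData hT hQ hA hs hi).C.IsNatural (fun _ _ _ => (1 : Module.End O _)) K.neg K.le :=
    Chain.isNatural_one K.neg K.le
  have hX : (descData hT hQ hA hs hi).C.IsNatural (fun _ _ _ => (0 : Module.End O _)) K.neg K.le :=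
    Chain.isNatural_zero K.neg K.le
  obtain ⟨r, hr, hrd, hrT, hre⟩ := K.exists_baseMap (O := O)
  have hE : ∀ v, (actO K.neg O (twIdem K.neg O ((descTop hT hQ hA hs).stage i hi).θ) *
      unitH1 K.neg (1 : Module.End O _)) v = ((descTop hT hQ hA hs).stage i hi).C.E v := fun v => by
    rw [unitH1_one, mul_one]
    rfl
  have hE0 : ∀ w, (actO (descData hT hQ hA hs hi).C.neg O
      (twIdem (descData hT hQ hA hs hi).C.neg O (descData hT hQ hA hs hi).θ₀) *
      unitH1 (descData hT hQ hA hs hi).C.neg (1 : Module.End O _)) w =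
        ((descData hT hQ hA hs hi).stage 0 (Nat.zero_le _)).C.E w := fun w => by
    rw [unitH1_one, mul_one]
    rfl
  have hidem : IsIdempotentElem ((descTop hT hQ hA hs).stage i hi).C.E :=
    ((descTop hT hQ hA hs).F.piece i hi).idem
  have hidem0 : IsIdempotentElem ((descData hT hQ hA hs hi).stage 0 (Nat.zero_le _)).C.E :=
    ((descData hT hQ hA hs hi).F.piece 0 (Nat.zero_le _)).idem
  have key : ∀ x,
      Ideal.Quotient.mk ((descData hT hQ hA hs hi).stage 0 (Nat.zero_le _)).C.kerIdeal (r x) = 0 ↔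
      ∀ v : LinearMap.range ((descTop hT hQ hA hs).stage i hi).C.E,
        (∀ a, ZMod.unitsMap (desc_dvd hT hQ) a ∈ (descBase hT hA hs).C.grp i →
          ((descTop hT hQ hA hs).stage i hi).C.actR
            (((descTop hT hQ hA hs).stage i hi).C.dia a) v = v) →
        ((descTop hT hQ hA hs).stage i hi).C.actR
          (Ideal.Quotient.mk ((descTop hT hQ hA hs).stage i hi).C.kerIdeal x) v = 0 := by
    intro x
    have hfw := K.forall_ker_iff_base r hnew ht hX (Commute.one_left _) hrd hrT x
    rw [Ideal.Quotient.eq_zero_iff_mem]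
    show ((descData hT hQ hA hs hi).stage 0 (Nat.zero_le _)).C.act (r x) = 0 ↔ _
    constructor
    · intro h v hv
      refine Subtype.ext ?_
      rw [Cut.actR_mk, Cut.coe_act, ZeroMemClass.coe_zero]
      obtain ⟨w, hw⟩ := v.2
      refine hfw.2 (fun w' hw' _ => ?_) v.1 ?_ rfl fun b => ?_
      · rw [hE0] at hw'
        have := congrArg Subtype.val (LinearMap.congr_fun h ⟨w', w', hw'⟩)
        rw [Cut.coe_act] at this
        exact this
      · refine (hE v.1).trans ?_
        rw [← hw]
        exact LinearMap.congr_fun hidem.eq w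
      · induction b using QuotientGroup.induction_on with
        | _ a =>
          exact (LinearMap.congr_fun (actH1_mk a) v.1).trans
            ((TStage.actR_dia ((descTop hT hQ hA hs).stage i hi) a.1 v).symm.trans
              (congrArg Subtype.val (hv a.1 ((K.mem a.1).1 a.2))))
    · intro h
      refine LinearMap.ext fun w => Subtype.ext ?_
      rw [Cut.coe_act, LinearMap.zero_apply, ZeroMemClass.coe_zero]
      obtain ⟨u, hu⟩ := w.2
      refine hfw.1 (fun v hv _ hinv => ?_) w.1 ?_ rfl
      · replace hv := (hE v).symm.trans hv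
        have := congrArg Subtype.val (h ⟨v, v, hv⟩ fun a ha => Subtype.ext
          ((TStage.actR_dia ((descTop hT hQ hA hs).stage i hi) a ⟨v, v, hv⟩).trans
            ((LinearMap.congr_fun (actH1_mk ⟨a, (K.mem a).2 ha⟩) v).symm.trans
              (hinv (QuotientGroup.mk ⟨a, (K.mem a).2 ha⟩)))))
        rw [Cut.actR_mk, Cut.coe_act] at this
        exact this
      · refine (hE0 w.1).trans ?_
        rw [← hu]
        exact LinearMap.congr_fun hidem0.eq u
  let f : ((descTop hT hQ hA hs).stage i hi).C.Ring' →ₐ[O]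
      ((descData hT hQ hA hs hi).stage 0 (Nat.zero_le _)).C.Ring' :=
    Ideal.Quotient.liftₐ ((descTop hT hQ hA hs).stage i hi).C.kerIdeal
      ((Ideal.Quotient.mkₐ O ((descData hT hQ hA hs hi).stage 0 (Nat.zero_le _)).C.kerIdeal).comp r)
      fun x hx =>
        (key x).2 fun v _ => by
          rw [Ideal.Quotient.eq_zero_iff_mem.2 hx, map_zero, LinearMap.zero_apply]
  have hf : ∀ x, f (Ideal.Quotient.mk ((descTop hT hQ hA hs).stage i hi).C.kerIdeal x) =
      Ideal.Quotient.mk ((descData hT hQ hA hs hi).stage 0 (Nat.zero_le _)).C.kerIdeal (r x) :=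
    fun x => rfl
  refine ⟨f, fun y => ?_, fun a => ?_, fun m hm hmS P hP σ hσ => ?_, fun c => ?_, ?_⟩
  · obtain ⟨z, rfl⟩ := Ideal.Quotient.mk_surjective y
    obtain ⟨x, rfl⟩ := hr z
    exact ⟨_, hf x⟩
  · exact (hf _).trans (congrArg
      (Ideal.Quotient.mk ((descData hT hQ hA hs hi).stage 0 (Nat.zero_le _)).C.kerIdeal) (hrd a))
  · have hmS' : m ∉ (↑(descTop hT hQ hA hs).C.S : Set ℕ) := fun h => hmS (Finset.mem_coe.1 h)
    rw [(descTop hT hQ hA hs).stage_frob i hi m hm hmS' P hP σ hσ,
      (descData hT hQ hA hs hi).stage_frob 0 (Nat.zero_le _) m hm hmS' P hP σ hσ]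
    refine (hf _).trans (congrArg _ ?_)
    have hmL : ¬ m ∣ (descTop hT hQ hA hs).C.lvl i := (descTop hT hQ hA hs).C.not_dvd_lvl hi hm hmS'
    have hm0 : ¬ m ∣ (descData hT hQ hA hs hi).C.N₀ := fun h => hmL (h.trans K.dvd)
    rw [twistedT, map_mul, map_pow]
    refine ((map_mul r _ _).trans (congrArg₂ (· * ·)
      ((map_pow r _ _).trans (congrArg (· ^ (descTop hT hQ hA hs).h) (hrd _)))
      (hrT m hm hmL hm0 hmS'))).trans ?_
    have hu : ZMod.unitsMap K.dvd (primeUnit hm hmL) = primeUnit hm hm0 := Units.ext (by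
      rw [ZMod.unitsMap_val, coe_primeUnit, coe_primeUnit, ZMod.cast_natCast K.dvd])
    rw [hu, ← map_pow, ← map_mul]
    show _ = HeckeO.ofT O (twistedT (descBase hT hA hs).h hm hm0 hmS')
    rw [twistedT]
    refine congrArg (HeckeO.ofT O) (congrArg (· * _) ?_)
    have hpos : p / 2 ≤ inputh p Q :=
      Nat.div_le_div_right (le_self_pow (Fact.out : p.Prime).one_le (by omega))
    refine diamondR_pow_eq (primeUnit hm hm0) (k := p / 2)
      (le_of_eq_of_le (inputh_empty p) hpos) ?_ ?_ ?_
    · obtain ⟨a, ha⟩ := ZMod.unitsMap_surjective K.dvd (primeUnit hm hm0)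
      have h := (K.mem _).1 (K.le (((descTop hT hQ hA hs).hyp i hi).odd a))
      rw [map_pow, ha] at h
      exact h
    · exact (descData hT hQ hA hs hi).hyp₀.odd _
    · have h := (descData hT hQ hA hs hi).hyp₀.odd (primeUnit hm hm0)
      rw [show (descData hT hQ hA hs hi).h = p / 2 from inputh_empty p] at h
      exact h
  · obtain ⟨x, rfl⟩ := Ideal.Quotient.mk_surjective c
    rw [hf]
    exact key x
  · have hd := K.finrank_eq hnew ht (desc_isPGroup hT hQ hA hs (i := i)) D.p_mem
    rw [card_descDl hT hQ hA hs] at hd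
    refine Eq.trans ?_ (hd.trans ?_)
    · exact congrArg (fun E => Module.finrank O (LinearMap.range E)) (LinearMap.ext hE).symm
    · exact congrArg (fun E => Nat.card (inputAux hT hQ (Finset.empty_subset (avoidSet Sys))).G *
        (2 ^ Q.card * Module.finrank O (LinearMap.range E))) (LinearMap.ext hE0)

end Fermat.Agent.Root.Patched
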