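import Fermat.Agent.Root.Patched.NewPoint
import Fermat.Agent.Root.Patched.TowerBaseChain

/-!
# No new part at auxiliary primes

A point of the residual part with `U_q² = ⟨q⟩` has `tr(Frob_q)² = (q + 1)²`; for `q ≡ 1 mod p` this
makes the residual eigenvalues at `q` equal.
-/

set_option autoImplicit false
set_option maxSynthPendingDepth 3

noncomputable section

open IsLocalRing Polynomial

namespace Fermat.Agent.Root.Patched

open Fermat.Agent.Deformation Fermat.Agent.GammaH Fermat.Agent.TW Fermat.Agent.IharaTW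

local notation "ℚbar" => AlgebraicClosure ℚ

/-- A matrix with trace `± 2`, determinant `1` has no distinct eigenvalues. -/
theorem eq_of_sq_trace_of_det {k : Type} [Field k] {M : M2 k} {α β : k}
    (h : M.charpoly = (X - C α) * (X - C β)) (hd : M.det = 1) (ht : M.trace ^ 2 = 4) : α = β := by
  have e : (X - C α) * (X - C β) = X ^ 2 - C (α + β) * X + C (α * β) := by
    rw [map_add, map_mul]; ring
  obtain ⟨h1, h2⟩ := trace_det_of_charpoly_eq (h.trans e)
  rw [h2] at hd
  rw [h1] at ht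
  exact sub_eq_zero.1 (pow_eq_zero_iff (n := 2) two_ne_zero |>.1 (by
    linear_combination ht - 4 * hd))

section Point

variable {L R h p : ℕ} [NeZero L] [NeZero R] {H : Subgroup (ZMod L)ˣ} {S : Finset ℕ}
  {O : Type} [CommRing O] [IsDomain O] [IsDiscreteValuationRing O]
  [IsAdicComplete (maximalIdeal O) O] [Finite (ResidueField O)] [CharZero O]
  [Fact (CuspForm.HasIntegralStructure (L * R) 2)] {hH : (-1 : (ZMod L)ˣ) ∈ H}
  {θ : heckeRing L H (↑S : Set ℕ) →+* ResidueField O}
  {ρbar' : ResidualGaloisRep (ResidueField O)} {ρ₀ : GQ →* M2 (ResidueField O)}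

omit [Finite (ResidueField O)] in
/-- **No residual point with `U_q² = ⟨q⟩`** at an auxiliary prime with distinct eigenvalues. -/
theorem point_toFull_twIdem_ne_one (hyp : TWHyp (H := H) p R h hH θ ρbar' ρ₀)
    (D : TWRep (H := H) (S := S) (O := O) p R h (rfl : R = R) hH θ ρ₀)
    {q : ℕ} (hq : q.Prime) (hqp : q ≠ p) (hqL : q ∣ L) (hqLR : ¬ q ^ 2 ∣ L * R)
    {a : (ZMod L)ˣ} (ha : (ZMod.unitsMap hyp.R_dvd a : ZMod R) = q)
    {P : ValuationSubring ℚbar} (hP : P.LiesOverPrime q) {σ : GQ} (hσ : P.IsFrobeniusAt σ q)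
    (hq1 : (q : ResidueField O) = 1) (hdet : (ρ₀ σ).det = 1)
    {α β : ResidueField O} (hne : α ≠ β) (hchar : (ρ₀ σ).charpoly = (X - C α) * (X - C β))
    {O' : Type} [CommRing O'] [IsDomain O'] [IsDiscreteValuationRing O']
    [IsAdicComplete (maximalIdeal O') O'] [Finite (ResidueField O')] [CharZero O']
    [Algebra O O'] [Module.Finite O O'] [IsLocalHom (algebraMap O O')]
    (x : HeckeO L H ∅ O →ₐ[O] O')
    (hU : x (HeckeO.ofT O (heckeUR hq hqL (Set.notMem_empty q))) ^ 2
      = x (HeckeO.ofT O (diamondR a))) :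
    x (toFull O (twIdem hH O θ)) ≠ 1 := by
  intro hx
  have hker : ∀ b ∈ twKer hH O θ, (x.comp (toFull O)) b = 0 := fun b hb => by
    obtain ⟨c, rfl⟩ := Ideal.mem_span_singleton'.1 hb
    rw [map_mul, AlgHom.comp_apply x, AlgHom.comp_apply, map_sub, map_sub, map_one, map_one, hx,
      sub_self, mul_zero]
  let x₁ : TWRing hH O θ →ₐ[O] O' := Ideal.Quotient.liftₐ _ (x.comp (toFull O)) hker
  have hloc : IsLocalHom x₁.toRingHom :=
    ⟨fun b hb => (GalRep.Glue.isLocalHom_algHom (𝒪 := O) x₁).map_nonunit b hb⟩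
  have key := sq_trace_eq_of_U_sq hyp D hq hqp hqL hqLR ha x hU x₁ hloc (fun z => rfl) hP hσ
  have := hloc
  have := D.ψ_local
  let y : CuspForm.heckeLocal (L * R) (↑S : Set ℕ) O D.θ' →+* O' :=
    x₁.toRingHom.comp D.ψ.toRingHom
  have : IsLocalHom y := inferInstanceAs (IsLocalHom (x₁.toRingHom.comp D.ψ.toRingHom))
  let φ : ResidueField O →+* ResidueField O' :=
    (ResidueField.map y).comp
      (ResidueField.map (algebraMap O (CuspForm.heckeLocal (L * R) (↑S : Set ℕ) O D.θ')))
  have htr : residue O' (y (D.M₀ σ).trace) = φ (ρ₀ σ).trace := by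
    have hred := DFunLike.congr_fun D.reduces σ
    rw [mapRep_apply, mapRep_apply] at hred
    rw [← ResidueField.map_residue]
    refine congrArg (ResidueField.map y) ?_
    exact (AddMonoidHom.map_trace (residue _).toAddMonoidHom _).trans
      ((congrArg Matrix.trace hred).trans
        (AddMonoidHom.map_trace (ResidueField.map _).toAddMonoidHom _).symm)
  have h4 : φ ((ρ₀ σ).trace ^ 2) = φ 4 := by
    rw [map_pow, ← htr, ← map_pow, show y (D.M₀ σ).trace = x₁ (D.ψ (D.M₀ σ).trace) from rfl, key,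
      map_pow, map_add, map_natCast, map_one, ← map_natCast φ, hq1, map_one, ← map_one φ, ← map_add,
      ← map_pow]
    norm_num
  exact hne (eq_of_sq_trace_of_det hchar hdet (φ.injective h4))

end Point

variable {O : Type} [CommRing O] [IsDomain O] [IsDiscreteValuationRing O]
  [IsAdicComplete (maximalIdeal O) O] [Finite (ResidueField O)] [CharZero O]
  {p : ℕ} [Fact p.Prime] {W : WeierstrassCurve ℤ} {D : ResidualData O p W}

omit [CharZero O] in
/-- The determinant of Frobenius at a prime congruent to `1` modulo `p` is `1`. -/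
theorem det_rhobar_eq_one {q : ℕ} (hq : q.Prime) (hqp : q ≠ p) (hq1 : (q : ResidueField O) = 1)
    {P : ValuationSubring ℚbar} (hP : P.LiesOverPrime q) {σ : GQ} (hσ : P.IsFrobeniusAt σ q) :
    (D.ρbar σ).det = 1 := by
  have hpT : (p : (TestRing.self O).R) ∈ maximalIdeal (TestRing.self O).R := D.p_mem
  rw [← D.point.reduces σ, ← RingHom.mapMatrix_apply, ← RingHom.map_det,
    det_frobenius_eq hpT D.point_det hq hqp hP hσ, map_natCast, hq1]

variable {Sys : LocalSystem O D.ρbar p} {St : StdData Sys D.ζ} {N : ℕ} (hT : TowerHyp D Sys St N)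
  {Q A : Finset ℕ} (hQ : AuxSet Sys Q) (hA : A ⊆ avoidSet Sys) {s : ℕ} (hs : s ≤ Sys.s)
  {i : ℕ} (hi : i ≤ s)

/-- **The auxiliary chain has no new parts.** -/
theorem descData_noNew (hdist : ∀ q ∈ Q, ∀ P : ValuationSubring ℚbar, P.LiesOverPrime q →
    ∀ σ : GQ, P.IsFrobeniusAt σ q →
      ∃ α β : ResidueField O, α ≠ β ∧ (D.ρbar σ).charpoly = (X - C α) * (X - C β)) :
    (descData hT hQ hA hs hi).C.NoNew O (descData hT hQ hA hs hi).θ₀ := by
  intro j hj z hz hgz
  have hjQ : j < Q.card := hj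
  have hq : (descQ Q j).Prime := descQ_prime hQ.prime j
  have hqp : descQ Q j ≠ p := TowerHyp.ne_p_of_auxSet St hQ (descQ_mem hjQ)
  have hq1 : (descQ Q j : ResidueField O) = 1 := by
    have hp0 : (p : ResidueField O) = 0 := by
      rw [← map_natCast (residue O), residue_eq_zero_iff]
      exact D.p_mem
    obtain ⟨c, hc⟩ := hQ.one_mod _ (descQ_mem hjQ)
    rw [show descQ Q j = p * c + 1 by have := hq.one_le; omega, Nat.cast_add, Nat.cast_mul, hp0,
      zero_mul, zero_add, Nat.cast_one]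
  obtain ⟨P, hP⟩ := Gal.exists_liesOverPrime (L := ℚbar) hq
  obtain ⟨σ, hσ⟩ := Gal.exists_isFrobeniusAt hq hP
  obtain ⟨α, β, hne, hchar⟩ := hdist _ (descQ_mem hjQ) P hP σ hσ
  have hqN : ¬ (descData hT hQ hA hs hi).C.q j ∣ (descData hT hQ hA hs hi).C.lvl j :=
    (descData hT hQ hA hs hi).C.not_dvd j hj
  have hRN : (descData hT hQ hA hs hi).R ∣ (descData hT hQ hA hs hi).C.lvl j :=
    (descData hT hQ hA hs hi).R_dvd j
  have : Fact (CuspForm.HasIntegralStructure
      ((descData hT hQ hA hs hi).C.lvl (j + 1) * (descData hT hQ hA hs hi).R) 2) :=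
    ⟨MFCore.hasIntegralStructure _ 2⟩
  refine (descData hT hQ hA hs hi).F.eq_zero_of_no_points hj
    (fun a ha O' _ _ _ _ _ _ _ _ _ x hU => ?_) z hz hgz
  refine point_toFull_twIdem_ne_one ((descData hT hQ hA hs hi).hyp (j + 1) hj)
    (nonempty_twRep ((descData hT hQ hA hs hi).hyp (j + 1) hj)).some hq hqp
    (dvd_mul_left _ _) (fun hd => ?_) (a := a) ?_ hP hσ hq1
    (det_rhobar_eq_one hq hqp hq1 hP hσ) hne hchar x hU
  · have hqR : ¬ descQ Q j ∣ (descData hT hQ hA hs hi).R := fun h => hqN (h.trans hRN)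
    rw [sq, show (descData hT hQ hA hs hi).C.lvl (j + 1) =
      (descData hT hQ hA hs hi).C.lvl j * descQ Q j from rfl,
      mul_comm ((descData hT hQ hA hs hi).C.lvl j), mul_assoc] at hd
    exact (hq.dvd_mul.1 (Nat.dvd_of_mul_dvd_mul_left hq.pos hd)).elim hqN hqR
  · refine ((congrArg Units.val
      (DFunLike.congr_fun (ZMod.unitsMap_comp hRN (dvd_mul_right _ _)) a)).symm).trans ?_
    rw [MonoidHom.comp_apply, ha, ZMod.unitsMap_val]
    exact ZMod.cast_natCast hRN _

end Fermat.Agent.Root.Patched
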