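import Fermat.Agent.Root.Patched.TowerSetup
import Fermat.Agent.Root.Patched.FramedTangent
import Fermat.Agent.TW.ChangeS

/-!
# Members of a tower when the excluded set shrinks

A cut for the excluded set `S` and a cut for a smaller set `S₀` with the same operator have the
same ring and the same traces; so the trace at a prime of `S \ S₀` is the Hecke eigenvalue.
-/

set_option autoImplicit false

noncomputable section

namespace Fermat.Agent.Root.Patched

open IsLocalRing Fermat.Agent.Deformation Fermat.Agent.GammaH Fermat.Agent.TW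

local notation "ℚbar" => AlgebraicClosure ℚ

variable {p L R h R₀ h₀ : ℕ} [NeZero L] [NeZero R] [NeZero R₀] {H : Subgroup (ZMod L)ˣ}
  {S₀ S : Finset ℕ}
  {O : Type} [CommRing O] [IsDomain O] [IsDiscreteValuationRing O]
  [IsAdicComplete (maximalIdeal O) O] [Finite (ResidueField O)] [CharZero O]
  {hH : (-1 : (ZMod L)ˣ) ∈ H} {θ : heckeRing L H (↑S : Set ℕ) →+* ResidueField O}
  {θ₀ : heckeRing L H (↑S₀ : Set ℕ) →+* ResidueField O}
  {ρbar : ResidualGaloisRep (ResidueField O)} {ρ₀ : GQ →* M2 (ResidueField O)}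

variable (C : Cut hH θ) (C₀ : Cut hH θ₀) (hsub : (↑S₀ : Set ℕ) ⊆ ↑S) (hE : C₀.E = C.E)

omit [Finite (ResidueField O)] [CharZero O] in
include hE in
theorem Cut.inclO_mem_kerIdeal_iff (z : HeckeO L H (↑S : Set ℕ) O) :
    inclO O hsub z ∈ C₀.kerIdeal ↔ z ∈ C.kerIdeal := by
  show C₀.act (inclO O hsub z) = 0 ↔ C.act z = 0
  rw [C₀.act_eq_zero_iff, C.act_eq_zero_iff, hE, actO_inclO]

/-- The map of rings of two cuts with one operator. -/
def Cut.toChangeS : C.Ring' →ₐ[O] C₀.Ring' :=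
  Ideal.Quotient.liftₐ _ ((Ideal.Quotient.mkₐ O C₀.kerIdeal).comp (inclO O hsub)) fun z hz =>
    Ideal.Quotient.eq_zero_iff_mem.2 ((C.inclO_mem_kerIdeal_iff C₀ hsub hE z).2 hz)

omit [Finite (ResidueField O)] [CharZero O] in
theorem Cut.toChangeS_mk (z : HeckeO L H (↑S : Set ℕ) O) :
    C.toChangeS C₀ hsub hE (Ideal.Quotient.mk C.kerIdeal z) =
      Ideal.Quotient.mk C₀.kerIdeal (inclO O hsub z) := rfl

omit [Finite (ResidueField O)] [CharZero O] in
theorem Cut.toChangeS_injective : Function.Injective (C.toChangeS C₀ hsub hE) := by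
  rw [injective_iff_map_eq_zero]
  intro x hx
  obtain ⟨z, rfl⟩ := Ideal.Quotient.mk_surjective x
  rw [C.toChangeS_mk, Ideal.Quotient.eq_zero_iff_mem, C.inclO_mem_kerIdeal_iff C₀ hsub hE] at hx
  exact Ideal.Quotient.eq_zero_iff_mem.2 hx

omit [Finite (ResidueField O)] [CharZero O] in
/-- The operators are the same. -/
theorem Cut.coe_actR_toChangeS (x : C.Ring') (v : LinearMap.range C.E)
    (v₀ : LinearMap.range C₀.E) (hv : (v₀ : H1 L H O O) = v) :
    (C₀.actR (C.toChangeS C₀ hsub hE x) v₀ : H1 L H O O) = C.actR x v := by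
  obtain ⟨z, rfl⟩ := Ideal.Quotient.mk_surjective x
  rw [C.toChangeS_mk, C₀.actR_mk, C.actR_mk, C₀.coe_act, C.coe_act, actO_inclO, hv]

omit [Finite (ResidueField O)] [CharZero O] in
theorem Cut.red_toChangeS (hθ : θ = θ₀.comp (heckeIncl hsub)) (x : C.Ring') :
    C₀.red (C.toChangeS C₀ hsub hE x) = C.red x := by
  obtain ⟨z, rfl⟩ := Ideal.Quotient.mk_surjective x
  rw [C.toChangeS_mk, C₀.red_mk, C.red_mk, residO_inclO, ← hθ]

variable [Fact (CuspForm.HasIntegralStructure (L * R) 2)]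
  [Fact (CuspForm.HasIntegralStructure (L * R₀) 2)]
  (D : TWRep (H := H) (S := S) (O := O) p R h (rfl : R = R) hH θ ρ₀)
  (D₀ : TWRep (H := H) (S := S₀) (O := O) p R₀ h₀ (rfl : R₀ = R₀) hH θ₀ ρ₀)

/-- **The two lifts have the same traces.** -/
theorem Cut.trace_toChangeS [Fact p.Prime] (hp : (p : O) ∈ maximalIdeal O) (hh : h₀ = h)
    (hLS : ∀ q : ℕ, q.Prime → q ∣ L → q ∈ S) (hθ : θ = θ₀.comp (heckeIncl hsub)) (σ : GQ) :
    C.toChangeS C₀ hsub hE ((C.lift D).M σ).trace = ((C₀.lift D₀).M σ).trace := by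
  subst hh
  let π : C.testRing.R →+* C₀.testRing.R := (C.toChangeS C₀ hsub hE).toRingHom
  have hred : C₀.testRing.red.comp π = C.testRing.red :=
    RingHom.ext fun x => C.red_toChangeS C₀ hsub hE hθ x
  have hd : DetCyclotomic p C₀.testRing ((C.lift D).push π hred) := fun n τ a ha => by
    have h1 := Ideal.mem_map_of_mem π (C.lift_detCyclotomic D n τ a ha)
    rw [Ideal.map_span, Set.image_singleton, map_natCast, map_sub, map_natCast,
      RingHom.map_det] at h1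
    exact h1
  have hmap : ∀ M : M2 C.testRing.R, π M.trace = (M.map π).trace := fun M =>
    AddMonoidHom.map_trace π.toAddMonoidHom M
  refine (hmap _).trans ?_
  refine Lift.trace_ext hp ((C.lift D).push π hred) (C₀.lift D₀) hd (C₀.lift_detCyclotomic D₀) S
    (fun l hl hlS A hA τ hτ => ?_) σ
  have hlS' : l ∉ (↑S : Set ℕ) := fun h' => hlS (Finset.mem_coe.1 h')
  have hlL : ¬ l ∣ L := fun h' => hlS (hLS l hl h')
  rw [Lift.push_M, ← hmap, (C.lift_frob D l hl hlL hlS' A hA τ hτ).1,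
    (C₀.lift_frob D₀ l hl hlL (fun h' => hlS' (hsub h')) A hA τ hτ).1]
  show C.toChangeS C₀ hsub hE _ = _
  rw [C.toChangeS_mk, inclO_ofT, heckeIncl_twistedT]

/-- **The trace at a prime outside the smaller set.** -/
theorem Cut.trace_frob_changeS [Fact p.Prime] (hp : (p : O) ∈ maximalIdeal O) (hh : h₀ = h)
    (hLS : ∀ q : ℕ, q.Prime → q ∣ L → q ∈ S) (hθ : θ = θ₀.comp (heckeIncl hsub))
    (D' : TWRep (H := H) (S := S₀) (O := O) p R₀ h₀ (rfl : R₀ = R₀) hH θ₀ ρ₀)
    {q : ℕ} (hq : q.Prime) (hqL : ¬ q ∣ L) (hqS : q ∉ (↑S₀ : Set ℕ))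
    (A : ValuationSubring ℚbar) (hA : A.LiesOverPrime q) (σ : GQ) (hσ : A.IsFrobeniusAt σ q) :
    C.toChangeS C₀ hsub hE ((C.lift D).M σ).trace =
      Ideal.Quotient.mk C₀.kerIdeal (HeckeO.ofT O (twistedT h hq hqL hqS)) := by
  rw [C.trace_toChangeS C₀ hsub hE D D' hp hh hLS hθ σ, (C₀.lift_frob D' q hq hqL hqS A hA σ hσ).1,
    hh]

include D in
/-- The ring does not grow: the new operators are traces of Frobenius. -/
theorem Cut.toChangeS_surjective [Fact p.Prime] (hp : (p : O) ∈ maximalIdeal O) (hh : h₀ = h)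
    (hLS : ∀ q : ℕ, q.Prime → q ∣ L → q ∈ S) (hθ : θ = θ₀.comp (heckeIncl hsub))
    (hLS₀ : ∀ q : ℕ, q.Prime → q ∣ L → q ∈ S₀)
    (D' : TWRep (H := H) (S := S₀) (O := O) p R₀ h₀ (rfl : R₀ = R₀) hH θ₀ ρ₀) :
    Function.Surjective (C.toChangeS C₀ hsub hE) := by
  set π := C.toChangeS C₀ hsub hE
  let g : heckeRing L H (↑S₀ : Set ℕ) →+* C₀.Ring' :=
    (Ideal.Quotient.mk C₀.kerIdeal).comp (HeckeO.ofT O)
  have hdia : ∀ a : (ZMod L)ˣ, g (diamondR a) ∈ π.range := fun a =>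
    ⟨Ideal.Quotient.mk C.kerIdeal (HeckeO.ofT O (diamondR a)), by
      show C.toChangeS C₀ hsub hE _ = _
      rw [C.toChangeS_mk, inclO_ofT, heckeIncl_diamondR]
      rfl⟩
  have hgen : ∀ t, g t ∈ π.range := by
    rintro ⟨y, hy⟩
    induction hy using Algebra.adjoin_induction with
    | mem y hy =>
      rcases hy with (⟨a, rfl⟩ | ⟨l, hl, hlL, hlS, rfl⟩) | ⟨q, hqL, hq, hqS, rfl⟩
      · exact hdia a
      · obtain ⟨A, hA⟩ := Gal.exists_liesOverPrime (L := ℚbar) hl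
        obtain ⟨σ, hσ⟩ := Gal.exists_isFrobeniusAt hl hA
        show g (heckeTR hl hlL hlS) ∈ π.range
        rw [heckeTR_eq_twistedT h hl hlL hlS, map_mul, map_pow]
        exact mul_mem (pow_mem (hdia _) _) ⟨((C.lift D).M σ).trace,
          C.trace_frob_changeS C₀ hsub hE D hp hh hLS hθ D' hl hlL hlS A hA σ hσ⟩
      · exact absurd (hLS₀ q hq hqL) hqS
    | algebraMap n =>
      exact ⟨(n : C.Ring'), (map_intCast π n).trans (eq_intCast
        (g.comp (algebraMap ℤ (heckeRing L H (↑S₀ : Set ℕ)))) n).symm⟩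
    | add u v hu hv hu' hv' =>
      rw [show g ⟨u + v, Subalgebra.add_mem _ hu hv⟩ = g ⟨u, hu⟩ + g ⟨v, hv⟩ from
        g.map_add ⟨u, hu⟩ ⟨v, hv⟩]
      exact add_mem hu' hv'
    | mul u v hu hv hu' hv' =>
      rw [show g ⟨u * v, Subalgebra.mul_mem _ hu hv⟩ = g ⟨u, hu⟩ * g ⟨v, hv⟩ from
        g.map_mul ⟨u, hu⟩ ⟨v, hv⟩]
      exact mul_mem hu' hv'
  intro x
  obtain ⟨z, rfl⟩ := Ideal.Quotient.mk_surjective x
  show Ideal.Quotient.mk C₀.kerIdeal z ∈ π.range
  induction z using HeckeO.induction with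
  | zero => rw [map_zero]; exact zero_mem _
  | add a b ha hb => rw [map_add]; exact add_mem ha hb
  | mk a t =>
    rw [HeckeO.mk_eq_smul_ofT, ← Ideal.Quotient.mkₐ_eq_mk O, map_smul]
    exact Subalgebra.smul_mem _ (hgen t) a

/-- The trace at such a prime acts on the range as the twisted Hecke operator. -/
theorem Cut.coe_actR_trace_frob [Fact p.Prime] (hp : (p : O) ∈ maximalIdeal O) (hh : h₀ = h)
    (hLS : ∀ q : ℕ, q.Prime → q ∣ L → q ∈ S) (hθ : θ = θ₀.comp (heckeIncl hsub))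
    (hE' : C₀.E = C.E)
    (D' : TWRep (H := H) (S := S₀) (O := O) p R₀ h₀ (rfl : R₀ = R₀) hH θ₀ ρ₀)
    {q : ℕ} (hq : q.Prime) (hqL : ¬ q ∣ L) (hqS : q ∉ (↑S₀ : Set ℕ))
    (A : ValuationSubring ℚbar) (hA : A.LiesOverPrime q) (σ : GQ) (hσ : A.IsFrobeniusAt σ q)
    (v : LinearMap.range C.E) :
    (C.actR ((C.lift D).M σ).trace v : H1 L H O O) =
      homAction hH O O (twistedT h hq hqL hqS) v := by
  have hv : (v : H1 L H O O) ∈ LinearMap.range C₀.E := by rw [hE']; exact v.2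
  refine (C.coe_actR_toChangeS C₀ hsub hE' _ v ⟨v, hv⟩ rfl).symm.trans ?_
  have h1 := C.trace_frob_changeS C₀ hsub hE' D hp hh hLS hθ D' hq hqL hqS A hA σ hσ
  refine (congrArg (fun y => (C₀.actR y ⟨v, hv⟩ : H1 L H O O)) h1).trans ?_
  show (C₀.act _ ⟨v, hv⟩ : H1 L H O O) = _
  rw [C₀.coe_act, HeckeO.ofT_apply, actO_tmul, one_smul]

omit [Fact (CuspForm.HasIntegralStructure (L * R) 2)] in
/-- **Scaling**: on the residual part the trace at a prime `q` not dividing the level is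
`⟨q⟩ ^ h T_q`, whether or not `q` is excluded. -/
theorem Cut.coe_actR_trace_frob_idem
    (hyp : TWHyp (H := H) (S := S) (O := O) p R h hH θ ρbar ρ₀)
    (C : Cut hH θ) (hC : C.E = actO hH O (twIdem hH O θ))
    [Fact (CuspForm.HasIntegralStructure (L * R) 2)]
    (D : TWRep (H := H) (S := S) (O := O) p R h (rfl : R = R) hH θ ρ₀)
    {q : ℕ} (hq : q.Prime) (hqp : q ≠ p) (hqL : ¬ q ∣ L)
    (A : ValuationSubring ℚbar) (hA : A.LiesOverPrime q) (σ : GQ) (hσ : A.IsFrobeniusAt σ q)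
    (v : LinearMap.range C.E) :
    (C.actR ((C.lift D).M σ).trace v : H1 L H O O) =
      (diamondH O O (primeUnit hq hqL) ^ h * heckeTH O O hq hqL : Module.End O (H1 L H O O)) v := by
  have := Fact.mk hyp.prime
  have hsub : (↑(S.erase q) : Set ℕ) ⊆ ↑S := Finset.coe_subset.2 (Finset.erase_subset q S)
  have hLS' : ∀ l : ℕ, l.Prime → l ∣ L → l ∈ S.erase q := fun l hl hlL =>
    Finset.mem_erase.2 ⟨fun e => hqL (e ▸ hlL), hyp.LS l hl hlL⟩
  obtain ⟨θ', hθ', hyp'⟩ := exists_theta_changeS hyp hsub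
    (Finset.mem_erase.2 ⟨fun e => hqp e.symm, hyp.mem_S⟩) hLS'
  obtain ⟨D'⟩ := nonempty_twRep hyp'
  let C' : Cut hH θ' :=
    { E := C.E
      comm := fun z => by
        rw [hC, actO_twIdem_changeS hyp' hsub hθ']
        exact (Commute.all _ z).map (actO hH O)
      below := by rw [← actO_twIdem_changeS hyp' hsub hθ', C.below]
      ne := C.ne }
  have hqS : q ∉ (↑(S.erase q) : Set ℕ) := fun h' =>
    (Finset.mem_erase.1 (Finset.mem_coe.1 h')).1 rfl
  rw [C.coe_actR_trace_frob C' hsub D hyp.mem rfl hyp.LS hθ' rfl D' hq hqL hqS A hA σ hσ v,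
    twistedT, map_mul, map_pow, homAction_diamond, homAction_heckeT]

end Fermat.Agent.Root.Patched
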