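import Fermat.Agent.Root.Patched.TowerBaseLink
import Fermat.Agent.Root.Patched.TowerBaseNoNew
import Fermat.Agent.Root.Patched.TowerChangeS

/-!
# Descent from a stage to the base

The descent along the auxiliary primes followed by the change of the set of primes left out of the
Hecke rings.
-/

set_option autoImplicit false
set_option maxSynthPendingDepth 3

noncomputable section

open IsLocalRing

namespace Fermat.Agent.Root.Patched

open Fermat.Agent.Deformation Fermat.Agent.GammaH Fermat.Agent.TW Fermat.Agent.IharaTW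

local notation "ℚbar" => AlgebraicClosure ℚ

variable {O : Type} [CommRing O] [IsDomain O] [IsDiscreteValuationRing O]
  [IsAdicComplete (maximalIdeal O) O] [Finite (ResidueField O)] [CharZero O]
  {p : ℕ} [Fact p.Prime] {W : WeierstrassCurve ℤ} {D : ResidualData O p W}
  {Sys : LocalSystem O D.ρbar p} {St : StdData Sys D.ζ} {N : ℕ} (hT : TowerHyp D Sys St N)
  {Q A : Finset ℕ} (hQ : AuxSet Sys Q) (hA : A ⊆ avoidSet Sys) {s : ℕ} (hs : s ≤ Sys.s)
  {i : ℕ} (hi : i ≤ s)

omit [CharZero O] in
include hT hQ in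
theorem inputS_empty_subset : inputS p W N Sys ∅ ∅ ⊆ inputS p W N Sys Q ∅ := by
  refine Finset.insert_subset_insert _ (Finset.union_subset_union
    (Finset.union_subset_union (Nat.primeFactors_mono ?_ ?_) le_rfl) le_rfl)
  · exact desc_dvd hT hQ
  · exact ((inputChain hT hQ (Finset.empty_subset _) ∅ le_rfl).neZero_lvl Sys.s).out

theorem desc_S_subset :
    (↑(descBase hT hA hs).C.S : Set ℕ) ⊆ ↑(descData hT hQ hA hs hi).C.S :=
  Finset.coe_subset.2 (inputS_empty_subset hT hQ)

/-- The residual eigensystem at the bottom of the auxiliary chain is that of the base. -/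
theorem desc_theta_eq :
    ((descData hT hQ hA hs hi).stage 0 (Nat.zero_le _)).θ =
      ((descBase hT hA hs).stage i hi).θ.comp (heckeIncl (desc_S_subset hT hQ hA hs hi)) := by
  refine heckeRing_hom_ext (fun a => ?_) (fun l hl hlL hlS => ?_)
    fun q hq hqL hqS => absurd (Finset.mem_coe.2
      (((descData hT hQ hA hs hi).stage 0 (Nat.zero_le _)).hyp.LS q hq hqL)) hqS
  · rw [((descData hT hQ hA hs hi).stage 0 (Nat.zero_le _)).diamond_one]
    exact (((descBase hT hA hs).stage i hi).diamond_one a).symm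
  · obtain ⟨P, hP⟩ := Gal.exists_liesOverPrime (L := ℚbar) hl
    obtain ⟨σ, hσ⟩ := Gal.exists_isFrobeniusAt hl hP
    rw [twHyp_theta_heckeTR ((descData hT hQ hA hs hi).stage 0 (Nat.zero_le _)).hyp
      ((descData hT hQ hA hs hi).stage 0 (Nat.zero_le _)).diamond_one hl hlL hlS hP hσ]
    exact (twHyp_theta_heckeTR ((descBase hT hA hs).stage i hi).hyp
      ((descBase hT hA hs).stage i hi).diamond_one hl hlL
      (fun h => hlS (desc_S_subset hT hQ hA hs hi h)) hP hσ).symm

/-- The two residual parts agree. -/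
theorem desc_E_eq : ((descBase hT hA hs).stage i hi).C.E =
    ((descData hT hQ hA hs hi).stage 0 (Nat.zero_le _)).C.E :=
  (actO_twIdem_changeS ((descBase hT hA hs).stage i hi).hyp (desc_S_subset hT hQ hA hs hi)
    (desc_theta_eq hT hQ hA hs hi)).symm

/-- **Descent from a stage to the base.** -/
theorem exists_descentMap
    (hdist : ∀ q ∈ Q, ∀ P : ValuationSubring ℚbar, P.LiesOverPrime q →
      ∀ σ : GQ, P.IsFrobeniusAt σ q →
        ∃ α β : ResidueField O, α ≠ β ∧
          (D.ρbar σ).charpoly = (Polynomial.X - Polynomial.C α) * (Polynomial.X - Polynomial.C β)) :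
    haveI : NeZero (inputN₀ N Q) := ⟨hT.inputN₀_ne hQ⟩
    ∃ f : ((descTop hT hQ hA hs).stage i hi).C.Ring' →ₐ[O]
        ((descBase hT hA hs).stage i hi).C.Ring',
      Function.Surjective f ∧
      (∀ a, f (((descTop hT hQ hA hs).stage i hi).C.dia a) =
        ((descBase hT hA hs).stage i hi).C.dia (ZMod.unitsMap (desc_dvd hT hQ) a)) ∧
      (∀ (l : ℕ), l.Prime → l ∉ (descTop hT hQ hA hs).C.S → ∀ P : ValuationSubring ℚbar,
        P.LiesOverPrime l → ∀ σ : GQ, P.IsFrobeniusAt σ l →
          f (((descTop hT hQ hA hs).stage i hi).lift.M σ).trace =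
            (((descBase hT hA hs).stage i hi).lift.M σ).trace) ∧
      (∀ c, f c = 0 ↔ ∀ v : LinearMap.range ((descTop hT hQ hA hs).stage i hi).C.E,
        (∀ a, ZMod.unitsMap (desc_dvd hT hQ) a ∈ (descBase hT hA hs).C.grp i →
          ((descTop hT hQ hA hs).stage i hi).C.actR
            (((descTop hT hQ hA hs).stage i hi).C.dia a) v = v) →
        ((descTop hT hQ hA hs).stage i hi).C.actR c v = 0) ∧
      Module.finrank O (LinearMap.range ((descTop hT hQ hA hs).stage i hi).C.E) =
        Nat.card (inputAux hT hQ (Finset.empty_subset (avoidSet Sys))).G * (2 ^ Q.card *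
          Module.finrank O (LinearMap.range ((descBase hT hA hs).stage i hi).C.E)) := by
  obtain ⟨f₁, hsurj, hdia, htr, hker, hrank⟩ :=
    exists_descentLink hT hQ hA hs hi (descData_noNew hT hQ hA hs hi hdist)
  have : Fact (CuspForm.HasIntegralStructure
      (((descData hT hQ hA hs hi).stage 0 (Nat.zero_le _)).L *
        ((descBase hT hA hs).stage i hi).R) 2) := ⟨MFCore.hasIntegralStructure _ 2⟩
  let f₂ : ((descData hT hQ hA hs hi).stage 0 (Nat.zero_le _)).C.Ring' →ₐ[O]
      ((descBase hT hA hs).stage i hi).C.Ring' :=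
    Cut.toChangeS ((descData hT hQ hA hs hi).stage 0 (Nat.zero_le _)).C
      ((descBase hT hA hs).stage i hi).C (desc_S_subset hT hQ hA hs hi) (desc_E_eq hT hQ hA hs hi)
  have hinj : Function.Injective f₂ := Cut.toChangeS_injective _ _ _ _
  have hdia₂ : ∀ a, f₂ (((descData hT hQ hA hs hi).stage 0 (Nat.zero_le _)).C.dia a) =
      ((descBase hT hA hs).stage i hi).C.dia a := fun a =>
    (Cut.toChangeS_mk _ _ _ _ _).trans (congrArg (Ideal.Quotient.mk _) (inclO_ofT O _ _))
  have htr₂ : ∀ σ, f₂ (((descData hT hQ hA hs hi).stage 0 (Nat.zero_le _)).lift.M σ).trace =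
      (((descBase hT hA hs).stage i hi).lift.M σ).trace :=
    Cut.trace_toChangeS ((descData hT hQ hA hs hi).stage 0 (Nat.zero_le _)).C
      ((descBase hT hA hs).stage i hi).C (desc_S_subset hT hQ hA hs hi) (desc_E_eq hT hQ hA hs hi)
      ((descData hT hQ hA hs hi).stage 0 (Nat.zero_le _)).D ((descBase hT hA hs).stage i hi).D
      D.p_mem rfl ((descData hT hQ hA hs hi).stage 0 (Nat.zero_le _)).hyp.LS
      (desc_theta_eq hT hQ hA hs hi)
  have hsurj₂ : Function.Surjective f₂ :=
    Cut.toChangeS_surjective ((descData hT hQ hA hs hi).stage 0 (Nat.zero_le _)).C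
      ((descBase hT hA hs).stage i hi).C (desc_S_subset hT hQ hA hs hi) (desc_E_eq hT hQ hA hs hi)
      ((descData hT hQ hA hs hi).stage 0 (Nat.zero_le _)).D D.p_mem rfl
      ((descData hT hQ hA hs hi).stage 0 (Nat.zero_le _)).hyp.LS (desc_theta_eq hT hQ hA hs hi)
      ((descBase hT hA hs).stage i hi).hyp.LS ((descBase hT hA hs).stage i hi).D
  refine ⟨f₂.comp f₁, hsurj₂.comp hsurj, fun a => ?_, fun l hl hlS P hP σ hσ => ?_, fun c => ?_,
    hrank.trans ?_⟩
  · exact (congrArg f₂ (hdia a)).trans (hdia₂ _)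
  · exact (congrArg f₂ (htr l hl hlS P hP σ hσ)).trans (htr₂ σ)
  · exact Iff.trans ⟨fun h => hinj (h.trans (map_zero f₂).symm),
      fun h => (congrArg f₂ h).trans (map_zero f₂)⟩ (hker c)
  · exact congrArg (fun E => Nat.card (inputAux hT hQ (Finset.empty_subset (avoidSet Sys))).G *
      (2 ^ Q.card * Module.finrank O (LinearMap.range E))) (desc_E_eq hT hQ hA hs hi).symm

end Fermat.Agent.Root.Patched
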