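import Fermat.Agent.Root.Patched.Tower
import Fermat.Agent.Root.Patched.TraceRing

/-!
# A tower from its bottom and its steps

The fixed part of a tower (ranks, rings and ideals at the bottom), the part varying with the index,
and the coordinate `a` at a flip place seen in a glued ring.
-/

set_option autoImplicit false

noncomputable section

open IsLocalRing

namespace Fermat.Agent.Root.Patched

open Fermat.Agent.Deformation Fermat.Agent.Patching

local notation "ℚbar" => AlgebraicClosure ℚ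

variable {O : Type} [CommRing O] [IsDomain O] [IsDiscreteValuationRing O]
  {ρbar : GQ →* M2 (ResidueField O)} {p : ℕ}

/-- The fixed part of a tower. -/
structure TowerBottom (O : Type) [CommRing O] [IsLocalRing O] where
  r : ℕ
  d : ℕ → ℕ
  d_pos : 0 < d 0
  R₀ : TestRing O
  R₀' : CompleteRing
  I : ℕ → Ideal R₀.R
  I' : Ideal R₀'

/-- The part of a tower at the index `n`, with auxiliary primes `Q`. -/
structure TowerStep (Sys : LocalSystem O ρbar p) (B : TowerBottom O) (Q : Finset ℕ) (n : ℕ) where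
  J : TestRing O
  U : TestRing O
  X : TestRing O
  pU : J.R →+* U.R
  pU_alg : pU.comp J.alg = U.alg
  pU_red : U.red.comp pU = J.red
  pU_surjective : Function.Surjective pU
  pX : J.R →+* X.R
  pX_alg : pX.comp J.alg = X.alg
  pX_red : X.red.comp pX = J.red
  pX_surjective : Function.Surjective pX
  ℓ : Lift ρbar J
  gen : Subring.closure (Set.range J.alg ∪ Set.range fun σ => (ℓ.M σ).trace) = ⊤
  det : DetCyclotomic p J ℓ
  cond : ∀ v, Sys.Cond v J ℓ
  unramified : ∀ (x : ℕ), x.Prime → (∀ v, Sys.q v ≠ x) → x ∉ Q →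
    ∀ A : ValuationSubring ℚbar, A.LiesOverPrime x → ∀ σ ∈ A.inertiaSubgroupIn ℚ, ℓ.M σ = 1
  reducedU : IsReduced U.R
  reducedX : IsReduced X.R
  unip : ∀ i, Unipotent (Sys.P (.inl i)) U (ℓ.push pU pU_red)
  char : ∀ i, ∀ 𝔭 ∈ minimalPrimes X.R, ∃ b,
    ((ℓ.push pX pX_red).M (Sys.τ i)).charpoly.map (Ideal.Quotient.mk 𝔭) =
      ((Polynomial.X - Polynomial.C (X.alg (Sys.ζ b))) *
        (Polynomial.X - Polynomial.C (X.alg (Sys.ζi b)))).map (Ideal.Quotient.mk 𝔭)
  π : U.R →+* B.R₀.R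
  π_alg : π.comp U.alg = B.R₀.alg
  L : ∀ i, Level (MvPowerSeries (Fin B.r) O) U.R B.R₀.R
    (RingHom.ker (MvPowerSeries.constantCoeff : MvPowerSeries (Fin B.r) O →+* O)) (B.I i) (B.d i)
  LX : Level (MvPowerSeries (Fin B.r) O) X.R B.R₀'
    (RingHom.ker (MvPowerSeries.constantCoeff : MvPowerSeries (Fin B.r) O →+* O)) B.I' (B.d 0)
  π_eq : ∀ i, (L i).π = π
  small : ∀ i, (L i).c ≤ maximalIdeal (MvPowerSeries (Fin B.r) O) ^ n
  smallX : LX.c ≤ maximalIdeal (MvPowerSeries (Fin B.r) O) ^ n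
  scalar : ∀ i (c : O), (L i).act (U.alg c) =
    Matrix.scalar (Fin (B.d i)) (Ideal.Quotient.mk (L i).c (MvPowerSeries.C c))
  scalarX : ∀ c : O, LX.act (X.alg c) =
    Matrix.scalar (Fin (B.d 0)) (Ideal.Quotient.mk LX.c (MvPowerSeries.C c))
  congr : ∀ ϖ : O, Irreducible ϖ → ∀ σ i j,
    (L 0).mat (pU (ℓ.M σ).trace) i j - LX.mat (pX (ℓ.M σ).trace) i j ∈
      Ideal.span {MvPowerSeries.C ϖ} ⊔ (L 0).c ⊔ LX.c
  vanish : ∀ f (j : Fin (Sys.m f)) (y : U.R),
    (L 0).act (y * (Sys.flipA f U (ℓ.push pU pU_red) - U.alg (Sys.c f j))) = 0 → (L 0).act y = 0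
  vanishX : ∀ f (j : Fin (Sys.m f)) (y : X.R),
    y * (Sys.flipA f X (ℓ.push pX pX_red) - X.alg (Sys.c f j)) = 0 → y = 0
  flip : ∀ (f : Fin Sys.s)
    (ha : ∀ _ : Unit, Sys.flipA f U (ℓ.push pU pU_red) ∈ maximalIdeal U.R),
    Nonempty (IharaTW.FlipLevel (L (f + 1)) (L f)
      (Ideal.span {∏ j, (Sys.flipA f U (ℓ.push pU pU_red) - U.alg (Sys.c f j))})
      (flipMat (Sys.q (.inr (.inl f))) (LocalRing.eval U.alg
        (fun _ => Sys.flipA f U (ℓ.push pU pU_red)) ha (Sys.Tr f))))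

/-- A tower from its steps. -/
def Tower.ofSteps {Sys : LocalSystem O ρbar p} (B : TowerBottom O) (Q : ℕ → Finset ℕ)
    (S : ∀ n, TowerStep Sys B (Q n) n) : Tower Sys where
  r := B.r
  Q := Q
  J n := (S n).J
  U n := (S n).U
  X n := (S n).X
  R₀ := B.R₀
  R₀' := B.R₀'
  pU n := (S n).pU
  pU_alg n := (S n).pU_alg
  pU_red n := (S n).pU_red
  pU_surjective n := (S n).pU_surjective
  pX n := (S n).pX
  pX_alg n := (S n).pX_alg
  pX_red n := (S n).pX_red
  pX_surjective n := (S n).pX_surjective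
  ℓ n := (S n).ℓ
  gen n := (S n).gen
  det n := (S n).det
  cond n := (S n).cond
  unramified n := (S n).unramified
  reducedU n := (S n).reducedU
  reducedX n := (S n).reducedX
  unip n := (S n).unip
  char n := (S n).char
  d := B.d
  d_pos := B.d_pos
  I := B.I
  I' := B.I'
  L i n := (S n).L i
  LX n := (S n).LX
  π_eq i n := ((S n).π_eq i).trans ((S n).π_eq 0).symm
  π_alg n := by rw [(S n).π_eq 0, (S n).π_alg]
  small i n := (S n).small i
  smallX n := (S n).smallX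
  scalar i n c := (S n).scalar i c
  scalarX n c := (S n).scalarX c
  congr ϖ hϖ n := (S n).congr ϖ hϖ
  vanish n := (S n).vanish
  vanishX n := (S n).vanishX
  flip f n := (S n).flip f

/-- The coordinate `a` is natural in the lift. -/
theorem flipA_push {Sys : LocalSystem O ρbar p} (f : Fin Sys.s) {S S' : TestRing O}
    (φ : S.R →+* S'.R) (ha : φ.comp S.alg = S'.alg) (hr : S'.red.comp φ = S.red)
    (ℓ : Lift ρbar S) (ℓ' : Lift ρbar S') (h : ∀ g, ℓ'.M g = (ℓ.M g).map φ)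
    (hℓ : Sys.flipCond f S ℓ) : Sys.flipA f S' ℓ' = φ (Sys.flipA f S ℓ) :=
  (Sys.flipC f).natural S S' φ ha hr ℓ ℓ' h hℓ (.inl none)

/-- Lifts with equal matrices have equal coordinate `a`. -/
theorem flipA_congr {Sys : LocalSystem O ρbar p} (f : Fin Sys.s) {S : TestRing O}
    (ℓ ℓ' : Lift ρbar S) (h : ∀ g, ℓ'.M g = ℓ.M g) (hℓ : Sys.flipCond f S ℓ) :
    Sys.flipA f S ℓ' = Sys.flipA f S ℓ :=
  flipA_push f (RingHom.id _) rfl rfl ℓ ℓ' (fun g => (h g).trans (Matrix.ext fun _ _ => rfl)) hℓ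

/-- **The coordinate `a` on a member of a glued ring.** -/
theorem Glued.flipA_member {Sys : LocalSystem O ρbar p} (f : Fin Sys.s) {ι : Type}
    {S : ι → TestRing O} {ℓ : ∀ i, Lift ρbar (S i)} (G : Glued ℓ)
    (hG : Sys.flipCond f G.J G.lift) (i : ι) :
    G.pr i (Sys.flipA f G.J G.lift) = Sys.flipA f (S i) (ℓ i) := by
  have hp : ∀ g, (G.lift.push (S' := S i) (G.pr i) (G.pr_red i)).M g = (G.lift.M g).map (G.pr i) :=
    fun g => Lift.push_M _ _ _ g
  have hc : Sys.flipCond f (S i) (G.lift.push (G.pr i) (G.pr_red i)) :=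
    (Sys.flipClosed f).push G.J (S i) (G.pr i) (G.pr_alg i) (G.pr_red i) G.lift _ hp hG
  have hu : ((G.U i)⁻¹ : (M2 (S i).R)ˣ).val.map (S i).red = 1 := by
    have h := congrArg (fun M : M2 (S i).R => M.map (S i).red) (G.U i).mul_inv
    rwa [Matrix.map_mul, G.U_red, one_mul, Matrix.map_one _ (map_zero _) (map_one _)] at h
  have hconj : ∀ g, (ℓ i).M g = ((G.U i)⁻¹ : (M2 (S i).R)ˣ).val *
      (G.lift.push (S' := S i) (G.pr i) (G.pr_red i)).M g * ((G.U i)⁻¹⁻¹ : (M2 (S i).R)ˣ).val :=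
    fun g => by
      rw [hp, G.conj i g, inv_inv, mul_assoc _ _ (G.U i : M2 (S i).R),
        mul_assoc _ _ (G.U i : M2 (S i).R),
        Units.inv_mul, mul_one, ← mul_assoc, Units.inv_mul, one_mul]
  exact ((flipA_push f (G.pr i) (G.pr_alg i) (G.pr_red i) G.lift _ hp hG).symm).trans
    (Sys.a_conj f (S i) _ (ℓ i) _ hu hconj hc).symm

end Fermat.Agent.Root.Patched
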