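import Fermat.Agent.Root.Patched.TowerStepRings
import Fermat.Agent.Root.Patched.TowerBuild

/-!
# The rings at the bottom of a tower

The rings glued from the stages at level `N ∏ flips` and the points, and from the twin of the base.
-/

set_option autoImplicit false

noncomputable section

namespace Fermat.Agent.Root.Patched

open IsLocalRing Fermat.Agent.Deformation Fermat.Agent.GammaH Fermat.Agent.TW Fermat.Agent.IharaTW

local notation "ℚbar" => AlgebraicClosure ℚ

variable {O : Type} [CommRing O] [IsDomain O] [IsDiscreteValuationRing O]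
  [IsAdicComplete (maximalIdeal O) O] [Finite (ResidueField O)] [CharZero O]
  {p : ℕ} [Fact p.Prime] {W : WeierstrassCurve ℤ} {D : ResidualData O p W}
  {Sys : LocalSystem O D.ρbar p} {St : StdData Sys D.ζ} {N : ℕ}

instance twinAux_fintype (hT : TowerHyp D Sys St N) {Q : Finset ℕ} (hQ : AuxSet Sys Q)
    [NeZero (inputN₀ N Q)] : Fintype (twinAux hT hQ).G := Fintype.ofFinite _

variable (hT : TowerHyp D Sys St N) [NeZero (inputN₀ N ∅)]

/-- The stages at the bottom. -/
abbrev bottomStage (i : Fin ((baseData hT).C.s + 1)) : TStage O p D.ρbar :=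
  (baseData hT).stage i (Nat.le_of_lt_succ i.2)

/-- The twin at the bottom. -/
abbrev bottomTwin : TStage O p D.ρbar := twinMember hT (AuxSet.empty Sys) ∅

variable {E : Type} (P : PointFamily Sys E)

/-- The rings at the bottom. -/
structure BottomRings where
  G₀ : Glued (baseLift (baseData hT) P.pt (bottomStage hT))
  GX₀ : Glued (fun _ : Unit => (bottomTwin hT).lift)

theorem nonempty_bottomRings [Fintype E] : Nonempty (BottomRings hT P) := by
  obtain ⟨-, hspan⟩ := rhobar_span hT.ne_two hT.ss hT.irr D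
  obtain ⟨G₀⟩ := nonempty_glued_base (baseData hT) P.pt D.p_mem hspan (bottomStage hT) P.det
  obtain ⟨GX₀⟩ := nonempty_glued D.p_mem hspan (ℓ := fun _ : Unit => (bottomTwin hT).lift)
    (fun _ => TStage.isFinite _) fun _ => TStage.detCyclotomic _
  exact ⟨⟨G₀, GX₀⟩⟩

variable {hT P} (B : BottomRings hT P)

theorem BottomRings.reduced₀ : IsReduced B.G₀.J.R :=
  B.G₀.isReduced fun k => by
    rcases k with i | e
    · exact TStage.isReduced _
    · exact inferInstanceAs (IsReduced O)

theorem BottomRings.reducedX₀ : IsReduced B.GX₀.J.R :=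
  B.GX₀.isReduced fun _ => TStage.isReduced _

/-- A prime outside the places is unramified at the bottom. -/
theorem BottomRings.unramified₀ (x : ℕ) (hx : x.Prime) (hv : ∀ v, Sys.q v ≠ x)
    (A : ValuationSubring ℚbar) (hA : A.LiesOverPrime x) :
    ∀ σ ∈ A.inertiaSubgroupIn ℚ, B.G₀.lift.M σ = 1 := by
  obtain ⟨v, hvp⟩ := St.exists_p
  refine B.G₀.unramified A fun k => ?_
  · rcases k with i | e
    · by_cases hxN : x ∣ N
      · exact (hT.harmless_of_dvd hx hv hxN).eq_one hx D.p_mem (TStage.detCyclotomic _) hA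
          ((bottomStage hT i).C.lift_unipotent (bottomStage hT i).D hx
            (fun e => hv v (hvp.trans e.symm))
            (not_sq_dvd_lvl_of_notPlace hT (AuxSet.empty Sys) hx hv (Finset.notMem_empty x)
              (Finset.empty_subset _) le_rfl (Nat.le_of_lt_succ i.2)) A hA)
      exact (bottomStage hT i).C.lift_unramified (bottomStage hT i).D hx
        (fun e => hv v (hvp.trans e.symm))
        (not_dvd_lvl_of_notPlace hT (AuxSet.empty Sys) hx hv (Finset.notMem_empty x) hxN
          (Finset.empty_subset _) le_rfl (Nat.le_of_lt_succ i.2)) A hA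
    · exact P.unramified e x hx hv A hA

/-- A prime outside the places is unramified on the twin at the bottom. -/
theorem BottomRings.unramifiedX₀ (x : ℕ) (hx : x.Prime) (hv : ∀ v, Sys.q v ≠ x)
    (A : ValuationSubring ℚbar) (hA : A.LiesOverPrime x) :
    ∀ σ ∈ A.inertiaSubgroupIn ℚ, B.GX₀.lift.M σ = 1 := by
  obtain ⟨v, hvp⟩ := St.exists_p
  refine B.GX₀.unramified A fun _ => ?_
  by_cases hxN : x ∣ N
  · exact (hT.harmless_of_dvd hx hv hxN).eq_one hx D.p_mem (TStage.detCyclotomic _) hA
      ((bottomTwin hT).C.lift_unipotent (bottomTwin hT).D hx (fun e => hv v (hvp.trans e.symm))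
        (not_sq_dvd_lvl_of_notPlace hT (AuxSet.empty Sys) hx hv (Finset.notMem_empty x)
          (Finset.Subset.refl _) (Nat.zero_le _) (i := 0) (Nat.zero_le _)) A hA)
  exact (bottomTwin hT).C.lift_unramified (bottomTwin hT).D hx (fun e => hv v (hvp.trans e.symm))
    (not_dvd_lvl_of_notPlace hT (AuxSet.empty Sys) hx hv (Finset.notMem_empty x) hxN
      (Finset.Subset.refl _) (Nat.zero_le _) (i := 0) (Nat.zero_le _)) A hA

/-- The projection to a stage at the bottom. -/
def BottomRings.pr₀ (i : ℕ) (hi : i ≤ Sys.s) : B.G₀.J.R →+* ((baseData hT).stage i hi).C.Ring' :=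
  B.G₀.pr (.inl ⟨i, Nat.lt_succ_of_le hi⟩)

theorem BottomRings.pr₀_trace (i : ℕ) (hi : i ≤ Sys.s) (σ : GQ) :
    B.pr₀ i hi (B.G₀.lift.M σ).trace = (((baseData hT).stage i hi).lift.M σ).trace :=
  B.G₀.pr_trace (.inl ⟨i, Nat.lt_succ_of_le hi⟩) σ

/-- The ideal of a stage at the bottom. -/
def BottomRings.ideal (i : ℕ) : Ideal B.G₀.J.R :=
  if h : i ≤ Sys.s then RingHom.ker (B.pr₀ i h) else ⊤

theorem BottomRings.ideal_of_le (i : ℕ) (hi : i ≤ Sys.s) :
    B.ideal i = RingHom.ker (B.pr₀ i hi) := dif_pos hi

omit [NeZero (inputN₀ N ∅)] in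
/-- The base has a nonzero residual part. -/
theorem stageRank_pos (hT : TowerHyp D Sys St N) (r : ℕ) : 0 < stageRank hT r 0 := by
  rw [stageRank, dif_pos (Nat.zero_le _)]
  set S := (baseData hT).stage 0 (Nat.zero_le _)
  have := moduleFinite_H1 S.neg O
  have : Module.IsTorsionFree O (H1 S.L S.H O O) :=
    Function.Injective.moduleIsTorsionFree _ (coordH S.neg O O).symm.injective
      fun x y => map_smul (coordH S.neg O O).symm x y
  refine Nat.mul_pos (pow_pos two_pos r) (Nat.pos_of_ne_zero fun h0 => S.C.ne ?_)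
  rw [← LinearMap.range_eq_bot]
  exact Submodule.finrank_eq_zero.1 h0

/-- The fixed part of the tower. -/
abbrev BottomRings.towerBottom (r : ℕ) : TowerBottom O where
  r := r
  d := stageRank hT r
  d_pos := stageRank_pos hT r
  R₀ := B.G₀.J
  R₀' := B.GX₀.J.R
  I := B.ideal
  I' := ⊥

/-- **The map to a point of the lifting tower.** -/
def BottomRings.point (e : E) : B.G₀.J.R →+* O := basePoint (baseData hT) P.pt B.G₀ e

theorem BottomRings.point_alg (e : E) : (B.point e).comp B.G₀.J.alg = RingHom.id O :=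
  basePoint_alg (baseData hT) P.pt B.G₀ e

/-- A point of the bottom ring sees the traces of its representation. -/
theorem BottomRings.point_trace (e : E) (σ : GQ) :
    B.point e (B.G₀.lift.M σ).trace = ((P.pt e).M σ).trace :=
  basePoint_trace (baseData hT) P.pt B.G₀ e σ

end Fermat.Agent.Root.Patched
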