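import Fermat.Agent.Root.Patched.TowerSetup
import Fermat.Agent.IharaTW.ChainFamily
import Fermat.Agent.MFCore.Integral

/-!
# The stages of a tower along a chain of levels

The standing hypotheses at the bottom of a chain give, with a compatible family of summands, one
`TStage` for each level of the chain.
-/

set_option autoImplicit false

noncomputable section

namespace Fermat.Agent.Root.Patched

open IsLocalRing Fermat.Agent.Deformation Fermat.Agent.GammaH Fermat.Agent.TW Fermat.Agent.IharaTW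

variable (O : Type) [CommRing O] [IsDomain O] [IsDiscreteValuationRing O]
  [IsAdicComplete (maximalIdeal O) O] [Finite (ResidueField O)] [CharZero O]

/-- A chain of levels with a residual eigensystem at the bottom and a family of summands. -/
structure ChainData (p : ℕ) (ρbar : GQ →* M2 (ResidueField O)) where
  C : Chain
  R : ℕ
  [neR : NeZero R]
  h : ℕ
  θ₀ : heckeRing C.N₀ C.H₀ (↑C.S : Set ℕ) →+* ResidueField O
  ρ' : ResidualGaloisRep (ResidueField O)
  hyp₀ : TWHyp (H := C.H₀) (S := C.S) (O := O) p R h C.neg θ₀ ρ' ρbar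
  one₀ : ∀ a, θ₀ (diamondR a) = 1
  F : C.Family O θ₀
  ne₀ : F.E 0 (Nat.zero_le _) ≠ 0

attribute [instance] ChainData.neR

variable {O} {p : ℕ} {ρbar : GQ →* M2 (ResidueField O)}

namespace ChainData

variable (K : ChainData O p ρbar)

omit [Finite (ResidueField O)] [CharZero O] in
theorem R_dvd (i : ℕ) : K.R ∣ K.C.lvl i := K.hyp₀.R_dvd.trans (K.C.dvd_lvl i)

omit [Finite (ResidueField O)] [CharZero O] in
theorem hyp (i : ℕ) (hi : i ≤ K.C.s) :
    TWHyp (H := K.C.grp i) (S := K.C.S) (O := O) p K.R K.h (K.C.neg_mem i)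
      (K.C.theta K.θ₀ i hi) K.ρ' ρbar where
  prime := K.hyp₀.prime
  ne_two := K.hyp₀.ne_two
  mem := K.hyp₀.mem
  mem_S := K.hyp₀.mem_S
  red := K.hyp₀.red
  R_dvd := K.R_dvd i
  ker_le a ha := by
    rw [K.C.mem_grp_iff]
    refine K.hyp₀.ker_le (MonoidHom.mem_ker.2 ?_)
    rw [unitsMap_unitsMap]
    exact MonoidHom.mem_ker.1 ha
  odd a := by
    rw [K.C.mem_grp_iff, map_pow]
    exact K.hyp₀.odd _
  LS := K.C.mem_S_of_dvd hi
  matrix := K.hyp₀.matrix
  absIrr := K.hyp₀.absIrr
  frob l hl hlL hlS A hA σ hσ := by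
    have hl0 : ¬ l ∣ K.C.N₀ := K.C.not_dvd_lvl (Nat.zero_le _) hl hlS
    rw [K.C.theta_twistedT K.θ₀ hi K.h hl hlS hlL hl0]
    exact K.hyp₀.frob l hl hl0 hlS A hA σ hσ

/-- The summand of a stage as a cut. -/
def cut (i : ℕ) (hi : i ≤ K.C.s) : Cut (K.C.neg_mem i) (K.C.theta K.θ₀ i hi) where
  E := K.F.E i hi
  comm := (K.F.piece i hi).comm
  below := (K.F.piece i hi).below
  ne := K.F.ne_zero K.ne₀ i hi

/-- The member at a stage. -/
def stage (i : ℕ) (hi : i ≤ K.C.s) : TStage O p ρbar :=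
  haveI : Fact (CuspForm.HasIntegralStructure (K.C.lvl i * K.R) 2) :=
    ⟨MFCore.hasIntegralStructure (K.C.lvl i * K.R) 2⟩
  { L := K.C.lvl i
    H := K.C.grp i
    neg := K.C.neg_mem i
    S := K.C.S
    θ := K.C.theta K.θ₀ i hi
    R := K.R
    h := K.h
    ρ' := K.ρ'
    hyp := K.hyp i hi
    diamond_one := fun a => by rw [K.C.theta_diamondR K.θ₀ hi]; exact K.one₀ _
    D := (nonempty_twRep (K.hyp i hi)).some
    C := K.cut i hi }

/-- **The traces of a stage at Frobenius elements** are the twisted Hecke operators. -/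
theorem stage_frob (i : ℕ) (hi : i ≤ K.C.s) (l : ℕ) (hl : l.Prime) (hlS : l ∉ (↑K.C.S : Set ℕ))
    (A : ValuationSubring (AlgebraicClosure ℚ)) (hA : A.LiesOverPrime l) (σ : GQ)
    (hσ : A.IsFrobeniusAt σ l) :
    ((K.stage i hi).lift.M σ).trace = Ideal.Quotient.mk (K.cut i hi).kerIdeal
      (HeckeO.ofT O (twistedT K.h hl (K.C.not_dvd_lvl hi hl hlS) hlS)) :=
  ((K.stage i hi).C.lift_frob (K.stage i hi).D l hl (K.C.not_dvd_lvl hi hl hlS) hlS A hA σ hσ).1

end ChainData

end Fermat.Agent.Root.Patched
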