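import Fermat.Agent.Root.Patched.TowerLevelStage
import Fermat.Agent.IharaTW.Twin

/-!
# Stage `0` as the coinvariants of the top of the twin

For `H ≤ H'` at one level the residual part at `H'` is, by the norm, the coinvariants of that at
`H`, compatibly with the rings of the two cuts; applied to the top of the twin and stage `0`.
-/

set_option autoImplicit false
set_option maxSynthPendingDepth 3

noncomputable section

namespace Fermat.Agent.Root.Patched

open IsLocalRing Fermat.Agent.Deformation Fermat.Agent.GammaH Fermat.Agent.TW Fermat.Agent.IharaTW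

local notation "ℚbar" => AlgebraicClosure ℚ

variable {O : Type} [CommRing O] [IsDomain O] [IsDiscreteValuationRing O]
  [IsAdicComplete (maximalIdeal O) O] [Finite (ResidueField O)] [CharZero O]
  {p : ℕ} [Fact p.Prime]

omit [CharZero O] in
omit [Finite (ResidueField O)] in
/-- **Coinvariants of cuts.** The norm from the residual part at `H` onto that at `H'`, with the
map of rings it respects. -/
theorem exists_coinvCut {L : ℕ} [NeZero L] {H H' : Subgroup (ZMod L)ˣ} (hle : H ≤ H')
    {S : Finset ℕ} {hH : (-1 : (ZMod L)ˣ) ∈ H} {hH' : (-1 : (ZMod L)ˣ) ∈ H'}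
    {θ : heckeRing L H (↑S : Set ℕ) →+* ResidueField O}
    {θ' : heckeRing L H' (↑S : Set ℕ) →+* ResidueField O} (hθθ : θ'.comp (heckeRes hle) = θ)
    (C : Cut hH θ) (hE : C.E = actO hH O (twIdem hH O θ))
    (C' : Cut hH' θ') (hE' : C'.E = actO hH' O (twIdem hH' O θ'))
    {l : ℕ} (hl : l.Prime) (hlL : ¬ l ∣ L) (hlS : l ∉ (↑S : Set ℕ))
    (hθ : θ (heckeTR hl hlL hlS) ≠ ((l + 1 : ℕ) : ResidueField O)) (hl1 : (l : ZMod L) = 1)
    (hfree : ∀ g ∈ GammaH.GammaH L H', g ^ 12 = 1 → g ∈ GammaH.GammaH L H)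
    (hpG : IsPGroup p (Dl H H')) (hp : (p : O) ∈ maximalIdeal O) [Fintype (Dl H H')] :
    ∃ (r : C.Ring' →ₐ[O] C'.Ring') (ψ : LinearMap.range C.E →ₗ[O] LinearMap.range C'.E),
      (∀ w, r (Ideal.Quotient.mk C.kerIdeal w) = Ideal.Quotient.mk C'.kerIdeal (resO hle O w)) ∧
      Function.Surjective ψ ∧ (∀ c v, ψ (C.actR c v) = C'.actR (r c) (ψ v)) ∧
      ∀ v, ψ v = 0 ↔ ∑ b, actH1 H H' O O b (v : H1 L H O O) = 0 := by
  have : NeZero l := ⟨hl.ne_zero⟩
  have hidem : IsIdempotentElem C.E := by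
    rw [hE]; exact (isIdempotentElem_twIdem hH O θ).map _
  have hidem' : IsIdempotentElem C'.E := by
    rw [hE']; exact (isIdempotentElem_twIdem hH' O θ').map _
  have hec : ∀ b : Dl H H', Commute C.E (actH1 H H' O O b) :=
    TW.commute_actH1 fun a _ => by
      have := C.comm (HeckeO.ofT O (diamondR a))
      rwa [HeckeO.ofT_apply, actO_tmul, homAction_diamond, one_smul] at this
  have heη : Commute C.E (TW.etaH O O hl hlL) := by
    rw [← actO_heckeT_sub hH O hl hlL hlS]
    exact C.comm _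
  have hbij := bijective_etaE_below hH O θ hl hlL hlS hθ C.comm C.below hidem heη
  have hθ' : θ' (heckeTR hl hlL hlS) ≠ ((l + 1 : ℕ) : ResidueField O) := by
    rwa [← heckeRes_heckeT hle hl hlL hlS, ← RingHom.comp_apply, hθθ]
  have hinj : ∀ φ, C'.E φ = φ → TW.etaH O O hl hlL φ = 0 → φ = 0 := fun φ h1 h2 =>
    eq_zero_of_etaH_eq_zero hH' O θ' hl hlL hlS hθ' C'.below h1 h2
  have hres : ∀ φ, resH1 O O hle (C'.E φ) = C.E (resH1 O O hle φ) := fun φ => by
    subst hθθ
    rw [hE, hE']
    exact resH1_twIdem hH hle O θ' φ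
  obtain ⟨ψ, hsur, hψ, hker⟩ := exists_coinvMap hec hidem hl hlL heη hl1 hH hle hfree hbij hidem'
    hres hinj hpG hp
  have hcomm : ∀ (w : HeckeO L H (↑S : Set ℕ) O) (v : LinearMap.range C.E),
      (ψ (C.act w v) : H1 L H' O O) = actO hH' O (resO hle O w) (ψ v : H1 L H' O O) := fun w v =>
    coinvMap_comm hl hlL hle hidem' hinj hψ (fun φ => resH1_actO hH hle O w φ)
      (C'.comm (resO hle O w)) (fun b => TW.commute_actH1 (fun a _ => by
        have := (Commute.all w (HeckeO.ofT O (diamondR a))).map (actO hH O)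
        rwa [HeckeO.ofT_apply, actO_tmul, homAction_diamond, one_smul] at this) b)
      v (C.act w v) (C.coe_act w v)
  let r : C.Ring' →ₐ[O] C'.Ring' :=
    Ideal.Quotient.liftₐ C.kerIdeal ((Ideal.Quotient.mkₐ O C'.kerIdeal).comp (resO hle O))
      fun w hw => by
        refine Ideal.Quotient.eq_zero_iff_mem.2 ?_
        show C'.act (resO hle O w) = 0
        refine LinearMap.ext fun u => Subtype.ext ?_
        obtain ⟨v, rfl⟩ := hsur u
        rw [C'.coe_act, ← hcomm, show C.act w = 0 from hw, LinearMap.zero_apply, map_zero]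
        rfl
  refine ⟨r, ψ, fun w => rfl, hsur, fun c v => ?_, hker⟩
  obtain ⟨w, rfl⟩ := Ideal.Quotient.mk_surjective c
  exact Subtype.ext (hcomm w v)

variable {W : WeierstrassCurve ℤ} {D : ResidualData O p W} {Sys : LocalSystem O D.ρbar p}
  {St : StdData Sys D.ζ} {N : ℕ} (hT : TowerHyp D Sys St N) {Q : Finset ℕ} (hQ : AuxSet Sys Q)
  [NeZero (inputN₀ N Q)] [Fintype (twinAux hT hQ).G]

/-- **Stage `0` is the coinvariants of the top of the twin.** -/
theorem exists_twinCoinv :
    ∃ (r : (twinTop hT hQ ∅).C.Ring' →ₐ[O] ((plainData hT hQ).stage 0 (Nat.zero_le _)).C.Ring')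
      (ψ : LinearMap.range (twinTop hT hQ ∅).C.E →ₗ[O]
        LinearMap.range ((plainData hT hQ).stage 0 (Nat.zero_le _)).C.E),
      (∀ σ, r ((twinTop hT hQ ∅).lift.M σ).trace =
        (((plainData hT hQ).stage 0 (Nat.zero_le _)).lift.M σ).trace) ∧
      (∀ h, inputProj hT hQ h = 1 → r ((twinDown hT hQ ∅).delta h) = 1) ∧
      Function.Surjective ψ ∧
      (∀ c v, ψ ((twinTop hT hQ ∅).C.actR c v) =
        ((plainData hT hQ).stage 0 (Nat.zero_le _)).C.actR (r c) (ψ v)) ∧
      ∀ v, ψ v = 0 ↔ (twinTop hT hQ ∅).C.actR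
        (strElem (twinDown hT hQ ∅).delta
          (twistNorm (inputProj hT hQ) (1 : (twinAux hT hQ).G →* Oˣ))) v = 0 := by
  classical
  refine (exists_input_auxPrime hT hQ ∅).elim fun l hl' => ?_
  have hl := hl'.1
  have hlS := hl'.2.1
  have hl1 := hl'.2.2.2.1
  have htr := hl'.2.2.2.2.2
  have hl0 := (input_auxPrime_spec hT hQ (Finset.Subset.refl (avoidSet Sys)) ∅ (Nat.zero_le Sys.s)
    hl hl1 htr).1
  have hlS' : l ∉ (↑(twinTop hT hQ ∅).S : Set ℕ) := hlS
  have hlL : ¬ l ∣ (twinTop hT hQ ∅).L := fun h => hlS' (Finset.mem_coe.2 ((twinTop hT hQ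
      ∅).hyp.LS l hl h))
  refine (Gal.exists_liesOverPrime (L := ℚbar) hl).elim fun P hP => ?_
  refine (Gal.exists_isFrobeniusAt hl hP).elim fun σ₀ hσ₀ => ?_
  have : Fintype (Dl (twinAux hT hQ).H (plainAux hT hQ).H) := Fintype.ofFinite _
  refine (exists_coinvCut (p := p) (L := inputN₀ N Q)
    (H := (twinAux hT hQ).H) (H' := (plainAux hT hQ).H) (twinAux_H_le hT hQ)
    (S := inputS p W N Sys Q ∅) (theta_comp_heckeRes (twinAux_H_le hT hQ) (twinTop hT hQ ∅).hyp
        (twinTop hT hQ ∅).diamond_one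
      ((plainData hT hQ).stage 0 (Nat.zero_le _)).hyp ((plainData hT hQ).stage 0 (Nat.zero_le
          _)).diamond_one) (twinTop hT hQ ∅).C rfl ((plainData hT hQ).stage 0 (Nat.zero_le _)).C
          rfl hl hlL hlS'
    (ne_of_eq_of_ne (twHyp_theta_heckeTR (twinTop hT hQ ∅).hyp (twinTop hT hQ ∅).diamond_one hl
        hlL hlS' hP hσ₀) (htr P hP σ₀ hσ₀))
    hl0 (input_free hT hQ (Finset.Subset.refl (avoidSet Sys)) _)
    (input_isPGroup hT hQ (Finset.Subset.refl (avoidSet Sys)) _) D.p_mem).elim fun r hr' => ?_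
  refine hr'.elim fun ψ hψ' => ?_
  have hr := hψ'.1
  have hsur := hψ'.2.1
  have hcomm := hψ'.2.2.1
  have hker := hψ'.2.2.2
  have hdia : ∀ a, r ((twinTop hT hQ ∅).C.dia a) = ((plainData hT hQ).stage 0 (Nat.zero_le
      _)).C.dia a := fun a =>
    (hr _).trans (congrArg (Ideal.Quotient.mk ((plainData hT hQ).stage 0 (Nat.zero_le
        _)).C.kerIdeal) (resO_diamondR (twinAux_H_le hT hQ) O a))
  have hdown : ∀ a, (twinDown hT hQ ∅).down a = (twinAux hT hQ).cls a := fun a =>
    congrArg (twinAux hT hQ).cls (DFunLike.congr_fun (ZMod.unitsMap_self (inputN₀ N Q)) a)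
  refine ⟨r, ψ, fun σ => ?_, fun h hh => ?_, hsur, hcomm, fun v => ?_⟩
  · refine (twinTop hT hQ ∅).map_trace ((plainData hT hQ).stage 0 (Nat.zero_le _)) D.p_mem r
        (twinTop hT hQ ∅).S (fun m hm hmS P hP τ hτ => ?_) σ
    have hmS' : m ∉ (↑(twinTop hT hQ ∅).S : Set ℕ) := fun h => hmS (Finset.mem_coe.1 h)
    rw [(inputData hT hQ (Finset.Subset.refl (avoidSet Sys)) ∅ (Nat.zero_le Sys.s)).stage_frob 0
        (Nat.zero_le _) m hm hmS' P hP τ hτ,
      (plainData hT hQ).stage_frob 0 (Nat.zero_le _) m hm hmS' P hP τ hτ]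
    exact (hr _).trans (congrArg _ (resO_twistedT (twinAux_H_le hT hQ) O _ hm _ hmS'))
  · obtain ⟨a, rfl⟩ := (twinAux hT hQ).cls_surjective h
    rw [inputProj_cls, AuxPrimes.cls_eq_one_iff] at hh
    exact (congrArg r ((congrArg (twinDown hT hQ ∅).delta (hdown a).symm).trans
      ((twinDown hT hQ ∅).delta_down a))).trans ((hdia a).trans (((plainData hT hQ).stage 0
          (Nat.zero_le _)).C.dia_eq_one hh))
  · refine (hker v).trans ?_
    let f : Dl (twinAux hT hQ).H (plainAux hT hQ).H →* (inputProj hT hQ).ker :=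
      QuotientGroup.lift _ (MonoidHom.codRestrict
        ((twinAux hT hQ).cls.comp (plainAux hT hQ).H.subtype) _ fun a => by
          rw [MonoidHom.mem_ker, MonoidHom.comp_apply, inputProj_cls]
          exact (plainAux hT hQ).cls_eq_one_iff.2 a.2) fun a ha =>
        Subtype.ext ((twinAux hT hQ).cls_eq_one_iff.2 (Subgroup.mem_subgroupOf.1 ha))
    have hf : Function.Bijective f := by
      refine ⟨(injective_iff_map_eq_one f).2 fun x hx => ?_, fun y => ?_⟩
      · induction x using QuotientGroup.induction_on with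
        | _ a =>
          rw [QuotientGroup.eq_one_iff, Subgroup.mem_subgroupOf]
          exact (twinAux hT hQ).cls_eq_one_iff.1 (congrArg Subtype.val hx)
      · obtain ⟨y, hy⟩ := y
        obtain ⟨a, rfl⟩ := (twinAux hT hQ).cls_surjective y
        rw [MonoidHom.mem_ker, inputProj_cls, AuxPrimes.cls_eq_one_iff] at hy
        exact ⟨QuotientGroup.mk ⟨a, hy⟩, Subtype.ext rfl⟩
    have hsum : strElem (twinDown hT hQ ∅).delta
        (twistNorm (inputProj hT hQ) (1 : (twinAux hT hQ).G →* Oˣ)) =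
          ∑ b, (twinDown hT hQ ∅).delta (f b).1 := by
      rw [strElem_twistNorm_eq, EtaFree.chiNu, map_sum]
      refine (Fintype.sum_bijective f hf _ _ fun b => ?_).symm
      rw [strElem_single]
      simp
    have hterm : ∀ b, (((twinTop hT hQ ∅).C.actR ((twinDown hT hQ ∅).delta (f b).1) v).1 : H1
        (twinTop hT hQ ∅).L (twinTop hT hQ ∅).H O O) =
        actH1 (twinAux hT hQ).H (plainAux hT hQ).H O O b v.1 := fun b => by
      induction b using QuotientGroup.induction_on with
      | _ a =>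
        refine Eq.trans ?_ (LinearMap.congr_fun (actH1_mk a) v.1).symm
        exact (congrArg (fun g => (((twinTop hT hQ ∅).C.actR ((twinDown hT hQ ∅).delta g) v).1 :
            H1 (twinTop hT hQ ∅).L (twinTop hT hQ ∅).H O O))
          (hdown a.1).symm).trans ((twinDown hT hQ ∅).actR_delta a.1 v)
    rw [hsum, map_sum, LinearMap.sum_apply]
    constructor
    · exact fun h => Subtype.ext (((Submodule.coe_sum _ _ _).trans
        (Finset.sum_congr rfl fun b _ => hterm b)).trans h)
    · exact fun h => ((Submodule.coe_sum _ _ _).trans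
        (Finset.sum_congr rfl fun b _ => hterm b)).symm.trans (congrArg Subtype.val h)

end Fermat.Agent.Root.Patched
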