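import Fermat.Agent.Root.Patched.TowerRings
import Fermat.Agent.TW.Eigen

/-!
# The inertia eigenvalues at auxiliary primes

At a prime `q ≡ 1` with distinct residual Frobenius eigenvalues and trivial residual inertia every
lift with cyclotomic determinant has a natural inertia eigenvalue `η`, of `p`-power order dividing
`q - 1`.
-/

set_option autoImplicit false

noncomputable section

open IsLocalRing Polynomial

namespace Fermat.Agent.Root.Patched

open Fermat.Agent.Deformation Fermat.Agent.TW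

local notation "ℚbar" => AlgebraicClosure ℚ

variable {O : Type} [CommRing O] [IsLocalRing O] {ρbar : GQ →* M2 (ResidueField O)}

/-- Chosen data at an auxiliary prime. -/
structure AuxPlace (ρbar : GQ →* M2 (ResidueField O)) (p q : ℕ) where
  prime_p : p.Prime
  p_mem : (p : O) ∈ maximalIdeal O
  prime : q.Prime
  ne : q ≠ p
  one_mod : p ∣ q - 1
  P : ValuationSubring ℚbar
  P_over : P.LiesOverPrime q
  φ : GQ
  τ : GQ
  frob : P.IsFrobeniusAt φ q
  tame : LocalModel.IsTameGenerator p q P τ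
  unr : ∀ σ ∈ P.inertiaSubgroupIn ℚ, ρbar σ = 1
  α : ResidueField O
  β : ResidueField O
  ne' : α ≠ β
  charpoly : (ρbar φ).charpoly = (X - C α) * (X - C β)

namespace AuxPlace

variable {p q : ℕ} (A : AuxPlace ρbar p q) (S : TestRing O) (r : Lift ρbar S)

theorem sum_prod : A.α + A.β = (ρbar A.φ).trace ∧ A.α * A.β = (ρbar A.φ).det := by
  have h := A.charpoly
  rw [show (X - C A.α) * (X - C A.β) = X ^ 2 - C (A.α + A.β) * X + C (A.α * A.β) by
    simp only [map_add, map_mul]; ring] at h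
  obtain ⟨h1, h2⟩ := trace_det_of_charpoly_eq h
  exact ⟨h1.symm, h2.symm⟩

include A in
theorem red_natCast_p : S.red (p : S.R) = 0 := by
  rw [← map_natCast S.alg, S.red_alg, residue_eq_zero_iff]
  exact A.p_mem

include A in
theorem p_mem' : (p : S.R) ∈ maximalIdeal S.R := (S.ker_red _).1 (A.red_natCast_p S)

include A in
theorem q_sub_one_mem : (q : S.R) - 1 ∈ maximalIdeal S.R := by
  obtain ⟨c, hc⟩ := A.one_mod
  rw [show (q : S.R) - 1 = ((q - 1 : ℕ) : S.R) by
    rw [Nat.cast_sub A.prime.one_le, Nat.cast_one], hc, Nat.cast_mul]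
  exact Ideal.mul_mem_right _ _ (A.p_mem' S)

theorem red_trace (σ : GQ) : S.red (r.M σ).trace = (ρbar σ).trace := by
  rw [← r.reduces σ]
  exact AddMonoidHom.map_trace S.red.toAddMonoidHom _

theorem red_det (σ : GQ) : S.red (r.M σ).det = (ρbar σ).det := by
  rw [← r.reduces σ]
  exact RingHom.map_det _ _

theorem exists_root : ∃ a : S.R, a ^ 2 - (r.M A.φ).trace * a + (r.M A.φ).det = 0 ∧
    S.red a = A.α ∧ IsUnit (a - ((r.M A.φ).trace - a)) := by
  obtain ⟨a₀, ha₀⟩ := residue_surjective A.α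
  obtain ⟨b₀, hb₀⟩ := residue_surjective A.β
  set x := residue S.R (S.alg a₀)
  set y := residue S.R (S.alg b₀)
  have hred : ∀ u v : S.R, S.red u = S.red v → residue S.R u = residue S.R v := fun u v h => by
    rw [← sub_eq_zero, ← map_sub, residue_eq_zero_iff, ← S.ker_red, map_sub, h, sub_self]
  have hxy : x ≠ y := fun h => A.ne' (by
    rw [← sub_eq_zero, ← map_sub, residue_eq_zero_iff, ← S.ker_red, map_sub, S.red_alg, S.red_alg,
      sub_eq_zero, ha₀, hb₀] at h
    exact h)
  have hsum : x + y = residue S.R (r.M A.φ).trace := by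
    rw [← map_add]
    exact hred _ _ (by rw [map_add, S.red_alg, S.red_alg, ha₀, hb₀, red_trace, A.sum_prod.1])
  have hprod : x * y = residue S.R (r.M A.φ).det := by
    rw [← map_mul]
    exact hred _ _ (by rw [map_mul, S.red_alg, S.red_alg, ha₀, hb₀, red_det, A.sum_prod.2])
  obtain ⟨a, d, htr, hdet, ha, -, hu⟩ := exists_quadratic_roots hxy hsum hprod
  refine ⟨a, by rw [← htr, ← hdet]; ring, ?_, by rw [← htr, add_sub_cancel_left]; exact hu⟩
  have h1 : a - S.alg a₀ ∈ maximalIdeal S.R := by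
    rw [← residue_eq_zero_iff, map_sub, ha, sub_self]
  rwa [← S.ker_red, map_sub, S.red_alg, sub_eq_zero, ha₀] at h1

/-- The Frobenius eigenvalue reducing to `α`. -/
def root : S.R := (A.exists_root S r).choose

theorem root_spec : A.root S r ^ 2 - (r.M A.φ).trace * A.root S r + (r.M A.φ).det = 0 ∧
    S.red (A.root S r) = A.α ∧ IsUnit (A.root S r - ((r.M A.φ).trace - A.root S r)) :=
  (A.exists_root S r).choose_spec

theorem root_unique {a : S.R} (ha : a ^ 2 - (r.M A.φ).trace * a + (r.M A.φ).det = 0)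
    (hr : S.red a = A.α) : a = A.root S r := by
  obtain ⟨h1, h2, h3⟩ := A.root_spec S r
  refine sub_eq_zero.1 ((IsUnit.mul_left_eq_zero (b := a + A.root S r - (r.M A.φ).trace) ?_).1 ?_)
  · by_contra hu
    have hm := (S.ker_red _).2 ((mem_maximalIdeal _).2 hu)
    rw [map_sub, map_add, hr, show S.red (A.root S r) = A.α from h2, red_trace,
      ← A.sum_prod.1] at hm
    exact A.ne' (by linear_combination hm)
  · linear_combination ha - h1

/-- **The inertia eigenvalue.** -/
def eta : S.R :=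
  inertiaEigen (A.root S r) ((r.M A.φ).trace - A.root S r) (r.M A.φ) (r.M A.τ)

theorem eta_natural {S' : TestRing O} (f : S.R →+* S'.R) (hf : S'.red.comp f = S.red)
    (r' : Lift ρbar S') (h : ∀ g, r'.M g = (r.M g).map f) :
    f (A.eta S r) = A.eta S' r' := by
  obtain ⟨h1, h2, h3⟩ := A.root_spec S r
  have ht : (r'.M A.φ).trace = f (r.M A.φ).trace := by
    rw [h]; exact (AddMonoidHom.map_trace f.toAddMonoidHom _).symm
  have hd : (r'.M A.φ).det = f (r.M A.φ).det := by rw [h]; exact (RingHom.map_det f _).symm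
  have hroot : f (A.root S r) = A.root S' r' := by
    refine A.root_unique S' r' ?_ (by rw [← RingHom.comp_apply, hf]; exact h2)
    rw [ht, hd, ← map_pow, ← map_mul, ← map_sub, ← map_add]
    exact (congrArg f h1).trans (map_zero f)
  rw [eta, map_inertiaEigen f h3, eta, hroot, map_sub, hroot, ← ht, ← h, ← h]

theorem eta_conj (r' : Lift ρbar S) (U : (M2 S.R)ˣ)
    (h : ∀ g, r'.M g = (U : M2 S.R) * r.M g * (↑U⁻¹ : M2 S.R)) :
    A.eta S r' = A.eta S r := by
  have ht : (r'.M A.φ).trace = (r.M A.φ).trace := by rw [h, Matrix.trace_units_conj]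
  have hd : (r'.M A.φ).det = (r.M A.φ).det := by rw [h, Matrix.det_units_conj]
  obtain ⟨h1, h2, h3⟩ := A.root_spec S r'
  have hroot : A.root S r' = A.root S r := by
    refine A.root_unique S r ?_ h2
    rw [← ht, ← hd]
    exact h1
  rw [eta, eta, hroot, ht, inertiaEigen, inertiaEigen, frobProj, frobProj, h, h]
  set d := (r.M A.φ).trace - A.root S r
  set c := Ring.inverse (A.root S r - d)
  rw [show (↑U * r.M A.φ * ↑U⁻¹ - d • (1 : M2 S.R)) =
    ↑U * (r.M A.φ - d • (1 : M2 S.R)) * ↑U⁻¹ by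
    rw [mul_sub, sub_mul, mul_smul_comm, smul_mul_assoc, mul_one, Units.mul_inv]]
  rw [smul_mul_assoc, smul_mul_assoc, Matrix.trace_smul, Matrix.trace_smul,
    mul_assoc _ (↑U⁻¹ : M2 S.R),
    show (↑U⁻¹ : M2 S.R) * (↑U * r.M A.τ * ↑U⁻¹) = r.M A.τ * ↑U⁻¹ by
      rw [← mul_assoc, ← mul_assoc, Units.inv_mul, one_mul],
    mul_assoc (↑U : M2 S.R), ← mul_assoc (r.M A.φ - d • (1 : M2 S.R)), ← mul_assoc (↑U : M2 S.R),
    Matrix.trace_units_conj]

theorem det_inertia (hdet : DetCyclotomic p S r) : (r.M A.τ).det = 1 := by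
  refine LocalModel.eq_of_forall_sub_mem_pow fun n => ?_
  have h := hdet n A.τ 1 fun μ hμ => by
    rw [pow_one]
    exact Gal.Tame.apply_eq_of_pow_eq_one A.prime A.P_over A.tame.1
      (fun hd => A.ne ((Nat.prime_dvd_prime_iff_eq A.prime A.prime_p).1
        (A.prime.dvd_of_dvd_pow hd))) hμ
  rw [Nat.cast_one] at h
  have hle : Ideal.span {((p ^ n : ℕ) : S.R)} ≤ maximalIdeal S.R ^ n := by
    rw [Ideal.span_singleton_le_iff_mem, Nat.cast_pow]
    exact Ideal.pow_mem_pow (A.p_mem' S) n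
  exact hle h

/-- The properties of the inertia eigenvalue. -/
theorem eta_spec (hdet : DetCyclotomic p S r) :
    A.eta S r - 1 ∈ maximalIdeal S.R ∧ A.eta S r ^ p ^ (q - 1).factorization p = 1 ∧
      (∃ η', A.eta S r + η' = (r.M A.τ).trace ∧ A.eta S r * η' = 1) ∧
      (A.eta S r = 1 → ∀ σ ∈ A.P.inertiaSubgroupIn ℚ, r.M σ = 1) := by
  obtain ⟨h1, h2, h3⟩ := A.root_spec S r
  have htr : A.root S r + ((r.M A.φ).trace - A.root S r) = (r.M A.φ).trace := by ring
  have hd : A.root S r * ((r.M A.φ).trace - A.root S r) = (r.M A.φ).det := by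
    linear_combination -h1
  have hI : ∀ σ ∈ A.P.inertiaSubgroupIn ℚ, (residue S.R).mapMatrix (r.M σ) = 1 := fun σ hσ => by
    refine Matrix.ext fun i j => ?_
    have h := congrFun (congrFun ((r.reduces σ).trans (A.unr σ hσ)) i) j
    rw [Matrix.map_apply] at h
    rw [RingHom.mapMatrix_apply, Matrix.map_apply]
    rcases eq_or_ne i j with rfl | hij
    · rw [Matrix.one_apply_eq] at h ⊢
      rw [← map_one (residue S.R), ← sub_eq_zero, ← map_sub, residue_eq_zero_iff, ← S.ker_red,
        map_sub, h, map_one, sub_self]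
    · rw [Matrix.one_apply_ne hij] at h ⊢
      rwa [residue_eq_zero_iff, ← S.ker_red]
  have hne : residue S.R (A.root S r) ≠ residue S.R ((r.M A.φ).trace - A.root S r) := fun h => by
    rw [← sub_eq_zero, ← map_sub, residue_eq_zero_iff] at h
    exact h h3
  obtain ⟨a, d, ha, hd', hu, ha0, e1, e2, e3, e4, e5⟩ := exists_eta A.prime_p (A.p_mem' S) A.prime
    (A.q_sub_one_mem S) A.frob A.tame r.cont hI (A.det_inertia S r hdet) hne
    (by rw [← map_add, htr]) (by rw [← map_mul, hd])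
  have haa : a = A.root S r := by
    refine A.root_unique S r (by rw [← ha, ← hd']; ring) ?_
    have hm : a - A.root S r ∈ maximalIdeal S.R := by
      rw [← residue_eq_zero_iff, map_sub, ha0, sub_self]
    rw [← S.ker_red, map_sub, sub_eq_zero] at hm
    rw [hm]
    exact h2
  have hdd : d = (r.M A.φ).trace - A.root S r := by rw [← haa, ← ha]; ring
  rw [haa, hdd] at e1 e2 e3 e4 e5
  exact ⟨e3, e4, ⟨_, e1, e2⟩, e5⟩

end AuxPlace

/-- Every auxiliary prime has such data. -/
theorem nonempty_auxPlace {O : Type} [CommRing O] [IsLocalRing O] {p q : ℕ} (hp : p.Prime)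
    (hpO : (p : O) ∈ maximalIdeal O) {ρbar : GQ →* M2 (ResidueField O)} (hq : q.Prime)
    (hne : q ≠ p) (hq1 : p ∣ q - 1)
    (hunr : ∀ A : ValuationSubring ℚbar, A.LiesOverPrime q →
      ∀ σ ∈ A.inertiaSubgroupIn ℚ, ρbar σ = 1)
    (hdist : ∀ A : ValuationSubring ℚbar, A.LiesOverPrime q → ∀ σ : GQ, A.IsFrobeniusAt σ q →
      ∃ α β : ResidueField O, α ≠ β ∧ (ρbar σ).charpoly = (X - C α) * (X - C β)) :
    Nonempty (AuxPlace ρbar p q) := by
  obtain ⟨P, hP⟩ := Gal.exists_liesOverPrime (L := ℚbar) hq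
  obtain ⟨φ, hφ⟩ := Gal.exists_isFrobeniusAt hq hP
  obtain ⟨τ, hτ⟩ := LocalModel.exists_isTameGenerator hp hq hne hP
  obtain ⟨α, β, h1, h2⟩ := hdist P hP φ hφ
  exact ⟨⟨hp, hpO, hq, hne, hq1, P, hP, φ, τ, hφ, hτ, hunr P hP, α, β, h1, h2⟩⟩

end Fermat.Agent.Root.Patched
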