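import Fermat.Agent.Root.Patched.TowerPoints
import Fermat.Agent.IharaTW.LatLevels
import Fermat.Agent.IharaTW.Twin
import Fermat.Agent.IharaTW.ChainFamily
import Fermat.Agent.Root.Patched.TowerEta

/-!
# The diamond operators of an auxiliary group on a member

The group of a member is the preimage of the group `A₀.H` of auxiliary primes at a divisor `M` of
its level: `A₀.G` acts through diamond operators, one generator at each auxiliary prime, and a
member cut by the residual idempotent is free over `O[A₀.G]`.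
-/

set_option autoImplicit false
set_option maxSynthPendingDepth 3

noncomputable section

namespace Fermat.Agent.Root.Patched

open IsLocalRing Fermat.Agent.Deformation Fermat.Agent.GammaH Fermat.Agent.TW Fermat.Agent.IharaTW

local notation "ℚbar" => AlgebraicClosure ℚ

variable {O : Type} [CommRing O] [IsDomain O] [IsDiscreteValuationRing O]
  [IsAdicComplete (maximalIdeal O) O] [Finite (ResidueField O)] [CharZero O]
  {p : ℕ} [Fact p.Prime] {ρbar : GQ →* M2 (ResidueField O)}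

/-- A place over a prime with residually trivial inertia: Frobenius and a tame generator. -/
structure LocalPlace (ρbar : GQ →* M2 (ResidueField O)) (p q : ℕ) where
  ne : q ≠ p
  P : ValuationSubring ℚbar
  P_over : P.LiesOverPrime q
  φ : GQ
  frob : P.IsFrobeniusAt φ q
  τ : GQ
  tame : LocalModel.IsTameGenerator p q P τ
  unr : ∀ σ ∈ P.inertiaSubgroupIn ℚ, ρbar σ = 1

/-- The place of an auxiliary prime. -/
def AuxPlace.toLocalPlace {q : ℕ} (A : AuxPlace ρbar p q) : LocalPlace ρbar p q :=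
  ⟨A.ne, A.P, A.P_over, A.φ, A.frob, A.τ, A.tame, A.unr⟩

/-- The group of a member is that of auxiliary primes at a divisor of its level. -/
structure IsDown (St : TStage O p ρbar) {M : ℕ} [NeZero M] (A₀ : AuxPrimes M p) : Prop where
  dvd : M ∣ St.L
  mem : ∀ a, a ∈ St.H ↔ ZMod.unitsMap dvd a ∈ A₀.H
  sq : ∀ q ∈ A₀.Q, ¬ q ^ 2 ∣ St.L

namespace IsDown

variable {St : TStage O p ρbar} {M : ℕ} [NeZero M] {A₀ : AuxPrimes M p} (Dn : IsDown St A₀)

/-- A unit of the level, in the group. -/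
def down : (ZMod St.L)ˣ →* A₀.G := A₀.cls.comp (ZMod.unitsMap Dn.dvd)

omit [Finite (ResidueField O)] [Fact (Nat.Prime p)] [CharZero O] in
theorem down_surjective : Function.Surjective Dn.down :=
  A₀.cls_surjective.comp (ZMod.unitsMap_surjective Dn.dvd)

omit [Finite (ResidueField O)] [Fact (Nat.Prime p)] [CharZero O] in
theorem down_eq_one_iff (a : (ZMod St.L)ˣ) : Dn.down a = 1 ↔ a ∈ St.H :=
  A₀.cls_eq_one_iff.trans (Dn.mem a).symm

/-- The group at the level of the member is the auxiliary group. -/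
def dlIso : Dl St.H (⊤ : Subgroup (ZMod St.L)ˣ) ≃* A₀.G :=
  MulEquiv.ofBijective
    (QuotientGroup.lift _ (Dn.down.comp (Subgroup.subtype ⊤)) fun a ha =>
      (Dn.down_eq_one_iff a.1).2 (Subgroup.mem_subgroupOf.1 ha))
    ⟨(injective_iff_map_eq_one _).2 fun x hx => by
      induction x using QuotientGroup.induction_on with
      | _ a =>
        rw [QuotientGroup.eq_one_iff, Subgroup.mem_subgroupOf]
        exact (Dn.down_eq_one_iff a.1).1 hx,
    fun g => by
      obtain ⟨a, rfl⟩ := Dn.down_surjective g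
      exact ⟨QuotientGroup.mk ⟨a, Subgroup.mem_top a⟩, rfl⟩⟩

/-- The diamond operators as a character of the group. -/
def delta : A₀.G →* St.C.Ring' := St.C.delta.comp Dn.dlIso.symm.toMonoidHom

omit [Finite (ResidueField O)] [Fact (Nat.Prime p)] [CharZero O] in
theorem delta_down (a : (ZMod St.L)ˣ) : Dn.delta (Dn.down a) = St.C.dia a := by
  have h : Dn.dlIso.symm (Dn.down a) = QuotientGroup.mk ⟨a, Subgroup.mem_top a⟩ :=
    Dn.dlIso.symm_apply_eq.2 rfl
  show St.C.delta (Dn.dlIso.symm (Dn.down a)) = _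
  rw [h]
  rfl

omit [Finite (ResidueField O)] [Fact (Nat.Prime p)] [CharZero O] in
include Dn in
theorem exists_away (q : A₀.Q) : ∃ a : (ZMod St.L)ˣ,
    ZMod.unitsMap (Nat.div_dvd_of_dvd ((A₀.dvd q.1 q.2).trans Dn.dvd)) a = 1 ∧
      A₀.cls (ZMod.unitsMap Dn.dvd a) = A₀.cls (A₀.gen q) := by
  classical
  obtain ⟨b, hb⟩ := ZMod.unitsMap_surjective Dn.dvd (A₀.gen q)
  obtain ⟨c, hc1, hc2⟩ :=
    exists_unit_at (A₀.prime q.1 q.2) ((A₀.dvd q.1 q.2).trans Dn.dvd) (Dn.sq q.1 q.2) b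
  refine ⟨c, hc1, mul_inv_eq_one.1 (A₀.eq_one_of_comp fun q' => ?_)⟩
  rw [map_mul, map_inv, mul_inv_eq_one]
  rcases eq_or_ne q' q with rfl | hne
  · rw [A₀.comp_cls, A₀.comp_cls, unitsMap_unitsMap, hc2, ← hb, unitsMap_unitsMap]
  · have hd : q'.1 ∣ St.L / q.1 := by
      rw [Nat.dvd_div_iff_mul_dvd ((A₀.dvd q.1 q.2).trans Dn.dvd)]
      exact ((Nat.coprime_primes (A₀.prime q.1 q.2) (A₀.prime q'.1 q'.2)).2
        fun e => hne (Subtype.ext e.symm)).mul_dvd_of_dvd_of_dvd ((A₀.dvd q.1 q.2).trans Dn.dvd)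
          ((A₀.dvd q'.1 q'.2).trans Dn.dvd)
    rw [A₀.comp_gen_ne hne, A₀.comp_cls, unitsMap_unitsMap,
      ← unitsMap_unitsMap hd (Nat.div_dvd_of_dvd ((A₀.dvd q.1 q.2).trans Dn.dvd)), hc1, map_one,
      one_pow]

omit [Finite (ResidueField O)] [Fact (Nat.Prime p)] [CharZero O] in
theorem exists_pow {q : A₀.Q} {a : (ZMod St.L)ˣ}
    (ha : A₀.cls (ZMod.unitsMap Dn.dvd a) = A₀.cls (A₀.gen q)) (a' : (ZMod St.L)ˣ)
    (h : ZMod.unitsMap (Nat.div_dvd_of_dvd ((A₀.dvd q.1 q.2).trans Dn.dvd)) a' = 1) :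
    ∃ k : ℕ, St.C.dia a' = St.C.dia a ^ k := by
  obtain ⟨i, hi⟩ := A₀.comp_mem q (A₀.cls (ZMod.unitsMap Dn.dvd a'))
  have key : A₀.cls (A₀.gen q) ^ i = A₀.cls (ZMod.unitsMap Dn.dvd a') := by
    refine mul_inv_eq_one.1 (A₀.eq_one_of_comp fun q' => ?_)
    rw [map_mul, map_inv, map_zpow, mul_inv_eq_one]
    rcases eq_or_ne q' q with rfl | hne
    · exact hi
    · have hd : q'.1 ∣ St.L / q.1 := by
        rw [Nat.dvd_div_iff_mul_dvd ((A₀.dvd q.1 q.2).trans Dn.dvd)]
        exact ((Nat.coprime_primes (A₀.prime q.1 q.2) (A₀.prime q'.1 q'.2)).2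
          fun e => hne (Subtype.ext e.symm)).mul_dvd_of_dvd_of_dvd ((A₀.dvd q.1 q.2).trans Dn.dvd)
            ((A₀.dvd q'.1 q'.2).trans Dn.dvd)
      rw [A₀.comp_gen_ne hne, one_zpow, A₀.comp_cls, unitsMap_unitsMap,
        ← unitsMap_unitsMap hd (Nat.div_dvd_of_dvd ((A₀.dvd q.1 q.2).trans Dn.dvd)), h, map_one,
        one_pow]
  obtain ⟨k, hk⟩ : ∃ k : ℕ, A₀.cls (A₀.gen q) ^ k = A₀.cls (A₀.gen q) ^ i :=
    mem_powers_iff_mem_zpowers.2 ⟨i, rfl⟩
  refine ⟨k, ?_⟩
  rw [← Dn.delta_down a', ← Dn.delta_down a, ← map_pow]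
  refine congrArg Dn.delta ?_
  show A₀.cls (ZMod.unitsMap Dn.dvd a') = A₀.cls (ZMod.unitsMap Dn.dvd a) ^ k
  rw [ha, hk, key]

/-- An auxiliary prime of the member. -/
def localAt (q : A₀.Q) (pl : LocalPlace ρbar p q.1) : LocalAt St where
  q := q.1
  prime := A₀.prime q.1 q.2
  ne := pl.ne
  dvd := (A₀.dvd q.1 q.2).trans Dn.dvd
  sq := Dn.sq q.1 q.2
  P := pl.P
  P_over := pl.P_over
  φ := pl.φ
  frob := pl.frob
  τ := pl.τ
  tame := pl.tame
  unr := pl.unr
  a := (Dn.exists_away q).choose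
  away := (Dn.exists_away q).choose_spec.1
  gen := Dn.exists_pow (Dn.exists_away q).choose_spec.2

/-- The data of the auxiliary group. -/
def deltaData (pl : ∀ q : A₀.Q, LocalPlace ρbar p q.1) : DeltaData St A₀.G A₀.Q where
  g q := A₀.cls (A₀.gen q)
  gen := A₀.closure_gen
  δ := Dn.delta
  loc q := Dn.localAt q (pl q)
  dia q := by
    show Dn.delta (A₀.cls (A₀.gen q)) = St.C.dia (Dn.exists_away q).choose
    exact (congrArg Dn.delta (Dn.exists_away q).choose_spec.2.symm).trans (Dn.delta_down _)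

omit [Fact (Nat.Prime p)] in
theorem deltaData_tr (pl : ∀ q : A₀.Q, LocalPlace ρbar p q.1) (q : A₀.Q) :
    ((Dn.deltaData pl).loc q).tr = (St.lift.M (pl q).τ).trace := rfl

omit [Finite (ResidueField O)] [Fact (Nat.Prime p)] [CharZero O] in
theorem actR_delta (a : (ZMod St.L)ˣ) (v : LinearMap.range St.C.E) :
    (St.C.actR (Dn.delta (Dn.down a)) v : H1 St.L St.H O O) =
      diamondH O O a (v : H1 St.L St.H O O) := by
  rw [Dn.delta_down]
  show (St.C.actR (Ideal.Quotient.mk St.C.kerIdeal (HeckeO.ofT O (diamondR a))) v :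
    H1 St.L St.H O O) = _
  rw [St.C.actR_mk, St.C.coe_act, HeckeO.ofT_apply, actO_tmul, homAction_diamond, one_smul]

omit [Finite (ResidueField O)] [Fact (Nat.Prime p)] [CharZero O] in
/-- The diamond operators act on the lattice as `Δ` does. -/
theorem actR_delta_dlIso (hec : ∀ b : Dl St.H ⊤, Commute St.C.E (actH1 St.H ⊤ O O b))
    (b : Dl St.H (⊤ : Subgroup (ZMod St.L)ˣ)) (v : LinearMap.range St.C.E) :
    St.C.actR (Dn.delta (Dn.dlIso b)) v = eRep hec b v := by
  induction b using QuotientGroup.induction_on with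
  | _ a =>
    refine Subtype.ext ?_
    rw [coe_eRep, actH1_mk]
    exact Dn.actR_delta a.1 v

omit [Finite (ResidueField O)] [Fact (Nat.Prime p)] [CharZero O] in
theorem commute_act (_Dn : IsDown St A₀) (b : Dl St.H (⊤ : Subgroup (ZMod St.L)ˣ)) :
    Commute St.C.E (actH1 St.H ⊤ O O b) :=
  TW.commute_actH1 (fun a _ => by
    have := St.C.comm (HeckeO.ofT O (diamondR a))
    rwa [HeckeO.ofT_apply, actO_tmul, homAction_diamond, one_smul] at this) b

omit [CharZero O] in
omit [Finite (ResidueField O)] in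
/-- **Freeness over the auxiliary group** of a member cut by the residual idempotent. -/
theorem exists_basis (hE : St.C.E = actO St.neg O (twIdem St.neg O St.θ)) [Fintype A₀.G] {l : ℕ}
    (hl : l.Prime) (hlL : ¬ l ∣ St.L) (hlS : l ∉ (↑St.S : Set ℕ))
    (hθ : St.θ (heckeTR hl hlL hlS) ≠ ((l + 1 : ℕ) : ResidueField O))
    (hl1 : (l : ZMod St.L) = 1)
    (hfree : ∀ g ∈ GammaH.GammaH St.L ⊤, g ^ 12 = 1 → g ∈ GammaH.GammaH St.L St.H) :
    ∃ (d : ℕ) (_ : Module.Basis (Fin d) (MonoidAlgebra O A₀.G) (LatMod St.C.actR Dn.delta)),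
      Module.finrank O (LinearMap.range St.C.E) = Fintype.card A₀.G * d := by
  classical
  have : NeZero l := ⟨hl.ne_zero⟩
  have := moduleFinite_H1 St.neg O
  have hidem : IsIdempotentElem St.C.E := by
    rw [hE]
    exact (isIdempotentElem_twIdem St.neg O St.θ).map _
  have heη : Commute St.C.E (TW.etaH O O hl hlL) := by
    rw [← actO_heckeT_sub St.neg O hl hlL hlS]
    exact St.C.comm _
  have hbij := bijective_etaE_below St.neg O St.θ hl hlL hlS hθ St.C.comm St.C.below hidem heη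
  have hpG : IsPGroup p (Dl St.H (⊤ : Subgroup (ZMod St.L)ˣ)) :=
    A₀.isPGroup.of_equiv Dn.dlIso.symm
  have hff := free_range Dn.commute_act hidem hl hlL heη hl1 St.neg le_top hfree hbij hpG
    St.hyp.mem
  have hfr := hff.1
  have hfin := hff.2
  let ρ : Representation O A₀.G (LinearMap.range St.C.E) :=
    (eRep Dn.commute_act).comp Dn.dlIso.symm.toMonoidHom
  have hff' := free_asModule_of_equiv (eRep Dn.commute_act) ρ Dn.dlIso.symm fun g => rfl
  have hfr' := hff'.1
  have hfin' := hff'.2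
  let b := Module.finBasis (MonoidAlgebra O A₀.G) ρ.asModule
  refine (exists_basis_latMod ρ St.C.actR Dn.delta (LinearEquiv.refl O _) (fun g v =>
    (Dn.actR_delta_dlIso Dn.commute_act (Dn.dlIso.symm g) v).symm.trans
      (congrArg (fun x => St.C.actR (Dn.delta x) v) (Dn.dlIso.apply_symm_apply g))) b).elim
    fun b' _ => ?_
  refine ⟨_, b', ?_⟩
  rw [← ρ.asModuleEquiv.finrank_eq,
    ← Module.finrank_mul_finrank O (MonoidAlgebra O A₀.G) ρ.asModule,
    Module.finrank_eq_card_basis (MonoidAlgebra.basis A₀.G O)]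

end IsDown

end Fermat.Agent.Root.Patched
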