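import Fermat.Agent.Root.Patched.TowerAux
import Fermat.Agent.IharaTW.StageIso

/-!
# Eigenvectors on free lattices

Away units are powers of the generators of auxiliary groups; the norms of a character of the
diamond operators and of an eigen map agree; eigenvectors of a free lattice are twisted norms;
bases lift along coinvariants.
-/

set_option autoImplicit false
set_option maxSynthPendingDepth 3

noncomputable section

namespace Fermat.Agent.Root.Patched

open IsLocalRing Fermat.Agent.Deformation Fermat.Agent.GammaH Fermat.Agent.TW Fermat.Agent.IharaTW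
  Fermat.Agent.TW.EtaFree

/-- A class trivial away from `q` is a power of the generator at `q`. -/
theorem exists_cls_eq_pow {M p : ℕ} [NeZero M] (A₀ : AuxPrimes M p) (q : A₀.Q) {a : (ZMod M)ˣ}
    (ha : ZMod.unitsMap (Nat.div_dvd_of_dvd (A₀.dvd q.1 q.2)) a = 1) :
    ∃ k : ℕ, A₀.cls a = A₀.cls (A₀.gen q) ^ k := by
  classical
  obtain ⟨i, hi⟩ := A₀.comp_mem q (A₀.cls a)
  have key : A₀.cls a = A₀.cls (A₀.gen q) ^ i := by
    refine mul_inv_eq_one.1 (A₀.eq_one_of_comp fun q' => ?_)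
    rw [map_mul, map_inv, map_zpow, mul_inv_eq_one]
    rcases eq_or_ne q' q with rfl | hne
    · exact hi.symm
    · rw [A₀.comp_gen_ne hne, one_zpow, A₀.comp_cls]
      have hd : q'.1 ∣ M / q.1 := by
        rw [Nat.dvd_div_iff_mul_dvd (A₀.dvd q.1 q.2)]
        exact ((Nat.coprime_primes (A₀.prime q.1 q.2) (A₀.prime q'.1 q'.2)).2
          fun e => hne (Subtype.ext e.symm)).mul_dvd_of_dvd_of_dvd (A₀.dvd q.1 q.2)
            (A₀.dvd q'.1 q'.2)
      rw [← unitsMap_unitsMap hd (Nat.div_dvd_of_dvd (A₀.dvd q.1 q.2)), ha, map_one, one_pow]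
  obtain ⟨k, hk⟩ : ∃ k : ℕ, A₀.cls (A₀.gen q) ^ k = A₀.cls (A₀.gen q) ^ i :=
    mem_powers_iff_mem_zpowers.2 ⟨i, rfl⟩
  exact ⟨k, by rw [key, hk]⟩

section Eigen

variable {O : Type} [CommRing O] [IsDomain O] [CharZero O] [IsLocalRing O] {A V G : Type}
  [CommRing A] [Algebra O A]
  [AddCommGroup V] [Module O V] [CommGroup G] [Fintype G]
  (Φ : A →ₐ[O] Module.End O V) (ζ : G →* A)

omit [IsDomain O] [CharZero O] [IsLocalRing O] in
/-- An eigen element of the group ring is a multiple of the twisted norm. -/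
theorem eq_smul_chiNu_of_eigen (χ : G →* O) {x : MonoidAlgebra O G}
    (h : ∀ g, MonoidAlgebra.single g (1 : O) * x = χ g • x) : x = x.coeff 1 • chiNu χ := by
  have key : ∀ (y : MonoidAlgebra O G), (∀ g, MonoidAlgebra.single g (1 : O) * y = χ g • y) →
      ∀ g, y.coeff g = χ g⁻¹ * y.coeff 1 := fun y hy g => by
    have h1 := congrArg (fun z : MonoidAlgebra O G => z.coeff g) (hy g)
    simp only [MonoidAlgebra.coeff_single_mul_apply, MonoidAlgebra.coeff_smul, Finsupp.smul_apply,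
      smul_eq_mul, inv_mul_cancel, one_mul] at h1
    rw [h1, ← mul_assoc, ← map_mul, inv_mul_cancel, map_one, one_mul]
  refine MonoidAlgebra.ext (Finsupp.ext fun g => ?_)
  rw [key x h g, MonoidAlgebra.coeff_smul, Finsupp.smul_apply, smul_eq_mul,
    key _ (fun g => single_mul_chiNu χ g) g, coeff_chiNu_one, mul_one, mul_comm]

omit [IsDomain O] [CharZero O] [IsLocalRing O] in
/-- **Eigenvectors of a free lattice are twisted norms.** -/
theorem exists_eq_chiNu_of_eigen [IsLocalRing (MonoidAlgebra O G)] {κ : Type}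
    (b : Module.Basis κ (MonoidAlgebra O G) (LatMod Φ ζ)) (χ : G →* O) (v : V)
    (hv : ∀ x, Φ (ζ x) v = χ x • v) : ∃ w : V, v = Φ (strElem ζ (chiNu χ)) w := by
  have hΦe : ∀ a, Commute (1 : Module.End O V) (Φ a) := fun a => Commute.one_left _
  obtain ⟨u, hu⟩ : ∃ u : LatMod Φ ζ, opVec Φ ζ hΦe u = v :=
    ⟨(stageRep _ (commute_strMap Φ ζ hΦe)).asModuleEquiv.symm (oneRange.symm v),
      by simp [opVec, stageVec, coe_oneRange_symm]⟩
  have hfix : ∀ y, MonoidAlgebra.single y (1 : O) • u =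
      algebraMap O (MonoidAlgebra O G) (χ y) • u :=
    fun y => by
    refine opVec_inj Φ ζ ?_
    rw [← stageOp_strElem Φ ζ hΦe, opVec_stageOp, strElem_single, one_smul, hu, hv,
      ← stageOp_strElem Φ ζ hΦe, opVec_stageOp, AlgHom.commutes, AlgHom.commutes, hu,
      Module.algebraMap_end_apply]
  have hc : ∀ i, b.repr u i = (b.repr u i).coeff 1 • chiNu χ := fun i => by
    refine eq_smul_chiNu_of_eigen χ fun g => ?_
    have h1 := congrArg (fun z => b.repr z i) (hfix g)
    simp only [map_smul, Finsupp.smul_apply, smul_eq_mul] at h1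
    rw [h1, Algebra.smul_def]
  refine ⟨opVec Φ ζ hΦe (∑ i ∈ (b.repr u).support,
    algebraMap O (MonoidAlgebra O G) ((b.repr u i).coeff 1) • b i), ?_⟩
  rw [← opVec_stageOp Φ ζ hΦe, stageOp_strElem, Finset.smul_sum, ← hu]
  refine congrArg (opVec Φ ζ hΦe) ?_
  conv_lhs => rw [← b.linearCombination_repr u, Finsupp.linearCombination_apply, Finsupp.sum]
  exact Finset.sum_congr rfl fun i _ => by
    conv_lhs => rw [hc i]
    rw [smul_smul, Algebra.smul_def, mul_comm]

end Eigen

section Lift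

variable {O A A' G G' V V₀ : Type} [CommRing O] [IsDomain O] [CharZero O] [IsLocalRing O]
  [CommRing A] [Algebra O A] [CommRing A'] [Algebra O A'] [CommGroup G] [Fintype G] [CommGroup G']
  [Fintype G'] [IsLocalRing (MonoidAlgebra O G)] [IsLocalRing (MonoidAlgebra O G')]
  [AddCommGroup V] [Module O V] [AddCommGroup V₀] [Module O V₀] (Φ : A →ₐ[O] Module.End O V)
  (Φ₀ : A' →ₐ[O] Module.End O V₀) (pA : A →ₐ[O] A') (ζ : G →* A) (ζ₀ : G' →* A') (π : G →* G')
  (ψ : V →ₗ[O] V₀) (hψ : ∀ a x, ψ (Φ a x) = Φ₀ (pA a) (ψ x))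
  (hζ : ∀ g x, Φ₀ (ζ₀ (π g)) x = Φ₀ (pA (ζ g)) x) (hπ : Function.Surjective π)
  (hsur : Function.Surjective ψ) (hker : ∀ x, ψ x = 0 ↔ Φ (eigElem ζ π (1 : G →* Oˣ)) x = 0)

omit [Fintype G'] [IsLocalRing (MonoidAlgebra O G')] in
include hψ hζ hπ hsur hker in
/-- **Bases lift along coinvariants**, and so do ranks. -/
theorem exists_basis_lift {d d₀ : ℕ} (b : Module.Basis (Fin d) (MonoidAlgebra O G) (LatMod Φ ζ))
    (b₀ : Module.Basis (Fin d₀) (MonoidAlgebra O G') (LatMod Φ₀ ζ₀)) :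
    ∃ b' : Module.Basis (Fin d₀) (MonoidAlgebra O G) (LatMod Φ ζ),
      ∀ i, b₀ i = latMap Φ Φ₀ ζ ζ₀ ψ (b' i) := by
  classical
  obtain ⟨c₀, hc₀⟩ := exists_basis_latMap Φ Φ₀ pA ζ ζ₀ π ψ hψ hζ hπ hsur hker b
  let e : Fin d ≃ Fin d₀ := c₀.indexEquiv b₀
  let c : Module.Basis (Fin d₀) (MonoidAlgebra O G') (LatMod Φ₀ ζ₀) := c₀.reindex e
  let bT := b.reindex e
  have hc : ∀ i, c i = latMap Φ Φ₀ ζ ζ₀ ψ (bT i) := fun i => by
    simp only [c, bT, Module.Basis.reindex_apply, hc₀]
  let tw : MonoidAlgebra O G →+* MonoidAlgebra O G' := (twistHom π (1 : G →* Oˣ)).toRingHom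
  have htw : Function.Surjective tw := twistHom_surjective π (1 : G →* Oˣ) hπ
  choose lft hlft using htw
  let S : Matrix (Fin d₀) (Fin d₀) (MonoidAlgebra O G) := Matrix.of fun j i => lft (c.repr (b₀ i) j)
  have hS : tw.mapMatrix S = c.toMatrix b₀ := Matrix.ext fun j i => by
    rw [RingHom.mapMatrix_apply, Matrix.map_apply, Module.Basis.toMatrix_apply]
    exact hlft _
  have hdet : IsUnit S.det := by
    have : IsLocalHom tw := IsLocalHom.of_surjective tw (fun y => ⟨lft y, hlft y⟩)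
    refine IsUnit.of_map tw _ ?_
    rw [RingHom.map_det, hS]
    exact Matrix.isUnit_det_of_right_inverse (c.toMatrix_mul_toMatrix_flip b₀)
  refine ⟨bT.map (Matrix.toLinearEquiv bT S hdet), fun i => ?_⟩
  rw [Module.Basis.map_apply, show (Matrix.toLinearEquiv bT S hdet) (bT i) =
      Matrix.toLin bT bT S (bT i)
    from rfl, Matrix.toLin_self, map_sum]
  conv_lhs => rw [← c.sum_repr (b₀ i)]
  refine Finset.sum_congr rfl fun j _ => ?_
  rw [latMap_smul Φ Φ₀ pA ζ ζ₀ π ψ hψ hζ, hc]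
  exact congrArg (· • _) (hlft _).symm

end Lift

namespace DeltaData

variable {O : Type} [CommRing O] [IsDomain O] [IsDiscreteValuationRing O]
  [IsAdicComplete (maximalIdeal O) O] [Finite (ResidueField O)] [CharZero O]
  {p : ℕ} [Fact p.Prime] {ρbar : GQ →* M2 (ResidueField O)} {St : TStage O p ρbar} {G : Type}
  [CommGroup G] [Fintype G] {ι : Type} [Fintype ι] (W : DeltaData St G ι)

omit [Fact (Nat.Prime p)] in
/-- **The norms of a character agree** when it is trivial wherever the two maps differ. -/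
theorem strElem_nu_of_eigen {ψ : G →* St.C.Ring'} (hψ : W.IsEigenMap ψ) {χ : G →* O}
    (hχ : ∀ j, ψ (W.g j) = W.δ (W.g j) ∨ χ (W.g j) = 1) : strElem ψ (chiNu χ) = W.nu χ := by
  refine sub_eq_zero.1 (St.C.eq_zero_of_points St.hyp.LS fun K _ _ _ _ hK y => ?_)
  rw [map_sub, sub_eq_zero]
  have key : ∀ (φ : G →* St.C.Ring'), (∀ j, y (φ (W.g j)) = algebraMap O K (χ (W.g j))) →
      ∀ g, y (φ g) = algebraMap O K (χ g) := fun φ hφ g => by
    have h : (y.toRingHom.toMonoidHom.comp φ) = (algebraMap O K).toMonoidHom.comp χ := by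
      refine MonoidHom.ext fun x => MonoidHom.eqOn_closureM (s := Set.range W.g) ?_ ?_
      · rintro _ ⟨j, rfl⟩
        exact hφ j
      · rw [← Subgroup.closure_toSubmonoid_of_finite, W.gen]
        exact Subgroup.mem_top x
    exact DFunLike.congr_fun h g
  by_cases hall : ∀ j, y (W.δ (W.g j)) = algebraMap O K (χ (W.g j))
  · have h1 : ∀ j, y (ψ (W.g j)) = algebraMap O K (χ (W.g j)) := fun j => by
      rcases hχ j with h | h
      · rw [h, hall j]
      · rw [h, map_one]
        exact W.point_eq_one hK y hψ j (by rw [hall j, h, map_one])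
    rw [nu, apply_nu y (ψ := ψ) (key ψ h1), apply_nu y (ψ := W.δ) (key W.δ hall)]
  · obtain ⟨j, hj⟩ := not_forall.1 hall
    have h1 : y (ψ (W.g j)) ≠ algebraMap O K (χ (W.g j)) := by
      rcases hχ j with h | h
      · rwa [h]
      · rw [h, map_one]
        exact W.point_ne_one hK y hψ j (by rwa [h, map_one] at hj)
    rw [nu, apply_nu_eq_zero y (ψ := ψ) h1, apply_nu_eq_zero y (ψ := W.δ) hj]

end DeltaData

end Fermat.Agent.Root.Patched
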