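import Fermat.Agent.Root.Patched.TraceRing
import Fermat.Agent.Root.Patched.Standard

/-!
# The rings of a tower from their members

The local conditions of a standard system, reducedness and the character type on inertia pass from
finitely many members to the ring glued from them.
-/

set_option autoImplicit false

noncomputable section

open IsLocalRing Polynomial

namespace Fermat.Agent.Root.Patched

open Fermat.Agent.Deformation

local notation "ℚbar" => AlgebraicClosure ℚ

variable {O : Type} [CommRing O] [IsDomain O] [IsDiscreteValuationRing O]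
  [IsAdicComplete (maximalIdeal O) O] [Finite (ResidueField O)] [CharZero O]
  {ρbar : GQ →* M2 (ResidueField O)} {ι : Type} {S : ι → TestRing O}
  {ℓ : ∀ i, Lift ρbar (S i)}

omit [IsAdicComplete (maximalIdeal O) O] [Finite (ResidueField O)] [CharZero O] in
theorem Glued.isReduced (G : Glued ℓ) (h : ∀ i, IsReduced (S i).R) : IsReduced G.J.R :=
  ⟨fun x hx => G.injective x fun i => haveI := h i; (hx.map (G.pr i)).eq_zero⟩

omit [IsAdicComplete (maximalIdeal O) O] [Finite (ResidueField O)] [CharZero O] in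
theorem Glued.pr_trace (G : Glued ℓ) (i : ι) (g : GQ) :
    G.pr i (G.lift.M g).trace = ((ℓ i).M g).trace := by
  have h : ((G.lift.M g).map (G.pr i)).trace = ((ℓ i).M g).trace := by
    rw [G.conj, Matrix.trace_units_conj]
  rw [← h]
  exact AddMonoidHom.map_trace (G.pr i).toAddMonoidHom _

variable {p : ℕ} [Fact p.Prime] {Sys : LocalSystem O ρbar p} {ζ : O}

omit [IsAdicComplete (maximalIdeal O) O] [Finite (ResidueField O)] [CharZero O]
    [Fact (Nat.Prime p)] in
/-- **Classes of inertia characters at the primes of a ring.** -/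
theorem exists_class_of_prod_eq_zero (St : StdData Sys ζ) (T : TestRing O) (r : Lift ρbar T)
    (τ : GQ) (hdet : (r.M τ).det = 1)
    (hprod : ∏ k ∈ Finset.Ico 1 p, ((r.M τ).trace - T.alg (ζ ^ k + ζ ^ (k * (p - 1)))) = 0)
    (P : Ideal T.R) [P.IsPrime] :
    ∃ b, (r.M τ).charpoly.map (Ideal.Quotient.mk P) =
      ((X - C (T.alg (Sys.ζ b))) * (X - C (T.alg (Sys.ζi b)))).map (Ideal.Quotient.mk P) := by
  have h0 : (∏ k ∈ Finset.Ico 1 p, ((r.M τ).trace - T.alg (ζ ^ k + ζ ^ (k * (p - 1))))) ∈ P := by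
    rw [hprod]; exact P.zero_mem
  obtain ⟨k, hk, hkP⟩ := (Ideal.IsPrime.prod_mem_iff).1 h0
  rw [Finset.mem_Ico] at hk
  obtain ⟨b, hb, hb1⟩ := St.classes k fun hd => by
    have := Nat.le_of_dvd (by omega) hd
    omega
  refine ⟨b, ?_⟩
  rw [← hb, ← Ideal.Quotient.eq_zero_iff_mem, map_sub, sub_eq_zero] at hkP
  have h1 : T.alg (Sys.ζ b) * T.alg (Sys.ζi b) = 1 := by rw [← map_mul, hb1, map_one]
  have hexp : ((X - C (T.alg (Sys.ζ b))) * (X - C (T.alg (Sys.ζi b))) : T.R[X]) =
      X ^ 2 - C (T.alg (Sys.ζ b) + T.alg (Sys.ζi b)) * X +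
        C (T.alg (Sys.ζ b) * T.alg (Sys.ζi b)) := by
    simp only [map_add, map_mul]
    ring
  rw [Matrix.charpoly_fin_two, hdet, hexp, h1]
  simp only [Polynomial.map_add, Polynomial.map_sub, Polynomial.map_mul, Polynomial.map_pow,
    Polynomial.map_X, Polynomial.map_C]
  rw [hkP, map_add]

variable [Fintype ι] [Nonempty ι]

/-- The types of the members at the flip and plain places. -/
structure MemberTypes (St : StdData Sys ζ) (ℓ : ∀ i, Lift ρbar (S i)) : Prop where
  det : ∀ i, DetCyclotomic p (S i) (ℓ i)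
  flip : ∀ f, Sys.q (.inr (.inl f)) ≠ p → ∀ i, Unipotent (Sys.P (.inr (.inl f))) (S i) (ℓ i)
  flip_p : ∀ f, Sys.q (.inr (.inl f)) = p → ∀ i, ∃ s,
    OrdinaryShape (Sys.P (.inr (.inl f))) (S i) (ℓ i) s ∧
      (S i).red (s (St.φf f)) = residue O (St.s₀ f)
  plain : ∀ u, Sys.q (.inr (.inr u)) ≠ p → ∀ i, Unipotent (Sys.P (.inr (.inr u))) (S i) (ℓ i)
  plain_flat : St.flat → ∀ u, Sys.q (.inr (.inr u)) = p → ∀ i, FlatShape p (S i) (ℓ i)
  plain_st : ¬ St.flat → ∀ u, Sys.q (.inr (.inr u)) = p → ∀ i,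
    SteinbergShape (Sys.P (.inr (.inr u))) (S i) (ℓ i)

omit [IsAdicComplete (maximalIdeal O) O] [Finite (ResidueField O)] [CharZero O] in
/-- **All conditions pass to the glued lift.** -/
theorem MemberTypes.cond {St : StdData Sys ζ} (M : MemberTypes St ℓ) (G : Glued ℓ) (hp2 : p ≠ 2)
    (hp : (p : O) ∈ maximalIdeal O) : ∀ v, Sys.Cond v G.J G.lift := by
  have hdet := G.detCyclotomic hp M.det
  have hP : ∀ v, Sys.q v = p → (Sys.P v).LiesOverPrime p := fun v h => by
    have hv := Sys.P_over v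
    rwa [h] at hv
  rintro (i | f | u)
  · exact hdet
  · by_cases hf : Sys.q (.inr (.inl f)) = p
    · refine (St.flip_eq f hf G.J G.lift).2 ⟨hdet, ?_⟩
      obtain ⟨s, hs, hpr⟩ := G.ordinary hp2 hp M.det _ (hP _ hf)
        fun i => (M.flip_p f hf i).imp fun _ h => h.1
      refine ⟨s, hs, ?_⟩
      obtain ⟨i⟩ := (inferInstance : Nonempty ι)
      obtain ⟨si, hsi, hred⟩ := M.flip_p f hf i
      rw [← hred, ← hpr i si hsi, ← RingHom.comp_apply, G.pr_red]
    · exact (St.flip_ne f hf G.J G.lift).2 ⟨hdet, G.unipotent _ (M.flip f hf)⟩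
  · by_cases hu : Sys.q (.inr (.inr u)) = p
    · by_cases hfl : St.flat
      · exact (St.plain_flat hfl u hu G.J G.lift).2
          ⟨hdet, G.flat (M.plain_flat hfl u hu)⟩
      · exact (St.plain_st hfl u hu G.J G.lift).2
          ⟨hdet, G.steinberg_at_p hp2 hp M.det _ (hP _ hu) (M.plain_st hfl u hu)⟩
    · exact (St.plain_ne u hu G.J G.lift).2 ⟨hdet, G.steinberg_of_ramified hp M.det
        (Sys.q_prime _) hu _ (Sys.P_over _) (St.plain_ram u hu) (M.plain u hu)⟩

omit [IsAdicComplete (maximalIdeal O) O] [Finite (ResidueField O)] [CharZero O]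
    [Fact (Nat.Prime p)] in
/-- A member has its types as soon as it has the conditions. -/
theorem flip_p_of_cond (St : StdData Sys ζ) (f : Fin Sys.s) (hf : Sys.q (.inr (.inl f)) = p)
    {T : TestRing O} {r : Lift ρbar T} (h : Sys.flipCond f T r) :
    ∃ s, OrdinaryShape (Sys.P (.inr (.inl f))) T r s ∧ T.red (s (St.φf f)) = residue O (St.s₀ f) :=
  ((St.flip_eq f hf T r).1 h).2

end Fermat.Agent.Root.Patched
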