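import Fermat.Agent.Root.Patched.TowerMember
import Fermat.Agent.Root.Patched.TowerRings
import Fermat.Agent.TW.AuxLevel
import Fermat.Agent.Density.Reps

/-!
# Common definitions for the construction of towers

A `TStage` is the Hecke data of one member: a level, a group, the residual eigensystem with its
representation, and a cut.  Sub-cuts, diamond values, uniqueness of traces from Frobenius, maps
into glued rings, and the auxiliary groups and chains of levels of a tower.
-/

set_option autoImplicit false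

noncomputable section

namespace Fermat.Agent.Root.Patched

open IsLocalRing Fermat.Agent.Deformation Fermat.Agent.GammaH Fermat.Agent.TW

local notation "ℚbar" => AlgebraicClosure ℚ

variable {O : Type} [CommRing O] [IsDomain O] [IsDiscreteValuationRing O]
  [IsAdicComplete (maximalIdeal O) O] [Finite (ResidueField O)] [CharZero O]

section Sub

variable {L : ℕ} [NeZero L] {H : Subgroup (ZMod L)ˣ} {S : Finset ℕ} {hH : (-1 : (ZMod L)ˣ) ∈ H}
  {θ : heckeRing L H (↑S : Set ℕ) →+* ResidueField O} (C : Cut hH θ)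

/-- The part of a cut cut out by an element of the Hecke ring. -/
def Cut.sub (z : HeckeO L H (↑S : Set ℕ) O) (hz : actO hH O z * C.E ≠ 0) : Cut hH θ where
  E := actO hH O z * C.E
  comm w := ((Commute.all z w).map (actO hH O)).mul_left (C.comm w)
  below := by
    rw [← mul_assoc, ((Commute.all (twIdem hH O θ) z).map (actO hH O)).eq, mul_assoc, C.below]
  ne := hz

omit [Finite (ResidueField O)] [CharZero O] in
theorem Cut.kerIdeal_le_sub (z : HeckeO L H (↑S : Set ℕ) O) (hz : actO hH O z * C.E ≠ 0) :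
    C.kerIdeal ≤ (C.sub z hz).kerIdeal := fun w hw => by
  have h := (C.act_eq_zero_iff w).1 hw
  refine ((C.sub z hz).act_eq_zero_iff w).2 ?_
  show actO hH O w * (actO hH O z * C.E) = 0
  rw [← mul_assoc, ((Commute.all w z).map (actO hH O)).eq, mul_assoc, h, mul_zero]

/-- The map to the ring of a part. -/
def Cut.toSub (z : HeckeO L H (↑S : Set ℕ) O) (hz : actO hH O z * C.E ≠ 0) :
    C.Ring' →ₐ[O] (C.sub z hz).Ring' :=
  Ideal.Quotient.factorₐ O (C.kerIdeal_le_sub z hz)

omit [Finite (ResidueField O)] [CharZero O] in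
theorem Cut.toSub_mk (z : HeckeO L H (↑S : Set ℕ) O) (hz : actO hH O z * C.E ≠ 0)
    (w : HeckeO L H (↑S : Set ℕ) O) :
    C.toSub z hz (Ideal.Quotient.mk C.kerIdeal w) = Ideal.Quotient.mk (C.sub z hz).kerIdeal w := rfl

omit [Finite (ResidueField O)] [CharZero O] in
theorem Cut.red_toSub (z : HeckeO L H (↑S : Set ℕ) O) (hz : actO hH O z * C.E ≠ 0) (x : C.Ring') :
    (C.sub z hz).red (C.toSub z hz x) = C.red x := by
  obtain ⟨w, rfl⟩ := Ideal.Quotient.mk_surjective x
  rfl

/-- The values of the diamond operators. -/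
def Cut.dia : (ZMod L)ˣ →* C.Ring' where
  toFun a := Ideal.Quotient.mk C.kerIdeal (HeckeO.ofT O (diamondR a))
  map_one' := by rw [diamondR_one, map_one, map_one]
  map_mul' a b := by rw [diamondR_mul, map_mul, map_mul]

omit [Finite (ResidueField O)] [CharZero O] in
theorem Cut.dia_eq_one {a : (ZMod L)ˣ} (ha : a ∈ H) : C.dia a = 1 := by
  show Ideal.Quotient.mk C.kerIdeal (HeckeO.ofT O (diamondR a)) = 1
  rw [diamondR_of_mem ha, map_one, map_one]

/-- The values of the diamond operators on the quotient by `H`. -/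
def Cut.delta : Dl H (⊤ : Subgroup (ZMod L)ˣ) →* C.Ring' :=
  QuotientGroup.lift _ (C.dia.comp (Subgroup.subtype ⊤)) fun _a ha =>
    C.dia_eq_one (Subgroup.mem_subgroupOf.1 ha)

end Sub

variable (O) in
/-- The Hecke data of one member. -/
structure TStage (p : ℕ) (ρbar : GQ →* M2 (ResidueField O)) where
  L : ℕ
  [neL : NeZero L]
  H : Subgroup (ZMod L)ˣ
  neg : (-1 : (ZMod L)ˣ) ∈ H
  S : Finset ℕ
  θ : heckeRing L H (↑S : Set ℕ) →+* ResidueField O
  R : ℕ
  [neR : NeZero R]
  h : ℕ
  ρ' : ResidualGaloisRep (ResidueField O)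
  hyp : TWHyp (H := H) (S := S) (O := O) p R h neg θ ρ' ρbar
  diamond_one : ∀ a, θ (diamondR a) = 1
  [int : Fact (CuspForm.HasIntegralStructure (L * R) 2)]
  D : TWRep (H := H) (S := S) (O := O) p R h (rfl : R = R) neg θ ρbar
  C : Cut neg θ

attribute [instance] TStage.neL TStage.neR TStage.int

variable {p : ℕ} {ρbar : GQ →* M2 (ResidueField O)}

namespace TStage

variable (St : TStage O p ρbar)

/-- The test ring of a stage. -/
abbrev ring : TestRing O := St.C.testRing

/-- The lift of a stage. -/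
abbrev lift : Lift ρbar St.ring := St.C.lift St.D

/-- The sub-stage cut out by an element of the Hecke ring. -/
def sub (z : HeckeO St.L St.H (↑St.S : Set ℕ) O) (hz : actO St.neg O z * St.C.E ≠ 0) :
    TStage O p ρbar :=
  { St with C := St.C.sub z hz }

theorem sub_lift_M (z : HeckeO St.L St.H (↑St.S : Set ℕ) O) (hz : actO St.neg O z * St.C.E ≠ 0)
    (σ : GQ) : (St.sub z hz).lift.M σ = (St.lift.M σ).map (St.C.toSub z hz).toRingHom := by
  refine Matrix.ext fun i j => ?_
  obtain ⟨w, hw⟩ := toTWRing_surjective St.neg O St.θ (St.D.ψ (St.D.M₀ σ i j))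
  show (St.C.sub z hz).ofTW (St.D.ψ (St.D.M₀ σ i j)) =
    St.C.toSub z hz (St.C.ofTW (St.D.ψ (St.D.M₀ σ i j)))
  rw [← hw, Cut.ofTW_toTWRing, Cut.ofTW_toTWRing, Cut.toSub_mk]

end TStage

/-! ## Traces from Frobenius -/

omit [IsAdicComplete (maximalIdeal O) O] [Finite (ResidueField O)] [CharZero O] in
/-- Two lifts over one test ring with the same Frobenius traces at almost all primes and
cyclotomic determinants have the same traces. -/
theorem Lift.trace_ext [Fact p.Prime] (hp : (p : O) ∈ maximalIdeal O) {T : TestRing O}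
    (r r' : Lift ρbar T) (hd : DetCyclotomic p T r) (hd' : DetCyclotomic p T r') (S : Finset ℕ)
    (h : ∀ l : ℕ, l.Prime → l ∉ S → ∀ A : ValuationSubring ℚbar, A.LiesOverPrime l →
      ∀ σ : GQ, A.IsFrobeniusAt σ l → (r.M σ).trace = (r'.M σ).trace) (σ : GQ) :
    (r.M σ).trace = (r'.M σ).trace := by
  have hpT := TestRing.natCast_mem T hp
  have h1 := Density.adic_charpoly_eq_of_forall_frobenius (ofMatrix r.M r.cont)
    (ofMatrix r'.M r'.cont) (↑(insert p S) : Set ℕ) (Finset.finite_toSet _)
    (fun l hl hlS A hA τ hτ => by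
      have hlp : l ≠ p := fun e => hlS (by simp [e])
      refine (Matrix.charpoly_toLin' (r.M τ)).trans (Eq.trans ?_
        (Matrix.charpoly_toLin' (r'.M τ)).symm)
      rw [Matrix.charpoly_fin_two, Matrix.charpoly_fin_two,
        h l hl (fun e => hlS (by simp [e])) A hA τ hτ,
        det_frobenius_eq hpT hd hl hlp hA hτ, det_frobenius_eq hpT hd' hl hlp hA hτ]) σ
  have h2 := (Matrix.charpoly_toLin' (r.M σ)).symm.trans
    (h1.trans (Matrix.charpoly_toLin' (r'.M σ)))
  rw [Matrix.charpoly_fin_two, Matrix.charpoly_fin_two] at h2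
  have h3 := congrArg (fun P : Polynomial T.R => P.coeff 1) h2
  simpa [Polynomial.coeff_X_pow] using h3

omit [IsAdicComplete (maximalIdeal O) O] [Finite (ResidueField O)] [CharZero O] in
/-- **Maps into a glued ring.** -/
theorem Glued.exists_map {ι : Type} {S : ι → TestRing O} {ℓ : ∀ i, Lift ρbar (S i)} (G : Glued ℓ)
    {T : TestRing O} (r : Lift ρbar T)
    (hgen : Subring.closure (Set.range T.alg ∪ Set.range fun σ => (r.M σ).trace) = ⊤)
    (f : ∀ i, T.R →+* (S i).R) (ha : ∀ i, (f i).comp T.alg = (S i).alg)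
    (ht : ∀ i σ, f i (r.M σ).trace = ((ℓ i).M σ).trace) [Nonempty ι] :
    ∃ π : T.R →+* G.J.R, π.comp T.alg = G.J.alg ∧ G.J.red.comp π = T.red ∧
      Function.Surjective π ∧ (∀ σ, π (r.M σ).trace = (G.lift.M σ).trace) ∧
      ∀ i z, G.pr i (π z) = f i z := by
  have hex : ∀ z, ∃ w, ∀ i, G.pr i w = f i z := by
    intro z
    have hz : z ∈ Subring.closure (Set.range T.alg ∪ Set.range fun σ => (r.M σ).trace) := by
      rw [hgen]; trivial
    induction hz using Subring.closure_induction with
    | mem x hx =>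
      rcases hx with ⟨a, rfl⟩ | ⟨σ, rfl⟩
      · exact ⟨G.J.alg a, fun i => (RingHom.congr_fun (G.pr_alg i) a).trans
          (RingHom.congr_fun (ha i) a).symm⟩
      · exact ⟨(G.lift.M σ).trace, fun i => (G.pr_trace i σ).trans (ht i σ).symm⟩
    | zero => exact ⟨0, fun i => by rw [map_zero, map_zero]⟩
    | one => exact ⟨1, fun i => by rw [map_one, map_one]⟩
    | add x y _ _ hx hy =>
      obtain ⟨u, hu⟩ := hx
      obtain ⟨v, hv⟩ := hy
      exact ⟨u + v, fun i => by rw [map_add, map_add, hu, hv]⟩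
    | neg x _ hx =>
      obtain ⟨u, hu⟩ := hx
      exact ⟨-u, fun i => by rw [map_neg, map_neg, hu]⟩
    | mul x y _ _ hx hy =>
      obtain ⟨u, hu⟩ := hx
      obtain ⟨v, hv⟩ := hy
      exact ⟨u * v, fun i => by rw [map_mul, map_mul, hu, hv]⟩
  choose g hg using hex
  have uniq : ∀ {u v}, (∀ i, G.pr i u = G.pr i v) → u = v := fun h =>
    sub_eq_zero.mp (G.injective _ fun i => by rw [map_sub, h i, sub_self])
  let π : T.R →+* G.J.R :=
    { toFun := g
      map_one' := uniq fun i => by rw [hg, map_one, map_one]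
      map_mul' := fun x y => uniq fun i => by rw [hg, map_mul, map_mul, hg, hg]
      map_zero' := uniq fun i => by rw [hg, map_zero, map_zero]
      map_add' := fun x y => uniq fun i => by rw [hg, map_add, map_add, hg, hg] }
  have hπa : π.comp T.alg = G.J.alg := RingHom.ext fun a => uniq fun i =>
    (hg _ i).trans ((RingHom.congr_fun (ha i) a).trans (RingHom.congr_fun (G.pr_alg i) a).symm)
  have hπt : ∀ σ, π (r.M σ).trace = (G.lift.M σ).trace := fun σ =>
    uniq fun i => (hg _ i).trans ((ht i σ).trans (G.pr_trace i σ).symm)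
  have hsurj : Function.Surjective π := by
    intro z
    have hz : z ∈ Subring.closure (Set.range G.J.alg ∪ Set.range fun σ => (G.lift.M σ).trace) := by
      rw [G.gen]; trivial
    refine (Subring.closure_le (t := π.range)).2 ?_ hz
    rintro x (⟨a, rfl⟩ | ⟨σ, rfl⟩)
    · exact ⟨T.alg a, RingHom.congr_fun hπa a⟩
    · exact ⟨_, hπt σ⟩
  refine ⟨π, hπa, RingHom.eq_of_eqOn_set_top ?_, hsurj, hπt, fun i z => hg z i⟩
  rw [← hgen]
  refine RingHom.eqOn_set_closure ?_
  rintro x (⟨a, rfl⟩ | ⟨σ, rfl⟩)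
  · show G.J.red (π (T.alg a)) = T.red (T.alg a)
    rw [T.red_alg, ← G.J.red_alg, ← hπa]
    rfl
  · show G.J.red (π (r.M σ).trace) = T.red (r.M σ).trace
    rw [hπt, ← r.reduces σ |> fun e => show (ρbar σ).trace = T.red (r.M σ).trace by
      rw [← e]; exact (AddMonoidHom.map_trace T.red.toAddMonoidHom _).symm]
    rw [← G.lift.reduces σ]
    exact AddMonoidHom.map_trace G.J.red.toAddMonoidHom _

/-! ## Auxiliary groups and chains -/

/-- The auxiliary primes of level `M`: full `p`-part at `Q`, order `p` at `A`. -/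
def auxOf (M : ℕ) (Q A : Finset ℕ) (hprime : ∀ q ∈ Q ∪ A, q.Prime) (hdvd : ∀ q ∈ Q ∪ A, q ∣ M)
    (hsq : ∀ q ∈ Q ∪ A, ¬ q ^ 2 ∣ M) (hA : ∀ q ∈ A, p ∣ q - 1) : AuxPrimes M p where
  Q := Q ∪ A
  prime := hprime
  dvd := hdvd
  sq := hsq
  m q := if q ∈ Q then p ^ (q - 1).factorization p else p
  m_dvd q hq := by
    split_ifs with h
    · exact Nat.ordProj_dvd _ _
    · exact hA q ((Finset.mem_union.1 hq).resolve_left h)
  m_pow q _ := by
    split_ifs
    · exact ⟨_, rfl⟩
    · exact ⟨1, (pow_one p).symm⟩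

/-- The flip primes, padded with `2`. -/
def flipPrime (Sys : LocalSystem O ρbar p) (f : ℕ) : ℕ :=
  if h : f < Sys.s then Sys.q (.inr (.inl ⟨f, h⟩)) else 2

omit [IsAdicComplete (maximalIdeal O) O] [Finite (ResidueField O)] [CharZero O] in
theorem flipPrime_prime (Sys : LocalSystem O ρbar p) (f : ℕ) : (flipPrime Sys f).Prime := by
  rw [flipPrime]
  split_ifs
  exacts [Sys.q_prime _, Nat.prime_two]

omit [IsAdicComplete (maximalIdeal O) O] [Finite (ResidueField O)] [CharZero O] in
theorem flipPrime_eq (Sys : LocalSystem O ρbar p) (f : Fin Sys.s) :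
    flipPrime Sys f = Sys.q (.inr (.inl f)) := dif_pos f.2

/-- The avoided primes. -/
def avoidSet (Sys : LocalSystem O ρbar p) : Finset ℕ :=
  Finset.univ.image fun i : Fin Sys.r => Sys.q (.inl i)

omit [IsAdicComplete (maximalIdeal O) O] [Finite (ResidueField O)] [CharZero O] in
/-- The avoided primes are those of the Ihara avoidance places. -/
theorem mem_avoidSet {Sys : LocalSystem O ρbar p} {q : ℕ} :
    q ∈ avoidSet Sys ↔ ∃ i, Sys.q (.inl i) = q := by
  simp [avoidSet]

end Fermat.Agent.Root.Patched
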