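import Fermat.Agent.Root.Patched.TowerEnd2
import Fermat.Agent.Root.Patched.TowerDescent
import Fermat.Agent.Root.Patched.TowerSetup
import Fermat.Agent.Root.Patched.TowerTheta
import Fermat.Agent.TW.AuxPrime
import Fermat.Agent.TW.FreeThree

/-!
# The lowering clause at stage `0`

Without a residual newform of level dividing `M = N / q` the lift of stage `0` has
`tr(Frob_q)² = (q + 1)²`.
-/

set_option autoImplicit false

noncomputable section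

open IsLocalRing Polynomial

namespace Fermat.Agent.Root.Patched

open Fermat.Agent.Deformation Fermat.Agent.GammaH Fermat.Agent.TW Fermat.Agent.IharaTW
open scoped MatrixGroups

local notation "ℚbar" => AlgebraicClosure ℚ

variable {O : Type} [CommRing O] [IsDomain O] [IsDiscreteValuationRing O]
  [IsAdicComplete (maximalIdeal O) O] [Finite (ResidueField O)] [CharZero O]
  {p : ℕ} [Fact p.Prime] {W : WeierstrassCurve ℤ}

omit [Fact (Nat.Prime p)] in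
theorem auxPrimes_isPGroup {L : ℕ} [NeZero L] (A : AuxPrimes L p) :
    IsPGroup p (Dl A.H (⊤ : Subgroup (ZMod L)ˣ)) := by
  classical
  intro x
  choose v hv using A.m_pow
  refine ⟨A.Q.attach.sup fun q => v q.1 q.2, A.eq_one_of_comp fun q => ?_⟩
  obtain ⟨a, rfl⟩ := A.cls_surjective x
  rw [map_pow, A.comp_cls, ← orderOf_dvd_iff_pow_eq_one]
  refine dvd_trans (orderOf_dvd_of_pow_eq_one (A.pow_m q.1 q.2 a)) ?_
  rw [hv q.1 q.2]
  exact pow_dvd_pow p (Finset.le_sup (f := fun q : A.Q => v q.1 q.2) (Finset.mem_attach _ q))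

/-- The auxiliary primes of `L₁ q` seen at level `L₁`. -/
def auxPrimesBelow {L₁ q : ℕ} (A : AuxPrimes (L₁ * q) p) (hq : q.Prime) (hqA : q ∉ A.Q) :
    AuxPrimes L₁ p where
  Q := A.Q
  prime := A.prime
  dvd x hx := ((Nat.coprime_primes (A.prime x hx) hq).2 fun e => hqA (e ▸ hx)).dvd_of_dvd_mul_right
    (A.dvd x hx)
  sq x hx h := A.sq x hx (dvd_mul_of_dvd_left h q)
  m := A.m
  m_dvd := A.m_dvd
  m_pow := A.m_pow

omit [Fact (Nat.Prime p)] in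
theorem auxPrimes_H_eq_Hq {L₁ q : ℕ} [NeZero L₁] [NeZero (L₁ * q)] (hq : q.Prime)
    (A : AuxPrimes (L₁ * q) p) (hqA : q ∉ A.Q) :
    A.H = Hq L₁ q (auxPrimesBelow A hq hqA).H := by
  ext a
  show a ∈ A.H ↔ ZMod.unitsMap (dvd_mul_right L₁ q) a ∈ (auxPrimesBelow A hq hqA).H
  rw [A.mem_H_iff, (auxPrimesBelow A hq hqA).mem_H_iff]
  have e : ∀ (x : ℕ) (hx : x ∈ A.Q),
      ZMod.unitsMap ((auxPrimesBelow A hq hqA).dvd x hx) (ZMod.unitsMap (dvd_mul_right L₁ q) a) =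
        ZMod.unitsMap (A.dvd x hx) a := fun x hx => by
    rw [← MonoidHom.comp_apply, ZMod.unitsMap_comp]
  exact ⟨fun h x hx => by rw [e x hx]; exact h x hx, fun h x hx => by rw [← e x hx]; exact h x hx⟩

/-- **Lowering clause at level `L₁ q`.** -/
theorem Cut.sq_trace_eq_of_no_resNewform (hp2 : p ≠ 2) (hW : Semistable W)
    (hirr : W.ModRepIsIrreducible p) (D : ResidualData O p W) {L₁ q R h : ℕ} [hqF : Fact q.Prime]
    [NeZero L₁] [NeZero (L₁ * q)] [NeZero R] (hqL : ¬ q ∣ L₁) (hqp : q ≠ p) (hqR : ¬ q ∣ R)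
    (hpL : ¬ p ^ 2 ∣ L₁) (h3 : p = 3 → ∃ r : ℕ, r.Prime ∧ r ∣ L₁ ∧ r % 3 = 2)
    (A : AuxPrimes (L₁ * q) p) (hqA : q ∉ A.Q) {M : ℕ} (hM : L₁ = M * ∏ x ∈ A.Q, x)
    (hA : ∀ x ∈ A.Q, x ≠ p ∧ p ∣ x - 1)
    (hdist : ∀ x ∈ A.Q, ∀ P : ValuationSubring ℚbar, P.LiesOverPrime x → ∀ σ : GQ,
      P.IsFrobeniusAt σ x →
        ∃ α β : ResidueField O, α ≠ β ∧ (D.ρbar σ).charpoly = (X - C α) * (X - C β))
    {S : Finset ℕ} (hWS : ∀ x : ℕ, x.Prime → (x : ℤ) ∣ W.Δ → x ∈ S)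
    {H : Subgroup (ZMod (L₁ * q))ˣ} (hAH : A.H = H) {hH : (-1 : (ZMod (L₁ * q))ˣ) ∈ H}
    [Fact (CuspForm.HasIntegralStructure (L₁ * q * R) 2)]
    {θ : heckeRing (L₁ * q) H (↑S : Set ℕ) →+* ResidueField O}
    (hθd : ∀ a, θ (diamondR a) = 1)
    {ρbar' : ResidualGaloisRep (ResidueField O)}
    (hyp : TWHyp (H := H) (S := S) (O := O) p R h hH θ ρbar' D.ρbar)
    (Dr : TWRep (H := H) (S := S) (O := O) p R h (rfl : R = R) hH θ D.ρbar) (C : Cut hH θ)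
    (hno : ¬ ∃ M', M' ∣ M ∧ ResNewform p W M')
    {P : ValuationSubring ℚbar} (hP : P.LiesOverPrime q) {σ : GQ} (hσ : P.IsFrobeniusAt σ q) :
    ((C.lift Dr).M σ).trace ^ 2 = algebraMap O C.Ring' (((q : O) + 1) ^ 2) := by
  classical
  obtain rfl : H = Hq L₁ q (auxPrimesBelow A hqF.out hqA).H :=
    hAH.symm.trans (auxPrimes_H_eq_Hq hqF.out A hqA)
  set A₁ := auxPrimesBelow A hqF.out hqA
  have hRL : R ∣ L₁ :=
    ((hqF.out.coprime_iff_not_dvd.2 hqR).symm).dvd_of_dvd_mul_right hyp.R_dvd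
  refine C.sq_trace_eq_of_no_character hqL hqp hRL hyp Dr ?_ hP hσ
  rintro ⟨θ₁, hθ₁⟩
  refine hno ?_
  have hH₁ : (-1 : (ZMod L₁)ˣ) ∈ A₁.H := neg_one_mem_of_Hq hH
  have hqS : q ∈ S := hyp.LS q hqF.out (dvd_mul_left q L₁)
  have hLS₁ : ∀ x : ℕ, x.Prime → x ∣ L₁ → x ∈ S := fun x hx hd =>
    hyp.LS x hx (dvd_mul_of_dvd_left hd q)
  have hd₁ : ∀ a, θ₁ (diamondR a) = 1 := fun a => by
    obtain ⟨b, rfl⟩ := ZMod.unitsMap_surjective (dvd_mul_right L₁ q) a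
    rw [← stageR_diamondR L₁ q hqL A₁.H hH₁ hH hyp.LS b, ← RingHom.comp_apply, hθ₁, hθd]
  have hlq : ∀ (l : ℕ), l.Prime → ¬ l ∣ L₁ → l ∉ (↑S : Set ℕ) → ¬ l ∣ L₁ * q := by
    intro l hl hlL hlS hd
    exact (hl.dvd_mul.1 hd).elim hlL fun h =>
      hlS (((Nat.prime_dvd_prime_iff_eq hl hqF.out).1 h).symm ▸ hqS)
  have hT₁ : ∀ (l : ℕ) (hl : l.Prime) (hlL : ¬ l ∣ L₁) (hlS : l ∉ (↑S : Set ℕ))
      (P : ValuationSubring ℚbar), P.LiesOverPrime l → ∀ τ : GQ, P.IsFrobeniusAt τ l →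
        θ₁ (heckeTR hl hlL hlS) = (D.ρbar τ).trace := by
    intro l hl hlL hlS P' hP' τ hτ
    rw [← stageR_heckeTR L₁ q hqL A₁.H hH₁ hH hyp.LS hl (hlq l hl hlL hlS) hlL hlS,
      ← RingHom.comp_apply, hθ₁, twHyp_theta_heckeTR hyp hθd hl (hlq l hl hlL hlS) hlS hP' hτ]
  have hgood : ∀ l : ℕ, l.Prime → l ∉ (↑S : Set ℕ) → W.IsGoodPrimeFor l ∧ l ≠ p :=
    fun l hl hlS => ⟨fun hd => hlS (by simpa using hWS l hl hd),
      fun e => hlS (by simpa [e] using hyp.mem_S)⟩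
  -- the auxiliary prime
  obtain ⟨hfin, hspan⟩ := rhobar_span hp2 hW hirr D
  have hpk : (p : ResidueField O) = 0 := by
    rw [← map_natCast (residue O), residue_eq_zero_iff]; exact D.p_mem
  have h2 : (2 : ResidueField O) ≠ 0 := by
    rw [← map_ofNat (residue O)]
    exact ((OrdinaryP.isUnit_two_of_mem (Fact.out : p.Prime) hp2 D.p_mem).map (residue O)).ne_zero
  obtain ⟨l, hl, hlS, hlL, -, hl1, hlk, hltr⟩ := exists_aux_prime (Fact.out : p.Prime) hpk h2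
    D.ρbar hfin hspan S (fun l hl hlS P' hP' τ hτ => by
      obtain ⟨hg, hne⟩ := hgood l hl (by simpa using hlS)
      rw [D.ρbar_eq, ← RingHom.mapMatrix_apply, ← RingHom.map_det,
        (trace_det_of_charpoly_eq (D.charpoly_ρ₀ hl hg hne hP' hτ)).2, map_natCast])
    (NeZero.ne L₁)
  have hlS' : l ∉ (↑S : Set ℕ) := by simpa using hlS
  have hθl : θ₁ (heckeTR hl hlL hlS') ≠ ((l + 1 : ℕ) : ResidueField O) := by
    obtain ⟨P', hP'⟩ := Gal.exists_liesOverPrime (L := ℚbar) hl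
    obtain ⟨τ, hτ⟩ := Gal.exists_isFrobeniusAt hl hP'
    rw [hT₁ l hl hlL hlS' P' hP' τ hτ, Nat.cast_add, Nat.cast_one, hlk, one_add_one_eq_two]
    exact hltr P' hP' τ hτ
  have hpG := auxPrimes_isPGroup A₁
  obtain ⟨θ₂, hθ₂⟩ := exists_comp_heckeRes_eq hH₁ D.p_mem θ₁ hl hlL hlS' hl1 hθl hpG
    fun g hg h12 => by
      by_cases hp3 : p = 3
      · subst hp3
        obtain ⟨r, hr, hrL, hr3⟩ := h3 rfl
        have := Fact.mk hr
        exact mem_GammaH_of_pow_twelve_three hpG hrL hr3 hg h12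
      · refine mem_GammaH_of_pow_twelve hpG (Or.inl ?_) hg h12
        have := (Fact.out : p.Prime).two_le
        rcases Nat.lt_or_ge p 5 with h | h
        · exfalso
          obtain rfl : p = 4 := by omega
          exact absurd (Fact.out : (4 : ℕ).Prime) (by decide)
        · exact h
  obtain ⟨M₁, hM₁, hM₁Q, hres⟩ := exists_resNewform_of_character hp2 D hpL hyp.mem_S hLS₁ hWS θ₂
    (fun m hm hmL hmS => by
      obtain ⟨P', hP'⟩ := Gal.exists_liesOverPrime (L := ℚbar) hm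
      obtain ⟨τ, hτ⟩ := Gal.exists_isFrobeniusAt hm hP'
      obtain ⟨hg, hne⟩ := hgood m hm hmS
      rw [← heckeRes_heckeT (le_top : A₁.H ≤ ⊤) hm hmL hmS, ← RingHom.comp_apply, hθ₂,
        hT₁ m hm hmL hmS P' hP' τ hτ, D.trace_frob hm hg hne hP' hτ])
    A.Q (fun x hx => ⟨A.prime x hx, (hA x hx).1, (hA x hx).2, A₁.sq x hx⟩) hdist
  refine ⟨M₁, ?_, hres⟩
  have hco : M₁.Coprime (∏ x ∈ A.Q, x) := Nat.Coprime.prod_right fun x hx =>
    ((A.prime x hx).coprime_iff_not_dvd.2 (hM₁Q x hx)).symm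
  exact hco.dvd_of_dvd_mul_right (hM ▸ hM₁)

/-- **Lowering clause for a member.** -/
theorem TStage.sq_trace_eq_of_no_resNewform (hp2 : p ≠ 2) (hW : Semistable W)
    (hirr : W.ModRepIsIrreducible p) (D : ResidualData O p W) (K : TStage O p D.ρbar) {q M : ℕ}
    (hq : q.Prime) (hqp : q ≠ p) (hsq : Squarefree K.L) (A : AuxPrimes K.L p) (hAH : A.H = K.H)
    (hL : K.L = M * q * ∏ x ∈ A.Q, x) (hqR : ¬ q ∣ K.R)
    (h3 : p = 3 → ∃ r : ℕ, r.Prime ∧ r ∣ M ∧ r % 3 = 2) (hA : ∀ x ∈ A.Q, x ≠ p ∧ p ∣ x - 1)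
    (hdist : ∀ x ∈ A.Q, ∀ P : ValuationSubring ℚbar, P.LiesOverPrime x → ∀ σ : GQ,
      P.IsFrobeniusAt σ x →
        ∃ α β : ResidueField O, α ≠ β ∧
          (D.ρbar σ).charpoly = (X - Polynomial.C α) * (X - Polynomial.C β))
    (hWS : ∀ x : ℕ, x.Prime → (x : ℤ) ∣ W.Δ → x ∈ K.S)
    (hno : ¬ ∃ M', M' ∣ M ∧ ResNewform p W M')
    {P : ValuationSubring ℚbar} (hP : P.LiesOverPrime q) {σ : GQ} (hσ : P.IsFrobeniusAt σ q) :
    (K.lift.M σ).trace ^ 2 = K.ring.alg (((q : O) + 1) ^ 2) := by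
  classical
  cases K with
  | mk L H neg S θ R h ρ' hyp done Dr C =>
    change Squarefree L at hsq
    change L = M * q * ∏ x ∈ A.Q, x at hL
    obtain ⟨Q, hQ⟩ : ∃ Q, A.Q = Q := ⟨_, rfl⟩
    rw [hQ, show M * q * ∏ x ∈ Q, x = M * (∏ x ∈ Q, x) * q by ring] at hL
    subst hL
    have : Fact q.Prime := ⟨hq⟩
    have : NeZero (M * ∏ x ∈ Q, x) := ⟨left_ne_zero_of_mul hsq.ne_zero⟩
    have hqA : q ∉ A.Q := fun hd => hq.not_isUnit
      (hsq q (mul_dvd_mul ((Finset.dvd_prod_of_mem (fun x => x) (hQ ▸ hd)).trans (dvd_mul_left _ M))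
        dvd_rfl))
    have hqL : ¬ q ∣ M * ∏ x ∈ Q, x := fun hd => hq.not_isUnit (hsq q (mul_dvd_mul hd dvd_rfl))
    exact Cut.sq_trace_eq_of_no_resNewform hp2 hW hirr D hqL hqp hqR
      (fun hd => (Fact.out : p.Prime).not_isUnit
        (hsq p (by rw [← sq]; exact dvd_mul_of_dvd_left hd q)))
      (fun e => let ⟨r, hr, hrM, hr3⟩ := h3 e; ⟨r, hr, dvd_mul_of_dvd_left hrM _, hr3⟩)
      A hqA (by rw [hQ]) hA hdist hWS hAH done hyp Dr C hno hP hσ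

end Fermat.Agent.Root.Patched
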