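import Fermat.Agent.Root.Patched.TowerMap
import Fermat.Agent.Root.Patched.Family

/-!
# From a tower to the patching families

The framed levels of the stages and of the twin, their congruence at stage `0` and the flip steps
make the data used by patching.
-/

set_option autoImplicit false

noncomputable section

open IsLocalRing

namespace Fermat.Agent.Root.Patched

open Fermat.Agent.Deformation Fermat.Agent.LocalRing Fermat.Agent.Patching

/-- Evaluation commutes with homomorphisms. -/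
theorem map_eval {σ O D D' : Type} [Finite σ] [CommRing O] [IsLocalRing O] [CommRing D]
    [IsLocalRing D] [IsNoetherianRing D] [IsAdicComplete (maximalIdeal D) D] [CommRing D']
    [IsLocalRing D'] [IsNoetherianRing D'] [IsAdicComplete (maximalIdeal D') D']
    (G : D →+* D') (hG : (maximalIdeal D).map G ≤ maximalIdeal D') (φ : O →+* D) (φ' : O →+* D')
    (a : σ → D) (a' : σ → D') (ha : ∀ s, a s ∈ maximalIdeal D)
    (ha' : ∀ s, a' s ∈ maximalIdeal D') (hφ : ∀ c, G (φ c) = φ' c) (hφm : ∀ c ∈ maximalIdeal O,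
      φ c ∈ maximalIdeal D) (hs : ∀ s, G (a s) = a' s) (f : MvPowerSeries σ O) :
    G (LocalRing.eval φ a ha f) = LocalRing.eval φ' a' ha' f := by
  have hm : ∀ x ∈ maximalIdeal D, G x ∈ maximalIdeal D' := fun x hx =>
    hG (Ideal.mem_map_of_mem G hx)
  have h := sub_mem_of_generators (G.comp (LocalRing.eval φ a ha)) (LocalRing.eval φ' a' ha') ⊥
    (fun c => by simp [hφ]) (fun s => by simp [hs])
    (fun c hc => by rw [RingHom.comp_apply, LocalRing.eval_C]; exact hm _ (hφm c hc))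
    (fun s => by rw [RingHom.comp_apply, LocalRing.eval_X]; exact hm _ (ha s))
    (fun c hc => by rw [LocalRing.eval_C, ← hφ]; exact hm _ (hφm c hc))
    (fun s => by rw [LocalRing.eval_X]; exact ha' s) f
  simpa [sub_eq_zero] using h

/-- The composite degeneracy determinant. -/
theorem det_flipMat {R : Type} [CommRing R] (q : ℕ) (t : R) :
    (flipMat q t).det = ((q : R) + 1) ^ 2 - t ^ 2 := by
  rw [flipMat, Matrix.det_fin_two_of]
  ring

theorem map_series_surjective {σ R S : Type} [CommRing R] [CommRing S] (φ : R →+* S)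
    (h : Function.Surjective φ) : Function.Surjective (MvPowerSeries.map (σ := σ) φ) :=
  fun f => ⟨seriesOf fun d => (h (MvPowerSeries.coeff d f)).choose,
    MvPowerSeries.ext fun d => by
      rw [MvPowerSeries.coeff_map, coeff_seriesOf]
      exact (h (MvPowerSeries.coeff d f)).choose_spec⟩

variable {O : Type} [CommRing O] [IsDomain O] [IsDiscreteValuationRing O]
  [IsAdicComplete (maximalIdeal O) O] [Finite (ResidueField O)]

/-- The ring with unipotent inertia, bundled. -/
abbrev unipComplete (P : LocalData O) : CompleteRing where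
  carrier := P.UnipRing

/-- The ring with characters on inertia, bundled. -/
abbrev charComplete (P : LocalData O) : CompleteRing where
  carrier := P.CharRing

variable
  {ρbar : GQ →* M2 (ResidueField O)} {p : ℕ} {Sys : LocalSystem O ρbar p}

namespace Tower

variable (T : Tower Sys) (ϖ : O) (hϖ : Irreducible ϖ)

/-- The coefficient ring of patching. -/
abbrev lam : CompleteRing where
  carrier := LambdaRing O (FrameVar Sys.Place) T.r

/-- The ring with unipotent inertia. -/
abbrev ringA : CompleteRing := unipComplete (T.localData ϖ hϖ)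

/-- The ring with characters on inertia and no flips. -/
abbrev ringA' : CompleteRing := charComplete (dropFlips (T.localData ϖ hϖ))

/-- The augmentation ideal. -/
def aug : Ideal T.lam :=
  (RingHom.ker (MvPowerSeries.constantCoeff : MvPowerSeries (Fin T.r) O →+* O)).comap
    ((MvPowerSeries.constantCoeff (σ := FrameVar Sys.Place)).comp
      (lambdaMap O (FrameVar Sys.Place) T.r))

omit [IsAdicComplete (maximalIdeal O) O] [Finite (ResidueField O)] in
theorem dim_le (hr : 1 ≤ T.r) :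
    (3 * Sys.r + Fintype.card T.FreeVar + Sys.s + 1 : ℕ) ≤
      Fintype.card (FrameVar Sys.Place ⊕ Fin T.r) + 1 := by
  have := Sys.count
  simp only [Fintype.card_sum, Fintype.card_prod, Fintype.card_fin, Fintype.card_sigma]
  omega

theorem dim_A (hr : 1 ≤ T.r) : ringKrullDim (T.ringA ϖ hϖ) ≤ ringKrullDim T.lam := by
  refine ((T.localData ϖ hϖ).ringKrullDim_unipRing_le).trans ?_
  show _ ≤ ringKrullDim (LambdaRing O (FrameVar Sys.Place) T.r)
  rw [ringKrullDim_mvPowerSeries]
  exact Nat.cast_le.mpr (T.dim_le hr)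

theorem dim_A' (hr : 1 ≤ T.r) : ringKrullDim (T.ringA' ϖ hϖ) ≤ ringKrullDim T.lam := by
  refine ((dropFlips (T.localData ϖ hϖ)).ringKrullDim_charRing_le).trans ?_
  show _ ≤ ringKrullDim (LambdaRing O (FrameVar Sys.Place) T.r)
  rw [ringKrullDim_mvPowerSeries]
  refine Nat.cast_le.mpr (le_trans (le_of_eq ?_) (T.dim_le hr))
  simp only
  omega

variable {T ϖ hϖ} {n : ℕ}
  {F : (T.localData ϖ hϖ).Total →+* ((T.J n).framed Sys.Place).R}

/-- `A → U n⟦frames⟧`. -/
def mapU (hF : T.IsFrameMap ϖ hϖ n F) :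
    T.ringA ϖ hϖ →+* MvPowerSeries (FrameVar Sys.Place) (T.U n).R :=
  Ideal.Quotient.lift _ (mapTo (T.pU n) F) (mapTo_pU_unipIdeal hF)

theorem mapU_mk (hF : T.IsFrameMap ϖ hϖ n F) (z : (T.localData ϖ hϖ).Total) :
    mapU hF (Ideal.Quotient.mk _ z) = mapTo (T.pU n) F z := rfl

omit [IsAdicComplete (maximalIdeal O) O] [Finite (ResidueField O)] in
theorem coeff_mapTo_pU (F : (T.localData ϖ hϖ).Total →+* ((T.J n).framed Sys.Place).R)
    (z : (T.localData ϖ hϖ).Total) (α : FrameVar Sys.Place →₀ ℕ) :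
    MvPowerSeries.coeff (R := (T.U n).R) α (mapTo (T.pU n) F z) =
      T.pU n (MvPowerSeries.coeff (R := (T.J n).R) α (F z)) :=
  MvPowerSeries.coeff_map _ _ _

omit [IsAdicComplete (maximalIdeal O) O] [Finite (ResidueField O)] in
theorem coeff_mapTo_pX (F : (T.localData ϖ hϖ).Total →+* ((T.J n).framed Sys.Place).R)
    (z : (T.localData ϖ hϖ).Total) (α : FrameVar Sys.Place →₀ ℕ) :
    MvPowerSeries.coeff (R := (T.X n).R) α (mapTo (T.pX n) F z) =
      T.pX n (MvPowerSeries.coeff (R := (T.J n).R) α (F z)) :=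
  MvPowerSeries.coeff_map _ _ _

theorem mapU_surjective (hF : T.IsFrameMap ϖ hϖ n F) : Function.Surjective (mapU hF) := by
  intro b
  obtain ⟨c, hc⟩ := map_series_surjective (T.pU n) (T.pU_surjective n) b
  obtain ⟨z, rfl⟩ := hF.surjective c
  exact ⟨Ideal.Quotient.mk _ z, hc⟩

omit [Finite (ResidueField O)] [IsAdicComplete (maximalIdeal O) O] in
/-- The Steinberg coordinates vanish on the twin. -/
theorem mapTo_pX_flipX_some (hF : T.IsFrameMap ϖ hϖ n F) (f : Fin Sys.s) (j : Fin (Sys.m f)) :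
    mapTo (T.pX n) F (flipX f (some j)) = 0 := by
  have := T.reducedX n
  have : IsReduced ((T.X n).framed Sys.Place).R :=
    isReduced_mvPowerSeries (σ := FrameVar Sys.Place) (R := (T.X n).R)
  have hrel := (Sys.flip_rel f _ ((T.ℓX n).framedAt (Sum.inr (Sum.inl f) : Sys.Place))
    ((Sys.flipClosed f).framedAt _ (T.condX n (Sum.inr (Sum.inl f))) _)).1 j
  simp only [Tower.ℓX] at hrel
  rw [← mapTo_flipX (T.pX n) (T.pX_alg n) (T.pX_red n) hF f (some j),
    ← mapTo_flipX (T.pX n) (T.pX_alg n) (T.pX_red n) hF f none,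
    mapTo_flipX_none (T.pX n) (T.pX_alg n) (T.pX_red n) hF] at hrel
  have h0 := IsNilpotent.eq_zero (⟨2, hrel⟩ : IsNilpotent _)
  rw [show ((T.X n).framed Sys.Place).alg (Sys.c f j) = (T.X n).constHom _ ((T.X n).alg (Sys.c f j))
    from rfl, ← map_sub] at h0
  refine MvPowerSeries.ext (R := (T.X n).R) fun α => ?_
  have h1 := congrArg (MvPowerSeries.coeff (R := (T.X n).R) α) h0
  erw [MvPowerSeries.coeff_mul_C, map_zero] at h1
  erw [map_zero]
  exact T.vanishX n f j _ h1

/-- `A' → X n⟦frames⟧`. -/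
def mapX (hF : T.IsFrameMap ϖ hϖ n F) :
    T.ringA' ϖ hϖ →+* MvPowerSeries (FrameVar Sys.Place) (T.X n).R :=
  Ideal.Quotient.lift _ ((mapTo (T.pX n) F).comp (iota (T.localData ϖ hϖ)))
    (mapTo_pX_chiIdeal hF)

theorem mapX_mk (hF : T.IsFrameMap ϖ hϖ n F) (z : (dropFlips (T.localData ϖ hϖ)).Total) :
    mapX hF (Ideal.Quotient.mk _ z) = mapTo (T.pX n) F (iota (T.localData ϖ hϖ) z) := rfl

theorem mapX_surjective (hF : T.IsFrameMap ϖ hϖ n F) : Function.Surjective (mapX hF) := by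
  intro b
  obtain ⟨c, hc⟩ := map_series_surjective (T.pX n) (T.pX_surjective n) b
  obtain ⟨z, rfl⟩ := hF.surjective c
  refine ⟨Ideal.Quotient.mk _ (theta (T.localData ϖ hϖ) z), ?_⟩
  rw [mapX_mk, ← hc]
  have h := sub_iota_theta_mem (T.localData ϖ hϖ) (I := RingHom.ker (mapTo (T.pX n) F))
    (fun f j => RingHom.mem_ker.mpr (mapTo_pX_flipX_some hF f j)) z
  rw [RingHom.mem_ker, map_sub, sub_eq_zero] at h
  exact h.symm

/-- The framed level of a stage. -/
def level (i : ℕ) (hF : T.IsFrameMap ϖ hϖ n F) :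
    Level T.lam (T.ringA ϖ hϖ) T.R₀.R T.aug (T.I i) (T.d i) :=
  (T.L i n).frame lambdaMap_surjective (mapU_surjective hF)

/-- The framed level of the twin. -/
def levelX (hF : T.IsFrameMap ϖ hϖ n F) :
    Level T.lam (T.ringA' ϖ hϖ) T.R₀' T.aug T.I' (T.d 0) :=
  (T.LX n).frame lambdaMap_surjective (mapX_surjective hF)

theorem level_small (i : ℕ) (hF : T.IsFrameMap ϖ hϖ n F) :
    (T.level i hF).c ≤ maximalIdeal T.lam ^ n := fun _ hx =>
  mem_pow_of_lambdaMap_coeff fun d => T.small i n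
    (((T.L i n).mem_frame_c_iff lambdaMap_surjective (mapU_surjective hF)).mp hx d)

theorem levelX_small (hF : T.IsFrameMap ϖ hϖ n F) :
    (T.levelX hF).c ≤ maximalIdeal T.lam ^ n := fun _ hx =>
  mem_pow_of_lambdaMap_coeff fun d => T.smallX n
    (((T.LX n).mem_frame_c_iff lambdaMap_surjective (mapX_surjective hF)).mp hx d)

theorem level_π (i : ℕ) (hF : T.IsFrameMap ϖ hϖ n F) : (T.level i hF).π = (T.level 0 hF).π := by
  show ((T.L i n).π).comp _ = ((T.L 0 n).π).comp _
  rw [T.π_eq i n]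

theorem levelX_ϖ (hF : T.IsFrameMap ϖ hϖ n F) :
    (T.levelX hF).act (Ideal.Quotient.mk _ (MvPowerSeries.C ϖ)) = Matrix.scalar (Fin (T.d 0))
      (Ideal.Quotient.mk (T.levelX hF).c (MvPowerSeries.C ϖ)) := by
  refine (T.LX n).frame_act_of_const lambdaMap_surjective (mapX_surjective hF)
    (b := (T.X n).alg ϖ) (l₀ := MvPowerSeries.C ϖ) ?_ (T.scalarX n ϖ) (lambdaMap_C ϖ)
  rw [mapX_mk, iota_C, mapTo_C (T.pX n) (T.pX_alg n) hF]
  rfl

omit [Finite (ResidueField O)] [IsAdicComplete (maximalIdeal O) O] in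
/-- Stage `0` kills the Steinberg coordinates. -/
theorem act_coeff_flipX_some (hF : T.IsFrameMap ϖ hϖ n F) (f : Fin Sys.s) (j : Fin (Sys.m f))
    (α : FrameVar Sys.Place →₀ ℕ) :
    (T.L 0 n).act (MvPowerSeries.coeff (R := (T.U n).R) α
      (mapTo (T.pU n) F (flipX f (some j)))) = 0 := by
  have h0 := mapTo_pU_unipIdeal hF
    (flipX f (some j) * (flipX f none - MvPowerSeries.C (Sys.c f j)))
    (Ideal.mem_sup_right (Ideal.subset_span ⟨⟨f, (j, j)⟩, if_pos rfl⟩))
  rw [map_mul, map_sub, mapTo_C (T.pU n) (T.pU_alg n) hF,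
    mapTo_flipX_none (T.pU n) (T.pU_alg n) (T.pU_red n) hF,
    show ((T.U n).framed Sys.Place).alg (Sys.c f j) = (T.U n).constHom _ ((T.U n).alg (Sys.c f j))
      from rfl, ← map_sub] at h0
  have h1 := congrArg (MvPowerSeries.coeff (R := (T.U n).R) α) h0
  erw [MvPowerSeries.coeff_mul_C, map_zero] at h1
  refine T.vanish n f j _ ?_
  rw [h1, map_zero]

/-- The congruence of stage `0` with its twin. -/
theorem level_congr (hF : T.IsFrameMap ϖ hϖ n F) (a : T.ringA ϖ hϖ) (a' : T.ringA' ϖ hϖ)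
    (h : dropRes (T.localData ϖ hϖ) a = (dropFlips (T.localData ϖ hϖ)).charToRes a')
    (i j : Fin (T.d 0)) :
    (T.level 0 hF).mat a i j - (T.levelX hF).mat a' i j ∈
      Ideal.span {(MvPowerSeries.C ϖ : LambdaRing O (FrameVar Sys.Place) T.r)} ⊔
        (T.level 0 hF).c ⊔ (T.levelX hF).c := by
  obtain ⟨z, rfl⟩ := Ideal.Quotient.mk_surjective a
  obtain ⟨x, rfl⟩ := Ideal.Quotient.mk_surjective a'
  set K : Ideal (MvPowerSeries (Fin T.r) O) :=
    Ideal.span {MvPowerSeries.C ϖ} ⊔ (T.L 0 n).c ⊔ (T.LX n).c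
  have hU : (T.L 0 n).c ≤ K := le_sup_of_le_left le_sup_right
  have hX : (T.LX n).c ≤ K := le_sup_right
  let ΦU : (T.U n).R →+* Matrix (Fin (T.d 0)) (Fin (T.d 0)) (_ ⧸ K) :=
    (Ideal.Quotient.factor hU).mapMatrix.comp (T.L 0 n).act
  let ΦX : (T.X n).R →+* Matrix (Fin (T.d 0)) (Fin (T.d 0)) (_ ⧸ K) :=
    (Ideal.Quotient.factor hX).mapMatrix.comp (T.LX n).act
  have hentU : ∀ y i j, Ideal.Quotient.mk K ((T.L 0 n).mat y i j) = ΦU y i j := fun y i j => by
    show _ = Ideal.Quotient.factor hU ((T.L 0 n).act y i j)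
    rw [← Level.mk_mat, Ideal.Quotient.factor_mk]
  have hentX : ∀ y i j, Ideal.Quotient.mk K ((T.LX n).mat y i j) = ΦX y i j := fun y i j => by
    show _ = Ideal.Quotient.factor hX ((T.LX n).act y i j)
    rw [← Level.mk_mat, Ideal.Quotient.factor_mk]
  have halgU : ∀ c : O, ΦU ((T.U n).alg c) =
      Matrix.scalar (Fin (T.d 0)) (Ideal.Quotient.mk K (MvPowerSeries.C c)) := fun c => by
    rw [RingHom.comp_apply, T.scalar, RingHom.mapMatrix_apply, Matrix.scalar_apply,
      Matrix.diagonal_map (map_zero _)]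
    rfl
  have halgX : ∀ c : O, ΦX ((T.X n).alg c) =
      Matrix.scalar (Fin (T.d 0)) (Ideal.Quotient.mk K (MvPowerSeries.C c)) := fun c => by
    rw [RingHom.comp_apply, T.scalarX, RingHom.mapMatrix_apply, Matrix.scalar_apply,
      Matrix.diagonal_map (map_zero _)]
    rfl
  -- the two actions agree on `J n`
  have hJ : ∀ y : (T.J n).R, ΦU (T.pU n y) = ΦX (T.pX n y) := by
    intro y
    have hle : Subring.closure (Set.range (T.J n).alg ∪
        Set.range fun σ => ((T.ℓ n).M σ).trace) ≤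
        RingHom.eqLocus (ΦU.comp (T.pU n)) (ΦX.comp (T.pX n)) := by
      rw [Subring.closure_le]
      rintro _ (⟨c, rfl⟩ | ⟨σ, rfl⟩)
      · show ΦU (T.pU n ((T.J n).alg c)) = ΦX (T.pX n ((T.J n).alg c))
        rw [show T.pU n ((T.J n).alg c) = (T.U n).alg c from RingHom.congr_fun (T.pU_alg n) c,
          show T.pX n ((T.J n).alg c) = (T.X n).alg c from RingHom.congr_fun (T.pX_alg n) c,
          halgU, halgX]
      · refine Matrix.ext fun i j => ?_
        show ΦU (T.pU n _) i j = ΦX (T.pX n _) i j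
        rw [← hentU, ← hentX, Ideal.Quotient.mk_eq_mk_iff_sub_mem]
        exact T.congr ϖ hϖ n σ i j
    rw [T.gen n] at hle
    exact hle (Subring.mem_top y)
  -- the Steinberg coordinates die
  let GU : (T.localData ϖ hϖ).Total →+* MvPowerSeries (FrameVar Sys.Place)
      (Matrix (Fin (T.d 0)) (Fin (T.d 0)) (_ ⧸ K)) :=
    (MvPowerSeries.map ΦU).comp (mapTo (T.pU n) F)
  have hGC : ∀ (y : (T.localData ϖ hϖ).Total) α, MvPowerSeries.coeff α (GU y) =
      ΦU (MvPowerSeries.coeff (R := (T.U n).R) α (mapTo (T.pU n) F y)) := fun y α => rfl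
  have hflip : ∀ f j, flipX f (some j) ∈ RingHom.ker GU := fun f j => by
    rw [RingHom.mem_ker]
    refine MvPowerSeries.ext fun α => ?_
    rw [hGC, map_zero, RingHom.comp_apply, act_coeff_flipX_some hF f j, map_zero]
  have hunip : ∀ y ∈ (T.localData ϖ hϖ).unipIdeal, GU y = 0 := fun y hy => by
    show MvPowerSeries.map ΦU (mapTo (T.pU n) F y) = 0
    rw [mapTo_pU_unipIdeal hF y hy]
    exact map_zero _
  have hϖ0 : GU (MvPowerSeries.C ϖ) = 0 := by
    refine MvPowerSeries.ext fun α => ?_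
    rw [hGC, map_zero, mapTo_C (T.pU n) (T.pU_alg n) hF]
    show ΦU (MvPowerSeries.coeff α (MvPowerSeries.C ((T.U n).alg ϖ))) = 0
    by_cases hα : α = 0
    · subst hα
      rw [MvPowerSeries.coeff_zero_C, halgU,
        Ideal.Quotient.eq_zero_iff_mem.mpr
          (Ideal.mem_sup_left (Ideal.mem_sup_left (Ideal.mem_span_singleton_self _))), map_zero]
    · rw [MvPowerSeries.coeff_C_of_ne_zero hα, map_zero]
  have hzx : GU z = GU (iota (T.localData ϖ hϖ) x) := by
    rw [dropRes, RingHom.comp_apply, thetaBar_mk, LocalData.toRes_mk, LocalData.charToRes_mk,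
      Ideal.Quotient.mk_eq_mk_iff_sub_mem, LocalData.resIdeal_eq] at h
    have h1 := sub_iota_theta_mem (T.localData ϖ hϖ) hflip z
    rw [RingHom.mem_ker, map_sub, sub_eq_zero] at h1
    obtain ⟨u, hu, w, hw, huw⟩ := Submodule.mem_sup.mp h
    obtain ⟨w', rfl⟩ := Ideal.mem_span_singleton'.mp hw
    rw [h1, ← sub_eq_zero, ← map_sub, ← map_sub, ← huw, map_add, map_mul, iota_C, map_add, map_mul,
      hϖ0, mul_zero, add_zero,
      hunip _ (map_iota_unipIdeal (T.localData ϖ hϖ) (Ideal.mem_map_of_mem _ hu))]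
  refine (T.L 0 n).frame_congr lambdaMap_surjective (mapU_surjective hF) (T.LX n)
    (mapX_surjective hF) (lambdaMap_C ϖ) fun α => ?_
  rw [← Ideal.Quotient.mk_eq_mk_iff_sub_mem, hentU, hentX, mapU_mk, mapX_mk, ← hGC, hzx, hGC,
    coeff_mapTo_pU, coeff_mapTo_pX, hJ]

variable (T ϖ hϖ) in
/-- Frame maps at all levels. -/
def FrameMaps : Type :=
  ∀ n, {F : (T.localData ϖ hϖ).Total →+* ((T.J n).framed Sys.Place).R // T.IsFrameMap ϖ hϖ n F}

variable (Φ : T.FrameMaps ϖ hϖ) (hr : 1 ≤ T.r) (ν : ℕ → ℕ) (hν : ∀ k, k ≤ ν k)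

include hν in
theorem level_small_atTop (i k : ℕ) :
    ∀ᶠ m in Filter.atTop, (T.level i (Φ (ν m)).2).c ≤ maximalIdeal T.lam ^ k :=
  Filter.eventually_atTop.mpr ⟨k, fun m hm => (T.level_small i (Φ (ν m)).2).trans
    (Ideal.pow_le_pow_right (hm.trans (hν m)))⟩

include hν in
theorem levelX_small_atTop (k : ℕ) :
    ∀ᶠ m in Filter.atTop, (T.levelX (Φ (ν m)).2).c ≤ maximalIdeal T.lam ^ k :=
  Filter.eventually_atTop.mpr ⟨k, fun m hm => (T.levelX_small (Φ (ν m)).2).trans
    (Ideal.pow_le_pow_right (hm.trans (hν m)))⟩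

/-- The stage `i`. -/
def stage (i : ℕ) : Stage T.lam (T.ringA ϖ hϖ) T.R₀.R T.aug where
  I := T.I i
  d := T.d i
  L m := T.level i (Φ (ν m)).2
  small := T.level_small_atTop Φ ν hν i

/-- The first stage and its twin. -/
def iaFamily : IAFamily T.lam (T.ringA ϖ hϖ) (T.ringA' ϖ hϖ) T.R₀.R T.R₀' T.aug where
  domain := inferInstanceAs (IsDomain (LambdaRing O (FrameVar Sys.Place) T.r))
  dim := T.dim_A ϖ hϖ hr
  dim' := T.dim_A' ϖ hϖ hr
  I := T.I 0
  I' := T.I'
  d := T.d 0
  pos := T.d_pos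
  L m := T.level 0 (Φ (ν m)).2
  L' m := T.levelX (Φ (ν m)).2
  small := T.level_small_atTop Φ ν hν 0
  small' := T.levelX_small_atTop Φ ν hν
  B := (dropFlips (T.localData ϖ hϖ)).ResRing
  f := dropRes (T.localData ϖ hϖ)
  f' := (dropFlips (T.localData ϖ hϖ)).charToRes
  f_surjective := dropRes_surjective _
  f'_surjective := LocalData.charToRes_surjective _
  ϖ := MvPowerSeries.C ϖ
  a₀' := Ideal.Quotient.mk _ (MvPowerSeries.C ϖ)
  f'_a₀' := LocalData.charToRes_ϖ _
  act_a₀' m := T.levelX_ϖ (Φ (ν m)).2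
  congr m := level_congr (Φ (ν m)).2
  comp' P' hP' := by
    rw [Ideal.radical_eq_sInf]
    exact le_sInf fun Q hQ => (dropFlips (T.localData ϖ hϖ)).hcov rfl P' hP' Q hQ.2 hQ.1
  base := {P | ∃ K, (∀ f, K.2 f = none) ∧ P = (T.localData ϖ hϖ).comp K}
  comp P hP := by
    obtain ⟨K, hK, rfl⟩ := hP
    exact exists_prime_over_dropRes (T.localData ϖ hϖ) hK

variable (T ϖ hϖ) in
/-- `T(a)` in the local ring. -/
def trSeries (f : Fin Sys.s) : T.ringA ϖ hϖ :=
  Ideal.Quotient.mk (T.localData ϖ hϖ).unipIdeal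
    (LocalRing.eval (σ := Unit) MvPowerSeries.C (fun _ => flipX f none)
      (fun _ => X_mem_maximalIdeal _) (Sys.Tr f))

variable (T ϖ hϖ) in
/-- The product `∏ (a - c_j)` in the local ring. -/
def steinbergElem (f : Fin Sys.s) : T.ringA ϖ hϖ :=
  Ideal.Quotient.mk (T.localData ϖ hϖ).unipIdeal
    (∏ j, (flipX f none - MvPowerSeries.C (Sys.c f j)))

/-- The degeneracy data of a flip, framed. -/
theorem nonempty_flipLevel_level (hF : T.IsFrameMap ϖ hϖ n F) (f : Fin Sys.s) :
    Nonempty (IharaTW.FlipLevel (T.level (f + 1) hF) (T.level f hF)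
      (Ideal.span {T.steinbergElem ϖ hϖ f})
      (flipMat (Sys.q (.inr (.inl f))) (T.trSeries ϖ hϖ f))) := by
  set a₀ := Sys.flipA f (T.U n) (T.ℓU n)
  have ha : ∀ _ : Unit, a₀ ∈ maximalIdeal (T.U n).R := fun _ =>
    (Sys.flipC f).mem _ _ (T.condU n (Sum.inr (Sum.inl f))) _
  obtain ⟨D⟩ := T.flip f n ha
  have hnone : mapTo (T.pU n) F (flipX f none) = (T.U n).constHom _ a₀ :=
    mapTo_flipX_none (T.pU n) (T.pU_alg n) (T.pU_red n) hF f
  have halg : ∀ c, ((T.U n).framed Sys.Place).alg c = (T.U n).constHom _ ((T.U n).alg c) :=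
    fun c => rfl
  have hCm : ∀ (S : TestRing O) (c : O), c ∈ maximalIdeal O → S.alg c ∈ maximalIdeal S.R :=
    fun S c hc => by rw [← S.ker_red, S.red_alg, residue_eq_zero_iff]; exact hc
  refine IharaTW.nonempty_flipLevel_frame (T.L (f + 1) n) (T.L f n) lambdaMap_surjective
    (mapU_surjective hF) D (fun a haJ α => ?_) (fun i j => ?_)
  · obtain ⟨y, rfl⟩ := Ideal.mem_span_singleton'.mp haJ
    obtain ⟨z, rfl⟩ := Ideal.Quotient.mk_surjective y
    rw [steinbergElem, ← map_mul, mapU_mk, map_mul, map_prod]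
    simp only [map_sub, mapTo_C (T.pU n) (T.pU_alg n) hF, hnone, halg]
    have hprod : (∏ j, ((T.U n).constHom (FrameVar Sys.Place) a₀ -
        (T.U n).constHom _ ((T.U n).alg (Sys.c f j)))) =
          (T.U n).constHom _ (∏ j, (a₀ - (T.U n).alg (Sys.c f j))) := by
      rw [map_prod]
      simp only [map_sub]
    erw [hprod]
    erw [MvPowerSeries.coeff_mul_C]
    exact Ideal.mul_mem_left _ _ (Ideal.mem_span_singleton_self _)
  · have hT : mapU hF (T.trSeries ϖ hϖ f) =
        (T.U n).constHom _ (LocalRing.eval (T.U n).alg (fun _ => a₀) ha (Sys.Tr f)) := by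
      rw [trSeries, mapU_mk]
      have hm : ∀ x, mapTo (T.pU n) F (MvPowerSeries.X x) ∈
          maximalIdeal ((T.U n).framed Sys.Place).R := fun x =>
        TestRing.map_maximalIdeal (TestRing.mapSeries _ (T.pU n))
          (TestRing.red_comp_mapSeries _ (T.pU_red n)) (Ideal.mem_map_of_mem _ (hF.mem x))
      have hC : ∀ c ∈ maximalIdeal O, mapTo (T.pU n) F (MvPowerSeries.C c) ∈
          maximalIdeal ((T.U n).framed Sys.Place).R := fun c hc => by
        rw [mapTo_C (T.pU n) (T.pU_alg n) hF]; exact hCm _ c hc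
      refine (map_eval (mapTo (T.pU n) F) (map_maximalIdeal_le _ hC hm) MvPowerSeries.C
          ((T.U n).framed Sys.Place).alg _ (fun _ => (T.U n).constHom _ a₀) _
          (fun _ => hnone ▸ hm _) (fun c => mapTo_C (T.pU n) (T.pU_alg n) hF c)
          (fun c hc => C_mem_maximalIdeal hc) (fun _ => hnone) _).trans ?_
      exact (map_eval ((T.U n).constHom _)
        (TestRing.map_maximalIdeal _ (T.U n).red_comp_constHom) (T.U n).alg
        ((T.U n).framed Sys.Place).alg _ _ ha _ (fun c => rfl) (fun c hc => hCm _ c hc)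
        (fun _ => rfl) (Sys.Tr f)).symm
    fin_cases i <;> fin_cases j <;> simp [flipMat, hT] <;> rfl

/-- The determinant of the degeneracy maps. -/
theorem exists_det_eq (f : Fin Sys.s) : ∃ u, IsUnit u ∧
    (flipMat (Sys.q (.inr (.inl f))) (T.trSeries ϖ hϖ f)).det = u * T.steinbergElem ϖ hϖ f := by
  obtain ⟨u, hu, he⟩ := Sys.det_eq f
  set ev : MvPowerSeries Unit O →+* T.ringA ϖ hϖ :=
    (Ideal.Quotient.mk (T.localData ϖ hϖ).unipIdeal).comp
      (LocalRing.eval (σ := Unit) MvPowerSeries.C (fun _ => flipX f none)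
        (fun _ => X_mem_maximalIdeal _))
  refine ⟨ev u, hu.map ev, ?_⟩
  have h := congrArg ev he
  simp only [map_sub, map_pow, map_mul, map_prod] at h
  rw [det_flipMat, steinbergElem, map_prod]
  rw [show ev (Sys.Tr f) = T.trSeries ϖ hϖ f from rfl] at h
  convert h using 1
  · congr 1
    simp [ev]
  · congr 1
    refine Finset.prod_congr rfl fun j _ => ?_
    rw [map_sub]
    exact (congrArg₂ (fun (a b : (T.localData ϖ hϖ).Total) =>
      Ideal.Quotient.mk (T.localData ϖ hϖ).unipIdeal a -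
        Ideal.Quotient.mk (T.localData ϖ hϖ).unipIdeal b)
      (LocalRing.eval_X (O := O) (σ := Unit) (D := (T.localData ϖ hϖ).Total) MvPowerSeries.C
        (fun _ => flipX f none) (fun _ => X_mem_maximalIdeal _) ())
      (LocalRing.eval_C (O := O) (σ := Unit) (D := (T.localData ϖ hϖ).Total) MvPowerSeries.C
        (fun _ => flipX f none) (fun _ => X_mem_maximalIdeal _) (Sys.c f j))).symm

/-- A flip step. -/
theorem flipStep (f : Fin Sys.s) {K : (T.localData ϖ hϖ).UnipComp} (hK : K.2 f = none)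
    (j : Fin (Sys.m f)) :
    FlipStep (T.stage Φ ν hν f) (T.stage Φ ν hν (f + 1)) ((T.localData ϖ hϖ).comp K)
      ((T.localData ϖ hϖ).comp (K.1, Function.update K.2 f (some j))) := by
  obtain ⟨u, hu, hdet⟩ := T.exists_det_eq (ϖ := ϖ) (hϖ := hϖ) f
  refine ⟨Ideal.span {T.steinbergElem ϖ hϖ f},
    flipMat (Sys.q (.inr (.inl f))) (T.trSeries ϖ hϖ f),
    fun m => T.nonempty_flipLevel_level (Φ (ν m)).2 f, (T.localData ϖ hϖ).compDiv K f j,
      (T.localData ϖ hϖ).isPrime_compDiv K f j,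
    (T.localData ϖ hϖ).comp_le_compDiv K f j, ?_, fun Q hQ hle => ?_⟩
  · rw [hdet]
    refine Ideal.mul_mem_left _ _ ?_
    rw [steinbergElem, map_prod, (T.localData ϖ hϖ).compDiv_eq hK,
      ← Finset.mul_prod_erase _ _ (Finset.mem_univ j)]
    exact Ideal.mem_sup_right (Ideal.mul_mem_right _ _ (Ideal.mem_span_singleton_self _))
  · rcases (T.localData ϖ hϖ).eq_or_eq_of_le_compDiv hK Q hQ hle with rfl | rfl
    · have hPr := ((T.localData ϖ hϖ).comp_mem_minimalPrimes K).1.1
      have hnot : T.steinbergElem ϖ hϖ f ∉ (T.localData ϖ hϖ).comp K := fun h => by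
        rw [steinbergElem, map_prod] at h
        obtain ⟨l, -, hl⟩ := hPr.prod_mem_iff.mp h
        exact sub_notMem_comp (T.localData ϖ hϖ) hK l hl
      refine Or.inr ⟨fun h => hnot (h (Ideal.mem_span_singleton_self _)), fun h => hnot ?_⟩
      rw [hdet] at h
      exact (Ideal.unit_mul_mem_iff_mem _ hu).mp h
    · exact Or.inl rfl

end Tower

end Fermat.Agent.Root.Patched
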