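import Fermat.Agent.Root.Patched.ResidualAdjoint
import Fermat.Agent.Root.Patched.TowerFamily

/-!
# Taylor–Wiles primes for a standard system and the frame maps of its towers

Shared by the lifting and the lowering assemblies.
-/

set_option autoImplicit false

noncomputable section

open IsLocalRing Polynomial

namespace Fermat.Agent.Root.Patched

open Fermat.Agent.Deformation

local notation "ℚbar" => AlgebraicClosure ℚ

/-- **Auxiliary primes for a system, with frame maps for every tower built on them.** -/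
theorem exists_twPrimes_frameMaps {O : Type} [CommRing O] [IsDomain O] [IsDiscreteValuationRing O]
    [IsAdicComplete (maximalIdeal O) O] [Finite (ResidueField O)] {p : ℕ} [Fact p.Prime]
    {W : WeierstrassCurve ℤ} (hp2 : p ≠ 2) (hadj : AdjointIrreducible p W)
    (D : ResidualData O p W) (Sys : LocalSystem O D.ρbar p)
    (hp : ∃ v, Sys.q v = p)
    (hunr : ∀ q : ℕ, q.Prime → (∀ v, Sys.q v ≠ q) → ∀ A : ValuationSubring ℚbar,
      A.LiesOverPrime q → ∀ σ ∈ A.inertiaSubgroupIn ℚ, D.ρ₀ σ = 1) :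
    ∃ Qs : TWPrimes Sys, ∀ T : Tower Sys, T.r = Qs.r →
      (∃ φ : ℕ → ℕ, (∀ n, n ≤ φ n) ∧ ∀ n, T.Q n = Qs.Q (φ n)) →
      ∀ (ϖ : O) (hϖ : Irreducible ϖ), 1 ≤ T.r ∧ Nonempty (T.FrameMaps ϖ hϖ) := by
  classical
  let Pn : ℕ → ValuationSubring ℚbar := fun x =>
    if h : ∃ v, Sys.q v = x then Sys.P h.choose else ⊤
  have hPn : ∀ v, Pn (Sys.q v) = Sys.P v := fun v => by
    have h : ∃ v', Sys.q v' = Sys.q v := ⟨v, rfl⟩
    simp only [Pn, dif_pos h, Sys.q_injective h.choose_spec]
  have := D.charP_residue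
  set T₀ : Finset ℕ := Finset.univ.image Sys.q
  obtain ⟨r, hr⟩ := exists_tw_primes p hp2 D.ρ₀ D.ι D.glHom
    (fun σ => (D.coe_glHom σ).trans (D.ρbar_eq σ)) D.finite_level D.det₀
    (fun σ => by rw [D.coe_glHom]; exact D.split σ) (D.adjoint_residue hp2 hadj) T₀
    (fun q hq => by
      obtain ⟨v, -, rfl⟩ := Finset.mem_image.mp hq
      exact Sys.q_prime v)
    (by
      obtain ⟨v, hv⟩ := hp
      exact Finset.mem_image.mpr ⟨v, Finset.mem_univ _, hv⟩)
    (fun q hq hqT => hunr q hq fun v hv => hqT (Finset.mem_image.mpr ⟨v, Finset.mem_univ _, hv⟩))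
    Pn (fun x hx => by
      obtain ⟨v, -, rfl⟩ := Finset.mem_image.mp hx
      rw [hPn]
      exact Sys.P_over v)
  choose Q hcard hdis hQ hbound using fun n => hr (n + 1)
  refine ⟨{
    r := r
    Q := Q
    card := hcard
    prime := fun n q hq => (hQ n q hq).1
    notPlace := fun n q hq v hv => Finset.disjoint_left.mp (hdis n) hq
      (Finset.mem_image.mpr ⟨v, Finset.mem_univ _, hv⟩)
    one_mod := fun n q hq => ⟨(pow_dvd_pow p n.le_succ).trans (hQ n q hq).2.1,
      (dvd_pow_self p n.succ_ne_zero).trans (hQ n q hq).2.1⟩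
    distinct := fun n q hq A hA σ hσ => by
      obtain ⟨α, β, hne, he⟩ := (hQ n q hq).2.2 A hA σ hσ
      exact ⟨α, β, hne, by rw [← D.coe_glHom]; exact he⟩ }, fun T hTr hTQ ϖ hϖ => ?_⟩
  obtain ⟨φ, -, hφ⟩ := hTQ
  have hF := fun n => T.exists_frameMap D.p_mem ϖ hϖ Pn hPn D.glHom D.coe_glHom
    (D.adjoint_residue hp2 hadj) n fun m x hx hlin => by
      rw [hTr]
      exact hbound (φ n) m x (fun i => by
        have h := hx i
        rw [hφ n] at h
        exact h) hlin
  exact ⟨(hF 0).1, ⟨fun n => ⟨(hF n).2.choose, (hF n).2.choose_spec⟩⟩⟩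

end Fermat.Agent.Root.Patched
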