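import Fermat.Agent.Root.Patched.Tower
import Fermat.Agent.Root.Patched.TowerChain
import Fermat.Agent.IharaTW.LatLevels
import Fermat.Agent.IharaTW.ChainFlip
import Fermat.Agent.IharaTW.StageVanish

/-!
# The levels of a tower along a chain

A ring with maps to the members of a chain which match traces acts compatibly on the summands.  The
resulting levels are small, have constants acting as scalars, lose nothing at the roots of the flip
determinant and are joined by degeneracy data; stage `0` is congruent to its twin.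
-/

set_option autoImplicit false

noncomputable section

namespace Fermat.Agent.Root.Patched

open IsLocalRing Fermat.Agent.Deformation Fermat.Agent.GammaH Fermat.Agent.TW Fermat.Agent.IharaTW
open Fermat.Agent.Patching (Level)

local notation "ℚbar" => AlgebraicClosure ℚ

/-- The structure over `O` of a test ring. -/
@[instance_reducible]
def testAlgebra {O : Type} [CommRing O] [IsLocalRing O] (A : TestRing O) : Algebra O A.R :=
  A.alg.toAlgebra

attribute [local instance] testAlgebra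

variable {O : Type} [CommRing O] [IsDomain O] [IsDiscreteValuationRing O]
  [IsAdicComplete (maximalIdeal O) O] [Finite (ResidueField O)] [CharZero O]
  {p : ℕ} {ρbar : GQ →* M2 (ResidueField O)}

namespace ChainData

variable (K : ChainData O p ρbar)

/-- The action of a member on its summand. -/
def stageAct (i : ℕ) (hi : i ≤ K.C.s) :
    (K.stage i hi).ring.R →+* Module.End O (K.F.space i hi) :=
  (K.cut i hi).actR.toRingHom

theorem stageAct_alg (i : ℕ) (hi : i ≤ K.C.s) (c : O) :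
    K.stageAct i hi ((K.stage i hi).ring.alg c) = algebraMap O _ c :=
  (K.cut i hi).actR.commutes c

theorem stageAct_injective (i : ℕ) (hi : i ≤ K.C.s) : Function.Injective (K.stageAct i hi) :=
  (K.cut i hi).actR_injective

variable (A : TestRing O) (pr : ∀ i (hi : i ≤ K.C.s), A.R →+* (K.stage i hi).ring.R)
  (hpa : ∀ i hi, (pr i hi).comp A.alg = (K.stage i hi).ring.alg)

/-- The action of a ring mapping to the members. -/
def memberAct (i : ℕ) (hi : i ≤ K.C.s) : A.R →ₐ[O] Module.End O (K.F.space i hi) where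
  toRingHom := (K.stageAct i hi).comp (pr i hi)
  commutes' c := by
    show K.stageAct i hi (pr i hi (A.alg c)) = _
    rw [← RingHom.comp_apply (pr i hi), hpa, stageAct_alg]

theorem memberAct_apply (i : ℕ) (hi : i ≤ K.C.s) (a : A.R) :
    K.memberAct A pr hpa i hi a = K.stageAct i hi (pr i hi a) := rfl

/-- A member acts faithfully. -/
theorem memberAct_eq_zero_iff (i : ℕ) (hi : i ≤ K.C.s) (a : A.R) :
    K.memberAct A pr hpa i hi a = 0 ↔ pr i hi a = 0 := by
  rw [memberAct_apply]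
  exact map_eq_zero_iff _ (K.stageAct_injective i hi)

/-- From the Hecke ring of the top level to a member. -/
def topRing (i : ℕ) (hi : i ≤ K.C.s) :
    HeckeO (K.C.lvl K.C.s) (K.C.grp K.C.s) (↑K.C.S : Set ℕ) O →+* (K.stage i hi).ring.R :=
  (Ideal.Quotient.mk (K.cut i hi).kerIdeal).comp (K.C.toO O i hi).toRingHom

theorem topRing_surjective (i : ℕ) (hi : i ≤ K.C.s) : Function.Surjective (K.topRing i hi) :=
  (Ideal.Quotient.mk_surjective).comp (K.C.toO_surjective O hi)

theorem stageAct_topRing (i : ℕ) (hi : i ≤ K.C.s)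
    (z : HeckeO (K.C.lvl K.C.s) (K.C.grp K.C.s) (↑K.C.S : Set ℕ) O) :
    K.stageAct i hi (K.topRing i hi z) = K.F.act i hi z := rfl

theorem ker_topRing_le {i : ℕ} (hi : i < K.C.s) :
    RingHom.ker (K.topRing (i + 1) hi) ≤ RingHom.ker (K.topRing i hi.le) := fun z hz => by
  refine RingHom.mem_ker.mpr (K.stageAct_injective i hi.le ?_)
  rw [stageAct_topRing, map_zero]
  refine K.F.act_eq_zero_of_succ hi z ?_
  rw [← stageAct_topRing, RingHom.mem_ker.mp hz, map_zero]

/-- From a member to the one below. -/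
def stepRing {i : ℕ} (hi : i < K.C.s) :
    (K.stage (i + 1) hi).ring.R →+* (K.stage i hi.le).ring.R :=
  (K.topRing (i + 1) hi).liftOfSurjective (K.topRing_surjective (i + 1) hi)
    ⟨K.topRing i hi.le, K.ker_topRing_le hi⟩

theorem stepRing_topRing {i : ℕ} (hi : i < K.C.s)
    (z : HeckeO (K.C.lvl K.C.s) (K.C.grp K.C.s) (↑K.C.S : Set ℕ) O) :
    K.stepRing hi (K.topRing (i + 1) hi z) = K.topRing i hi.le z :=
  (K.topRing (i + 1) hi).liftOfRightInverse_comp_apply _ _ _ z

theorem stepRing_alg {i : ℕ} (hi : i < K.C.s) :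
    (K.stepRing hi).comp (K.stage (i + 1) hi).ring.alg = (K.stage i hi.le).ring.alg :=
  RingHom.ext fun c => by
    have e : ∀ j hj, (K.stage j hj).ring.alg c = K.topRing j hj (algebraMap O _ c) := fun j hj => by
      show algebraMap O (K.cut j hj).Ring' c = _
      exact (congrArg (Ideal.Quotient.mk (K.cut j hj).kerIdeal)
        ((K.C.toO O j hj).commutes c)).symm
    rw [RingHom.comp_apply, e, stepRing_topRing, e]

theorem stepRing_red {i : ℕ} (hi : i < K.C.s) :
    (K.stage i hi.le).ring.red.comp (K.stepRing hi) = (K.stage (i + 1) hi).ring.red := by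
  refine RingHom.ext fun x => ?_
  obtain ⟨z, rfl⟩ := K.topRing_surjective (i + 1) hi x
  rw [RingHom.comp_apply, stepRing_topRing]
  show residO O (K.C.theta K.θ₀ i hi.le) (K.C.toO O i hi.le z)
    = residO O (K.C.theta K.θ₀ (i + 1) hi) (K.C.toO O (i + 1) hi z)
  rw [K.C.residO_toO O K.θ₀ hi.le, K.C.residO_toO O K.θ₀ (show i + 1 ≤ K.C.s from hi)]

/-- The traces of consecutive members correspond. -/
theorem stepRing_trace [Fact p.Prime] (hp : (p : O) ∈ maximalIdeal O) {i : ℕ} (hi : i < K.C.s)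
    (σ : GQ) :
    K.stepRing hi ((K.stage (i + 1) hi).lift.M σ).trace
      = ((K.stage i hi.le).lift.M σ).trace := by
  have e : ∀ τ, (((K.stage (i + 1) hi).lift.push (K.stepRing hi) (K.stepRing_red hi)).M τ).trace
      = K.stepRing hi ((K.stage (i + 1) hi).lift.M τ).trace := fun τ => by
    rw [Lift.push_M]
    exact (AddMonoidHom.map_trace (K.stepRing hi).toAddMonoidHom _).symm
  refine (e σ).symm.trans (Lift.trace_ext hp _ _ ?_
    ((K.stage i hi.le).C.lift_detCyclotomic (K.stage i hi.le).D) K.C.S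
    (fun l hl hlS P hP τ hτ => ?_) σ)
  · exact (condClosed_detCyclotomic p).push _ _ _ (K.stepRing_alg hi) (K.stepRing_red hi) _ _
      (fun _ => rfl) ((K.stage (i + 1) hi).C.lift_detCyclotomic (K.stage (i + 1) hi).D)
  · have hlS' : l ∉ (↑K.C.S : Set ℕ) := fun h => hlS (by simpa using h)
    have ht : ∀ j (hj : j ≤ K.C.s), ((K.stage j hj).lift.M τ).trace = K.topRing j hj (HeckeO.ofT O
        (twistedT K.h hl (K.C.not_dvd_lvl le_rfl hl hlS') hlS')) := fun j hj => by
      rw [K.stage_frob j hj l hl hlS' P hP τ hτ]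
      exact congrArg (Ideal.Quotient.mk (K.cut j hj).kerIdeal) (K.C.toO_twistedT O hj K.h hl hlS'
        (K.C.not_dvd_lvl le_rfl hl hlS') (K.C.not_dvd_lvl hj hl hlS')).symm
    refine (e τ).trans ((congrArg (K.stepRing hi) (ht (i + 1) hi)).trans ?_)
    exact (K.stepRing_topRing hi _).trans (ht i hi.le).symm

/-- **Intertwining from traces.** -/
theorem exists_act_eq_memberAct [Fact p.Prime] (hp : (p : O) ∈ maximalIdeal O) (r : Lift ρbar A)
    (hgen : Subring.closure (Set.range A.alg ∪ Set.range fun σ => (r.M σ).trace) = ⊤)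
    (htr : ∀ i hi σ, pr i hi (r.M σ).trace = ((K.stage i hi).lift.M σ).trace) {i : ℕ}
    (hi : i < K.C.s) (a : A.R) :
    ∃ z, K.F.act i hi.le z = K.memberAct A pr hpa i hi.le a ∧
      K.F.act (i + 1) hi z = K.memberAct A pr hpa (i + 1) hi a := by
  obtain ⟨z, hz⟩ := K.topRing_surjective (i + 1) hi (pr (i + 1) hi a)
  have heq : (K.stepRing hi).comp (pr (i + 1) hi) = pr i hi.le := by
    refine RingHom.eq_of_eqOn_set_top ?_
    rw [← hgen]
    refine RingHom.eqOn_set_closure ?_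
    rintro x (⟨c, rfl⟩ | ⟨σ, rfl⟩)
    · rw [RingHom.comp_apply, ← RingHom.comp_apply (pr (i + 1) hi), hpa,
        ← RingHom.comp_apply (K.stepRing hi), stepRing_alg, ← hpa i hi.le]
      rfl
    · rw [RingHom.comp_apply, htr, K.stepRing_trace hp hi, htr]
  refine ⟨z, ?_, ?_⟩
  · rw [memberAct_apply, ← heq, RingHom.comp_apply, ← hz, stepRing_topRing, stageAct_topRing]
  · rw [memberAct_apply, ← hz, stageAct_topRing]

/-- A member acts through the Hecke ring of its level. -/
theorem exists_actO_eq_memberAct (i : ℕ) (hi : i ≤ K.C.s) (a : A.R) :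
    ∃ z : HeckeO (K.C.lvl i) (K.C.grp i) (↑K.C.S : Set ℕ) O, ∀ v : K.F.space i hi,
      actO (K.C.neg_mem i) O z (v : H1 (K.C.lvl i) (K.C.grp i) O O)
        = (K.memberAct A pr hpa i hi a v : H1 (K.C.lvl i) (K.C.grp i) O O) := by
  obtain ⟨z, hz⟩ := Ideal.Quotient.mk_surjective (I := (K.cut i hi).kerIdeal) (pr i hi a)
  refine ⟨z, fun v => ?_⟩
  rw [memberAct_apply, ← hz]
  rfl

end ChainData

/-! ## The determinant of a flip -/

variable {Sys : LocalSystem O ρbar p}

section Det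

variable (f : Fin Sys.s) {A : TestRing O} (r : Lift ρbar A)
  (ha : ∀ _ : Unit, Sys.flipA f A r ∈ maximalIdeal A.R)

/-- The value of the trace of the Hecke operator at a flip place. -/
def flipT : A.R := LocalRing.eval A.alg (fun _ => Sys.flipA f A r) ha (Sys.Tr f)

omit [IsAdicComplete (maximalIdeal O) O] [Finite (ResidueField O)] [CharZero O] in
theorem exists_det_eq_prod : ∃ u : A.R, IsUnit u ∧
    (((Sys.q (.inr (.inl f)) : ℕ) : A.R) + 1) ^ 2 - flipT f r ha ^ 2
      = u * ∏ j, (Sys.flipA f A r - A.alg (Sys.c f j)) := by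
  obtain ⟨u, hu, he⟩ := Sys.det_eq f
  refine ⟨LocalRing.eval A.alg (fun _ => Sys.flipA f A r) ha u, hu.map _, ?_⟩
  have h := congrArg (LocalRing.eval A.alg (fun _ => Sys.flipA f A r) ha) he
  simp only [map_sub, map_mul, map_pow, map_prod, LocalRing.eval_C, LocalRing.eval_X, map_add,
    map_natCast, map_one] at h
  exact h

omit [IsAdicComplete (maximalIdeal O) O] [Finite (ResidueField O)] [CharZero O] in
theorem exists_det_eq_mul (j : Fin (Sys.m f)) : ∃ z : A.R,
    (((Sys.q (.inr (.inl f)) : ℕ) : A.R) + 1) ^ 2 - flipT f r ha ^ 2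
      = (Sys.flipA f A r - A.alg (Sys.c f j)) * z := by
  obtain ⟨u, -, he⟩ := exists_det_eq_prod f r ha
  obtain ⟨z, hz⟩ := Finset.dvd_prod_of_mem (fun j => Sys.flipA f A r - A.alg (Sys.c f j))
    (Finset.mem_univ j)
  exact ⟨u * z, by rw [he, hz]; ring⟩

omit [IsAdicComplete (maximalIdeal O) O] [Finite (ResidueField O)] [CharZero O] in
/-- **Vanishing on a faithful module.** -/
theorem eq_zero_of_mul_flipA_sub {V : Type} [AddCommGroup V] [Module O V]
    (Φ : A.R →ₐ[O] Module.End O V) (hfaith : Function.Injective Φ)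
    (hinj : ∀ v, Φ ((((Sys.q (.inr (.inl f)) : ℕ) : A.R) + 1) ^ 2 - flipT f r ha ^ 2) v = 0 → v = 0)
    (j : Fin (Sys.m f)) {y : A.R} (hy : y * (Sys.flipA f A r - A.alg (Sys.c f j)) = 0) : y = 0 := by
  obtain ⟨z, hz⟩ := exists_det_eq_mul f r ha j
  refine hfaith ?_
  rw [map_zero]
  refine LinearMap.ext fun v => hinj _ ?_
  rw [← Module.End.mul_apply, ← map_mul, hz,
    show (Sys.flipA f A r - A.alg (Sys.c f j)) * z * y
      = z * (y * (Sys.flipA f A r - A.alg (Sys.c f j))) by ring, hy, mul_zero, map_zero,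
    LinearMap.zero_apply]

end Det

omit [IsDomain O] [IsDiscreteValuationRing O] [IsAdicComplete (maximalIdeal O) O]
    [Finite (ResidueField O)] [CharZero O] in
/-- The flip determinant as an operator. -/
theorem apply_det {A V : Type} [CommRing A] [Algebra O A] [AddCommGroup V] [Module O V]
    (Φ : A →ₐ[O] Module.End O V) (q : ℕ) (t : A) (v : V) :
    Φ (((q : A) + 1) ^ 2 - t ^ 2) v = ((q + 1) ^ 2 : ℕ) • v - Φ t (Φ t v) := by
  rw [show ((q : A) + 1) ^ 2 = (((q + 1) ^ 2 : ℕ) : A) by push_cast; ring, sq t, map_sub,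
    map_natCast, map_mul, LinearMap.sub_apply, Module.End.natCast_apply, Module.End.mul_apply]

omit [Finite (ResidueField O)] in
/-- **The flip determinant is injective.** -/
theorem Cut.det_injective {L : ℕ} [NeZero L] {H : Subgroup (ZMod L)ˣ} {S : Finset ℕ}
    {hH : (-1 : (ZMod L)ˣ) ∈ H} {θ : heckeRing L H (↑S : Set ℕ) →+* ResidueField O} (C : Cut hH θ)
    (hE : IsIdempotentElem C.E) {q : ℕ} (hq : q.Prime) (hqL : ¬ q ∣ L) {A : Type} [CommRing A]
    [Algebra O A] (Φ : A →ₐ[O] Module.End O (LinearMap.range C.E)) (t : A)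
    (hrep : ∃ z : HeckeO L H (↑S : Set ℕ) O, ∀ v : LinearMap.range C.E,
      actO hH O z (v : H1 L H O O) = (Φ t v : H1 L H O O))
    (w wi : HeckeO L H (↑S : Set ℕ) O) (hw : w * wi = 1)
    (hTw : ∀ v : LinearMap.range C.E,
      heckeTH O O hq hqL (actO hH O w (v : H1 L H O O)) = (Φ t v : H1 L H O O))
    (hD : ∀ x, C.E x = x →
      actO hH O w (diamondH O O (primeUnit hq hqL) (actO hH O w x)) = x)
    (v : LinearMap.range C.E) (hv : Φ (((q : A) + 1) ^ 2 - t ^ 2) v = 0) : v = 0 := by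
  obtain ⟨z, hz⟩ := hrep
  have hmem : ∀ x, C.E x = x → x ∈ LinearMap.range C.E := fun x hx => ⟨x, hx⟩
  have hfix : C.E (v : H1 L H O O) = v := by
    obtain ⟨x, hx⟩ := v.2
    rw [← hx, ← Module.End.mul_apply, hE.eq]
  refine Subtype.ext (eq_zero_of_det_eq_zero (A := HeckeO L H (↑S : Set ℕ) O) hH hq hqL
    (actO hH O : HeckeO L H (↑S : Set ℕ) O →ₐ[O] _).toRingHom C.comm (w := w) (v := wi) (t := z) hw
    (fun x hx => (hTw ⟨x, hmem x hx⟩).trans (hz ⟨x, hmem x hx⟩).symm)
    (fun x hx => ?_) hD hfix ?_)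
  · show actO hH O w (heckeTH O O hq hqL x) = actO hH O z x
    rw [← Module.End.mul_apply, (commute_actO_heckeT hH hq hqL w).symm.eq, Module.End.mul_apply]
    exact (hTw ⟨x, hmem x hx⟩).trans (hz ⟨x, hmem x hx⟩).symm
  · have hd : (((q + 1) ^ 2 : ℕ) • v : LinearMap.range C.E).1 - (Φ t (Φ t v)).1 = 0 :=
      congrArg Subtype.val ((apply_det Φ q t v).symm.trans hv)
    rw [← hz, ← hz] at hd
    show actO hH O (((q : HeckeO L H (↑S : Set ℕ) O) + 1) ^ 2 - z ^ 2) (v : H1 L H O O) = 0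
    rw [apply_det (actO hH O) q z]
    exact hd

/-! ## The levels -/

namespace ChainData

section Levels

attribute [local irreducible] memberAct stageAct

variable (K : ChainData O p ρbar) {A : TestRing O} {T : Type} [CommRing T] {rr : ℕ} {G : Type}
  [CommGroup G] [Fintype G] [IsLocalRing (MonoidAlgebra O G)]
  (ev : MvPowerSeries (Fin rr) O →+* MonoidAlgebra O G) (g : Fin rr → G)
  (hC : ∀ c, ev (MvPowerSeries.C c) = algebraMap O (MonoidAlgebra O G) c)
  (hX : ∀ i, ev (MvPowerSeries.X i) = MonoidAlgebra.single (g i) 1 - 1)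
  (hgen : Subgroup.closure (Set.range g) = ⊤)
  (pr : ∀ i (hi : i ≤ K.C.s), A.R →+* (K.stage i hi).ring.R)
  (hpa : ∀ i hi, (pr i hi).comp A.alg = (K.stage i hi).ring.alg)
  (ζ : G →* A.R) (d : ℕ → ℕ)
  (b : ∀ i hi, Module.Basis (Fin (d i)) (MonoidAlgebra O G)
    (LatMod (V := K.F.space i hi) (K.memberAct A pr hpa i hi) ζ))
  (πA : A.R →+* T) (hπA : Function.Surjective πA) (hπζ : ∀ x, πA (ζ x) = 1) (I : ℕ → Ideal T)
  (hI : ∀ i hi a, πA a ∈ I i → ∀ x, (∀ h, K.memberAct A pr hpa i hi (ζ h) x = x) →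
    K.memberAct A pr hpa i hi a x = 0)

/-- **The level at a stage of the chain.** -/
def lvlU (i : ℕ) (hi : i ≤ K.C.s) : Level (MvPowerSeries (Fin rr) O) A.R T
    (RingHom.ker (MvPowerSeries.constantCoeff : MvPowerSeries (Fin rr) O →+* O)) (I i) (d i) :=
  by
  refine twLevel (V := K.F.space i hi) (d := d i) (K.memberAct A pr hpa i hi) ζ ev g hC hX hgen ?_
    πA hπA hπζ ?_
  · exact b i hi
  · exact hI i hi

omit [IsLocalRing (MonoidAlgebra O G)] in
theorem lvlU_small {n : ℕ}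
    (hker : RingHom.ker ev ≤ maximalIdeal (MvPowerSeries (Fin rr) O) ^ n) (i : ℕ) (hi : i ≤ K.C.s) :
    (K.lvlU ev g hC hX hgen pr hpa ζ d b πA hπA hπζ I hI i hi).c
      ≤ maximalIdeal (MvPowerSeries (Fin rr) O) ^ n :=
  twLevel_c_le _ _ _ _ _ _ _ _ _ _ _ _ hker

omit [IsLocalRing (MonoidAlgebra O G)] in
theorem lvlU_scalar (i : ℕ) (hi : i ≤ K.C.s) (c : O) :
    (K.lvlU ev g hC hX hgen pr hpa ζ d b πA hπA hπζ I hI i hi).act (A.alg c) =
      Matrix.scalar (Fin (d i)) (Ideal.Quotient.mk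
        (K.lvlU ev g hC hX hgen pr hpa ζ d b πA hπA hπζ I hI i hi).c (MvPowerSeries.C c)) :=
  twLevel_scalar _ _ _ _ _ _ _ _ _ _ _ _ c

omit [IsLocalRing (MonoidAlgebra O G)] in
theorem lvlU_act_eq_zero_iff (i : ℕ) (hi : i ≤ K.C.s) (a : A.R) :
    (K.lvlU ev g hC hX hgen pr hpa ζ d b πA hπA hπζ I hI i hi).act a = 0 ↔ pr i hi a = 0 :=
  (twLevel_act_eq_zero_iff _ _ _ _ _ _ _ _ _ _ _ _ a).trans
    (K.memberAct_eq_zero_iff A pr hpa i hi a)

variable (r : Lift ρbar A)

omit [IsLocalRing (MonoidAlgebra O G)] in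
/-- **Nothing is lost at the roots of the flip determinant.** -/
theorem lvlU_vanish (i : ℕ) (hi : i ≤ K.C.s) (f : Fin Sys.s)
    (ha : ∀ _ : Unit, Sys.flipA f A r ∈ maximalIdeal A.R)
    (hinj : ∀ v, K.memberAct A pr hpa i hi
      ((((Sys.q (.inr (.inl f)) : ℕ) : A.R) + 1) ^ 2 - flipT f r ha ^ 2) v = 0 → v = 0)
    (j : Fin (Sys.m f)) (y : A.R)
    (hy : (K.lvlU ev g hC hX hgen pr hpa ζ d b πA hπA hπζ I hI i hi).act
      (y * (Sys.flipA f A r - A.alg (Sys.c f j))) = 0) :
    (K.lvlU ev g hC hX hgen pr hpa ζ d b πA hπA hπζ I hI i hi).act y = 0 := by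
  obtain ⟨z, hz⟩ := exists_det_eq_mul f r ha j
  exact twLevel_act_eq_zero_of_mul _ _ _ _ _ _ _ _ _ _ _ _ hinj hz hy

variable [Fact p.Prime]

/-- **Degeneracy data between two stages.** -/
theorem nonempty_flip (hp : (p : O) ∈ maximalIdeal O) (hp2 : p ≠ 2)
    (hrgen : Subring.closure (Set.range A.alg ∪ Set.range fun σ => (r.M σ).trace) = ⊤)
    (htr : ∀ i hi σ, pr i hi (r.M σ).trace = ((K.stage i hi).lift.M σ).trace)
    {l : ℕ} (hl : l.Prime) (hlS : l ∉ (↑K.C.S : Set ℕ)) (hl0 : ¬ l ∣ K.C.N₀)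
    (hθ : K.θ₀ (heckeTR hl hl0 hlS) ≠ ((l + 1 : ℕ) : ResidueField O))
    (hl1 : (l : ZMod (K.C.lvl K.C.s)) = 1)
    (hexp : ∀ u : (ZMod K.C.N₀)ˣ, ∃ k : ℕ, u ^ p ^ k ∈ K.C.H₀) (hN : 2 ≤ K.C.N₀)
    (f : Fin Sys.s) (hf : (f : ℕ) < K.C.s) (hq : K.C.q f = Sys.q (.inr (.inl f)))
    (ha : ∀ _ : Unit, Sys.flipA f A r ∈ maximalIdeal A.R)
    (w wi : HeckeO (K.C.lvl f) (K.C.grp f) (↑K.C.S : Set ℕ) O) (hw : w * wi = 1)
    (hTw : ∀ x : K.F.space f hf.le, heckeTH O O (K.C.prime f) (K.C.not_dvd f hf)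
        (K.F.opAct f hf.le w x : H1 (K.C.lvl f) (K.C.grp f) O O)
      = (K.memberAct A pr hpa f hf.le (flipT f r ha) x : H1 (K.C.lvl f) (K.C.grp f) O O))
    (hD : ∀ x, K.F.E f hf.le x = x → actO (K.C.neg_mem f) O w
      (diamondH O O (primeUnit (K.C.prime f) (K.C.not_dvd f hf)) (actO (K.C.neg_mem f) O w x)) = x)
    (hkill : ∀ z : K.F.space (f + 1) hf,
      gMap (K.C.lvl f) (K.C.q f) (K.C.not_dvd f hf) (K.C.grp f) O O
          (z : H1 (K.C.lvl (f + 1)) (K.C.grp (f + 1)) O O) = 0 →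
        K.memberAct A pr hpa (f + 1) hf
          ((((Sys.q (.inr (.inl f)) : ℕ) : A.R) + 1) ^ 2 - flipT f r ha ^ 2) z = 0) :
    Nonempty (FlipLevel (K.lvlU ev g hC hX hgen pr hpa ζ d b πA hπA hπζ I hI (f + 1) hf)
      (K.lvlU ev g hC hX hgen pr hpa ζ d b πA hπA hπζ I hI f hf.le)
      (Ideal.span {∏ j, (Sys.flipA f A r - A.alg (Sys.c f j))})
      (flipMat (Sys.q (.inr (.inl f))) (flipT f r ha))) := by
  obtain ⟨u, hu, hdet⟩ := exists_det_eq_prod f r ha
  obtain ⟨F₁, G₁, h1, h2, h3, h4, h5, h6⟩ := K.F.exists_flip (p := p) hf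
    (K.memberAct A pr hpa f hf.le) (K.memberAct A pr hpa (f + 1) hf)
    (K.exists_act_eq_memberAct A pr hpa hp r hrgen htr hf) hl hlS hl0 hθ hl1 hp2 hp hexp hN
    w wi hw (flipT f r ha) hTw hD
    (K := Ideal.span {∏ j, (Sys.flipA f A r - A.alg (Sys.c f j))}) (fun k hk z hz => by
      obtain ⟨c, rfl⟩ := Ideal.mem_span_singleton'.mp hk
      obtain ⟨ui, hui⟩ := hu.exists_left_inv
      rw [show c * ∏ j, (Sys.flipA f A r - A.alg (Sys.c f j))
          = c * ui * ((((Sys.q (.inr (.inl f)) : ℕ) : A.R) + 1) ^ 2 - flipT f r ha ^ 2) by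
        rw [hdet, mul_assoc c ui, ← mul_assoc ui, hui, one_mul],
        map_mul, Module.End.mul_apply, hkill z hz, map_zero])
  refine nonempty_flipLevel_twLevel _ _ _ _ _ _ _ _ _ _ _ _ _ _ _ F₁ G₁ h1 h2
    (fun y i => ?_) h4 h5 h6
  rw [h3 y i, hq]
  rfl

end Levels

end ChainData

/-! ## The twin -/

section Twin

variable {A : TestRing O} {B GA : Type} [CommRing B] [Algebra O B] [CommGroup GA]

/-- A map and a character, on the group ring over a test ring. -/
def charLift (f : A.R →ₐ[O] B) (χ : GA →* B) : MonoidAlgebra A.R GA →ₐ[O] B :=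
  MonoidAlgebra.liftNCAlgHom f χ fun _ _ => Commute.all _ _

omit [IsAdicComplete (maximalIdeal O) O] [Finite (ResidueField O)] [CharZero O] in
theorem charLift_single (f : A.R →ₐ[O] B) (χ : GA →* B) (h : GA) (a : A.R) :
    charLift f χ (MonoidAlgebra.single h a) = f a * χ h := by
  rw [charLift, MonoidAlgebra.coe_liftNCAlgHom]
  exact MonoidAlgebra.liftNC_single _ _ _ _

omit [IsAdicComplete (maximalIdeal O) O] [Finite (ResidueField O)] [CharZero O] in
/-- The lift of a surjection is surjective. -/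
theorem charLift_surjective (f : A.R →ₐ[O] B) (χ : GA →* B) (hf : Function.Surjective f) :
    Function.Surjective (charLift f χ) := fun y => by
  obtain ⟨a, rfl⟩ := hf y
  exact ⟨MonoidAlgebra.single 1 a, by rw [charLift_single, map_one, mul_one]⟩

end Twin

end Fermat.Agent.Root.Patched
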