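import Fermat.Agent.Root.Patched.TowerInput
import Fermat.Agent.Root.Patched.TowerLevels
import Fermat.Agent.Root.Patched.TowerLocal
import Fermat.Agent.Root.Patched.TowerChangeS
import Fermat.Agent.Root.Patched.TowerOrdinary
import Fermat.Agent.Root.Patched.TowerAtP

/-!
# The scaling at a flip place of a member

At a member of level prime to a flip prime `q` the operator `⟨q⟩^h T_q` acts as the value `t` of
the series of the flip, at `q = p` through the unit root of the ordinary shape.
-/

set_option autoImplicit false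
set_option maxSynthPendingDepth 3

noncomputable section

open IsLocalRing

namespace Fermat.Agent.Root.Patched

open Fermat.Agent.Deformation Fermat.Agent.GammaH Fermat.Agent.TW Fermat.Agent.IharaTW

local notation "ℚbar" => AlgebraicClosure ℚ

variable {O : Type} [CommRing O] [IsDomain O] [IsDiscreteValuationRing O]
  [IsAdicComplete (maximalIdeal O) O] [Finite (ResidueField O)] [CharZero O]
  {p : ℕ} [Fact p.Prime]

section General

variable {L : ℕ} [NeZero L] {H : Subgroup (ZMod L)ˣ} {S : Set ℕ} (hH : (-1 : (ZMod L)ˣ) ∈ H)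

theorem diamondR_pow_flip (a : (ZMod L)ˣ) :
    ∀ n : ℕ, (diamondR (a ^ n) : heckeRing L H S) = diamondR a ^ n
  | 0 => by rw [pow_zero, pow_zero, diamondR_one]
  | n + 1 => by rw [pow_succ, pow_succ, diamondR_mul, diamondR_pow_flip a n]

omit [Finite (ResidueField O)] [IsDomain O] [IsDiscreteValuationRing O]
    [IsAdicComplete (maximalIdeal O) O] [CharZero O] in
theorem actO_ofT_diamond_pow (a : (ZMod L)ˣ) (n : ℕ) :
    actO hH O (HeckeO.ofT O (diamondR a ^ n) : HeckeO L H S O) = diamondH O O a ^ n := by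
  rw [HeckeO.ofT_apply, actO_tmul, one_smul, map_pow, homAction_diamond]

end General

variable {ρbar : GQ →* M2 (ResidueField O)} {Sys : LocalSystem O ρbar p} {ζ : O}

/-- **The twisted Hecke operator at a flip prime is the value of the series.** -/
theorem TStage.heckeT_flipValue (A : TStage O p ρbar)
    (hE : A.C.E = actO A.neg O (twIdem A.neg O A.θ)) (St : StdData Sys ζ) (f : Fin Sys.s) {q : ℕ}
    (hqf : Sys.q (.inr (.inl f)) = q) (hq : q.Prime) (hqL : ¬ q ∣ A.L)
    (hcond : Sys.flipCond f A.ring A.lift)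
    (ha : ∀ _ : Unit, Sys.flipA f A.ring A.lift ∈ maximalIdeal A.ring.R)
    (v : LinearMap.range A.C.E) :
    (diamondH O O (primeUnit hq hqL) ^ A.h) (heckeTH O O hq hqL (v : H1 A.L A.H O O)) =
      (A.C.actR (show A.C.Ring' from flipT f A.lift ha) v : H1 A.L A.H O O) := by
  have := A.int
  by_cases hf : q = p
  · subst hf
    obtain ⟨hdet, s', hs', hred'⟩ := (St.flip_eq f hqf A.ring A.lift).1 hcond
    have hP : (Sys.P (.inr (.inl f))).LiesOverPrime q := by
      have h1 := Sys.P_over (.inr (.inl f))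
      rwa [hqf] at h1
    have hfix : ∀ v : LinearMap.range A.C.E,
        actO A.neg O (twIdem A.neg O A.θ) (v : H1 A.L A.H O O) = v := fun v => by
      obtain ⟨x, hx⟩ := v.2
      rw [← hx, hE, ← Module.End.mul_apply, ← map_mul, (isIdempotentElem_twIdem A.neg O A.θ).eq]
    have hunit : ∀ v ∈ LinearMap.range A.C.E,
        ∃ w ∈ LinearMap.range A.C.E, heckeTH O O hq hqL w = v := fun v hv => by
      obtain ⟨w, hw, hwv⟩ := exists_preimage_heckeT_twIdem A.hyp hq hqL hP
        (trace_eq_two_of_ordinaryShape A.hyp.mem hdet hs') v (hfix ⟨v, hv⟩)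
      exact ⟨w, ⟨w, by rw [hE, hw]⟩, hwv⟩
    have hcomm : Commute A.C.E (heckeTH O O hq hqL) :=
      hE ▸ (commute_actO_heckeT (O := O) A.neg hq hqL (twIdem A.neg O A.θ)).symm
    obtain ⟨s, hs, hsF⟩ := A.C.exists_ordinary_of_heckeT A.hyp A.D hq hqL hcomm hunit _ hP
    have hred : A.ring.red (s (St.φf f)) = residue O (St.s₀ f) :=
      (ordinaryShape_red_eq A.hyp.ne_two A.hyp.mem hP hdet hdet hs hs' _).trans hred'
    exact hsF (St.φf f) (by have h1 := St.φf_frob f; rwa [hqf] at h1) (flipT f A.lift ha)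
      (St.eval_Tr_mul_eq f hqf A.ring A.lift hdet hs hred ha) v
  · have hP : (Sys.P (.inr (.inl f))).LiesOverPrime q := by
      have h1 := Sys.P_over (.inr (.inl f))
      rwa [hqf] at h1
    have hσ : (Sys.P (.inr (.inl f))).IsFrobeniusAt (St.φf f : GQ) q := by
      have h1 := St.φf_frob f
      rwa [hqf] at h1
    refine Eq.trans (A.C.coe_actR_trace_frob_idem A.hyp hE A.D hq hf hqL _ hP _ hσ v).symm ?_
    unfold flipT
    rw [St.eval_Tr_ne f (hqf ▸ hf) A.ring A.lift hcond ha]

/-- **The scaling at a flip prime.** -/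
theorem TStage.exists_flipScaling (A : TStage O p ρbar)
    (hE : A.C.E = actO A.neg O (twIdem A.neg O A.θ)) (St : StdData Sys ζ) (f : Fin Sys.s) {q : ℕ}
    (hqf : Sys.q (.inr (.inl f)) = q) (hq : q.Prime) (hqL : ¬ q ∣ A.L)
    (hcond : Sys.flipCond f A.ring A.lift)
    (ha : ∀ _ : Unit, Sys.flipA f A.ring A.lift ∈ maximalIdeal A.ring.R) :
    ∃ w wi : HeckeO A.L A.H (↑A.S : Set ℕ) O, w * wi = 1 ∧
      (∀ v : LinearMap.range A.C.E,
        heckeTH O O hq hqL (actO A.neg O w (v : H1 A.L A.H O O)) =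
          (A.C.actR (show A.C.Ring' from flipT f A.lift ha) v : H1 A.L A.H O O)) ∧
      ∀ x, actO A.neg O w (diamondH O O (primeUnit hq hqL) (actO A.neg O w x)) = x := by
  set u := primeUnit hq hqL
  refine ⟨HeckeO.ofT O (diamondR u ^ A.h), HeckeO.ofT O (diamondR u⁻¹ ^ A.h), ?_, fun v => ?_,
    fun x => ?_⟩
  · rw [← map_mul, ← mul_pow, ← diamondR_mul, mul_inv_cancel, diamondR_one, one_pow, map_one]
  · refine Eq.trans ?_ (A.heckeT_flipValue hE St f hqf hq hqL hcond ha v)
    rw [← Module.End.mul_apply, (commute_actO_heckeT A.neg hq hqL _).eq, Module.End.mul_apply,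
      actO_ofT_diamond_pow]
  · have h1 : (diamondR u : heckeRing A.L A.H (↑A.S : Set ℕ)) ^ A.h * diamondR u *
        diamondR u ^ A.h = 1 := by
      rw [← pow_succ, ← pow_add, ← diamondR_pow_flip,
        show A.h + 1 + A.h = 2 * A.h + 1 by ring]
      exact diamondR_of_mem (A.hyp.odd u)
    have h2 := congrArg (fun t => actO A.neg O (HeckeO.ofT O t)) h1
    simp only [map_mul, map_one] at h2
    rw [show actO A.neg O (HeckeO.ofT O (diamondR u) : HeckeO A.L A.H (↑A.S : Set ℕ) O) =
      diamondH O O u by rw [HeckeO.ofT_apply, actO_tmul, one_smul, homAction_diamond]] at h2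
    exact LinearMap.congr_fun h2 x

section Input

variable {W : WeierstrassCurve ℤ} {D : ResidualData O p W} {Sys : LocalSystem O D.ρbar p}
  {N : ℕ}

/-- **The scaling at a stage of an input chain.** -/
theorem exists_flipScaling {St : StdData Sys D.ζ} (hT : TowerHyp D Sys St N) {Q A : Finset ℕ}
    (hQ : AuxSet Sys Q) (hA : A ⊆ avoidSet Sys) (Sx : Finset ℕ) {s : ℕ} (hs : s ≤ Sys.s)
    (f : Fin Sys.s) {i : ℕ} (hi : i ≤ (inputData hT hQ hA Sx hs).C.s) {q : ℕ}
    (hqf : Sys.q (.inr (.inl f)) = q) (hq : q.Prime)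
    (hqL : ¬ q ∣ (inputData hT hQ hA Sx hs).C.lvl i)
    (hcond : Sys.flipCond f ((inputData hT hQ hA Sx hs).stage i hi).ring
      ((inputData hT hQ hA Sx hs).stage i hi).lift)
    (ha : ∀ _ : Unit, Sys.flipA f ((inputData hT hQ hA Sx hs).stage i hi).ring
      ((inputData hT hQ hA Sx hs).stage i hi).lift ∈
        maximalIdeal ((inputData hT hQ hA Sx hs).stage i hi).ring.R) :
    let K := inputData hT hQ hA Sx hs
    ∃ w wi : HeckeO (K.C.lvl i) (K.C.grp i) (↑K.C.S : Set ℕ) O, w * wi = 1 ∧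
      (∀ v : K.F.space i hi,
        heckeTH O O hq hqL (actO (K.C.neg_mem i) O w (v : H1 (K.C.lvl i) (K.C.grp i) O O)) =
          ((K.cut i hi).actR (show (K.cut i hi).Ring' from
            LocalRing.eval (K.stage i hi).ring.alg
              (fun _ => Sys.flipA f (K.stage i hi).ring (K.stage i hi).lift) ha (Sys.Tr f)) v :
              H1 (K.C.lvl i) (K.C.grp i) O O)) ∧
      ∀ x, K.F.E i hi x = x → actO (K.C.neg_mem i) O w
        (diamondH O O (primeUnit hq hqL) (actO (K.C.neg_mem i) O w x)) = x := by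
  intro K
  obtain ⟨w, wi, h1, h2, h3⟩ :=
    (K.stage i hi).exists_flipScaling rfl St f hqf hq hqL hcond ha
  exact ⟨w, wi, h1, h2, fun x _ => h3 x⟩

end Input

end Fermat.Agent.Root.Patched
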