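import Fermat.Agent.Root.Patched.TowerExists
import Fermat.Agent.LocalModel.Algebra
import Fermat.Agent.LocalModel.Common

/-!
# Lifts at a harmless prime of the level

A lift with cyclotomic determinant and unipotent inertia at a harmless prime `q` has trivial
inertia there: `A N = q N A` with `N ^ 2 = 0` forces `N = 0` when `tr A ≠ ± (q + 1)` residually.
-/

set_option autoImplicit false

noncomputable section

namespace Fermat.Agent.Root.Patched

open IsLocalRing Fermat.Agent.Deformation Fermat.Agent.LocalModel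

local notation "ℚbar" => AlgebraicClosure ℚ

/-- The algebra of the vanishing: `X N = q N X` with unit `1 - q` and
`q²((1 + q)² - t²)`. -/
theorem eq_zero_of_rel {R : Type} [CommRing R] {X N : M2 R} {q : R} (hdet : X.det = q)
    (hrel : X * N = q • (N * X)) (hq : IsUnit q) (hq1 : IsUnit (1 - q))
    (ht : IsUnit ((1 + q) ^ 2 - X.trace ^ 2)) : N = 0 := by
  have hch : X * X = X.trace • X - q • (1 : M2 R) := by
    rw [← hdet]
    ext i j
    fin_cases i <;> fin_cases j <;>
      simp [Matrix.mul_apply, Fin.sum_univ_two, Matrix.det_fin_two, Matrix.trace_fin_two] <;> ring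
  set t := X.trace with ht'
  have h1 : X * (X * N) = (q * q) • (N * (X * X)) := by
    rw [hrel, mul_smul_comm, ← mul_assoc, hrel, smul_mul_assoc, smul_smul, mul_assoc]
  rw [← mul_assoc, hch, sub_mul, smul_mul_assoc, hrel, smul_mul_assoc, one_mul, mul_sub,
    mul_smul_comm, mul_smul_comm, mul_one, smul_sub, smul_smul, smul_smul, smul_smul] at h1
  have h2 : ((1 - q) * q) • (t • (N * X) - (1 + q) • N) = 0 := by
    rw [← sub_eq_zero] at h1
    rw [← h1]
    module
  have h3 : t • (N * X) - (1 + q) • N = 0 := (hq1.mul hq).smul_eq_zero.mp h2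
  set Z : M2 R := t • X - (1 + q) • 1 with hZ
  have h4 : N * Z = 0 := by
    rw [hZ, mul_sub, mul_smul_comm, mul_smul_comm, mul_one, h3]
  have hZdet : Z.det = (1 + q) ^ 2 - t ^ 2 := by
    rw [hZ, Matrix.det_fin_two]
    have e := hdet
    rw [Matrix.det_fin_two] at e
    have e' := ht'
    rw [Matrix.trace_fin_two] at e'
    simp
    linear_combination t ^ 2 * e + (1 + q) * t * e'
  have h5 := congrArg (· * Z.adjugate) h4
  simp only [mul_assoc, Matrix.mul_adjugate, mul_smul_comm, mul_one, zero_mul, hZdet] at h5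
  exact ht.smul_eq_zero.mp h5

variable {O : Type} [CommRing O] [IsDomain O] [IsDiscreteValuationRing O]
  [IsAdicComplete (maximalIdeal O) O] [Finite (ResidueField O)] [CharZero O]
  {p : ℕ} [hp : Fact p.Prime] {ρbar : GQ →* M2 (ResidueField O)} {Sys : LocalSystem O ρbar p}

omit [IsAdicComplete (maximalIdeal O) O] [Finite (ResidueField O)] [CharZero O] in
/-- **Inertia at a harmless prime is trivial.** -/
theorem Harmless.eq_one {q : ℕ} (hH : Harmless Sys q) (hq : q.Prime)
    (hpO : (p : O) ∈ maximalIdeal O) {S : TestRing O} {r : Lift ρbar S}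
    (hr : DetCyclotomic p S r) {P : ValuationSubring ℚbar} (hP : P.LiesOverPrime q)
    (hu : Unipotent P S r) : ∀ σ ∈ P.inertiaSubgroupIn ℚ, r.M σ = 1 := by
  obtain ⟨τ, hτ⟩ := exists_isTameGenerator hp.out hq hH.ne hP
  obtain ⟨φ, hφ⟩ := Gal.exists_isFrobeniusAt hq hP
  have hI : PInertia p P r.M :=
    pInertia_of_residual r fun σ hσ => by rw [hH.inertia P hP σ hσ, one_pow]
  have hmem : (p : S.R) ∈ maximalIdeal S.R := natCast_mem hpO
  refine hτ.eq_one hmem r.cont hI ?_
  set N := r.M τ - 1 with hN
  have hsq : N * N = 0 := by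
    have h := Matrix.aeval_self_charpoly (r.M τ)
    rw [hu τ hτ.1, map_pow, map_sub, Polynomial.aeval_X, map_one, sq] at h
    exact h
  have hfm := hτ.frobenius_mul hmem r.cont hI hφ
  rw [show r.M τ = 1 + N by rw [hN]; abel] at hfm
  have hrel := rel_of_sq hsq hfm
  have hdet := det_frobenius hpO hp.out hq hH.ne hP hr hφ
  have hred : ((r.M φ).det : S.R) = (q : S.R) := hdet
  have : CharP (ResidueField O) p := (CharP.charP_iff_prime_eq_zero hp.out).mpr (by
    rw [← map_natCast (residue O), residue_eq_zero_iff]; exact hpO)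
  have hqk : (q : ResidueField O) ≠ 0 := fun h => hH.ne
    (((Nat.prime_dvd_prime_iff_eq hp.out hq).mp ((CharP.cast_eq_zero_iff _ p q).mp h)).symm)
  have hq1 : (q : ResidueField O) ≠ 1 := fun h => hH.mod (by
    rw [← Nat.cast_one, CharP.natCast_eq_natCast _ p] at h
    rwa [Nat.ModEq, Nat.mod_eq_of_lt hp.out.one_lt] at h)
  have h0 : N = 0 := eq_zero_of_rel hred hrel
    (isUnit_of_red_ne_zero (by rwa [map_natCast]))
    (isUnit_of_red_ne_zero (by rw [map_sub, map_one, map_natCast, sub_ne_zero]; exact hq1.symm))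
    (isUnit_of_red_ne_zero (by
      rw [map_sub, map_pow, map_pow, map_add, map_one, map_natCast, red_trace, sub_ne_zero,
        add_comm]
      exact (hH.trace P hP φ hφ).symm))
  exact sub_eq_zero.mp h0

end Fermat.Agent.Root.Patched
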