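import Fermat.Agent.Root.Patched.TowerAux
import Fermat.Agent.Root.Patched.TowerLevels
import Fermat.Agent.IharaTW.LevelSmall

/-!
# The common data of the levels of one step

The auxiliary group with its coefficients, the ring with its inertia eigenvalues and the map to the
ring at the bottom; on a member free over the auxiliary group, a basis for the eigenvalues and the
comparison of invariants: the inputs of `ChainData.lvlU`.
-/

set_option autoImplicit false
set_option maxSynthPendingDepth 3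

noncomputable section

namespace Fermat.Agent.Root.Patched

open IsLocalRing Fermat.Agent.Deformation Fermat.Agent.TW Fermat.Agent.IharaTW Fermat.Agent.Patching

variable {O : Type} [CommRing O] [IsDomain O] [IsDiscreteValuationRing O]
  [IsAdicComplete (maximalIdeal O) O] [Finite (ResidueField O)] [CharZero O]
  {p : ℕ} [Fact p.Prime] {ρbar : GQ →* M2 (ResidueField O)}

attribute [local instance] testAlgebra

omit [IsAdicComplete (maximalIdeal O) O] [Finite (ResidueField O)] [IsDomain O]
    [IsDiscreteValuationRing O] [CharZero O] in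
/-- On a lattice free over the group ring invariant vectors are norms. -/
theorem exists_eq_norm_of_fixed {A V G : Type} [CommRing A] [Algebra O A] [AddCommGroup V]
    [Module O V] [CommGroup G] [Fintype G] [IsLocalRing (MonoidAlgebra O G)]
    (Φ : A →ₐ[O] Module.End O V) (ζ : G →* A) {d : ℕ}
    (b : Module.Basis (Fin d) (MonoidAlgebra O G) (LatMod Φ ζ)) (v : V)
    (hv : ∀ x, Φ (ζ x) v = v) :
    ∃ w : V, v = Φ (strElem ζ (TW.GroupRing.normElem O G)) w := by
  have : Module.Free (MonoidAlgebra O G) (LatMod Φ ζ) := Module.Free.of_basis b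
  have hΦe : ∀ a, Commute (1 : Module.End O V) (Φ a) := fun a => Commute.one_left _
  obtain ⟨u, hu⟩ : ∃ u : LatMod Φ ζ, opVec Φ ζ hΦe u = v :=
    ⟨(stageRep _ (commute_strMap Φ ζ hΦe)).asModuleEquiv.symm (oneRange.symm v),
      by simp [opVec, stageVec, coe_oneRange_symm]⟩
  obtain ⟨w, hw⟩ := (TW.GroupRing.fixed_iff_of_free u).mp fun y => opVec_inj Φ ζ (by
    rw [← stageOp_strElem Φ ζ hΦe, opVec_stageOp, strElem_single, one_smul, hu, hv])
  exact ⟨opVec Φ ζ hΦe w, by rw [← hu, hw, ← stageOp_strElem Φ ζ hΦe, opVec_stageOp]⟩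

/-- The common data of the levels of one step with `r` auxiliary primes. -/
structure LevelSetup (ρbar : GQ →* M2 (ResidueField O)) (p r : ℕ) where
  M : ℕ
  [neM : NeZero M]
  A₀ : AuxPrimes M p
  pl : ∀ q : A₀.Q, AuxPlace ρbar p q.1
  hm : ∀ q : A₀.Q, p ^ (q.1 - 1).factorization p ∣ A₀.m q.1
  e : Fin r ≃ A₀.Q
  hp : (p : O) ∈ maximalIdeal O
  ζ : O
  hζ : IsPrimitiveRoot ζ p
  /-- the ring of the stages -/
  T : TestRing O
  ℓ : Lift ρbar T
  det : DetCyclotomic p T ℓ
  /-- the ring at the bottom -/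
  T₀ : TestRing O
  reduced₀ : IsReduced T₀.R
  π : T.R →+* T₀.R
  π_surjective : Function.Surjective π
  π_tau : ∀ q, π (ℓ.M (pl q).τ).trace = 2

attribute [instance] LevelSetup.neM

namespace LevelSetup

variable {r : ℕ} (S : LevelSetup ρbar p r)

/-- The inertia eigenvalues in the ring of the stages. -/
def η : S.A₀.G →* S.T.R := etaHom S.pl S.hm S.T S.ℓ S.det

omit [IsAdicComplete (maximalIdeal O) O] [Finite (ResidueField O)] [CharZero O]
    [Fact (Nat.Prime p)] in
theorem η_gen (q : S.A₀.Q) : S.η (S.A₀.cls (S.A₀.gen q)) = (S.pl q).eta S.T S.ℓ :=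
  etaHom_gen S.pl S.hm S.T S.ℓ S.det q

omit [IsAdicComplete (maximalIdeal O) O] [Finite (ResidueField O)] [CharZero O]
    [Fact (Nat.Prime p)] in
theorem π_η (x : S.A₀.G) : S.π (S.η x) = 1 := by
  have := S.reduced₀
  have h : S.π.toMonoidHom.comp S.η = (1 : S.A₀.G →* S.T₀.R) := auxHom_ext S.A₀ fun q => by
    obtain ⟨η', h1, h2⟩ := ((S.pl q).eta_spec S.T S.ℓ S.det).2.2.1
    rw [MonoidHom.comp_apply, η_gen, MonoidHom.one_apply]
    refine eq_one_of_add_eq_two (y := S.π η') ?_ ?_
    · exact (map_mul S.π _ _).symm.trans ((congrArg S.π h2).trans (map_one S.π))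
    · exact (map_add S.π _ _).symm.trans ((congrArg S.π h1).trans (S.π_tau q))
  exact DFunLike.congr_fun h x

/-- The images of the variables. -/
def g (i : Fin r) : S.A₀.G := S.A₀.cls (S.A₀.gen (S.e i))

omit [IsAdicComplete (maximalIdeal O) O] [Finite (ResidueField O)] [CharZero O]
    [Fact (Nat.Prime p)] in
theorem range_g : Set.range S.g = Set.range fun q => S.A₀.cls (S.A₀.gen q) :=
  S.e.surjective.range_comp fun q => S.A₀.cls (S.A₀.gen q)

omit [IsAdicComplete (maximalIdeal O) O] [Finite (ResidueField O)] [CharZero O]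
    [Fact (Nat.Prime p)] in
theorem hgen : Subgroup.closure (Set.range S.g) = ⊤ := by
  rw [range_g, S.A₀.closure_gen]

include S in
omit [IsAdicComplete (maximalIdeal O) O] [Finite (ResidueField O)] [CharZero O] in
theorem isLocalRing : IsLocalRing (MonoidAlgebra O S.A₀.G) :=
  TW.GroupRing.isLocalRing_groupRing S.A₀.isPGroup S.hp

/-- The coefficients. -/
def ev : MvPowerSeries (Fin r) O →+* MonoidAlgebra O S.A₀.G :=
  (exists_groupRingEval S.A₀.isPGroup S.hp S.g).choose

omit [Finite (ResidueField O)] [CharZero O] in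
theorem hC (c : O) : S.ev (MvPowerSeries.C c) = algebraMap O (MonoidAlgebra O S.A₀.G) c :=
  (exists_groupRingEval S.A₀.isPGroup S.hp S.g).choose_spec.1 c

omit [Finite (ResidueField O)] [CharZero O] in
theorem hX (i : Fin r) : S.ev (MvPowerSeries.X i) = MonoidAlgebra.single (S.g i) 1 - 1 :=
  (exists_groupRingEval S.A₀.isPGroup S.hp S.g).choose_spec.2 i

include S in
omit [IsAdicComplete (maximalIdeal O) O] [Finite (ResidueField O)] [CharZero O] in
theorem dvd_m (q : ℕ) (hq : q ∈ S.A₀.Q) : p ∣ S.A₀.m q := by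
  refine dvd_trans ?_ (S.hm ⟨q, hq⟩)
  refine dvd_pow_self p (Nat.ne_of_gt ((Fact.out : p.Prime).factorization_pos_of_dvd ?_
    (S.pl ⟨q, hq⟩).one_mod))
  show q - 1 ≠ 0
  have := (S.A₀.prime q hq).two_le
  omega

omit [Finite (ResidueField O)] [CharZero O] in
/-- The coefficients see only high powers of the variables when the orders are large. -/
theorem ker_ev_le {n : ℕ} (hn : ∀ q ∈ S.A₀.Q, p ^ n ∣ S.A₀.m q) :
    RingHom.ker S.ev ≤ maximalIdeal (MvPowerSeries (Fin r) O) ^ n := by
  refine ker_le_maximalIdeal_pow n S.ev S.g S.hC S.hX (fun i => S.A₀.m (S.e i).1)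
    (fun M _ η hη => ⟨S.A₀.lift (fun q => η (S.e.symm q)) (fun q => ?_), fun i => ?_⟩) S.hp
    fun i => ?_
  · simpa using hη (S.e.symm q)
  · rw [g, S.A₀.lift_gen]
    simp
  · obtain ⟨v, hv⟩ := S.A₀.m_pow _ (S.e i).2
    refine ⟨v, ?_, hv⟩
    have h := hn _ (S.e i).2
    rw [hv, Nat.pow_dvd_pow_iff_le_right (Fact.out : p.Prime).one_lt] at h
    omega

/-- The eigenvalues in the ring of the member. -/
def ψ (St : TStage O p ρbar) : S.A₀.G →* St.C.Ring' :=
  etaHom S.pl S.hm St.ring St.lift (St.C.lift_detCyclotomic St.D)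

omit [Fact (Nat.Prime p)] in
theorem isEigenMap_ψ {St : TStage O p ρbar} (Dn : IsDown St S.A₀) :
    (Dn.deltaData fun q => (S.pl q).toLocalPlace).IsEigenMap (S.ψ St) :=
  isEigenMap_etaHom S.pl S.hm Dn (St.C.lift_detCyclotomic St.D)

theorem ψ_pow (St : TStage O p ρbar) (x : S.A₀.G) : ∃ v, S.ψ St x ^ p ^ v = 1 :=
  etaHom_pow S.pl S.hm St.ring St.lift (St.C.lift_detCyclotomic St.D) x

end LevelSetup

/-- A member of one step, free of rank `d` over the auxiliary group, with its ideal at the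
bottom. -/
structure LevelMember {r : ℕ} (S : LevelSetup ρbar p r) (St : TStage O p ρbar) (d : ℕ)
    (I : Ideal S.T₀.R) where
  Dn : IsDown St S.A₀
  pr : S.T.R →+* St.C.Ring'
  pr_alg : ∀ c, pr (S.T.alg c) = algebraMap O St.C.Ring' c
  pr_eta : ∀ q, pr ((S.pl q).eta S.T S.ℓ) = (S.pl q).eta St.ring St.lift
  basis : Module.Basis (Fin d) (MonoidAlgebra O S.A₀.G) (LatMod St.C.actR Dn.delta)
  hI : ∀ a, S.π a ∈ I → ∀ v, (∀ x, St.C.actR (Dn.delta x) v = v) → St.C.actR (pr a) v = 0

namespace LevelMember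

variable {r : ℕ} {S : LevelSetup ρbar p r} {St : TStage O p ρbar} {d : ℕ} {I : Ideal S.T₀.R}
  (m : LevelMember S St d I)

/-- The ring of the stages on the member. -/
def Φ : S.T.R →ₐ[O] Module.End O (LinearMap.range St.C.E) where
  toRingHom := St.C.actR.toRingHom.comp m.pr
  commutes' c := (congrArg St.C.actR (m.pr_alg c)).trans (St.C.actR.commutes c)

omit [Fact (Nat.Prime p)] in
theorem Φ_apply (a : S.T.R) : m.Φ a = St.C.actR (m.pr a) := rfl

/-- The data of the diamond operators. -/
abbrev deltaData : DeltaData St S.A₀.G S.A₀.Q := m.Dn.deltaData fun q => (S.pl q).toLocalPlace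

omit [Fact (Nat.Prime p)] in
/-- The eigenvalues on the member. -/
theorem pr_comp_η : m.pr.toMonoidHom.comp S.η = (S.ψ St) :=
  auxHom_ext S.A₀ fun q => by
    rw [MonoidHom.comp_apply, S.η_gen]
    exact (m.pr_eta q).trans (etaHom_gen S.pl S.hm St.ring St.lift _ q).symm

theorem exists_basisη :
    ∃ _b : Module.Basis (Fin d) (MonoidAlgebra O S.A₀.G) (LatMod m.Φ S.η), True := by
  have : Fintype S.A₀.G := Fintype.ofFinite _
  obtain ⟨χ, h1, h2, h3⟩ := exists_chi (A₀ := S.A₀) S.hζ.pow_eq_one S.dvd_m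
  refine exists_basis_natural m.deltaData S.A₀.isPGroup m.basis S.hζ χ h1 h2 h3
    (S.ψ St) (S.isEigenMap_ψ m.Dn) (S.ψ_pow St) m.Φ S.η fun x => ?_
  rw [Φ_apply]
  exact congrArg St.C.actR (DFunLike.congr_fun m.pr_comp_η x)

omit [Fact (Nat.Prime p)] in
theorem pr_strElem (s : MonoidAlgebra O S.A₀.G) : m.pr (strElem S.η s) = strElem (S.ψ St) s := by
  induction s using MonoidAlgebra.induction_on with
  | of y =>
    show m.pr (strElem S.η (MonoidAlgebra.single y 1)) = strElem (S.ψ St) (MonoidAlgebra.single y 1)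
    rw [strElem_single, strElem_single, one_smul, one_smul]
    exact DFunLike.congr_fun m.pr_comp_η y
  | add s t hs ht => rw [map_add, map_add, map_add, hs, ht]
  | smul c s hs =>
    rw [Algebra.smul_def, map_mul, map_mul, map_mul, hs, AlgHom.commutes, AlgHom.commutes]
    exact congrArg (· * _) (m.pr_alg c)

/-- A basis for the eigenvalues. -/
def basisη : Module.Basis (Fin d) (MonoidAlgebra O S.A₀.G) (LatMod m.Φ S.η) :=
  m.exists_basisη.choose

omit [Fact (Nat.Prime p)] in
/-- The norms on the member agree. -/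
theorem Φ_norm [Fintype S.A₀.G] : m.Φ (strElem S.η (TW.GroupRing.normElem O S.A₀.G)) =
    St.C.actR (strElem m.Dn.delta (EtaFree.chiNu (1 : S.A₀.G →* O))) := by
  have hn : TW.GroupRing.normElem O S.A₀.G = EtaFree.chiNu (1 : S.A₀.G →* O) := by
    rw [TW.GroupRing.normElem, EtaFree.chiNu]
    simp
  rw [hn, Φ_apply, m.pr_strElem, m.deltaData.strElem_nu_one (S.isEigenMap_ψ m.Dn)]
  rfl

/-- The invariants of the eigenvalues are invariants of the diamond operators. -/
theorem delta_fix {v : LinearMap.range St.C.E} (hv : ∀ x, m.Φ (S.η x) v = v) (x : S.A₀.G) :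
    St.C.actR (m.Dn.delta x) v = v := by
  have : Fintype S.A₀.G := Fintype.ofFinite _
  have := S.isLocalRing
  obtain ⟨w, hw⟩ := exists_eq_norm_of_fixed m.Φ S.η m.basisη v hv
  rw [hw, m.Φ_norm, ← Module.End.mul_apply, ← map_mul, mul_comm, strElem_nu_one_mul]

end LevelMember

end Fermat.Agent.Root.Patched
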