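import Fermat.Agent.Root.Patched.TowerDelta
import Fermat.Agent.Root.Patched.TowerInput

/-!
# The character part of the twin

On the top of the twin the element `∑ χ(h)⁻¹ ⟨h⟩`, over the group of the avoided primes, cuts out
the twin member: there the diamond operators of that group are `χ`, and inertia at each avoided
prime has one of the nontrivial classes of characters.
-/

set_option autoImplicit false
set_option maxSynthPendingDepth 3

noncomputable section

namespace Fermat.Agent.Root.Patched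

open IsLocalRing Fermat.Agent.Deformation Fermat.Agent.GammaH Fermat.Agent.TW Fermat.Agent.IharaTW
  Fermat.Agent.TW.EtaFree

local notation "ℚbar" => AlgebraicClosure ℚ

section Restrict

variable {O V A G K : Type} [CommRing O] [AddCommGroup V] [Module O V] [CommRing A] [Algebra O A]
  [CommGroup G] [Fintype G] [CommGroup K] [Fintype K] (Φ : A →ₐ[O] Module.End O V) (ζ : G →* A)

omit [Fintype G] [Fintype K] in
/-- A basis over a group ring gives one over the group ring of a subgroup. -/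
theorem exists_basis_restrict {κ : Type} (b : Module.Basis κ (MonoidAlgebra O G) (LatMod Φ ζ))
    (i : K →* G) (hi : Function.Injective i) :
    Nonempty (Module.Basis ((G ⧸ i.range) × κ) (MonoidAlgebra O K) (LatMod Φ (ζ.comp i))) := by
  classical
  let sec : G ⧸ i.range → G := fun c => c.out
  let j : LatMod Φ ζ ≃ₗ[O] LatMod Φ (ζ.comp i) :=
    (stageRep (strMap Φ ζ) (commute_strMap Φ ζ fun a => Commute.one_left (Φ a))).asModuleEquiv ≪≫ₗ
      (stageRep (strMap Φ (ζ.comp i))
        (commute_strMap Φ (ζ.comp i) fun a => Commute.one_left (Φ a))).asModuleEquiv.symm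
  have hj : ∀ (k : K) (v : LatMod Φ ζ), MonoidAlgebra.single k (1 : O) • j v =
      j (MonoidAlgebra.single (i k) (1 : O) • v) := fun k v => by
    refine (stageRep _ _).asModuleEquiv.injective ?_
    simp only [j, Representation.single_smul, one_smul, LinearEquiv.trans_apply,
      LinearEquiv.apply_symm_apply]
    rfl
  let L : ((G ⧸ i.range) × κ →₀ MonoidAlgebra O K) →ₗ[MonoidAlgebra O K] LatMod Φ (ζ.comp i) :=
    Finsupp.linearCombination (MonoidAlgebra O K)
      fun x => j (MonoidAlgebra.single (sec x.1) (1 : O) • b x.2)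
  let β : Module.Basis (G × κ) O (LatMod Φ ζ) := (MonoidAlgebra.basis G O).smulTower b
  let e : (Σ _ : (G ⧸ i.range) × κ, K) ≃ G × κ :=
    Equiv.ofBijective (fun x => (i x.2 * sec x.1.1, x.1.2)) ⟨fun x y h => by
      obtain ⟨⟨c, a⟩, k⟩ := x
      obtain ⟨⟨c', a'⟩, k'⟩ := y
      simp only [Prod.mk.injEq] at h
      obtain ⟨h1, rfl⟩ := h
      have hc : c = c' := by
        rw [← QuotientGroup.out_eq' c, ← QuotientGroup.out_eq' c', QuotientGroup.eq]
        refine ⟨k * k'⁻¹, ?_⟩
        rw [map_mul, map_inv, eq_inv_mul_iff_mul_eq]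
        calc sec c * (i k * (i k')⁻¹) = (i k * sec c) * (i k')⁻¹ := by
              rw [← mul_assoc, mul_comm (sec c)]
          _ = sec c' := by rw [h1, mul_right_comm, mul_inv_cancel, one_mul]
      subst hc
      rw [hi (mul_right_cancel h1)],
    fun ⟨g, a⟩ => by
      have : (sec (QuotientGroup.mk g))⁻¹ * g ∈ i.range :=
        QuotientGroup.eq.1 (QuotientGroup.out_eq' (QuotientGroup.mk g))
      obtain ⟨k, hk⟩ := this
      exact ⟨⟨(QuotientGroup.mk g, a), k⟩, Prod.ext (by
        show i k * sec (QuotientGroup.mk g) = g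
        rw [hk, mul_right_comm, inv_mul_cancel, one_mul]) rfl⟩⟩
  let γ : Module.Basis (Σ _ : (G ⧸ i.range) × κ, K) O ((G ⧸ i.range) × κ →₀ MonoidAlgebra O K) :=
    Finsupp.basis fun _ => MonoidAlgebra.basis K O
  let β' : Module.Basis (Σ _ : (G ⧸ i.range) × κ, K) O (LatMod Φ (ζ.comp i)) :=
    (β.reindex e.symm).map j
  have hL : ∀ x, L (γ x) = β' x := by
    rintro ⟨⟨c, a⟩, k⟩
    rw [show γ ⟨(c, a), k⟩ = Finsupp.single (c, a) (MonoidAlgebra.single k (1 : O)) by
      simp [γ, MonoidAlgebra.basis_apply]]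
    simp only [L, Finsupp.linearCombination_single, hj, smul_smul,
      MonoidAlgebra.single_mul_single, one_mul]
    have he : e ⟨(c, a), k⟩ = (i k * sec c, a) := rfl
    simp only [β', Module.Basis.map_apply, Module.Basis.reindex_apply, Equiv.symm_symm, he, β,
      Module.Basis.smulTower_apply, MonoidAlgebra.basis_apply]
  have hbij : Function.Bijective L := by
    have e1 : L.restrictScalars O = (γ.equiv β' (Equiv.refl _)).toLinearMap :=
      γ.ext fun x => by simp [hL x]
    have := (γ.equiv β' (Equiv.refl _)).bijective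
    rwa [show (⇑L : _ → _) = ⇑(γ.equiv β' (Equiv.refl _)) from
      funext fun x => LinearMap.congr_fun e1 x]
  exact ⟨⟨(LinearEquiv.ofBijective L hbij).symm⟩⟩

/-- The twisted norm is the character element of the kernel. -/
theorem strElem_twistNorm_eq {G' : Type} [CommGroup G'] (π : G →* G') [Fintype π.ker]
    (χ : G →* Oˣ) :
    strElem ζ (twistNorm π χ) =
      strElem (ζ.comp π.ker.subtype) (chiNu (((Units.coeHom O).comp χ).comp π.ker.subtype)) := by
  classical
  rw [twistNorm, chiNu, map_sum, map_sum]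
  simp only [apply_ite (strElem ζ), map_zero, ← Finset.sum_filter]
  refine Finset.sum_bij' (fun g hg => (⟨g, by simpa using hg⟩ : π.ker)) (fun g _ => (g : G))
    (fun _ _ => Finset.mem_univ _) (fun g _ => Finset.mem_filter.2 ⟨Finset.mem_univ _, g.2⟩)
    (fun _ _ => rfl) (fun _ _ => rfl) fun g _ => ?_
  rw [strElem_single, strElem_single]
  simp

/-- The twisted norm is nonzero on a nonzero free module. -/
theorem strElem_twistNorm_ne_zero [IsDomain O] [CharZero O] {G' : Type} [CommGroup G']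
    (π : G →* G') (χ : G →* Oˣ) {κ : Type}
    (b : Module.Basis κ (MonoidAlgebra O G) (LatMod Φ ζ)) (a : κ) :
    strElem ζ (twistNorm π χ) ≠ 0 := by
  classical
  intro h
  have h1 : twistNorm π χ • b a = 0 := by
    rw [← stageOp_strElem Φ ζ (e := (1 : Module.End O V)) (fun x => Commute.one_left (Φ x)), h,
      map_zero, LinearMap.zero_apply]
  have h2 : twistNorm π χ = 0 := by
    simpa using congrArg (fun v => b.repr v a) h1
  have h3 := congrArg (fun y => (twistHom π χ y).coeff 1) h2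
  simp only [twistHom_twistNorm, map_zero] at h3
  simp [MonoidAlgebra.one_def, MonoidAlgebra.coeff_single] at h3
  exact h3 (map_one π)

end Restrict

variable {O : Type} [CommRing O] [IsDomain O] [IsDiscreteValuationRing O]
  [IsAdicComplete (maximalIdeal O) O] [Finite (ResidueField O)] [CharZero O]
  {p : ℕ} [Fact p.Prime] {W : WeierstrassCurve ℤ}

omit [Fact (Nat.Prime p)] [Finite (ResidueField O)] [CharZero O] in
/-- An element of a stage dies in a part exactly when it kills the element cutting it out. -/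
theorem TStage.toSub_eq_zero_iff {ρbar : GQ →* M2 (ResidueField O)} (St : TStage O p ρbar)
    (z : HeckeO St.L St.H (↑St.S : Set ℕ) O) (hz : actO St.neg O z * St.C.E ≠ 0)
    (c : St.C.Ring') :
    St.C.toSub z hz c = 0 ↔ c * Ideal.Quotient.mk St.C.kerIdeal z = 0 := by
  obtain ⟨w, rfl⟩ := Ideal.Quotient.mk_surjective c
  rw [Cut.toSub_mk, ← map_mul, Ideal.Quotient.eq_zero_iff_mem, Ideal.Quotient.eq_zero_iff_mem]
  show (St.C.sub z hz).act w = 0 ↔ St.C.act (w * z) = 0
  rw [Cut.act_eq_zero_iff, Cut.act_eq_zero_iff, map_mul, mul_assoc]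
  rfl

variable {D : ResidualData O p W} {Sys : LocalSystem O D.ρbar p} {St : StdData Sys D.ζ} {N : ℕ}
  (hT : TowerHyp D Sys St N) {Q : Finset ℕ} (hQ : AuxSet Sys Q) [NeZero (inputN₀ N Q)]

omit [NeZero (inputN₀ N Q)] [CharZero O] in
include hQ in
theorem not_mem_avoidSet_of_mem {q : ℕ} (hq : q ∈ Q) : q ∉ avoidSet Sys := fun h => by
  obtain ⟨i, hi⟩ := mem_avoidSet.1 h
  exact hQ.notPlace q hq _ hi

/-- The auxiliary primes of the top of the twin. -/
abbrev twinAux : AuxPrimes (inputN₀ N Q) p :=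
  inputAux hT hQ (Finset.Subset.refl (avoidSet Sys))

/-- The auxiliary primes below. -/
abbrev plainAux : AuxPrimes (inputN₀ N Q) p := inputAux hT hQ (Finset.empty_subset (avoidSet Sys))

omit [NeZero (inputN₀ N Q)] [CharZero O] in
theorem twinAux_H_le : (twinAux hT hQ).H ≤ (plainAux hT hQ).H :=
  inputH_anti hT hQ (A := ∅) (Finset.empty_subset _) (Finset.Subset.refl _) (Finset.empty_subset _)

/-- The projection forgetting the avoided primes. -/
def inputProj : (twinAux hT hQ).G →* (plainAux hT hQ).G :=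
  QuotientGroup.lift _ ((plainAux hT hQ).cls.comp (Subgroup.subtype ⊤)) fun _a ha =>
    (plainAux hT hQ).cls_eq_one_iff.2 (twinAux_H_le hT hQ (Subgroup.mem_subgroupOf.1 ha))

omit [CharZero O] [NeZero (inputN₀ N Q)] in
theorem inputProj_cls (a : (ZMod (inputN₀ N Q))ˣ) :
    inputProj hT hQ ((twinAux hT hQ).cls a) = (plainAux hT hQ).cls a := rfl

omit [CharZero O] [NeZero (inputN₀ N Q)] in
theorem inputProj_surjective : Function.Surjective (inputProj hT hQ) := fun g => by
  obtain ⟨a, rfl⟩ := (plainAux hT hQ).cls_surjective g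
  exact ⟨_, inputProj_cls hT hQ a⟩

omit [CharZero O] in
theorem isPrimitiveRoot_zeta (D : ResidualData O p W) : IsPrimitiveRoot D.ζ p :=
  IsPrimitiveRoot.iff_orderOf.2 (orderOf_eq_prime D.ζ_pow D.ζ_ne)

/-- The root of unity as a unit. -/
def zetaUnit (D : ResidualData O p W) : Oˣ :=
  Units.ofPowEqOne D.ζ p D.ζ_pow (Fact.out : p.Prime).ne_zero

omit [CharZero O] in
theorem coe_zetaUnit (D : ResidualData O p W) : (zetaUnit D : O) = D.ζ := rfl

omit [NeZero (inputN₀ N Q)] in
theorem inputN₀_dvd_aux : inputN₀ N ∅ ∣ inputN₀ N Q := by simp [inputN₀]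

section Base

variable [NeZero (inputN₀ N ∅)]

/-- The auxiliary primes of the base of the twin. -/
abbrev baseAux : AuxPrimes (inputN₀ N ∅) p := twinAux hT (AuxSet.empty Sys)

/-- The reduction to the base. -/
def inputRestr : (twinAux hT hQ).G →* (baseAux hT).G :=
  QuotientGroup.lift _
    (((baseAux hT).cls.comp (ZMod.unitsMap inputN₀_dvd_aux)).comp (Subgroup.subtype ⊤))
      fun a ha => by
      obtain ⟨e, he⟩ := exists_inputSplit hT hQ (Finset.Subset.refl (avoidSet Sys))
      have h := he inputN₀_dvd_aux a.1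
      rw [(twinAux hT hQ).cls_eq_one_iff.2 (Subgroup.mem_subgroupOf.1 ha), map_one] at h
      exact (congrArg Prod.snd h).symm

omit [NeZero (inputN₀ N ∅)] [CharZero O] [NeZero (inputN₀ N Q)] in
theorem inputRestr_cls (a : (ZMod (inputN₀ N Q))ˣ) :
    inputRestr hT hQ ((twinAux hT hQ).cls a) =
      (baseAux hT).cls (ZMod.unitsMap inputN₀_dvd_aux a) := rfl

omit [NeZero (inputN₀ N ∅)] [CharZero O] [NeZero (inputN₀ N Q)] in
theorem exists_split : ∃ e : (twinAux hT hQ).G ≃* (plainAux hT hQ).G × (baseAux hT).G,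
    ∀ x, e x = (inputProj hT hQ x, inputRestr hT hQ x) := by
  obtain ⟨e, he⟩ := exists_inputSplit hT hQ (Finset.Subset.refl (avoidSet Sys))
  refine ⟨e, fun x => ?_⟩
  obtain ⟨a, rfl⟩ := (twinAux hT hQ).cls_surjective x
  exact he inputN₀_dvd_aux a

omit [NeZero (inputN₀ N ∅)] [CharZero O] in
theorem mem_avoidSet_of_base (q : (baseAux hT).Q) : q.1 ∈ avoidSet Sys := by
  have h : q.1 ∈ (∅ : Finset ℕ) ∪ avoidSet Sys := q.2
  rwa [Finset.empty_union] at h

/-- The character of the base: `ζ` at every avoided prime. -/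
def baseChi : (baseAux hT).G →* Oˣ :=
  (baseAux hT).lift (fun _ => zetaUnit D) fun q => by
    have hm : (baseAux hT).m q.1 = p := by
      simp only [baseAux, twinAux, inputAux, auxOf]
      rw [if_neg (Finset.notMem_empty q.1)]
    rw [hm]
    exact Units.ext (by rw [Units.val_pow_eq_pow_val, coe_zetaUnit, D.ζ_pow, Units.val_one])

omit [CharZero O] [NeZero (inputN₀ N ∅)] in
theorem baseChi_gen (q : (baseAux hT).Q) :
    baseChi hT ((baseAux hT).cls ((baseAux hT).gen q)) = zetaUnit D := by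
  rw [baseChi, AuxPrimes.lift_gen]

omit [CharZero O] [NeZero (inputN₀ N ∅)] in
theorem baseChi_pow (g : (baseAux hT).G) : ∃ k : ℕ, (baseChi hT g : O) = D.ζ ^ k := by
  have hg : g ∈ Subgroup.closure (Set.range fun q => (baseAux hT).cls ((baseAux hT).gen q)) := by
    rw [(baseAux hT).closure_gen]; trivial
  induction hg using Subgroup.closure_induction with
  | mem x hx =>
    obtain ⟨q, rfl⟩ := hx
    exact ⟨1, by rw [baseChi_gen, coe_zetaUnit, pow_one]⟩
  | one => exact ⟨0, by rw [map_one, Units.val_one, pow_zero]⟩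
  | mul a b _ _ ha hb =>
    obtain ⟨k, hk⟩ := ha
    obtain ⟨l, hl⟩ := hb
    exact ⟨k + l, by rw [map_mul, Units.val_mul, hk, hl, pow_add]⟩
  | inv a _ ha =>
    obtain ⟨k, hk⟩ := ha
    refine ⟨(p - 1) * k, ?_⟩
    have h1 : (baseChi hT a⁻¹ : O) * D.ζ ^ k = 1 := by
      rw [← hk, ← Units.val_mul, ← map_mul, inv_mul_cancel, map_one, Units.val_one]
    have h2 : D.ζ ^ k * D.ζ ^ ((p - 1) * k) = 1 := by
      rw [← pow_add, show k + (p - 1) * k = p * k by
        rw [Nat.sub_one_mul]
        have := Nat.le_mul_of_pos_left k (Fact.out : p.Prime).pos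
        omega, pow_mul, D.ζ_pow, one_pow]
    exact left_inv_eq_right_inv h1 h2

omit [CharZero O] [NeZero (inputN₀ N ∅)] [NeZero (inputN₀ N Q)] in
theorem comp_inputRestr (q : (baseAux hT).Q) (x : (twinAux hT hQ).G) :
    (baseAux hT).comp q (inputRestr hT hQ x) =
      (twinAux hT hQ).comp ⟨q.1, Finset.mem_union_right _ (mem_avoidSet_of_base hT q)⟩ x := by
  obtain ⟨a, rfl⟩ := (twinAux hT hQ).cls_surjective x
  rw [inputRestr_cls, AuxPrimes.comp_cls, AuxPrimes.comp_cls, unitsMap_unitsMap]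
  have hqQ : q.1 ∉ Q := fun h => not_mem_avoidSet_of_mem hQ h (mem_avoidSet_of_base hT q)
  simp only [baseAux, twinAux, inputAux, auxOf]
  rw [if_neg hqQ, if_neg (Finset.notMem_empty q.1)]

end Base

/-- The character of the twin, pulled back from the base: nontrivial at the avoided primes,
trivial at the auxiliary primes. -/
def inputChi : (twinAux hT hQ).G →* Oˣ :=
  haveI : NeZero (inputN₀ N ∅) := ⟨hT.inputN₀_ne (AuxSet.empty Sys)⟩
  (baseChi hT).comp (inputRestr hT hQ)

omit [CharZero O] [NeZero (inputN₀ N Q)] in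
theorem inputChi_eq [NeZero (inputN₀ N ∅)] (g : (twinAux hT hQ).G) :
    inputChi hT hQ g = baseChi hT (inputRestr hT hQ g) := rfl

omit [CharZero O] [NeZero (inputN₀ N Q)] in
theorem inputChi_pow (g : (twinAux hT hQ).G) : ∃ k : ℕ, (inputChi hT hQ g : O) = D.ζ ^ k := by
  have : NeZero (inputN₀ N ∅) := ⟨hT.inputN₀_ne (AuxSet.empty Sys)⟩
  rw [inputChi_eq]
  exact baseChi_pow hT _

omit [CharZero O] [NeZero (inputN₀ N Q)] in
theorem inputChi_gen_avoid_ne (q : (twinAux hT hQ).Q) (h : q.1 ∈ avoidSet Sys) :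
    (inputChi hT hQ ((twinAux hT hQ).cls ((twinAux hT hQ).gen q)) : O) ≠ 1 := by
  have : NeZero (inputN₀ N ∅) := ⟨hT.inputN₀_ne (AuxSet.empty Sys)⟩
  classical
  intro h1
  rw [inputChi_eq] at h1
  set B := baseAux hT
  set g := inputRestr hT hQ ((twinAux hT hQ).cls ((twinAux hT hQ).gen q)) with hg
  let q' : B.Q := ⟨q.1, Finset.mem_union_right _ h⟩
  obtain ⟨k, hk⟩ := B.comp_mem q' g
  have hgk : g = B.cls (B.gen q') ^ k := by
    rw [← mul_inv_eq_one]
    refine B.eq_one_of_comp fun x => ?_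
    rw [map_mul, map_inv, mul_inv_eq_one, map_zpow]
    rcases eq_or_ne x q' with rfl | hne
    · exact hk.symm
    · rw [B.comp_gen_ne hne, one_zpow, hg, comp_inputRestr]
      exact (twinAux hT hQ).comp_gen_ne fun e => hne (Subtype.ext (congrArg Subtype.val e :))
  have hm : B.m q.1 = p := by
    simp only [B, twinAux, inputAux, auxOf]
    rw [if_neg (Finset.notMem_empty q.1)]
  have hz : zetaUnit D ^ k = 1 := Units.ext (by
    rw [← baseChi_gen hT q', ← map_zpow, ← hgk, h1, Units.val_one])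
  have hprim : IsPrimitiveRoot (zetaUnit D) p := by
    refine IsPrimitiveRoot.coe_units_iff.1 ?_
    rw [coe_zetaUnit]
    exact isPrimitiveRoot_zeta D
  have hg1 : g = 1 := by
    obtain ⟨c, rfl⟩ := (hprim.zpow_eq_one_iff_dvd k).1 hz
    rw [hgk, zpow_mul, zpow_natCast]
    rw [show B.cls (B.gen q') ^ p = 1 by
      have h3 := B.gen_pow q'
      rw [show B.m q'.1 = p from hm] at h3
      exact h3, one_zpow]
  have h2 := comp_inputRestr hT hQ q' ((twinAux hT hQ).cls ((twinAux hT hQ).gen q))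
  rw [← hg, hg1, map_one] at h2
  have hord : orderOf ((twinAux hT hQ).comp q ((twinAux hT hQ).cls ((twinAux hT hQ).gen q))) =
      (twinAux hT hQ).m q.1 := ((twinAux hT hQ).exists_gen q).choose_spec.2.1
  rw [← h2, orderOf_one] at hord
  have hmq : (twinAux hT hQ).m q.1 = p := by
    simp only [twinAux, inputAux, auxOf]
    rw [if_neg fun hq => not_mem_avoidSet_of_mem hQ hq h]
  exact (Fact.out : p.Prime).one_lt.ne (hord.trans hmq)

omit [CharZero O] in
theorem zeta_sub_one_mem (D : ResidualData O p W) : D.ζ - 1 ∈ maximalIdeal O := by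
  rw [← residue_eq_zero_iff]
  have : CharP (ResidueField O) p := (CharP.charP_iff_prime_eq_zero Fact.out).mpr (by
    rw [← map_natCast (residue O), residue_eq_zero_iff]; exact D.p_mem)
  refine eq_zero_of_pow_eq_zero (n := p) ?_
  rw [map_sub, map_one, sub_pow_char, one_pow, ← map_pow, D.ζ_pow, map_one, sub_self]

omit [CharZero O] [NeZero (inputN₀ N Q)] in
theorem inputChi_sub_one_mem (g : (twinAux hT hQ).G) :
    (inputChi hT hQ g : O) - 1 ∈ maximalIdeal O := by
  obtain ⟨k, hk⟩ := inputChi_pow hT hQ g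
  rw [hk, ← geom_sum_mul]
  exact Ideal.mul_mem_left _ _ (zeta_sub_one_mem D)

omit [CharZero O] [NeZero (inputN₀ N Q)] in
theorem dvd_inputChi_sub_one {ϖ : O} (hϖ : Irreducible ϖ) (g : (twinAux hT hQ).G) :
    ϖ ∣ (inputChi hT hQ g : O) - 1 := by
  rw [← Ideal.mem_span_singleton, ← hϖ.maximalIdeal_eq]
  exact inputChi_sub_one_mem hT hQ g

variable (Sx : Finset ℕ)

/-- The top of the twin. -/
abbrev twinTop : TStage O p D.ρbar :=
  (inputData hT hQ (Finset.Subset.refl (avoidSet Sys)) Sx (Nat.zero_le Sys.s)).stage 0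
    (Nat.zero_le _)

theorem twinDown : IsDown (twinTop hT hQ Sx) (twinAux hT hQ) where
  dvd := dvd_refl _
  mem a := by
    have h : ∀ (M : ℕ) (hM : M ∣ M) (H : Subgroup (ZMod M)ˣ) (b : (ZMod M)ˣ),
        ZMod.unitsMap hM b ∈ H ↔ b ∈ H := fun M hM H b => by rw [ZMod.unitsMap_self]; rfl
    exact (h _ _ _ a).symm
  sq _ hq := hT.not_sq_dvd hQ (Finset.Subset.refl _) hq

theorem exists_twinBasis [Fintype (twinAux hT hQ).G] :
    ∃ (d : ℕ) (_ : Module.Basis (Fin d) (MonoidAlgebra O (twinAux hT hQ).G)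
      (LatMod (twinTop hT hQ Sx).C.actR (twinDown hT hQ Sx).delta)), 0 < d := by
  refine (exists_input_auxPrime hT hQ Sx).elim fun l hl' => ?_
  have hl := hl'.1
  have hlS := hl'.2.1
  have hl1 := hl'.2.2.2.1
  have htr := hl'.2.2.2.2.2
  have hl0 := (input_auxPrime_spec hT hQ (Finset.Subset.refl (avoidSet Sys)) Sx (Nat.zero_le Sys.s)
    hl hl1 htr).1
  have hlS' : l ∉ (↑(twinTop hT hQ Sx).S : Set ℕ) := hlS
  have hlL : ¬ l ∣ (twinTop hT hQ Sx).L := fun h =>
    hlS' (Finset.mem_coe.2 ((twinTop hT hQ Sx).hyp.LS l hl h))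
  refine (Gal.exists_liesOverPrime (L := ℚbar) hl).elim fun B hB => ?_
  refine (Gal.exists_isFrobeniusAt hl hB).elim fun σ hσ => ?_
  refine ((twinDown hT hQ Sx).exists_basis rfl hl hlL hlS'
    (by
      rw [twHyp_theta_heckeTR (twinTop hT hQ Sx).hyp (twinTop hT hQ Sx).diamond_one hl hlL
        hlS' hB hσ]
      exact htr B hB σ hσ)
    hl0 (input_free hT hQ (Finset.Subset.refl (avoidSet Sys)) ⊤)).elim fun d hb => ?_
  refine hb.elim fun b hd => ?_
  refine ⟨d, b, Nat.pos_of_ne_zero fun h0 => (twinTop hT hQ Sx).C.ne ?_⟩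
  have := moduleFinite_H1 (twinTop hT hQ Sx).neg O
  have : Module.IsTorsionFree O (H1 (twinTop hT hQ Sx).L (twinTop hT hQ Sx).H O O) :=
    Function.Injective.moduleIsTorsionFree _ (coordH (twinTop hT hQ Sx).neg O O).symm.injective
      fun x y => map_smul (coordH (twinTop hT hQ Sx).neg O O).symm x y
  rw [h0, mul_zero] at hd
  rw [← LinearMap.range_eq_bot]
  exact Submodule.finrank_eq_zero.1 hd

/-- The element cutting out the character part, in the ring of the top. -/
def twinNu [Fintype (twinAux hT hQ).G] : (twinTop hT hQ Sx).C.Ring' :=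
  strElem (twinDown hT hQ Sx).delta (twistNorm (inputProj hT hQ) (inputChi hT hQ))

/-- An element of the Hecke ring above it. -/
def twinElem [Fintype (twinAux hT hQ).G] :
    HeckeO (twinTop hT hQ Sx).L (twinTop hT hQ Sx).H (↑(twinTop hT hQ Sx).S : Set ℕ) O :=
  (Ideal.Quotient.mk_surjective (twinNu hT hQ Sx)).choose

theorem mk_twinElem [Fintype (twinAux hT hQ).G] :
    Ideal.Quotient.mk (twinTop hT hQ Sx).C.kerIdeal (twinElem hT hQ Sx) = twinNu hT hQ Sx :=
  (Ideal.Quotient.mk_surjective (twinNu hT hQ Sx)).choose_spec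

theorem twinElem_ne [Fintype (twinAux hT hQ).G] :
    actO (twinTop hT hQ Sx).neg O (twinElem hT hQ Sx) * (twinTop hT hQ Sx).C.E ≠ 0 := fun h => by
  obtain ⟨d, b, hd⟩ := exists_twinBasis hT hQ Sx
  refine strElem_twistNorm_ne_zero (twinTop hT hQ Sx).C.actR (twinDown hT hQ Sx).delta
    (inputProj hT hQ) (inputChi hT hQ) b ⟨0, hd⟩ ?_
  show twinNu hT hQ Sx = 0
  rw [← mk_twinElem]
  exact Ideal.Quotient.eq_zero_iff_mem.2 (((twinTop hT hQ Sx).C.act_eq_zero_iff _).2 h)

/-- The twin. -/
abbrev twinMember [Fintype (twinAux hT hQ).G] : TStage O p D.ρbar :=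
  (twinTop hT hQ Sx).sub (twinElem hT hQ Sx) (twinElem_ne hT hQ Sx)

/-- The map from the top to the twin. -/
abbrev twinMap [Fintype (twinAux hT hQ).G] :
    (twinTop hT hQ Sx).C.Ring' →ₐ[O] (twinMember hT hQ Sx).C.Ring' :=
  (twinTop hT hQ Sx).C.toSub (twinElem hT hQ Sx) (twinElem_ne hT hQ Sx)

theorem twinMap_eq_zero_iff [Fintype (twinAux hT hQ).G] (c : (twinTop hT hQ Sx).C.Ring') :
    twinMap hT hQ Sx c = 0 ↔ c * twinNu hT hQ Sx = 0 := by
  refine (TStage.toSub_eq_zero_iff (twinTop hT hQ Sx) (twinElem hT hQ Sx)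
    (twinElem_ne hT hQ Sx) c).trans ?_
  rw [mk_twinElem]

/-- On the twin the diamond operators of the avoided primes are the character. -/
theorem twinMap_delta [Fintype (twinAux hT hQ).G] (h : (twinAux hT hQ).G)
    (hh : inputProj hT hQ h = 1) :
    twinMap hT hQ Sx ((twinDown hT hQ Sx).delta h) =
      algebraMap O _ (inputChi hT hQ h : O) := by
  rw [← AlgHom.commutes (twinMap hT hQ Sx), ← sub_eq_zero, ← map_sub, twinMap_eq_zero_iff, sub_mul,
    twinNu, ← one_smul O ((twinDown hT hQ Sx).delta h), ← strElem_single, ← map_mul,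
    single_mul_twistNorm _ _ hh, map_smul, Algebra.smul_def, sub_self]

/-- The place at an avoided prime. -/
def avoidPlace (St : StdData Sys D.ζ) (i : Fin Sys.r) : LocalPlace D.ρbar p (Sys.q (.inl i)) where
  ne := TowerHyp.avoid_ne_p St (mem_avoidSet.2 ⟨i, rfl⟩)
  P := Sys.P (.inl i)
  P_over := Sys.P_over _
  φ := Sys.φ i
  frob := St.avoid_frob i
  τ := Sys.τ i
  tame := St.avoid_tame i
  unr := St.avoid_inertia i

/-- An avoided prime among the auxiliary primes of the top. -/
def avoidIdx (i : Fin Sys.r) : (twinAux hT hQ).Q :=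
  ⟨Sys.q (.inl i), Finset.mem_union_right _ (mem_avoidSet.2 ⟨i, rfl⟩)⟩

omit [CharZero O] [NeZero (inputN₀ N Q)] in
theorem proj_gen_avoid (i : Fin Sys.r) :
    inputProj hT hQ ((twinAux hT hQ).cls ((twinAux hT hQ).gen (avoidIdx hT hQ i))) = 1 := by
  classical
  rw [inputProj_cls]
  refine (plainAux hT hQ).eq_one_of_comp fun q => ?_
  have hq : q.1 ∈ Q := by
    have h : q.1 ∈ Q ∪ ∅ := q.2
    simpa using h
  have hne : (⟨q.1, Finset.mem_union_left _ hq⟩ : (twinAux hT hQ).Q) ≠ avoidIdx hT hQ i := fun e =>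
    not_mem_avoidSet_of_mem hQ hq (mem_avoidSet.2 ⟨i, (congrArg Subtype.val e).symm⟩)
  have h1 := (twinAux hT hQ).comp_gen_ne hne
  rw [AuxPrimes.comp_cls] at h1 ⊢
  simp only [plainAux, twinAux, inputAux, auxOf, hq, if_true] at h1 ⊢
  exact h1

omit [CharZero O] [NeZero (inputN₀ N Q)] in
theorem closure_avoid_eq_top :
    Subgroup.closure (Set.range fun i =>
      (⟨_, proj_gen_avoid hT hQ i⟩ : (inputProj hT hQ).ker)) = ⊤ := by
  classical
  refine eq_top_iff.2 fun x _ => ?_
  let A₀ := twinAux hT hQ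
  choose e he using fun q : A₀.Q => A₀.comp_mem q x.1
  have hxe : x.1 = ∏ q ∈ Finset.univ.filter (fun q : A₀.Q => q.1 ∈ avoidSet Sys),
      A₀.cls (A₀.gen q) ^ e q := by
    rw [← mul_inv_eq_one]
    refine A₀.eq_one_of_comp fun q' => ?_
    rw [map_mul, map_inv, mul_inv_eq_one, map_prod]
    by_cases hq' : q'.1 ∈ avoidSet Sys
    · rw [Finset.prod_eq_single q']
      · rw [map_zpow]
        exact (he q').symm
      · intro q _ hne
        rw [map_zpow, A₀.comp_gen_ne hne.symm, one_zpow]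
      · exact fun h => absurd (Finset.mem_filter.2 ⟨Finset.mem_univ q', hq'⟩) h
    · rw [Finset.prod_eq_one fun q hq => by
        rw [map_zpow, A₀.comp_gen_ne (fun e' : q' = q => hq' (e' ▸ (Finset.mem_filter.1 hq).2)),
          one_zpow]]
      have hqQ : q'.1 ∈ Q := (Finset.mem_union.1 q'.2).resolve_right hq'
      obtain ⟨a, ha⟩ := A₀.cls_surjective x.1
      have hx1 : (plainAux hT hQ).cls a = 1 := by
        rw [← inputProj_cls, show (twinAux hT hQ).cls a = x.1 from ha]
        exact x.2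
      have h2 := congrArg ((plainAux hT hQ).comp ⟨q'.1, Finset.mem_union_left _ hqQ⟩) hx1
      rw [map_one, AuxPrimes.comp_cls] at h2
      rw [← ha, AuxPrimes.comp_cls]
      simp only [plainAux, A₀, twinAux, inputAux, auxOf, hqQ, if_true] at h2 ⊢
      exact h2
  have hxe' : x = ∏ q ∈ (Finset.univ.filter (fun q : A₀.Q => q.1 ∈ avoidSet Sys)).attach,
      (⟨_, show inputProj hT hQ (A₀.cls (A₀.gen q.1)) = 1 by
        obtain ⟨i, hi⟩ := mem_avoidSet.1 (Finset.mem_filter.1 q.2).2
        rw [show q.1 = avoidIdx hT hQ i from Subtype.ext hi.symm]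
        exact proj_gen_avoid hT hQ i⟩ : (inputProj hT hQ).ker) ^ e q.1 := by
    refine Subtype.ext (hxe.trans ?_)
    rw [Subgroup.val_finsetProd]
    simp only [Subgroup.coe_zpow]
    exact (Finset.prod_attach _ fun q : A₀.Q => A₀.cls (A₀.gen q) ^ e q).symm
  rw [hxe']
  refine Subgroup.prod_mem _ fun q _ => Subgroup.zpow_mem _ (Subgroup.subset_closure ?_) _
  obtain ⟨i, hi⟩ := mem_avoidSet.1 (Finset.mem_filter.1 q.2).2
  exact ⟨i, Subtype.ext (congrArg (fun x : A₀.Q => A₀.cls (A₀.gen x))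
    (show avoidIdx hT hQ i = q.1 from Subtype.ext hi))⟩

/-- The diamond data of the avoided primes on the top of the twin. -/
def avoidData : DeltaData (twinTop hT hQ Sx) (inputProj hT hQ).ker (Fin Sys.r) where
  g i := ⟨_, proj_gen_avoid hT hQ i⟩
  gen := closure_avoid_eq_top hT hQ
  δ := (twinDown hT hQ Sx).delta.comp (inputProj hT hQ).ker.subtype
  loc i := (twinDown hT hQ Sx).localAt (avoidIdx hT hQ i) (avoidPlace St i)
  dia i := by
    show (twinDown hT hQ Sx).delta ((twinAux hT hQ).cls ((twinAux hT hQ).gen (avoidIdx hT hQ i))) =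
      (twinTop hT hQ Sx).C.dia _
    exact (congrArg (twinDown hT hQ Sx).delta
      ((twinDown hT hQ Sx).exists_away (avoidIdx hT hQ i)).choose_spec.2.symm).trans
        ((twinDown hT hQ Sx).delta_down _)

/-- **Inertia at an avoided prime on the twin**: one of the nontrivial classes. -/
theorem twin_prod [Fintype (twinAux hT hQ).G] (i : Fin Sys.r) :
    ∏ k ∈ Finset.Ico 1 p, (((twinMember hT hQ Sx).lift.M (Sys.τ i)).trace -
      (twinMember hT hQ Sx).ring.alg (D.ζ ^ k + D.ζ ^ (k * (p - 1)))) = 0 := by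
  classical
  have : Fintype (inputProj hT hQ).ker := Fintype.ofFinite _
  obtain ⟨d, b, -⟩ := exists_twinBasis hT hQ Sx
  have : Fintype ((twinAux hT hQ).G ⧸ (inputProj hT hQ).ker.subtype.range) := Fintype.ofFinite _
  obtain ⟨bK⟩ := exists_basis_restrict (twinTop hT hQ Sx).C.actR (twinDown hT hQ Sx).delta b
    (inputProj hT hQ).ker.subtype Subtype.val_injective
  have key := (avoidData hT hQ Sx).nu_mul_prod bK (isPrimitiveRoot_zeta D)
    (χ := ((Units.coeHom O).comp (inputChi hT hQ)).comp (inputProj hT hQ).ker.subtype)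
    (fun g => inputChi_pow hT hQ g.1) (j := i) (by
      exact inputChi_gen_avoid_ne hT hQ (avoidIdx hT hQ i) (mem_avoidSet.2 ⟨i, rfl⟩))
  have hnu : (avoidData hT hQ Sx).nu
      (((Units.coeHom O).comp (inputChi hT hQ)).comp (inputProj hT hQ).ker.subtype) =
      twinNu hT hQ Sx :=
    (strElem_twistNorm_eq (twinDown hT hQ Sx).delta (inputProj hT hQ) (inputChi hT hQ)).symm
  rw [hnu, mul_comm, ← twinMap_eq_zero_iff, map_prod] at key
  refine Eq.trans (Finset.prod_congr rfl fun k _ => ?_) key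
  rw [map_sub, AlgHom.commutes]
  congr 1
  rw [show (twinMember hT hQ Sx).lift.M (Sys.τ i) =
    ((twinTop hT hQ Sx).lift.M (Sys.τ i)).map (twinMap hT hQ Sx).toRingHom from
      (twinTop hT hQ Sx).sub_lift_M _ _ _]
  exact (AddMonoidHom.map_trace (twinMap hT hQ Sx).toRingHom.toAddMonoidHom _).symm

end Fermat.Agent.Root.Patched
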