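import Fermat.Agent.Root.Patched.TowerLevelSetup
import Fermat.Agent.Root.Patched.TowerAtPInput
import Fermat.Agent.Root.Patched.TowerTwin

/-!
# The levels at the stages of one step of a tower

For the plain stages at auxiliary primes `Q`: the ring of the stages with its maps to the members
and to the ring at the bottom, compatible with descent from each stage to its base, gives at every
stage a level over `O⟦X_1, …, X_r⟧`, all with one projection, of rank `2 ^ r` times that of the
base, small when the auxiliary primes are congruent to `1` modulo a high power of `p`.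
-/

set_option autoImplicit false
set_option genSizeOf false
set_option genInjectivity false
set_option maxSynthPendingDepth 3

noncomputable section

namespace Fermat.Agent.Root.Patched

open IsLocalRing Polynomial Fermat.Agent.Deformation Fermat.Agent.GammaH Fermat.Agent.TW
  Fermat.Agent.IharaTW
open Fermat.Agent.Patching (Level)

local notation "ℚbar" => AlgebraicClosure ℚ

attribute [local instance] testAlgebra

variable {O : Type} [CommRing O] [IsDomain O] [IsDiscreteValuationRing O]
  [IsAdicComplete (maximalIdeal O) O] [Finite (ResidueField O)] [CharZero O]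
  {p : ℕ} [Fact p.Prime] {W : WeierstrassCurve ℤ} {D : ResidualData O p W}
  {Sys : LocalSystem O D.ρbar p} {St : StdData Sys D.ζ} {N : ℕ} (hT : TowerHyp D Sys St N)
  {Q A : Finset ℕ} (hQ : AuxSet Sys Q) (hA : A ⊆ avoidSet Sys) (Sx : Finset ℕ) {s : ℕ}
  (hs : s ≤ Sys.s)

/-- A stage of an input chain has the auxiliary group of the bottom. -/
theorem inputData_isDown {i : ℕ} (hi : i ≤ (inputData hT hQ hA Sx hs).C.s) :
    haveI : NeZero (inputN₀ N Q) := ⟨hT.inputN₀_ne hQ⟩
    IsDown ((inputData hT hQ hA Sx hs).stage i hi) (inputAux hT hQ hA) := by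
  have : NeZero (inputN₀ N Q) := ⟨hT.inputN₀_ne hQ⟩
  refine ⟨(inputData hT hQ hA Sx hs).C.dvd_lvl i,
    fun a => (inputData hT hQ hA Sx hs).C.mem_grp_iff, fun q hq h => ?_⟩
  exact (hT.prime_mem hQ hA hq).not_isUnit
    (squarefree_inputData_lvl hT hQ hA Sx hs hi q (by rwa [← pow_two]))

/-- The rank of a stage is a multiple of the order of the auxiliary group, with a basis. -/
theorem exists_stage_basis {i : ℕ} (hi : i ≤ (inputData hT hQ hA Sx hs).C.s) :
    haveI : NeZero (inputN₀ N Q) := ⟨hT.inputN₀_ne hQ⟩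
    ∃ (d : ℕ) (_ : Module.Basis (Fin d) (MonoidAlgebra O (inputAux hT hQ hA).G)
        (LatMod ((inputData hT hQ hA Sx hs).stage i hi).C.actR
          (inputData_isDown hT hQ hA Sx hs hi).delta)),
      Module.finrank O (LinearMap.range ((inputData hT hQ hA Sx hs).stage i hi).C.E) =
        Nat.card (inputAux hT hQ hA).G * d := by
  have : NeZero (inputN₀ N Q) := ⟨hT.inputN₀_ne hQ⟩
  have : Fintype (inputAux hT hQ hA).G := Fintype.ofFinite _
  -- `Exists.elim` rather than `obtain`: case splitting is slow on this goal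
  refine (exists_input_auxPrime hT hQ Sx).elim fun l hprime => ?_
  have hl := hprime.1
  have hlS := hprime.2.1
  have hl1 := hprime.2.2.2.1
  have htr := hprime.2.2.2.2.2
  have hlS' : l ∉ (↑((inputData hT hQ hA Sx hs).stage i hi).S : Set ℕ) := hlS
  have hlL : ¬ l ∣ ((inputData hT hQ hA Sx hs).stage i hi).L := fun h =>
    hlS' (Finset.mem_coe.2 (((inputData hT hQ hA Sx hs).stage i hi).hyp.LS l hl h))
  refine (Gal.exists_liesOverPrime (L := ℚbar) hl).elim fun B hB => ?_
  refine (Gal.exists_isFrobeniusAt hl hB).elim fun σ hσ => ?_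
  have htop : (inputData hT hQ hA Sx hs).C.grp₁
      (⊤ : Subgroup (ZMod (inputData hT hQ hA Sx hs).C.N₀)ˣ) i = ⊤ :=
    eq_top_iff.2 fun a _ => (mem_chainGrp i a).2 (Subgroup.mem_top _)
  have hl1' : (l : ZMod ((inputData hT hQ hA Sx hs).stage i hi).L) = 1 := by
    have := congrArg (ZMod.castHom (chainLvl_dvd (inputN₀ N Q) (flipPrime Sys) (hi.trans hs))
      (ZMod (chainLvl (inputN₀ N Q) (flipPrime Sys) i))) hl1
    rwa [map_natCast, map_one] at this
  refine ((inputData_isDown hT hQ hA Sx hs hi).exists_basis rfl hl hlL hlS'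
    (by
      rw [twHyp_theta_heckeTR ((inputData hT hQ hA Sx hs).stage i hi).hyp
        ((inputData hT hQ hA Sx hs).stage i hi).diamond_one hl hlL hlS' hB hσ]
      exact htr B hB σ hσ)
    hl1' (fun g hg h12 =>
      (inputData hT hQ hA Sx hs).C.free_stage_of_free (input_free hT hQ hA ⊤) i g
      ((congrArg (fun H => g ∈ GammaH.GammaH ((inputData hT hQ hA Sx hs).C.lvl i) H) htop).mpr hg)
      h12)).elim
    fun d hb => hb.elim fun b hd => ⟨d, b, by rw [hd, Nat.card_eq_fintype_card]⟩

include hT hQ in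
/-- The auxiliary primes have places with their data. -/
theorem nonempty_inputPlace (hdist : ∀ q ∈ Q, ∀ P : ValuationSubring ℚbar, P.LiesOverPrime q →
      ∀ σ : GQ, P.IsFrobeniusAt σ q →
        ∃ α β : ResidueField O, α ≠ β ∧ (D.ρbar σ).charpoly = (X - C α) * (X - C β))
    {q : ℕ} (hq : q ∈ Q) : Nonempty (AuxPlace D.ρbar p q) := by
  have := hT.neZero
  exact nonempty_auxPlace Fact.out D.p_mem (hQ.prime q hq) (TowerHyp.ne_p_of_auxSet St hQ hq)
    (hQ.one_mod q hq)
    (fun P hP => rhobar_unramified hT.ne_two hT.ss hT.irr D hT.level.residual (hQ.prime q hq)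
      (TowerHyp.ne_p_of_auxSet St hQ hq) (hT.not_dvd_aux hQ hq) hP)
    (hdist q hq)

/-- The rank over the group ring of a stage, from that of its base. -/
def stageRank (r i : ℕ) : ℕ :=
  if h : i ≤ Sys.s then 2 ^ r * Module.finrank O (LinearMap.range
    ((inputData hT (AuxSet.empty Sys) (Finset.empty_subset (avoidSet Sys)) ∅ le_rfl).stage i h).C.E)
  else 0

/-- The stages upstairs. -/
abbrev plainData : ChainData O p D.ρbar :=
  inputData hT hQ (Finset.empty_subset (avoidSet Sys)) ∅ le_rfl

/-- The stages at the bottom. -/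
abbrev baseData : ChainData O p D.ρbar :=
  inputData hT (AuxSet.empty Sys) (Finset.empty_subset (avoidSet Sys)) ∅ le_rfl

/-- The ring of the stages of one step, with its maps. -/
structure StageRings where
  T : TestRing O
  ℓ : Lift D.ρbar T
  det : DetCyclotomic p T ℓ
  T₀ : TestRing O
  ℓ₀ : Lift D.ρbar T₀
  reduced₀ : IsReduced T₀.R
  π : T.R →+* T₀.R
  π_surjective : Function.Surjective π
  π_trace : ∀ σ, π (ℓ.M σ).trace = (ℓ₀.M σ).trace
  /-- the ring at the bottom is unramified at `Q` -/
  unr₀ : ∀ q ∈ Q, ∀ P : ValuationSubring ℚbar, P.LiesOverPrime q →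
    ∀ σ ∈ P.inertiaSubgroupIn ℚ, ℓ₀.M σ = 1
  pr : ∀ i (hi : i ≤ Sys.s), T.R →+* ((plainData hT hQ).stage i hi).C.Ring'
  pr_alg : ∀ i hi c, pr i hi (T.alg c) = algebraMap O _ c
  pr_eta : ∀ i hi (q : ℕ) (P : AuxPlace D.ρbar p q),
    pr i hi (P.eta T ℓ) =
      P.eta ((plainData hT hQ).stage i hi).ring ((plainData hT hQ).stage i hi).lift
  pr₀ : ∀ i (hi : i ≤ Sys.s), T₀.R →+* ((baseData hT).stage i hi).C.Ring'
  desc : ∀ i (hi : i ≤ Sys.s),
    ((plainData hT hQ).stage i hi).C.Ring' →ₐ[O] ((baseData hT).stage i hi).C.Ring'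
  pr₀_π : ∀ i hi x, pr₀ i hi (π x) = desc i hi (pr i hi x)
  desc_ker : ∀ i hi c, desc i hi c = 0 →
    ∀ v : LinearMap.range ((plainData hT hQ).stage i hi).C.E,
      (∀ a, ((plainData hT hQ).stage i hi).C.actR (((plainData hT hQ).stage i hi).C.dia a) v = v) →
      ((plainData hT hQ).stage i hi).C.actR c v = 0
  rank : ∀ i hi, Module.finrank O (LinearMap.range ((plainData hT hQ).stage i hi).C.E) =
    Nat.card (inputAux hT hQ (Finset.empty_subset (avoidSet Sys))).G * (2 ^ Q.card *
      Module.finrank O (LinearMap.range ((baseData hT).stage i hi).C.E))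

namespace StageRings

variable {hT hQ} (R : StageRings hT hQ) (hdist : ∀ q ∈ Q, ∀ P : ValuationSubring ℚbar,
    P.LiesOverPrime q → ∀ σ : GQ, P.IsFrobeniusAt σ q →
      ∃ α β : ResidueField O, α ≠ β ∧ (D.ρbar σ).charpoly = (X - C α) * (X - C β))
  {r : ℕ} (hr : Q.card = r)

omit [CharZero O] in
include hT hQ in
theorem inputAux_Q : (inputAux hT hQ (Finset.empty_subset (avoidSet Sys))).Q = Q :=
  Finset.union_empty Q

/-- **The common data of the levels.** -/
def setup : LevelSetup D.ρbar p r :=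
  haveI : NeZero (inputN₀ N Q) := ⟨hT.inputN₀_ne hQ⟩
  { M := inputN₀ N Q
    A₀ := inputAux hT hQ (Finset.empty_subset (avoidSet Sys))
    pl := fun q => (nonempty_inputPlace hT hQ hdist
      ((inputAux_Q (hT := hT) (hQ := hQ)).le q.2)).some
    hm := fun q => by
      simp only [inputAux, auxOf]
      rw [if_pos ((inputAux_Q (hT := hT) (hQ := hQ)).le q.2)]
    e := (Finset.equivFinOfCardEq
      ((congrArg Finset.card (inputAux_Q (hT := hT) (hQ := hQ))).trans hr)).symm
    hp := D.p_mem
    ζ := D.ζ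
    hζ := isPrimitiveRoot_zeta D
    T := R.T
    ℓ := R.ℓ
    det := R.det
    T₀ := R.T₀
    reduced₀ := R.reduced₀
    π := R.π
    π_surjective := R.π_surjective
    π_tau := fun q => by
      set P := (nonempty_inputPlace hT hQ hdist ((inputAux_Q (hT := hT) (hQ := hQ)).le q.2)).some
      rw [R.π_trace, R.unr₀ q.1 ((inputAux_Q (hT := hT) (hQ := hQ)).le q.2) P.P P.P_over _ P.tame.1,
        Matrix.trace_one, Fintype.card_fin, Nat.cast_two] }

/-- The ideal of a stage at the bottom. -/
def ideal (i : ℕ) : Ideal R.T₀.R :=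
  if h : i ≤ Sys.s then RingHom.ker (R.pr₀ i h) else ⊤

include R hr in
theorem exists_memberBasis (i : ℕ) (hi : i ≤ Sys.s) :
    haveI : NeZero (inputN₀ N Q) := ⟨hT.inputN₀_ne hQ⟩
    ∃ _b : Module.Basis (Fin (stageRank hT r i))
      (MonoidAlgebra O (inputAux hT hQ (Finset.empty_subset (avoidSet Sys))).G)
      (LatMod ((plainData hT hQ).stage i hi).C.actR
        (inputData_isDown hT hQ (Finset.empty_subset (avoidSet Sys)) ∅ le_rfl hi).delta), True := by
  refine (exists_stage_basis hT hQ (Finset.empty_subset (avoidSet Sys)) ∅ le_rfl hi).elim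
    fun d hb => hb.elim fun b hd => ?_
  have hd' : d = stageRank hT r i := by
    rw [R.rank i hi, hr] at hd
    rw [stageRank, dif_pos hi]
    exact (Nat.eq_of_mul_eq_mul_left Nat.card_pos hd).symm
  subst hd'
  exact ⟨b, trivial⟩

/-- **The member of a stage**, through the given projection. -/
def member (i : ℕ) (hi : i ≤ Sys.s) : LevelMember (R.setup hdist hr) ((plainData hT hQ).stage i hi)
    (stageRank hT r i) (R.ideal i) where
  Dn := haveI : NeZero (inputN₀ N Q) := ⟨hT.inputN₀_ne hQ⟩
    inputData_isDown hT hQ (Finset.empty_subset (avoidSet Sys)) ∅ le_rfl hi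
  pr := R.pr i hi
  pr_alg := R.pr_alg i hi
  pr_eta q := R.pr_eta i hi q.1 _
  basis := (R.exists_memberBasis hr i hi).choose
  hI a ha v hv := by
    have : NeZero (inputN₀ N Q) := ⟨hT.inputN₀_ne hQ⟩
    refine R.desc_ker i hi _ ?_ v fun u => ?_
    · have e : R.ideal i = RingHom.ker (R.pr₀ i hi) := dif_pos hi
      exact (R.pr₀_π i hi a).symm.trans (RingHom.mem_ker.1 (e.le ha))
    · have h := hv ((inputData_isDown hT hQ _ ∅ le_rfl hi).down u)
      exact (congrArg (fun z => ((plainData hT hQ).stage i hi).C.actR z v)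
        ((inputData_isDown hT hQ _ ∅ le_rfl hi).delta_down u)).symm.trans h

theorem member_pr (i : ℕ) (hi : i ≤ Sys.s) : (R.member hdist hr i hi).pr = R.pr i hi := rfl

theorem setup_ker_ev_le {n : ℕ} (hn : ∀ q ∈ Q, p ^ n ∣ q - 1) :
    RingHom.ker (R.setup hdist hr).ev ≤ maximalIdeal (MvPowerSeries (Fin r) O) ^ n := by
  refine (R.setup hdist hr).ker_ev_le fun q hq => ?_
  have hq' : q ∈ Q := (inputAux_Q (hT := hT) (hQ := hQ)).le hq
  show p ^ n ∣ (inputAux hT hQ (Finset.empty_subset (avoidSet Sys))).m q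
  simp only [inputAux, auxOf]
  rw [if_pos hq']
  have hq1 : q - 1 ≠ 0 := by have := (hQ.prime q hq').two_le; omega
  exact pow_dvd_pow _ (((Fact.out : p.Prime).pow_dvd_iff_le_factorization hq1).1 (hn q hq'))

/-- **The level at a stage.** -/
def level (i : ℕ) (hi : i ≤ Sys.s) : Level (MvPowerSeries (Fin r) O) R.T.R R.T₀.R
    (RingHom.ker (MvPowerSeries.constantCoeff : MvPowerSeries (Fin r) O →+* O)) (R.ideal i)
    (stageRank hT r i) :=
  letI : Fintype (R.setup hdist hr).A₀.G := Fintype.ofFinite _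
  haveI := (R.setup hdist hr).isLocalRing
  (plainData hT hQ).lvlU (R.setup hdist hr).ev (R.setup hdist hr).g (R.setup hdist hr).hC
    (R.setup hdist hr).hX (R.setup hdist hr).hgen (fun j hj => (R.member hdist hr j hj).pr)
    (fun j hj => RingHom.ext ((R.member hdist hr j hj).pr_alg)) (R.setup hdist hr).η
    (stageRank hT r) (fun j hj => (R.member hdist hr j hj).basisη) R.π R.π_surjective
    (R.setup hdist hr).π_η R.ideal
    (fun j hj a ha v hv => (R.member hdist hr j hj).hI a ha v
      ((R.member hdist hr j hj).delta_fix hv)) i hi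

theorem level_π (i : ℕ) (hi : i ≤ Sys.s) : (R.level hdist hr i hi).π = R.π := rfl

theorem level_scalar (i : ℕ) (hi : i ≤ Sys.s) (c : O) :
    (R.level hdist hr i hi).act (R.T.alg c) = Matrix.scalar (Fin (stageRank hT r i))
      (Ideal.Quotient.mk (R.level hdist hr i hi).c (MvPowerSeries.C c)) := by
  let : Fintype (R.setup hdist hr).A₀.G := Fintype.ofFinite _
  have := (R.setup hdist hr).isLocalRing
  exact ChainData.lvlU_scalar (plainData hT hQ) _ _ _ _ _ _ _ _ _ _ _ _ _ _ _ i hi c

theorem level_small {n : ℕ} (hn : ∀ q ∈ Q, p ^ n ∣ q - 1) (i : ℕ) (hi : i ≤ Sys.s) :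
    (R.level hdist hr i hi).c ≤ maximalIdeal (MvPowerSeries (Fin r) O) ^ n := by
  let : Fintype (R.setup hdist hr).A₀.G := Fintype.ofFinite _
  have := (R.setup hdist hr).isLocalRing
  exact ChainData.lvlU_small (plainData hT hQ) _ _ _ _ _ _ _ _ _ _ _ _ _ _ _
    (R.setup_ker_ev_le hdist hr hn) i hi

/-- The level acts faithfully through the member. -/
theorem level_act_eq_zero_iff (i : ℕ) (hi : i ≤ Sys.s) (a : R.T.R) :
    (R.level hdist hr i hi).act a = 0 ↔ (R.member hdist hr i hi).pr a = 0 := by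
  let : Fintype (R.setup hdist hr).A₀.G := Fintype.ofFinite _
  have := (R.setup hdist hr).isLocalRing
  exact ChainData.lvlU_act_eq_zero_iff (plainData hT hQ) _ _ _ _ _ _ _ _ _ _ _ _ _ _ _ i hi a

end StageRings

end Fermat.Agent.Root.Patched
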