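import Fermat.Agent.Root.Patched.TowerSetup
import Fermat.Agent.TW.PointRes
import Fermat.Agent.TW.TamePoints

/-!
# Inertia at an auxiliary prime at the points of a member

At a point of a member the trace at a tame generator at an auxiliary prime is `2` exactly if the
diamond operators at that prime are trivial there, and is `l + 1/l` for a root of unity `l` of
`p`-power order; the points separate.
-/

set_option autoImplicit false

noncomputable section

namespace Fermat.Agent.Root.Patched

open IsLocalRing Fermat.Agent.Deformation Fermat.Agent.GammaH Fermat.Agent.TW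

local notation "ℚbar" => AlgebraicClosure ℚ

variable {O : Type} [CommRing O] [IsDomain O] [IsDiscreteValuationRing O]
  [IsAdicComplete (maximalIdeal O) O] [Finite (ResidueField O)] [CharZero O]

omit [IsAdicComplete (maximalIdeal O) O] [Finite (ResidueField O)] [CharZero O] in
/-- Algebra maps of finite local algebras are local. -/
theorem isLocalHom_toRingHom {A B : Type} [CommRing A] [IsLocalRing A] [Algebra O A] [CommRing B]
    [IsLocalRing B] [Algebra O B] [Module.Finite O A] [IsLocalHom (algebraMap O A)]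
    [IsLocalHom (algebraMap O B)] (φ : A →ₐ[O] B) : IsLocalHom φ.toRingHom :=
  ⟨fun a h => (GalRep.Glue.isLocalHom_algHom (𝒪 := O) φ).map_nonunit a h⟩

section Points

variable {L : ℕ} [NeZero L] {H : Subgroup (ZMod L)ˣ} {S : Finset ℕ} {hH : (-1 : (ZMod L)ˣ) ∈ H}
  {θ : heckeRing L H (↑S : Set ℕ) →+* ResidueField O} (C : Cut hH θ)

instance Cut.moduleFree : Module.Free O C.Ring' := by
  have : Module.IsTorsionFree O (H1 L H O O) :=
    Function.Injective.moduleIsTorsionFree _ (coordH hH O O).symm.injective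
      fun a b => map_smul (coordH hH O O).symm a b
  have : Module.IsTorsionFree O C.Ring' := Function.Injective.moduleIsTorsionFree
    (fun (z : C.Ring') (v : LinearMap.range C.E) => (C.actR z v : H1 L H O O))
    (fun a b h => C.actR_injective (LinearMap.ext fun v => Subtype.ext (congrFun h v)))
    (fun a z => funext fun v => by
      simp only [map_smul, LinearMap.smul_apply, Submodule.coe_smul, Pi.smul_apply])
  infer_instance

omit [Finite (ResidueField O)] in
/-- **Points separate.** -/
theorem Cut.eq_zero_of_points (hLS : ∀ q : ℕ, q.Prime → q ∣ L → q ∈ S) {z : C.Ring'}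
    (h : ∀ (K : Type) [Field K] [IsAlgClosed K] [CharZero K] [Algebra O K],
      Function.Injective (algebraMap O K) → ∀ y : C.Ring' →ₐ[O] K, y z = 0) : z = 0 := by
  have := C.isReduced hLS
  have hnil : z ∈ nilradical C.Ring' := by
    rw [nilradical, ← Ideal.sInf_minimalPrimes, Ideal.mem_sInf]
    intro P hP
    have : P.IsPrime := hP.1.1
    have hinj := GalRep.injective_quotient_minimalPrime (𝒪 := O) C.Ring' P hP
    have : CharZero (C.Ring' ⧸ P) := (RingHom.charZero_iff hinj).1 inferInstance
    let F := FractionRing (C.Ring' ⧸ P)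
    have : CharZero F := (RingHom.charZero_iff (IsFractionRing.injective (C.Ring' ⧸ P) F)).1
      inferInstance
    let f : C.Ring' ⧸ P →+* AlgebraicClosure F :=
      (algebraMap F (AlgebraicClosure F)).comp (algebraMap (C.Ring' ⧸ P) F)
    have hf : Function.Injective f :=
      (algebraMap F (AlgebraicClosure F)).injective.comp (IsFractionRing.injective (C.Ring' ⧸ P) F)
    let : Algebra O (AlgebraicClosure F) := (f.comp (algebraMap O (C.Ring' ⧸ P))).toAlgebra
    let y : C.Ring' →ₐ[O] AlgebraicClosure F :=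
      { f.comp (Ideal.Quotient.mk P) with commutes' := fun a => rfl }
    have : CharZero (AlgebraicClosure F) :=
      (RingHom.charZero_iff (algebraMap F (AlgebraicClosure F)).injective).1 inferInstance
    exact Ideal.Quotient.eq_zero_iff_mem.1
      (hf ((h (AlgebraicClosure F) (hf.comp hinj) y).trans (map_zero f).symm))
  rwa [nilradical_eq_zero, Ideal.zero_eq_bot, Ideal.mem_bot] at hnil

/-- A point with values in a field comes from one with values in a finite extension of `O`. -/
theorem Cut.exists_dvr_point {K : Type} [Field K] [Algebra O K]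
    (hK : Function.Injective (algebraMap O K)) (y : C.Ring' →ₐ[O] K) :
    ∃ (O' : Type) (_ : CommRing O') (_ : IsDomain O') (_ : IsDiscreteValuationRing O')
      (_ : IsAdicComplete (maximalIdeal O') O') (_ : Finite (ResidueField O')) (_ : CharZero O')
      (_ : Algebra O O') (_ : Module.Finite O O') (_ : IsLocalHom (algebraMap O O'))
      (x : C.Ring' →ₐ[O] O'), IsLocalHom x.toRingHom ∧ ∀ z, x z = 0 ↔ y z = 0 := by
  have : (RingHom.ker y.toRingHom).IsPrime := RingHom.ker_isPrime _
  have hinj : Function.Injective (algebraMap O (C.Ring' ⧸ RingHom.ker y.toRingHom)) := by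
    rw [injective_iff_map_eq_zero]
    intro a ha
    rw [IsScalarTower.algebraMap_apply O C.Ring' (C.Ring' ⧸ RingHom.ker y.toRingHom),
      Ideal.Quotient.algebraMap_eq, Ideal.Quotient.eq_zero_iff_mem, RingHom.mem_ker] at ha
    exact hK (((y.commutes a).symm.trans ha).trans (map_zero _).symm)
  obtain ⟨O', i1, i2, i3, i4, i5, i6, i7, i8, i9, x, hx⟩ :=
    GalRep.exists_dvr_of_domain (𝒪 := O) (C.Ring' ⧸ RingHom.ker y.toRingHom) hinj
  refine ⟨O', i1, i2, i3, i4, i5, i6, i7, i8, i9, x.comp (Ideal.Quotient.mkₐ O _),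
    isLocalHom_toRingHom _, fun z => ?_⟩
  rw [AlgHom.comp_apply, Ideal.Quotient.mkₐ_eq_mk, map_eq_zero_iff x hx,
    Ideal.Quotient.eq_zero_iff_mem, RingHom.mem_ker]
  rfl

end Points

variable {p : ℕ} {ρbar : GQ →* M2 (ResidueField O)}

/-- An auxiliary prime of a member, with a generator of the diamond operators at it. -/
structure LocalAt (St : TStage O p ρbar) where
  q : ℕ
  prime : q.Prime
  ne : q ≠ p
  dvd : q ∣ St.L
  sq : ¬ q ^ 2 ∣ St.L
  P : ValuationSubring ℚbar
  P_over : P.LiesOverPrime q
  φ : GQ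
  frob : P.IsFrobeniusAt φ q
  τ : GQ
  tame : LocalModel.IsTameGenerator p q P τ
  unr : ∀ σ ∈ P.inertiaSubgroupIn ℚ, ρbar σ = 1
  a : (ZMod St.L)ˣ
  away : ZMod.unitsMap (Nat.div_dvd_of_dvd dvd) a = 1
  gen : ∀ a' : (ZMod St.L)ˣ, ZMod.unitsMap (Nat.div_dvd_of_dvd dvd) a' = 1 →
    ∃ k : ℕ, St.C.dia a' = St.C.dia a ^ k

namespace LocalAt

variable {St : TStage O p ρbar} (A : LocalAt St)

/-- The matrices of the member. -/
def rep (St : TStage O p ρbar) : GQ →* M2 St.C.Ring' := St.lift.M

theorem rep_apply (σ : GQ) : rep St σ = St.C.mat St.D σ := rfl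

theorem matCont_rep (St : TStage O p ρbar) : MatCont (rep St) := St.lift.cont

/-- The trace at the tame generator. -/
def tr : St.C.Ring' := (rep St A.τ).trace

variable [Fact p.Prime]

omit [Fact (Nat.Prime p)] in
theorem p_mem (_A : LocalAt St) : (p : St.C.Ring') ∈ maximalIdeal St.C.Ring' :=
  TestRing.natCast_mem St.ring St.hyp.mem

omit [Fact (Nat.Prime p)] in
theorem det_tau : (rep St A.τ).det = 1 := by
  refine eq_of_forall_sub_mem_span (A := St.C.Ring') A.p_mem fun n => ?_
  have h := St.C.lift_detCyclotomic St.D n A.τ 1 fun μ hμ => by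
    rw [pow_one]
    exact Gal.Tame.apply_eq_of_pow_eq_one A.prime A.P_over A.tame.1
      (fun hd => A.ne ((Nat.prime_dvd_prime_iff_eq A.prime St.hyp.prime).1
        (A.prime.dvd_of_dvd_pow hd))) hμ
  rw [Nat.cast_one] at h
  exact h

omit [Fact (Nat.Prime p)] in
theorem residual_inertia {σ : GQ} (hσ : σ ∈ A.P.inertiaSubgroupIn ℚ) :
    (Ideal.Quotient.mk (maximalIdeal St.C.Ring')).mapMatrix (rep St σ) = 1 := by
  refine Matrix.ext fun i j => ?_
  have h : St.C.red (rep St σ i j) = (1 : M2 (ResidueField O)) i j :=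
    congrFun (congrFun ((St.lift.reduces σ).trans (A.unr σ hσ)) i) j
  rw [RingHom.mapMatrix_apply, Matrix.map_apply, Matrix.one_apply,
    ← map_one (Ideal.Quotient.mk (maximalIdeal St.C.Ring')),
    ← map_zero (Ideal.Quotient.mk (maximalIdeal St.C.Ring')), ← apply_ite, Ideal.Quotient.eq]
  refine (St.C.red_eq_zero_iff _).1 ?_
  rw [map_sub, apply_ite St.C.red, map_one, map_zero, h, Matrix.one_apply, sub_self]

variable {K : Type} [Field K] [Algebra O K]

omit [Fact (Nat.Prime p)] in
/-- Trivial diamond operators at the prime: trace `2` on its inertia. -/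
theorem point_trace_eq_two (hK : Function.Injective (algebraMap O K)) (y : St.C.Ring' →ₐ[O] K)
    (h : y (St.C.dia A.a) = 1) {σ : GQ} (hσ : σ ∈ A.P.inertiaSubgroupIn ℚ) :
    y (rep St σ).trace = 2 := by
  obtain ⟨O', _, _, _, _, _, _, _, _, _, x, hx, hxy⟩ := St.C.exists_dvr_point hK y
  have h1 : x (St.C.dia A.a) = 1 := by
    rw [← sub_eq_zero, ← map_one x, ← map_sub, hxy, map_sub, map_one, h, sub_self]
  have hloc : IsLocalHom (x.comp St.C.ofTW).toRingHom := isLocalHom_toRingHom _
  have h2 := trace_eq_two_of_diamond_eq_one St.hyp St.D (x.comp St.C.ofTW) hloc A.prime A.ne A.dvd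
    A.sq (fun a' ha' => ?_) A.P A.P_over σ hσ
  · rw [← sub_eq_zero, ← map_ofNat y 2, ← map_sub, ← hxy, map_sub, map_ofNat, sub_eq_zero]
    refine Eq.trans ?_ h2
    rw [rep_apply]
    rw [St.C.trace_mat]
    rfl
  · obtain ⟨k, hk⟩ := A.gen a' ha'
    show x (St.C.dia a') = 1
    rw [hk, map_pow, h1, one_pow]

omit [Fact (Nat.Prime p)] in
/-- Nontrivial diamond operators at the prime: the trace at the generator is not `2`. -/
theorem point_tr_ne_two (hK : Function.Injective (algebraMap O K)) (y : St.C.Ring' →ₐ[O] K)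
    (h : y (St.C.dia A.a) ≠ 1) : y A.tr ≠ 2 := by
  intro ht
  obtain ⟨O', _, _, _, _, _, _, _, _, _, x, hx, hxy⟩ := St.C.exists_dvr_point hK y
  have htr : x A.tr = 2 := by
    rw [← sub_eq_zero, ← map_ofNat x 2, ← map_sub, hxy, map_sub, map_ofNat, sub_eq_zero, ht]
  have hne : x (St.C.dia A.a) ≠ 1 := fun h1 => h (by
    rw [← sub_eq_zero, ← map_one y, ← map_sub, ← hxy, map_sub, map_one, h1, sub_self])
  have hc : MatCont (mapRep x.toRingHom (rep St)) := matCont_mapRep _ hx (matCont_rep St)
  have hp' : (p : O') ∈ maximalIdeal O' :=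
    map_natCast (algebraMap O O') p ▸ map_nonunit (algebraMap O O') _ St.hyp.mem
  have hI : LocalModel.PInertia p A.P (mapRep x.toRingHom (rep St)) := by
    refine pInertia_of_residual fun σ hσ => Matrix.ext fun i j => ?_
    have h3 := congrFun (congrFun (A.residual_inertia hσ) i) j
    rw [RingHom.mapMatrix_apply, Matrix.map_apply] at h3 ⊢
    rw [← Matrix.map_one (Ideal.Quotient.mk (maximalIdeal St.C.Ring')) (map_zero _) (map_one _),
      Matrix.map_apply, Ideal.Quotient.eq] at h3
    rw [← Matrix.map_one (Ideal.Quotient.mk (maximalIdeal O')) (map_zero _) (map_one _),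
      Matrix.map_apply, Ideal.Quotient.eq, mapRep_apply, Matrix.map_apply]
    have h4 := map_nonunit x.toRingHom _ h3
    rw [map_sub, Matrix.one_apply, apply_ite x.toRingHom, map_one, map_zero,
      ← Matrix.one_apply] at h4
    exact h4
  have hd : (mapRep x.toRingHom (rep St) A.τ).det = 1 := by
    rw [mapRep_apply, ← RingHom.mapMatrix_apply, ← RingHom.map_det]
    exact (congrArg x.toRingHom A.det_tau).trans (map_one _)
  have htrace : ∀ σ, (mapRep x.toRingHom (rep St) σ).trace = x (rep St σ).trace := fun σ =>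
    (AddMonoidHom.map_trace x.toRingHom.toAddMonoidHom _).symm
  have hall : ∀ σ ∈ A.P.inertiaSubgroupIn ℚ, x (rep St σ).trace = 2 := fun σ hσ => by
    rw [← htrace]
    exact trace_eq_two_of_tame A.tame hp' hc hI ((htrace _).trans htr) hd hσ
  have hloc : IsLocalHom (x.comp St.C.ofTW).toRingHom := isLocalHom_toRingHom _
  refine not_unipotent_of_diamond_ne St.hyp St.D (x.comp St.C.ofTW) hloc A.prime A.ne A.dvd A.sq
    A.away hne fun P' hP' σ hσ => ?_
  obtain ⟨g, hg⟩ := Gal.exists_smul_eq_of_liesOverPrime A.prime hP' A.P_over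
  have h5 := hall _ (hg ▸ Gal.conj_mem_inertia hσ g)
  refine Eq.trans ?_ h5
  show x (St.C.ofTW (St.D.ψ (St.D.M₀ σ).trace)) = x (St.C.mat St.D (g * σ * g⁻¹)).trace
  rw [St.C.trace_mat, map_mul, map_mul, Matrix.trace_mul_cycle, ← map_mul, inv_mul_cancel, map_one,
    one_mul]
  rfl

omit [Fact (Nat.Prime p)] in
/-- The eigenvalue of the tame generator at a point. -/
theorem point_eigen [IsAlgClosed K] (y : St.C.Ring' →ₐ[O] K) :
    ∃ l : K, (∃ v, l ^ p ^ v = 1) ∧ y A.tr = l + l⁻¹ :=
  exists_inertia_eigen St.hyp.prime A.prime St.hyp.mem A.tame A.frob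
    (M := rep St) (matCont_rep St) (fun _σ hσ => A.residual_inertia hσ) A.det_tau y

end LocalAt

end Fermat.Agent.Root.Patched
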