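import Fermat.Agent.Root.Patched.LocalDefs
import Fermat.Agent.TW.Local

/-!
# Members of a tower

An endomorphism of `H¹(Γ_H(L), O)` (usually idempotent) commuting with the Hecke ring and below
the idempotent of the residual eigensystem cuts out a reduced test ring with a lift of the residual
representation and a faithful action on the range.
-/

set_option autoImplicit false

noncomputable section

namespace Fermat.Agent.Root.Patched

open IsLocalRing Polynomial Fermat.Agent.Deformation Fermat.Agent.GammaH Fermat.Agent.TW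

local notation "ℚbar" => AlgebraicClosure ℚ

variable {L : ℕ} [NeZero L] {H : Subgroup (ZMod L)ˣ} {O : Type} [CommRing O] [IsDomain O]
  [IsDiscreteValuationRing O] [IsAdicComplete (maximalIdeal O) O] [Finite (ResidueField O)]
  [CharZero O] {S : Finset ℕ} (hH : (-1 : (ZMod L)ˣ) ∈ H)
  (θ : heckeRing L H (↑S : Set ℕ) →+* ResidueField O)

/-- An operator whose range is a stable part of the localised cohomology. -/
structure Cut where
  E : Module.End O (H1 L H O O)
  comm : ∀ z : HeckeO L H (↑S : Set ℕ) O, Commute E (actO hH O z)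
  below : actO hH O (twIdem hH O θ) * E = E
  ne : E ≠ 0

variable {hH θ} (C : Cut hH θ)

/-- The action on the range. -/
def Cut.act : HeckeO L H (↑S : Set ℕ) O →ₐ[O] Module.End O (LinearMap.range C.E) where
  toFun z := (actO hH O z).restrict fun v hv => by
    obtain ⟨w, rfl⟩ := hv
    exact ⟨actO hH O z w, LinearMap.congr_fun (C.comm z).eq w⟩
  map_one' := LinearMap.ext fun v => Subtype.ext (by simp)
  map_mul' x y := LinearMap.ext fun v => Subtype.ext (by simp)
  map_zero' := LinearMap.ext fun v => Subtype.ext (by simp)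
  map_add' x y := LinearMap.ext fun v => Subtype.ext (by simp)
  commutes' a := LinearMap.ext fun v => Subtype.ext (by
    rw [LinearMap.coe_restrict_apply, AlgHom.commutes, Module.algebraMap_end_apply,
      Module.algebraMap_end_apply]
    rfl)

omit [Finite (ResidueField O)] [CharZero O] in
theorem Cut.coe_act (z : HeckeO L H (↑S : Set ℕ) O) (v : LinearMap.range C.E) :
    (C.act z v : H1 L H O O) = actO hH O z v := rfl

omit [Finite (ResidueField O)] [CharZero O] in
theorem Cut.act_twIdem : C.act (twIdem hH O θ) = 1 := by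
  refine LinearMap.ext fun v => Subtype.ext ?_
  obtain ⟨w, hw⟩ := v.2
  rw [C.coe_act, Module.End.one_apply, ← hw, ← Module.End.mul_apply, C.below]

omit [Finite (ResidueField O)] [CharZero O] in
theorem Cut.act_eq_zero_iff (z : HeckeO L H (↑S : Set ℕ) O) :
    C.act z = 0 ↔ actO hH O z * C.E = 0 := by
  constructor
  · intro h
    exact LinearMap.ext fun w => congrArg Subtype.val (LinearMap.congr_fun h ⟨C.E w, w, rfl⟩)
  · intro h
    refine LinearMap.ext fun v => Subtype.ext ?_
    obtain ⟨w, hw⟩ := v.2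
    rw [C.coe_act, ← hw, ← Module.End.mul_apply, h]
    rfl

/-- The kernel. -/
def Cut.kerIdeal : Ideal (HeckeO L H (↑S : Set ℕ) O) := RingHom.ker C.act.toRingHom

/-- The ring of the cut. -/
abbrev Cut.Ring' : Type := HeckeO L H (↑S : Set ℕ) O ⧸ C.kerIdeal

omit [Finite (ResidueField O)] [CharZero O] in
theorem Cut.twKer_le : twKer hH O θ ≤ C.kerIdeal := fun z hz => by
  rw [mem_twKer_iff] at hz
  show C.act z = 0
  exact (mul_one (C.act z)).symm.trans ((congrArg (C.act z * ·) C.act_twIdem.symm).trans
    ((map_mul C.act z _).symm.trans ((congrArg C.act hz).trans (map_zero C.act))))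

/-- The map from the local Hecke ring. -/
def Cut.ofTW : TWRing hH O θ →ₐ[O] C.Ring' :=
  Ideal.Quotient.factorₐ O C.twKer_le

omit [Finite (ResidueField O)] [CharZero O] in
theorem Cut.ofTW_toTWRing (z : HeckeO L H (↑S : Set ℕ) O) :
    C.ofTW (toTWRing hH O θ z) = Ideal.Quotient.mk C.kerIdeal z := rfl

omit [Finite (ResidueField O)] [CharZero O] in
theorem Cut.ofTW_surjective : Function.Surjective C.ofTW :=
  Ideal.Quotient.factor_surjective C.twKer_le

omit [Finite (ResidueField O)] [CharZero O] in
theorem Cut.residO_eq_zero {z : HeckeO L H (↑S : Set ℕ) O} (hz : z ∈ C.kerIdeal) :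
    residO O θ z = 0 := by
  by_contra h
  obtain ⟨y, hy⟩ := exists_mul_eq_twIdem hH O θ h
  have h0 : C.act (twIdem hH O θ) = 0 := by
    rw [← hy, map_mul, show C.act z = 0 from hz, mul_zero]
  rw [C.act_eq_zero_iff, C.below] at h0
  exact C.ne h0

/-- The residual values. -/
def Cut.red : C.Ring' →+* ResidueField O :=
  Ideal.Quotient.lift C.kerIdeal (residO O θ) fun _ hz => C.residO_eq_zero hz

omit [Finite (ResidueField O)] [CharZero O] in
theorem Cut.red_mk (z : HeckeO L H (↑S : Set ℕ) O) :
    C.red (Ideal.Quotient.mk C.kerIdeal z) = residO O θ z := rfl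

instance Cut.nontrivial : Nontrivial C.Ring' :=
  nontrivial_of_ne 1 0 fun h => one_ne_zero (α := ResidueField O)
    (((map_one C.red).symm.trans (congrArg C.red h)).trans (map_zero C.red))

instance Cut.isLocalRing : IsLocalRing C.Ring' :=
  IsLocalRing.of_surjective' C.ofTW.toRingHom C.ofTW_surjective

instance Cut.moduleFinite : Module.Finite O C.Ring' :=
  Module.Finite.of_surjective C.ofTW.toLinearMap C.ofTW_surjective

instance Cut.isNoetherianRing : IsNoetherianRing C.Ring' := IsNoetherianRing.of_finite O _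

omit [Finite (ResidueField O)] in
theorem Cut.red_eq_zero_iff (x : C.Ring') : C.red x = 0 ↔ x ∈ maximalIdeal C.Ring' := by
  obtain ⟨z, rfl⟩ := Ideal.Quotient.mk_surjective x
  rw [C.red_mk, mem_maximalIdeal, mem_nonunits_iff]
  constructor
  · intro h hu
    have := hu.map C.red
    rw [C.red_mk, h] at this
    exact not_isUnit_zero this
  · intro h
    by_contra h0
    exact h (((isUnit_toTWRing_iff hH O θ).2 h0).map C.ofTW)

instance Cut.isLocalHom : IsLocalHom (algebraMap O C.Ring') where
  map_nonunit a ha := by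
    have h := ha.map C.red
    rw [show algebraMap O C.Ring' a = Ideal.Quotient.mk C.kerIdeal (algebraMap O _ a) from rfl,
      C.red_mk, residO_algebraMap] at h
    rw [← residue_ne_zero_iff_isUnit]
    exact h.ne_zero

instance Cut.isAdicComplete : IsAdicComplete (maximalIdeal C.Ring') C.Ring' :=
  IsLocalRing.isAdicComplete_of_module_finite (𝒪 := O) (T := C.Ring')

instance Cut.finiteResidue : Finite (ResidueField C.Ring') := by
  refine Finite.of_surjective (ResidueField.map (algebraMap O C.Ring')) fun z => ?_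
  obtain ⟨x, rfl⟩ := residue_surjective z
  obtain ⟨a, ha⟩ := residue_surjective (C.red x)
  refine ⟨residue O a, ?_⟩
  rw [ResidueField.map_residue, ← sub_eq_zero, ← map_sub, residue_eq_zero_iff, ← C.red_eq_zero_iff,
    map_sub, show algebraMap O C.Ring' a = Ideal.Quotient.mk C.kerIdeal (algebraMap O _ a) from rfl,
    C.red_mk, residO_algebraMap, ha, sub_self]

/-- The test ring of a cut. -/
def Cut.testRing : TestRing O where
  R := { carrier := C.Ring' }
  alg := algebraMap O C.Ring'
  red := C.red
  red_alg a := residO_algebraMap O θ a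
  ker_red := C.red_eq_zero_iff

/-- The faithful action. -/
def Cut.actR : C.Ring' →ₐ[O] Module.End O (LinearMap.range C.E) :=
  Ideal.Quotient.liftₐ C.kerIdeal C.act fun _ hz => hz

omit [Finite (ResidueField O)] [CharZero O] in
theorem Cut.actR_mk (z : HeckeO L H (↑S : Set ℕ) O) :
    C.actR (Ideal.Quotient.mk C.kerIdeal z) = C.act z := rfl

omit [Finite (ResidueField O)] [CharZero O] in
theorem Cut.actR_injective : Function.Injective C.actR := by
  rw [injective_iff_map_eq_zero]
  intro x hx
  obtain ⟨z, rfl⟩ := Ideal.Quotient.mk_surjective x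
  exact Ideal.Quotient.eq_zero_iff_mem.2 hx

omit [Finite (ResidueField O)] in
/-- A power that vanishes on the range comes from an element that does. -/
theorem Cut.isReduced (hLS : ∀ q : ℕ, q.Prime → q ∣ L → q ∈ S) : IsReduced C.Ring' := by
  have := isReduced_twRing (H := H) (S := (↑S : Set ℕ)) hH θ hLS
  have : Module.IsTorsionFree O (H1 L H O O) :=
    Function.Injective.moduleIsTorsionFree _ (coordH hH O O).symm.injective
      fun a b => map_smul (coordH hH O O).symm a b
  refine (isReduced_iff_pow_one_lt 2 one_lt_two).2 fun x hx => ?_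
  obtain ⟨z, rfl⟩ := C.ofTW_surjective x
  obtain ⟨P, hP, hP0⟩ := Algebra.IsIntegral.isIntegral (R := O) z
  obtain ⟨P₁, hP₁, hndvd⟩ :=
    Polynomial.exists_eq_pow_rootMultiplicity_mul_and_not_dvd P hP.ne_zero 0
  rw [map_zero, sub_zero] at hP₁ hndvd
  rw [X_dvd_iff] at hndvd
  have h1 : z * aeval z P₁ = 0 := by
    refine IsReduced.eq_zero _ ⟨P.rootMultiplicity 0 + 1, ?_⟩
    have h0 : z ^ P.rootMultiplicity 0 * aeval z P₁ = 0 := by
      rw [← hP0, ← aeval_def]
      conv_rhs => rw [hP₁]
      rw [map_mul, map_pow, aeval_X]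
    rw [mul_pow, pow_succ' (aeval z P₁), pow_succ z, mul_mul_mul_comm, h0, zero_mul]
  have h2 : P₁.coeff 0 • z = z ^ 2 * (-(aeval z P₁.divX)) := by
    have h := h1
    rw [← X_mul_divX_add P₁, map_add, map_mul, aeval_X, aeval_C] at h
    rw [Algebra.smul_def]
    linear_combination h
  have h3 : P₁.coeff 0 • C.actR (C.ofTW z) = 0 := by
    rw [← map_smul, ← map_smul C.ofTW, h2, map_mul, map_pow, hx, zero_mul, map_zero]
  refine C.actR_injective ?_
  rw [map_zero]
  exact LinearMap.ext fun v => (smul_eq_zero.1 (LinearMap.congr_fun h3 v)).resolve_left hndvd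

section Lift

variable {p R h : ℕ} [NeZero R] [Fact (CuspForm.HasIntegralStructure (L * R) 2)]
  {ρ₀ : GQ →* M2 (ResidueField O)}
  (D : TWRep (H := H) (S := S) (O := O) p R h (rfl : R = R) hH θ ρ₀)

/-- The map from the ring of the representation. -/
def Cut.psi : CuspForm.heckeLocal (L * R) (↑S : Set ℕ) O D.θ' →ₐ[O] C.Ring' := C.ofTW.comp D.ψ

omit [Finite (ResidueField O)] in
theorem Cut.psi_isLocalHom : IsLocalHom (C.psi D).toRingHom :=
  haveI := D.ψ_local
  haveI : IsLocalHom C.ofTW.toRingHom := ⟨fun a ha => by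
    obtain ⟨z, rfl⟩ := toTWRing_surjective hH O θ a
    refine (isUnit_toTWRing_iff hH O θ).2 fun h0 => ?_
    have h1 := ha.map C.red
    change IsUnit (residO O θ z) at h1
    rw [h0] at h1
    exact not_isUnit_zero h1⟩
  RingHom.isLocalHom_comp C.ofTW.toRingHom D.ψ.toRingHom

/-- The matrices of the lift. -/
def Cut.mat (σ : GQ) : M2 C.Ring' := (D.M₀ σ).map (C.psi D).toRingHom

omit [Finite (ResidueField O)] [CharZero O] in
theorem Cut.det_mat (σ : GQ) : (C.mat D σ).det = C.psi D (D.M₀ σ).det :=
  ((C.psi D).toRingHom.map_det (D.M₀ σ)).symm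

omit [Finite (ResidueField O)] [CharZero O] in
theorem Cut.trace_mat (σ : GQ) : (C.mat D σ).trace = C.psi D (D.M₀ σ).trace :=
  (AddMonoidHom.map_trace (C.psi D).toRingHom.toAddMonoidHom (D.M₀ σ)).symm

/-- The lift of a cut. -/
def Cut.lift : Lift ρ₀ C.testRing where
  M := mapRep (C.psi D).toRingHom D.M₀
  cont := matCont_mapRep _ (C.psi_isLocalHom D) D.cont
  reduces σ := by
    ext i j
    obtain ⟨a, ha⟩ := residue_surjective (ρ₀ σ i j)
    have h := congrFun (congrFun (DFunLike.congr_fun D.reduces σ) i) j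
    rw [mapRep_apply, mapRep_apply, Matrix.map_apply, Matrix.map_apply, ← ha,
      ResidueField.map_residue, ← sub_eq_zero, ← map_sub, residue_eq_zero_iff] at h
    have := C.psi_isLocalHom D
    have h1 := (C.red_eq_zero_iff _).2 (map_nonunit (C.psi D).toRingHom _ h)
    rw [map_sub, map_sub, sub_eq_zero] at h1
    show C.red ((C.psi D) (D.M₀ σ i j)) = _
    rw [← ha]
    refine h1.trans ?_
    show C.red (C.psi D (algebraMap O _ a)) = _
    rw [AlgHom.commutes]
    exact residO_algebraMap O θ a

/-- Frobenius outside `S`. -/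
theorem Cut.lift_frob (l : ℕ) (hl : l.Prime) (hlL : ¬ l ∣ L) (hlS : l ∉ (↑S : Set ℕ))
    (A : ValuationSubring ℚbar) (hA : A.LiesOverPrime l) (σ : GQ) (hσ : A.IsFrobeniusAt σ l) :
    ((C.lift D).M σ).trace =
        Ideal.Quotient.mk C.kerIdeal (HeckeO.ofT O (twistedT h hl hlL hlS)) ∧
      ((C.lift D).M σ).det = (l : C.Ring') := by
  obtain ⟨htr, hdet⟩ := D.frob l hl hlL hlS A hA σ hσ
  refine ⟨(C.trace_mat D σ).trans ?_, (C.det_mat D σ).trans ?_⟩
  · rw [← C.ofTW_toTWRing, ← htr]
    rfl
  · rw [hdet, map_natCast]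

theorem Cut.lift_detCyclotomic : DetCyclotomic p C.testRing (C.lift D) := fun n σ a ha => by
  have h0 := Ideal.mem_map_of_mem (C.psi D).toRingHom (D.det.2 n σ a ha)
  rw [Ideal.map_span, Set.image_singleton, map_natCast, map_sub, map_natCast] at h0
  show (C.mat D σ).det - (a : C.Ring') ∈ Ideal.span {((p ^ n : ℕ) : C.Ring')}
  rw [C.det_mat]
  rwa [show LinearMap.det ((ofMatrix D.M₀ D.cont).ρ σ) = (D.M₀ σ).det from
    LinearMap.det_toLin' _] at h0

theorem Cut.lift_unramified {q : ℕ} (hq : q.Prime) (hqp : q ≠ p) (hqL : ¬ q ∣ L * R)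
    (P : ValuationSubring ℚbar) (hP : P.LiesOverPrime q) :
    ∀ σ ∈ P.inertiaSubgroupIn ℚ, (C.lift D).M σ = 1 := fun σ hσ => by
  show C.mat D σ = 1
  rw [Cut.mat, D.unramified q hq hqp hqL P hP σ hσ]
  exact Matrix.map_one _ (map_zero _) (map_one _)

/-- **The lift of a cut is unipotent** on inertia at a prime at most once in the level. -/
theorem Cut.lift_unipotent {q : ℕ} (hq : q.Prime) (hqp : q ≠ p) (hqL : ¬ q ^ 2 ∣ L * R)
    (P : ValuationSubring ℚbar) (hP : P.LiesOverPrime q) :
    Unipotent P C.testRing (C.lift D) := fun σ hσ => by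
  by_cases hd : q ∣ L * R
  · obtain ⟨ht, hdet⟩ := D.unipotent q hq hqp hd hqL P hP σ hσ
    have hc : (D.M₀ σ).charpoly = (X - 1) ^ 2 := by
      rw [Matrix.charpoly_fin_two, ht, hdet, map_one, map_ofNat]
      ring
    show (C.mat D σ).charpoly = (X - 1 : C.Ring'[X]) ^ 2
    rw [Cut.mat, Matrix.charpoly_map, hc, Polynomial.map_pow, Polynomial.map_sub, Polynomial.map_X,
      Polynomial.map_one]
    rfl
  · show (C.mat D σ).charpoly = (X - 1 : C.Ring'[X]) ^ 2
    rw [show C.mat D σ = 1 from C.lift_unramified D hq hqp hd P hP σ hσ]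
    rw [Matrix.charpoly_one, Fintype.card_fin]
    rfl

end Lift

end Fermat.Agent.Root.Patched
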