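import Fermat.Agent.Root.Patched.TowerMember
import Fermat.Agent.Root.Patched.FlatClosed

/-!
# Flat members

Away from `p` in the level the lift of a cut is flat at `p`.
-/

set_option autoImplicit false

noncomputable section

namespace Fermat.Agent.Root.Patched
open IsLocalRing Polynomial Fermat.Agent.Deformation Fermat.Agent.GammaH Fermat.Agent.TW
variable {L : ℕ} [NeZero L] {H : Subgroup (ZMod L)ˣ} {O : Type} [CommRing O] [IsDomain O]
  [IsDiscreteValuationRing O] [IsAdicComplete (maximalIdeal O) O] [Finite (ResidueField O)]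
  [CharZero O] {S : Finset ℕ} {hH : (-1 : (ZMod L)ˣ) ∈ H}
  {θ : heckeRing L H (↑S : Set ℕ) →+* ResidueField O} (C : Cut hH θ)
variable {p R h : ℕ} [Fact p.Prime] [NeZero R] [Fact (CuspForm.HasIntegralStructure (L * R) 2)]
  {ρ₀ : GQ →* M2 (ResidueField O)}
  (D : TWRep (H := H) (S := S) (O := O) p R h (rfl : R = R) hH θ ρ₀)

/-- **Members of level prime to `p` are flat at `p`.** -/
theorem Cut.lift_flat (hp : ¬ p ∣ L * R) : FlatShape p C.testRing (C.lift D) := by
  refine isFlatAt_of_relations (A' := C.testRing.R) (C.psi D).toRingHom C.finiteResidue D.M₀ D.cont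
    (C.lift D).M (C.lift D).cont (D.flat hp) fun I' s c hc i j => ?_
  let φ : _ →+* C.testRing.R := (C.psi D).toRingHom
  have e : (∑ q ∈ s, φ (c q) • (C.lift D).M q.2) = (∑ q ∈ s, c q • D.M₀ q.2).map φ := by
    rw [← RingHom.mapMatrix_apply, map_sum]
    refine Finset.sum_congr rfl fun q _ => ?_
    rw [RingHom.mapMatrix_apply]
    exact Matrix.ext fun a b => (map_mul φ _ _).symm
  rw [e]
  exact hc i j

end Fermat.Agent.Root.Patched
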