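import Fermat.Agent.Root.Patched.TowerMember
import Fermat.Agent.Root.Patched.GlueClosure
import Fermat.Agent.Root.Attached
import Fermat.Agent.IharaTW.KerKill
import Fermat.Agent.OrdinaryP.S33.Extend
import Fermat.Agent.Newform.BadCoeff

/-!
# Galois representations at points of the full Hecke ring

A point of the full Hecke ring over a point of the local Hecke ring gives a newform, and its
attached representation has the traces of the representation over the local Hecke ring.  Hence the
trace at Frobenius is the twisted Hecke operator outside the level, and is `s · (det + 1)` with a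
sign `s` on the decomposition group at a prime where the newform is special.
-/

set_option autoImplicit false

noncomputable section

namespace Fermat.Agent.Root.Patched

open IsLocalRing Polynomial Fermat.Agent.Deformation Fermat.Agent.GammaH Fermat.Agent.TW
  Fermat.Agent.IharaTW CongruenceSubgroup CuspForm
open ModularFormClass (qCoeff)

local notation "ℚbar" => AlgebraicClosure ℚ
local notation "Zbar" => integralClosure ℤ ℂ

/-- A two by two matrix with unit determinant killed by two factors with product of roots the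
determinant has trace the sum of the roots. -/
theorem trace_eq_of_mul_eq_zero {A : Type} [CommRing A] [IsDomain A] {M : M2 A} {u v : A}
    (hM : IsUnit M.det) (huv : u * v = M.det)
    (h : (M - u • (1 : M2 A)) * (M - v • (1 : M2 A)) = 0) : M.trace = u + v := by
  have e : ∀ i j, ((M - u • (1 : M2 A)) * (M - v • (1 : M2 A))) i j =
      (M.trace - (u + v)) * M i j := by
    intro i j
    rw [Matrix.det_fin_two] at huv
    fin_cases i <;> fin_cases j <;>
      simp only [Matrix.mul_apply, Fin.sum_univ_two, Matrix.sub_apply, Matrix.smul_apply,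
        Matrix.trace_fin_two, Matrix.one_apply, smul_eq_mul, Fin.isValue, Fin.zero_eta, Fin.mk_one,
        Fin.reduceEq, if_true, if_false, mul_one, mul_zero, sub_zero] <;>
      first
        | linear_combination huv
        | ring
  by_contra hne
  have h0 : ∀ i j, M i j = 0 := fun i j => by
    have := e i j
    rw [h, Matrix.zero_apply] at this
    exact (mul_eq_zero.mp this.symm).resolve_left (sub_ne_zero.mpr hne)
  rw [Matrix.det_fin_two, h0 0 0, h0 0 1] at hM
  simp at hM

/-- The same for an endomorphism of a free module of rank two. -/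
theorem trace_eq_of_end_mul_eq_zero {A V : Type} [CommRing A] [IsDomain A] [AddCommGroup V]
    [Module A V] [Module.Free A V] [Module.Finite A V] (hV : Module.finrank A V = 2)
    {f : Module.End A V} {u v : A} (hf : IsUnit (LinearMap.det f)) (huv : u * v = LinearMap.det f)
    (h : (f - u • (1 : Module.End A V)) * (f - v • (1 : Module.End A V)) = 0) :
    LinearMap.trace A V f = u + v := by
  let b := Module.finBasisOfFinrankEq A V hV
  rw [← LinearMap.det_toMatrix b] at hf huv
  rw [LinearMap.trace_eq_matrix_trace A b]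
  refine trace_eq_of_mul_eq_zero hf huv ?_
  have h1 := congrArg (LinearMap.toMatrixAlgEquiv b) h
  rwa [map_mul, map_sub, map_sub, map_smul, map_smul, map_one, map_zero] at h1

variable {L : ℕ} [NeZero L] {H : Subgroup (ZMod L)ˣ} {O : Type} [CommRing O] [IsDomain O]
  [IsDiscreteValuationRing O] [IsAdicComplete (maximalIdeal O) O] [Finite (ResidueField O)]
  [CharZero O] {S : Finset ℕ}

omit [IsDomain O] [IsDiscreteValuationRing O] [IsAdicComplete (maximalIdeal O) O] [CharZero O] in
omit [Finite (ResidueField O)] in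
theorem toFull_twistedT (h : ℕ) {l : ℕ} (hl : l.Prime) (hlL : ¬ l ∣ L)
    (hlS : l ∉ (↑S : Set ℕ)) :
    toFull O (HeckeO.ofT O (twistedT (H := H) h hl hlL hlS)) =
      HeckeO.ofT O (twistedT h hl hlL (Set.notMem_empty l)) := by
  rw [HeckeO.ofT_apply (L := L) (S := (↑S : Set ℕ)), toFull_mk, one_smul,
    show heckeIncl (Set.empty_subset (↑S : Set ℕ)) (twistedT (H := H) h hl hlL hlS)
      = twistedT h hl hlL (Set.notMem_empty l) by rw [twistedT, map_mul, map_pow]; rfl]

variable {p R h : ℕ} [Fact p.Prime] [NeZero R]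
  [Fact (CuspForm.HasIntegralStructure (L * R) 2)] {hH : (-1 : (ZMod L)ˣ) ∈ H}
  {θ : heckeRing L H (↑S : Set ℕ) →+* ResidueField O} {ρ₀ : GQ →* M2 (ResidueField O)}
  {ρbar : ResidualGaloisRep (ResidueField O)}
  (hyp : TWHyp (H := H) (S := S) (O := O) p R h hH θ ρbar ρ₀)
  (D : TWRep (H := H) (S := S) (O := O) p R h (rfl : R = R) hH θ ρ₀)
  {O' : Type} [CommRing O'] [IsDomain O'] [IsDiscreteValuationRing O']
  [IsAdicComplete (maximalIdeal O') O'] [Finite (ResidueField O')] [CharZero O'] [Algebra O O']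
  [IsLocalHom (algebraMap O O')] (x : HeckeO L H ∅ O →ₐ[O] O') (y : TWRing hH O θ →ₐ[O] O')
  (hy : ∀ z, y (toTWRing hH O θ z) = x (toFull O z))

include hyp hy in
omit [Finite (ResidueField O)] in
/-- **The representation of a newform over a point.** -/
theorem exists_rep_of_newform {M : ℕ} [NeZero M] {G : CuspForm (Gamma0 M) 2} (hG : G.IsNewform)
    (hM : M ∣ L * R) (lam : heckeRing L H ∅ →+* ℂ) (ι : lam.range →+* O')
    (hι : ∀ t, ι (lam.rangeRestrict t) = x (HeckeO.ofT O t)) (S₀ : Finset ℕ)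
    (hcoef : ∀ (l : ℕ) (hl : l.Prime) (hlL : ¬ l ∣ L), l ∉ S₀ →
      qCoeff ⇑G l = lam (twistedT h hl hlL (Set.notMem_empty l))) :
    ∃ (O'' : Type) (_ : CommRing O'') (_ : IsDomain O'') (_ : CharZero O'') (j : O' →+* O''),
      Function.Injective j ∧
      (∀ (l : ℕ) (hl : l.Prime) (hlL : ¬ l ∣ L), l ∉ S₀ → l ≠ p →
        ∀ A : ValuationSubring ℚbar, A.LiesOverPrime l → ∀ σ : GQ, A.IsFrobeniusAt σ l →
          j (y (D.ψ (D.M₀ σ).trace)) =
            j (x (HeckeO.ofT O (twistedT h hl hlL (Set.notMem_empty l))))) ∧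
      ∀ q : ℕ, q.Prime → q ∣ M → ¬ q ^ 2 ∣ M → ∀ A : ValuationSubring ℚbar, A.LiesOverPrime q →
        ∃ s : A.decompositionSubgroup ℚ →* O'', (∀ g, s g * s g = 1) ∧
          (∀ g : A.decompositionSubgroup ℚ, (g : GQ) ∈ A.inertiaSubgroupIn ℚ → s g = 1) ∧
          ∀ g : A.decompositionSubgroup ℚ,
            j (y (D.ψ (D.M₀ g).trace)) = s g * (j (y (D.ψ (D.M₀ g).det)) + 1) := by
  classical
  have := Fermat.Agent.S22.result M 2 ∅
  let κG := GalRep.eigenCharacterInt hG.1
  have : Module.Finite ℤ κG.range :=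
    Module.Finite.of_surjective κG.rangeRestrict.toIntAlgHom.toLinearMap κG.rangeRestrict_surjective
  let a : ℕ → Zbar := fun n => κG (Hecke.heckeTn M n)
  have ha : ∀ n, (a n : ℂ) = qCoeff ⇑G n := fun n => Hecke.eigenCharacter_heckeTn hG.1 n
  have hRle : Subring.closure (Set.range a) ≤ κG.range :=
    Subring.closure_le.mpr (by rintro _ ⟨n, rfl⟩; exact ⟨_, rfl⟩)
  -- the coefficients away from `S₀` and the level are values of `lam`
  let val : Zbar →+* ℂ := (integralClosure ℤ ℂ).val.toRingHom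
  let A₀ : Subring Zbar := κG.range ⊓ lam.range.comap val
  let x₀ : A₀ →+* O' := ι.comp ((val.comp A₀.subtype).codRestrict lam.range fun b => b.2.2)
  obtain ⟨O₂, _, _, _, _, _, _, j₀, hj₀, hj₀loc, x', hx'⟩ :=
    OrdinaryP.exists_coeff_extension (Subring.inclusion (inf_le_left : A₀ ≤ κG.range))
      (Subring.inclusion_injective _) O' x₀
  have hpO' : (p : O') ∈ maximalIdeal O' :=
    map_natCast (algebraMap O O') p ▸ map_nonunit (algebraMap O O') _ hyp.mem
  have hpO₂ : (p : O₂) ∈ maximalIdeal O₂ := map_natCast j₀ p ▸ map_nonunit j₀ _ hpO'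
  let φ : Subring.closure (Set.range a) →+* O₂ := x'.comp (Subring.inclusion hRle)
  have hφ : ∀ (l : ℕ) (hl : l.Prime) (hlL : ¬ l ∣ L), l ∉ S₀ →
      φ ⟨a l, Subring.subset_closure ⟨l, rfl⟩⟩ =
        j₀ (x (HeckeO.ofT O (twistedT h hl hlL (Set.notMem_empty l)))) := by
    intro l hl hlL hlS₀
    have hval : val (a l) = lam (twistedT h hl hlL (Set.notMem_empty l)) :=
      (ha l).trans (hcoef l hl hlL hlS₀)
    have hmem : a l ∈ A₀ := ⟨⟨_, rfl⟩, Subring.mem_comap.mpr ⟨_, hval.symm⟩⟩
    rw [← hι]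
    exact (congrArg x' (Subtype.ext rfl)).trans
      ((RingHom.congr_fun hx' ⟨a l, hmem⟩).trans (congrArg (fun b => j₀ (ι b)) (Subtype.ext hval)))
  obtain ⟨O₃, _, _, _, _, _, _, j₁, hj₁, hj₁loc, ρ, -, hρ, hρq⟩ :=
    Root.exists_attached M G hG.1 a ha p O₂ hpO₂ φ
  let j : O' →+* O₃ := j₁.comp j₀
  -- the representation over the local Hecke ring, specialised
  have hyloc : IsLocalHom y.toRingHom := GalRep.Glue.isLocalHom_algHom (𝒪 := O) y
  have := D.ψ_local
  have : IsLocalHom j := RingHom.isLocalHom_comp j₁ j₀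
  have : IsLocalHom (y.toRingHom.comp D.ψ.toRingHom) := RingHom.isLocalHom_comp _ _
  let z : heckeLocal (L * R) (↑S : Set ℕ) O D.θ' →+* O₃ :=
    j.comp (y.toRingHom.comp D.ψ.toRingHom)
  have hloc : IsLocalHom z := RingHom.isLocalHom_comp _ _
  have hc : MatCont (mapRep z D.M₀) := matCont_mapRep _ hloc D.cont
  have hLR : ∀ l : ℕ, l.Prime → ¬ l ∣ L → ¬ l ∣ M := fun l hl hlL hd =>
    (hl.dvd_mul.1 (hd.trans hM)).elim hlL fun h' => hlL (h'.trans hyp.R_dvd)
  have hndvd : ∀ l : ℕ, l.Prime → ¬ l ∣ L → l ≠ p → ¬ l ∣ M * p := fun l hl hlL hlp hd =>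
    (hl.dvd_mul.1 hd).elim (hLR l hl hlL) fun h' =>
      hlp ((Nat.prime_dvd_prime_iff_eq hl Fact.out).1 h')
  have hfrobρ : ∀ (l : ℕ) (hl : l.Prime) (hlL : ¬ l ∣ L), l ∉ S₀ → l ≠ p →
      ∀ A : ValuationSubring ℚbar, A.LiesOverPrime l → ∀ σ : GQ, A.IsFrobeniusAt σ l →
        LinearMap.charpoly (ρ.ρ σ) = X ^ 2 -
          C (j (x (HeckeO.ofT O (twistedT h hl hlL (Set.notMem_empty l))))) * X + C (l : O₃) := by
    intro l hl hlL hlS₀ hlp A hA σ hσ
    rw [(hρ l hl (hndvd l hl hlL hlp) A hA).2 σ hσ, hφ l hl hlL hlS₀]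
    rfl
  have hall : ∀ σ, LinearMap.charpoly (ρ.ρ σ) = (mapRep z D.M₀ σ).charpoly := fun σ => by
    refine (Density.adic_charpoly_eq_of_forall_frobenius ρ (ofMatrix _ hc)
      (↑(S ∪ S₀) : Set ℕ) (Finset.finite_toSet _) (fun l hl hlS A hA τ hτ => ?_) σ).trans
      (Matrix.charpoly_toLin' _)
    rw [Finset.coe_union, Set.mem_union, not_or] at hlS
    have hlL : ¬ l ∣ L := fun hd => hlS.1 (by simpa using hyp.LS l hl hd)
    have hlp : l ≠ p := fun e => hlS.1 (by simpa [e] using hyp.mem_S)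
    obtain ⟨htr, hdet⟩ := D.frob l hl hlL hlS.1 A hA τ hτ
    rw [hfrobρ l hl hlL (by simpa using hlS.2) hlp A hA τ hτ]
    refine Eq.trans ?_ (Matrix.charpoly_toLin' _).symm
    rw [mapRep_apply, Matrix.charpoly_map, Matrix.charpoly_fin_two, Polynomial.map_add,
      Polynomial.map_sub, Polynomial.map_mul, Polynomial.map_pow, Polynomial.map_X,
      Polynomial.map_C, Polynomial.map_C, hdet, map_natCast z]
    congr 4
    show _ = j (y (D.ψ (D.M₀ τ).trace))
    rw [htr, hy, toFull_twistedT]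
  have htd : ∀ σ, LinearMap.trace O₃ ρ.V (ρ.ρ σ) = j (y (D.ψ (D.M₀ σ).trace)) ∧
      LinearMap.det (ρ.ρ σ) = j (y (D.ψ (D.M₀ σ).det)) := by
    intro σ
    have h1 := hall σ
    rw [Density.charpoly_eq_of_finrank_two ρ.finrank_eq, mapRep_apply, Matrix.charpoly_map,
      Matrix.charpoly_fin_two] at h1
    constructor
    · have h2 := congrArg (fun P : O₃[X] => P.coeff 1) h1
      simpa [coeff_X_pow, coeff_C, z] using h2
    · have h2 := congrArg (fun P : O₃[X] => P.coeff 0) h1
      simpa [coeff_X_pow, z] using h2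
  refine ⟨O₃, inferInstance, inferInstance, inferInstance, j, hj₁.comp hj₀,
    fun l hl hlL hlS₀ hlp A hA σ hσ => ?_, fun q hq hqM hq2 A hA => ?_⟩
  · have h1 := hfrobρ l hl hlL hlS₀ hlp A hA σ hσ
    rw [Density.charpoly_eq_of_finrank_two ρ.finrank_eq] at h1
    rw [← (htd σ).1]
    have h2 := congrArg (fun P : O₃[X] => P.coeff 1) h1
    simpa [coeff_X_pow, coeff_C] using h2
  · have haq : a q ^ 2 = 1 := Subtype.ext (by
      rw [SubmonoidClass.coe_pow, ha, OneMemClass.coe_one]
      exact Newform.qCoeff_sq_eq_one_of_not_sq_dvd hG hq hqM hq2)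
    obtain ⟨s, hs2, hsI, -, hs⟩ := hρq q hq hqM hq2 haq A hA
    refine ⟨s, hs2, hsI, fun g => ?_⟩
    rw [← (htd g).1, ← (htd g).2]
    have hu : IsUnit (LinearMap.det (ρ.ρ (g : GQ))) :=
      (show IsUnit (ρ.ρ (g : GQ)) from ⟨Units.map ρ.ρ (toUnits (g : GQ)), rfl⟩).map LinearMap.det
    rw [trace_eq_of_end_mul_eq_zero ρ.finrank_eq hu
      (u := LinearMap.det (ρ.ρ g) * s g) (v := s g) (by rw [mul_assoc, hs2, mul_one]) (hs g g)]
    ring

end Fermat.Agent.Root.Patched
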