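import Fermat.Agent.Root.Patched.TowerLocalAt
import Fermat.Agent.IharaTW.StagePoints
import Fermat.Agent.IharaTW.StageLevel
import Fermat.Agent.IharaTW.StageTower

/-!
# The inertia eigenvalues on the module of a member

For a member free over `O[G]` for the diamond operators at auxiliary primes, and a second structure
map `ψ` whose values at the generators are diamond operators or inertia eigenvalues: the norms of
`ψ` and of the diamond operators agree, the module is free for `ψ`, and on an eigen part the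
eigenvalues of inertia have order exactly `p`.
-/

set_option autoImplicit false
set_option maxSynthPendingDepth 3

noncomputable section

namespace Fermat.Agent.Root.Patched

open IsLocalRing Polynomial Fermat.Agent.Deformation Fermat.Agent.GammaH Fermat.Agent.TW
  Fermat.Agent.IharaTW Fermat.Agent.TW.EtaFree

variable {O : Type} [CommRing O] [IsDomain O] [IsDiscreteValuationRing O]
  [IsAdicComplete (maximalIdeal O) O] [Finite (ResidueField O)] [CharZero O]
  {p : ℕ} [Fact p.Prime] {ρbar : GQ →* M2 (ResidueField O)}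

/-- A group acting on a member through the diamond operators at auxiliary primes. -/
structure DeltaData (St : TStage O p ρbar) (G : Type) [CommGroup G] (ι : Type) where
  g : ι → G
  gen : Subgroup.closure (Set.range g) = ⊤
  δ : G →* St.C.Ring'
  loc : ι → LocalAt St
  dia : ∀ j, δ (g j) = St.C.dia (loc j).a

namespace DeltaData

variable {St : TStage O p ρbar} {G : Type} [CommGroup G] [Fintype G] {ι : Type} [Fintype ι]
  (W : DeltaData St G ι)

/-- The element cutting out a character. -/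
def nu (χ : G →* O) : St.C.Ring' := strElem W.δ (chiNu χ)

/-- The second structure map is, at each generator, the diamond operator or an eigenvalue of
inertia. -/
def IsEigenMap (ψ : G →* St.C.Ring') : Prop :=
  ∀ j, ψ (W.g j) = W.δ (W.g j) ∨ ∃ η', ψ (W.g j) + η' = (W.loc j).tr ∧ ψ (W.g j) * η' = 1

variable {K : Type} [Field K] [CharZero K] [Algebra O K] (hK : Function.Injective (algebraMap O K))
  (y : St.C.Ring' →ₐ[O] K)

omit [Finite (ResidueField O)] [Fact (Nat.Prime p)] [Fintype ι] [CharZero K] [CharZero O] in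
theorem apply_of_nu_ne_zero {χ : G →* O} (h : y (W.nu χ) ≠ 0) (g : G) :
    y (W.δ g) = algebraMap O K (χ g) := by
  refine mul_right_cancel₀ h ?_
  rw [← map_mul, nu, ← y.commutes, ← map_mul,
    show W.δ g = strElem W.δ (MonoidAlgebra.single g (1 : O)) by rw [strElem_single, one_smul],
    ← map_mul, single_mul_chiNu, map_smul, Algebra.smul_def]

omit [Finite (ResidueField O)] [Fact (Nat.Prime p)] [CharZero K] [CharZero O] in
theorem apply_nu {ψ : G →* St.C.Ring'} {χ : G →* O}
    (h : ∀ g, y (ψ g) = algebraMap O K (χ g)) :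
    y (strElem ψ (chiNu χ)) = (Fintype.card G : K) := by
  rw [chiNu, map_sum, map_sum,
    show (Fintype.card G : K) = ∑ _g : G, (1 : K) by simp]
  refine Finset.sum_congr rfl fun g _ => ?_
  rw [strElem_single, map_smul, h, Algebra.smul_def, ← map_mul, ← map_mul, inv_mul_cancel,
    map_one, map_one]

omit [Finite (ResidueField O)] [Fact (Nat.Prime p)] [CharZero K] [CharZero O] in
theorem apply_nu_eq_zero {ψ : G →* St.C.Ring'} {χ : G →* O} {g : G}
    (h : y (ψ g) ≠ algebraMap O K (χ g)) : y (strElem ψ (chiNu χ)) = 0 := by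
  by_contra h0
  refine h (mul_right_cancel₀ h0 ?_)
  rw [← map_mul, ← y.commutes, ← map_mul,
    show ψ g = strElem ψ (MonoidAlgebra.single g (1 : O)) by rw [strElem_single, one_smul],
    ← map_mul, single_mul_chiNu, map_smul, Algebra.smul_def]

omit [Fintype G] [Fintype ι] [CharZero K] [Fact (Nat.Prime p)] in
include hK in
theorem point_eq_one {ψ : G →* St.C.Ring'} (hψ : W.IsEigenMap ψ) (j : ι)
    (h : y (W.δ (W.g j)) = 1) : y (ψ (W.g j)) = 1 := by
  rcases hψ j with h1 | ⟨η', h1, h2⟩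
  · rwa [h1]
  · have ht := (W.loc j).point_trace_eq_two hK y (W.dia j ▸ h) (W.loc j).tame.1
    have e1 : y (ψ (W.g j)) + y η' = 2 := by rw [← map_add, h1]; exact ht
    have e2 : y (ψ (W.g j)) * y η' = 1 := by rw [← map_mul, h2, map_one]
    have e3 : (y (ψ (W.g j)) - 1) ^ 2 = 0 := by
      linear_combination (y (ψ (W.g j))) * e1 - e2
    exact sub_eq_zero.1 ((pow_eq_zero_iff two_ne_zero).1 e3)

omit [Fintype G] [Fintype ι] [CharZero K] [Fact (Nat.Prime p)] in
include hK in
theorem point_ne_one {ψ : G →* St.C.Ring'} (hψ : W.IsEigenMap ψ) (j : ι)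
    (h : y (W.δ (W.g j)) ≠ 1) : y (ψ (W.g j)) ≠ 1 := by
  rcases hψ j with h1 | ⟨η', h1, h2⟩
  · rwa [h1]
  · intro hη
    refine (W.loc j).point_tr_ne_two hK y (W.dia j ▸ h) ?_
    have e2 : y (ψ (W.g j)) * y η' = 1 := by rw [← map_mul, h2, map_one]
    rw [hη, one_mul] at e2
    rw [← h1, map_add, hη, e2, one_add_one_eq_two]

omit y [Fact (Nat.Prime p)] in
/-- **The norms agree.** -/
theorem strElem_nu_one {ψ : G →* St.C.Ring'} (hψ : W.IsEigenMap ψ) :
    strElem ψ (chiNu (1 : G →* O)) = W.nu 1 := by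
  refine sub_eq_zero.1 (St.C.eq_zero_of_points St.hyp.LS fun K _ _ _ _ hK y => ?_)
  rw [map_sub, sub_eq_zero]
  by_cases hall : ∀ j, y (W.δ (W.g j)) = 1
  · have key : ∀ (φ : G →* St.C.Ring'), (∀ j, y (φ (W.g j)) = 1) → ∀ g, y (φ g) = 1 :=
      fun φ hφ g => by
        have hg : g ∈ Subgroup.closure (Set.range W.g) := by rw [W.gen]; trivial
        induction hg using Subgroup.closure_induction with
        | mem g hg => obtain ⟨j, rfl⟩ := hg; exact hφ j
        | one => rw [map_one, map_one]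
        | mul a b _ _ ha hb => rw [map_mul, map_mul, ha, hb, one_mul]
        | inv a _ ha =>
          have := congrArg y (map_mul φ a⁻¹ a)
          rw [inv_mul_cancel, map_one, map_one, map_mul, ha, mul_one] at this
          exact this.symm
    rw [nu, apply_nu y (ψ := ψ) (fun g => ?_), apply_nu y (ψ := W.δ) (fun g => ?_)]
    · rw [MonoidHom.one_apply, map_one, key W.δ hall g]
    · rw [MonoidHom.one_apply, map_one, key ψ (fun j => W.point_eq_one hK y hψ j (hall j)) g]
  · obtain ⟨j, hj⟩ := not_forall.1 hall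
    rw [nu, apply_nu_eq_zero y (ψ := ψ) (g := W.g j) (by
        rw [MonoidHom.one_apply, map_one]; exact W.point_ne_one hK y hψ j hj),
      apply_nu_eq_zero y (ψ := W.δ) (g := W.g j) (by
        rw [MonoidHom.one_apply, map_one]; exact hj)]

omit y [Fintype ι] [Fact (Nat.Prime p)] in
/-- Off a character the eigenvalue is `1`. -/
theorem nu_mul_sub_one {ψ : G →* St.C.Ring'} (hψ : W.IsEigenMap ψ) {χ : G →* O} {j : ι}
    (hj : χ (W.g j) = 1) : W.nu χ * (ψ (W.g j) - 1) = 0 := by
  refine St.C.eq_zero_of_points St.hyp.LS fun K _ _ _ _ hK y => ?_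
  rw [map_mul, map_sub, map_one]
  by_cases h : y (W.nu χ) = 0
  · rw [h, zero_mul]
  · rw [W.point_eq_one hK y hψ j (by rw [W.apply_of_nu_ne_zero y h, hj, map_one]), sub_self,
      mul_zero]

/-! ## The eigen parts -/

section Free

variable {κ : Type} [Fintype κ]
  (b : Module.Basis κ (MonoidAlgebra O G) (LatMod St.C.actR W.δ)) {ζ : O}

include b hK in
omit [Fact (Nat.Prime p)] [CharZero K] in
/-- **Divisibility on an eigen part.** -/
theorem isIntegral_quot (hζ : ζ ≠ 1) {χ : G →* O} (hχ : ∀ g, ∃ k : ℕ, χ g = ζ ^ k) (j : ι)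
    (h : y (W.nu χ) ≠ 0) :
    ∃ w : K, IsIntegral O w ∧ y (W.loc j).tr - 2 = (algebraMap O K ζ - 1) * w := by
  have hn : strElem W.δ (TW.GroupRing.normElem O G) = W.nu 1 := by
    rw [nu, TW.GroupRing.normElem, chiNu]
    simp
  obtain ⟨w, hw, hwe⟩ := Fermat.Agent.IharaTW.exists_integral_quot
    St.C.actR W.δ St.C.actR_injective W.g W.gen b
    (t := (W.loc j).tr - 2) (by
      refine St.C.eq_zero_of_points St.hyp.LS fun K' _ _ _ _ hK' y' => ?_
      rw [map_mul, hn]
      by_cases h' : y' (W.nu 1) = 0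
      · rw [h', zero_mul]
      · have h1 : y' (St.C.dia (W.loc j).a) = 1 := by
          rw [← W.dia, W.apply_of_nu_ne_zero y' h', MonoidHom.one_apply, map_one]
        rw [map_sub, map_ofNat, LocalAt.tr,
          (W.loc j).point_trace_eq_two hK' y' h1 (W.loc j).tame.1, sub_self, mul_zero])
    hK y hζ hχ (W.apply_of_nu_ne_zero y h) h
  exact ⟨w, hw, by rw [← hwe, map_sub, map_ofNat]⟩

omit [Fact (Nat.Prime p)] in
include b hK in
/-- **At a point where the diamond operator is a nontrivial root, inertia has order exactly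
`p`.** -/
theorem point_order [IsAlgClosed K] (hζ : IsPrimitiveRoot ζ p) {χ : G →* O}
    (hχ : ∀ g, ∃ k : ℕ, χ g = ζ ^ k) {j : ι} (hj : χ (W.g j) ≠ 1) (h : y (W.nu χ) ≠ 0)
    {l : K} (hl : ∃ v, l ^ p ^ v = 1) (hsum : y (W.loc j).tr = l + l⁻¹) :
    l ^ p = 1 ∧ l ≠ 1 := by
  obtain ⟨v, hv⟩ := hl
  have hp := St.hyp.prime
  have hl0 : l ≠ 0 := fun h0 => by
    rw [h0, zero_pow (pow_ne_zero _ hp.ne_zero)] at hv
    exact zero_ne_one hv
  obtain ⟨w, hw, hwe⟩ := W.isIntegral_quot hK y b (hζ.ne_one hp.one_lt) hχ j h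
  have hne : l ≠ 1 := fun h1 => by
    refine (W.loc j).point_tr_ne_two hK y ?_ (by rw [hsum, h1, inv_one, one_add_one_eq_two])
    rw [← W.dia, W.apply_of_nu_ne_zero y h]
    exact fun h2 => hj (hK (h2.trans (map_one _).symm))
  refine ⟨pow_prime_eq_one_of_sq_eq hK hp St.hyp.ne_two St.hyp.mem (hζ.map_of_injective hK) hv
    (y := l * w) ((IsIntegral.of_pow (pow_pos hp.pos v) (hv ▸ isIntegral_one)).mul hw) ?_, hne⟩
  rw [hsum] at hwe
  field_simp at hwe
  linear_combination hwe

omit y [Fact (Nat.Prime p)] in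
include b in
/-- On an eigen part the eigenvalue is a primitive root. -/
theorem nu_mul_cyclotomic (hζ : IsPrimitiveRoot ζ p) {ψ : G →* St.C.Ring'} (hψ : W.IsEigenMap ψ)
    (hord : ∀ g, ∃ v, ψ g ^ p ^ v = 1)
    {χ : G →* O} (hχ : ∀ g, ∃ k : ℕ, χ g = ζ ^ k) {j : ι} (hj : χ (W.g j) ≠ 1) :
    W.nu χ * ∑ k ∈ Finset.range p, ψ (W.g j) ^ k = 0 := by
  refine St.C.eq_zero_of_points St.hyp.LS fun K _ _ _ _ hK y => ?_
  rw [map_mul, map_sum]
  simp only [map_pow]
  by_cases h : y (W.nu χ) = 0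
  · rw [h, zero_mul]
  refine mul_eq_zero_of_right _ ?_
  have hsub : ∀ x : K, x ^ p = 1 → x ≠ 1 → ∑ k ∈ Finset.range p, x ^ k = 0 := fun x h1 h2 => by
    have h3 := geom_sum_mul x p
    rw [h1, sub_self, mul_eq_zero] at h3
    exact h3.resolve_right (sub_ne_zero.2 h2)
  rcases hψ j with h1 | ⟨η', h1, h2⟩
  · obtain ⟨k, hk⟩ := hχ (W.g j)
    refine hsub _ ?_ ?_ <;> rw [h1, W.apply_of_nu_ne_zero y h]
    · rw [← map_pow, hk, ← pow_mul, mul_comm, pow_mul, hζ.pow_eq_one, one_pow, map_one]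
    · exact fun h2 => hj (hK (h2.trans (map_one _).symm))
  · obtain ⟨v, hv⟩ := hord (W.g j)
    have e2 : y (ψ (W.g j)) * y η' = 1 := by rw [← map_mul, h2, map_one]
    obtain ⟨h3, h4⟩ := W.point_order hK y b hζ hχ hj h (l := y (ψ (W.g j)))
      ⟨v, by rw [← map_pow, hv, map_one]⟩ (by
        rw [← h1, map_add, eq_inv_of_mul_eq_one_right e2])
    exact hsub _ h3 h4

omit y in
include b in
/-- **The product over the nontrivial classes vanishes on an eigen part.** -/
theorem nu_mul_prod (hζ : IsPrimitiveRoot ζ p) {χ : G →* O} (hχ : ∀ g, ∃ k : ℕ, χ g = ζ ^ k)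
    {j : ι} (hj : χ (W.g j) ≠ 1) :
    W.nu χ * ∏ k ∈ Finset.Ico 1 p,
      ((W.loc j).tr - algebraMap O St.C.Ring' (ζ ^ k + ζ ^ (k * (p - 1)))) = 0 := by
  refine St.C.eq_zero_of_points St.hyp.LS fun K _ _ _ _ hK y => ?_
  rw [map_mul, map_prod]
  by_cases h : y (W.nu χ) = 0
  · rw [h, zero_mul]
  refine mul_eq_zero_of_right _ ?_
  obtain ⟨l, hl, hsum⟩ := (W.loc j).point_eigen y
  obtain ⟨h3, h4⟩ := W.point_order hK y b hζ hχ hj h hl hsum
  have : NeZero p := ⟨St.hyp.prime.ne_zero⟩
  obtain ⟨k, hk, hkl⟩ := (hζ.map_of_injective hK).eq_pow_of_pow_eq_one h3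
  have hk0 : k ≠ 0 := fun h0 => h4 (by rw [← hkl, h0, pow_zero])
  refine Finset.prod_eq_zero (Finset.mem_Ico.2 ⟨Nat.pos_of_ne_zero hk0, hk⟩) ?_
  rw [map_sub, AlgHom.commutes, sub_eq_zero, hsum, map_add, map_pow, map_pow, ← hkl]
  congr 1
  refine (eq_inv_of_mul_eq_one_right ?_).symm
  rw [← pow_add, show k + k * (p - 1) = p * k by
    have := St.hyp.prime.two_le
    obtain ⟨m, rfl⟩ : ∃ m, p = m + 1 := ⟨p - 1, by omega⟩
    rw [Nat.add_sub_cancel]; ring, pow_mul, (hζ.map_of_injective hK).pow_eq_one, one_pow]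

end Free

end DeltaData

end Fermat.Agent.Root.Patched
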