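import Fermat.Agent.Root.Patched.TowerMember
import Fermat.Agent.TW.Shapes
import Fermat.Agent.TW.Eigen
import Fermat.Agent.OrdinaryP.Shape
import Fermat.Agent.S22

/-!
# Points of the ring of a cut at a prime away from the level

Adding the Hecke operator at `p` to the ring of a cut gives a reduced finite free ring; at each of
its points the operator is the trace of the unit root at `p` of an attached eigensystem.
-/

set_option autoImplicit false

noncomputable section

open IsLocalRing Polynomial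

namespace Fermat.Agent.Root.Patched

open Fermat.Agent.Deformation Fermat.Agent.GammaH Fermat.Agent.TW

local notation "ℚbar" => AlgebraicClosure ℚ

section Algebra

variable {O : Type} [CommRing O] [IsDomain O] {A : Type} [CommRing A] [Algebra O A]
  {V : Type} [AddCommGroup V] [Module O V]

/-- The quotient of a reduced integral algebra by the kernel of an action on a torsion-free module
is reduced. -/
theorem isReduced_quotient_ker [IsReduced A] [Algebra.IsIntegral O A] [Module.IsTorsionFree O V]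
    {W : Submodule O V} (f : A →ₐ[O] Module.End O W) : IsReduced (A ⧸ RingHom.ker f.toRingHom) := by
  refine (isReduced_iff_pow_one_lt 2 one_lt_two).2 fun x hx => ?_
  obtain ⟨z, rfl⟩ := Ideal.Quotient.mk_surjective x
  rw [← map_pow, Ideal.Quotient.eq_zero_iff_mem, RingHom.mem_ker] at hx
  obtain ⟨P, hP, hP0⟩ := Algebra.IsIntegral.isIntegral (R := O) z
  obtain ⟨P₁, hP₁, hndvd⟩ :=
    Polynomial.exists_eq_pow_rootMultiplicity_mul_and_not_dvd P hP.ne_zero 0
  rw [map_zero, sub_zero] at hP₁ hndvd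
  rw [X_dvd_iff] at hndvd
  have h1 : z * aeval z P₁ = 0 := by
    refine IsReduced.eq_zero _ ⟨P.rootMultiplicity 0 + 1, ?_⟩
    have h0 : z ^ P.rootMultiplicity 0 * aeval z P₁ = 0 := by
      rw [← hP0, ← aeval_def]
      conv_rhs => rw [hP₁]
      rw [map_mul, map_pow, aeval_X]
    rw [mul_pow, pow_succ' (aeval z P₁), pow_succ z, mul_mul_mul_comm, h0, zero_mul]
  have h2 : P₁.coeff 0 • z = z ^ 2 * (-(aeval z P₁.divX)) := by
    have h := h1
    rw [← X_mul_divX_add P₁, map_add, map_mul, aeval_X, aeval_C] at h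
    rw [Algebra.smul_def]
    linear_combination h
  have h3 : P₁.coeff 0 • f z = 0 := by
    rw [← map_smul, h2, map_mul, show f (z ^ 2) = 0 from hx, zero_mul]
  rw [Ideal.Quotient.eq_zero_iff_mem, RingHom.mem_ker]
  exact LinearMap.ext fun v => Subtype.ext
    ((smul_eq_zero.1 (congrArg Subtype.val (LinearMap.congr_fun h3 v))).resolve_left hndvd)

omit [IsDomain O] in
/-- A surjective action on a finite free module comes from a unit. -/
theorem isUnit_of_surjective {W : Submodule O V} [Module.Finite O W] [Module.Free O W]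
    (g : A →ₐ[O] Module.End O W)
    (hg : Function.Injective g) {b : A} (hb : Function.Surjective (g b)) : IsUnit b := by
  have hu : IsUnit (g b) := (Module.End.isUnit_iff _).2
    ⟨OrzechProperty.injective_of_surjective_endomorphism _ hb, hb⟩
  have hc : IsUnit ((LinearMap.charpoly (g b)).coeff 0) := by
    have h := hu.map (LinearMap.det (A := O) (M := W))
    rw [LinearMap.det_eq_sign_charpoly_coeff] at h
    exact isUnit_of_mul_isUnit_right h
  have h0 : aeval b (LinearMap.charpoly (g b)) = 0 := hg (by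
    rw [map_zero, ← aeval_algHom_apply]
    exact LinearMap.aeval_self_charpoly (g b))
  rw [← X_mul_divX_add (LinearMap.charpoly (g b)), map_add, map_mul, aeval_X, aeval_C] at h0
  have h1 : b * aeval b (LinearMap.charpoly (g b)).divX =
      -algebraMap O A ((LinearMap.charpoly (g b)).coeff 0) := eq_neg_of_add_eq_zero_left h0
  exact isUnit_of_mul_isUnit_left (h1 ▸ (hc.map (algebraMap O A)).neg)

/-- An ordinary shape passes to a conjugate representation. -/
theorem ordShape_conj {B : Type} [CommRing B] {P : ValuationSubring ℚbar} {M N : GQ →* M2 B}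
    (h : AreConj M N) {s : P.decompositionSubgroup ℚ →* B} (hs : TW.OrdShape P M s) :
    TW.OrdShape P N s := by
  obtain ⟨U, hU⟩ := h
  have hN : ∀ g, N g = (U : M2 B) * M g * (↑U⁻¹ : M2 B) := fun g => by
    rw [hU, mul_assoc, Units.mul_inv, mul_one]
  refine ⟨hs.1, fun g k => ?_⟩
  have e : ∀ (g : GQ) (c : B), N g - c • (1 : M2 B) =
      (U : M2 B) * (M g - c • (1 : M2 B)) * (↑U⁻¹ : M2 B) := fun g c => by
    rw [hN, mul_sub, sub_mul, mul_smul_comm, mul_one, smul_mul_assoc, Units.mul_inv]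
  rw [hN g, Matrix.det_units_conj, ← hN g, e, e,
    show ∀ X Y : M2 B, (U : M2 B) * X * (↑U⁻¹ : M2 B) * ((U : M2 B) * Y * (↑U⁻¹ : M2 B)) =
      (U : M2 B) * (X * Y) * (↑U⁻¹ : M2 B) from fun X Y => by
        simp only [mul_assoc, Units.inv_mul_cancel_left],
    hs.2 g k, mul_zero, zero_mul]

end Algebra

variable {O : Type} [CommRing O] [IsDomain O] [IsDiscreteValuationRing O]
  [IsAdicComplete (maximalIdeal O) O] [Finite (ResidueField O)] [CharZero O]

section Incl

variable {L : ℕ} [NeZero L] {H : Subgroup (ZMod L)ˣ} {S S' : Set ℕ}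
  (hH : (-1 : (ZMod L)ˣ) ∈ H) (hSS : S' ⊆ S)

/-- Fewer excluded primes, with coefficients. -/
def heckeOIncl : HeckeO L H S O →ₐ[O] HeckeO L H S' O :=
  liftO O ((HeckeO.ofT O).comp (heckeIncl hSS))

omit [Finite (ResidueField O)] [IsDomain O] [IsDiscreteValuationRing O]
    [IsAdicComplete (maximalIdeal O) O] [CharZero O] in
theorem heckeOIncl_mk (a : O) (t : heckeRing L H S) :
    heckeOIncl hSS (HeckeO.mk O a t) = a • HeckeO.ofT O (heckeIncl hSS t) :=
  liftO_tmul O _ a t

theorem matrixH_incl (t : heckeRing L H S) :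
    matrixH hH (heckeIncl hSS t) = matrixH hH t := by
  have e : heckeAct L H S' (heckeIncl hSS t) = heckeAct L H S t :=
    ((heckeAct_apply _).trans (coe_heckeIncl hSS t)).trans (heckeAct_apply t).symm
  have h := hasMatrix_latticeHom (heckeAct_mem_lattice (S := S') hH) (heckeIncl hSS t)
  rw [e] at h
  exact (latticeHom_eq (heckeAct_mem_lattice (S := S) hH) h).symm

omit [IsDomain O] [IsDiscreteValuationRing O] [IsAdicComplete (maximalIdeal O) O]
    [Finite (ResidueField O)] [CharZero O] in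
theorem homAction_incl (t : heckeRing L H S) :
    homAction hH O O (heckeIncl hSS t) = homAction hH O O t := by
  unfold homAction
  simp only [RingHom.comp_apply, matrixH_incl hH hSS t]

omit [Finite (ResidueField O)] [IsDomain O] [IsDiscreteValuationRing O]
    [IsAdicComplete (maximalIdeal O) O] [CharZero O] in
theorem actO_ofT (t : heckeRing L H S) :
    actO hH O (HeckeO.ofT O t) = homAction hH O O t := by
  rw [HeckeO.ofT_apply, actO_tmul, one_smul]

omit [Finite (ResidueField O)] [IsDomain O] [IsDiscreteValuationRing O]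
    [IsAdicComplete (maximalIdeal O) O] [CharZero O] in
theorem actO_incl (z : HeckeO L H S O) : actO hH O (heckeOIncl hSS z) = actO hH O z := by
  induction z using HeckeO.induction with
  | zero => rw [map_zero, map_zero, map_zero]
  | mk a t => rw [heckeOIncl_mk, map_smul, actO_ofT, homAction_incl, actO_tmul]
  | add x y hx hy => rw [map_add, map_add, map_add, hx, hy]

end Incl

variable {p : ℕ} [Fact p.Prime]
variable {L R h : ℕ} [NeZero L] [NeZero R] {H : Subgroup (ZMod L)ˣ} {S : Finset ℕ}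
  [Fact (CuspForm.HasIntegralStructure (L * R) 2)] {hH : (-1 : (ZMod L)ˣ) ∈ H}
  {θ : heckeRing L H (↑S : Set ℕ) →+* ResidueField O} {ρbar : GQ →* M2 (ResidueField O)}
  {ρbar' : ResidualGaloisRep (ResidueField O)}
  (hyp : TWHyp (H := H) (S := S) (O := O) p R h hH θ ρbar' ρbar)
  (D : TWRep (H := H) (S := S) (O := O) p R h (rfl : R = R) hH θ ρbar) (C : Cut hH θ)

section OpRing

variable {S₂ : Set ℕ} (hc : ∀ z : HeckeO L H S₂ O, Commute C.E (actO hH O z))

/-- The action of a larger Hecke ring on the range of a cut. -/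
def Cut.opAct : HeckeO L H S₂ O →ₐ[O] Module.End O (LinearMap.range C.E) where
  toFun z := (actO hH O z).restrict fun v hv => by
    obtain ⟨w, rfl⟩ := hv
    exact ⟨actO hH O z w, LinearMap.congr_fun (hc z).eq w⟩
  map_one' := LinearMap.ext fun v => Subtype.ext (by simp)
  map_mul' x y := LinearMap.ext fun v => Subtype.ext (by simp)
  map_zero' := LinearMap.ext fun v => Subtype.ext (by simp)
  map_add' x y := LinearMap.ext fun v => Subtype.ext (by simp)
  commutes' a := LinearMap.ext fun v => Subtype.ext (by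
    rw [LinearMap.coe_restrict_apply, AlgHom.commutes, Module.algebraMap_end_apply,
      Module.algebraMap_end_apply]
    rfl)

omit [Finite (ResidueField O)] [CharZero O] in
theorem Cut.coe_opAct (z : HeckeO L H S₂ O) (v : LinearMap.range C.E) :
    (C.opAct hc z v : H1 L H O O) = actO hH O z v := rfl

/-- The ring of operators. -/
abbrev Cut.OpRing : Type := HeckeO L H S₂ O ⧸ RingHom.ker (C.opAct hc).toRingHom

/-- Its faithful action. -/
def Cut.opActR : C.OpRing hc →ₐ[O] Module.End O (LinearMap.range C.E) :=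
  Ideal.Quotient.liftₐ _ (C.opAct hc) fun _ hz => hz

omit [Finite (ResidueField O)] [CharZero O] in
theorem Cut.opActR_mk (z : HeckeO L H S₂ O) :
    C.opActR hc (Ideal.Quotient.mk _ z) = C.opAct hc z := rfl

omit [Finite (ResidueField O)] [CharZero O] in
theorem Cut.opActR_injective : Function.Injective (C.opActR hc) := by
  rw [injective_iff_map_eq_zero]
  intro x hx
  obtain ⟨z, rfl⟩ := Ideal.Quotient.mk_surjective x
  exact Ideal.Quotient.eq_zero_iff_mem.2 hx

omit [Finite (ResidueField O)] [CharZero O] in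
theorem Cut.free_range : Module.Free O (LinearMap.range C.E) :=
  Module.Free.of_basis
    (Submodule.basisOfPid ((Pi.basisFun O (Fin (homRankH L H))).map (coordH hH O O))
      (LinearMap.range C.E)).2

omit [Finite (ResidueField O)] [CharZero O] in
theorem Cut.finite_range : Module.Finite O (LinearMap.range C.E) := by
  have : Module.Finite O (H1 L H O O) := Module.Finite.equiv (coordH hH O O)
  infer_instance

instance Cut.opRing_finite : Module.Finite O (C.OpRing hc) := by
  have := moduleFinite_heckeRing (S := S₂) hH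
  have : Module.Finite O (HeckeO L H S₂ O) := Module.Finite.base_change ℤ O (heckeRing L H S₂)
  exact Module.Finite.of_surjective (Ideal.Quotient.mkₐ O _).toLinearMap
    Ideal.Quotient.mk_surjective

omit [Finite (ResidueField O)] in
theorem Cut.opRing_isReduced (hLS : ∀ q : ℕ, q.Prime → q ∣ L → q ∈ S₂) :
    IsReduced (C.OpRing hc) := by
  have := isReduced_heckeRing (H := H) (S := S₂) hLS
  have := moduleFinite_heckeRing (S := S₂) hH
  have := moduleFree_heckeRing (S := S₂) hH
  have : IsReduced (HeckeO L H S₂ O) := GalRep.isReduced_tensor_int O (heckeRing L H S₂)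
  have : Module.Finite O (HeckeO L H S₂ O) := Module.Finite.base_change ℤ O (heckeRing L H S₂)
  have : Module.IsTorsionFree O (H1 L H O O) :=
    Function.Injective.moduleIsTorsionFree _ (coordH hH O O).symm.injective
      fun a b => map_smul (coordH hH O O).symm a b
  exact isReduced_quotient_ker (C.opAct hc)

omit [Finite (ResidueField O)] [CharZero O] in
theorem Cut.opRing_free : Module.Free O (C.OpRing hc) := by
  have : Module.IsTorsionFree O (H1 L H O O) :=
    Function.Injective.moduleIsTorsionFree _ (coordH hH O O).symm.injective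
      fun a b => map_smul (coordH hH O O).symm a b
  have : Module.IsTorsionFree O (C.OpRing hc) :=
    Function.Injective.moduleIsTorsionFree _ (C.opActR_injective hc)
      fun a b => map_smul (C.opActR hc) a b
  exact Module.free_of_finite_type_torsion_free'

variable (hSS : S₂ ⊆ (↑S : Set ℕ))

/-- The ring of the cut inside the ring of operators. -/
def Cut.opInc : C.Ring' →ₐ[O] C.OpRing hc :=
  Ideal.Quotient.liftₐ C.kerIdeal
    ((Ideal.Quotient.mkₐ O (RingHom.ker (C.opAct hc).toRingHom)).comp (heckeOIncl hSS))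
    fun z hz => Ideal.Quotient.eq_zero_iff_mem.2
      ((LinearMap.ext fun v => Subtype.ext
        (LinearMap.congr_fun (actO_incl hH hSS z) v.1) :
          C.opAct hc (heckeOIncl hSS z) = C.act z).trans hz)

omit [Finite (ResidueField O)] [CharZero O] in
theorem Cut.opActR_opInc (u : C.Ring') : C.opActR hc (C.opInc hc hSS u) = C.actR u := by
  refine Quotient.inductionOn' u fun z => ?_
  exact LinearMap.ext fun v => Subtype.ext (LinearMap.congr_fun (actO_incl hH hSS z) v.1)

omit [Finite (ResidueField O)] [CharZero O] in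
theorem Cut.opInc_mk (z : HeckeO L H (↑S : Set ℕ) O) :
    C.opInc hc hSS (Ideal.Quotient.mk C.kerIdeal z) =
      Ideal.Quotient.mkₐ O (RingHom.ker (C.opAct hc).toRingHom) (heckeOIncl hSS z) := rfl

omit [Finite (ResidueField O)] [CharZero O] in
theorem Cut.opInc_injective : Function.Injective (C.opInc hc hSS) := fun a b hab =>
  C.actR_injective (((C.opActR_opInc hc hSS a).symm.trans (congrArg (C.opActR hc) hab)).trans
    (C.opActR_opInc hc hSS b))

omit [Fact (Nat.Prime p)] [Finite (ResidueField O)] [CharZero O] in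
theorem Cut.opActR_twistedT (hp : p.Prime) (hpL : ¬ p ∣ L) (hpS : p ∉ S₂)
    (v : LinearMap.range C.E) :
    (C.opActR hc (Ideal.Quotient.mkₐ O (RingHom.ker (C.opAct hc).toRingHom)
      (HeckeO.ofT O (twistedT h hp hpL hpS))) v : H1 L H O O) =
      (diamondH O O (primeUnit hp hpL) ^ h) (heckeTH O O hp hpL (v : H1 L H O O)) := by
  rw [Ideal.Quotient.mkₐ_eq_mk, C.opActR_mk, C.coe_opAct, actO_ofT, twistedT, map_mul, map_pow,
    homAction_diamond, homAction_heckeT]
  rfl

omit [Fact (Nat.Prime p)] [Finite (ResidueField O)] [CharZero O] in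
theorem Cut.isUnit_opRing_heckeT (hp : p.Prime) (hpL : ¬ p ∣ L) (hpS : p ∉ S₂)
    (hunit : ∀ v ∈ LinearMap.range C.E, ∃ w ∈ LinearMap.range C.E, heckeTH O O hp hpL w = v) :
    IsUnit (Ideal.Quotient.mk (RingHom.ker (C.opAct hc).toRingHom)
      (HeckeO.ofT O (heckeTR hp hpL hpS))) := by
  have := C.free_range
  have := C.finite_range
  have hb : Function.Surjective (C.opActR hc (Ideal.Quotient.mk
      (RingHom.ker (C.opAct hc).toRingHom) (HeckeO.ofT O (heckeTR hp hpL hpS)))) := fun v => by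
    refine (hunit v.1 v.2).elim fun w hw => ⟨⟨w, hw.1⟩, Subtype.ext ?_⟩
    rw [C.opActR_mk, C.coe_opAct, actO_ofT, homAction_heckeT]
    exact hw.2
  exact isUnit_of_surjective (A := C.OpRing hc) (V := H1 L H O O) (W := LinearMap.range C.E)
    (C.opActR hc) (C.opActR_injective hc) hb

omit [IsDomain O] [IsDiscreteValuationRing O] [IsAdicComplete (maximalIdeal O) O]
  [Finite (ResidueField O)] [CharZero O] in
omit [Fact (Nat.Prime p)] in
theorem isUnit_map_twistedT {B : Type} [CommRing B] (ψ : heckeRing L H S₂ →+* B) (hp : p.Prime)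
    (hpL : ¬ p ∣ L) (hpS : p ∉ S₂) (h1 : IsUnit (ψ (heckeTR hp hpL hpS))) :
    IsUnit (ψ (twistedT h hp hpL hpS)) := by
  rw [twistedT, map_mul, map_pow]
  refine IsUnit.mul (IsUnit.pow h (IsUnit.map ψ ?_)) h1
  exact .of_mul_eq_one (diamondR (primeUnit hp hpL)⁻¹)
    (by rw [← diamondR_mul, mul_inv_cancel, diamondR_one])

omit [Fact (Nat.Prime p)] [Finite (ResidueField O)] [CharZero O] in
theorem Cut.isUnit_opRing_twistedT (hp : p.Prime) (hpL : ¬ p ∣ L) (hpS : p ∉ S₂)
    (hunit : ∀ v ∈ LinearMap.range C.E, ∃ w ∈ LinearMap.range C.E, heckeTH O O hp hpL w = v) :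
    IsUnit (Ideal.Quotient.mkₐ O (RingHom.ker (C.opAct hc).toRingHom)
      (HeckeO.ofT O (twistedT h hp hpL hpS))) :=
  isUnit_map_twistedT (h := h)
    ((Ideal.Quotient.mk (RingHom.ker (C.opAct hc).toRingHom)).comp (HeckeO.ofT O)) hp hpL hpS
    (C.isUnit_opRing_heckeT hc hp hpL hpS hunit)

end OpRing

set_option quotPrecheck false in
local notation "S₁" => (↑(S.erase p) : Set ℕ)

omit [Fact (Nat.Prime p)] in
theorem erase_subset' : S₁ ⊆ (↑S : Set ℕ) := fun _ h => Finset.mem_of_mem_erase h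

omit [Fact (CuspForm.HasIntegralStructure (L * R) 2)] [Finite (ResidueField O)] [CharZero O] in
/-- The cut commutes with the operator at `p` added. -/
theorem Cut.comm_erase (hyp : TWHyp (H := H) (S := S) (O := O) p R h hH θ ρbar' ρbar) (hp : p.Prime)
    (hpL : ¬ p ∣ L) (hcomm : Commute C.E (heckeTH O O hp hpL)) (z : HeckeO L H S₁ O) :
    Commute C.E (actO hH O z) := by
  induction z using HeckeO.induction with
  | zero => rw [map_zero]; exact Commute.zero_right _
  | add x y hx hy => rw [map_add]; exact hx.add_right hy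
  | mk a t =>
    rw [actO_tmul]
    refine Commute.smul_right ?_ a
    obtain ⟨u, hu⟩ := t
    induction hu using Algebra.adjoin_induction with
    | mem x hx =>
      rcases hx with (⟨a, rfl⟩ | ⟨l, hl, hlL, hlS, rfl⟩) | ⟨q, hqL, hq, hqS, rfl⟩
      · have h1 := C.comm (HeckeO.ofT O (diamondR a))
        rw [actO_ofT, homAction_diamond] at h1
        rwa [show (⟨_, _⟩ : heckeRing L H S₁) = diamondR a from rfl, homAction_diamond]
      · rw [show (⟨_, _⟩ : heckeRing L H S₁) = heckeTR hl hlL hlS from rfl, homAction_heckeT]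
        by_cases hlp : l = p
        · subst hlp; exact hcomm
        · have h1 := C.comm (HeckeO.ofT O (heckeTR hl hlL (S := (↑S : Set ℕ))
            (fun hm => hlS (Finset.mem_erase.2 ⟨hlp, hm⟩))))
          rwa [actO_ofT, homAction_heckeT] at h1
      · exact absurd (Finset.mem_erase.2 ⟨fun (e : q = p) => hpL (e ▸ hqL), hyp.LS q hq hqL⟩) hqS
    | algebraMap r =>
      rw [show (⟨_, _⟩ : heckeRing L H S₁) = algebraMap ℤ _ r from rfl,
        eq_intCast (algebraMap ℤ (heckeRing L H S₁)) r, map_intCast]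
      exact Int.commute_cast _ _
    | add x y hx hy ihx ihy =>
      rw [show (⟨x + y, _⟩ : heckeRing L H S₁) = ⟨x, hx⟩ + ⟨y, hy⟩ from rfl, map_add]
      exact ihx.add_right ihy
    | mul x y hx hy ihx ihy =>
      rw [show (⟨x * y, _⟩ : heckeRing L H S₁) = ⟨x, hx⟩ * ⟨y, hy⟩ from rfl, map_mul]
      exact ihx.mul_right ihy

omit [IsDiscreteValuationRing O] [IsAdicComplete (maximalIdeal O) O] [Finite (ResidueField O)]
  [CharZero O] in
/-- **A residually irreducible representation with the Frobenius polynomials of an eigensystem is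
its representation.** -/
theorem areConj_of_frobenius (hp : p.Prime) (hp2 : p ≠ 2) {N : ℕ} [NeZero N]
    {O₂ : Type} [CommRing O₂] [IsDomain O₂] [IsDiscreteValuationRing O₂]
    [IsAdicComplete (maximalIdeal O₂) O₂] [CharZero O₂] {hpO₂ : (p : O₂) ∈ maximalIdeal O₂}
    {κ : CuspForm.heckeAlgebra N 2 ∅ →+* O₂} (E : OrdinaryP.EigenRep N p hpO₂ κ)
    {M : GQ →* M2 O₂} (hc : MatCont M)
    (hdetc : (ofMatrix M hc).DetIsCyclotomic p)
    (hspan : Submodule.span (ResidueField O₂) (Set.range (mapRep (residue O₂) M)) = ⊤)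
    (T : Finset ℕ) (hpT : p ∈ T) (hNT : ∀ l : ℕ, l.Prime → l ∣ N → l ∈ T)
    (hfrob : ∀ (l : ℕ) (hl : l.Prime), l ∉ T → ∀ A : ValuationSubring ℚbar, A.LiesOverPrime l →
      ∀ σ : GQ, A.IsFrobeniusAt σ l →
        (M σ).trace = κ (GalRep.heckeOp N ⟨l, hl⟩) ∧ (M σ).det = (l : O₂)) :
    AreConj E.R M := by
  have hfrob' : ∀ l : ℕ, l.Prime → l ∉ T → ∀ A : ValuationSubring ℚbar, A.LiesOverPrime l →
      ∀ σ : GQ, A.IsFrobeniusAt σ l → (M σ).charpoly =
        LinearMap.charpoly ((ofMatrix E.R E.continuous).ρ σ) := by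
    intro l hl hlT A hA σ hσ
    have hlp : l ≠ p := fun e => hlT (e ▸ hpT)
    have hlN : ¬ l ∣ N * p := fun hd => (hl.dvd_mul.1 hd).elim (fun h1 => hlT (hNT l hl h1))
      fun h1 => hlp ((Nat.prime_dvd_prime_iff_eq hl hp).1 h1)
    obtain ⟨htr, hdet⟩ := hfrob l hl hlT A hA σ hσ
    refine Eq.trans ?_ (Matrix.charpoly_toLin' (E.R σ)).symm
    rw [Matrix.charpoly_fin_two, Matrix.charpoly_fin_two, E.trace_frobenius l hl hlN A hA σ hσ,
      E.det_eq, GalRep.cycl_frobenius p hl hlp hA hσ, map_natCast, htr, hdet]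
  obtain ⟨-, hirrE, -⟩ := charpoly_absIrr_odd_of_matrix hp hp2 hc hdetc hspan
    (ofMatrix E.R E.continuous) T hfrob'
  have hirrM : (ofMatrix M hc).residual.IsAbsolutelyIrreducible :=
    GalRep.isAbsolutelyIrreducible_of_span (isMatrixRep_ofMatrix _ hc).residual hspan
  exact (isEquiv_iff_areConj (isMatrixRep_ofMatrix E.R E.continuous) (isMatrixRep_ofMatrix _ hc)).1
      (Density.adic_isEquiv_of_forall_frobenius _ _ hirrE hirrM (↑T : Set ℕ) T.finite_toSet
        fun l hl hlS A hA τ hτ =>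
          (hfrob' l hl (by simpa using hlS) A hA τ hτ).symm.trans
            (Matrix.charpoly_toLin' (M τ)).symm)

omit [IsDiscreteValuationRing O] [IsAdicComplete (maximalIdeal O) O] [Finite (ResidueField O)]
  [CharZero O] in
/-- **A residually irreducible representation with the Frobenius polynomials of an ordinary
eigensystem is ordinary.** -/
theorem exists_shape_of_frobenius (hp : p.Prime) (hp2 : p ≠ 2) {N : ℕ} [NeZero N] (hpN : ¬ p ∣ N)
    {O₂ : Type} [CommRing O₂] [IsDomain O₂] [IsDiscreteValuationRing O₂]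
    [IsAdicComplete (maximalIdeal O₂) O₂] [CharZero O₂] {hpO₂ : (p : O₂) ∈ maximalIdeal O₂}
    {κ : CuspForm.heckeAlgebra N 2 ∅ →+* O₂} (E : OrdinaryP.EigenRep N p hpO₂ κ)
    (hu : IsUnit (κ (GalRep.heckeOp N ⟨p, hp⟩))) {M : GQ →* M2 O₂} (hc : MatCont M)
    (hdetc : (ofMatrix M hc).DetIsCyclotomic p)
    (hspan : Submodule.span (ResidueField O₂) (Set.range (mapRep (residue O₂) M)) = ⊤)
    (T : Finset ℕ) (hpT : p ∈ T) (hNT : ∀ l : ℕ, l.Prime → l ∣ N → l ∈ T)
    (hfrob : ∀ (l : ℕ) (hl : l.Prime), l ∉ T → ∀ A : ValuationSubring ℚbar, A.LiesOverPrime l →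
      ∀ σ : GQ, A.IsFrobeniusAt σ l →
        (M σ).trace = κ (GalRep.heckeOp N ⟨l, hl⟩) ∧ (M σ).det = (l : O₂))
    {P : ValuationSubring ℚbar} (hP : P.LiesOverPrime p) :
    ∃ s : P.decompositionSubgroup ℚ →* O₂, TW.OrdShape P M s ∧
      ∀ φ : P.decompositionSubgroup ℚ, P.IsFrobeniusAt (φ : GQ) p →
        κ (GalRep.heckeOp N ⟨p, hp⟩) * s φ = s φ ^ 2 + (p : O₂) := by
  have hconj : AreConj E.R M := areConj_of_frobenius hp hp2 E hc hdetc hspan T hpT hNT hfrob
  obtain ⟨s, hsI, hsF, hs⟩ := E.exists_shape hP N hpN hp2 hu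
  refine ⟨s, ordShape_conj hconj (show TW.OrdShape P E.R s from ⟨hsI, hs⟩), fun φ hφ => ?_⟩
  linear_combination -(hsF φ hφ).2

omit [IsAdicComplete (maximalIdeal O) O] [Finite (ResidueField O)] [CharZero O] [IsDomain O]
  [IsDiscreteValuationRing O] in
theorem heckeIncl_twistedT {S₂ S₃ : Set ℕ} (hSS : S₃ ⊆ S₂) {l : ℕ} (hl : l.Prime) (hlL : ¬ l ∣ L)
    (hlS : l ∉ S₂) :
    heckeIncl (N := L) (H := H) hSS (twistedT h hl hlL hlS) =
      twistedT h hl hlL (fun hm => hlS (hSS hm)) := by
  have h1 : heckeIncl (N := L) (H := H) hSS (diamondR (primeUnit hl hlL)) =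
      diamondR (primeUnit hl hlL) := Subtype.ext rfl
  have h2 : heckeIncl (N := L) (H := H) hSS (heckeTR hl hlL hlS) =
      heckeTR hl hlL (fun hm => hlS (hSS hm)) := Subtype.ext rfl
  rw [twistedT, twistedT, map_mul, map_pow, h1, h2]

omit [IsAdicComplete (maximalIdeal O) O] [Finite (ResidueField O)] [CharZero O] [IsDomain O]
  [IsDiscreteValuationRing O] in
/-- The reduction of a specialised lift spans. -/
theorem span_residue_specialise {O : Type} [CommRing O] [IsLocalRing O]
    {ρ₀ : GQ →* M2 (ResidueField O)} {T : TestRing O} (r : Lift ρ₀ T) {O₂ : Type} [CommRing O₂]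
    [IsLocalRing O₂] (w : T.R →+* O₂) (hw : IsLocalHom w) (g : O →+* O₂) (hg : IsLocalHom g)
    (hwg : w.comp T.alg = g) (hspan : Submodule.span (ResidueField O) (Set.range ρ₀) = ⊤) :
    Submodule.span (ResidueField O₂) (Set.range (mapRep (residue O₂) (mapRep w r.M))) = ⊤ := by
  have hres : mapRep (residue O₂) (mapRep w r.M) = mapRep (ResidueField.map g) ρ₀ := by
    refine MonoidHom.ext fun σ => Matrix.ext fun i j => ?_
    simp only [mapRep_apply, Matrix.map_apply]
    obtain ⟨a, ha⟩ := residue_surjective (ρ₀ σ i j)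
    rw [← ha, ResidueField.map_residue, ← hwg, RingHom.comp_apply, ← sub_eq_zero, ← map_sub,
      ← map_sub, residue_eq_zero_iff]
    refine map_nonunit w _ ((T.ker_red _).1 ?_)
    rw [map_sub, T.red_alg, ha, sub_eq_zero]
    exact congrFun (congrFun (r.reduces σ) i) j
  rw [hres]
  exact GalRep.span_map_eq_top _ hspan

include hyp in
/-- **The shape at a point of the ring with the operator at `p` added.** -/
theorem Cut.exists_point_shape (hp : p.Prime) (hpL : ¬ p ∣ L) {B : Type} [CommRing B]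
    [Algebra O B] [Module.Finite O B] [Module.Free O B] (f : HeckeO L H S₁ O →ₐ[O] B)
    (inc : C.Ring' →ₐ[O] B)
    (hinc : ∀ z, inc (Ideal.Quotient.mk C.kerIdeal z) = f (heckeOIncl erase_subset' z))
    (hu : IsUnit (f (HeckeO.ofT O (twistedT h hp hpL (Finset.notMem_erase p S)))))
    {P : ValuationSubring ℚbar} (hP : P.LiesOverPrime p) (I : Ideal B) (hI : I ∈ minimalPrimes B) :
    ∃ (O' : Type) (_ : CommRing O') (y : B →+* O'), (∀ z, y z = 0 → z ∈ I) ∧
      ∃ s : P.decompositionSubgroup ℚ →* O',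
        TW.OrdShape P (mapRep (y.comp inc.toRingHom) (C.lift D).M) s ∧
        ∀ φ : P.decompositionSubgroup ℚ, P.IsFrobeniusAt (φ : GQ) p →
          y (f (HeckeO.ofT O (twistedT h hp hpL (Finset.notMem_erase p S)))) * s φ =
            s φ ^ 2 + (p : O') := by
  have : I.IsPrime := hI.1.1
  obtain ⟨O₁, _, _, _, _, _, _, _, _, _, x, hxinj⟩ := GalRep.exists_dvr_of_domain (𝒪 := O)
    (B ⧸ I) (GalRep.injective_quotient_minimalPrime B I hI)
  let y₀ : B →ₐ[O] O₁ := x.comp (Ideal.Quotient.mkₐ O I)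
  have hpO₁ : (p : O₁) ∈ maximalIdeal O₁ :=
    map_natCast (algebraMap O O₁) p ▸ map_nonunit (algebraMap O O₁) _ hyp.mem
  have hLS₁ : ∀ q : ℕ, q.Prime → q ∣ L → q ∈ S₁ := fun q hq hqL =>
    Finset.mem_erase.2 ⟨fun (e : q = p) => hpL (e ▸ hqL), hyp.LS q hq hqL⟩
  obtain ⟨Φ, hΦ⟩ := exists_twistHom (S := S₁) hH hyp.R_dvd hyp.ker_le hyp.odd hLS₁
  let g : heckeRing L H S₁ →+* O₁ :=
    y₀.toRingHom.comp (f.toRingHom.comp (HeckeO.ofT O))
  have := Fermat.Agent.S22.result (L * R) 2 (∅ : Set ℕ)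
  obtain ⟨O₂, _, _, _, _, _, _, _, _, _, hjinj, hpO₂, κ, hκ⟩ :=
    GalRep.exists_point_extension (N := L * R) (S.erase p) O₁ hpO₁ (g.comp Φ)
  set j := algebraMap O₁ O₂
  have hpLR : ¬ p ∣ L * R := fun hd =>
    (hp.dvd_mul.1 hd).elim hpL fun hR => hpL (hR.trans hyp.R_dvd)
  have hval : ∀ (l : ℕ) (hl : l.Prime) (hlL : ¬ l ∣ L) (hlS : l ∉ S₁),
      κ (GalRep.heckeOp (L * R) ⟨l, hl⟩) = j (g (twistedT h hl hlL hlS)) := by
    intro l hl hlL hlS
    have hlM : ¬ l ∣ L * R := fun hd =>
      (hl.dvd_mul.1 hd).elim hlL fun hR => hlL (hR.trans hyp.R_dvd)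
    rw [hκ l hl hlM hlS, RingHom.comp_apply, hΦ l hl hlL hlM hlS]
  set T := f (HeckeO.ofT O (twistedT h hp hpL (Finset.notMem_erase p S)))
  have hκp : κ (GalRep.heckeOp (L * R) ⟨p, hp⟩) = j (y₀ T) :=
    hval p hp hpL (Finset.notMem_erase p S)
  obtain ⟨E⟩ := OrdinaryP.exists_eigenRep (L * R) p (hyp.red _) hpO₂ κ
  -- the specialised lift
  let x₁ : C.Ring' →ₐ[O] O₁ := y₀.comp inc
  have hloc : IsLocalHom x₁.toRingHom := GalRep.Glue.isLocalHom_algHom (𝒪 := O) x₁
  set w : C.testRing.R →+* O₂ := (j.comp y₀.toRingHom).comp inc.toRingHom with hw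
  have hwloc : IsLocalHom w := by
    rw [hw, RingHom.comp_assoc]
    exact RingHom.isLocalHom_comp j x₁.toRingHom
  have hwalg : w.comp C.testRing.alg = j.comp (algebraMap O O₁) := by
    refine RingHom.ext fun a => ?_
    show j (y₀ (inc (algebraMap O C.Ring' a))) = _
    rw [AlgHom.commutes, AlgHom.commutes]
    rfl
  have hc : MatCont (mapRep w (C.lift D).M) := matCont_mapRep w hwloc (C.lift D).cont
  have hcp : ∀ (l : ℕ) (hl : l.Prime), l ∉ S → ∀ A : ValuationSubring ℚbar,
      A.LiesOverPrime l → ∀ σ : GQ, A.IsFrobeniusAt σ l →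
        (mapRep w (C.lift D).M σ).trace = κ (GalRep.heckeOp (L * R) ⟨l, hl⟩) ∧
          (mapRep w (C.lift D).M σ).det = (l : O₂) := by
    intro l hl hlS' A hA σ hσ
    have hlS : l ∉ (↑S : Set ℕ) := by simpa using hlS'
    have hlL : ¬ l ∣ L := fun hd => hlS (hyp.LS l hl hd)
    obtain ⟨htr, hdet⟩ := C.lift_frob D l hl hlL hlS A hA σ hσ
    rw [mapRep_apply]
    refine ⟨?_, by
      rw [← RingHom.mapMatrix_apply, ← RingHom.map_det]
      exact (congrArg w hdet).trans (map_natCast w l)⟩
    refine (AddMonoidHom.map_trace w.toAddMonoidHom ((C.lift D).M σ)).symm.trans ?_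
    rw [hval l hl hlL fun hm => hlS (erase_subset' hm)]
    refine (congrArg w htr).trans (congrArg (fun v => j (y₀ v)) ((hinc _).trans ?_))
    rw [HeckeO.ofT_apply, heckeOIncl_mk, one_smul, heckeIncl_twistedT]
    rfl
  have hdetc : (ofMatrix (mapRep w (C.lift D).M) hc).DetIsCyclotomic p :=
    detIsCyclotomic_of_frobenius _ hp hpO₂ S fun l hl hlS A hA σ hσ =>
      (LinearMap.det_toLin' (mapRep w (C.lift D).M σ)).trans (hcp l hl hlS A hA σ hσ).2
  have hspan := span_residue_specialise (C.lift D) w hwloc _ (RingHom.isLocalHom_comp _ _) hwalg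
    (Deformation.span_range_eq_top hyp.matrix hyp.absIrr)
  have huκ : IsUnit (κ (GalRep.heckeOp (L * R) ⟨p, hp⟩)) := by
    rw [hκp]; exact (hu.map y₀).map j
  obtain ⟨s, hs, hsF⟩ := exists_shape_of_frobenius hp hyp.ne_two hpLR E huκ hc hdetc hspan S
    hyp.mem_S (fun l hl hd => (hl.dvd_mul.1 hd).elim (hyp.LS l hl)
      fun h1 => hyp.LS l hl (h1.trans hyp.R_dvd)) hcp hP
  refine ⟨O₂, inferInstance, j.comp y₀.toRingHom, fun v hv => ?_, s, hs, fun φ hφ => ?_⟩
  · have h1 : j (y₀ v) = j 0 := by rw [map_zero]; exact hv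
    have h2 : x (Ideal.Quotient.mk I v) = x 0 := (hjinj h1).trans (map_zero x).symm
    exact Ideal.Quotient.eq_zero_iff_mem.1 (hxinj h2)
  · have h2 := hsF φ hφ
    rw [hκp] at h2
    exact h2

/-- **Gluing the shapes of the points.** -/
theorem exists_glued_shape {A B : Type} [CommRing A] [CommRing B] (inc : A →+* B)
    (hincinj : Function.Injective inc) {ι : Type} {O' : ι → Type} [∀ i, CommRing (O' i)]
    (y : ∀ i, B →+* O' i) (hsep : ∀ z, (∀ i, y i z = 0) → z = 0) {M : GQ →* M2 A} (T : B) (c : ℕ)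
    {P : ValuationSubring ℚbar} {σ : P.decompositionSubgroup ℚ}
    (hσ : (σ : GQ) ∈ P.inertiaSubgroupIn ℚ) (hdσ : IsUnit (1 - (M σ).det))
    (s : ∀ i, P.decompositionSubgroup ℚ →* O' i)
    (hs : ∀ i, TW.OrdShape P (mapRep ((y i).comp inc) M) (s i))
    (hsT : ∀ i, ∀ φ : P.decompositionSubgroup ℚ, P.IsFrobeniusAt (φ : GQ) c →
      y i T * s i φ = s i φ ^ 2 + (c : O' i)) :
    ∃ t : P.decompositionSubgroup ℚ →* A, TW.OrdShape P M t ∧
      ∀ φ : P.decompositionSubgroup ℚ, P.IsFrobeniusAt (φ : GQ) c → ∀ u : A,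
        u * t φ = t φ ^ 2 + (c : A) → inc u = T := by
  obtain ⟨t, ht, hval⟩ := exists_ordShape_of_points (A := A) (fun i => (y i).comp inc)
    (fun z hz => hincinj (by rw [map_zero]; exact hsep _ hz)) hσ hdσ s hs
  refine ⟨t, ht, fun φ hφ u hu' => ?_⟩
  have h1 : (inc u - T) * inc (t φ) = 0 := by
    refine hsep _ fun I => ?_
    have h2 := congrArg ((y I).comp inc) hu'
    rw [map_mul, map_add, map_pow, map_natCast, hval] at h2
    rw [map_mul, map_sub, show y I (inc (t φ)) = s I φ from hval I φ, sub_mul, hsT I φ hφ,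
      sub_eq_zero]
    exact h2
  exact sub_eq_zero.1 ((((Group.isUnit φ).map t).map inc).mul_left_eq_zero.1 h1)

include hyp in
/-- **The shape from a reduced ring containing the ring of the cut and the operator at `p`.** -/
theorem Cut.exists_shape_of_ring (hp : p.Prime) (hpL : ¬ p ∣ L) {B : Type} [CommRing B]
    [Algebra O B] [Module.Finite O B] [Module.Free O B] [IsReduced B]
    (f : HeckeO L H S₁ O →ₐ[O] B) (inc : C.Ring' →ₐ[O] B)
    (hincinj : Function.Injective inc)
    (hinc : ∀ z, inc (Ideal.Quotient.mk C.kerIdeal z) = f (heckeOIncl erase_subset' z))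
    (hu : IsUnit (f (HeckeO.ofT O (twistedT h hp hpL (Finset.notMem_erase p S)))))
    {P : ValuationSubring ℚbar} (hP : P.LiesOverPrime p) :
    ∃ t : P.decompositionSubgroup ℚ →* C.Ring', TW.OrdShape P (C.lift D).M t ∧
      ∀ φ : P.decompositionSubgroup ℚ, P.IsFrobeniusAt (φ : GQ) p → ∀ u : C.Ring',
        u * t φ = t φ ^ 2 + (p : C.Ring') →
          inc u = f (HeckeO.ofT O (twistedT h hp hpL (Finset.notMem_erase p S))) := by
  classical
  choose O' iO y hy s hs hsT using fun I : minimalPrimes B =>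
    C.exists_point_shape hyp D hp hpL f inc hinc hu hP I.1 I.2
  set T := f (HeckeO.ofT O (twistedT h hp hpL (Finset.notMem_erase p S)))
  have hsep : ∀ z : B, (∀ I, y I z = 0) → z = 0 := fun z hz => by
    have hmem : z ∈ nilradical B := by
      rw [nilradical, ← Ideal.sInf_minimalPrimes, Ideal.mem_sInf]
      exact fun {I} hI => hy ⟨I, hI⟩ z (hz ⟨I, hI⟩)
    rwa [nilradical_eq_zero, Ideal.zero_eq_bot, Ideal.mem_bot] at hmem
  obtain ⟨σ, hσ, hc⟩ := OrdinaryP.exists_inertia_neg_one hP
  have hpC : (p : C.Ring') ∈ maximalIdeal C.Ring' := by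
    rw [← map_natCast (algebraMap O C.Ring')]
    exact map_nonunit _ _ hyp.mem
  have hdσ : IsUnit (1 - (C.mat D σ).det) := by
    have h1 := C.lift_detCyclotomic D 1 σ (p - 1) (by simpa using hc)
    rw [pow_one, Ideal.mem_span_singleton'] at h1
    obtain ⟨e, he⟩ := h1
    change C.Ring' at e
    change e * (p : C.Ring') = (C.mat D σ).det - ((p - 1 : ℕ) : C.Ring') at he
    by_contra hnu
    refine (mem_maximalIdeal _).1 (?_ : (2 : C.Ring') ∈ maximalIdeal C.Ring')
      (OrdinaryP.isUnit_two_of_mem hp hyp.ne_two hpC)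
    have e1 : ((p - 1 : ℕ) : C.Ring') + 1 = (p : C.Ring') := by
      rw [← Nat.cast_succ, Nat.succ_eq_add_one, Nat.sub_add_cancel hp.one_le]
    rw [show (2 : C.Ring') = (1 - (C.mat D σ).det) + (e + 1) * (p : C.Ring') by
      linear_combination -he + e1]
    exact add_mem ((mem_maximalIdeal _).2 hnu) (Ideal.mul_mem_left _ _ hpC)
  exact exists_glued_shape (A := C.Ring') inc.toRingHom hincinj y hsep (M := (C.lift D).M) T p
    (σ := ⟨σ, ((Gal.mem_inertia_iff P σ).mp hσ).1⟩) hσ hdσ s hs hsT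

end Fermat.Agent.Root.Patched
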