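import Fermat.Agent.Root.Patched.TowerEnd3
import Fermat.Agent.Root.Patched.TowerAtP
import Fermat.Agent.Root.Patched.AtPDescent

/-!
# Shapes at `p` of members with `p` at most once in the level

The lift of such a member is ordinary at `p` for an ordinary residual representation.  If no
residual newform is old at `p` the quotient character is quadratic: the lift has Steinberg shape.
A residual newform with `p` exactly once in the level makes the residual representation ordinary.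
-/

set_option autoImplicit false

noncomputable section

open IsLocalRing Polynomial CongruenceSubgroup
open ModularFormClass (qCoeff)

namespace Fermat.Agent.Root.Patched

open Fermat.Agent.Deformation Fermat.Agent.GammaH Fermat.Agent.TW Fermat.Agent.IharaTW

local notation "ℚbar" => AlgebraicClosure ℚ
local notation "Zbar" => integralClosure ℤ ℂ

variable {O : Type} [CommRing O] [IsDomain O] [IsDiscreteValuationRing O]
  [IsAdicComplete (maximalIdeal O) O] [Finite (ResidueField O)] [CharZero O]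
  {p : ℕ} [Fact p.Prime] {W : WeierstrassCurve ℤ}

omit [CharZero O] in
/-- **A residual newform with `p` exactly once in the level makes `ρbar` ordinary at `p`.** -/
theorem ResidualData.trace_eq_two_of_resNewform (D : ResidualData O p W) (hW : Semistable W)
    {M : ℕ} (hpM : p ∣ M) (hp2M : ¬ p ^ 2 ∣ M) (h : ResNewform p W M)
    {P : ValuationSubring ℚbar} (hP : P.LiesOverPrime p) :
    ∀ σ ∈ P.inertiaSubgroupIn ℚ, (∀ μ : ℚbar, μ ^ p = 1 → σ μ = μ) → (D.ρbar σ).trace = 2 := by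
  classical
  have hp : p.Prime := Fact.out
  have := D.charP_residue
  obtain ⟨f, 𝔪, hf, h𝔪, hp𝔪, hfW, -⟩ := h
  have hM : M ≠ 0 := fun e => hp2M (e ▸ dvd_zero _)
  have : NeZero M := ⟨hM⟩
  have := Fermat.Agent.S22.result M 2 ∅
  let κG := GalRep.eigenCharacterInt hf.1
  have : Module.Finite ℤ κG.range :=
    Module.Finite.of_surjective κG.rangeRestrict.toIntAlgHom.toLinearMap κG.rangeRestrict_surjective
  let b : ℕ → Zbar := fun n => κG (Hecke.heckeTn M n)
  have hb : ∀ n, (b n : ℂ) = qCoeff ⇑f n := fun n => Hecke.eigenCharacter_heckeTn hf.1 n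
  let P' : Ideal κG.range := 𝔪.comap κG.range.subtype
  have : P'.IsPrime := Ideal.IsPrime.comap _
  have hpP : (p : κG.range) ∈ P' := by
    show κG.range.subtype (p : κG.range) ∈ 𝔪
    rwa [map_natCast]
  obtain ⟨O₀, _, _, _, _, _, _, ι, hpO₀, hι⟩ := GalRep.exists_coeff_ring p κG.range P' hpP
  have hRle : Subring.closure (Set.range b) ≤ κG.range :=
    Subring.closure_le.mpr (by rintro _ ⟨n, rfl⟩; exact ⟨_, rfl⟩)
  let φ : Subring.closure (Set.range b) →+* O₀ := ι.comp (Subring.inclusion hRle)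
  have hφmem : ∀ x : Subring.closure (Set.range b), φ x ∈ maximalIdeal O₀ ↔ (x : Zbar) ∈ 𝔪 :=
    fun x => hι _
  obtain ⟨O₁, _, _, _, _, _, _, j, -, hj, ρ, -, hρgood, hρloc⟩ :=
    exists_attached M f hf.1 b hb p O₀ hpO₀ φ
  have hpO₁ : (p : O₁) ∈ maximalIdeal O₁ := map_natCast j p ▸ map_nonunit j _ hpO₀
  have : CharP (ResidueField O₁) p := (CharP.charP_iff_prime_eq_zero hp).mpr (by
    rw [← map_natCast (residue O₁), residue_eq_zero_iff]; exact hpO₁)
  set S : Finset ℕ := insert p (M.primeFactors ∪ W.Δ.natAbs.primeFactors) with hS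
  have hWS : ∀ q : ℕ, q.Prime → (q : ℤ) ∣ W.Δ → q ∈ S := fun q hq hd => by
    simp [hS, hq, Int.natCast_dvd.mp hd, hW.ne]
  have hres := D.residue_trace_det ρ S (Finset.mem_insert_self _ _) hWS fun l hl hlS A hA σ hσ => by
    have hlp : l ≠ p := fun e => hlS (e ▸ Finset.mem_insert_self _ _)
    have hgood : W.IsGoodPrimeFor l := fun hd => hlS (hWS l hl hd)
    have hlM : ¬ l ∣ M := fun hd => hlS (by simp [hS, hl, hd, hM])
    obtain ⟨a, ha, hmem⟩ := hfW l hl hgood hlM hlp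
    have hab : a = b l := Subtype.ext (ha.trans (hb l).symm)
    refine ⟨_, ?_, (hρgood l hl (fun hd => (hl.dvd_mul.1 hd).elim hlM fun e =>
      hlp ((Nat.prime_dvd_prime_iff_eq hl hp).1 e)) A hA).2 σ hσ⟩
    rw [← sub_eq_zero, ← map_intCast (residue O₁), ← map_sub, residue_eq_zero_iff,
      ← map_intCast j, ← map_sub]
    refine map_nonunit j _ ?_
    rw [← map_intCast φ, ← map_sub, hφmem, AddSubgroupClass.coe_sub, SubringClass.coe_intCast]
    exact hab ▸ hmem
  intro σ hσ hμ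
  have hbp : b p ^ 2 = 1 := Subtype.ext (by
    rw [SubmonoidClass.coe_pow, hb, OneMemClass.coe_one]
    exact Newform.qCoeff_sq_eq_one_of_not_sq_dvd hf hp hpM hp2M)
  obtain ⟨s, hs, hsI, -, hshape⟩ := hρloc p hp hpM hp2M hbp P hP
  let g : P.decompositionSubgroup ℚ := ⟨σ, ((Gal.mem_inertia_iff P σ).mp hσ).1⟩
  have ht := trace_eq_add_of_shape ρ.finrank_eq (ρ.ρ g) (a := LinearMap.det (ρ.ρ g) * s g)
    (b := s g) (det_ne_zero_of_rep ρ g) (by rw [mul_assoc, hs, mul_one]) (hshape g g)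
  obtain ⟨h1, h2⟩ := hres σ
  have h3 : (D.ρ₀ σ).val.trace = 2 := by
    refine (ZMod.castHom (dvd_refl p) (ResidueField O₁)).injective ?_
    rw [← h1, map_ofNat, show ρ.ρ σ = ρ.ρ g from rfl, ht, hsI g hσ, mul_one, map_add, map_one,
      show residue O₁ (LinearMap.det (ρ.ρ g)) = 1 from by
        rw [show ρ.ρ g = ρ.ρ σ from rfl, h2,
          D.det₀ σ 1 (fun μ h' => by rw [pow_one]; exact hμ μ h'), Nat.cast_one, map_one],
      one_add_one_eq_two]
  rw [D.ρbar_eq, show ((D.ρ₀ σ).val.map D.ι).trace = D.ι (D.ρ₀ σ).val.trace from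
    (AddMonoidHom.map_trace D.ι.toAddMonoidHom _).symm, h3, map_ofNat]

/-- Auxiliary primes seen at another level in which they occur once. -/
def auxPrimesAt {L : ℕ} (A : AuxPrimes L p) (L' : ℕ) (hdvd : ∀ q ∈ A.Q, q ∣ L')
    (hsq : ∀ q ∈ A.Q, ¬ q ^ 2 ∣ L') : AuxPrimes L' p where
  Q := A.Q
  prime := A.prime
  dvd := hdvd
  sq := hsq
  m := A.m
  m_dvd := A.m_dvd
  m_pow := A.m_pow

omit [Fact (Nat.Prime p)] in
/-- The groups of the same auxiliary primes at two levels. -/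
theorem auxPrimes_mem_H_iff_of_dvd {L L' : ℕ} [NeZero L] [NeZero L'] (A : AuxPrimes L p)
    (A' : AuxPrimes L' p) (hQ : A'.Q = A.Q) (hm : A'.m = A.m) (h : L ∣ L') (a : (ZMod L')ˣ) :
    a ∈ A'.H ↔ ZMod.unitsMap h a ∈ A.H := by
  rw [A'.mem_H_iff, A.mem_H_iff]
  constructor
  · intro H q hq
    have h1 := H q (hQ ▸ hq)
    rw [← MonoidHom.comp_apply (ZMod.unitsMap (A.dvd q hq)), ZMod.unitsMap_comp, ← hm]
    exact h1
  · intro H q hq
    have h1 := H q (hQ ▸ hq)
    rw [← MonoidHom.comp_apply (ZMod.unitsMap (A.dvd q (hQ ▸ hq))), ZMod.unitsMap_comp, ← hm] at h1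
    exact h1

namespace TStage

variable {ρbar : GQ →* M2 (ResidueField O)}

/-- **Members with `p` at most once in the level are ordinary at `p`.** -/
theorem exists_ordinaryShape (K : TStage O p ρbar) {P : ValuationSubring ℚbar}
    (hP : P.LiesOverPrime p)
    (hord : ∀ σ ∈ P.inertiaSubgroupIn ℚ, (∀ μ : ℚbar, μ ^ p = 1 → σ μ = μ) → (ρbar σ).trace = 2)
    (hp2LR : ¬ p ^ 2 ∣ K.L * K.R) : ∃ s, OrdinaryShape P K.ring K.lift s :=
  Cut.exists_ordinary_of_dvd K.hyp K.D K.C hp2LR P hP hord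

/-- **Members without residual newforms old at `p` are Steinberg at `p`.** -/
theorem steinberg_of_new (hp2 : p ≠ 2) (hW : Semistable W) (hirr : W.ModRepIsIrreducible p)
    (D : ResidualData O p W) (K : TStage O p D.ρbar) {M : ℕ} (hsq : Squarefree K.L)
    (A : AuxPrimes K.L p) (hAH : A.H = K.H) (hpA : p ∉ A.Q) (Qd : Finset ℕ) (hQd : Qd ⊆ A.Q)
    (hL : K.L = M * (∏ x ∈ Qd, x) * p) (hpR : ¬ p ∣ K.R)
    (h3 : p = 3 → ∃ r : ℕ, r.Prime ∧ r ∣ M ∧ r % 3 = 2) (hone : ∀ x ∈ Qd, p ∣ x - 1)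
    (hdist : ∀ x ∈ Qd, ∀ P : ValuationSubring ℚbar, P.LiesOverPrime x → ∀ σ : GQ,
      P.IsFrobeniusAt σ x → ∃ α β : ResidueField O,
        α ≠ β ∧ (D.ρbar σ).charpoly = (X - Polynomial.C α) * (X - Polynomial.C β))
    (hnew : ∀ M', M' ∣ M * p → ResNewform p W M' → p ∣ M')
    {P : ValuationSubring ℚbar} (hP : P.LiesOverPrime p)
    (hord : ∀ σ ∈ P.inertiaSubgroupIn ℚ, (∀ μ : ℚbar, μ ^ p = 1 → σ μ = μ) →
      (D.ρbar σ).trace = 2) :
    SteinbergShape P K.ring K.lift := by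
  classical
  have hp : p.Prime := Fact.out
  set N := M * ∏ x ∈ Qd, x
  have hNL : N ∣ K.L := ⟨p, hL⟩
  have : NeZero N := ⟨fun e => hsq.ne_zero (by rw [hL, e, Nat.zero_mul])⟩
  have hpN : ¬ p ∣ N := fun hd => hp.not_isUnit (hsq p (hL ▸ mul_dvd_mul hd dvd_rfl))
  have hdvd : ∀ q ∈ A.Q, q ∣ N := fun q hq =>
    ((Nat.coprime_primes (A.prime q hq) hp).2 fun e => hpA (e ▸ hq)).dvd_of_dvd_mul_right
      (hL ▸ A.dvd q hq)
  let A₁ : AuxPrimes N p := auxPrimesAt A N hdvd fun q hq h => A.sq q hq (h.trans hNL)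
  refine Cut.steinberg_of_no_character K.D K.C K.hyp hL hpN
    (A₁.neg_one_mem (hp.odd_of_ne_two hp2)) ?_ hpR ?_ P hP hord
  · ext a
    rw [Subgroup.mem_comap, ← hAH]
    exact auxPrimes_mem_H_iff_of_dvd A₁ A rfl rfl hNL a
  · rintro ⟨θ₁, hθ₁⟩
    obtain ⟨M', hM', hres⟩ := exists_resNewform_descent hp2 hW hirr D A₁
      (fun hd => hpN ((dvd_pow_self p two_ne_zero).trans hd))
      (fun e => let ⟨r, hr, hrM, hr3⟩ := h3 e; ⟨r, hr, dvd_mul_of_dvd_left hrM _, hr3⟩)
      θ₁ (h := K.h) (fun l hl hlN hlS hlp P' hP' τ hτ => by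
        have hlL : ¬ l ∣ K.L := fun hd => by
          rw [hL] at hd
          exact (hl.dvd_mul.1 hd).elim hlN fun e => hlp ((Nat.prime_dvd_prime_iff_eq hl hp).1 e)
        rw [hθ₁ l hl hlL hlN hlS, twistedT, map_mul, map_pow, K.diamond_one, one_pow, one_mul,
          twHyp_theta_heckeTR K.hyp K.diamond_one hl hlL hlS hP' hτ])
      Qd hQd rfl (fun hx => hpA (hQd hx)) hone hdist
    exact hpN (((hnew M' (dvd_mul_of_dvd_left hM' p) hres).trans hM').trans (dvd_mul_right M _))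

end TStage

end Fermat.Agent.Root.Patched
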