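import Fermat.Agent.Root.Patched.TowerStepFlip

/-!
# One step of a tower assembled

The step of a tower from its rings, the levels at the stages and a level at the twin.
-/

set_option autoImplicit false

noncomputable section

namespace Fermat.Agent.Root.Patched

open IsLocalRing Polynomial Fermat.Agent.Deformation Fermat.Agent.GammaH Fermat.Agent.TW
  Fermat.Agent.IharaTW
open Fermat.Agent.Patching (Level)

local notation "ℚbar" => AlgebraicClosure ℚ

attribute [local instance] testAlgebra

section Zero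

/-- The level of rank zero. -/
def zeroLevel {Λ A R : Type} [CommRing Λ] [CommRing A] [CommRing R] (𝔞 : Ideal Λ) (I : Ideal R)
    (π : A →+* R) (hπ : Function.Surjective π) {d : ℕ} (hd : d = 0) : Level Λ A R 𝔞 I d where
  c := ⊥
  act :=
    haveI : IsEmpty (Fin d) := hd ▸ Fin.isEmpty
    { toFun := fun _ => 0
      map_one' := Subsingleton.elim _ _
      map_mul' := fun _ _ => Subsingleton.elim _ _
      map_zero' := rfl
      map_add' := fun _ _ => Subsingleton.elim _ _ }
  π := π
  π_surjective := hπ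
  exists_scalar _l := ⟨0,
    haveI : IsEmpty (Fin d) := hd ▸ Fin.isEmpty
    ⟨Subsingleton.elim _ _, fun _ => map_zero π⟩⟩
  entry_mem _a _ i := (Fin.cast hd i).elim0

end Zero

variable {O : Type} [CommRing O] [IsDomain O] [IsDiscreteValuationRing O]
  [IsAdicComplete (maximalIdeal O) O] [Finite (ResidueField O)] [CharZero O]
  {p : ℕ} [Fact p.Prime] {W : WeierstrassCurve ℤ} {D : ResidualData O p W}
  {Sys : LocalSystem O D.ρbar p} {St : StdData Sys D.ζ} {N : ℕ}
  {hT : TowerHyp D Sys St N} [NeZero (inputN₀ N ∅)] {E : Type} [Fintype E]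
  {P : PointFamily Sys E} {B : BottomRings hT P} {Q : Finset ℕ} {hQ : AuxSet Sys Q}
  [NeZero (inputN₀ N Q)] (S : StepData B hQ)
  (hdist : ∀ q ∈ Q, ∀ A : ValuationSubring ℚbar, A.LiesOverPrime q → ∀ σ : GQ,
    A.IsFrobeniusAt σ q → ∃ α β : ResidueField O, α ≠ β ∧
      (D.ρbar σ).charpoly = (X - C α) * (X - C β))
  {r : ℕ} (hr : Q.card = r)

omit [NeZero (inputN₀ N ∅)] in
theorem stageRank_of_lt (r : ℕ) {i : ℕ} (hi : ¬ i ≤ Sys.s) : stageRank hT r i = 0 := dif_neg hi

/-- The levels at all indices. -/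
def StepData.levels (i : ℕ) : Level (MvPowerSeries (Fin r) O) S.R.GU.J.R B.G₀.J.R
    (RingHom.ker (MvPowerSeries.constantCoeff : MvPowerSeries (Fin r) O →+* O)) (B.ideal i)
    (stageRank hT r i) :=
  if h : i ≤ Sys.s then S.stageRings.level hdist hr i h
  else zeroLevel _ _ S.π S.π_surjective (stageRank_of_lt r h)

omit [Fintype E] in
theorem StepData.levels_of_le (i : ℕ) (hi : i ≤ Sys.s) :
    S.levels hdist hr i = S.stageRings.level hdist hr i hi := dif_pos hi

omit [Fintype E] in
theorem StepData.levels_of_not_le (i : ℕ) (hi : ¬ i ≤ Sys.s) :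
    S.levels hdist hr i = zeroLevel _ _ S.π S.π_surjective (stageRank_of_lt r hi) := dif_neg hi

omit [Fintype E] in
theorem StepData.levels_π (i : ℕ) : (S.levels hdist hr i).π = S.π := by
  by_cases h : i ≤ Sys.s
  · rw [levels_of_le S hdist hr i h]
    exact S.stageRings.level_π hdist hr i h
  · rw [levels_of_not_le S hdist hr i h]
    rfl

omit [Fintype E] in
theorem StepData.levels_small {n : ℕ} (hn : ∀ q ∈ Q, p ^ n ∣ q - 1) (i : ℕ) :
    (S.levels hdist hr i).c ≤ maximalIdeal (MvPowerSeries (Fin r) O) ^ n := by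
  by_cases h : i ≤ Sys.s
  · rw [levels_of_le S hdist hr i h]
    exact S.stageRings.level_small hdist hr hn i h
  · rw [levels_of_not_le S hdist hr i h]
    exact bot_le

omit [Fintype E] in
theorem StepData.levels_scalar (i : ℕ) (c : O) :
    (S.levels hdist hr i).act (S.R.GU.J.alg c) = Matrix.scalar (Fin (stageRank hT r i))
      (Ideal.Quotient.mk (S.levels hdist hr i).c (MvPowerSeries.C c)) := by
  by_cases h : i ≤ Sys.s
  · rw [levels_of_le S hdist hr i h]
    exact S.stageRings.level_scalar hdist hr i h c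
  · have : IsEmpty (Fin (stageRank hT r i)) := (stageRank_of_lt (hT := hT) r h) ▸ Fin.isEmpty
    exact Subsingleton.elim _ _

include hdist in
/-- The pushed lift has the same coordinate `a`. -/
theorem StepData.flipA_pushU (f : Fin Sys.s) :
    Sys.flipA f S.R.GU.J (S.R.G.lift.push S.R.pU S.R.pU_red) =
      Sys.flipA f S.R.GU.J S.R.GU.lift :=
  flipA_congr f _ _ S.pushU_eq (S.flipCondU hdist f)

include hdist in
/-- The same on the ring of the twin. -/
theorem StepData.flipA_pushX (f : Fin Sys.s) :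
    Sys.flipA f S.R.GX.J (S.R.G.lift.push S.R.pX S.R.pX_red) =
      Sys.flipA f S.R.GX.J S.R.GX.lift :=
  flipA_congr f _ _ (fun g => S.R.push_X g) (S.flipCondX hdist f)

/-- The level at the twin with its properties. -/
structure TwinLevelData (n : ℕ) where
  LX : Level (MvPowerSeries (Fin r) O) S.R.GX.J.R B.GX₀.J.R
    (RingHom.ker (MvPowerSeries.constantCoeff : MvPowerSeries (Fin r) O →+* O)) ⊥
    (stageRank hT r 0)
  small : LX.c ≤ maximalIdeal (MvPowerSeries (Fin r) O) ^ n
  scalar : ∀ c : O, LX.act (S.R.GX.J.alg c) =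
    Matrix.scalar (Fin (stageRank hT r 0)) (Ideal.Quotient.mk LX.c (MvPowerSeries.C c))
  congr : ∀ ϖ : O, Irreducible ϖ → ∀ σ i j,
    (S.stageRings.level hdist hr 0 (Nat.zero_le _)).mat (S.R.pU (S.R.G.lift.M σ).trace) i j -
        LX.mat (S.R.pX (S.R.G.lift.M σ).trace) i j ∈
      Ideal.span {MvPowerSeries.C ϖ} ⊔ (S.stageRings.level hdist hr 0 (Nat.zero_le _)).c ⊔ LX.c

/-- **The step of the tower.** -/
def StepData.towerStep {n : ℕ} (hn : ∀ q ∈ Q, p ^ n ∣ q - 1) (LT : TwinLevelData S hdist hr n) :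
    TowerStep Sys (B.towerBottom r) Q n where
  J := S.R.G.J
  U := S.R.GU.J
  X := S.R.GX.J
  pU := S.R.pU
  pU_alg := S.R.pU_alg
  pU_red := S.R.pU_red
  pU_surjective := S.R.pU_surjective
  pX := S.R.pX
  pX_alg := S.R.pX_alg
  pX_red := S.R.pX_red
  pX_surjective := S.R.pX_surjective
  ℓ := S.R.G.lift
  gen := S.R.G.gen
  det := S.R.det D.p_mem (memberLift_det (plainData hT hQ) (avoidChain hT hQ)
    (twinElem hT hQ ∅) (twinElem_ne hT hQ ∅) P.pt P.det)
  cond := S.condJ hdist
  unramified := S.R.unramified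
    fun j x hx hv hxQ A hA => stepLift_unramified hT hQ P j x hx hv hxQ A hA
  reducedU := S.R.reducedU fun k =>
    isReduced_memberU (plainData hT hQ) (avoidChain hT hQ) (twinElem hT hQ ∅)
      (twinElem_ne hT hQ ∅) k
  reducedX := S.R.reducedX fun k =>
    isReduced_memberX (plainData hT hQ) (avoidChain hT hQ) (twinElem hT hQ ∅)
      (twinElem_ne hT hQ ∅) (E := E) k
  unip i := S.R.unip _ (stepLift_unipotent hT hQ P i)
  char i := S.R.char D.p_mem (memberLift_det (plainData hT hQ) (avoidChain hT hQ)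
    (twinElem hT hQ ∅) (twinElem_ne hT hQ ∅) P.pt P.det) St i fun _ => twin_prod hT hQ ∅ i
  π := S.π
  π_alg := S.π_alg
  L := S.levels hdist hr
  LX := LT.LX
  π_eq := S.levels_π hdist hr
  small := S.levels_small hdist hr hn
  smallX := LT.small
  scalar := S.levels_scalar hdist hr
  scalarX := LT.scalar
  congr := by
    rw [StepData.levels_of_le S hdist hr 0 (Nat.zero_le _)]
    exact LT.congr
  vanish := by
    intro f j
    rw [StepData.levels_of_le S hdist hr 0 (Nat.zero_le _), S.flipA_pushU hdist f]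
    exact S.vanishU hdist hr f j
  vanishX := by
    intro f j
    rw [S.flipA_pushX hdist f]
    exact S.vanishX hdist f j
  flip := by
    intro f ha
    rw [StepData.levels_of_le S hdist hr _ f.2, StepData.levels_of_le S hdist hr _ f.2.le]
    simp only [S.flipA_pushU hdist f]
    exact S.nonempty_flip hdist hr f fun u => S.flipA_mem hdist f u

end Fermat.Agent.Root.Patched
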