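import Fermat.Agent.Root.Patched.TowerStepStages

/-!
# The local conditions on the rings of one step

The conditions of all types hold on the glued rings of a step, and the flip conditions on the
stages and on the twin.
-/

set_option autoImplicit false

noncomputable section

namespace Fermat.Agent.Root.Patched

open IsLocalRing Polynomial Fermat.Agent.Deformation Fermat.Agent.GammaH Fermat.Agent.TW
  Fermat.Agent.IharaTW

local notation "ℚbar" => AlgebraicClosure ℚ

section Glue

variable {O : Type} [CommRing O] [IsDomain O] [IsDiscreteValuationRing O] {p : ℕ}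

/-- The flip condition passes to the members of a glued ring. -/
theorem Glued.flipCond_member {ρbar : GQ →* M2 (ResidueField O)} {Sys : LocalSystem O ρbar p}
    (f : Fin Sys.s) {ι : Type} {S : ι → TestRing O} {ℓ : ∀ i, Lift ρbar (S i)} (G : Glued ℓ)
    (hG : Sys.flipCond f G.J G.lift) (i : ι) : Sys.flipCond f (S i) (ℓ i) := by
  refine (Sys.flipClosed f).conj (S i) (G.lift.push (G.pr i) (G.pr_red i)) (ℓ i) (G.U i)⁻¹ ?_
    (fun g => ?_) ((Sys.flipClosed f).push G.J (S i) (G.pr i) (G.pr_alg i) (G.pr_red i) G.lift _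
      (fun g => Lift.push_M _ _ _ g) hG)
  · have h := congrArg (fun M : M2 (S i).R => M.map (S i).red) (G.U i).mul_inv
    rwa [Matrix.map_mul, G.U_red, one_mul, Matrix.map_one _ (map_zero _) (map_one _)] at h
  · rw [Lift.push_M, G.conj i g, inv_inv, mul_assoc _ _ (G.U i : M2 (S i).R),
      mul_assoc _ _ (G.U i : M2 (S i).R), Units.inv_mul, mul_one, ← mul_assoc, Units.inv_mul,
      one_mul]

end Glue

variable {O : Type} [CommRing O] [IsDomain O] [IsDiscreteValuationRing O]
  [IsAdicComplete (maximalIdeal O) O] [Finite (ResidueField O)] [CharZero O]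
  {p : ℕ} [Fact p.Prime] {W : WeierstrassCurve ℤ} {D : ResidualData O p W}
  {Sys : LocalSystem O D.ρbar p} {St : StdData Sys D.ζ} {N : ℕ}
  {hT : TowerHyp D Sys St N} [NeZero (inputN₀ N ∅)] {E : Type} {P : PointFamily Sys E}
  {B : BottomRings hT P} {Q : Finset ℕ} {hQ : AuxSet Sys Q} [NeZero (inputN₀ N Q)]
  [Fintype E] (S : StepData B hQ)
  (hdist : ∀ q ∈ Q, ∀ A : ValuationSubring ℚbar, A.LiesOverPrime q → ∀ σ : GQ,
    A.IsFrobeniusAt σ q → ∃ α β : ResidueField O, α ≠ β ∧
      (D.ρbar σ).charpoly = (X - C α) * (X - C β))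

include hdist in
/-- All types hold on the glued ring of a step. -/
theorem StepData.condJ (v : Sys.Place) : Sys.Cond v S.R.G.J S.R.G.lift :=
  S.R.cond hT.ne_two D.p_mem (stepTypes hT hQ P hdist) v

include hdist in
/-- The flip conditions on the ring of the stages. -/
theorem StepData.flipCondU (f : Fin Sys.s) : Sys.flipCond f S.R.GU.J S.R.GU.lift :=
  (Sys.flipClosed f).push S.R.G.J S.R.GU.J S.R.pU S.R.pU_alg S.R.pU_red S.R.G.lift S.R.GU.lift
    S.R.lift_U (S.condJ hdist (.inr (.inl f)))

include hdist in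
/-- The flip conditions on the ring of the twin. -/
theorem StepData.flipCondX (f : Fin Sys.s) : Sys.flipCond f S.R.GX.J S.R.GX.lift :=
  (Sys.flipClosed f).push S.R.G.J S.R.GX.J S.R.pX S.R.pX_alg S.R.pX_red S.R.G.lift S.R.GX.lift
    S.R.lift_X (S.condJ hdist (.inr (.inl f)))

include hdist in
/-- The coordinate `a` lies in the maximal ideal. -/
theorem StepData.flipA_mem (f : Fin Sys.s) (_u : Unit) :
    Sys.flipA f S.R.GU.J S.R.GU.lift ∈ maximalIdeal S.R.GU.J.R :=
  (Sys.flipC f).mem _ _ (S.flipCondU hdist f) (.inl none)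

omit [Fintype E] in
/-- The pushed lift to the ring of the stages has the matrices of the glued one. -/
theorem StepData.pushU_eq (g : GQ) :
    (S.R.G.lift.push S.R.pU S.R.pU_red).M g = S.R.GU.lift.M g := S.R.push_U g

include hdist in
/-- The coordinate `a` at a stage. -/
theorem StepData.pr_flipA (f : Fin Sys.s) (i : ℕ) (hi : i ≤ Sys.s) :
    S.R.GU.pr (.inl ⟨i, Nat.lt_succ_of_le hi⟩) (Sys.flipA f S.R.GU.J S.R.GU.lift) =
      Sys.flipA f ((plainData hT hQ).stage i hi).ring ((plainData hT hQ).stage i hi).lift :=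
  S.R.GU.flipA_member f (S.flipCondU hdist f) (.inl ⟨i, Nat.lt_succ_of_le hi⟩)

include hdist in
/-- The coordinate `a` at a point. -/
theorem StepData.point_flipA (f : Fin Sys.s) (e : E) :
    B.point e (S.π (Sys.flipA f S.R.GU.J S.R.GU.lift)) =
      Sys.flipA f (TestRing.self O) (P.pt e) :=
  (S.π_point e _).trans (S.R.GU.flipA_member f (S.flipCondU hdist f) (.inr e))

include S hdist in
/-- The flip condition on a stage. -/
theorem StepData.flipCond_stage (f : Fin Sys.s) (i : ℕ) (hi : i ≤ Sys.s) :
    Sys.flipCond f ((plainData hT hQ).stage i hi).ring ((plainData hT hQ).stage i hi).lift := by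
  exact S.R.GU.flipCond_member f (S.flipCondU hdist f) (.inl ⟨i, Nat.lt_succ_of_le hi⟩)

end Fermat.Agent.Root.Patched
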