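import Fermat.Agent.Root.Patched.TowerStepCond
import Fermat.Agent.Root.Patched.TowerLocal
import Fermat.Agent.Root.Patched.TowerFlipMember
import Fermat.Agent.Root.Patched.TowerFamily
import Fermat.Agent.Elem.CuspWeightTwo

/-!
# The flips on the rings of one step

Scaling at a flip place, vanishing at the roots of the flip determinant, and the degeneracy data
of a flip (`StepData.nonempty_flip`).
-/

set_option autoImplicit false

noncomputable section

namespace Fermat.Agent.Root.Patched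

open IsLocalRing Polynomial Fermat.Agent.Deformation Fermat.Agent.GammaH Fermat.Agent.TW
  Fermat.Agent.IharaTW

local notation "ℚbar" => AlgebraicClosure ℚ

attribute [local instance] testAlgebra

section Aux

variable {O : Type} [CommRing O] [IsDomain O] [IsDiscreteValuationRing O]
  [IsAdicComplete (maximalIdeal O) O] [Finite (ResidueField O)] [CharZero O]
  {p : ℕ} [Fact p.Prime]

omit [IsAdicComplete (maximalIdeal O) O] [Finite (ResidueField O)] [CharZero O]
    [Fact (Nat.Prime p)] in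
/-- The value of the series of a flip passes along maps of test rings. -/
theorem map_flipT {ρbar : GQ →* M2 (ResidueField O)} {Sys : LocalSystem O ρbar p} (f : Fin Sys.s)
    {A A' : TestRing O} (r : Lift ρbar A) (r' : Lift ρbar A') (φ : A.R →+* A'.R)
    (hφ : φ.comp A.alg = A'.alg) (hred : A'.red.comp φ = A.red)
    (h : φ (Sys.flipA f A r) = Sys.flipA f A' r')
    (ha : ∀ _ : Unit, Sys.flipA f A r ∈ maximalIdeal A.R)
    (ha' : ∀ _ : Unit, Sys.flipA f A' r' ∈ maximalIdeal A'.R) :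
    φ (flipT f r ha) = flipT f r' ha' :=
  map_eval φ (TestRing.map_maximalIdeal φ hred) A.alg A'.alg _ _ ha ha'
    (fun c => RingHom.congr_fun hφ c)
    (fun c hc => by rw [← A.ker_red, A.red_alg, residue_eq_zero_iff]; exact hc) (fun _ => h) _

variable {W : WeierstrassCurve ℤ} {D : ResidualData O p W} {Sys : LocalSystem O D.ρbar p}
  {St : StdData Sys D.ζ} {N : ℕ}

omit [CharZero O] in
/-- There is no residual newform of level one. -/
theorem TowerHyp.two_le_inputN₀ (hT : TowerHyp D Sys St N) {Q : Finset ℕ} (hQ : AuxSet Sys Q) :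
    2 ≤ inputN₀ N Q := by
  obtain ⟨M, hM, f, m, hf, -⟩ := hT.level.residual
  have hd : M ∣ inputN₀ N Q := hM.trans (dvd_mul_right _ _)
  refine le_trans ?_ (Nat.le_of_dvd (Nat.pos_of_ne_zero (hT.inputN₀_ne hQ)) hd)
  rcases M with _ | _ | M
  · exact absurd (zero_dvd_iff.1 hd) (hT.inputN₀_ne hQ)
  · exact absurd (Elem.cuspForm_two_eq_zero_of_index_lt 1
      (by rw [Elem.index_Gamma0_one]; norm_num) f) hf.ne_zero
  · omega

end Aux

variable {O : Type} [CommRing O] [IsDomain O] [IsDiscreteValuationRing O]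
  [IsAdicComplete (maximalIdeal O) O] [Finite (ResidueField O)] [CharZero O]
  {p : ℕ} [Fact p.Prime] {W : WeierstrassCurve ℤ} {D : ResidualData O p W}
  {Sys : LocalSystem O D.ρbar p} {St : StdData Sys D.ζ} {N : ℕ}
  {hT : TowerHyp D Sys St N} [NeZero (inputN₀ N ∅)] {E : Type} {P : PointFamily Sys E}
  {B : BottomRings hT P} {Q : Finset ℕ} {hQ : AuxSet Sys Q} [NeZero (inputN₀ N Q)]
  [Fintype E] (S : StepData B hQ)
  (hdist : ∀ q ∈ Q, ∀ A : ValuationSubring ℚbar, A.LiesOverPrime q → ∀ σ : GQ,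
    A.IsFrobeniusAt σ q → ∃ α β : ResidueField O, α ≠ β ∧
      (D.ρbar σ).charpoly = (X - C α) * (X - C β))
  {r : ℕ} (hr : Q.card = r)

include hdist in
/-- The value of the series at a stage. -/
theorem StepData.pr_flipT (f : Fin Sys.s)
    (ha : ∀ _ : Unit, Sys.flipA f S.R.GU.J S.R.GU.lift ∈ maximalIdeal S.R.GU.J.R)
    (i : ℕ) (hi : i ≤ Sys.s)
    (ha' : ∀ _ : Unit, Sys.flipA f ((plainData hT hQ).stage i hi).ring
      ((plainData hT hQ).stage i hi).lift ∈
        maximalIdeal ((plainData hT hQ).stage i hi).ring.R) :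
    S.stageRings.pr i hi (flipT f S.R.GU.lift ha) =
      flipT f ((plainData hT hQ).stage i hi).lift ha' :=
  map_flipT f S.R.GU.lift ((plainData hT hQ).stage i hi).lift
    (S.R.GU.pr (.inl ⟨i, Nat.lt_succ_of_le hi⟩))
    (S.R.GU.pr_alg (.inl ⟨i, Nat.lt_succ_of_le hi⟩))
    (S.R.GU.pr_red (.inl ⟨i, Nat.lt_succ_of_le hi⟩)) (S.pr_flipA hdist f i hi) ha ha'

include hdist in
/-- The scaling at a stage, through the ring of the stages. -/
theorem StepData.exists_scaling (f : Fin Sys.s)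
    (ha : ∀ _ : Unit, Sys.flipA f S.R.GU.J S.R.GU.lift ∈ maximalIdeal S.R.GU.J.R)
    (hpa : ∀ j hj, (S.stageRings.pr j hj).comp S.R.GU.J.alg =
      ((plainData hT hQ).stage j hj).ring.alg)
    (i : ℕ) (hi : i ≤ Sys.s) {q : ℕ} (hqf : Sys.q (.inr (.inl f)) = q) (hq : q.Prime)
    (hqL : ¬ q ∣ (plainData hT hQ).C.lvl i) :
    let K := plainData hT hQ
    ∃ w wi : HeckeO (K.C.lvl i) (K.C.grp i) (↑K.C.S : Set ℕ) O, w * wi = 1 ∧
      (∀ v : K.F.space i hi,
        heckeTH O O hq hqL (actO (K.C.neg_mem i) O w (v : H1 (K.C.lvl i) (K.C.grp i) O O)) =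
          (K.memberAct S.R.GU.J S.stageRings.pr hpa i hi (flipT f S.R.GU.lift ha) v :
            H1 (K.C.lvl i) (K.C.grp i) O O)) ∧
      ∀ x, K.F.E i hi x = x → actO (K.C.neg_mem i) O w
        (diamondH O O (primeUnit hq hqL) (actO (K.C.neg_mem i) O w x)) = x := by
  intro K
  have hc := S.flipCond_stage hdist f i hi
  obtain ⟨w, wi, h1, h2, h3⟩ := exists_flipScaling hT hQ (Finset.empty_subset (avoidSet Sys)) ∅
    le_rfl f hi hqf hq hqL hc fun _ => (Sys.flipC f).mem _ _ hc _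
  refine ⟨w, wi, h1, fun v => (h2 v).trans ?_, h3⟩
  exact congrArg (fun c => (((K.cut i hi).actR c) v : H1 (K.C.lvl i) (K.C.grp i) O O))
    (S.pr_flipT hdist f ha i hi fun _ => (Sys.flipC f).mem _ _ hc _).symm

/-- **Nothing is lost at the roots of the flip determinant at stage `0`.** -/
theorem StepData.vanishU (f : Fin Sys.s) (j : Fin (Sys.m f)) (y : S.R.GU.J.R)
    (hy : (S.stageRings.level hdist hr 0 (Nat.zero_le _)).act
      (y * (Sys.flipA f S.R.GU.J S.R.GU.lift - S.R.GU.J.alg (Sys.c f j))) = 0) :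
    (S.stageRings.level hdist hr 0 (Nat.zero_le _)).act y = 0 := by
  set K := plainData hT hQ
  set q := Sys.q (.inr (.inl f))
  have hpa : ∀ j hj, (S.stageRings.pr j hj).comp S.R.GU.J.alg = (K.stage j hj).ring.alg :=
    fun j hj => RingHom.ext (S.stageRings.pr_alg j hj)
  have hqL : ¬ q ∣ K.C.lvl 0 := hT.not_dvd_inputN₀_flip hQ f
  have ha := S.flipA_mem hdist f
  obtain ⟨w, wi, hw, hTw, hD⟩ :=
    S.exists_scaling hdist f ha hpa 0 (Nat.zero_le _) rfl (Sys.q_prime _) hqL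
  let : Fintype (S.stageRings.setup hdist hr).A₀.G := Fintype.ofFinite _
  have := (S.stageRings.setup hdist hr).isLocalRing
  refine ChainData.lvlU_vanish K _ _ _ _ _ _ _ _ _ _ _ _ _ _ _ S.R.GU.lift 0 (Nat.zero_le _) f ha
    (fun v hv => ?_) j y hy
  exact Cut.det_injective (K.cut 0 (Nat.zero_le _)) (K.F.piece 0 (Nat.zero_le _)).idem
    (Sys.q_prime _) hqL (K.memberAct S.R.GU.J S.stageRings.pr hpa 0 (Nat.zero_le _))
    (flipT f S.R.GU.lift ha)
    (K.exists_actO_eq_memberAct S.R.GU.J S.stageRings.pr hpa 0 (Nat.zero_le _) _)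
    w wi hw hTw hD v hv

include hdist in
/-- **The same on the ring of the twin.** -/
theorem StepData.vanishX (f : Fin Sys.s) (j : Fin (Sys.m f)) (y : S.R.GX.J.R)
    (hy : y * (Sys.flipA f S.R.GX.J S.R.GX.lift - S.R.GX.J.alg (Sys.c f j)) = 0) : y = 0 := by
  set T := twinTop hT hQ ∅
  let z := twinElem hT hQ ∅
  have hz := twinElem_ne hT hQ ∅
  let q := Sys.q (.inr (.inl f))
  have hqL : ¬ q ∣ T.L := hT.not_dvd_inputN₀_flip hQ f
  have hcT : Sys.flipCond f T.ring T.lift :=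
    Glued.flipCond_member f S.R.G (S.condJ hdist (.inr (.inl f))) (.inl (.inr (.inl ())))
  have haT : ∀ _ : Unit, Sys.flipA f T.ring T.lift ∈ maximalIdeal T.ring.R :=
    fun _ => (Sys.flipC f).mem _ _ hcT _
  let φ : T.ring.R →+* (T.sub z hz).ring.R := (T.C.toSub z hz).toRingHom
  let π : S.R.GX.J.R →+* (T.sub z hz).ring.R := S.R.GX.pr ()
  have hφA : Sys.flipA f (T.sub z hz).ring (T.sub z hz).lift = φ (Sys.flipA f T.ring T.lift) :=
    flipA_push f φ (RingHom.ext fun a => (T.C.toSub z hz).commutes a)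
      (RingHom.ext fun x => T.C.red_toSub z hz x) T.lift _ (T.sub_lift_M z hz) hcT
  have hπA : π (Sys.flipA f S.R.GX.J S.R.GX.lift) = φ (Sys.flipA f T.ring T.lift) :=
    (S.R.GX.flipA_member f (S.flipCondX hdist f) ()).trans hφA
  have hπc : π (S.R.GX.J.alg (Sys.c f j)) = φ (T.ring.alg (Sys.c f j)) :=
    (RingHom.congr_fun (S.R.GX.pr_alg ()) (Sys.c f j)).trans
      ((T.C.toSub z hz).commutes (Sys.c f j)).symm
  refine S.R.GX.injective y fun _ => ?_
  show π y = 0
  obtain ⟨w, hw⟩ := Ideal.Quotient.mk_surjective (I := (T.C.sub z hz).kerIdeal) (π y)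
  let y₀ : T.ring.R := Ideal.Quotient.mk T.C.kerIdeal w
  have hy₀ : φ y₀ = π y := hw
  have h1 : φ (y₀ * (Sys.flipA f T.ring T.lift - T.ring.alg (Sys.c f j))) = 0 := by
    rw [map_mul φ, map_sub φ, hy₀, ← hπA, ← hπc, ← map_sub π, ← map_mul π, hy, map_zero]
  have h2 := (TStage.toSub_eq_zero_iff T z hz _).1 h1
  rw [← hy₀]
  refine (TStage.toSub_eq_zero_iff T z hz y₀).2 ?_
  obtain ⟨wv, wi, hwi, hTw, hD⟩ := exists_flipScaling hT hQ (Finset.Subset.refl (avoidSet Sys)) ∅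
    (Nat.zero_le Sys.s) f (Nat.zero_le _) rfl (Sys.q_prime _) hqL hcT haT
  let Φ : T.ring.R →ₐ[O] Module.End O (LinearMap.range T.C.E) :=
    { toRingHom := T.C.actR.toRingHom, commutes' := fun c => T.C.actR.commutes c }
  refine eq_zero_of_mul_flipA_sub (V := ↥(LinearMap.range T.C.E)) f T.lift haT Φ
    T.C.actR_injective (fun v hv => ?_) j
    ((mul_right_comm _ _ _).trans h2)
  obtain ⟨zt, hzt⟩ := Ideal.Quotient.mk_surjective (I := T.C.kerIdeal) (flipT f T.lift haT)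
  exact Cut.det_injective T.C
    ((inputData hT hQ (Finset.Subset.refl (avoidSet Sys)) ∅ (Nat.zero_le Sys.s)).F.piece 0
      (Nat.zero_le _)).idem
    (Sys.q_prime _) hqL Φ (flipT f T.lift haT)
    ⟨zt, fun x => by rw [← hzt]; rfl⟩ wv wi hwi hTw hD v hv

/-- **Degeneracy data at a flip.** -/
theorem StepData.nonempty_flip (f : Fin Sys.s)
    (ha : ∀ _ : Unit, Sys.flipA f S.R.GU.J S.R.GU.lift ∈ maximalIdeal S.R.GU.J.R) :
    Nonempty (FlipLevel (S.stageRings.level hdist hr ((f : ℕ) + 1) f.2)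
      (S.stageRings.level hdist hr f f.2.le)
      (Ideal.span {∏ j, (Sys.flipA f S.R.GU.J S.R.GU.lift - S.R.GU.J.alg (Sys.c f j))})
      (flipMat (Sys.q (.inr (.inl f))) (LocalRing.eval S.R.GU.J.alg
        (fun _ => Sys.flipA f S.R.GU.J S.R.GU.lift) ha (Sys.Tr f)))) := by
  set K := plainData hT hQ
  have hpa : ∀ j hj, (S.stageRings.pr j hj).comp S.R.GU.J.alg = (K.stage j hj).ring.alg :=
    fun j hj => RingHom.ext (S.stageRings.pr_alg j hj)
  have hf : (f : ℕ) < K.C.s := f.2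
  have hqf : Sys.q (.inr (.inl f)) = K.C.q f := (flipPrime_eq Sys f).symm
  obtain ⟨w, wi, hw, hTw, hD⟩ :=
    S.exists_scaling hdist f ha hpa f hf.le hqf (K.C.prime f) (K.C.not_dvd f hf)
  obtain ⟨l, hl, hlS, -, hl1, -, htr⟩ := exists_input_auxPrime hT hQ ∅
  obtain ⟨hl1', hθ⟩ := input_auxPrime_spec hT hQ (Finset.empty_subset (avoidSet Sys)) ∅
    le_rfl hl hl1 htr
  have hl0 : ¬ l ∣ K.C.N₀ := fun h =>
    hlS (mem_inputS_of_dvd ∅ (Nat.zero_le _) hl h (hT.inputN₀_ne hQ))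
  let : Fintype (S.stageRings.setup hdist hr).A₀.G := Fintype.ofFinite _
  have := (S.stageRings.setup hdist hr).isLocalRing
  refine ChainData.nonempty_flip K _ _ _ _ _ _ _ _ _ _ _ _ _ _ _ S.R.GU.lift D.p_mem hT.ne_two
    S.genU (fun i hi σ => S.pr_trace i hi σ) hl hlS hl0 (hθ hl0 hlS) hl1'
    (fun u => ⟨_, by
      rw [← hT.two_mul_inputh Q]
      exact input_odd_mem hT hQ (Finset.empty_subset (avoidSet Sys)) ∅ le_rfl u⟩)
    (hT.two_le_inputN₀ hQ) f hf hqf.symm ha w wi hw hTw hD fun z hz => ?_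
  have : Fact (CuspForm.HasIntegralStructure (K.C.lvl f * K.C.q f * K.R) 2) :=
    ⟨MFCore.hasIntegralStructure _ 2⟩
  have hqR : ¬ K.C.q f ∣ K.R := hqf ▸ plain_place_ne hT hQ (.inl f) (Finset.empty_subset _)
  have hc := S.flipCond_stage hdist f (f + 1) hf
  obtain ⟨u, -, hdet⟩ := exists_det_eq_prod f S.R.GU.lift ha
  have hkey := Cut.actR_prod_flip_eq_zero (N := K.C.lvl f) (q := K.C.q f) (H₀ := K.C.grp f)
    (K.C.not_dvd f hf) (K.cut (f + 1) hf) (K.hyp (f + 1) hf) (K.stage (f + 1) hf).D St f hqf hqR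
    hc z hz
  let φ : S.R.GU.J.R →+* (K.stage (f + 1) hf).ring.R := S.stageRings.pr (f + 1) hf
  show K.stageAct (f + 1) hf
    (φ ((((Sys.q (.inr (.inl f)) : ℕ) : S.R.GU.J.R) + 1) ^ 2 - flipT f S.R.GU.lift ha ^ 2)) z = 0
  have hj : ∀ j : Fin (Sys.m f), φ (Sys.flipA f S.R.GU.J S.R.GU.lift - S.R.GU.J.alg (Sys.c f j)) =
      Sys.flipA f (K.stage (f + 1) hf).ring (K.stage (f + 1) hf).lift -
        (K.stage (f + 1) hf).ring.alg (Sys.c f j) := fun j =>
    (map_sub φ _ _).trans (congrArg₂ (· - ·) (S.pr_flipA hdist f (f + 1) hf)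
      (RingHom.congr_fun (hpa (f + 1) hf) (Sys.c f j)))
  rw [hdet, map_mul φ, map_prod φ, Finset.prod_congr rfl fun j _ => hj j, map_mul,
    Module.End.mul_apply]
  exact (congrArg _ hkey).trans (map_zero _)

end Fermat.Agent.Root.Patched
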