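import Fermat.Agent.Root.Patched.TowerLevelStage
import Fermat.Agent.Root.Patched.TowerMemberFlat
import Fermat.Agent.Root.Patched.TowerTwin
import Fermat.Agent.Root.Patched.TowerHarmless

/-!
# The rings of one step of a tower from `TowerHyp`

For auxiliary primes `Q` the members are the stages of the chain, the top of the twin, the twin and
a family of points; the ring fields of a tower follow.
-/

set_option autoImplicit false

noncomputable section

namespace Fermat.Agent.Root.Patched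

open IsLocalRing Fermat.Agent.Deformation Fermat.Agent.GammaH Fermat.Agent.TW Fermat.Agent.IharaTW

local notation "ℚbar" => AlgebraicClosure ℚ

variable {O : Type} [CommRing O] [IsDomain O] [IsDiscreteValuationRing O]
  [IsAdicComplete (maximalIdeal O) O] [Finite (ResidueField O)] [CharZero O]
  {p : ℕ} [Fact p.Prime] {W : WeierstrassCurve ℤ} {D : ResidualData O p W}

/-- The points carried along by a tower. -/
structure PointFamily (Sys : LocalSystem O D.ρbar p) (E : Type) where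
  pt : E → Lift D.ρbar (TestRing.self O)
  det : ∀ e, DetCyclotomic p (TestRing.self O) (pt e)
  cond : ∀ e v, Sys.Cond v (TestRing.self O) (pt e)
  avoid : ∀ e i, Unipotent (Sys.P (.inl i)) (TestRing.self O) (pt e)
  unramified : ∀ e (x : ℕ), x.Prime → (∀ v, Sys.q v ≠ x) →
    ∀ A : ValuationSubring ℚbar, A.LiesOverPrime x → ∀ σ ∈ A.inertiaSubgroupIn ℚ, (pt e).M σ = 1
  /-- some lift has the flip condition at a flip at `p` -/
  flipRef : ∀ f, Sys.q (.inr (.inl f)) = p → ∃ r₀, Sys.flipCond f (TestRing.self O) r₀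

/-- The point of the curve. -/
def PointFamily.point
    (Sys : LocalSystem O D.ρbar p) (St : StdData Sys D.ζ)
    (hpt : ∀ v, Sys.Cond v (TestRing.self O) D.point)
    (havoid : ∀ i, Unipotent (Sys.P (.inl i)) (TestRing.self O) D.point)
    (hbad : ∀ q : ℕ, q.Prime → (q : ℤ) ∣ W.Δ → ∃ v, Sys.q v = q) : PointFamily Sys Unit where
  pt _ := D.point
  det _ := D.point_det
  cond _ := hpt
  avoid _ := havoid
  unramified _ x hx hv A hA σ hσ := by
    obtain ⟨v, hvp⟩ := St.exists_p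
    have hxp : x ≠ p := fun e => hv v (hvp.trans e.symm)
    exact (D.point_good x hx (fun h => by obtain ⟨w, hw⟩ := hbad x hx h; exact hv w hw) hxp A hA).1
      σ hσ
  flipRef f _ := ⟨D.point, hpt (.inr (.inl f))⟩

/-- No point. -/
def PointFamily.none (Sys : LocalSystem O D.ρbar p) (hs : Sys.s = 0) : PointFamily Sys Empty where
  pt e := e.elim
  det e := e.elim
  cond e := e.elim
  avoid e := e.elim
  unramified e := e.elim
  flipRef f := absurd f.2 (by omega)

variable {Sys : LocalSystem O D.ρbar p} {St : StdData Sys D.ζ} {N : ℕ}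
  (hT : TowerHyp D Sys St N) {Q : Finset ℕ} (hQ : AuxSet Sys Q)

/-- The chain of the top of the twin of a step. -/
abbrev avoidChain : ChainData O p D.ρbar :=
  inputData hT hQ (Finset.Subset.refl (avoidSet Sys)) ∅ (Nat.zero_le Sys.s)

variable [NeZero (inputN₀ N Q)] [Fintype (twinAux hT hQ).G] {E : Type}

/-- The members of a step. -/
abbrev stepLift (pt : E → Lift D.ρbar (TestRing.self O)) :
    ∀ j, Lift D.ρbar (memberRing (plainData hT hQ) (avoidChain hT hQ) (twinElem hT hQ ∅)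
      (twinElem_ne hT hQ ∅) (E := E) j) :=
  memberLift (plainData hT hQ) (avoidChain hT hQ) (twinElem hT hQ ∅) (twinElem_ne hT hQ ∅) pt

/-- The rings of a step. -/
abbrev StepRings (pt : E → Lift D.ρbar (TestRing.self O)) :=
  MemberRings (stepLift hT hQ pt) (memberU (plainData hT hQ)) (memberX (plainData hT hQ))

omit [NeZero (inputN₀ N Q)] [Fintype (twinAux hT hQ).G] [CharZero O] in
include hT hQ in
theorem plain_place_ne (v : Fin Sys.s ⊕ Fin Sys.t) {A : Finset ℕ} (hA : A ⊆ avoidSet Sys) :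
    ¬ Sys.q (.inr v) ∣ inputR Q A := fun h => by
  obtain ⟨x, hx, hd⟩ := (Sys.q_prime (.inr v)).prime.exists_mem_finset_dvd h
  have e := (Nat.prime_dvd_prime_iff_eq (Sys.q_prime (.inr v)) (hT.prime_mem hQ hA hx)).1 hd
  rcases Finset.mem_union.1 hx with hx | hx
  · exact hQ.notPlace x hx _ e
  · obtain ⟨i, hi⟩ := mem_avoidSet.1 (hA hx)
    exact Sum.inl_ne_inr (Sys.q_injective (hi.trans e.symm))

omit [NeZero (inputN₀ N Q)] [Fintype (twinAux hT hQ).G] in
/-- With a flat plain place at `p` the levels are prime to `p`. -/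
theorem not_p_dvd_lvl_of_flat (hfl : St.flat) {u : Fin Sys.t} (hu : Sys.q (.inr (.inr u)) = p)
    {A : Finset ℕ} (hA : A ⊆ avoidSet Sys) {s : ℕ} (hs : s ≤ Sys.s) {i : ℕ}
    (hi : i ≤ (inputData hT hQ hA ∅ hs).C.s) :
    ¬ p ∣ (inputData hT hQ hA ∅ hs).C.lvl i * (inputData hT hQ hA ∅ hs).R := fun h => by
  rcases (Fact.out : p.Prime).dvd_mul.1 h with h | h
  · refine input_not_dvd hT hQ hA ∅ hs hi (fun hpN => ?_) (fun f _ hf => ?_) h
    · obtain ⟨u', -, hnfl⟩ := hT.p_dvd_iff.1 hpN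
      exact hnfl hfl
    · exact Sum.inr_ne_inl (Sum.inr_injective (Sys.q_injective (hu.trans hf.symm)))
  · exact not_p_dvd_inputR hT hQ hA h

variable (P : PointFamily Sys E)

/-- **The types of the members.** -/
theorem stepTypes
    (hdist : ∀ q ∈ Q, ∀ A : ValuationSubring ℚbar, A.LiesOverPrime q → ∀ σ : GQ,
      A.IsFrobeniusAt σ q → ∃ α β : ResidueField O, α ≠ β ∧ (D.ρbar σ).charpoly =
        (Polynomial.X - Polynomial.C α) * (Polynomial.X - Polynomial.C β)) :
    MemberTypes St (stepLift hT hQ P.pt) := by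
  refine memberTypes _ _ _ _ P.pt D.p_mem St
    (squarefree_inputData_lvl hT hQ _ ∅ _ le_rfl) (squarefree_inputData_lvl hT hQ _ ∅ _ le_rfl)
    (fun v => plain_place_ne hT hQ v (Finset.empty_subset (avoidSet Sys)))
    (fun v => plain_place_ne hT hQ v (Finset.Subset.refl (avoidSet Sys))) P.cond P.det
    (fun f hf i hi => ?_) (fun f hf => ?_) (fun hfl u hu i hi => ?_) (fun hfl u hu => ?_)
    (fun h u hu i hi => inputData_steinberg hT hQ _ ∅ _ hdist h u hu i hi)
    (fun h u hu => inputData_steinberg hT hQ _ ∅ _ hdist h u hu 0 (Nat.zero_le _))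
  · obtain ⟨r₀, hr₀⟩ := P.flipRef f hf
    exact inputData_flip_p hT hQ _ ∅ _ f hf hr₀ i hi
  · obtain ⟨r₀, hr₀⟩ := P.flipRef f hf
    exact inputData_flip_p hT hQ _ ∅ _ f hf hr₀ 0 (Nat.zero_le _)
  · exact Cut.lift_flat _ _ (not_p_dvd_lvl_of_flat hT hQ hfl hu _ _ hi)
  · exact Cut.lift_flat _ _
      (not_p_dvd_lvl_of_flat hT hQ hfl hu _ _ (Nat.zero_le _))

include hQ in
omit [NeZero (inputN₀ N Q)] [Fintype (twinAux hT hQ).G] in
/-- A prime outside the level, the places and `Q` divides no level. -/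
theorem not_dvd_lvl_of_notPlace {x : ℕ} (hx : x.Prime) (hv : ∀ v, Sys.q v ≠ x) (hxQ : x ∉ Q)
    (hxN : ¬ x ∣ N)
    {A : Finset ℕ} (hA : A ⊆ avoidSet Sys) {s : ℕ} (hs : s ≤ Sys.s) {i : ℕ}
    (hi : i ≤ (inputData hT hQ hA ∅ hs).C.s) :
    ¬ x ∣ (inputData hT hQ hA ∅ hs).C.lvl i * (inputData hT hQ hA ∅ hs).R := fun h => by
  have hN : ¬ x ∣ inputN₀ N Q := fun h => by
    rcases hx.dvd_mul.1 h with h | h
    · exact hxN h
    · obtain ⟨y, hy, hd⟩ := hx.prime.exists_mem_finset_dvd h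
      exact hxQ ((Nat.prime_dvd_prime_iff_eq hx (hQ.prime y hy)).1 hd ▸ hy)
  rcases hx.dvd_mul.1 h with h | h
  · rcases dvd_or_eq_of_dvd_chainLvl (flipPrime_prime Sys) hx h with h | ⟨j, hj, e⟩
    · exact hN h
    · rw [flipPrime, dif_pos (hj.trans_le (le_trans hi hs))] at e
      exact hv _ e.symm
  · exact hN (h.trans (inputR_dvd hT hQ hA))

omit [NeZero (inputN₀ N Q)] [Fintype (twinAux hT hQ).G] [CharZero O] in
include hT hQ in
/-- A prime outside the places and `Q` does not divide the modulus. -/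
theorem not_dvd_inputR_of_notPlace {x : ℕ} (hx : x.Prime) (hv : ∀ v, Sys.q v ≠ x) (hxQ : x ∉ Q)
    {A : Finset ℕ} (hA : A ⊆ avoidSet Sys) : ¬ x ∣ inputR Q A := fun h => by
  obtain ⟨y, hy, hd⟩ := hx.prime.exists_mem_finset_dvd h
  obtain rfl := (Nat.prime_dvd_prime_iff_eq hx (hT.prime_mem hQ hA hy)).1 hd
  rcases Finset.mem_union.1 hy with hy | hy
  · exact hxQ hy
  · obtain ⟨i, hi⟩ := mem_avoidSet.1 (hA hy)
    exact hv _ hi

omit [NeZero (inputN₀ N Q)] [Fintype (twinAux hT hQ).G] in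
/-- The squares of such primes divide no level. -/
theorem not_sq_dvd_lvl_of_notPlace {x : ℕ} (hx : x.Prime) (hv : ∀ v, Sys.q v ≠ x) (hxQ : x ∉ Q)
    {A : Finset ℕ} (hA : A ⊆ avoidSet Sys) {s : ℕ} (hs : s ≤ Sys.s) {i : ℕ}
    (hi : i ≤ (inputData hT hQ hA ∅ hs).C.s) :
    ¬ x ^ 2 ∣ (inputData hT hQ hA ∅ hs).C.lvl i * (inputData hT hQ hA ∅ hs).R :=
  not_sq_dvd_lvl_mul (squarefree_inputData_lvl hT hQ _ ∅ _ le_rfl) hx
    (not_dvd_inputR_of_notPlace hT hQ hx hv hxQ hA) hi

omit [IsAdicComplete (maximalIdeal O) O] [Finite (ResidueField O)] [CharZero O] in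
/-- Trivial inertia is unipotent. -/
theorem unipotent_of_eq_one {ρbar : GQ →* M2 (ResidueField O)} {A : ValuationSubring ℚbar}
    {S : TestRing O} {r : Lift ρbar S} (h : ∀ σ ∈ A.inertiaSubgroupIn ℚ, r.M σ = 1) :
    Unipotent A S r := fun σ hσ => by
  rw [h σ hσ, Matrix.charpoly_one, Fintype.card_fin]

/-- Inertia is trivial on the members outside the places and `Q`. -/
theorem stepLift_unramified (j : MemberIdx (plainData hT hQ) E) (x : ℕ) (hx : x.Prime)
    (hv : ∀ v, Sys.q v ≠ x) (hxQ : x ∉ Q) (A : ValuationSubring ℚbar) (hA : A.LiesOverPrime x) :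
    ∀ σ ∈ A.inertiaSubgroupIn ℚ, (stepLift hT hQ P.pt j).M σ = 1 := by
  obtain ⟨v, hvp⟩ := St.exists_p
  have hxp : x ≠ p := fun e => hv v (hvp.trans e.symm)
  by_cases hxN : x ∣ N
  · exact (hT.harmless_of_dvd hx hv hxN).eq_one hx D.p_mem
      (memberLift_det _ _ _ _ P.pt P.det j) hA
      (memberLift_unipotent _ _ _ _ P.pt hx hxp
        (fun i hi => not_sq_dvd_lvl_of_notPlace hT hQ hx hv hxQ _ _ hi)
        (not_sq_dvd_lvl_of_notPlace hT hQ hx hv hxQ _ _ (i := 0) (Nat.zero_le _)) A hA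
        (fun e => unipotent_of_eq_one (P.unramified e x hx hv A hA)) j)
  exact memberLift_unramified _ _ _ _ P.pt hx hxp
    (fun i hi => not_dvd_lvl_of_notPlace hT hQ hx hv hxQ hxN _ _ hi)
    (not_dvd_lvl_of_notPlace hT hQ hx hv hxQ hxN _ _ (i := 0) (Nat.zero_le _)) A hA
    (fun e => P.unramified e x hx hv A hA) j

/-- On the members of `U` inertia at the avoided primes is unipotent. -/
theorem stepLift_unipotent (i : Fin Sys.r) (k : Fin ((plainData hT hQ).C.s + 1) ⊕ E) :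
    Unipotent (Sys.P (.inl i)) (memberRing (plainData hT hQ) (avoidChain hT hQ) (twinElem hT hQ ∅)
      (twinElem_ne hT hQ ∅) (memberU (plainData hT hQ) k))
      (stepLift hT hQ P.pt (memberU (plainData hT hQ) k)) := by
  refine memberU_unipotent _ _ _ _ P.pt (Sys.q_prime (.inl i))
    (TowerHyp.avoid_ne_p St (mem_avoidSet.2 ⟨i, rfl⟩))
    (fun j hj => not_sq_dvd_lvl_mul (squarefree_inputData_lvl hT hQ _ ∅ _ le_rfl)
      (Sys.q_prime _) ?_ hj) _ (Sys.P_over _) (fun e => P.avoid e i) k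
  intro h
  obtain ⟨x, hx, hd⟩ := (Sys.q_prime (.inl i)).prime.exists_mem_finset_dvd h
  rw [Finset.union_empty] at hx
  exact hQ.notPlace x hx _ ((Nat.prime_dvd_prime_iff_eq (Sys.q_prime _) (hQ.prime x hx)).1 hd)

/-- The rings exist. -/
theorem nonempty_stepRings [Fintype E] : Nonempty (StepRings hT hQ P.pt) := by
  obtain ⟨-, hspan⟩ := rhobar_span hT.ne_two hT.ss hT.irr D
  have : Nonempty (MemberIdx (plainData hT hQ) E) := ⟨.inl (.inl 0)⟩
  have : Nonempty (Fin ((plainData hT hQ).C.s + 1) ⊕ E) := ⟨.inl 0⟩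
  exact nonempty_memberRings hT.ne_two D.p_mem hspan
    (memberRing_isFinite _ _ _ _) (memberLift_det _ _ _ _ P.pt P.det) _ _

end Fermat.Agent.Root.Patched
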