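import Fermat.Agent.Root.Patched.TowerBottom
import Fermat.Agent.Root.Patched.TowerBaseMap

/-!
# The ring of the stages of one step over the bottom of the tower

The rings of a step over the bottom (`nonempty_stepData`) and the ring of its stages, generated
by traces.
-/

set_option autoImplicit false
set_option genSizeOf false
set_option genInjectivity false

noncomputable section

namespace Fermat.Agent.Root.Patched

open IsLocalRing Polynomial Fermat.Agent.Deformation Fermat.Agent.GammaH Fermat.Agent.TW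
  Fermat.Agent.IharaTW

local notation "ℚbar" => AlgebraicClosure ℚ

variable {O : Type} [CommRing O] [IsDomain O] [IsDiscreteValuationRing O]
  [IsAdicComplete (maximalIdeal O) O] [Finite (ResidueField O)] [CharZero O]
  {p : ℕ} [Fact p.Prime] {W : WeierstrassCurve ℤ} {D : ResidualData O p W}
  {Sys : LocalSystem O D.ρbar p} {St : StdData Sys D.ζ} {N : ℕ}
  {hT : TowerHyp D Sys St N} [NeZero (inputN₀ N ∅)] {E : Type} {P : PointFamily Sys E}

/-- A step over the bottom: its rings and the maps of the stages to those at the bottom. -/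
structure StepData (B : BottomRings hT P) {Q : Finset ℕ} (hQ : AuxSet Sys Q)
    [NeZero (inputN₀ N Q)] where
  R : StepRings hT hQ P.pt
  desc : ∀ i (hi : i ≤ Sys.s),
    ((plainData hT hQ).stage i hi).C.Ring' →ₐ[O] ((baseData hT).stage i hi).C.Ring'
  desc_ker : ∀ i hi c, desc i hi c = 0 →
    ∀ v : LinearMap.range ((plainData hT hQ).stage i hi).C.E,
      (∀ a, ((plainData hT hQ).stage i hi).C.actR (((plainData hT hQ).stage i hi).C.dia a) v = v) →
      ((plainData hT hQ).stage i hi).C.actR c v = 0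
  rank : ∀ i hi, Module.finrank O (LinearMap.range ((plainData hT hQ).stage i hi).C.E) =
    Nat.card (inputAux hT hQ (Finset.empty_subset (avoidSet Sys))).G * (2 ^ Q.card *
      Module.finrank O (LinearMap.range ((baseData hT).stage i hi).C.E))
  π : R.GU.J.R →+* B.G₀.J.R
  π_alg : π.comp R.GU.J.alg = B.G₀.J.alg
  π_red : B.G₀.J.red.comp π = R.GU.J.red
  π_surjective : Function.Surjective π
  π_trace : ∀ σ, π (R.GU.lift.M σ).trace = (B.G₀.lift.M σ).trace
  π_stage : ∀ (i : Fin ((plainData hT hQ).C.s + 1)) x,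
    B.G₀.pr (.inl i) (π x) = desc i (Nat.le_of_lt_succ i.2) (R.GU.pr (.inl i) x)
  π_point : ∀ e x, B.G₀.pr (.inr e) (π x) = R.GU.pr (.inr e) x

variable (B : BottomRings hT P) {Q : Finset ℕ} (hQ : AuxSet Sys Q) [NeZero (inputN₀ N Q)]
  (hdist : ∀ q ∈ Q, ∀ A : ValuationSubring ℚbar, A.LiesOverPrime q → ∀ σ : GQ,
    A.IsFrobeniusAt σ q → ∃ α β : ResidueField O, α ≠ β ∧
      (D.ρbar σ).charpoly = (X - C α) * (X - C β))

include hdist in
/-- **The step over the bottom exists.** -/
theorem nonempty_stepData [Fintype E] : Nonempty (StepData B hQ) := by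
  obtain ⟨R⟩ := nonempty_stepRings hT hQ P
  choose f _ _ hfr hker hrank using fun (i : ℕ) (hi : i ≤ Sys.s) =>
    exists_descentMap hT hQ (Finset.empty_subset (avoidSet Sys)) le_rfl hi hdist
  have : Nonempty (Fin ((baseData hT).C.s + 1) ⊕ E) := ⟨.inl 0⟩
  let g : ∀ k : Fin ((baseData hT).C.s + 1) ⊕ E,
      (memberRing (plainData hT hQ) (avoidChain hT hQ) (twinElem hT hQ ∅) (twinElem_ne hT hQ ∅)
        (memberU (plainData hT hQ) k)).R →+* (baseRing (baseData hT) (bottomStage hT) (E := E) k).R
    | .inl i => (f i (Nat.le_of_lt_succ i.2)).toRingHom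
    | .inr _ => RingHom.id O
  obtain ⟨π, h1, h2, h3, h4, h5⟩ := B.G₀.exists_map R.GU.lift R.GU.gen
    (fun k => (g k).comp (R.GU.pr k))
    (fun k => by
      refine Eq.trans (congrArg (g k).comp (R.GU.pr_alg k)) ?_
      rcases k with i | e
      · exact RingHom.ext fun a => (f i _).commutes a
      · rfl)
    (fun k σ => by
      refine Eq.trans (congrArg (g k) (R.GU.pr_trace k σ)) ?_
      rcases k with i | e
      · exact ((plainData hT hQ).stage i _).map_trace (bottomStage hT i) D.p_mem (f i _)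
          (plainData hT hQ).C.S
          (fun l hl hlS A hA σ' hσ' => hfr i (Nat.le_of_lt_succ i.2) l hl hlS A hA σ' hσ') σ
      · rfl)
  exact ⟨{ R := R, desc := f,
           desc_ker := fun i hi c hc v hv => (hker i hi c).1 hc v fun a _ => hv a
           rank := hrank, π := π, π_alg := h1, π_red := h2, π_surjective := h3, π_trace := h4
           π_stage := fun i x => h5 (.inl i) x, π_point := fun e x => h5 (.inr e) x }⟩

variable {B hQ} (S : StepData B hQ)

/-- The lift to the ring of the stages has cyclotomic determinant. -/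
theorem StepData.detU : DetCyclotomic p S.R.GU.J S.R.GU.lift :=
  S.R.GU.detCyclotomic D.p_mem fun k =>
    memberLift_det (plainData hT hQ) (avoidChain hT hQ) (twinElem hT hQ ∅) (twinElem_ne hT hQ ∅)
      P.pt P.det (memberU (plainData hT hQ) k)

/-- **The ring of the stages.** -/
def StepData.stageRings : StageRings hT hQ where
  T := S.R.GU.J
  ℓ := S.R.GU.lift
  det := S.detU
  T₀ := B.G₀.J
  ℓ₀ := B.G₀.lift
  reduced₀ := B.reduced₀
  π := S.π
  π_surjective := S.π_surjective
  π_trace := S.π_trace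
  unr₀ q hq A hA := B.unramified₀ q (hQ.prime q hq) (hQ.notPlace q hq) A hA
  pr i hi := S.R.GU.pr (.inl ⟨i, Nat.lt_succ_of_le hi⟩)
  pr_alg i hi c := RingHom.congr_fun (S.R.GU.pr_alg (.inl ⟨i, Nat.lt_succ_of_le hi⟩)) c
  pr_eta i hi _q A := S.R.GU.pr_eta A (.inl ⟨i, Nat.lt_succ_of_le hi⟩)
  pr₀ := B.pr₀
  desc := S.desc
  pr₀_π i hi x := S.π_stage ⟨i, Nat.lt_succ_of_le hi⟩ x
  desc_ker := S.desc_ker
  rank := S.rank

/-- A stage sees the trace of the glued lift. -/
theorem StepData.pr_trace (i : ℕ) (hi : i ≤ Sys.s) (σ : GQ) :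
    S.R.GU.pr (.inl ⟨i, Nat.lt_succ_of_le hi⟩) (S.R.GU.lift.M σ).trace =
      (((plainData hT hQ).stage i hi).lift.M σ).trace :=
  S.R.GU.pr_trace (.inl ⟨i, Nat.lt_succ_of_le hi⟩) σ

/-- The traces in the ring of the stages generate it. -/
theorem StepData.genU : Subring.closure (Set.range S.R.GU.J.alg ∪
    Set.range fun σ => (S.R.GU.lift.M σ).trace) = ⊤ := S.R.GU.gen

end Fermat.Agent.Root.Patched
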