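import Fermat.Agent.Root.Patched.TowerTwinBase
import Fermat.Agent.Root.Patched.TowerBaseMap

/-!
# The map from the twin of a step to the twin of the base

The descent from a stage to the base, applied to the top of the twin and passed to the twins, with
the kernel read on eigenvectors of the character.
-/

set_option autoImplicit false
set_option maxSynthPendingDepth 3

noncomputable section

namespace Fermat.Agent.Root.Patched

open IsLocalRing Fermat.Agent.Deformation Fermat.Agent.GammaH Fermat.Agent.TW Fermat.Agent.IharaTW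
  Fermat.Agent.TW.EtaFree

local notation "ℚbar" => AlgebraicClosure ℚ

variable {O : Type} [CommRing O] [IsDomain O] [IsDiscreteValuationRing O]
  [IsAdicComplete (maximalIdeal O) O] [Finite (ResidueField O)] [CharZero O]
  {p : ℕ} [Fact p.Prime] {W : WeierstrassCurve ℤ}
  {D : ResidualData O p W} {Sys : LocalSystem O D.ρbar p} {St : StdData Sys D.ζ} {N : ℕ}
  (hT : TowerHyp D Sys St N) {Q : Finset ℕ} (hQ : AuxSet Sys Q)
  [NeZero (inputN₀ N Q)] [NeZero (inputN₀ N ∅)]

omit [NeZero (inputN₀ N ∅)] in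
/-- The element of the twin on an eigenvector of the character: a nonzero constant. -/
theorem exists_actR_twinNu_eigen (Sx : Finset ℕ) [Fintype (twinAux hT hQ).G] :
    ∃ n : O, n ≠ 0 ∧ ∀ x : LinearMap.range (twinTop hT hQ Sx).C.E,
      (∀ h, (twinTop hT hQ Sx).C.actR ((twinDown hT hQ Sx).delta h) x =
        (inputChi hT hQ h : O) • x) →
      (twinTop hT hQ Sx).C.actR (twinNu hT hQ Sx) x = n • x := by
  classical
  let T := Finset.univ.filter fun g : (twinAux hT hQ).G => inputProj hT hQ g = 1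
  refine ⟨T.card, Nat.cast_ne_zero.2 (Finset.card_ne_zero_of_mem (a := 1)
    (Finset.mem_filter.2 ⟨Finset.mem_univ _, map_one _⟩)), fun x hx => ?_⟩
  rw [twinNu, twistNorm, map_sum, map_sum, LinearMap.sum_apply, Nat.cast_smul_eq_nsmul,
    ← Finset.sum_const, Finset.sum_filter]
  refine Finset.sum_congr rfl fun g _ => ?_
  split_ifs with hg
  · rw [strElem_single, map_smul, LinearMap.smul_apply, hx, smul_smul, Units.inv_mul, one_smul]
  · rw [map_zero, map_zero, LinearMap.zero_apply]

/-- **Descent of the twin.** -/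
theorem exists_twinDescentMap [Fintype (twinAux hT hQ).G] [Fintype (baseAux hT).G]
    (hdist : ∀ q ∈ Q, ∀ P : ValuationSubring ℚbar, P.LiesOverPrime q →
      ∀ σ : GQ, P.IsFrobeniusAt σ q →
        ∃ α β : ResidueField O, α ≠ β ∧
          (D.ρbar σ).charpoly = (Polynomial.X - Polynomial.C α) * (Polynomial.X - Polynomial.C β)) :
    ∃ (f : (twinTop hT hQ ∅).C.Ring' →ₐ[O] (twinTop hT (AuxSet.empty Sys) ∅).C.Ring')
      (fX : (twinMember hT hQ ∅).C.Ring' →ₐ[O] (twinMember hT (AuxSet.empty Sys) ∅).C.Ring'),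
      Function.Surjective f ∧ Function.Surjective fX ∧
      (∀ c, fX (twinMap hT hQ ∅ c) = twinMap hT (AuxSet.empty Sys) ∅ (f c)) ∧
      (∀ h, f ((twinDown hT hQ ∅).delta h) =
        (twinDown hT (AuxSet.empty Sys) ∅).delta (inputRestr hT hQ h)) ∧
      (∀ l : ℕ, l.Prime → l ∉ (twinTop hT hQ ∅).S → ∀ P : ValuationSubring ℚbar,
        P.LiesOverPrime l → ∀ σ : GQ, P.IsFrobeniusAt σ l →
          fX ((twinMember hT hQ ∅).lift.M σ).trace =
            ((twinMember hT (AuxSet.empty Sys) ∅).lift.M σ).trace) ∧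
      (∀ c, fX c = 0 ↔ ∀ v : LinearMap.range (twinMember hT hQ ∅).C.E,
        (∀ a : (ZMod (twinTop hT hQ ∅).L)ˣ,
          ZMod.unitsMap (desc_dvd (i := 0) hT hQ) a ∈ (twinTop hT (AuxSet.empty Sys) ∅).H →
            (twinMember hT hQ ∅).C.actR ((twinMember hT hQ ∅).C.dia a) v = v) →
        (twinMember hT hQ ∅).C.actR c v = 0) ∧
      (∀ c, fX (twinMap hT hQ ∅ c) = 0 →
        ∀ x : LinearMap.range (twinTop hT hQ ∅).C.E,
          (∀ h, (twinTop hT hQ ∅).C.actR ((twinDown hT hQ ∅).delta h) x =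
            (inputChi hT hQ h : O) • x) →
          (twinTop hT hQ ∅).C.actR c x = 0) ∧
      Module.finrank O (LinearMap.range (twinTop hT hQ ∅).C.E) =
        Nat.card (plainAux hT hQ).G * (2 ^ Q.card *
          Module.finrank O (LinearMap.range (twinTop hT (AuxSet.empty Sys) ∅).C.E)) := by
  obtain ⟨f, hsurj, hdia, htr, hker, hrank⟩ :=
    exists_descentMap (i := 0) hT hQ (Finset.Subset.refl (avoidSet Sys)) (Nat.zero_le Sys.s)
      (le_refl 0) hdist
  obtain ⟨fX, hXs, hXc, hXt, hXk⟩ := exists_twinDescend hT hQ ∅ ∅ f (desc_dvd (i := 0) hT hQ) hdia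
    hsurj (twinTop hT hQ ∅).S htr hker
  refine ⟨f, fX, hsurj, hXs, hXc, fun h => descend_delta hT hQ ∅ ∅ f _ hdia h, hXt, hXk,
    fun c hc x hx => ?_, hrank⟩
  rw [hXc, twinMap_eq_zero_iff, ← descend_twinNu hT hQ ∅ ∅ f _ hdia, ← map_mul] at hc
  have hfix : ∀ a, ZMod.unitsMap (desc_dvd (i := 0) hT hQ) a ∈
      (twinTop hT (AuxSet.empty Sys) ∅).H →
      (twinTop hT hQ ∅).C.actR ((twinTop hT hQ ∅).C.dia a) x = x := fun a ha => by
    rw [← (twinDown hT hQ ∅).delta_down, hx, inputChi_eq]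
    have h1 : inputRestr hT hQ ((twinDown hT hQ ∅).down a) = 1 := by
      refine Eq.trans ?_ (((twinDown hT (AuxSet.empty Sys) ∅).down_eq_one_iff _).2 ha)
      show (baseAux hT).cls (ZMod.unitsMap inputN₀_dvd_aux (ZMod.unitsMap _ a)) =
        (baseAux hT).cls (ZMod.unitsMap _ (ZMod.unitsMap (desc_dvd (i := 0) hT hQ) a))
      exact congrArg _ ((unitsMap_unitsMap _ _ a).trans (unitsMap_unitsMap _ _ a).symm)
    rw [h1, map_one, Units.val_one, one_smul]
  have h0 := (hker _).1 hc x hfix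
  obtain ⟨n, hn, hnu⟩ := exists_actR_twinNu_eigen hT hQ ∅
  rw [map_mul, Module.End.mul_apply, hnu x hx, map_smul] at h0
  have : Module.IsTorsionFree O (H1 (twinTop hT hQ ∅).L (twinTop hT hQ ∅).H O O) :=
    Function.Injective.moduleIsTorsionFree _ (coordH (twinTop hT hQ ∅).neg O O).symm.injective
      fun x y => map_smul (coordH (twinTop hT hQ ∅).neg O O).symm x y
  exact (smul_eq_zero.1 h0).resolve_left hn

end Fermat.Agent.Root.Patched
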