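import Fermat.Agent.Root.Patched.TowerStepStages
import Fermat.Agent.Root.Patched.TowerTwinMap

/-!
# The ring of the twin of one step over the bottom of the tower

The twin of a step maps to the twin of the bottom (`nonempty_twinDesc`).
-/

set_option autoImplicit false
set_option genSizeOf false
set_option genInjectivity false

noncomputable section

namespace Fermat.Agent.Root.Patched

open IsLocalRing Polynomial Fermat.Agent.Deformation Fermat.Agent.GammaH Fermat.Agent.TW
  Fermat.Agent.IharaTW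

local notation "ℚbar" => AlgebraicClosure ℚ

variable {O : Type} [CommRing O] [IsDomain O] [IsDiscreteValuationRing O]
  [IsAdicComplete (maximalIdeal O) O] [Finite (ResidueField O)] [CharZero O]
  {p : ℕ} [Fact p.Prime] {W : WeierstrassCurve ℤ} {D : ResidualData O p W}
  {Sys : LocalSystem O D.ρbar p} {St : StdData Sys D.ζ} {N : ℕ}
  {hT : TowerHyp D Sys St N} [NeZero (inputN₀ N ∅)] {E : Type} {P : PointFamily Sys E}
  {B : BottomRings hT P} {Q : Finset ℕ} {hQ : AuxSet Sys Q} [NeZero (inputN₀ N Q)]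

/-- The map of the twin of a step to the bottom. -/
structure TwinDesc (S : StepData B hQ) where
  fX : (twinMember hT hQ ∅).C.Ring' →ₐ[O] (bottomTwin hT).C.Ring'
  fX_ker : ∀ c, fX c = 0 → ∀ v : LinearMap.range (twinMember hT hQ ∅).C.E,
    (∀ a : (ZMod (twinTop hT hQ ∅).L)ˣ,
      ZMod.unitsMap (desc_dvd (i := 0) hT hQ) a ∈ (twinTop hT (AuxSet.empty Sys) ∅).H →
        (twinMember hT hQ ∅).C.actR ((twinMember hT hQ ∅).C.dia a) v = v) →
    (twinMember hT hQ ∅).C.actR c v = 0
  eigen_ker : ∀ c, fX (twinMap hT hQ ∅ c) = 0 →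
    ∀ x : LinearMap.range (twinTop hT hQ ∅).C.E,
      (∀ h, (twinTop hT hQ ∅).C.actR ((twinDown hT hQ ∅).delta h) x =
        (inputChi hT hQ h : O) • x) →
      (twinTop hT hQ ∅).C.actR c x = 0
  π : S.R.GX.J.R →+* B.GX₀.J.R
  π_alg : π.comp S.R.GX.J.alg = B.GX₀.J.alg
  π_surjective : Function.Surjective π
  π_trace : ∀ σ, π (S.R.GX.lift.M σ).trace = (B.GX₀.lift.M σ).trace
  π_pr : ∀ x, B.GX₀.pr () (π x) = fX (S.R.GX.pr () x)

/-- **The twin descends.** -/
theorem nonempty_twinDesc (S : StepData B hQ)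
    (hdist : ∀ q ∈ Q, ∀ A : ValuationSubring ℚbar, A.LiesOverPrime q → ∀ σ : GQ,
      A.IsFrobeniusAt σ q → ∃ α β : ResidueField O, α ≠ β ∧
        (D.ρbar σ).charpoly = (X - C α) * (X - C β)) : Nonempty (TwinDesc S) := by
  obtain ⟨f, fX, -, -, -, -, htr, hker, heig, -⟩ := exists_twinDescentMap hT hQ hdist
  have : Nonempty Unit := ⟨()⟩
  obtain ⟨π, h1, h2, h3, h4, h5⟩ := B.GX₀.exists_map S.R.GX.lift S.R.GX.gen
    (fun k => fX.toRingHom.comp (S.R.GX.pr k))
    (fun k => Eq.trans (congrArg fX.toRingHom.comp (S.R.GX.pr_alg k))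
      (RingHom.ext fun a => fX.commutes a))
    (fun k σ => Eq.trans (congrArg fX.toRingHom (S.R.GX.pr_trace k σ))
      ((twinMember hT hQ ∅).map_trace (bottomTwin hT) D.p_mem fX (twinTop hT hQ ∅).S htr σ))
  exact ⟨{ fX := fX, fX_ker := fun c hc => (hker c).1 hc, eigen_ker := heig, π := π, π_alg := h1
           π_surjective := h3, π_trace := h4, π_pr := fun x => h5 () x }⟩

end Fermat.Agent.Root.Patched
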