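import Fermat.Agent.Root.Patched.TowerTwinEigen

/-!
# The maps of the comparison algebra to the stages and to the twin

The avoided primes act trivially on the stages and by their character on the twin; what dies on
the twin kills the character part of the top.
-/

set_option autoImplicit false
set_option maxSynthPendingDepth 3

noncomputable section

namespace Fermat.Agent.Root.Patched

open IsLocalRing Fermat.Agent.Deformation Fermat.Agent.GammaH Fermat.Agent.TW Fermat.Agent.IharaTW

local notation "ℚbar" => AlgebraicClosure ℚ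

attribute [local instance] testAlgebra

variable {O : Type} [CommRing O] [IsDomain O] [IsDiscreteValuationRing O]
  [IsAdicComplete (maximalIdeal O) O] [Finite (ResidueField O)] [CharZero O]
  {p : ℕ} [Fact p.Prime] {W : WeierstrassCurve ℤ} {D : ResidualData O p W}
  {Sys : LocalSystem O D.ρbar p} {St : StdData Sys D.ζ} {N : ℕ}
  {hT : TowerHyp D Sys St N} [NeZero (inputN₀ N ∅)] {E : Type} [Fintype E]
  {P : PointFamily Sys E} {B : BottomRings hT P} {Q : Finset ℕ} {hQ : AuxSet Sys Q}
  [NeZero (inputN₀ N Q)]
  (S : StepData B hQ) (hdist : ∀ q ∈ Q, ∀ A : ValuationSubring ℚbar, A.LiesOverPrime q →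
    ∀ σ : GQ, A.IsFrobeniusAt σ q → ∃ α β : ResidueField O, α ≠ β ∧
      (D.ρbar σ).charpoly = (Polynomial.X - Polynomial.C α) * (Polynomial.X - Polynomial.C β))
  {r : ℕ} (hr : Q.card = r)

/-- The projection to the ring of the stages, over the constants. -/
def StepData.pUAlg : S.R.G.J.R →ₐ[O] S.R.GU.J.R where
  toRingHom := S.R.pU
  commutes' c := RingHom.congr_fun S.R.pU_alg c

/-- The projection to the ring of the twin, over the constants. -/
def StepData.pXAlg : S.R.G.J.R →ₐ[O] S.R.GX.J.R where
  toRingHom := S.R.pX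
  commutes' c := RingHom.congr_fun S.R.pX_alg c

/-- The comparison algebra over the ring of the stages: the avoided primes act trivially. -/
def StepData.algU : MonoidAlgebra S.R.G.J.R (baseAux hT).G →ₐ[O] S.R.GU.J.R :=
  charLift S.pUAlg 1

/-- The character of the avoided primes in the ring of the twin. -/
def StepData.chiX : (baseAux hT).G →* S.R.GX.J.R :=
  S.R.GX.J.alg.toMonoidHom.comp ((Units.coeHom O).comp (baseChi hT))

/-- The comparison algebra over the ring of the twin: the avoided primes act by the character. -/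
def StepData.algX : MonoidAlgebra S.R.G.J.R (baseAux hT).G →ₐ[O] S.R.GX.J.R :=
  charLift S.pXAlg S.chiX

omit [Fintype E] in
theorem StepData.algU_single (h : (baseAux hT).G) (a : S.R.G.J.R) :
    S.algU (MonoidAlgebra.single h a) = S.R.pU a :=
  (charLift_single _ _ h a).trans (mul_one _)

omit [Fintype E] in
theorem StepData.algX_single (h : (baseAux hT).G) (a : S.R.G.J.R) :
    S.algX (MonoidAlgebra.single h a) = S.R.pX a * S.R.GX.J.alg (baseChi hT h : O) :=
  charLift_single _ _ h a

omit [Fintype E] in
theorem StepData.algX_surjective : Function.Surjective S.algX :=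
  charLift_surjective _ _ S.R.pX_surjective

omit [Fintype E] in
theorem StepData.algU_zetaTop (g : (twinAux hT hQ).G) :
    S.algU (S.zetaTop hdist hr g) = (S.stageRings.setup hdist hr).η (inputProj hT hQ g) :=
  (S.algU_single _ _).trans (DFunLike.congr_fun (etaHom_natural (S.stageRings.setup hdist hr).pl
    (S.stageRings.setup hdist hr).hm S.R.G.lift
    (S.R.det D.p_mem (memberLift_det (plainData hT hQ) (avoidChain hT hQ)
      (twinElem hT hQ ∅) (twinElem_ne hT hQ ∅) P.pt P.det))
    S.R.GU.lift S.detU S.R.pU S.R.pU_red S.R.lift_U) (inputProj hT hQ g))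

omit [Fintype E] in
/-- On the member the twin sees the top. -/
theorem StepData.prX_algX (a : MonoidAlgebra S.R.G.J.R (baseAux hT).G) :
    S.R.GX.pr () (S.algX a) = twinMap hT hQ ∅ (S.topAlg a) := by
  induction a using MonoidAlgebra.induction_linear with
  | zero =>
    simp only [map_zero]
    rfl
  | add x y hx hy =>
    simp only [map_add]
    exact congrArg₂ (· + ·) hx hy
  | single h c =>
    rw [S.algX_single, S.topAlg_single]
    refine (map_mul (S.R.GX.pr ()) _ _).trans ((congrArg₂ (· * ·) (S.prX_pX c) ?_).trans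
      (map_mul (twinMap hT hQ ∅) _ _).symm)
    rw [twinMap_delta hT hQ ∅ _ (split_liftAvoid hT hQ h).1, inputChi_eq,
      (split_liftAvoid hT hQ h).2]
    exact RingHom.congr_fun (S.R.GX.pr_alg ()) _

omit [Fintype E] in
/-- What dies on the twin kills the character part of the top. -/
theorem StepData.algX_kill (a : MonoidAlgebra S.R.G.J.R (baseAux hT).G) (ha : S.algX a = 0)
    (x : LinearMap.range (twinTop hT hQ ∅).C.E) :
    S.topAct a (S.topAct (eigElem (S.zetaTop hdist hr) (inputProj hT hQ) (inputChi hT hQ)) x) =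
      0 := by
  have h0 : twinMap hT hQ ∅ (S.topAlg a) = 0 :=
    (S.prX_algX a).symm.trans ((congrArg (S.R.GX.pr ()) ha).trans (map_zero (S.R.GX.pr ())))
  rw [twinMap_eq_zero_iff] at h0
  show (twinTop hT hQ ∅).C.actR (S.topAlg a) ((twinTop hT hQ ∅).C.actR (S.topAlg _) x) = 0
  rw [← Module.End.mul_apply, ← map_mul, S.topAlg_eigElem hdist hr]
  exact (LinearMap.congr_fun (congrArg (twinTop hT hQ ∅).C.actR h0) x).trans
    (LinearMap.congr_fun (map_zero (twinTop hT hQ ∅).C.actR) x)

variable (T : TwinDesc S)

include T in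
omit [Fintype E] in
/-- The eigenvalues of inertia are trivial at the bottom of the twin. -/
theorem StepData.twin_eta_one (y : (S.stageRings.setup hdist hr).A₀.G) :
    T.π (S.R.pX (S.etaJ hdist hr y)) = 1 := by
  have := B.reducedX₀
  have h : (T.π.comp S.R.pX).toMonoidHom.comp (S.etaJ hdist hr) =
      (1 : (S.stageRings.setup hdist hr).A₀.G →* B.GX₀.J.R) :=
    auxHom_ext (S.stageRings.setup hdist hr).A₀ fun q => by
      obtain ⟨η', h1, h2⟩ := (((S.stageRings.setup hdist hr).pl q).eta_spec S.R.G.J S.R.G.lift
        (S.R.det D.p_mem (memberLift_det (plainData hT hQ) (avoidChain hT hQ)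
          (twinElem hT hQ ∅) (twinElem_ne hT hQ ∅) P.pt P.det))).2.2.1
      have htr : T.π (S.R.pX (S.R.G.lift.M ((S.stageRings.setup hdist hr).pl q).τ).trace) = 2 := by
        have hX : S.R.pX (S.R.G.lift.M ((S.stageRings.setup hdist hr).pl q).τ).trace =
            (S.R.GX.lift.M ((S.stageRings.setup hdist hr).pl q).τ).trace :=
          (AddMonoidHom.map_trace S.R.pX.toAddMonoidHom _).trans
            (congrArg Matrix.trace (S.R.lift_X _).symm)
        have hq : q.1 ∈ Q := (StageRings.inputAux_Q (hT := hT) (hQ := hQ)).le q.2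
        rw [hX, T.π_trace, B.unramifiedX₀ q.1 (hQ.prime q.1 hq) (hQ.notPlace q.1 hq)
          ((S.stageRings.setup hdist hr).pl q).P ((S.stageRings.setup hdist hr).pl q).P_over _
          ((S.stageRings.setup hdist hr).pl q).tame.1, Matrix.trace_one, Fintype.card_fin,
          Nat.cast_two]
      rw [MonoidHom.comp_apply, MonoidHom.one_apply, StepData.etaJ, etaHom_gen]
      refine eq_one_of_add_eq_two (y := T.π (S.R.pX η')) ?_ ?_
      · exact (map_mul (T.π.comp S.R.pX) _ _).symm.trans
          ((congrArg (T.π.comp S.R.pX) h2).trans (map_one (T.π.comp S.R.pX)))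
      · exact (map_add (T.π.comp S.R.pX) _ _).symm.trans
          ((congrArg (T.π.comp S.R.pX) h1).trans htr)
  exact DFunLike.congr_fun h y

omit [Fintype E] in
include T in
/-- The structure map lands in the character at the bottom of the twin. -/
theorem StepData.twin_zeta_chi (g : (twinAux hT hQ).G) :
    T.π (S.algX (S.zetaTop hdist hr g)) =
      T.π (algebraMap O S.R.GX.J.R (inputChi hT hQ g : O)) := by
  refine (congrArg T.π (S.algX_single _ _)).trans ((map_mul T.π _ _).trans ?_)
  refine (congrArg (· * T.π (S.R.GX.J.alg (baseChi hT (inputRestr hT hQ g) : O)))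
    (S.twin_eta_one hdist hr T (inputProj hT hQ g))).trans ((one_mul _).trans ?_)
  rw [inputChi_eq]
  rfl

omit [Fintype E] in
include T in
/-- The condition on the eigenvectors of the character. -/
theorem StepData.twin_eigen_kill [IsLocalRing (MonoidAlgebra O (twinAux hT hQ).G)] {d : ℕ}
    (b : Module.Basis (Fin d) (MonoidAlgebra O (twinAux hT hQ).G)
      (LatMod S.topAct (S.zetaTop hdist hr)))
    (a : MonoidAlgebra S.R.G.J.R (baseAux hT).G)
    (ha : T.π (S.algX a) ∈ (⊥ : Ideal B.GX₀.J.R)) (x : LinearMap.range (twinTop hT hQ ∅).C.E)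
    (hx : ∀ g, S.topAct (S.zetaTop hdist hr g) x = (inputChi hT hQ g : O) • x) :
    S.topAct a x = 0 := by
  refine T.eigen_ker (S.topAlg a) ?_ x fun g => S.delta_eigen hdist hr b x hx g
  rw [← S.prX_algX]
  exact (T.π_pr _).symm.trans ((congrArg (B.GX₀.pr ()) (Ideal.mem_bot.1 ha)).trans
    (map_zero (B.GX₀.pr ())))

end Fermat.Agent.Root.Patched
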