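import Fermat.Agent.Root.Patched.TowerStepAssembly
import Fermat.Agent.Root.Patched.TowerTwinMaps
import Fermat.Agent.Root.Patched.TowerCoinv

/-!
# The level at the twin of one step

The top of the twin over the comparison algebra gives the level at the twin; stage `0` is its
coinvariants, so the two levels are congruent.
-/

set_option autoImplicit false
set_option maxSynthPendingDepth 3

noncomputable section

namespace Fermat.Agent.Root.Patched

open IsLocalRing Polynomial Fermat.Agent.Deformation Fermat.Agent.GammaH Fermat.Agent.TW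
  Fermat.Agent.IharaTW
open Fermat.Agent.Patching (Level)

local notation "ℚbar" => AlgebraicClosure ℚ

attribute [local instance] testAlgebra

section Change

variable {O : Type} [CommRing O] [IsDomain O] [IsDiscreteValuationRing O] [CharZero O] {r : ℕ}
  {G A T V : Type} [CommGroup G] [Fintype G] [IsLocalRing (MonoidAlgebra O G)] [CommRing A]
  [Algebra O A] [CommRing T] [AddCommGroup V] [Module O V] {Φ : A →ₐ[O] Module.End O V}
  {ζ : G →* A}

omit [IsLocalRing (MonoidAlgebra O G)] in
/-- The level of a stage does not depend on how the coefficients are presented. -/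
theorem twLevel_congr_coeff {ev ev' : MvPowerSeries (Fin r) O →+* MonoidAlgebra O G}
    {g g' : Fin r → G} (hev : ev = ev') (hg : g = g')
    (hC : ∀ c, ev (MvPowerSeries.C c) = algebraMap O (MonoidAlgebra O G) c)
    (hC' : ∀ c, ev' (MvPowerSeries.C c) = algebraMap O (MonoidAlgebra O G) c)
    (hX : ∀ i, ev (MvPowerSeries.X i) = MonoidAlgebra.single (g i) 1 - 1)
    (hX' : ∀ i, ev' (MvPowerSeries.X i) = MonoidAlgebra.single (g' i) 1 - 1)
    (hgen : Subgroup.closure (Set.range g) = ⊤) (hgen' : Subgroup.closure (Set.range g') = ⊤)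
    {d : ℕ} (b : Module.Basis (Fin d) (MonoidAlgebra O G) (LatMod Φ ζ)) (πA : A →+* T)
    (hπA : Function.Surjective πA) (hπζ : ∀ x, πA (ζ x) = 1) {I : Ideal T}
    (hI : ∀ a, πA a ∈ I → ∀ x, (∀ h, Φ (ζ h) x = x) → Φ a x = 0) :
    twLevel Φ ζ ev g hC hX hgen b πA hπA hπζ hI =
      twLevel Φ ζ ev' g' hC' hX' hgen' b πA hπA hπζ hI := by
  subst hev hg
  rfl

end Change

variable {O : Type} [CommRing O] [IsDomain O] [IsDiscreteValuationRing O]
  [IsAdicComplete (maximalIdeal O) O] [Finite (ResidueField O)] [CharZero O]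
  {p : ℕ} [Fact p.Prime] {W : WeierstrassCurve ℤ} {D : ResidualData O p W}
  {Sys : LocalSystem O D.ρbar p} {St : StdData Sys D.ζ} {N : ℕ}
  {hT : TowerHyp D Sys St N} [NeZero (inputN₀ N ∅)] {E : Type} [Fintype E]
  {P : PointFamily Sys E} {B : BottomRings hT P} {Q : Finset ℕ} {hQ : AuxSet Sys Q}
  [NeZero (inputN₀ N Q)]

omit [Fintype E] in
/-- The map of the top to stage `0` on the comparison algebra. -/
theorem StepData.coinv_topAlg (S : StepData B hQ)
    (rC : (twinTop hT hQ ∅).C.Ring' →ₐ[O] ((plainData hT hQ).stage 0 (Nat.zero_le _)).C.Ring')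
    (htr : ∀ σ, rC ((twinTop hT hQ ∅).lift.M σ).trace =
      (((plainData hT hQ).stage 0 (Nat.zero_le _)).lift.M σ).trace)
    (hδ : ∀ h, inputProj hT hQ h = 1 → rC ((twinDown hT hQ ∅).delta h) = 1)
    (a : MonoidAlgebra S.R.G.J.R (baseAux hT).G) :
    rC (S.topAlg a) = S.stageRings.pr 0 (Nat.zero_le _) (S.algU a) := by
  have hJ : rC.toRingHom.comp S.prTop.toRingHom =
      (S.stageRings.pr 0 (Nat.zero_le _)).comp S.R.pU := by
    refine RingHom.eq_of_eqOn_set_top ?_
    rw [← S.R.G.gen]
    refine RingHom.eqOn_set_closure ?_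
    rintro y (⟨c, rfl⟩ | ⟨σ, rfl⟩)
    · refine (congrArg rC (S.prTop.commutes c)).trans ((rC.commutes c).trans ?_)
      exact ((congrArg (S.stageRings.pr 0 (Nat.zero_le _)) (RingHom.congr_fun S.R.pU_alg c)).trans
        (S.stageRings.pr_alg 0 (Nat.zero_le _) c)).symm
    · refine (congrArg rC (S.prTop_trace σ)).trans ((htr σ).trans ?_)
      refine ((congrArg (S.stageRings.pr 0 (Nat.zero_le _)) ?_).trans
        (S.pr_trace 0 (Nat.zero_le _) σ)).symm
      exact (AddMonoidHom.map_trace S.R.pU.toAddMonoidHom _).trans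
        (congrArg Matrix.trace (S.R.lift_U σ).symm)
  induction a using MonoidAlgebra.induction_linear with
  | zero =>
    simp only [map_zero]
    exact (map_zero (S.stageRings.pr 0 (Nat.zero_le _))).symm
  | add x y hx hy =>
    simp only [map_add]
    exact (congrArg₂ (· + ·) hx hy).trans (map_add (S.stageRings.pr 0 (Nat.zero_le _)) _ _).symm
  | single h c =>
    rw [S.topAlg_single, S.algU_single, map_mul, hδ _ (split_liftAvoid hT hQ h).1, mul_one]
    exact RingHom.congr_fun hJ c

omit [Fintype E] in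
/-- **The level at the twin exists.** -/
theorem nonempty_twinLevelData (S : StepData B hQ) (T : TwinDesc S)
    (hdist : ∀ q ∈ Q, ∀ A : ValuationSubring ℚbar, A.LiesOverPrime q → ∀ σ : GQ,
      A.IsFrobeniusAt σ q → ∃ α β : ResidueField O, α ≠ β ∧
        (D.ρbar σ).charpoly = (X - C α) * (X - C β))
    {r : ℕ} (hr : Q.card = r) {n : ℕ} (hn : ∀ q ∈ Q, p ^ n ∣ q - 1) :
    Nonempty (TwinLevelData S hdist hr n) := by
  let Su := S.stageRings.setup hdist hr
  let : Fintype Su.A₀.G := Fintype.ofFinite _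
  have := Su.isLocalRing
  have : IsLocalRing (MonoidAlgebra O (twinAux hT hQ).G) :=
    TW.GroupRing.isLocalRing_groupRing (twinAux hT hQ).isPGroup D.p_mem
  let πp : (twinAux hT hQ).G →* Su.A₀.G := inputProj hT hQ
  have hπp : Function.Surjective πp := inputProj_surjective hT hQ
  have hQ₀ : Su.A₀.Q = Q := StageRings.inputAux_Q (hT := hT) (hQ := hQ)
  have hmem : ∀ i, (Su.e i).1 ∈ Q := fun i => hQ₀.le (Su.e i).2
  let gT : Fin r → (twinAux hT hQ).G := fun i => (twinAux hT hQ).cls (twinGen hT hQ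
    ⟨(Su.e i).1, Finset.mem_union_left _ (hmem i)⟩)
  have hgT : (fun i => πp (gT i)) = Su.g := funext fun i =>
    inputProj_twinGen hT hQ _ (hmem i)
  obtain ⟨evT, hCT, hXT⟩ := exists_groupRingEval (twinAux hT hQ).isPGroup D.p_mem gT
  have hgenT : Subgroup.closure (Set.range fun i => πp (gT i)) = ⊤ := by rw [hgT]; exact Su.hgen
  have hev : (twistHom πp (1 : (twinAux hT hQ).G →* Oˣ)).toRingHom.comp evT = Su.ev :=
    coeffMap_ext (fun i => πp (gT i)) (twistHom_one_evT_C πp evT hCT)
      (twistHom_one_evT_X πp evT gT hXT) Su.hC (fun i => by rw [congrFun hgT i]; exact Su.hX i)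
  have hχT : ∀ i, inputChi hT hQ (gT i) = 1 := fun i =>
    inputChi_twinGen _ (hmem i)
  -- stage `0`
  let Φ₀ := (plainData hT hQ).memberAct S.stageRings.T
    (fun j hj => (S.stageRings.member hdist hr j hj).pr)
    (fun j hj => RingHom.ext ((S.stageRings.member hdist hr j hj).pr_alg)) 0 (Nat.zero_le _)
  let b₀ : Module.Basis (Fin (stageRank hT r 0)) (MonoidAlgebra O Su.A₀.G) (LatMod Φ₀ Su.η) :=
    (S.stageRings.member hdist hr 0 (Nat.zero_le _)).basisη
  -- the coinvariants
  obtain ⟨rC, ψ, htr, hδ, hsur, hcomm, hker⟩ := exists_twinCoinv hT hQ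
  have hψ : ∀ a x, ψ (S.topAct a x) = Φ₀ (S.algU a) (ψ x) := fun a x =>
    (hcomm _ _).trans (congrArg (fun z =>
      ((plainData hT hQ).stage 0 (Nat.zero_le _)).C.actR z (ψ x))
      (S.coinv_topAlg rC htr hδ a))
  have hζ : ∀ g x, Φ₀ (Su.η (πp g)) x = Φ₀ (S.algU (S.zetaTop hdist hr g)) x := fun g x =>
    congrArg (fun z => Φ₀ z x) (S.algU_zetaTop hdist hr g).symm
  have hker' : ∀ x, ψ x = 0 ↔
      S.topAct (eigElem (S.zetaTop hdist hr) πp (1 : (twinAux hT hQ).G →* Oˣ)) x = 0 := fun x => by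
    refine (hker x).trans (iff_of_eq (congrArg (fun z => (twinTop hT hQ ∅).C.actR z x = 0) ?_))
    exact (S.topAlg_eigElem hdist hr 1).symm
  obtain ⟨d', ⟨b⟩⟩ := S.exists_topBasis hdist hr
  obtain ⟨bT, hb₀⟩ := exists_basis_lift S.topAct Φ₀ S.algU (S.zetaTop hdist hr) Su.η πp ψ hψ hζ
    hπp hsur hker' b b₀
  refine ⟨⟨twinLevel S.topAct (S.zetaTop hdist hr) πp (inputChi hT hQ) evT gT hCT hXT hπp hgenT hχT
    bT S.algX S.algX_surjective (S.algX_kill hdist hr) T.π T.π_surjective
    (S.twin_zeta_chi hdist hr T) (S.twin_eigen_kill hdist hr T bT), ?_, ?_, ?_⟩⟩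
  · refine twinLevel_c_le S.topAct (S.zetaTop hdist hr) πp (inputChi hT hQ) evT gT hCT hXT hπp
      hgenT hχT bT S.algX S.algX_surjective (S.algX_kill hdist hr) T.π T.π_surjective
      (S.twin_zeta_chi hdist hr T) (S.twin_eigen_kill hdist hr T bT) ?_
    rw [hev]
    exact S.stageRings.setup_ker_ev_le hdist hr hn
  · intro c
    exact twinLevel_scalar S.topAct (S.zetaTop hdist hr) πp (inputChi hT hQ) evT gT hCT hXT hπp
      hgenT hχT bT S.algX S.algX_surjective (S.algX_kill hdist hr) T.π T.π_surjective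
      (S.twin_zeta_chi hdist hr T) (S.twin_eigen_kill hdist hr T bT) c
  · intro ϖ hϖ σ i j
    have key := twLevel_twinLevel_congr S.topAct (S.zetaTop hdist hr) πp (inputChi hT hQ) evT gT
      hCT hXT hπp hgenT hχT bT S.algX S.algX_surjective (S.algX_kill hdist hr) T.π T.π_surjective
      (S.twin_zeta_chi hdist hr T) (S.twin_eigen_kill hdist hr T bT) Φ₀ Su.η S.algU ψ hψ hζ b₀
      hb₀ S.stageRings.π S.stageRings.π_surjective Su.π_η
      (I := S.stageRings.ideal 0)
      (fun a ha v hv => (S.stageRings.member hdist hr 0 (Nat.zero_le _)).hI a ha v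
        ((S.stageRings.member hdist hr 0 (Nat.zero_le _)).delta_fix hv))
      (dvd_inputChi_sub_one hT hQ hϖ) (MonoidAlgebra.single 1 (S.R.G.lift.M σ).trace) i j
    have e1 : S.algU (MonoidAlgebra.single 1 (S.R.G.lift.M σ).trace) =
        S.R.pU (S.R.G.lift.M σ).trace := S.algU_single _ _
    have e2 : S.algX (MonoidAlgebra.single 1 (S.R.G.lift.M σ).trace) =
        S.R.pX (S.R.G.lift.M σ).trace := by
      rw [S.algX_single, map_one (baseChi hT), Units.val_one, map_one S.R.GX.J.alg, mul_one]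
    have heq := twLevel_congr_coeff (Φ := Φ₀) (ζ := Su.η) hev hgT (twistHom_one_evT_C πp evT hCT)
      Su.hC (twistHom_one_evT_X πp evT gT hXT) Su.hX hgenT Su.hgen b₀ S.stageRings.π
      S.stageRings.π_surjective Su.π_η (I := S.stageRings.ideal 0)
      (fun a ha v hv => (S.stageRings.member hdist hr 0 (Nat.zero_le _)).hI a ha v
        ((S.stageRings.member hdist hr 0 (Nat.zero_le _)).delta_fix hv))
    have key₂ := (congrArg
      (fun (L : Level (MvPowerSeries (Fin r) O) S.stageRings.T.R S.stageRings.T₀.R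
        (RingHom.ker (MvPowerSeries.constantCoeff : MvPowerSeries (Fin r) O →+* O))
        (S.stageRings.ideal 0) (stageRank hT r 0)) =>
      L.mat (S.algU (MonoidAlgebra.single 1 (S.R.G.lift.M σ).trace)) i j -
          (twinLevel S.topAct (S.zetaTop hdist hr) πp (inputChi hT hQ) evT gT hCT hXT hπp hgenT hχT
            bT S.algX S.algX_surjective (S.algX_kill hdist hr) T.π T.π_surjective
            (S.twin_zeta_chi hdist hr T) (S.twin_eigen_kill hdist hr T bT)).mat
            (S.algX (MonoidAlgebra.single 1 (S.R.G.lift.M σ).trace)) i j ∈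
        Ideal.span {MvPowerSeries.C ϖ} ⊔ L.c ⊔
          (twinLevel S.topAct (S.zetaTop hdist hr) πp (inputChi hT hQ) evT gT hCT hXT hπp hgenT hχT
            bT S.algX S.algX_surjective (S.algX_kill hdist hr) T.π T.π_surjective
            (S.twin_zeta_chi hdist hr T) (S.twin_eigen_kill hdist hr T bT)).c) heq).mp key
    exact (congrArg₂ (fun (a : S.R.GU.J.R) (c : S.R.GX.J.R) =>
      (S.stageRings.level hdist hr 0 (Nat.zero_le _)).mat a i j -
          (twinLevel S.topAct (S.zetaTop hdist hr) πp (inputChi hT hQ) evT gT hCT hXT hπp hgenT hχT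
            bT S.algX S.algX_surjective (S.algX_kill hdist hr) T.π T.π_surjective
            (S.twin_zeta_chi hdist hr T) (S.twin_eigen_kill hdist hr T bT)).mat c i j ∈
        Ideal.span {MvPowerSeries.C ϖ} ⊔ (S.stageRings.level hdist hr 0 (Nat.zero_le _)).c ⊔
          (twinLevel S.topAct (S.zetaTop hdist hr) πp (inputChi hT hQ) evT gT hCT hXT hπp hgenT hχT
            bT S.algX S.algX_surjective (S.algX_kill hdist hr) T.π T.π_surjective
            (S.twin_zeta_chi hdist hr T) (S.twin_eigen_kill hdist hr T bT)).c) e1 e2).mp key₂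

end Fermat.Agent.Root.Patched
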