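import Fermat.Agent.Root.Patched.TowerLevelStage
import Fermat.Agent.Root.Patched.TowerEigen

/-!
# Generators of the group of the top of the twin

Generators of the auxiliary group of the top of the twin compatible with those of the stages: at an
auxiliary prime the generator of the plain group, at an avoided prime one killed by the projection;
the diamond data on the top for them, and characters dual to them.
-/

set_option autoImplicit false
set_option maxSynthPendingDepth 3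

noncomputable section

namespace Fermat.Agent.Root.Patched

open IsLocalRing Fermat.Agent.Deformation Fermat.Agent.GammaH Fermat.Agent.TW Fermat.Agent.IharaTW

local notation "ℚbar" => AlgebraicClosure ℚ

variable {O : Type} [CommRing O] [IsDomain O] [IsDiscreteValuationRing O]
  [IsAdicComplete (maximalIdeal O) O] [Finite (ResidueField O)] [CharZero O]
  {p : ℕ} [Fact p.Prime] {W : WeierstrassCurve ℤ} {D : ResidualData O p W}
  {Sys : LocalSystem O D.ρbar p} {St : StdData Sys D.ζ} {N : ℕ} (hT : TowerHyp D Sys St N)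
  {Q : Finset ℕ} (hQ : AuxSet Sys Q) [NeZero (inputN₀ N Q)] [NeZero (inputN₀ N ∅)]

omit [NeZero (inputN₀ N Q)] [NeZero (inputN₀ N ∅)] [CharZero O] in
theorem mem_plainAux_Q {q : ℕ} (hq : q ∈ Q) : q ∈ (plainAux hT hQ).Q :=
  Finset.mem_union_left _ hq

omit [NeZero (inputN₀ N Q)] [NeZero (inputN₀ N ∅)] [CharZero O] in
theorem mem_avoid_of_twin (q : (twinAux hT hQ).Q) (hq : q.1 ∉ Q) : q.1 ∈ avoidSet Sys :=
  (Finset.mem_union.1 q.2).resolve_left hq

/-- The unit above a generator. -/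
def twinGen (q : (twinAux hT hQ).Q) : (ZMod (inputN₀ N Q))ˣ :=
  if h : q.1 ∈ Q then (plainAux hT hQ).gen ⟨q.1, mem_plainAux_Q hT hQ h⟩ else (twinAux hT hQ).gen q

omit [NeZero (inputN₀ N ∅)] [CharZero O] [NeZero (inputN₀ N Q)] in
theorem twinGen_away (q : (twinAux hT hQ).Q) :
    ZMod.unitsMap (Nat.div_dvd_of_dvd ((twinAux hT hQ).dvd q.1 q.2)) (twinGen hT hQ q) = 1 := by
  rw [twinGen]
  split_ifs with h
  · exact (plainAux hT hQ).gen_away ⟨q.1, mem_plainAux_Q hT hQ h⟩
  · exact (twinAux hT hQ).gen_away q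

omit [NeZero (inputN₀ N Q)] [NeZero (inputN₀ N ∅)] in
theorem inputN₀_dvd_div {q : ℕ} (hq : q ∈ Q) : inputN₀ N ∅ ∣ inputN₀ N Q / q := by
  rw [inputN₀, inputN₀, Finset.prod_empty, mul_one,
    Nat.mul_div_assoc _ (Finset.dvd_prod_of_mem (fun x => x) hq)]
  exact dvd_mul_right N _

omit [NeZero (inputN₀ N ∅)] [CharZero O] [NeZero (inputN₀ N Q)] in
/-- A unit trivial away from an auxiliary prime is trivial at the base. -/
theorem inputRestr_cls_eq_one {q : ℕ} (hq : q ∈ Q) (hd : q ∣ inputN₀ N Q)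
    {a : (ZMod (inputN₀ N Q))ˣ} (ha : ZMod.unitsMap (Nat.div_dvd_of_dvd hd) a = 1) :
    inputRestr hT hQ ((twinAux hT hQ).cls a) = 1 := by
  rw [inputRestr_cls, ← unitsMap_unitsMap (inputN₀_dvd_div hq) (Nat.div_dvd_of_dvd hd), ha, map_one,
    map_one]

omit [NeZero (inputN₀ N ∅)] [CharZero O] [NeZero (inputN₀ N Q)] in
/-- A unit trivial away from an avoided prime is killed by the projection. -/
theorem inputProj_cls_eq_one (q : (twinAux hT hQ).Q) (hq : q.1 ∉ Q) {a : (ZMod (inputN₀ N Q))ˣ}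
    (ha : ZMod.unitsMap (Nat.div_dvd_of_dvd ((twinAux hT hQ).dvd q.1 q.2)) a = 1) :
    inputProj hT hQ ((twinAux hT hQ).cls a) = 1 := by
  rw [inputProj_cls]
  refine (plainAux hT hQ).eq_one_of_comp fun q' => ?_
  have hq' : q'.1 ∈ Q := by
    have h : q'.1 ∈ Q ∪ ∅ := q'.2
    simpa using h
  have hd : q'.1 ∣ inputN₀ N Q / q.1 := by
    rw [Nat.dvd_div_iff_mul_dvd ((twinAux hT hQ).dvd q.1 q.2)]
    exact ((Nat.coprime_primes ((twinAux hT hQ).prime q.1 q.2) (hQ.prime q'.1 hq')).2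
      fun e => hq (e ▸ hq')).mul_dvd_of_dvd_of_dvd ((twinAux hT hQ).dvd q.1 q.2)
        ((plainAux hT hQ).dvd q'.1 q'.2)
  rw [AuxPrimes.comp_cls,
    ← unitsMap_unitsMap hd (Nat.div_dvd_of_dvd ((twinAux hT hQ).dvd q.1 q.2)), ha, map_one, one_pow]

omit [NeZero (inputN₀ N ∅)] [CharZero O] [NeZero (inputN₀ N Q)] in
theorem inputProj_twinGen (q : (twinAux hT hQ).Q) (h : q.1 ∈ Q) :
    inputProj hT hQ ((twinAux hT hQ).cls (twinGen hT hQ q)) =
      (plainAux hT hQ).cls ((plainAux hT hQ).gen ⟨q.1, mem_plainAux_Q hT hQ h⟩) := by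
  rw [inputProj_cls, twinGen, dif_pos h]

omit [NeZero (inputN₀ N ∅)] [CharZero O] [NeZero (inputN₀ N Q)] in
theorem inputRestr_twinGen (q : (twinAux hT hQ).Q) (h : q.1 ∈ Q) :
    inputRestr hT hQ ((twinAux hT hQ).cls (twinGen hT hQ q)) = 1 :=
  inputRestr_cls_eq_one hT hQ h ((twinAux hT hQ).dvd q.1 q.2) (twinGen_away hT hQ q)

omit [NeZero (inputN₀ N ∅)] [CharZero O] [NeZero (inputN₀ N Q)] in
theorem inputProj_twinGen_avoid (q : (twinAux hT hQ).Q) (h : q.1 ∉ Q) :
    inputProj hT hQ ((twinAux hT hQ).cls (twinGen hT hQ q)) = 1 :=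
  inputProj_cls_eq_one hT hQ q h (twinGen_away hT hQ q)

omit [NeZero (inputN₀ N ∅)] [CharZero O] in
/-- The generator is a power of the compatible one. -/
theorem exists_gen_eq_pow (q : (twinAux hT hQ).Q) : ∃ k : ℕ,
    (twinAux hT hQ).cls ((twinAux hT hQ).gen q) = (twinAux hT hQ).cls (twinGen hT hQ q) ^ k := by
  by_cases h : q.1 ∈ Q
  · obtain ⟨k, hk⟩ := exists_cls_eq_pow (plainAux hT hQ) ⟨q.1, mem_plainAux_Q hT hQ h⟩
      ((twinAux hT hQ).gen_away q)
    refine ⟨k, ?_⟩
    obtain ⟨e, he⟩ := exists_split hT hQ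
    refine e.injective ?_
    rw [map_pow, he, he, Prod.pow_mk, inputProj_twinGen hT hQ q h, inputProj_cls, hk,
      inputRestr_twinGen hT hQ q h, one_pow,
      inputRestr_cls_eq_one hT hQ h ((twinAux hT hQ).dvd q.1 q.2) ((twinAux hT hQ).gen_away q)]
  · exact ⟨1, by rw [pow_one, twinGen, dif_neg h]⟩

omit [NeZero (inputN₀ N ∅)] [CharZero O] in
theorem closure_twinGen :
    Subgroup.closure (Set.range fun q => (twinAux hT hQ).cls (twinGen hT hQ q)) = ⊤ := by
  refine eq_top_iff.2 ((twinAux hT hQ).closure_gen.symm.le.trans ((Subgroup.closure_le _).2 ?_))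
  rintro _ ⟨q, rfl⟩
  obtain ⟨k, hk⟩ := exists_gen_eq_pow hT hQ q
  rw [SetLike.mem_coe, show (fun q => (twinAux hT hQ).cls ((twinAux hT hQ).gen q)) q =
    (twinAux hT hQ).cls ((twinAux hT hQ).gen q) from rfl, hk]
  exact Subgroup.pow_mem _ (Subgroup.subset_closure (Set.mem_range_self
    (f := fun q => (twinAux hT hQ).cls (twinGen hT hQ q)) q)) _

omit [NeZero (inputN₀ N ∅)] in
/-- A diamond operator on the top is that of its class. -/
theorem twinTop_dia (a : (ZMod (inputN₀ N Q))ˣ) :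
    (twinTop hT hQ ∅).C.dia a = (twinDown hT hQ ∅).delta ((twinAux hT hQ).cls a) :=
  ((twinDown hT hQ ∅).delta_down a).symm.trans
    (congrArg (fun b => (twinDown hT hQ ∅).delta ((twinAux hT hQ).cls b))
      (DFunLike.congr_fun (ZMod.unitsMap_self (inputN₀ N Q)) a))

/-- The diamond data of the top for the compatible generators. -/
def twinData (pl : ∀ q : (twinAux hT hQ).Q, LocalPlace D.ρbar p q.1) :
    DeltaData (twinTop hT hQ ∅) (twinAux hT hQ).G (twinAux hT hQ).Q where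
  g q := (twinAux hT hQ).cls (twinGen hT hQ q)
  gen := closure_twinGen hT hQ
  δ := (twinDown hT hQ ∅).delta
  loc q :=
    { q := q.1
      prime := (twinAux hT hQ).prime q.1 q.2
      ne := (pl q).ne
      dvd := (twinAux hT hQ).dvd q.1 q.2
      sq := (twinAux hT hQ).sq q.1 q.2
      P := (pl q).P
      P_over := (pl q).P_over
      φ := (pl q).φ
      frob := (pl q).frob
      τ := (pl q).τ
      tame := (pl q).tame
      unr := (pl q).unr
      a := twinGen hT hQ q
      away := twinGen_away hT hQ q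
      gen := fun a' h => by
        obtain ⟨k, hk⟩ := exists_cls_eq_pow (twinAux hT hQ) q (a := a') h
        obtain ⟨m, hm⟩ := exists_gen_eq_pow hT hQ q
        refine ⟨m * k, ?_⟩
        exact (twinTop_dia hT hQ a').trans ((congrArg (twinDown hT hQ ∅).delta (hk.trans
          ((congrArg (· ^ k) hm).trans (pow_mul _ _ _).symm))).trans ((map_pow _ _ _).trans
            (congrArg (· ^ (m * k)) (twinTop_dia hT hQ (twinGen hT hQ q)).symm))) }
  dia q := (twinTop_dia hT hQ (twinGen hT hQ q)).symm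

omit [NeZero (inputN₀ N Q)] [NeZero (inputN₀ N ∅)] [CharZero O] in
theorem dvd_twinAux_m (q : ℕ) (_hq : q ∈ (twinAux hT hQ).Q) : p ∣ (twinAux hT hQ).m q := by
  show p ∣ (if q ∈ Q then p ^ (q - 1).factorization p else p)
  split_ifs with h
  · have hne : q - 1 ≠ 0 := by have := (hQ.prime q h).two_le; omega
    exact dvd_pow_self p
      ((Fact.out : p.Prime).factorization_pos_of_dvd hne (hQ.one_mod q h)).ne'
  · exact dvd_rfl

omit [NeZero (inputN₀ N ∅)] [CharZero O] in
/-- **Characters dual to the compatible generators.** -/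
theorem exists_twinDual : ∃ χ : (twinAux hT hQ).Q → (twinAux hT hQ).G →* O,
    (∀ j, χ j ((twinAux hT hQ).cls (twinGen hT hQ j)) = D.ζ) ∧
      (∀ j j', j ≠ j' → χ j' ((twinAux hT hQ).cls (twinGen hT hQ j)) = 1) ∧
      ∀ j g, ∃ k : ℕ, χ j g = D.ζ ^ k := by
  obtain ⟨χ, h1, h2, h3⟩ := exists_chi (A₀ := twinAux hT hQ) D.ζ_pow
    (dvd_twinAux_m hT hQ)
  choose k hk using exists_gen_eq_pow hT hQ
  refine ⟨fun j => (powMonoidHom (k j)).comp (χ j), fun j => ?_, fun j j' hj => ?_, fun j g => ?_⟩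
  · rw [MonoidHom.comp_apply, powMonoidHom_apply, ← map_pow, ← hk, h1]
  · obtain ⟨m, hm⟩ := exists_cls_eq_pow (twinAux hT hQ) j (twinGen_away hT hQ j)
    rw [MonoidHom.comp_apply, powMonoidHom_apply, hm, map_pow, h2 j j' hj, one_pow, one_pow]
  · obtain ⟨m, hm⟩ := h3 j g
    exact ⟨m * k j, by rw [MonoidHom.comp_apply, powMonoidHom_apply, hm, pow_mul]⟩

end Fermat.Agent.Root.Patched
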