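import Fermat.Agent.Root.Patched.TowerStepTwinDesc
import Fermat.Agent.Root.Patched.TowerTwinGen

/-!
# The algebra over which stage `0` and the twin are compared

The group ring over the ring of a step of the group of the avoided primes, acting on the top of the
twin through the traces and the diamond operators, with its structure map from the group of the top.
-/

set_option autoImplicit false
set_option maxSynthPendingDepth 3

noncomputable section

namespace Fermat.Agent.Root.Patched

open IsLocalRing Fermat.Agent.Deformation Fermat.Agent.GammaH Fermat.Agent.TW Fermat.Agent.IharaTW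
  Fermat.Agent.TW.EtaFree

local notation "ℚbar" => AlgebraicClosure ℚ

attribute [local instance] testAlgebra

variable {O : Type} [CommRing O] [IsDomain O] [IsDiscreteValuationRing O]
  [IsAdicComplete (maximalIdeal O) O] [Finite (ResidueField O)] [CharZero O]
  {p : ℕ} [Fact p.Prime] {W : WeierstrassCurve ℤ} {D : ResidualData O p W}
  {Sys : LocalSystem O D.ρbar p} {St : StdData Sys D.ζ} {N : ℕ}

section Groups

variable (hT : TowerHyp D Sys St N) {Q : Finset ℕ} (hQ : AuxSet Sys Q)
  [NeZero (inputN₀ N Q)] [NeZero (inputN₀ N ∅)]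

/-- The group of the avoided primes inside that of the top of the twin. -/
def liftAvoid : (baseAux hT).G →* (twinAux hT hQ).G :=
  (exists_split hT hQ).choose.symm.toMonoidHom.comp (MonoidHom.inr _ _)

omit [NeZero (inputN₀ N ∅)] [CharZero O] [NeZero (inputN₀ N Q)] in
theorem split_liftAvoid (h : (baseAux hT).G) :
    inputProj hT hQ (liftAvoid hT hQ h) = 1 ∧ inputRestr hT hQ (liftAvoid hT hQ h) = h := by
  have e := (exists_split hT hQ).choose_spec (liftAvoid hT hQ h)
  have e1 : (exists_split hT hQ).choose (liftAvoid hT hQ h) = ((1 : (plainAux hT hQ).G), h) :=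
    (exists_split hT hQ).choose.apply_symm_apply _
  rw [e1, Prod.mk.injEq] at e
  exact ⟨e.1.symm, e.2.symm⟩

omit [NeZero (inputN₀ N ∅)] [CharZero O] [NeZero (inputN₀ N Q)] in
theorem liftAvoid_restr {g : (twinAux hT hQ).G} (hg : inputProj hT hQ g = 1) :
    liftAvoid hT hQ (inputRestr hT hQ g) = g := by
  refine (exists_split hT hQ).choose.injective ?_
  rw [(exists_split hT hQ).choose_spec, (exists_split hT hQ).choose_spec,
    (split_liftAvoid hT hQ _).1, (split_liftAvoid hT hQ _).2, hg]

end Groups

variable {hT : TowerHyp D Sys St N} [NeZero (inputN₀ N ∅)] {E : Type} [Fintype E]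
  {P : PointFamily Sys E}
  {B : BottomRings hT P} {Q : Finset ℕ} {hQ : AuxSet Sys Q} [NeZero (inputN₀ N Q)]
  (S : StepData B hQ) (hdist : ∀ q ∈ Q, ∀ A : ValuationSubring ℚbar, A.LiesOverPrime q →
    ∀ σ : GQ, A.IsFrobeniusAt σ q → ∃ α β : ResidueField O, α ≠ β ∧
      (D.ρbar σ).charpoly = (Polynomial.X - Polynomial.C α) * (Polynomial.X - Polynomial.C β))
  {r : ℕ} (hr : Q.card = r)

/-- The top of the twin as a member. -/
def StepData.prTop : S.R.G.J.R →ₐ[O] (twinTop hT hQ ∅).C.Ring' where
  toRingHom := S.R.G.pr (.inl (.inr (.inl ())))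
  commutes' c := RingHom.congr_fun (S.R.G.pr_alg (.inl (.inr (.inl ())))) c

omit [Fintype E] in
theorem StepData.prTop_trace (σ : GQ) :
    S.prTop (S.R.G.lift.M σ).trace = ((twinTop hT hQ ∅).lift.M σ).trace :=
  S.R.G.pr_trace (.inl (.inr (.inl ()))) σ

omit [Fintype E] in
theorem StepData.prX_pX (x : S.R.G.J.R) :
    S.R.GX.pr () (S.R.pX x) = twinMap hT hQ ∅ (S.prTop x) := by
  have h : ∀ y, S.R.GX.pr () (S.R.pX y) = S.R.G.pr (.inl (.inr (.inr ()))) y := fun y =>
    S.R.pr_X () y
  have e : (twinMap hT hQ ∅).toRingHom.comp S.prTop.toRingHom =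
      (S.R.GX.pr ()).comp S.R.pX := by
    refine RingHom.eq_of_eqOn_set_top ?_
    rw [← S.R.G.gen]
    refine RingHom.eqOn_set_closure ?_
    rintro y (⟨c, rfl⟩ | ⟨σ, rfl⟩)
    · exact (congrArg (twinMap hT hQ ∅) (S.prTop.commutes c)).trans
        (((twinMap hT hQ ∅).commutes c).trans
          (((h _).trans (RingHom.congr_fun (S.R.G.pr_alg (.inl (.inr (.inr ())))) c)).symm))
    · refine (congrArg (twinMap hT hQ ∅) (S.prTop_trace σ)).trans (Eq.symm ?_)
      refine (h _).trans ((S.R.G.pr_trace (.inl (.inr (.inr ()))) σ).trans ?_)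
      exact (congrArg Matrix.trace ((twinTop hT hQ ∅).sub_lift_M _ _ σ)).trans
        (AddMonoidHom.map_trace (twinMap hT hQ ∅).toRingHom.toAddMonoidHom _).symm
  exact (RingHom.congr_fun e x).symm

/-- The action of the group ring on the top of the twin, in the ring of the top. -/
def StepData.topAlg :
    MonoidAlgebra S.R.G.J.R (baseAux hT).G →ₐ[O] (twinTop hT hQ ∅).C.Ring' :=
  charLift S.prTop ((twinDown hT hQ ∅).delta.comp (liftAvoid hT hQ))

omit [Fintype E] in
theorem StepData.topAlg_single (h : (baseAux hT).G) (a : S.R.G.J.R) :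
    S.topAlg (MonoidAlgebra.single h a) =
      S.prTop a * (twinDown hT hQ ∅).delta (liftAvoid hT hQ h) :=
  charLift_single _ _ h a

/-- The action on the top of the twin. -/
def StepData.topAct : MonoidAlgebra S.R.G.J.R (baseAux hT).G →ₐ[O]
    Module.End O (LinearMap.range (twinTop hT hQ ∅).C.E) :=
  (twinTop hT hQ ∅).C.actR.comp S.topAlg

/-- The inertia eigenvalues in the glued ring. -/
def StepData.etaJ : (S.stageRings.setup hdist hr).A₀.G →* S.R.G.J.R :=
  etaHom (S.stageRings.setup hdist hr).pl (S.stageRings.setup hdist hr).hm S.R.G.J S.R.G.lift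
    (S.R.det D.p_mem (memberLift_det (plainData hT hQ) (avoidChain hT hQ)
      (twinElem hT hQ ∅) (twinElem_ne hT hQ ∅) P.pt P.det))

/-- The structure map of the top over the group ring. -/
def StepData.zetaTop : (twinAux hT hQ).G →* MonoidAlgebra S.R.G.J.R (baseAux hT).G where
  toFun g := MonoidAlgebra.single (inputRestr hT hQ g) (S.etaJ hdist hr (inputProj hT hQ g))
  map_one' := by
    rw [map_one, map_one]
    exact (congrArg (MonoidAlgebra.single _) (map_one (S.etaJ hdist hr))).trans
      MonoidAlgebra.one_def.symm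
  map_mul' g g' := by
    rw [MonoidAlgebra.single_mul_single, map_mul, map_mul]
    exact congrArg (MonoidAlgebra.single _) (map_mul (S.etaJ hdist hr) _ _)

/-- The structure map of the top in its ring. -/
def StepData.psiTop : (twinAux hT hQ).G →* (twinTop hT hQ ∅).C.Ring' :=
  S.topAlg.toRingHom.toMonoidHom.comp (S.zetaTop hdist hr)

omit [Fintype E] in
theorem StepData.psiTop_apply (g : (twinAux hT hQ).G) : S.psiTop hdist hr g =
    S.prTop (S.etaJ hdist hr (inputProj hT hQ g)) *
      (twinDown hT hQ ∅).delta (liftAvoid hT hQ (inputRestr hT hQ g)) :=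
  S.topAlg_single _ _

omit [Fintype E] in
/-- Over the avoided primes it is the diamond operators. -/
theorem StepData.psiTop_of_proj {g : (twinAux hT hQ).G} (hg : inputProj hT hQ g = 1) :
    S.psiTop hdist hr g = (twinDown hT hQ ∅).delta g := by
  have h1 : S.etaJ hdist hr (inputProj hT hQ g) = 1 := by
    rw [hg]
    exact map_one (S.etaJ hdist hr)
  rw [psiTop_apply, h1, map_one, one_mul, liftAvoid_restr hT hQ hg]

omit [Fintype E] in
/-- Twisted norms along the projection are those of the diamond operators. -/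
theorem StepData.topAlg_eigElem (χ : (twinAux hT hQ).G →* Oˣ) :
    S.topAlg (eigElem (S.zetaTop hdist hr) (inputProj hT hQ) χ) =
      strElem (twinDown hT hQ ∅).delta (twistNorm (inputProj hT hQ) χ) := by
  classical
  rw [eigElem, twistNorm, map_sum, map_sum, map_sum]
  refine Finset.sum_congr rfl fun g _ => ?_
  split_ifs with hg
  · rw [strElem_single, strElem_single, map_smul]
    exact congrArg _ (S.psiTop_of_proj hdist hr hg)
  · rw [map_zero, map_zero, map_zero]

omit [Fintype E] in
/-- At an auxiliary generator it is the inertia eigenvalue. -/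
theorem StepData.psiTop_twinGen (q : (twinAux hT hQ).Q) (h : q.1 ∈ Q) :
    S.psiTop hdist hr ((twinAux hT hQ).cls (twinGen hT hQ q)) =
      ((S.stageRings.setup hdist hr).pl ⟨q.1, mem_plainAux_Q hT hQ h⟩).eta (twinTop hT hQ ∅).ring
        (twinTop hT hQ ∅).lift := by
  have h1 : S.etaJ hdist hr (inputProj hT hQ ((twinAux hT hQ).cls (twinGen hT hQ q))) =
      ((S.stageRings.setup hdist hr).pl ⟨q.1, mem_plainAux_Q hT hQ h⟩).eta S.R.G.J S.R.G.lift :=
    (congrArg (S.etaJ hdist hr) (inputProj_twinGen hT hQ q h)).trans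
      (etaHom_gen (S.stageRings.setup hdist hr).pl _ _ _ _ _)
  rw [psiTop_apply, h1, inputRestr_twinGen hT hQ q h, map_one (liftAvoid hT hQ), map_one, mul_one]
  exact S.R.G.pr_eta _ (.inl (.inr (.inl ())))

end Fermat.Agent.Root.Patched
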