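import Fermat.Agent.Root.Patched.TowerTwin

/-!
# Descent of the twin to the base

A map of the tops which respects the diamond operators and whose kernel is read off the invariant
vectors maps the twin onto the twin of the base, with the same criterion.
-/

set_option autoImplicit false
set_option maxSynthPendingDepth 3

noncomputable section

namespace Fermat.Agent.Root.Patched

open IsLocalRing Fermat.Agent.Deformation Fermat.Agent.GammaH Fermat.Agent.TW Fermat.Agent.IharaTW
  Fermat.Agent.TW.EtaFree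

local notation "ℚbar" => AlgebraicClosure ℚ

section Sub

variable {O : Type} [CommRing O] [IsDomain O] [IsDiscreteValuationRing O]
  [IsAdicComplete (maximalIdeal O) O] [Finite (ResidueField O)] [CharZero O]
  {p : ℕ} {ρbar : GQ →* M2 (ResidueField O)} (A : TStage O p ρbar)
  (z : HeckeO A.L A.H (↑A.S : Set ℕ) O) (hz : actO A.neg O z * A.C.E ≠ 0)

omit [Finite (ResidueField O)] [CharZero O] in
/-- A part acts as the whole does. -/
theorem TStage.coe_actR_sub (c : A.C.Ring') (w : LinearMap.range (A.C.sub z hz).E)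
    (v : LinearMap.range A.C.E) (h : (w : H1 A.L A.H O O) = (v : H1 A.L A.H O O)) :
    ((A.C.sub z hz).actR (A.C.toSub z hz c) w : H1 A.L A.H O O) =
      (A.C.actR c v : H1 A.L A.H O O) := by
  obtain ⟨x, rfl⟩ := Ideal.Quotient.mk_surjective c
  rw [Cut.toSub_mk]
  rw [Cut.actR_mk, Cut.actR_mk, Cut.coe_act, Cut.coe_act]
  exact congrArg (actO A.neg O x) h

omit [Finite (ResidueField O)] [CharZero O] in
/-- The range of a part. -/
theorem TStage.exists_coe_eq_sub (w : LinearMap.range (A.C.sub z hz).E) :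
    ∃ u : LinearMap.range A.C.E, (w : H1 A.L A.H O O) =
      (A.C.actR (Ideal.Quotient.mk A.C.kerIdeal z) u : H1 A.L A.H O O) := by
  obtain ⟨x, hx⟩ := w.2
  refine ⟨⟨A.C.E x, LinearMap.mem_range_self _ x⟩, ?_⟩
  rw [Cut.actR_mk, Cut.coe_act]
  exact hx.symm

/-- A vector of the whole moved into a part. -/
def TStage.intoSub (v : LinearMap.range A.C.E) : LinearMap.range (A.C.sub z hz).E :=
  ⟨(A.C.actR (Ideal.Quotient.mk A.C.kerIdeal z) v : H1 A.L A.H O O), by
    obtain ⟨x, hx⟩ := v.2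
    refine ⟨x, ?_⟩
    rw [Cut.actR_mk, Cut.coe_act, ← hx]
    rfl⟩

omit [Finite (ResidueField O)] [CharZero O] in
/-- **Invariant vectors of a part** cut out by an element with `ν² = n ν`. -/
theorem TStage.forall_fixed_sub_iff {G : Set (ZMod A.L)ˣ} {n : O} (hn : n ≠ 0)
    (hsq : Ideal.Quotient.mk A.C.kerIdeal z * Ideal.Quotient.mk A.C.kerIdeal z =
      n • Ideal.Quotient.mk A.C.kerIdeal z) (b : A.C.Ring') :
    (∀ v : LinearMap.range A.C.E, (∀ a ∈ G, A.C.actR (A.C.dia a) v = v) →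
        A.C.actR (b * Ideal.Quotient.mk A.C.kerIdeal z) v = 0) ↔
      ∀ w : LinearMap.range (A.C.sub z hz).E,
        (∀ a ∈ G, (A.C.sub z hz).actR ((A.C.sub z hz).dia a) w = w) →
          (A.C.sub z hz).actR (A.C.toSub z hz b) w = 0 := by
  constructor
  · intro h w hw
    obtain ⟨u, hu⟩ := A.exists_coe_eq_sub z hz w
    have hfix : ∀ a ∈ G, A.C.actR (A.C.dia a) (A.C.actR (Ideal.Quotient.mk A.C.kerIdeal z) u) =
        A.C.actR (Ideal.Quotient.mk A.C.kerIdeal z) u := fun a ha => Subtype.ext (by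
      rw [← A.coe_actR_sub z hz (A.C.dia a) w _ hu, ← hu]
      exact congrArg Subtype.val (hw a ha))
    have h0 := h _ hfix
    rw [map_mul, Module.End.mul_apply,
      ← Module.End.mul_apply (A.C.actR (Ideal.Quotient.mk A.C.kerIdeal z)), ← map_mul, hsq,
      map_smul, LinearMap.smul_apply, map_smul] at h0
    have : Module.IsTorsionFree O (H1 A.L A.H O O) :=
      Function.Injective.moduleIsTorsionFree _ (coordH A.neg O O).symm.injective
        fun x y => map_smul (coordH A.neg O O).symm x y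
    have h1 := (smul_eq_zero.1 h0).resolve_left hn
    refine Subtype.ext ?_
    rw [A.coe_actR_sub z hz b w _ hu, h1]
    rfl
  · intro h v hfix
    have hw := h (A.intoSub z hz v) fun a ha => Subtype.ext (by
      rw [show (A.C.sub z hz).dia a = A.C.toSub z hz (A.C.dia a) from rfl,
        A.coe_actR_sub z hz (A.C.dia a) (A.intoSub z hz v)
          (A.C.actR (Ideal.Quotient.mk A.C.kerIdeal z) v) rfl]
      show _ = (A.C.actR (Ideal.Quotient.mk A.C.kerIdeal z) v : H1 A.L A.H O O)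
      rw [← Module.End.mul_apply (A.C.actR (A.C.dia a)), ← map_mul A.C.actR (A.C.dia a),
        mul_comm (A.C.dia a), map_mul A.C.actR _ (A.C.dia a),
        Module.End.mul_apply (A.C.actR (Ideal.Quotient.mk A.C.kerIdeal z)), hfix a ha])
    refine (LinearMap.congr_fun (map_mul A.C.actR b _) v).trans ?_
    have h3 := (A.coe_actR_sub z hz b (A.intoSub z hz v)
      (A.C.actR (Ideal.Quotient.mk A.C.kerIdeal z) v) rfl).symm.trans (congrArg Subtype.val hw)
    rw [ZeroMemClass.coe_zero] at h3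
    exact Subtype.ext (h3.trans (ZeroMemClass.coe_zero _).symm)

end Sub

variable {O : Type} [CommRing O] [IsDomain O] [IsDiscreteValuationRing O]
  [IsAdicComplete (maximalIdeal O) O] [Finite (ResidueField O)] [CharZero O]
  {p : ℕ} [Fact p.Prime] {W : WeierstrassCurve ℤ}
  {D : ResidualData O p W} {Sys : LocalSystem O D.ρbar p} {St : StdData Sys D.ζ} {N : ℕ}
  (hT : TowerHyp D Sys St N) {Q : Finset ℕ} (hQ : AuxSet Sys Q)
  [NeZero (inputN₀ N Q)] [NeZero (inputN₀ N ∅)] (Sx Sx₀ : Finset ℕ)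

omit [CharZero O] [NeZero (inputN₀ N ∅)] in
theorem inputRestr_base (x : (baseAux hT).G) : inputRestr hT (AuxSet.empty Sys) x = x := by
  obtain ⟨a, rfl⟩ := (baseAux hT).cls_surjective x
  rw [inputRestr_cls, ZMod.unitsMap_self]
  rfl

omit [CharZero O] [NeZero (inputN₀ N ∅)] in
theorem inputProj_base (x : (baseAux hT).G) : inputProj hT (AuxSet.empty Sys) x = 1 :=
  (plainAux hT (AuxSet.empty Sys)).eq_one_of_comp fun q => by
    have h : q.1 ∈ (∅ : Finset ℕ) ∪ ∅ := q.2
    rw [Finset.empty_union] at h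
    exact absurd h (Finset.notMem_empty _)

omit [NeZero (inputN₀ N ∅)] in
/-- The square of the element of the twin. -/
theorem exists_twinNu_mul_self [Fintype (twinAux hT hQ).G] :
    ∃ n : O, n ≠ 0 ∧ twinNu hT hQ Sx * twinNu hT hQ Sx = n • twinNu hT hQ Sx := by
  classical
  let T := Finset.univ.filter fun g : (twinAux hT hQ).G => inputProj hT hQ g = 1
  refine ⟨T.card, Nat.cast_ne_zero.2 (Finset.card_ne_zero_of_mem (a := 1)
    (Finset.mem_filter.2 ⟨Finset.mem_univ _, map_one _⟩)), ?_⟩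
  rw [twinNu, ← map_mul, ← map_smul]
  congr 1
  conv_lhs => arg 1; rw [twistNorm]
  rw [Finset.sum_mul, Nat.cast_smul_eq_nsmul, ← Finset.sum_const, Finset.sum_filter]
  refine Finset.sum_congr rfl fun g _ => ?_
  split_ifs with hg
  · rw [← mul_one (((inputChi hT hQ g)⁻¹ : Oˣ) : O), ← MonoidAlgebra.smul_single', smul_mul_assoc,
      single_mul_twistNorm _ _ hg, smul_smul, Units.inv_mul, one_smul]
  · exact zero_mul _

variable (f : (twinTop hT hQ Sx).C.Ring' →ₐ[O] (twinTop hT (AuxSet.empty Sys) Sx₀).C.Ring')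
  (hd : (twinTop hT (AuxSet.empty Sys) Sx₀).L ∣ (twinTop hT hQ Sx).L)
  (hdia : ∀ a, f ((twinTop hT hQ Sx).C.dia a) =
    (twinTop hT (AuxSet.empty Sys) Sx₀).C.dia (ZMod.unitsMap hd a))

include hdia in
theorem descend_delta (g : (twinAux hT hQ).G) :
    f ((twinDown hT hQ Sx).delta g) =
      (twinDown hT (AuxSet.empty Sys) Sx₀).delta (inputRestr hT hQ g) := by
  obtain ⟨a, rfl⟩ := (twinDown hT hQ Sx).down_surjective g
  rw [IsDown.delta_down, hdia, ← (twinDown hT (AuxSet.empty Sys) Sx₀).delta_down]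
  refine congrArg (twinDown hT (AuxSet.empty Sys) Sx₀).delta ?_
  show (baseAux hT).cls (ZMod.unitsMap _ (ZMod.unitsMap hd a)) =
    (baseAux hT).cls (ZMod.unitsMap inputN₀_dvd_aux (ZMod.unitsMap _ a))
  exact congrArg _ ((unitsMap_unitsMap _ _ a).trans (unitsMap_unitsMap _ _ a).symm)

include hdia in
/-- The element of the twin goes to that of the base. -/
theorem descend_twinNu [Fintype (twinAux hT hQ).G] [Fintype (baseAux hT).G] :
    f (twinNu hT hQ Sx) = twinNu hT (AuxSet.empty Sys) Sx₀ := by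
  classical
  obtain ⟨e, he⟩ := exists_split hT hQ
  rw [twinNu, twinNu, twistNorm, twistNorm]
  simp only [map_sum, apply_ite (strElem _), map_zero, ← Finset.sum_filter,
    strElem_single, map_smul, descend_delta hT hQ Sx Sx₀ f hd hdia]
  refine Finset.sum_bij (fun g _ => inputRestr hT hQ g) (fun g _ => Finset.mem_filter.2
    ⟨Finset.mem_univ _, inputProj_base hT _⟩) (fun g hg g' hg' h => ?_) (fun y _ => ?_)
    fun g _ => ?_
  · refine e.injective ?_
    rw [he, he, (Finset.mem_filter.1 hg).2, (Finset.mem_filter.1 hg').2, h]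
  · refine ⟨e.symm (1, y), ?_, ?_⟩
    · have h := congrArg Prod.fst (he (e.symm (1, y)))
      rw [MulEquiv.apply_symm_apply] at h
      exact Finset.mem_filter.2 ⟨Finset.mem_univ _, h.symm⟩
    · have h := congrArg Prod.snd (he (e.symm (1, y)))
      rw [MulEquiv.apply_symm_apply] at h
      exact h.symm
  · rw [inputChi_eq, inputChi_eq, inputRestr_base]

include hdia in
/-- **The twin descends to the twin of the base.** -/
theorem exists_twinDescend [Fintype (twinAux hT hQ).G] [Fintype (baseAux hT).G]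
    (hsurj : Function.Surjective f) (S₀ : Finset ℕ)
    (hfrob : ∀ l : ℕ, l.Prime → l ∉ S₀ → ∀ P : ValuationSubring ℚbar, P.LiesOverPrime l →
      ∀ σ : GQ, P.IsFrobeniusAt σ l → f ((twinTop hT hQ Sx).lift.M σ).trace =
        ((twinTop hT (AuxSet.empty Sys) Sx₀).lift.M σ).trace)
    (hker : ∀ c, f c = 0 ↔ ∀ v : LinearMap.range (twinTop hT hQ Sx).C.E,
      (∀ a, ZMod.unitsMap hd a ∈ (twinTop hT (AuxSet.empty Sys) Sx₀).H →
        (twinTop hT hQ Sx).C.actR ((twinTop hT hQ Sx).C.dia a) v = v) →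
      (twinTop hT hQ Sx).C.actR c v = 0) :
    ∃ fX : (twinMember hT hQ Sx).C.Ring' →ₐ[O] (twinMember hT (AuxSet.empty Sys) Sx₀).C.Ring',
      Function.Surjective fX ∧
      (∀ c, fX (twinMap hT hQ Sx c) = twinMap hT (AuxSet.empty Sys) Sx₀ (f c)) ∧
      (∀ l : ℕ, l.Prime → l ∉ S₀ → ∀ P : ValuationSubring ℚbar, P.LiesOverPrime l →
        ∀ σ : GQ, P.IsFrobeniusAt σ l → fX ((twinMember hT hQ Sx).lift.M σ).trace =
          ((twinMember hT (AuxSet.empty Sys) Sx₀).lift.M σ).trace) ∧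
      ∀ c, fX c = 0 ↔ ∀ v : LinearMap.range (twinMember hT hQ Sx).C.E,
        (∀ a : (ZMod (twinTop hT hQ Sx).L)ˣ,
          ZMod.unitsMap hd a ∈ (twinTop hT (AuxSet.empty Sys) Sx₀).H →
            (twinMember hT hQ Sx).C.actR ((twinMember hT hQ Sx).C.dia a) v = v) →
        (twinMember hT hQ Sx).C.actR c v = 0 := by
  have hnu := descend_twinNu hT hQ Sx Sx₀ f hd hdia
  have hkey : ∀ c, twinMap hT (AuxSet.empty Sys) Sx₀ (f c) = 0 ↔
      f (c * twinNu hT hQ Sx) = 0 := fun c => by
    rw [twinMap_eq_zero_iff, map_mul, hnu]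
  let fX : (twinMember hT hQ Sx).C.Ring' →ₐ[O] (twinMember hT (AuxSet.empty Sys) Sx₀).C.Ring' :=
    Ideal.Quotient.liftₐ (twinMember hT hQ Sx).C.kerIdeal
      (((twinMap hT (AuxSet.empty Sys) Sx₀).comp f).comp
        (Ideal.Quotient.mkₐ O (twinTop hT hQ Sx).C.kerIdeal)) fun x hx => by
      show twinMap hT (AuxSet.empty Sys) Sx₀
        (f (Ideal.Quotient.mk (twinTop hT hQ Sx).C.kerIdeal x)) = 0
      refine (hkey _).2 ?_
      rw [(twinMap_eq_zero_iff hT hQ Sx _).1 (Ideal.Quotient.eq_zero_iff_mem.2 hx), map_zero]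
  have hfX : ∀ c, fX (twinMap hT hQ Sx c) = twinMap hT (AuxSet.empty Sys) Sx₀ (f c) := fun c => by
    obtain ⟨x, rfl⟩ := Ideal.Quotient.mk_surjective c
    rfl
  have hmap : Function.Surjective (twinMap hT hQ Sx) := fun y => by
    obtain ⟨x, rfl⟩ := Ideal.Quotient.mk_surjective y
    exact ⟨Ideal.Quotient.mk _ x, rfl⟩
  refine ⟨fX, fun y => ?_, hfX, fun l hl hlS P hP σ hσ => ?_, fun c => ?_⟩
  · obtain ⟨x, rfl⟩ := Ideal.Quotient.mk_surjective y
    obtain ⟨c, hc⟩ := hsurj (Ideal.Quotient.mk _ x)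
    exact ⟨twinMap hT hQ Sx c, (hfX c).trans (by rw [hc]; rfl)⟩
  · have h1 := TStage.sub_lift_M (twinTop hT hQ Sx) (twinElem hT hQ Sx) (twinElem_ne hT hQ Sx) σ
    have h2 := TStage.sub_lift_M (twinTop hT (AuxSet.empty Sys) Sx₀)
      (twinElem hT (AuxSet.empty Sys) Sx₀) (twinElem_ne hT (AuxSet.empty Sys) Sx₀) σ
    refine ((congrArg fX ((congrArg Matrix.trace h1).trans
      (AddMonoidHom.map_trace (twinMap hT hQ Sx).toRingHom.toAddMonoidHom _).symm)).trans
        ((hfX _).trans (congrArg (twinMap hT (AuxSet.empty Sys) Sx₀)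
          (hfrob l hl hlS P hP σ hσ)))).trans ?_
    exact ((congrArg Matrix.trace h2).trans
      (AddMonoidHom.map_trace (twinMap hT (AuxSet.empty Sys) Sx₀).toRingHom.toAddMonoidHom
        _).symm).symm
  · obtain ⟨b, rfl⟩ := hmap c
    rw [hfX, hkey, hker]
    obtain ⟨n, hn, hsq⟩ := exists_twinNu_mul_self hT hQ Sx
    rw [← mk_twinElem] at hsq
    have := (twinTop hT hQ Sx).forall_fixed_sub_iff (twinElem hT hQ Sx) (twinElem_ne hT hQ Sx)
      (G := {a | ZMod.unitsMap hd a ∈ (twinTop hT (AuxSet.empty Sys) Sx₀).H}) hn hsq b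
    rw [mk_twinElem] at this
    exact this

end Fermat.Agent.Root.Patched
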