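import Fermat.Agent.Root.Patched.TowerTwinAlg

/-!
# The top of the twin over the eigenvalues of inertia

A basis of the top of the twin for its structure map, and its eigenvectors for the character of
the twin are eigenvectors of the diamond operators.
-/

set_option autoImplicit false
set_option maxSynthPendingDepth 3

noncomputable section

namespace Fermat.Agent.Root.Patched

open IsLocalRing Fermat.Agent.Deformation Fermat.Agent.GammaH Fermat.Agent.TW Fermat.Agent.IharaTW
  Fermat.Agent.TW.EtaFree

local notation "ℚbar" => AlgebraicClosure ℚ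

attribute [local instance] testAlgebra

variable {O : Type} [CommRing O] [IsDomain O] [IsDiscreteValuationRing O]
  [IsAdicComplete (maximalIdeal O) O] [Finite (ResidueField O)] [CharZero O]
  {p : ℕ} [Fact p.Prime] {W : WeierstrassCurve ℤ} {D : ResidualData O p W}
  {Sys : LocalSystem O D.ρbar p} {St : StdData Sys D.ζ} {N : ℕ}
  {hT : TowerHyp D Sys St N} [NeZero (inputN₀ N ∅)] {E : Type} [Fintype E]
  {P : PointFamily Sys E} {B : BottomRings hT P} {Q : Finset ℕ} {hQ : AuxSet Sys Q}
  [NeZero (inputN₀ N Q)]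
  (S : StepData B hQ) (hdist : ∀ q ∈ Q, ∀ A : ValuationSubring ℚbar, A.LiesOverPrime q →
    ∀ σ : GQ, A.IsFrobeniusAt σ q → ∃ α β : ResidueField O, α ≠ β ∧
      (D.ρbar σ).charpoly = (Polynomial.X - Polynomial.C α) * (Polynomial.X - Polynomial.C β))
  {r : ℕ} (hr : Q.card = r)

/-- Places at the primes of the top of the twin. -/
def StepData.twinPlace (q : (twinAux hT hQ).Q) : LocalPlace D.ρbar p q.1 :=
  if h : q.1 ∈ Q then
    ((S.stageRings.setup hdist hr).pl ⟨q.1, mem_plainAux_Q hT hQ h⟩).toLocalPlace
  else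
    (mem_avoidSet.1 (mem_avoid_of_twin hT hQ q h)).choose_spec ▸
      avoidPlace St (mem_avoidSet.1 (mem_avoid_of_twin hT hQ q h)).choose

/-- The diamond data of the top for the compatible generators at these places. -/
abbrev StepData.topData : DeltaData (twinTop hT hQ ∅) (twinAux hT hQ).G (twinAux hT hQ).Q :=
  twinData hT hQ (S.twinPlace hdist hr)

omit [Fintype E] in
/-- The structure map is an eigen map. -/
theorem StepData.isEigenMap_psiTop :
    (S.topData hdist hr).IsEigenMap (S.psiTop hdist hr) := by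
  intro q
  by_cases h : q.1 ∈ Q
  · obtain ⟨η', h1, h2⟩ :=
      (((S.stageRings.setup hdist hr).pl ⟨q.1, mem_plainAux_Q hT hQ h⟩).eta_spec
        (twinTop hT hQ ∅).ring (twinTop hT hQ ∅).lift (TStage.detCyclotomic _)).2.2.1
    refine Or.inr ⟨(show (twinTop hT hQ ∅).C.Ring' from η'), ?_, ?_⟩
    · refine (congrArg (· + (show (twinTop hT hQ ∅).C.Ring' from η'))
        (S.psiTop_twinGen hdist hr q h)).trans (h1.trans ?_)
      show _ = ((twinTop hT hQ ∅).lift.M (S.twinPlace hdist hr q).τ).trace
      rw [StepData.twinPlace, dif_pos h]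
      rfl
    · exact (congrArg (· * (show (twinTop hT hQ ∅).C.Ring' from η'))
        (S.psiTop_twinGen hdist hr q h)).trans h2
  · exact Or.inl (S.psiTop_of_proj hdist hr (inputProj_twinGen_avoid hT hQ q h))

omit [Fintype E] in
theorem StepData.psiTop_ord (g : (twinAux hT hQ).G) : ∃ v, S.psiTop hdist hr g ^ p ^ v = 1 := by
  obtain ⟨k, hk⟩ := (twinAux hT hQ).isPGroup g
  exact ⟨k, by rw [← map_pow, hk, map_one]⟩

omit [Fintype E] in
/-- Twisting through the structure map. -/
theorem StepData.topAlg_strElem (s : MonoidAlgebra O (twinAux hT hQ).G) :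
    S.topAlg (strElem (S.zetaTop hdist hr) s) = strElem (S.psiTop hdist hr) s := by
  induction s using MonoidAlgebra.induction_on with
  | of y =>
    show S.topAlg (strElem (S.zetaTop hdist hr) (MonoidAlgebra.single y 1)) =
      strElem (S.psiTop hdist hr) (MonoidAlgebra.single y 1)
    rw [strElem_single, strElem_single, one_smul, one_smul]
    rfl
  | add s t hs ht => rw [map_add, map_add, map_add, hs, ht]
  | smul c s hs => rw [map_smul, map_smul, map_smul, hs]

omit [Fintype E] in
/-- **A basis of the top for the structure map.** -/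
theorem StepData.exists_topBasis : ∃ d : ℕ, Nonempty (Module.Basis (Fin d)
    (MonoidAlgebra O (twinAux hT hQ).G) (LatMod S.topAct (S.zetaTop hdist hr))) := by
  obtain ⟨d, b, -⟩ := exists_twinBasis hT hQ ∅
  obtain ⟨χ, h1, h2, h3⟩ := exists_twinDual hT hQ
  obtain ⟨b', -⟩ := exists_basis_natural (S.topData hdist hr) (twinAux hT hQ).isPGroup b
    (isPrimitiveRoot_zeta D) χ h1 h2 h3 (S.psiTop hdist hr) (S.isEigenMap_psiTop hdist hr)
    (S.psiTop_ord hdist hr) S.topAct (S.zetaTop hdist hr) fun g => rfl
  exact ⟨d, ⟨b'⟩⟩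

omit [CharZero O] [NeZero (inputN₀ N Q)] in
theorem inputChi_twinGen (q : (twinAux hT hQ).Q) (h : q.1 ∈ Q) :
    inputChi hT hQ ((twinAux hT hQ).cls (twinGen hT hQ q)) = 1 := by
  rw [inputChi_eq, inputRestr_twinGen hT hQ q h, map_one]

omit [Fintype E] in
/-- **Eigenvectors for the character are eigenvectors of the diamond operators.** -/
theorem StepData.delta_eigen [IsLocalRing (MonoidAlgebra O (twinAux hT hQ).G)] {d : ℕ}
    (b : Module.Basis (Fin d) (MonoidAlgebra O (twinAux hT hQ).G)
      (LatMod S.topAct (S.zetaTop hdist hr)))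
    (x : LinearMap.range (twinTop hT hQ ∅).C.E)
    (hx : ∀ g, S.topAct (S.zetaTop hdist hr g) x = (inputChi hT hQ g : O) • x)
    (g : (twinAux hT hQ).G) :
    (twinTop hT hQ ∅).C.actR ((twinDown hT hQ ∅).delta g) x = (inputChi hT hQ g : O) • x := by
  set χ : (twinAux hT hQ).G →* O := (Units.coeHom O).comp (inputChi hT hQ)
  obtain ⟨w, hw⟩ := exists_eq_chiNu_of_eigen S.topAct (S.zetaTop hdist hr) b χ x hx
  have hnu : strElem (S.psiTop hdist hr) (chiNu χ) = (S.topData hdist hr).nu χ :=
    (S.topData hdist hr).strElem_nu_of_eigen (S.isEigenMap_psiTop hdist hr) fun j => by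
      by_cases h : j.1 ∈ Q
      · exact Or.inr (by
          show ((inputChi hT hQ ((twinAux hT hQ).cls (twinGen hT hQ j))) : O) = 1
          rw [inputChi_twinGen j h, Units.val_one])
      · exact Or.inl (S.psiTop_of_proj hdist hr (inputProj_twinGen_avoid hT hQ j h))
  have hmul : (twinDown hT hQ ∅).delta g * (S.topData hdist hr).nu χ =
      χ g • (S.topData hdist hr).nu χ := by
    rw [DeltaData.nu, show (S.topData hdist hr).δ = (twinDown hT hQ ∅).delta from rfl,
      show (twinDown hT hQ ∅).delta g =
        strElem (twinDown hT hQ ∅).delta (MonoidAlgebra.single g (1 : O)) by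
          rw [strElem_single, one_smul],
      ← map_mul, single_mul_chiNu, map_smul]
  have hx' : x = (twinTop hT hQ ∅).C.actR ((S.topData hdist hr).nu χ) w := by
    rw [← hnu, ← S.topAlg_strElem hdist hr]
    exact hw
  rw [hx', ← Module.End.mul_apply, ← map_mul, hmul, map_smul]
  rfl

end Fermat.Agent.Root.Patched
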